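import Mathlib
import Fermat.Agent.S18.ModelAll
import Fermat.Agent.S18.IgusaStmt
import Fermat.Agent.S18.Nor
import Fermat.Agent.S18.QExpInf
import Fermat.Agent.S18.QExpTransfer

/-!
# S34, block [Model2], leaf [Branch] : a branch of the special fibre at level `N` is the
special fibre at level `M`

Setting: `q ∤ M`, `A` a valuation ring of `ℚ̄` over `q`, `K` a base with `BaseFacts q A K`,
`k` the residue field of `A`.  `R_M ∈ {R0 M q A K, Rinf M q A K}` is a chart of the level-`M`
model and `redRing M A K R_M = ρ_M(R_M) ⊆ k((Q))` its Gauss reduction.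

* (B1) `mem_redRing_R0`, `mem_redRing_Rinf` : an element of the residue field of the level-`M`
  Gauss valuation ring which is integral over `ρ_M(R_M)` lies in `ρ_M(R_M)`
  ([QExp] at level `M` : the residue field is `Frac ρ_M(R_M)`; [Nor] at level `M` :
  `ρ_M(R_M) ≅ R_M / π` is integrally closed).
* (B2) `exists_level` : if every Gauss reduction of an element of `F_K(N)` is the reduction of an
  element of `F_K(M)` (`hf1`, "residue degree one"), then every element of a chart
  `chart N A K t` of level `N` whose coordinate `t` has reduction integral over `ρ_M(R_M)` is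
  congruent, modulo the Gauss maximal ideal, to an element of `R_M`.
* (B3) `exists_principal` (abstract) : the maximal ideal of a branch at a closed point is
  principal, generated by the pull-back of a level-`M` uniformizer.
-/

set_option autoImplicit false

noncomputable section

namespace Fermat.Agent.S34.Branch

open ModularCurve HahnSeries Fermat.Agent.S18 Fermat.Agent.S18.Arith Fermat.Agent.S18.ModelPlan

/-! ### Abstract algebra -/

section Abstract

/-- An element of a field which is integral over an integrally closed subring `D` and a quotient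
of two elements of `D` lies in `D`. -/
theorem mem_of_isIntegral_of_mul_eq {F : Type*} [Field F] (D : Subring F) [IsIntegrallyClosed D]
    {y : F} (hint : IsIntegral D y) {a d : F} (ha : a ∈ D) (hd : d ∈ D) (hd0 : d ≠ 0)
    (h : y * d = a) : y ∈ D := by
  let φ : FractionRing D →ₐ[D] F :=
    IsFractionRing.liftAlgHom (g := Algebra.ofId D F) (Subtype.val_injective)
  have hφinj : Function.Injective φ := φ.toRingHom.injective
  let y' : FractionRing D := algebraMap D (FractionRing D) ⟨a, ha⟩ /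
    algebraMap D (FractionRing D) ⟨d, hd⟩
  have hd' : (⟨d, hd⟩ : D) ≠ 0 := fun h0 => hd0 (congrArg Subtype.val h0)
  have hφy : φ y' = y := by
    have h1 : φ (algebraMap D (FractionRing D) ⟨a, ha⟩) = a := φ.commutes _
    have h2 : φ (algebraMap D (FractionRing D) ⟨d, hd⟩) = d := φ.commutes _
    rw [map_div₀, h1, h2, ← h, mul_div_cancel_right₀ _ hd0]
  have hint' : IsIntegral D y' := by
    rw [← isIntegral_algHom_iff φ hφinj, hφy]
    exact hint
  obtain ⟨r, hr⟩ := IsIntegrallyClosed.isIntegral_iff.mp hint'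
  have : y = r := by
    rw [← hφy, ← hr]
    exact φ.commutes r
  rw [this]
  exact r.2

/-- (B3) **Principal maximal ideal on a branch.**  `ρ : R → F` is the reduction along a branch,
`i : S → R` the pull-back from the lower level, every reduction comes from `S`, and `S` has the
Igusa shape at the closed point below `n`.  Then `n` is generated, modulo `ker ρ` and locally at
`n`, by the pull-back of one element of `S`. -/
theorem exists_principal {R S F : Type*} [CommRing R] [CommRing S] [CommRing F]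
    (i : S →+* R) (ρ : R →+* F) (n : Ideal R) [n.IsPrime] (hker : RingHom.ker ρ ≤ n)
    (hsurj : ∀ x : R, ∃ s : S, ρ x = ρ (i s))
    (π : S) (hπ : ρ (i π) = 0)
    (hI : ∃ t ∈ n.comap i, ∀ x ∈ n.comap i, ∃ c : S, c ∉ n.comap i ∧
      c * x ∈ Ideal.span {π, t}) :
    ∃ t : S, i t ∈ n ∧ ∀ x ∈ n, ∃ c : R, c ∉ n ∧ ∃ b : R, ρ (c * x) = ρ (b * i t) := by
  obtain ⟨t, ht, hI⟩ := hI
  refine ⟨t, ht, fun x hx => ?_⟩
  obtain ⟨s, hs⟩ := hsurj x
  have hsn : s ∈ n.comap i := by
    rw [Ideal.mem_comap]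
    have h1 : i s - x ∈ RingHom.ker ρ := by
      rw [RingHom.mem_ker, map_sub, hs, sub_self]
    have h2 : i s = (i s - x) + x := by ring
    rw [h2]
    exact n.add_mem (hker h1) hx
  obtain ⟨c, hc, hcs⟩ := hI s hsn
  obtain ⟨a, b, hab⟩ := Ideal.mem_span_pair.mp hcs
  refine ⟨i c, hc, i b, ?_⟩
  rw [map_mul, hs, ← map_mul, ← map_mul, ← hab, map_add, map_add, map_mul i a π, map_mul ρ,
    hπ, mul_zero, zero_add, map_mul i b t]

/-- With the same data, the residue field at `n` is that of the lower level: every element of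
`R` is congruent modulo `n` to the pull-back of an element of `S`. -/
theorem exists_sub_mem {R S F : Type*} [CommRing R] [CommRing S] [CommRing F]
    (i : S →+* R) (ρ : R →+* F) (n : Ideal R) (hker : RingHom.ker ρ ≤ n)
    (hsurj : ∀ x : R, ∃ s : S, ρ x = ρ (i s)) (x : R) : ∃ s : S, x - i s ∈ n := by
  obtain ⟨s, hs⟩ := hsurj x
  refine ⟨s, hker ?_⟩
  rw [RingHom.mem_ker, map_sub, hs, sub_self]

/-- The contraction of a maximal ideal of the branch to the lower level is maximal. -/
theorem isMaximal_comap {R S F : Type*} [CommRing R] [CommRing S] [CommRing F]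
    (i : S →+* R) (ρ : R →+* F) (n : Ideal R) [hn : n.IsMaximal] (hker : RingHom.ker ρ ≤ n)
    (hsurj : ∀ x : R, ∃ s : S, ρ x = ρ (i s)) : (n.comap i).IsMaximal := by
  have hsurj' : Function.Surjective ((Ideal.Quotient.mk n).comp i) := by
    intro z
    obtain ⟨x, rfl⟩ := Ideal.Quotient.mk_surjective z
    obtain ⟨s, hs⟩ := exists_sub_mem i ρ n hker hsurj x
    refine ⟨s, ?_⟩
    rw [RingHom.comp_apply]
    exact (Ideal.Quotient.eq.mpr hs).symm
  have h1 : n.comap i = RingHom.ker ((Ideal.Quotient.mk n).comp i) := by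
    ext s
    rw [Ideal.mem_comap, RingHom.mem_ker, RingHom.comp_apply, Ideal.Quotient.eq_zero_iff_mem]
  rw [h1]
  let _ : Field (R ⧸ n) := Ideal.Quotient.field n
  exact RingHom.ker_isMaximal_of_surjective _ hsurj'

end Abstract

/-! ### The reduction ring of a level-`M` chart -/

section RedRing

variable (M : ℕ) (A : ValuationSubring Qb) (K : IntermediateField ℚ Qb)

/-- The Gauss reduction `ρ_M(R) ⊆ k((Q))` of a subalgebra `R` of `F_K(M)`:
`{y | ∃ x ∈ R, GRel A x y}`. -/
def redRing (R : Subalgebra (OK A K) (FK M K)) :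
    Subring (LaurentSeries (IsLocalRing.ResidueField A)) where
  carrier := {y | ∃ x ∈ R, GRel A ((x : FK M K) : LaurentSeries Qb) y}
  mul_mem' := by
    rintro a b ⟨x, hx, hxa⟩ ⟨x', hx', hxb⟩
    exact ⟨x * x', R.mul_mem hx hx', (GRel.gRelStatement A).mul _ _ _ _ hxa hxb⟩
  one_mem' := ⟨1, R.one_mem, ModelRed.gRel_one (GRel.gRelStatement A)⟩
  add_mem' := by
    rintro a b ⟨x, hx, hxa⟩ ⟨x', hx', hxb⟩
    exact ⟨x + x', R.add_mem hx hx', (GRel.gRelStatement A).add _ _ _ _ hxa hxb⟩
  zero_mem' := ⟨0, R.zero_mem, ModelRed.gRel_zero (GRel.gRelStatement A)⟩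
  neg_mem' := by
    rintro a ⟨x, hx, hxa⟩
    exact ⟨-x, R.neg_mem hx, (GRel.gRelStatement A).neg _ _ hxa⟩

variable {M A K}

theorem mem_redRing_iff {R : Subalgebra (OK A K) (FK M K)}
    {y : LaurentSeries (IsLocalRing.ResidueField A)} :
    y ∈ redRing M A K R ↔ ∃ x ∈ R, GRel A ((x : FK M K) : LaurentSeries Qb) y := Iff.rfl

/-- The reduction ring is the range of any reduction map. -/
theorem redRing_eq_range (R : Subalgebra (OK A K) (FK M K))
    (ρ : R →+* LaurentSeries (IsLocalRing.ResidueField A))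
    (hρ : ∀ x : R, GRel A ((x : FK M K) : LaurentSeries Qb) (ρ x)) :
    redRing M A K R = ρ.range := by
  ext y
  rw [mem_redRing_iff, RingHom.mem_range]
  constructor
  · rintro ⟨x, hx, hxy⟩
    exact ⟨⟨x, hx⟩, (GRel.gRelStatement A).unique _ _ _ (hρ ⟨x, hx⟩) hxy⟩
  · rintro ⟨x, rfl⟩
    exact ⟨x.1, x.2, hρ x⟩

/-- Constants lie in the reduction ring. -/
theorem const_mem_redRing (R : Subalgebra (OK A K) (FK M K)) (c : OK A K) :
    (C (resO A K c) : LaurentSeries (IsLocalRing.ResidueField A)) ∈ redRing M A K R :=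
  ⟨algebraMap (OK A K) (FK M K) c, R.algebraMap_mem c,
    ModelRed.gRel_const K (GRel.gRelStatement A) c⟩

/-- [Nor] : the reduction ring of a chart with `ChartFacts` and the Igusa property is integrally
closed. -/
theorem isIntegrallyClosed_redRing (hdvr : IsDiscreteValuationRing (OK A K))
    (R : Subalgebra (OK A K) (FK M K)) (t : FK M K) (hC : ChartFacts M A K R t)
    (hI : IgusaAt M A K R) : IsIntegrallyClosed (redRing M A K R) := by
  have := hdvr
  obtain ⟨ρ, hρ, hker, -⟩ := hC.red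
  obtain ⟨π, hπ⟩ := IsDiscreteValuationRing.exists_irreducible (OK A K)
  obtain ⟨hprime, hic⟩ := Nor.norStatement M A K hdvr R t hC hI π hπ
  have hker' : Ideal.span {algebraMap (OK A K) R π} = RingHom.ker ρ := by
    rw [hker, Nor.piIdeal_eq_span R hπ]
  let e : (R ⧸ Ideal.span {algebraMap (OK A K) R π}) ≃+* ρ.range :=
    (Ideal.quotEquivOfEq hker').trans (RingHom.quotientKerEquivRange ρ)
  rw [redRing_eq_range R ρ hρ]
  exact @IsIntegrallyClosed.of_equiv _ _ _ _ e hic

end RedRing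

/-! ### (B1) : integral elements of the residue field lie in the reduction ring -/

section B1

variable (M : ℕ) [NeZero M] (q : ℕ) [Fact q.Prime] {A : ValuationSubring Qb}
  {K : IntermediateField ℚ Qb}

/-- [QExp] at level `M` : every element of the residue field of the level-`M` Gauss ring is a
quotient of two elements of `ρ_M(R0)`. -/
theorem exists_frac_R0 (hqM : ¬ q ∣ M) (hA : A.LiesOverPrime q) (hB : BaseFacts q A K)
    {y : LaurentSeries (IsLocalRing.ResidueField A)}
    (hy : ∃ x' : FK M K, GRel A ((x' : FK M K) : LaurentSeries Qb) y) :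
    ∃ a ∈ R0 M q A K, ∃ d ∈ R0 M q A K, ∃ yd : LaurentSeries (IsLocalRing.ResidueField A),
      yd ≠ 0 ∧ GRel A ((d : FK M K) : LaurentSeries Qb) yd ∧
      GRel A ((a : FK M K) : LaurentSeries Qb) (y * yd) := by
  have hG := GRel.gRelStatement A
  obtain ⟨x', hx'⟩ := hy
  obtain ⟨⟨c, hc, hcx⟩, -⟩ := QExp.qExpStatement M q GRel.gRelStatement GRelNF.gRelNFStatement
    (ModelBasic.basicStatement M q) hqM A hA K hB x' y hx'
  have hcR : Polynomial.aeval (jK M K) c ∈ R0 M q A K := by
    change IsIntegral (Algebra.adjoin (OK A K) {jK M K}) (Polynomial.aeval (jK M K) c)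
    exact isIntegral_algebraMap
      (x := (⟨Polynomial.aeval (jK M K) c, Polynomial.aeval_mem_adjoin_singleton _ _⟩ :
        Algebra.adjoin (OK A K) {jK M K}))
  have hd : GRel A ((Polynomial.aeval (jK M K) c : FK M K) : LaurentSeries Qb)
      (QExpDefs.evbar A K c) := by
    rw [QExpTransfer.coe_aeval_jK]
    exact QExpDefs.gRel_ev hG c
  have hd0 : QExpDefs.evbar A K c ≠ 0 := fun h => hc ((QExpDefs.evbar_eq_zero_iff A K c).mp h)
  refine ⟨_, hcx, _, hcR, _, hd0, hd, ?_⟩
  have h := hG.mul _ _ _ _ hd hx'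
  rw [mul_comm y]
  exact h

/-- (B1) for the chart `R0`. -/
theorem mem_redRing_R0 (hqM : ¬ q ∣ M) (hA : A.LiesOverPrime q) (hB : BaseFacts q A K)
    {y : LaurentSeries (IsLocalRing.ResidueField A)}
    (hy : ∃ x' : FK M K, GRel A ((x' : FK M K) : LaurentSeries Qb) y)
    (hint : IsIntegral (redRing M A K (R0 M q A K)) y) : y ∈ redRing M A K (R0 M q A K) := by
  have hM := ModelAll.modelStatement M q hqM A hA K hB
  have hI := IgusaStmt.igusaStatement M q hqM A hA K hB hM
  have := isIntegrallyClosed_redRing hB.dvr _ _ hM.c0 hI.1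
  obtain ⟨a, ha, d, hd, yd, hyd0, hdy, hay⟩ := exists_frac_R0 M q hqM hA hB hy
  exact mem_of_isIntegral_of_mul_eq _ hint ⟨a, ha, hay⟩ ⟨d, hd, hdy⟩ hyd0 rfl

/-- The same fractions over the chart at infinity (by gluing). -/
theorem exists_frac_Rinf (hqM : ¬ q ∣ M) (hA : A.LiesOverPrime q) (hB : BaseFacts q A K)
    {y : LaurentSeries (IsLocalRing.ResidueField A)}
    (hy : ∃ x' : FK M K, GRel A ((x' : FK M K) : LaurentSeries Qb) y) :
    ∃ a ∈ Rinf M q A K, ∃ d ∈ Rinf M q A K, ∃ yd : LaurentSeries (IsLocalRing.ResidueField A),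
      yd ≠ 0 ∧ GRel A ((d : FK M K) : LaurentSeries Qb) yd ∧
      GRel A ((a : FK M K) : LaurentSeries Qb) (y * yd) := by
  have hG := GRel.gRelStatement A
  have hM := ModelAll.modelStatement M q hqM A hA K hB
  obtain ⟨a, ha, d, hd, yd, hyd0, hdy, hay⟩ := exists_frac_R0 M q hqM hA hB hy
  obtain ⟨n, hn⟩ := hM.glue0 a ha
  obtain ⟨n', hn'⟩ := hM.glue0 d hd
  have hjinv : (jK M K)⁻¹ ∈ Rinf M q A K := hM.cInf.t_mem
  -- the reduction of `j⁻¹`
  have hjb : jqModC (IsLocalRing.ResidueField A) ≠ 0 := by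
    intro h
    have h1 : QExpDefs.evbar A K Polynomial.X = 0 := by
      rw [QExpDefs.evbar_apply, Polynomial.eval₂_X, h]
    have h2 := (QExpDefs.evbar_eq_zero_iff A K _).mp h1
    rw [Polynomial.map_X] at h2
    exact Polynomial.X_ne_zero h2
  have hj : GRel A (((jK M K)⁻¹ : FK M K) : LaurentSeries Qb)
      (jqModC (IsLocalRing.ResidueField A))⁻¹ :=
    hG.inv _ _ (QExpDefs.gRel_jΩ hG) hjb
  have hjp : ∀ i : ℕ, GRel A ((((jK M K)⁻¹ ^ i : FK M K)) : LaurentSeries Qb)
      ((jqModC (IsLocalRing.ResidueField A))⁻¹ ^ i) := fun i => ModelRed.gRel_pow hG hj i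
  refine ⟨a * (jK M K)⁻¹ ^ n * (jK M K)⁻¹ ^ n', ?_, d * (jK M K)⁻¹ ^ n' * (jK M K)⁻¹ ^ n, ?_,
    yd * (jqModC (IsLocalRing.ResidueField A))⁻¹ ^ n' *
      (jqModC (IsLocalRing.ResidueField A))⁻¹ ^ n, ?_, ?_, ?_⟩
  · exact (Rinf M q A K).mul_mem hn ((Rinf M q A K).pow_mem hjinv n')
  · exact (Rinf M q A K).mul_mem hn' ((Rinf M q A K).pow_mem hjinv n)
  · exact mul_ne_zero (mul_ne_zero hyd0 (pow_ne_zero _ (inv_ne_zero hjb)))
      (pow_ne_zero _ (inv_ne_zero hjb))
  · exact hG.mul _ _ _ _ (hG.mul _ _ _ _ hdy (hjp n')) (hjp n)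
  · have h := hG.mul _ _ _ _ (hG.mul _ _ _ _ hay (hjp n)) (hjp n')
    have e : y * (yd * (jqModC (IsLocalRing.ResidueField A))⁻¹ ^ n' *
        (jqModC (IsLocalRing.ResidueField A))⁻¹ ^ n) =
        y * yd * (jqModC (IsLocalRing.ResidueField A))⁻¹ ^ n *
        (jqModC (IsLocalRing.ResidueField A))⁻¹ ^ n' := by ring
    rw [e]
    exact h

/-- (B1) for the chart `Rinf`. -/
theorem mem_redRing_Rinf (hqM : ¬ q ∣ M) (hA : A.LiesOverPrime q) (hB : BaseFacts q A K)
    {y : LaurentSeries (IsLocalRing.ResidueField A)}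
    (hy : ∃ x' : FK M K, GRel A ((x' : FK M K) : LaurentSeries Qb) y)
    (hint : IsIntegral (redRing M A K (Rinf M q A K)) y) :
    y ∈ redRing M A K (Rinf M q A K) := by
  have hM := ModelAll.modelStatement M q hqM A hA K hB
  have hI := IgusaStmt.igusaStatement M q hqM A hA K hB hM
  have := isIntegrallyClosed_redRing hB.dvr _ _ hM.cInf hI.2
  obtain ⟨a, ha, d, hd, yd, hyd0, hdy, hay⟩ := exists_frac_Rinf M q hqM hA hB hy
  exact mem_of_isIntegral_of_mul_eq _ hint ⟨a, ha, hay⟩ ⟨d, hd, hdy⟩ hyd0 rfl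

end B1

/-! ### (B2) : the reduction of a level-`N` chart lies in the reduction of the level-`M` chart -/

section B2

variable (M : ℕ) {A : ValuationSubring Qb} {K : IntermediateField ℚ Qb}

/-- The Gauss dichotomy on `F_K(N)`, for every level `N` (normal form [GRel-NF]). -/
theorem dich_level (N : ℕ) [NeZero N] (hdvr : IsDiscreteValuationRing (OK A K)) :
    ∀ x : FK N K, x ≠ 0 → (∃ y, GRel A ((x : FK N K) : LaurentSeries Qb) y) ∨
      GRel A (((x : FK N K) : LaurentSeries Qb))⁻¹ 0 := by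
  have := hdvr
  have : Fact (Nat.Prime 2) := ⟨Nat.prime_two⟩
  obtain ⟨π, hπ⟩ := IsDiscreteValuationRing.exists_irreducible (OK A K)
  intro x hx
  exact ModelRed.dich (GRel.gRelStatement A) π hπ.not_isUnit hπ.ne_zero _
    (ModelRed.exists_nf N 2 GRelNF.gRelNFStatement (ModelBasic.basicStatement N 2 A K) hdvr π hπ
      x hx)

/-- (B2) **`ρ₁(chart) ⊆ ρ_M(R_M)`.**  `RM` is a subalgebra of `F_K(M)` whose reduction ring
contains every integral element of the level-`M` residue field (`hB1`, see `mem_redRing_R0`,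
`mem_redRing_Rinf`); `hf1` says that the Gauss residue field of `F_K(N)` is that of `F_K(M)`;
`t` is a coordinate whose reduction is integral over the reduction ring.  Then every element of
`chart N A K t` is congruent to an element of `RM` modulo the Gauss maximal ideal. -/
theorem exists_level (N : ℕ) [NeZero N] (hdvr : IsDiscreteValuationRing (OK A K))
    (RM : Subalgebra (OK A K) (FK M K))
    (hB1 : ∀ y : LaurentSeries (IsLocalRing.ResidueField A),
      (∃ x' : FK M K, GRel A ((x' : FK M K) : LaurentSeries Qb) y) →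
      IsIntegral (redRing M A K RM) y → y ∈ redRing M A K RM)
    (hf1 : ∀ (x : FK N K) (y : LaurentSeries (IsLocalRing.ResidueField A)),
      GRel A ((x : FK N K) : LaurentSeries Qb) y →
      ∃ x' : FK M K, GRel A ((x' : FK M K) : LaurentSeries Qb) y)
    (t : FK N K)
    (ht : ∃ yt, GRel A ((t : FK N K) : LaurentSeries Qb) yt ∧ IsIntegral (redRing M A K RM) yt)
    (x : FK N K) (hx : x ∈ chart N A K t) :
    ∃ x' ∈ RM, GRel A (((x : FK N K) : LaurentSeries Qb) - ((x' : FK M K) : LaurentSeries Qb))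
      0 := by
  have hG := GRel.gRelStatement A
  obtain ⟨yt, hyt, hytint⟩ := ht
  have hd := dich_level N hdvr
  obtain ⟨ρ, hρ⟩ := ModelRed.exists_rho N hG (chart N A K t)
    (fun z hz => ModelRed.exists_gRel_of_mem_chart N hG hd t ⟨yt, hyt⟩ z hz)
  have hBR : Algebra.adjoin (OK A K) {t} ≤ chart N A K t := by
    intro z hz
    exact isIntegral_algebraMap (x := (⟨z, hz⟩ : Algebra.adjoin (OK A K) {t}))
  -- reductions of elements of `O[t]` are integral over the reduction ring
  have hBint : ∀ z ∈ Algebra.adjoin (OK A K) {t}, ∃ y',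
      GRel A ((z : FK N K) : LaurentSeries Qb) y' ∧ IsIntegral (redRing M A K RM) y' := by
    intro z hz
    induction hz using Algebra.adjoin_induction with
    | mem z hz =>
      rw [Set.mem_singleton_iff] at hz
      rw [hz]
      exact ⟨yt, hyt, hytint⟩
    | algebraMap c =>
      exact ⟨_, ModelRed.gRel_const K hG c, isIntegral_algebraMap
        (x := (⟨_, const_mem_redRing RM c⟩ : redRing M A K RM))⟩
    | add a b _ _ ha hb =>
      obtain ⟨ya, h1, h2⟩ := ha
      obtain ⟨yb, h3, h4⟩ := hb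
      exact ⟨ya + yb, hG.add _ _ _ _ h1 h3, h2.add h4⟩
    | mul a b _ _ ha hb =>
      obtain ⟨ya, h1, h2⟩ := ha
      obtain ⟨yb, h3, h4⟩ := hb
      exact ⟨ya * yb, hG.mul _ _ _ _ h1 h3, h2.mul h4⟩
  obtain ⟨p, hp, hpx⟩ := hx
  let f : Algebra.adjoin (OK A K) {t} →+* chart N A K t := (Subalgebra.inclusion hBR).toRingHom
  have h0 : Polynomial.eval₂ f ⟨x, ⟨p, hp, hpx⟩⟩ p = 0 := by
    apply Subtype.val_injective
    have h := Polynomial.hom_eval₂ p f (chart N A K t).val.toRingHom ⟨x, ⟨p, hp, hpx⟩⟩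
    exact h.trans hpx
  have h1 : Polynomial.eval₂ (ρ.comp f) (ρ ⟨x, ⟨p, hp, hpx⟩⟩) p = 0 := by
    rw [← Polynomial.hom_eval₂, h0, map_zero]
  have hcoef : ∀ b : Algebra.adjoin (OK A K) {t}, IsIntegral (redRing M A K RM) (ρ (f b)) := by
    intro b
    obtain ⟨y', h1', h2'⟩ := hBint b.1 b.2
    have e : ρ (f b) = y' := hG.unique _ _ _ (hρ (f b)) h1'
    rw [e]
    exact h2'
  have hyint : IsIntegral (redRing M A K RM) (ρ ⟨x, ⟨p, hp, hpx⟩⟩) := by
    let φ : Algebra.adjoin (OK A K) {t} →+*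
        integralClosure (redRing M A K RM) (LaurentSeries (IsLocalRing.ResidueField A)) :=
      (ρ.comp f).codRestrict _ (fun b => hcoef b)
    have hφ : (algebraMap (integralClosure (redRing M A K RM)
        (LaurentSeries (IsLocalRing.ResidueField A)))
        (LaurentSeries (IsLocalRing.ResidueField A))).comp φ = ρ.comp f := by
      ext b : 1
      rfl
    have h2 : IsIntegral (integralClosure (redRing M A K RM)
        (LaurentSeries (IsLocalRing.ResidueField A))) (ρ ⟨x, ⟨p, hp, hpx⟩⟩) :=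
      ⟨p.map φ, hp.map φ, by rw [Polynomial.eval₂_map, hφ]; exact h1⟩
    exact isIntegral_trans _ h2
  obtain ⟨x'', hx''⟩ := hf1 x _ (hρ ⟨x, ⟨p, hp, hpx⟩⟩)
  obtain ⟨x', hx', hxy⟩ := hB1 _ ⟨x'', hx''⟩ hyint
  refine ⟨x', hx', ?_⟩
  have h := hG.add _ _ _ _ (hρ ⟨x, ⟨p, hp, hpx⟩⟩) (hG.neg _ _ hxy)
  rwa [add_neg_cancel, ← sub_eq_add_neg] at h

variable [NeZero M] (q : ℕ) [Fact q.Prime]

/-- (B2) for the charts `R0` : `ρ₁(R0(N)) ⊆ ρ_M(R0(M))`. -/
theorem exists_level_R0 (hqM : ¬ q ∣ M) (hA : A.LiesOverPrime q) (hB : BaseFacts q A K)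
    (N : ℕ) [NeZero N]
    (hf1 : ∀ (x : FK N K) (y : LaurentSeries (IsLocalRing.ResidueField A)),
      GRel A ((x : FK N K) : LaurentSeries Qb) y →
      ∃ x' : FK M K, GRel A ((x' : FK M K) : LaurentSeries Qb) y)
    (x : FK N K) (hx : x ∈ R0 N q A K) :
    ∃ x' ∈ R0 M q A K,
      GRel A (((x : FK N K) : LaurentSeries Qb) - ((x' : FK M K) : LaurentSeries Qb)) 0 := by
  have hG := GRel.gRelStatement A
  have hM := ModelAll.modelStatement M q hqM A hA K hB
  refine exists_level M N hB.dvr (R0 M q A K)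
    (fun y hy hint => mem_redRing_R0 M q hqM hA hB hy hint) hf1 (jK N K)
    ⟨jqModC (IsLocalRing.ResidueField A), QExpDefs.gRel_jΩ hG, ?_⟩ x hx
  exact isIntegral_algebraMap (x := (⟨_, ⟨jK M K, hM.c0.t_mem, QExpDefs.gRel_jΩ hG⟩⟩ :
    redRing M A K (R0 M q A K)))

/-- (B2) for the charts `Rinf` : `ρ₁(Rinf(N)) ⊆ ρ_M(Rinf(M))`. -/
theorem exists_level_Rinf (hqM : ¬ q ∣ M) (hA : A.LiesOverPrime q) (hB : BaseFacts q A K)
    (N : ℕ) [NeZero N]
    (hf1 : ∀ (x : FK N K) (y : LaurentSeries (IsLocalRing.ResidueField A)),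
      GRel A ((x : FK N K) : LaurentSeries Qb) y →
      ∃ x' : FK M K, GRel A ((x' : FK M K) : LaurentSeries Qb) y)
    (x : FK N K) (hx : x ∈ Rinf N q A K) :
    ∃ x' ∈ Rinf M q A K,
      GRel A (((x : FK N K) : LaurentSeries Qb) - ((x' : FK M K) : LaurentSeries Qb)) 0 := by
  have hG := GRel.gRelStatement A
  have hM := ModelAll.modelStatement M q hqM A hA K hB
  have hjb : jqModC (IsLocalRing.ResidueField A) ≠ 0 := by
    intro h
    have h1 : QExpDefs.evbar A K Polynomial.X = 0 := by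
      rw [QExpDefs.evbar_apply, Polynomial.eval₂_X, h]
    have h2 := (QExpDefs.evbar_eq_zero_iff A K _).mp h1
    rw [Polynomial.map_X] at h2
    exact Polynomial.X_ne_zero h2
  have hjN : GRel A (((jK N K)⁻¹ : FK N K) : LaurentSeries Qb)
      (jqModC (IsLocalRing.ResidueField A))⁻¹ := hG.inv _ _ (QExpDefs.gRel_jΩ hG) hjb
  have hjM : GRel A (((jK M K)⁻¹ : FK M K) : LaurentSeries Qb)
      (jqModC (IsLocalRing.ResidueField A))⁻¹ := hG.inv _ _ (QExpDefs.gRel_jΩ hG) hjb
  refine exists_level M N hB.dvr (Rinf M q A K)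
    (fun y hy hint => mem_redRing_Rinf M q hqM hA hB hy hint) hf1 (jK N K)⁻¹
    ⟨(jqModC (IsLocalRing.ResidueField A))⁻¹, hjN, ?_⟩ x hx
  exact isIntegral_algebraMap (x := (⟨_, ⟨(jK M K)⁻¹, hM.cInf.t_mem, hjM⟩⟩ :
    redRing M A K (Rinf M q A K)))

end B2

end Fermat.Agent.S34.Branch
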