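/-
S34 — GaussV.lean (helper93), [MODULAR] block, leaf [GaussV].

The Gauss valuation ring `V1` of `F_K = FK N K` for EVERY level `N` (no hypothesis `ℓ ∤ N`):
`V1 = {x ∈ F_K | ∃ y, GRel A x y}` (Gauss-integral `q`-expansions), its reduction map
`red1 : V1 → k((q))` with kernel `π V1`, the charts inside it, the `V`-axioms of
`S34/Cech2Plan` (`rootV`, `invV`, `one_not`), the normal form `x = π ^ γ · unit`, and the
transport of all this along a ring automorphism `w` of `F_K` fixing the constants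
(`V2 := V1.comap w`, in the application `w` = Atkin–Lehner), including the semilocal ring
`V12 = V1 ⊓ V2`.

Everything is assembled from `S18/ModelRed` (`gaussV`, `dich`, `gRel_div_pi`, `exists_nf`),
`S18/GRel`, `S18/GRelNF`, `S18/ModelBasic`, none of which uses `ℓ ∤ N`.
-/
import Mathlib
import Fermat.Agent.S18.ModelRed
import Fermat.Agent.S18.GRel
import Fermat.Agent.S18.GRelNF
import Fermat.Agent.S18.ModelBasic

set_option autoImplicit false

noncomputable section

namespace Fermat.Agent.S34.GaussV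

open ModularCurve ModularCurve.IgusaScheme AlgebraicCurve HahnSeries Fermat.Agent.S18.Arith
open Fermat.Agent.S18.ModelPlan Fermat.Agent.S18.ModelRed

/-! ### Generic facts on valuation subrings -/

/-- A valuation subring is closed under `m`-th roots (`m ≠ 0`). -/
theorem root_mem {F : Type*} [Field F] (V : ValuationSubring F) {m : ℕ} (hm : m ≠ 0) {x : F}
    (h : x ^ m ∈ V) : x ∈ V := by
  rcases V.mem_or_inv_mem x with hx | hx
  · exact hx
  · by_cases hx0 : x = 0
    · rw [hx0]; exact V.zero_mem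
    obtain ⟨k, rfl⟩ := Nat.exists_eq_succ_of_ne_zero hm
    have : x = x ^ (k + 1) * x⁻¹ ^ k := by
      rw [pow_succ, inv_pow, mul_assoc, mul_comm x, ← mul_assoc,
        mul_inv_cancel₀ (pow_ne_zero k hx0), one_mul]
    rw [this]
    exact V.mul_mem _ _ h (V.pow_mem hx k)

variable (N : ℕ) [NeZero N] (A : ValuationSubring Qb) (K : IntermediateField ℚ Qb)

/-! ### Coercions of constants -/

omit [NeZero N] in
/-- The `q`-expansion of a constant. -/
theorem coe_algebraMap (c : OK A K) :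
    ((algebraMap (OK A K) (FK N K) c : FK N K) : LaurentSeries Qb) = C (incO A K c) := rfl

omit [NeZero N] in
theorem algebraMap_ne_zero {π : OK A K} (hπ0 : π ≠ 0) : algebraMap (OK A K) (FK N K) π ≠ 0 := by
  intro h
  apply C_incO_ne_zero π hπ0
  exact congrArg Subtype.val h

/-! ### The Gauss valuation ring `V1` -/

/-- Normal form of a nonzero element of `F_K` (any level). -/
theorem exists_nf_FK (hdvr : IsDiscreteValuationRing (OK A K)) (π : OK A K) (hπ : Irreducible π)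
    (x : FK N K) (hx : x ≠ 0) :
    ∃ (γ : ℤ) (y : LaurentSeries (IsLocalRing.ResidueField A)), y ≠ 0 ∧
      GRel A (((x : FK N K) : LaurentSeries Qb) *
        (C (incO A K π) : LaurentSeries Qb) ^ (-γ)) y := by
  have : Fact (Nat.Prime 2) := ⟨Nat.prime_two⟩
  exact exists_nf N 2 Fermat.Agent.S18.GRelNF.gRelNFStatement
    (Fermat.Agent.S18.ModelBasic.basicFacts N 2 A K) hdvr π hπ x hx

/-- Dichotomy: `x` is Gauss-integral or `x⁻¹` is Gauss-integral with reduction `0`. -/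
theorem dichotomy (hdvr : IsDiscreteValuationRing (OK A K)) (x : FK N K) (hx : x ≠ 0) :
    (∃ y, GRel A ((x : FK N K) : LaurentSeries Qb) y) ∨
      GRel A (((x : FK N K) : LaurentSeries Qb))⁻¹ 0 := by
  obtain ⟨π, hπ⟩ := IsDiscreteValuationRing.exists_irreducible (OK A K)
  exact dich (Fermat.Agent.S18.GRel.gRelStatement A) π hπ.not_isUnit hπ.ne_zero _
    (exists_nf_FK N A K hdvr π hπ x hx)

/-- **(G1)** The Gauss valuation subring of `F_K = FK N K`, for any level `N`. -/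
def V1 (hdvr : IsDiscreteValuationRing (OK A K)) : ValuationSubring (FK N K) :=
  gaussV N (Fermat.Agent.S18.GRel.gRelStatement A) (dichotomy N A K hdvr)

variable {N A K}

theorem mem_V1_iff (hdvr : IsDiscreteValuationRing (OK A K)) {x : FK N K} :
    x ∈ V1 N A K hdvr ↔ ∃ y, GRel A ((x : FK N K) : LaurentSeries Qb) y := Iff.rfl

/-! ### The reduction map -/

/-- **(G2)** Gauss reduction `V1 → k((q))`. -/
def red1 (hdvr : IsDiscreteValuationRing (OK A K)) :
    V1 N A K hdvr →+* LaurentSeries (IsLocalRing.ResidueField A) where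
  toFun x := Classical.choose ((mem_V1_iff hdvr).mp x.2)
  map_one' := (Fermat.Agent.S18.GRel.gRelStatement A).unique _ _ _
    (Classical.choose_spec ((mem_V1_iff hdvr).mp (1 : V1 N A K hdvr).2))
    (gRel_one (Fermat.Agent.S18.GRel.gRelStatement A))
  map_mul' a b := (Fermat.Agent.S18.GRel.gRelStatement A).unique _ _ _
    (Classical.choose_spec ((mem_V1_iff hdvr).mp (a * b).2))
    ((Fermat.Agent.S18.GRel.gRelStatement A).mul _ _ _ _
      (Classical.choose_spec ((mem_V1_iff hdvr).mp a.2))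
      (Classical.choose_spec ((mem_V1_iff hdvr).mp b.2)))
  map_zero' := (Fermat.Agent.S18.GRel.gRelStatement A).unique _ _ _
    (Classical.choose_spec ((mem_V1_iff hdvr).mp (0 : V1 N A K hdvr).2))
    (gRel_zero (Fermat.Agent.S18.GRel.gRelStatement A))
  map_add' a b := (Fermat.Agent.S18.GRel.gRelStatement A).unique _ _ _
    (Classical.choose_spec ((mem_V1_iff hdvr).mp (a + b).2))
    ((Fermat.Agent.S18.GRel.gRelStatement A).add _ _ _ _
      (Classical.choose_spec ((mem_V1_iff hdvr).mp a.2))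
      (Classical.choose_spec ((mem_V1_iff hdvr).mp b.2)))

theorem gRel_red1 (hdvr : IsDiscreteValuationRing (OK A K)) (x : V1 N A K hdvr) :
    GRel A (((x : FK N K) : FK N K) : LaurentSeries Qb) (red1 hdvr x) :=
  Classical.choose_spec ((mem_V1_iff hdvr).mp x.2)

/-- `red1` is characterised by `GRel`. -/
theorem red1_eq_of_gRel (hdvr : IsDiscreteValuationRing (OK A K)) (x : V1 N A K hdvr)
    {y : LaurentSeries (IsLocalRing.ResidueField A)}
    (h : GRel A (((x : FK N K) : FK N K) : LaurentSeries Qb) y) : red1 hdvr x = y :=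
  (Fermat.Agent.S18.GRel.gRelStatement A).unique _ _ _ (gRel_red1 hdvr x) h

/-- Constants are Gauss-integral. -/
theorem algebraMap_mem_V1 (hdvr : IsDiscreteValuationRing (OK A K)) (c : OK A K) :
    algebraMap (OK A K) (FK N K) c ∈ V1 N A K hdvr :=
  ⟨_, gRel_const K (Fermat.Agent.S18.GRel.gRelStatement A) c⟩

/-- The reduction of a constant. -/
theorem red1_algebraMap (hdvr : IsDiscreteValuationRing (OK A K)) (c : OK A K) :
    red1 hdvr ⟨algebraMap (OK A K) (FK N K) c, algebraMap_mem_V1 hdvr c⟩ = C (resO A K c) :=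
  red1_eq_of_gRel hdvr _ (gRel_const K (Fermat.Agent.S18.GRel.gRelStatement A) c)

/-- The reduction of a non-unit constant vanishes. -/
theorem red1_algebraMap_of_not_isUnit (hdvr : IsDiscreteValuationRing (OK A K)) (c : OK A K)
    (hc : ¬ IsUnit c) :
    red1 hdvr ⟨algebraMap (OK A K) (FK N K) c, algebraMap_mem_V1 hdvr c⟩ = 0 := by
  rw [red1_algebraMap, resO_eq_zero_of_not_isUnit K c hc, map_zero]

/-- An element of `F_K` whose `q`-expansion has coefficients in `A` is Gauss-integral, with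
the coefficientwise reduction. -/
theorem mem_V1_of_int (hdvr : IsDiscreteValuationRing (OK A K)) {x : FK N K} {X : LaurentSeries A}
    (hx : ((x : FK N K) : LaurentSeries Qb) = coeffMap A.subtype X) : x ∈ V1 N A K hdvr :=
  ⟨_, hx ▸ (Fermat.Agent.S18.GRel.gRelStatement A).of_int X⟩

theorem red1_of_int (hdvr : IsDiscreteValuationRing (OK A K)) {x : FK N K} {X : LaurentSeries A}
    (hx : ((x : FK N K) : LaurentSeries Qb) = coeffMap A.subtype X) :
    red1 hdvr ⟨x, mem_V1_of_int hdvr hx⟩ = coeffMap (IsLocalRing.residue A) X :=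
  red1_eq_of_gRel hdvr _ (hx ▸ (Fermat.Agent.S18.GRel.gRelStatement A).of_int X)

/-- **(G2)** `ker red1 = π V1`. -/
theorem red1_eq_zero_iff (hdvr : IsDiscreteValuationRing (OK A K)) {π : OK A K}
    (hπ : Irreducible π) (x : V1 N A K hdvr) :
    red1 hdvr x = 0 ↔
      ∃ z ∈ V1 N A K hdvr, (x : FK N K) = algebraMap (OK A K) (FK N K) π * z := by
  have hG := Fermat.Agent.S18.GRel.gRelStatement A
  constructor
  · intro h0
    by_cases hx0 : (x : FK N K) = 0
    · exact ⟨0, (V1 N A K hdvr).zero_mem, by rw [hx0, mul_zero]⟩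
    have hxG : GRel A (((x : FK N K) : FK N K) : LaurentSeries Qb) 0 := h0 ▸ gRel_red1 hdvr x
    obtain ⟨y₁, hy₁⟩ := gRel_div_pi hG π hπ.not_isUnit hπ.ne_zero _ hxG
      (exists_nf_FK N A K hdvr π hπ _ hx0)
    have hz : (x : FK N K) * (algebraMap (OK A K) (FK N K) π)⁻¹ ∈ V1 N A K hdvr := ⟨y₁, hy₁⟩
    refine ⟨_, hz, ?_⟩
    have hπF := algebraMap_ne_zero N A K hπ.ne_zero
    field_simp
  · rintro ⟨z, hz, hxz⟩
    obtain ⟨y, hy⟩ := (mem_V1_iff hdvr).mp hz
    apply red1_eq_of_gRel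
    rw [hxz]
    have h := hG.mul _ _ _ _ (gRel_pi hG π hπ.not_isUnit) hy
    rw [zero_mul] at h
    exact h

/-- Elements of `V1` with nonzero reduction are units of `V1`. -/
theorem inv_mem_V1 (hdvr : IsDiscreteValuationRing (OK A K)) (x : V1 N A K hdvr)
    (hx : red1 hdvr x ≠ 0) : ((x : FK N K))⁻¹ ∈ V1 N A K hdvr :=
  ⟨_, (Fermat.Agent.S18.GRel.gRelStatement A).inv _ _ (gRel_red1 hdvr x) hx⟩

/-! ### Charts -/

/-- **(G3)** A chart whose coordinate is Gauss-integral lies in `V1`. -/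
theorem chart_le_V1 (hdvr : IsDiscreteValuationRing (OK A K)) (t : FK N K)
    (ht : t ∈ V1 N A K hdvr) : ∀ x ∈ chart N A K t, x ∈ V1 N A K hdvr := fun x hx =>
  exists_gRel_of_mem_chart N (Fermat.Agent.S18.GRel.gRelStatement A) (dichotomy N A K hdvr) t ht x hx

/-- An element integral over `O[t]`, `t ∈ V1`, lies in `V1`. -/
theorem mem_V1_of_isIntegral (hdvr : IsDiscreteValuationRing (OK A K)) (t : FK N K)
    (ht : t ∈ V1 N A K hdvr) {x : FK N K} (hx : IsIntegral (Algebra.adjoin (OK A K) {t}) x) :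
    x ∈ V1 N A K hdvr :=
  chart_le_V1 hdvr t ht x hx

theorem jK_mem_V1 (hdvr : IsDiscreteValuationRing (OK A K)) : jK N K ∈ V1 N A K hdvr := by
  have : Fact (Nat.Prime 2) := ⟨Nat.prime_two⟩
  obtain ⟨J, _, hJ, _⟩ := (Fermat.Agent.S18.ModelBasic.basicFacts N 2 A K).jint
  have h := gRel_coeffMap_incO (K := K) (Fermat.Agent.S18.GRel.gRelStatement A) J
  rw [hJ] at h
  exact h

theorem jK_inv_mem_V1 (hdvr : IsDiscreteValuationRing (OK A K)) : (jK N K)⁻¹ ∈ V1 N A K hdvr := by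
  have : Fact (Nat.Prime 2) := ⟨Nat.prime_two⟩
  obtain ⟨_, Jinv, _, hJinv⟩ := (Fermat.Agent.S18.ModelBasic.basicFacts N 2 A K).jint
  have h := gRel_coeffMap_incO (K := K) (Fermat.Agent.S18.GRel.gRelStatement A) Jinv
  rw [hJinv] at h
  exact h

theorem R0_le_V1 (ℓ : ℕ) [Fact ℓ.Prime] (hdvr : IsDiscreteValuationRing (OK A K)) :
    ∀ x ∈ R0 N ℓ A K, x ∈ V1 N A K hdvr :=
  chart_le_V1 hdvr _ (jK_mem_V1 hdvr)

theorem Rinf_le_V1 (ℓ : ℕ) [Fact ℓ.Prime] (hdvr : IsDiscreteValuationRing (OK A K)) :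
    ∀ x ∈ Rinf N ℓ A K, x ∈ V1 N A K hdvr :=
  chart_le_V1 hdvr _ (jK_inv_mem_V1 hdvr)

/-! ### The `V`-axioms of `Cech2Plan` for `V1` -/

/-- **(G4)** `rootV`. -/
theorem rootV1 (hdvr : IsDiscreteValuationRing (OK A K)) {m : ℕ} (hm : m ≠ 0) (x : FK N K)
    (h : x ^ m ∈ V1 N A K hdvr) : x ∈ V1 N A K hdvr :=
  root_mem _ hm h

/-- **(G4)** `invV`: `1 + π V1 ⊆ V1ˣ`. -/
theorem invV1 (hdvr : IsDiscreteValuationRing (OK A K)) {π : OK A K} (hπ : ¬ IsUnit π)
    (z : FK N K) (hz : z ∈ V1 N A K hdvr) :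
    (1 + algebraMap (OK A K) (FK N K) π * z)⁻¹ ∈ V1 N A K hdvr := by
  have hG := Fermat.Agent.S18.GRel.gRelStatement A
  obtain ⟨y, hy⟩ := (mem_V1_iff hdvr).mp hz
  have h := hG.add _ _ _ _ (gRel_one hG) (hG.mul _ _ _ _ (gRel_pi hG π hπ) hy)
  rw [zero_mul, add_zero] at h
  have h2 := hG.inv _ _ h one_ne_zero
  exact ⟨_, h2⟩

/-- **(G4)** `one_not`: `1 ∉ π V1`. -/
theorem one_notV1 (hdvr : IsDiscreteValuationRing (OK A K)) {π : OK A K} (hπ : ¬ IsUnit π)
    (z : FK N K) (hz : z ∈ V1 N A K hdvr) :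
    (1 : FK N K) ≠ algebraMap (OK A K) (FK N K) π * z := by
  have hG := Fermat.Agent.S18.GRel.gRelStatement A
  intro h1
  obtain ⟨y, hy⟩ := (mem_V1_iff hdvr).mp hz
  have h := hG.mul _ _ _ _ (gRel_pi hG π hπ) hy
  rw [zero_mul] at h
  have h' : GRel A (((1 : FK N K) : FK N K) : LaurentSeries Qb) 0 := by
    rw [h1]; exact h
  exact one_ne_zero (hG.unique _ _ _ (gRel_one hG) h')

/-- **(G5)** normal form: `π` is a uniformiser of `V1`. -/
theorem exists_zpow_mul_unit (hdvr : IsDiscreteValuationRing (OK A K)) {π : OK A K}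
    (hπ : Irreducible π) (x : FK N K) (hx : x ≠ 0) :
    ∃ γ : ℤ, x * algebraMap (OK A K) (FK N K) π ^ (-γ) ∈ V1 N A K hdvr ∧
      (x * algebraMap (OK A K) (FK N K) π ^ (-γ))⁻¹ ∈ V1 N A K hdvr := by
  have hG := Fermat.Agent.S18.GRel.gRelStatement A
  obtain ⟨γ, y, hy, h⟩ := exists_nf_FK N A K hdvr π hπ x hx
  have hcoe : ((x * algebraMap (OK A K) (FK N K) π ^ (-γ) : FK N K) : LaurentSeries Qb) =
      ((x : FK N K) : LaurentSeries Qb) * (C (incO A K π) : LaurentSeries Qb) ^ (-γ) := by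
    have := map_zpow₀ (FK N K).subtype (algebraMap (OK A K) (FK N K) π) (-γ)
    rw [Subfield.coe_mul]
    congr 1
  refine ⟨γ, ⟨y, hcoe ▸ h⟩, ⟨y⁻¹, ?_⟩⟩
  have h2 := hG.inv _ _ h hy
  rw [← hcoe] at h2
  exact h2

/-! ### `V1` is a discrete valuation ring with uniformiser `π` -/

/-- The uniformiser `π` as an element of `V1`. -/
def piV1 (hdvr : IsDiscreteValuationRing (OK A K)) (π : OK A K) : V1 N A K hdvr :=
  ⟨algebraMap (OK A K) (FK N K) π, algebraMap_mem_V1 hdvr π⟩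

theorem coe_piV1 (hdvr : IsDiscreteValuationRing (OK A K)) (π : OK A K) :
    ((piV1 (N := N) hdvr π : V1 N A K hdvr) : FK N K) = algebraMap (OK A K) (FK N K) π := rfl

theorem piV1_ne_zero (hdvr : IsDiscreteValuationRing (OK A K)) {π : OK A K} (hπ0 : π ≠ 0) :
    piV1 (N := N) hdvr π ≠ 0 := by
  intro h
  exact algebraMap_ne_zero N A K hπ0 (congrArg Subtype.val h)

/-- `ker red1 = (π)` as ideals of `V1`. -/
theorem ker_red1 (hdvr : IsDiscreteValuationRing (OK A K)) {π : OK A K} (hπ : Irreducible π) :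
    RingHom.ker (red1 (N := N) hdvr) = Ideal.span {piV1 hdvr π} := by
  ext x
  rw [RingHom.mem_ker, red1_eq_zero_iff hdvr hπ, Ideal.mem_span_singleton]
  constructor
  · rintro ⟨z, hz, hxz⟩
    exact ⟨⟨z, hz⟩, Subtype.ext hxz⟩
  · rintro ⟨z, rfl⟩
    exact ⟨z, z.2, rfl⟩

/-- **(G7)** `π` is a prime element of `V1`. -/
theorem prime_piV1 (hdvr : IsDiscreteValuationRing (OK A K)) {π : OK A K} (hπ : Irreducible π) :
    Prime (piV1 (N := N) hdvr π) := by
  rw [← Ideal.span_singleton_prime (piV1_ne_zero hdvr hπ.ne_zero), ← ker_red1 hdvr hπ]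
  exact RingHom.ker_isPrime _

theorem irreducible_piV1 (hdvr : IsDiscreteValuationRing (OK A K)) {π : OK A K}
    (hπ : Irreducible π) : Irreducible (piV1 (N := N) hdvr π) :=
  (prime_piV1 hdvr hπ).irreducible

/-- Every nonzero element of `V1` is a unit times a power of `π`. -/
theorem associated_pow_piV1 (hdvr : IsDiscreteValuationRing (OK A K)) {π : OK A K}
    (hπ : Irreducible π) {x : V1 N A K hdvr} (hx : x ≠ 0) :
    ∃ n : ℕ, Associated (piV1 hdvr π ^ n) x := by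
  have hπF := algebraMap_ne_zero N A K hπ.ne_zero
  have hx' : (x : FK N K) ≠ 0 := fun h => hx (Subtype.ext h)
  obtain ⟨γ, h1, h2⟩ := exists_zpow_mul_unit hdvr hπ (x : FK N K) hx'
  -- `γ ≥ 0`, else a positive power of `π` would be a unit of `V1`
  have hγ : 0 ≤ γ := by
    by_contra hneg
    rw [not_le] at hneg
    obtain ⟨k, hk⟩ : ∃ k : ℕ, -γ = (k : ℤ) + 1 := ⟨(-γ - 1).toNat, by omega⟩
    rw [hk] at h2
    -- `(x π^(k+1))⁻¹ ∈ V1`, so `1 = π * (π^k * x * (x π^(k+1))⁻¹)`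
    apply one_notV1 hdvr hπ.not_isUnit
      (algebraMap (OK A K) (FK N K) π ^ k * (x : FK N K) *
        ((x : FK N K) * algebraMap (OK A K) (FK N K) π ^ ((k : ℤ) + 1))⁻¹)
      ((V1 N A K hdvr).mul_mem _ _ ((V1 N A K hdvr).mul_mem _ _
        ((V1 N A K hdvr).pow_mem (algebraMap_mem_V1 hdvr π) k) x.2) h2)
    rw [zpow_add_one₀ hπF, zpow_natCast]
    field_simp
  obtain ⟨n, rfl⟩ := Int.eq_ofNat_of_zero_le hγ
  refine ⟨n, ?_⟩
  rw [zpow_neg, zpow_natCast] at h1 h2
  let u : V1 N A K hdvr := ⟨_, h1⟩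
  let v : V1 N A K hdvr := ⟨_, h2⟩
  have huv : u * v = 1 := by
    apply Subtype.ext
    show (x : FK N K) * (algebraMap (OK A K) (FK N K) π ^ n)⁻¹ *
      ((x : FK N K) * (algebraMap (OK A K) (FK N K) π ^ n)⁻¹)⁻¹ = 1
    exact mul_inv_cancel₀ (mul_ne_zero hx' (inv_ne_zero (pow_ne_zero n hπF)))
  refine ⟨Units.mkOfMulEqOne u v huv, ?_⟩
  apply Subtype.ext
  show algebraMap (OK A K) (FK N K) π ^ n *
    ((x : FK N K) * (algebraMap (OK A K) (FK N K) π ^ n)⁻¹) = (x : FK N K)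
  field_simp

/-- **(G7)** `V1` is a discrete valuation ring (for every level `N`). -/
theorem isDiscreteValuationRing_V1 (hdvr : IsDiscreteValuationRing (OK A K)) :
    IsDiscreteValuationRing (V1 N A K hdvr) := by
  obtain ⟨π, hπ⟩ := IsDiscreteValuationRing.exists_irreducible (OK A K)
  exact IsDiscreteValuationRing.ofHasUnitMulPowIrreducibleFactorization
    ⟨piV1 hdvr π, irreducible_piV1 hdvr hπ, fun hx => associated_pow_piV1 hdvr hπ hx⟩

/-- The maximal ideal of `V1` is `(π)`. -/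
theorem maximalIdeal_V1 (hdvr : IsDiscreteValuationRing (OK A K)) {π : OK A K}
    (hπ : Irreducible π) :
    IsLocalRing.maximalIdeal (V1 N A K hdvr) = Ideal.span {piV1 hdvr π} := by
  have := isDiscreteValuationRing_V1 (N := N) hdvr
  exact (irreducible_piV1 hdvr hπ).maximalIdeal_eq

/-! ### Transport along an automorphism fixing the constants -/

section Transport

variable (w : FK N K ≃+* FK N K)

/-- **(G6)** The transported valuation ring `V2 = w⁻¹(V1)`. -/
def V2 (hdvr : IsDiscreteValuationRing (OK A K)) : ValuationSubring (FK N K) :=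
  (V1 N A K hdvr).comap (w : FK N K →+* FK N K)

theorem mem_V2_iff (hdvr : IsDiscreteValuationRing (OK A K)) {x : FK N K} :
    x ∈ V2 w hdvr ↔ w x ∈ V1 N A K hdvr := Iff.rfl

/-- The second reduction `red2 = red1 ∘ w`. -/
def red2 (hdvr : IsDiscreteValuationRing (OK A K)) :
    V2 w hdvr →+* LaurentSeries (IsLocalRing.ResidueField A) :=
  (red1 hdvr).comp
    { toFun := fun x => ⟨w (x : FK N K), x.2⟩
      map_one' := Subtype.ext (map_one w)
      map_mul' := fun a b => Subtype.ext (map_mul w (a : FK N K) (b : FK N K))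
      map_zero' := Subtype.ext (map_zero w)
      map_add' := fun a b => Subtype.ext (map_add w (a : FK N K) (b : FK N K)) }

theorem red2_apply (hdvr : IsDiscreteValuationRing (OK A K)) (x : V2 w hdvr) :
    red2 w hdvr x = red1 hdvr ⟨w (x : FK N K), x.2⟩ := rfl

theorem gRel_red2 (hdvr : IsDiscreteValuationRing (OK A K)) (x : V2 w hdvr) :
    GRel A ((w (x : FK N K) : FK N K) : LaurentSeries Qb) (red2 w hdvr x) :=
  gRel_red1 hdvr ⟨w (x : FK N K), x.2⟩

variable (hw : ∀ c : OK A K, w (algebraMap (OK A K) (FK N K) c) = algebraMap (OK A K) (FK N K) c)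

include hw in
theorem algebraMap_mem_V2 (hdvr : IsDiscreteValuationRing (OK A K)) (c : OK A K) :
    algebraMap (OK A K) (FK N K) c ∈ V2 w hdvr := by
  rw [mem_V2_iff, hw]
  exact algebraMap_mem_V1 hdvr c

include hw in
/-- `ker red2 = π V2`. -/
theorem red2_eq_zero_iff (hdvr : IsDiscreteValuationRing (OK A K)) {π : OK A K}
    (hπ : Irreducible π) (x : V2 w hdvr) :
    red2 w hdvr x = 0 ↔
      ∃ z ∈ V2 w hdvr, (x : FK N K) = algebraMap (OK A K) (FK N K) π * z := by
  rw [red2_apply, red1_eq_zero_iff hdvr hπ]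
  constructor
  · rintro ⟨z, hz, hxz⟩
    refine ⟨w.symm z, ?_, ?_⟩
    · rw [mem_V2_iff, RingEquiv.apply_symm_apply]; exact hz
    · apply w.injective
      rw [map_mul, hw, RingEquiv.apply_symm_apply]
      exact hxz
  · rintro ⟨z, hz, hxz⟩
    refine ⟨w z, hz, ?_⟩
    show w (x : FK N K) = _
    rw [hxz, map_mul, hw]

/-- `rootV` for `V2`. -/
theorem rootV2 (hdvr : IsDiscreteValuationRing (OK A K)) {m : ℕ} (hm : m ≠ 0) (x : FK N K)
    (h : x ^ m ∈ V2 w hdvr) : x ∈ V2 w hdvr :=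
  root_mem _ hm h

include hw in
/-- `invV` for `V2`. -/
theorem invV2 (hdvr : IsDiscreteValuationRing (OK A K)) {π : OK A K} (hπ : ¬ IsUnit π)
    (z : FK N K) (hz : z ∈ V2 w hdvr) :
    (1 + algebraMap (OK A K) (FK N K) π * z)⁻¹ ∈ V2 w hdvr := by
  rw [mem_V2_iff, map_inv₀, map_add, map_one, map_mul, hw]
  exact invV1 hdvr hπ (w z) hz

include hw in
/-- `one_not` for `V2`. -/
theorem one_notV2 (hdvr : IsDiscreteValuationRing (OK A K)) {π : OK A K} (hπ : ¬ IsUnit π)
    (z : FK N K) (hz : z ∈ V2 w hdvr) :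
    (1 : FK N K) ≠ algebraMap (OK A K) (FK N K) π * z := by
  intro h
  apply one_notV1 hdvr hπ (w z) hz
  have := congrArg w h
  rwa [map_one, map_mul, hw] at this

include hw in
/-- normal form for `V2`. -/
theorem exists_zpow_mul_unit₂ (hdvr : IsDiscreteValuationRing (OK A K)) {π : OK A K}
    (hπ : Irreducible π) (x : FK N K) (hx : x ≠ 0) :
    ∃ γ : ℤ, x * algebraMap (OK A K) (FK N K) π ^ (-γ) ∈ V2 w hdvr ∧
      (x * algebraMap (OK A K) (FK N K) π ^ (-γ))⁻¹ ∈ V2 w hdvr := by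
  have hwx : w x ≠ 0 := fun h => hx (w.injective (by rw [h, map_zero]))
  obtain ⟨γ, h1, h2⟩ := exists_zpow_mul_unit hdvr hπ (w x) hwx
  refine ⟨γ, ?_, ?_⟩
  · rw [mem_V2_iff, map_mul, map_zpow₀, hw]; exact h1
  · rw [mem_V2_iff, map_inv₀, map_mul, map_zpow₀, hw]; exact h2

/-- A chart whose coordinate `t` has `w t ∈ V1` lies in `V2`, PROVIDED `w` maps it into the
chart of `w t` (e.g. by integrality of `w x` over `O[w t]`). -/
theorem mem_V2_of_isIntegral (hdvr : IsDiscreteValuationRing (OK A K)) (t' : FK N K)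
    (ht : t' ∈ V1 N A K hdvr) {x : FK N K}
    (hx : IsIntegral (Algebra.adjoin (OK A K) {t'}) (w x)) : x ∈ V2 w hdvr :=
  mem_V1_of_isIntegral hdvr t' ht hx

/-! ### The semilocal ring `V12 = V1 ⊓ V2` -/

/-- The semilocal ring of the two Gauss valuations. -/
def V12 (hdvr : IsDiscreteValuationRing (OK A K)) : Subring (FK N K) :=
  (V1 N A K hdvr).toSubring ⊓ (V2 w hdvr).toSubring

theorem mem_V12_iff (hdvr : IsDiscreteValuationRing (OK A K)) {x : FK N K} :
    x ∈ V12 w hdvr ↔ x ∈ V1 N A K hdvr ∧ w x ∈ V1 N A K hdvr := Iff.rfl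

/-- `rootV` for `V12`. -/
theorem rootV12 (hdvr : IsDiscreteValuationRing (OK A K)) {m : ℕ} (hm : m ≠ 0) (x : FK N K)
    (h : x ^ m ∈ V12 w hdvr) : x ∈ V12 w hdvr :=
  ⟨rootV1 hdvr hm x h.1, rootV2 w hdvr hm x h.2⟩

include hw in
/-- `invV` for `V12`. -/
theorem invV12 (hdvr : IsDiscreteValuationRing (OK A K)) {π : OK A K} (hπ : ¬ IsUnit π)
    (z : FK N K) (hz : z ∈ V12 w hdvr) :
    (1 + algebraMap (OK A K) (FK N K) π * z)⁻¹ ∈ V12 w hdvr :=
  ⟨invV1 hdvr hπ z hz.1, invV2 w hw hdvr hπ z hz.2⟩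

/-- `one_not` for `V12`. -/
theorem one_notV12 (hdvr : IsDiscreteValuationRing (OK A K)) {π : OK A K} (hπ : ¬ IsUnit π)
    (z : FK N K) (hz : z ∈ V12 w hdvr) :
    (1 : FK N K) ≠ algebraMap (OK A K) (FK N K) π * z :=
  one_notV1 hdvr hπ z hz.1

include hw in
/-- `x ∈ π V12` iff both reductions vanish. -/
theorem mem_pi_V12_iff (hdvr : IsDiscreteValuationRing (OK A K)) {π : OK A K}
    (hπ : Irreducible π) (x : FK N K) (hx : x ∈ V12 w hdvr) :
    (∃ z ∈ V12 w hdvr, x = algebraMap (OK A K) (FK N K) π * z) ↔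
      red1 hdvr ⟨x, hx.1⟩ = 0 ∧ red2 w hdvr ⟨x, hx.2⟩ = 0 := by
  have hπF := algebraMap_ne_zero N A K hπ.ne_zero
  constructor
  · rintro ⟨z, hz, hxz⟩
    exact ⟨(red1_eq_zero_iff hdvr hπ ⟨x, hx.1⟩).mpr ⟨z, hz.1, hxz⟩,
      (red2_eq_zero_iff w hw hdvr hπ ⟨x, hx.2⟩).mpr ⟨z, hz.2, hxz⟩⟩
  · rintro ⟨h1, h2⟩
    obtain ⟨z, hz, hxz⟩ := (red1_eq_zero_iff hdvr hπ ⟨x, hx.1⟩).mp h1
    obtain ⟨z', hz', hxz'⟩ := (red2_eq_zero_iff w hw hdvr hπ ⟨x, hx.2⟩).mp h2
    have hzz : z = z' := by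
      have h3 : algebraMap (OK A K) (FK N K) π * z = algebraMap (OK A K) (FK N K) π * z' := by
        rw [← hxz, ← hxz']
      exact mul_left_cancel₀ hπF h3
    refine ⟨z, ⟨hz, ?_⟩, hxz⟩
    rw [hzz]; exact hz'

end Transport

end Fermat.Agent.S34.GaussV
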