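import Mathlib
import Fermat.Agent.S18.DegFK
import Fermat.Agent.S20.Cosets

/-!
# S34, block [Model2], leaf [DegTower] : the tower `F_K(M) ⊆ F_K(N)` for `M ∣ N`

For an arbitrary intermediate field `K` of `ℚ̄ / ℚ` and `F_K(N) = FK N K` (`S18.ArithPlan`, a
subfield of `ℚ̄((q))`):

* `FK_le`            : `FK M K ≤ FK N K` for `M ∣ N`;
* `incl`, `inclA`    : the inclusion as a ring hom / `K`-algebra hom, with `incl_jK`, `incl_constK`;
* `algTower`         : the induced algebra structure (a `def`, use `letI`);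
* `finiteDimensional`, `psi_mul_finrank` : `ψ(M) · [F_K(N) : F_K(M)] = ψ(N)`;
* `finrank_of_prime` : `[F_K(Mq) : F_K(M)] = q + 1` for a prime `q ∤ M`.

This is the degree input of the reducedness step (III) of the node block.
-/

set_option autoImplicit false

namespace Fermat.Agent.S34.DegTower

open ModularCurve ModularCurve.IgusaScheme Fermat.Agent.S24 Fermat.Agent.S18.Arith
  Fermat.Agent.S18 IntermediateField

variable (M N : ℕ) [NeZero M] [NeZero N] (K : IntermediateField ℚ Qb)

omit [NeZero M] [NeZero N] in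
theorem divisorExpansions_mono (h : M ∣ N) : divisorExpansions M ⊆ divisorExpansions N := by
  rintro x ⟨d, hd0, hd, rfl⟩
  exact ⟨d, hd0, hd.trans h, rfl⟩

omit [NeZero M] [NeZero N] in
theorem full_le (h : M ∣ N) : modularFunctionFieldFull M ≤ modularFunctionFieldFull N :=
  IntermediateField.adjoin.mono ℚ _ _ (divisorExpansions_mono M N h)

omit [NeZero M] [NeZero N] in
/-- `F_K(M) ⊆ F_K(N)` for `M ∣ N`. -/
theorem FK_le (h : M ∣ N) : FK M K ≤ FK N K := by
  unfold FK
  apply Subfield.closure_mono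
  apply Set.union_subset_union (le_refl _)
  rintro _ ⟨x, rfl⟩
  exact ⟨⟨(x : LaurentSeries ℚ), full_le M N h x.2⟩, rfl⟩

/-- The inclusion `F_K(M) → F_K(N)`. -/
noncomputable def incl (h : M ∣ N) : ↥(FK M K) →+* ↥(FK N K) :=
  (FK M K).subtype.codRestrict (FK N K) (fun x => FK_le M N K h x.2)

omit [NeZero M] [NeZero N] in
@[simp] theorem coe_incl (h : M ∣ N) (x : ↥(FK M K)) :
    ((incl M N K h x : ↥(FK N K)) : LaurentSeries Qb) = (x : LaurentSeries Qb) := by
  unfold incl
  exact RingHom.codRestrict_apply _ _ _ x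

omit [NeZero M] [NeZero N] in
theorem incl_injective (h : M ∣ N) : Function.Injective (incl M N K h) :=
  (incl M N K h).injective

theorem coe_jK : ((jK N K : ↥(FK N K)) : LaurentSeries Qb) = coeffEmb Qb jq := rfl

omit [NeZero N] in
theorem coe_constK (c : K) :
    ((constK N K c : ↥(FK N K)) : LaurentSeries Qb) = (HahnSeries.C (c : Qb) : LaurentSeries Qb) :=
  rfl

theorem incl_jK (h : M ∣ N) : incl M N K h (jK M K) = jK N K := by
  apply Subtype.ext
  rw [coe_incl, coe_jK, coe_jK]

omit [NeZero M] [NeZero N] in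
theorem incl_constK (h : M ∣ N) (c : K) : incl M N K h (constK M K c) = constK N K c := by
  apply Subtype.ext
  rw [coe_incl, coe_constK, coe_constK]

/-- The inclusion as a `K`-algebra homomorphism. -/
noncomputable def inclA (h : M ∣ N) : ↥(FK M K) →ₐ[K] ↥(FK N K) :=
  { incl M N K h with
    commutes' := fun c => incl_constK M N K h c }

@[simp] theorem inclA_apply (h : M ∣ N) (x : ↥(FK M K)) : inclA M N K h x = incl M N K h x := rfl

/-- The algebra structure of `F_K(N)` over `F_K(M)` (use with `letI`). -/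
@[reducible] noncomputable def algTower (h : M ∣ N) : Algebra ↥(FK M K) ↥(FK N K) :=
  (incl M N K h).toAlgebra

theorem algebraMap_algTower (h : M ∣ N) (x : ↥(FK M K)) :
    letI := algTower M N K h
    algebraMap ↥(FK M K) ↥(FK N K) x = incl M N K h x := rfl

/-- `K ⊆ F_K(M) ⊆ F_K(N)` is a tower. -/
theorem isScalarTower_K (h : M ∣ N) :
    letI := algTower M N K h
    IsScalarTower K ↥(FK M K) ↥(FK N K) := by
  letI := algTower M N K h
  exact IsScalarTower.of_algebraMap_eq fun c => (incl_constK M N K h c).symm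

/-- `O = A ∩ K ⊆ F_K(M) ⊆ F_K(N)` is a tower. -/
theorem isScalarTower_OK (A : ValuationSubring Qb) (h : M ∣ N) :
    letI := algTower M N K h
    IsScalarTower (OK A K) ↥(FK M K) ↥(FK N K) := by
  letI := algTower M N K h
  exact IsScalarTower.of_algebraMap_eq fun c => (incl_constK M N K h (c : K)).symm

/-- The image of `K(j)` (level `M`) in `F_K(N)` is `K(j)` (level `N`). -/
theorem range_comp (h : M ∣ N) :
    Set.range ((incl M N K h).comp (algebraMap K⟮jK M K⟯ ↥(FK M K))) =
      (K⟮jK N K⟯ : Set ↥(FK N K)) := by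
  have hmap : (K⟮jK M K⟯).map (inclA M N K h) = K⟮jK N K⟯ := by
    rw [IntermediateField.adjoin_map, Set.image_singleton, inclA_apply, incl_jK]
  ext y
  constructor
  · rintro ⟨x, rfl⟩
    have : inclA M N K h (x : ↥(FK M K)) ∈ (K⟮jK M K⟯).map (inclA M N K h) :=
      ⟨x, x.2, rfl⟩
    rw [hmap] at this
    exact this
  · intro hy
    have hy' : y ∈ (K⟮jK M K⟯).map (inclA M N K h) := by rw [hmap]; exact hy
    obtain ⟨x, hx, rfl⟩ := hy'
    exact ⟨⟨x, hx⟩, rfl⟩

/-- `F_K(N)` is finite over `F_K(M)` and `ψ(M) · [F_K(N) : F_K(M)] = ψ(N)`. -/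
theorem finite_and_psi_mul_finrank (h : M ∣ N) :
    letI := algTower M N K h
    FiniteDimensional ↥(FK M K) ↥(FK N K) ∧
      dedekindPsi M * Module.finrank ↥(FK M K) ↥(FK N K) = dedekindPsi N := by
  letI := algTower M N K h
  letI : Algebra K⟮jK M K⟯ ↥(FK N K) :=
    ((incl M N K h).comp (algebraMap K⟮jK M K⟯ ↥(FK M K))).toAlgebra
  haveI : IsScalarTower K⟮jK M K⟯ ↥(FK M K) ↥(FK N K) :=
    IsScalarTower.of_algebraMap_eq fun _ => rfl
  obtain ⟨hfin, hrank⟩ := DegFK.finrank_of_range N K (Ky := K⟮jK M K⟯) (range_comp M N K h)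
  haveI : Module.Finite K⟮jK M K⟯ ↥(FK N K) := hfin
  have htower : Module.finrank K⟮jK M K⟯ ↥(FK M K) * Module.finrank ↥(FK M K) ↥(FK N K)
      = Module.finrank K⟮jK M K⟯ ↥(FK N K) :=
    Module.finrank_mul_finrank K⟮jK M K⟯ ↥(FK M K) ↥(FK N K)
  rw [DegFK.finrank_jK] at htower
  exact ⟨FiniteDimensional.right K⟮jK M K⟯ ↥(FK M K) ↥(FK N K), htower.trans hrank⟩

theorem finiteDimensional (h : M ∣ N) :
    letI := algTower M N K h
    FiniteDimensional ↥(FK M K) ↥(FK N K) :=
  (finite_and_psi_mul_finrank M N K h).1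

theorem psi_mul_finrank (h : M ∣ N) :
    letI := algTower M N K h
    dedekindPsi M * Module.finrank ↥(FK M K) ↥(FK N K) = dedekindPsi N :=
  (finite_and_psi_mul_finrank M N K h).2

/-- **`[F_K(Mq) : F_K(M)] = q + 1`** for a prime `q ∤ M` (`N = M * q`). -/
theorem finrank_of_prime {q : ℕ} (hq : q.Prime) (hqM : ¬ q ∣ M) (hN : N = M * q) :
    letI := algTower M N K (hN ▸ Dvd.intro q rfl)
    Module.finrank ↥(FK M K) ↥(FK N K) = q + 1 := by
  have h : M ∣ N := hN ▸ Dvd.intro q rfl
  letI := algTower M N K h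
  have h1 := psi_mul_finrank M N K h
  have hψ : dedekindPsi N = (q + 1) * dedekindPsi M := by
    rw [hN, mul_comm M q]
    exact Fermat.Agent.S20.CosetModel.dedekindPsi_prime_mul_of_not_dvd q M hq (NeZero.ne M) hqM
  have hpos : 0 < dedekindPsi M := AnDegree.dedekindPsi_pos M
  have h3 : dedekindPsi M * Module.finrank ↥(FK M K) ↥(FK N K) = dedekindPsi M * (q + 1) := by
    rw [h1, hψ]; ring
  exact Nat.eq_of_mul_eq_mul_left hpos h3

/-- The same with `N = q * M`. -/
theorem finrank_of_prime' {q : ℕ} (hq : q.Prime) (hqM : ¬ q ∣ M) (hN : N = q * M) :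
    letI := algTower M N K (hN ▸ Dvd.intro_left q rfl)
    Module.finrank ↥(FK M K) ↥(FK N K) = q + 1 :=
  finrank_of_prime M N K hq hqM (hN.trans (mul_comm q M))

end Fermat.Agent.S34.DegTower
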