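import Mathlib

/-!
# S34, abstract part of (III): two reductions of a degree `q + 1` extension of a DVR field

`V₀` is a discrete valuation ring with fraction field `E₀`, uniformizer `ϖ`; `E / E₀` is a field
extension of degree `≤ q + 1`; `B` is ANY `V₀`-subalgebra of `E` (no integrality is assumed)
with two ring homomorphisms `ρ₁ : B →+* κ₁`, `ρ₂ : B →+* κ₂` into domains which kill `ϖ`,
elements `x y : B` with `ρ₁ x = 0`, `ρ₂ x ≠ 0`, `ρ₁ y ≠ 0`, `ρ₂ y = 0`, and `b : Fin q → B`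
whose `ρ₂`-images are linearly independent over `ρ₂ (V₀)`.

Then `B` is a free `V₀`-module on `y, x * b 0, …, x * b (q-1)` (`exists_repr`),
`ker ρ₁ ∩ ker ρ₂ = ϖ B` (`exists_eq_mul_of_mem_ker`), `ρ₁ (B) = ρ₁ (V₀)` (`exists_sub_mem_ker₁`),
`ker ρ₁ ⊆ ϖ B + x B`, `ker ρ₂ ⊆ ϖ B + y B`.

`two_primes` is the special case `B = integralClosure V₀ E`, with the one-sided separation
hypothesis `∃ x, ρ₁ x = 0 ∧ ρ₂ x ≠ 0`.
-/

set_option autoImplicit false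

namespace Fermat.Agent.S34.RamTwo

section Scale

variable {V₀ E₀ : Type*} [CommRing V₀] [IsDomain V₀] [IsDiscreteValuationRing V₀]
  [Field E₀] [Algebra V₀ E₀] [IsFractionRing V₀ E₀]

/-- In the fraction field of a valuation ring, a finite family which is not identically zero is
a multiple of an integral family one of whose entries is `1`. -/
theorem exists_scale {ι : Type*} [Fintype ι] (a : ι → E₀) (h : ∃ i, a i ≠ 0) :
    ∃ (i₀ : ι) (c : ι → V₀), a i₀ ≠ 0 ∧ c i₀ = 1 ∧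
      ∀ i, a i = a i₀ * algebraMap V₀ E₀ (c i) := by
  classical
  obtain ⟨j, hj⟩ := h
  obtain ⟨i₀, -, hi₀⟩ := Finset.exists_max_image Finset.univ
    (fun i => ValuationRing.valuation V₀ E₀ (a i)) ⟨j, Finset.mem_univ j⟩
  have h0 : a i₀ ≠ 0 := by
    intro h0
    have h1 := hi₀ j (Finset.mem_univ j)
    rw [h0, map_zero] at h1
    exact hj ((map_eq_zero _).mp (le_antisymm h1 zero_le))
  have key : ∀ i, ∃ c : V₀, algebraMap V₀ E₀ c = a i / a i₀ := by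
    intro i
    have h1 : ValuationRing.valuation V₀ E₀ (a i / a i₀) ≤ 1 := by
      rw [map_div₀]
      exact div_le_one_of_le₀ (hi₀ i (Finset.mem_univ i)) zero_le
    exact (ValuationRing.mem_integer_iff V₀ E₀ _).mp h1
  choose c hc using key
  refine ⟨i₀, Function.update c i₀ 1, h0, by simp, fun i => ?_⟩
  by_cases hi : i = i₀
  · subst hi; simp
  · rw [Function.update_of_ne hi, hc]; field_simp

/-- An element of a DVR not divisible by the uniformizer is a unit. -/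
theorem isUnit_of_not_dvd {ϖ : V₀} (hϖ : Irreducible ϖ) {c : V₀} (hc : ¬ ϖ ∣ c) : IsUnit c := by
  have hmax := (IsDiscreteValuationRing.irreducible_iff_uniformizer ϖ).mp hϖ
  have h1 : c ∉ IsLocalRing.maximalIdeal V₀ := by
    rw [hmax, Ideal.mem_span_singleton]; exact hc
  exact IsLocalRing.notMem_maximalIdeal.mp h1

end Scale

section Main

variable {V₀ E₀ E : Type*} [CommRing V₀] [IsDomain V₀] [IsDiscreteValuationRing V₀]
  [Field E₀] [Algebra V₀ E₀] [IsFractionRing V₀ E₀] [Field E] [Algebra E₀ E] [Algebra V₀ E]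
  [IsScalarTower V₀ E₀ E]

/-- A ring homomorphism from a `V₀`-algebra to a nontrivial ring kills only multiples of the
uniformizer among the constants. -/
theorem dvd_of_map_eq_zero {B : Subalgebra V₀ E} {κ : Type*} [CommRing κ] [Nontrivial κ]
    (ρ : B →+* κ) {ϖ : V₀} (hϖ : Irreducible ϖ) {c : V₀}
    (hc : ρ (algebraMap V₀ B c) = 0) : ϖ ∣ c := by
  by_contra hdvd
  have hu : IsUnit c := isUnit_of_not_dvd hϖ hdvd
  have h1 := (hu.map (algebraMap V₀ B)).map ρ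
  rw [hc] at h1
  exact not_isUnit_zero h1

/-- The `q + 1` generators `y, x * b 0, …, x * b (q - 1)`. -/
def gen {B : Subalgebra V₀ E} {q : ℕ} (x y : B) (b : Fin q → B) : Fin (q + 1) → B :=
  Fin.cons y (fun i => x * b i)

omit [IsDomain V₀] [IsDiscreteValuationRing V₀] [IsFractionRing V₀ E₀] in
theorem coe_sum_gen {B : Subalgebra V₀ E} {q : ℕ} (x y : B) (b : Fin q → B)
    (c : Fin (q + 1) → V₀) :
    ((∑ k, algebraMap V₀ B (c k) * gen x y b k : B) : E) =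
      ∑ k, algebraMap V₀ E₀ (c k) • ((gen x y b k : B) : E) := by
  rw [AddSubmonoidClass.coe_finsetSum]
  refine Finset.sum_congr rfl fun k _ => ?_
  rw [Subalgebra.coe_mul, Subalgebra.coe_algebraMap, Algebra.smul_def,
    IsScalarTower.algebraMap_apply V₀ E₀ E]

variable {κ₁ κ₂ : Type*} [CommRing κ₁] [IsDomain κ₁] [CommRing κ₂] [IsDomain κ₂]
  {B : Subalgebra V₀ E} {ϖ : V₀} {ρ₁ : B →+* κ₁} {ρ₂ : B →+* κ₂} {q : ℕ} {x y : B}
  {b : Fin q → B}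

/-- Key computation: a `V₀`-combination of the generators lying in `ker ρ₁ ∩ ker ρ₂` has all
its coefficients divisible by `ϖ`. -/
theorem dvd_of_mem_ker (hϖ : Irreducible ϖ)
    (hx₁ : ρ₁ x = 0) (hx₂ : ρ₂ x ≠ 0) (hy₁ : ρ₁ y ≠ 0) (hy₂ : ρ₂ y = 0)
    (hb : ∀ c : Fin q → V₀, ∑ i, ρ₂ (algebraMap V₀ B (c i)) * ρ₂ (b i) = 0 → ∀ i, ϖ ∣ c i)
    (c : Fin (q + 1) → V₀)
    (hw₁ : ρ₁ (∑ k, algebraMap V₀ B (c k) * gen x y b k) = 0)
    (hw₂ : ρ₂ (∑ k, algebraMap V₀ B (c k) * gen x y b k) = 0) : ∀ k, ϖ ∣ c k := by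
  rw [Fin.sum_univ_succ] at hw₁ hw₂
  simp only [gen, Fin.cons_zero, Fin.cons_succ, map_add, map_mul, map_sum, hx₁, hy₂, zero_mul,
    mul_zero, Finset.sum_const_zero, add_zero, zero_add] at hw₁ hw₂
  have h0 : ϖ ∣ c 0 := dvd_of_map_eq_zero ρ₁ hϖ ((mul_eq_zero.mp hw₁).resolve_right hy₁)
  have hs : ∑ i : Fin q, ρ₂ (algebraMap V₀ B (c i.succ)) * ρ₂ (b i) = 0 := by
    have h1 : ρ₂ x * ∑ i : Fin q, ρ₂ (algebraMap V₀ B (c i.succ)) * ρ₂ (b i) = 0 := by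
      rw [Finset.mul_sum, ← hw₂]
      exact Finset.sum_congr rfl fun i _ => by ring
    exact (mul_eq_zero.mp h1).resolve_left hx₂
  have h2 := hb (fun i => c i.succ) hs
  intro k
  exact Fin.cases h0 h2 k

/-- The generators are linearly independent over `E₀`. -/
theorem linearIndependent_gen (hϖ : Irreducible ϖ)
    (hx₁ : ρ₁ x = 0) (hx₂ : ρ₂ x ≠ 0) (hy₁ : ρ₁ y ≠ 0) (hy₂ : ρ₂ y = 0)
    (hb : ∀ c : Fin q → V₀, ∑ i, ρ₂ (algebraMap V₀ B (c i)) * ρ₂ (b i) = 0 → ∀ i, ϖ ∣ c i) :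
    LinearIndependent E₀ (fun k => ((gen x y b k : B) : E)) := by
  rw [Fintype.linearIndependent_iff]
  intro a ha
  by_contra hne
  push Not at hne
  obtain ⟨i₀, c, hi₀, hc1, hc⟩ := exists_scale (V₀ := V₀) a hne
  have hsum : ∑ k, algebraMap V₀ B (c k) * gen x y b k = 0 := by
    apply Subtype.ext
    rw [coe_sum_gen (E₀ := E₀), ZeroMemClass.coe_zero]
    have h1 : a i₀ • ∑ k, algebraMap V₀ E₀ (c k) • ((gen x y b k : B) : E) = 0 := by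
      rw [← ha, Finset.smul_sum]
      refine Finset.sum_congr rfl fun k _ => ?_
      rw [smul_smul, ← hc k]
    exact (smul_eq_zero.mp h1).resolve_left hi₀
  have h2 := dvd_of_mem_ker hϖ hx₁ hx₂ hy₁ hy₂ hb c (by rw [hsum, map_zero])
    (by rw [hsum, map_zero]) i₀
  rw [hc1] at h2
  exact hϖ.not_isUnit (isUnit_of_dvd_one h2)

/-- (a) `B` is spanned over `V₀` by the generators `y, x * b i`. -/
theorem exists_repr [FiniteDimensional E₀ E] (hdeg : Module.finrank E₀ E ≤ q + 1)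
    (hϖ : Irreducible ϖ)
    (h₁ : ρ₁ (algebraMap V₀ B ϖ) = 0) (h₂ : ρ₂ (algebraMap V₀ B ϖ) = 0)
    (hx₁ : ρ₁ x = 0) (hx₂ : ρ₂ x ≠ 0) (hy₁ : ρ₁ y ≠ 0) (hy₂ : ρ₂ y = 0)
    (hb : ∀ c : Fin q → V₀, ∑ i, ρ₂ (algebraMap V₀ B (c i)) * ρ₂ (b i) = 0 → ∀ i, ϖ ∣ c i)
    (z : B) : ∃ c : Fin (q + 1) → V₀, z = ∑ k, algebraMap V₀ B (c k) * gen x y b k := by
  have hli := linearIndependent_gen (E₀ := E₀) hϖ hx₁ hx₂ hy₁ hy₂ hb
  have hcard : Fintype.card (Fin (q + 1)) = Module.finrank E₀ E := by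
    have h1 := hli.fintype_card_le_finrank
    rw [Fintype.card_fin] at h1 ⊢
    omega
  have hspan := hli.span_eq_top_of_card_eq_finrank' hcard
  have hz : (z : E) ∈ Submodule.span E₀ (Set.range fun k => ((gen x y b k : B) : E)) := by
    rw [hspan]; trivial
  obtain ⟨a, ha⟩ := (Submodule.mem_span_range_iff_exists_fun E₀).mp hz
  by_cases hall : ∀ k, ∃ d : V₀, algebraMap V₀ E₀ d = a k
  · choose d hd using hall
    refine ⟨d, Subtype.ext ?_⟩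
    rw [coe_sum_gen (E₀ := E₀), ← ha]
    exact Finset.sum_congr rfl fun k _ => by rw [hd k]
  · exfalso
    have hne : ∃ i, a i ≠ 0 := by
      by_contra h0
      push Not at h0
      exact hall fun k => ⟨0, by rw [map_zero, h0 k]⟩
    obtain ⟨i₀, c, hi₀, hc1, hc⟩ := exists_scale (V₀ := V₀) a hne
    have hnot : ¬ ∃ d : V₀, algebraMap V₀ E₀ d = a i₀ := by
      rintro ⟨d, hd⟩
      exact hall fun k => ⟨d * c k, by rw [map_mul, hd, ← hc k]⟩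
    obtain ⟨s, hs⟩ : ∃ s : V₀, algebraMap V₀ E₀ s = (a i₀)⁻¹ := by
      rcases ValuationRing.isInteger_or_isInteger V₀ (a i₀) with h | h
      · exact absurd h hnot
      · exact h
    have hsu : ¬ IsUnit s := by
      intro hu
      apply hnot
      obtain ⟨u, rfl⟩ := hu
      refine ⟨((u⁻¹ : V₀ˣ) : V₀), ?_⟩
      have h1 : algebraMap V₀ E₀ ((u⁻¹ : V₀ˣ) : V₀) * algebraMap V₀ E₀ (u : V₀) = 1 := by
        rw [← map_mul, Units.inv_mul, map_one]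
      rw [hs] at h1
      field_simp at h1
      exact h1
    have hdvd : ϖ ∣ s := by
      by_contra hnd
      exact hsu (isUnit_of_not_dvd hϖ hnd)
    obtain ⟨s', rfl⟩ := hdvd
    have hsum : ∑ k, algebraMap V₀ B (c k) * gen x y b k =
        algebraMap V₀ B ϖ * (algebraMap V₀ B s' * z) := by
      apply Subtype.ext
      rw [coe_sum_gen (E₀ := E₀), ← mul_assoc, ← map_mul, Subalgebra.coe_mul,
        Subalgebra.coe_algebraMap, IsScalarTower.algebraMap_apply V₀ E₀ E, hs, ← Algebra.smul_def,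
        ← ha, Finset.smul_sum]
      refine Finset.sum_congr rfl fun k _ => ?_
      rw [smul_smul]
      congr 1
      rw [hc k]
      field_simp
    have h3 := dvd_of_mem_ker hϖ hx₁ hx₂ hy₁ hy₂ hb c (by rw [hsum, map_mul, h₁, zero_mul])
      (by rw [hsum, map_mul, h₂, zero_mul]) i₀
    rw [hc1] at h3
    exact hϖ.not_isUnit (isUnit_of_dvd_one h3)

/-- (b) reduced fibre: `ker ρ₁ ∩ ker ρ₂ = ϖ B`. -/
theorem exists_eq_mul_of_mem_ker [FiniteDimensional E₀ E] (hdeg : Module.finrank E₀ E ≤ q + 1)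
    (hϖ : Irreducible ϖ)
    (h₁ : ρ₁ (algebraMap V₀ B ϖ) = 0) (h₂ : ρ₂ (algebraMap V₀ B ϖ) = 0)
    (hx₁ : ρ₁ x = 0) (hx₂ : ρ₂ x ≠ 0) (hy₁ : ρ₁ y ≠ 0) (hy₂ : ρ₂ y = 0)
    (hb : ∀ c : Fin q → V₀, ∑ i, ρ₂ (algebraMap V₀ B (c i)) * ρ₂ (b i) = 0 → ∀ i, ϖ ∣ c i)
    (z : B) (hz₁ : ρ₁ z = 0) (hz₂ : ρ₂ z = 0) : ∃ z' : B, z = algebraMap V₀ B ϖ * z' := by
  obtain ⟨c, rfl⟩ := exists_repr (E₀ := E₀) hdeg hϖ h₁ h₂ hx₁ hx₂ hy₁ hy₂ hb z
  have h1 := dvd_of_mem_ker hϖ hx₁ hx₂ hy₁ hy₂ hb c hz₁ hz₂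
  choose d hd using h1
  refine ⟨∑ k, algebraMap V₀ B (d k) * gen x y b k, ?_⟩
  rw [Finset.mul_sum]
  refine Finset.sum_congr rfl fun k _ => ?_
  rw [hd k, map_mul]
  ring

omit [IsDomain V₀] [IsDiscreteValuationRing V₀] [Field E₀] [Algebra V₀ E₀] [IsFractionRing V₀ E₀]
  [Algebra E₀ E] [IsScalarTower V₀ E₀ E] [IsDomain κ₁] in
/-- `ρ₁` of a combination of the generators. -/
theorem map₁_sum_gen (hx₁ : ρ₁ x = 0) (c : Fin (q + 1) → V₀) :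
    ρ₁ (∑ k, algebraMap V₀ B (c k) * gen x y b k) = ρ₁ (algebraMap V₀ B (c 0)) * ρ₁ y := by
  rw [Fin.sum_univ_succ]
  simp only [gen, Fin.cons_zero, Fin.cons_succ, map_add, map_mul, map_sum, hx₁, zero_mul,
    mul_zero, Finset.sum_const_zero, add_zero]

omit [IsDomain V₀] [IsDiscreteValuationRing V₀] [Field E₀] [Algebra V₀ E₀] [IsFractionRing V₀ E₀]
  [Algebra E₀ E] [IsScalarTower V₀ E₀ E] [IsDomain κ₂] in
/-- `ρ₂` of a combination of the generators. -/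
theorem map₂_sum_gen (hy₂ : ρ₂ y = 0) (c : Fin (q + 1) → V₀) :
    ρ₂ (∑ k, algebraMap V₀ B (c k) * gen x y b k) =
      ρ₂ x * ∑ i : Fin q, ρ₂ (algebraMap V₀ B (c i.succ)) * ρ₂ (b i) := by
  rw [Fin.sum_univ_succ]
  simp only [gen, Fin.cons_zero, Fin.cons_succ, map_add, map_mul, map_sum, hy₂, mul_zero,
    zero_add]
  rw [Finset.mul_sum]
  exact Finset.sum_congr rfl fun i _ => by ring

/-- (c) `f₁ = 1`: every element of `B` is congruent to a constant modulo `ker ρ₁`. -/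
theorem exists_sub_mem_ker₁ [FiniteDimensional E₀ E] (hdeg : Module.finrank E₀ E ≤ q + 1)
    (hϖ : Irreducible ϖ)
    (h₁ : ρ₁ (algebraMap V₀ B ϖ) = 0) (h₂ : ρ₂ (algebraMap V₀ B ϖ) = 0)
    (hx₁ : ρ₁ x = 0) (hx₂ : ρ₂ x ≠ 0) (hy₁ : ρ₁ y ≠ 0) (hy₂ : ρ₂ y = 0)
    (hb : ∀ c : Fin q → V₀, ∑ i, ρ₂ (algebraMap V₀ B (c i)) * ρ₂ (b i) = 0 → ∀ i, ϖ ∣ c i)
    (z : B) : ∃ c : V₀, ρ₁ (z - algebraMap V₀ B c) = 0 := by
  obtain ⟨c, hc⟩ := exists_repr (E₀ := E₀) hdeg hϖ h₁ h₂ hx₁ hx₂ hy₁ hy₂ hb z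
  obtain ⟨e, he⟩ := exists_repr (E₀ := E₀) hdeg hϖ h₁ h₂ hx₁ hx₂ hy₁ hy₂ hb (y * y)
  have h1 : ρ₁ z = ρ₁ (algebraMap V₀ B (c 0)) * ρ₁ y := by
    rw [← map₁_sum_gen hx₁ c, ← hc]
  have h2 : ρ₁ y * ρ₁ y = ρ₁ (algebraMap V₀ B (e 0)) * ρ₁ y := by
    rw [← map₁_sum_gen hx₁ e, ← he, map_mul]
  have h3 : ρ₁ y = ρ₁ (algebraMap V₀ B (e 0)) := mul_right_cancel₀ hy₁ h2
  refine ⟨c 0 * e 0, ?_⟩
  rw [map_sub, h1, map_mul, map_mul, ← h3, sub_self]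

/-- (d₁) `ker ρ₁ ⊆ ϖ B + x B`. -/
theorem exists_of_mem_ker₁ [FiniteDimensional E₀ E] (hdeg : Module.finrank E₀ E ≤ q + 1)
    (hϖ : Irreducible ϖ)
    (h₁ : ρ₁ (algebraMap V₀ B ϖ) = 0) (h₂ : ρ₂ (algebraMap V₀ B ϖ) = 0)
    (hx₁ : ρ₁ x = 0) (hx₂ : ρ₂ x ≠ 0) (hy₁ : ρ₁ y ≠ 0) (hy₂ : ρ₂ y = 0)
    (hb : ∀ c : Fin q → V₀, ∑ i, ρ₂ (algebraMap V₀ B (c i)) * ρ₂ (b i) = 0 → ∀ i, ϖ ∣ c i)
    (z : B) (hz₁ : ρ₁ z = 0) : ∃ u v : B, z = algebraMap V₀ B ϖ * u + x * v := by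
  obtain ⟨c, rfl⟩ := exists_repr (E₀ := E₀) hdeg hϖ h₁ h₂ hx₁ hx₂ hy₁ hy₂ hb z
  rw [map₁_sum_gen hx₁ c] at hz₁
  obtain ⟨d, hd⟩ := dvd_of_map_eq_zero ρ₁ hϖ ((mul_eq_zero.mp hz₁).resolve_right hy₁)
  refine ⟨algebraMap V₀ B d * y, ∑ i : Fin q, algebraMap V₀ B (c i.succ) * b i, ?_⟩
  rw [Fin.sum_univ_succ, Finset.mul_sum]
  simp only [gen, Fin.cons_zero, Fin.cons_succ]
  rw [hd, map_mul, mul_assoc]
  congr 1
  exact Finset.sum_congr rfl fun i _ => by ring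

/-- (d₂) `ker ρ₂ ⊆ ϖ B + y B`. -/
theorem exists_of_mem_ker₂ [FiniteDimensional E₀ E] (hdeg : Module.finrank E₀ E ≤ q + 1)
    (hϖ : Irreducible ϖ)
    (h₁ : ρ₁ (algebraMap V₀ B ϖ) = 0) (h₂ : ρ₂ (algebraMap V₀ B ϖ) = 0)
    (hx₁ : ρ₁ x = 0) (hx₂ : ρ₂ x ≠ 0) (hy₁ : ρ₁ y ≠ 0) (hy₂ : ρ₂ y = 0)
    (hb : ∀ c : Fin q → V₀, ∑ i, ρ₂ (algebraMap V₀ B (c i)) * ρ₂ (b i) = 0 → ∀ i, ϖ ∣ c i)
    (z : B) (hz₂ : ρ₂ z = 0) : ∃ u v : B, z = algebraMap V₀ B ϖ * u + y * v := by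
  obtain ⟨c, rfl⟩ := exists_repr (E₀ := E₀) hdeg hϖ h₁ h₂ hx₁ hx₂ hy₁ hy₂ hb z
  rw [map₂_sum_gen hy₂ c] at hz₂
  have h1 := hb (fun i => c i.succ) ((mul_eq_zero.mp hz₂).resolve_left hx₂)
  choose d hd using h1
  refine ⟨∑ i : Fin q, algebraMap V₀ B (d i) * (x * b i), algebraMap V₀ B (c 0), ?_⟩
  rw [Fin.sum_univ_succ, Finset.mul_sum]
  simp only [gen, Fin.cons_zero, Fin.cons_succ]
  rw [add_comm, mul_comm y]
  congr 1
  refine Finset.sum_congr rfl fun i _ => ?_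
  rw [hd i, map_mul]
  ring

/-- (e) if the generators are integral over `V₀`, so is every element of `B`. -/
theorem isIntegral_coe [FiniteDimensional E₀ E] (hdeg : Module.finrank E₀ E ≤ q + 1)
    (hϖ : Irreducible ϖ)
    (h₁ : ρ₁ (algebraMap V₀ B ϖ) = 0) (h₂ : ρ₂ (algebraMap V₀ B ϖ) = 0)
    (hx₁ : ρ₁ x = 0) (hx₂ : ρ₂ x ≠ 0) (hy₁ : ρ₁ y ≠ 0) (hy₂ : ρ₂ y = 0)
    (hb : ∀ c : Fin q → V₀, ∑ i, ρ₂ (algebraMap V₀ B (c i)) * ρ₂ (b i) = 0 → ∀ i, ϖ ∣ c i)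
    (hxi : IsIntegral V₀ (x : E)) (hyi : IsIntegral V₀ (y : E))
    (hbi : ∀ i, IsIntegral V₀ (b i : E)) (z : B) : IsIntegral V₀ (z : E) := by
  obtain ⟨c, rfl⟩ := exists_repr (E₀ := E₀) hdeg hϖ h₁ h₂ hx₁ hx₂ hy₁ hy₂ hb z
  rw [AddSubmonoidClass.coe_finsetSum]
  refine IsIntegral.sum _ fun k _ => ?_
  rw [Subalgebra.coe_mul, Subalgebra.coe_algebraMap]
  refine IsIntegral.mul isIntegral_algebraMap ?_
  refine Fin.cases ?_ (fun i => ?_) k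
  · simpa [gen] using hyi
  · simpa [gen] using hxi.mul (hbi i)

end Main

section IntegralClosure

variable {V₀ E₀ E : Type*} [CommRing V₀] [IsDomain V₀] [IsDiscreteValuationRing V₀]
  [Field E₀] [Algebra V₀ E₀] [IsFractionRing V₀ E₀] [Field E] [Algebra E₀ E] [Algebra V₀ E]
  [IsScalarTower V₀ E₀ E]

/-- A prime ideal of the integral closure of a DVR containing the uniformizer is maximal. -/
theorem ker_isMaximal (ϖ : V₀) (hϖ : Irreducible ϖ) {κ : Type*} [Field κ]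
    (ρ : integralClosure V₀ E →+* κ)
    (h : ρ (algebraMap V₀ (integralClosure V₀ E) ϖ) = 0) : (RingHom.ker ρ).IsMaximal := by
  have hprime : (RingHom.ker ρ).IsPrime := RingHom.ker_isPrime ρ
  apply Ideal.isMaximal_of_isIntegral_of_isMaximal_comap (R := V₀) (RingHom.ker ρ)
  have hcomap : (RingHom.ker ρ).comap (algebraMap V₀ (integralClosure V₀ E)) =
      IsLocalRing.maximalIdeal V₀ := by
    apply le_antisymm
    · exact IsLocalRing.le_maximalIdeal (Ideal.comap_ne_top _ hprime.ne_top)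
    · rw [(IsDiscreteValuationRing.irreducible_iff_uniformizer ϖ).mp hϖ,
        Ideal.span_singleton_le_iff_mem, Ideal.mem_comap, RingHom.mem_ker]
      exact h
  rw [hcomap]
  exact IsLocalRing.maximalIdeal.isMaximal V₀

/-- (R0) **Two primes**: in the integral closure `B` of a DVR `V₀` in an extension of degree
`q + 1` of its fraction field, two reductions `ρ₁ ≠ ρ₂` killing the uniformizer, the second of
residue degree `≥ q`, satisfy `ker ρ₁ ∩ ker ρ₂ = ϖ B`. -/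
theorem two_primes (ϖ : V₀) (hϖ : Irreducible ϖ) {κ₁ κ₂ : Type*} [Field κ₁] [Field κ₂]
    (ρ₁ : integralClosure V₀ E →+* κ₁) (ρ₂ : integralClosure V₀ E →+* κ₂)
    (h₁ : ρ₁ (algebraMap V₀ (integralClosure V₀ E) ϖ) = 0)
    (h₂ : ρ₂ (algebraMap V₀ (integralClosure V₀ E) ϖ) = 0)
    (hne : ∃ x, ρ₁ x = 0 ∧ ρ₂ x ≠ 0) (q : ℕ) (hdeg : Module.finrank E₀ E = q + 1)
    (b : Fin q → integralClosure V₀ E)
    (hb : ∀ c : Fin q → V₀,
      ∑ i, ρ₂ (algebraMap V₀ (integralClosure V₀ E) (c i)) * ρ₂ (b i) = 0 → ∀ i, ϖ ∣ c i) :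
    ∀ x : integralClosure V₀ E, ρ₁ x = 0 → ρ₂ x = 0 →
      ∃ y, x = algebraMap V₀ (integralClosure V₀ E) ϖ * y := by
  obtain ⟨x, hx₁, hx₂⟩ := hne
  have hfin : FiniteDimensional E₀ E := FiniteDimensional.of_finrank_pos (by omega)
  have hP₂ := ker_isMaximal ϖ hϖ ρ₂ h₂
  have hP₁ : RingHom.ker ρ₁ ≠ ⊤ := (RingHom.ker_isPrime ρ₁).ne_top
  obtain ⟨y, hy₂, hy₁⟩ : ∃ y, ρ₂ y = 0 ∧ ρ₁ y ≠ 0 := by
    by_contra hcon
    push Not at hcon
    have hle : RingHom.ker ρ₂ ≤ RingHom.ker ρ₁ := fun y hy =>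
      RingHom.mem_ker.mpr (hcon y (RingHom.mem_ker.mp hy))
    have heq := hP₂.eq_of_le hP₁ hle
    have hx : x ∈ RingHom.ker ρ₂ := by rw [heq]; exact RingHom.mem_ker.mpr hx₁
    exact hx₂ (RingHom.mem_ker.mp hx)
  intro z hz₁ hz₂
  exact exists_eq_mul_of_mem_ker (E₀ := E₀) hdeg.le hϖ h₁ h₂ hx₁ hx₂ hy₁ hy₂ hb z hz₁ hz₂

end IntegralClosure

end Fermat.Agent.S34.RamTwo
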