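import Mathlib
import Fermat.Agent.S34.RamTwo

/-!
# S34, abstract part of (III) in `ValuationSubring` form (wrapper of `S34/RamTwo`)

`V₀` a discrete valuation ring with fraction field `E₀` and uniformizer `ϖ`, `E / E₀` of degree
`≤ q + 1`, `V1 V2 : ValuationSubring E` containing `V₀`, with ring homomorphisms
`ρ₁ : V1 →+* κ₁`, `ρ₂ : V2 →+* κ₂` ("reductions") killing `ϖ`; `x y ∈ V1 ∩ V2` with
`ρ₁ x = 0`, `ρ₂ x ≠ 0`, `ρ₁ y ≠ 0`, `ρ₂ y = 0`; `b i ∈ V1 ∩ V2` with `ρ₂ (b i)` independent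
over `ρ₂ (V₀)`  (`Hyp`).

* `Hyp.exists_eq_mul` : `z ∈ V1 ∩ V2`, `ρ₁ z = 0`, `ρ₂ z = 0` ⟹ `z = ϖ z'`, `z' ∈ V1 ∩ V2`;
* `Hyp.exists_eq₁_of_mem_inter` / `Hyp.exists_eq₁` : `ρ₁ (V1) = ρ₁ (V₀)` (residue degree one),
  first on `V1 ∩ V2`, then on all of `V1`;
* `Hyp.isIntegral` : if `x`, `y`, `b i` are integral over `V₀` then so is every `z ∈ V1 ∩ V2`;
* `Hyp.exists_repr` : `V1 ∩ V2 = V₀ y ⊕ ⨁ V₀ x (b i)`.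
-/

set_option autoImplicit false

namespace Fermat.Agent.S34.RamTwoV

open Fermat.Agent.S34

variable {V₀ E : Type*} [CommRing V₀] [IsDomain V₀] [IsDiscreteValuationRing V₀]
  [Field E] [Algebra V₀ E]

/-- The `V₀`-subalgebra `V1 ∩ V2`. -/
def inter (V1 V2 : ValuationSubring E) (h1 : ∀ c : V₀, algebraMap V₀ E c ∈ V1)
    (h2 : ∀ c : V₀, algebraMap V₀ E c ∈ V2) : Subalgebra V₀ E :=
  { (V1.toSubring ⊓ V2.toSubring).toSubsemiring with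
    algebraMap_mem' := fun c => ⟨h1 c, h2 c⟩ }

omit [IsDomain V₀] [IsDiscreteValuationRing V₀] in
theorem mem_inter {V1 V2 : ValuationSubring E} {h1 : ∀ c : V₀, algebraMap V₀ E c ∈ V1}
    {h2 : ∀ c : V₀, algebraMap V₀ E c ∈ V2} {z : E} :
    z ∈ inter V1 V2 h1 h2 ↔ z ∈ V1 ∧ z ∈ V2 := Iff.rfl

/-- The inclusion `V1 ∩ V2 → V1`. -/
def toV1 (V1 V2 : ValuationSubring E) (h1 : ∀ c : V₀, algebraMap V₀ E c ∈ V1)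
    (h2 : ∀ c : V₀, algebraMap V₀ E c ∈ V2) : inter V1 V2 h1 h2 →+* V1 where
  toFun z := ⟨z.1, z.2.1⟩
  map_one' := rfl
  map_mul' _ _ := rfl
  map_zero' := rfl
  map_add' _ _ := rfl

/-- The inclusion `V1 ∩ V2 → V2`. -/
def toV2 (V1 V2 : ValuationSubring E) (h1 : ∀ c : V₀, algebraMap V₀ E c ∈ V1)
    (h2 : ∀ c : V₀, algebraMap V₀ E c ∈ V2) : inter V1 V2 h1 h2 →+* V2 where
  toFun z := ⟨z.1, z.2.2⟩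
  map_one' := rfl
  map_mul' _ _ := rfl
  map_zero' := rfl
  map_add' _ _ := rfl

variable {κ₁ κ₂ : Type*} [CommRing κ₁] [IsDomain κ₁] [CommRing κ₂] [IsDomain κ₂]

/-- The hypotheses. -/
structure Hyp (E₀ : Type*) [Field E₀] [Algebra E₀ E] (V1 V2 : ValuationSubring E)
    (ρ₁ : V1 →+* κ₁) (ρ₂ : V2 →+* κ₂) (ϖ : V₀) (q : ℕ) (x y : E) (b : Fin q → E) : Prop where
  fin : FiniteDimensional E₀ E
  deg : Module.finrank E₀ E ≤ q + 1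
  irr : Irreducible ϖ
  le₁ : ∀ c : V₀, algebraMap V₀ E c ∈ V1
  le₂ : ∀ c : V₀, algebraMap V₀ E c ∈ V2
  pi₁ : ρ₁ ⟨algebraMap V₀ E ϖ, le₁ ϖ⟩ = 0
  pi₂ : ρ₂ ⟨algebraMap V₀ E ϖ, le₂ ϖ⟩ = 0
  hx₁ : ∃ h : x ∈ V1, ρ₁ ⟨x, h⟩ = 0
  hx₂ : ∃ h : x ∈ V2, ρ₂ ⟨x, h⟩ ≠ 0
  hy₁ : ∃ h : y ∈ V1, ρ₁ ⟨y, h⟩ ≠ 0
  hy₂ : ∃ h : y ∈ V2, ρ₂ ⟨y, h⟩ = 0
  hb₁ : ∀ i, b i ∈ V1
  hb₂ : ∀ i, b i ∈ V2
  ind : ∀ c : Fin q → V₀,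
    ∑ i, ρ₂ ⟨algebraMap V₀ E (c i), le₂ (c i)⟩ * ρ₂ ⟨b i, hb₂ i⟩ = 0 → ∀ i, ϖ ∣ c i

namespace Hyp

variable {E₀ : Type*} [Field E₀] [Algebra V₀ E₀] [IsFractionRing V₀ E₀] [Algebra E₀ E]
  [IsScalarTower V₀ E₀ E]
  {V1 V2 : ValuationSubring E} {ρ₁ : V1 →+* κ₁} {ρ₂ : V2 →+* κ₂} {ϖ : V₀} {q : ℕ} {x y : E}
  {b : Fin q → E}

/-- Free generation: every `z ∈ V1 ∩ V2` is a `V₀`-combination of `y` and the `x * b i`. -/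
theorem exists_repr (H : Hyp (V₀ := V₀) E₀ V1 V2 ρ₁ ρ₂ ϖ q x y b) {z : E} (hz1 : z ∈ V1)
    (hz2 : z ∈ V2) : ∃ (c₀ : V₀) (c : Fin q → V₀),
      z = algebraMap V₀ E c₀ * y + ∑ i, algebraMap V₀ E (c i) * (x * b i) := by
  have := H.fin
  obtain ⟨hx1, hx1'⟩ := H.hx₁
  obtain ⟨hx2, hx2'⟩ := H.hx₂
  obtain ⟨hy1, hy1'⟩ := H.hy₁
  obtain ⟨hy2, hy2'⟩ := H.hy₂
  obtain ⟨c, hc⟩ := RamTwo.exists_repr (E₀ := E₀) (B := inter V1 V2 H.le₁ H.le₂)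
    (ρ₁ := ρ₁.comp (toV1 V1 V2 H.le₁ H.le₂)) (ρ₂ := ρ₂.comp (toV2 V1 V2 H.le₁ H.le₂))
    (x := ⟨x, hx1, hx2⟩) (y := ⟨y, hy1, hy2⟩) (b := fun i => ⟨b i, H.hb₁ i, H.hb₂ i⟩)
    H.deg H.irr H.pi₁ H.pi₂ hx1' hx2' hy1' hy2' H.ind ⟨z, hz1, hz2⟩
  refine ⟨c 0, fun i => c i.succ, ?_⟩
  have h1 := congrArg (Subtype.val) hc
  rw [Fin.sum_univ_succ] at h1
  simpa [RamTwo.gen] using h1

/-- Reduced fibre: `π V1 ∩ π V2 ∩ (V1 ∩ V2) = π (V1 ∩ V2)`. -/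
theorem exists_eq_mul (H : Hyp (V₀ := V₀) E₀ V1 V2 ρ₁ ρ₂ ϖ q x y b) {z : E} (hz1 : z ∈ V1)
    (hz2 : z ∈ V2) (h₁ : ρ₁ ⟨z, hz1⟩ = 0) (h₂ : ρ₂ ⟨z, hz2⟩ = 0) :
    ∃ z' : E, z' ∈ V1 ∧ z' ∈ V2 ∧ z = algebraMap V₀ E ϖ * z' := by
  have := H.fin
  obtain ⟨hx1, hx1'⟩ := H.hx₁
  obtain ⟨hx2, hx2'⟩ := H.hx₂
  obtain ⟨hy1, hy1'⟩ := H.hy₁
  obtain ⟨hy2, hy2'⟩ := H.hy₂
  obtain ⟨z', hz'⟩ := RamTwo.exists_eq_mul_of_mem_ker (E₀ := E₀) (B := inter V1 V2 H.le₁ H.le₂)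
    (ρ₁ := ρ₁.comp (toV1 V1 V2 H.le₁ H.le₂)) (ρ₂ := ρ₂.comp (toV2 V1 V2 H.le₁ H.le₂))
    (x := ⟨x, hx1, hx2⟩) (y := ⟨y, hy1, hy2⟩) (b := fun i => ⟨b i, H.hb₁ i, H.hb₂ i⟩)
    H.deg H.irr H.pi₁ H.pi₂ hx1' hx2' hy1' hy2' H.ind ⟨z, hz1, hz2⟩ h₁ h₂
  exact ⟨z'.1, z'.2.1, z'.2.2, congrArg Subtype.val hz'⟩

/-- Residue degree one on `V1 ∩ V2`. -/
theorem exists_eq₁_of_mem_inter (H : Hyp (V₀ := V₀) E₀ V1 V2 ρ₁ ρ₂ ϖ q x y b) {z : E}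
    (hz1 : z ∈ V1) (hz2 : z ∈ V2) :
    ∃ c : V₀, ρ₁ ⟨z, hz1⟩ = ρ₁ ⟨algebraMap V₀ E c, H.le₁ c⟩ := by
  have := H.fin
  obtain ⟨hx1, hx1'⟩ := H.hx₁
  obtain ⟨hx2, hx2'⟩ := H.hx₂
  obtain ⟨hy1, hy1'⟩ := H.hy₁
  obtain ⟨hy2, hy2'⟩ := H.hy₂
  obtain ⟨c, hc⟩ := RamTwo.exists_sub_mem_ker₁ (E₀ := E₀) (B := inter V1 V2 H.le₁ H.le₂)
    (ρ₁ := ρ₁.comp (toV1 V1 V2 H.le₁ H.le₂)) (ρ₂ := ρ₂.comp (toV2 V1 V2 H.le₁ H.le₂))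
    (x := ⟨x, hx1, hx2⟩) (y := ⟨y, hy1, hy2⟩) (b := fun i => ⟨b i, H.hb₁ i, H.hb₂ i⟩)
    H.deg H.irr H.pi₁ H.pi₂ hx1' hx2' hy1' hy2' H.ind ⟨z, hz1, hz2⟩
  refine ⟨c, ?_⟩
  rw [map_sub, sub_eq_zero] at hc
  exact hc

omit [IsDomain κ₂] [Algebra V₀ E₀] [IsFractionRing V₀ E₀] [IsScalarTower V₀ E₀ E] in
/-- Constants not killed by `ρ₁` are units, and `ρ₁` of the inverse is the inverse. -/
theorem exists_inv_const (H : Hyp (V₀ := V₀) E₀ V1 V2 ρ₁ ρ₂ ϖ q x y b) {c : V₀} {u : V1}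
    (hu : ρ₁ ⟨algebraMap V₀ E c, H.le₁ c⟩ * ρ₁ u = 1) :
    ∃ d : V₀, ρ₁ u = ρ₁ ⟨algebraMap V₀ E d, H.le₁ d⟩ := by
  have hc : ¬ ϖ ∣ c := by
    rintro ⟨c', rfl⟩
    have h1 : (⟨algebraMap V₀ E (ϖ * c'), H.le₁ (ϖ * c')⟩ : V1) =
        ⟨algebraMap V₀ E ϖ, H.le₁ ϖ⟩ * ⟨algebraMap V₀ E c', H.le₁ c'⟩ :=
      Subtype.ext (map_mul _ _ _)
    rw [h1, map_mul, H.pi₁, zero_mul, zero_mul] at hu
    exact zero_ne_one hu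
  obtain ⟨d, hd⟩ := (RamTwo.isUnit_of_not_dvd H.irr hc).exists_right_inv
  refine ⟨d, ?_⟩
  have h2 : (⟨algebraMap V₀ E c, H.le₁ c⟩ : V1) * ⟨algebraMap V₀ E d, H.le₁ d⟩ = 1 :=
    Subtype.ext (by
      change algebraMap V₀ E c * algebraMap V₀ E d = 1
      rw [← map_mul, hd, map_one])
  have h3 := congrArg ρ₁ h2
  rw [map_mul, map_one] at h3
  calc ρ₁ u = ρ₁ u * (ρ₁ ⟨algebraMap V₀ E c, H.le₁ c⟩ * ρ₁ ⟨algebraMap V₀ E d, H.le₁ d⟩) := by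
        rw [h3, mul_one]
    _ = (ρ₁ ⟨algebraMap V₀ E c, H.le₁ c⟩ * ρ₁ u) * ρ₁ ⟨algebraMap V₀ E d, H.le₁ d⟩ := by ring
    _ = ρ₁ ⟨algebraMap V₀ E d, H.le₁ d⟩ := by rw [hu, one_mul]

/-- Residue degree one: `ρ₁ (V1) = ρ₁ (V₀)`, on ALL of `V1`. -/
theorem exists_eq₁ (H : Hyp (V₀ := V₀) E₀ V1 V2 ρ₁ ρ₂ ϖ q x y b) (z : V1) :
    ∃ c : V₀, ρ₁ z = ρ₁ ⟨algebraMap V₀ E c, H.le₁ c⟩ := by
  by_cases hz2 : (z : E) ∈ V2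
  · exact H.exists_eq₁_of_mem_inter z.2 hz2
  -- `z ∉ V2`: replace `z` by a unit `z'` of `V1` (`z` or `1 + z`), whose inverse lies in `V1 ∩ V2`
  have key : ∀ z' : V1, (z' : E) ∉ V2 → (z' : E)⁻¹ ∈ V1 →
      ∃ c : V₀, ρ₁ z' = ρ₁ ⟨algebraMap V₀ E c, H.le₁ c⟩ := by
    intro z' hz'2 hz'inv
    have hinv2 : (z' : E)⁻¹ ∈ V2 := (V2.mem_or_inv_mem (z' : E)).resolve_left hz'2
    obtain ⟨c, hc⟩ := H.exists_eq₁_of_mem_inter hz'inv hinv2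
    have hne : (z' : E) ≠ 0 := fun h0 => hz'2 (by rw [h0]; exact V2.zero_mem)
    have hmul : (⟨(z' : E)⁻¹, hz'inv⟩ : V1) * z' = 1 := Subtype.ext (inv_mul_cancel₀ hne)
    have h1 := congrArg ρ₁ hmul
    rw [map_mul, map_one, hc] at h1
    exact H.exists_inv_const h1
  by_cases hzinv : (z : E)⁻¹ ∈ V1
  · exact key z hz2 hzinv
  · -- `z` is a non-unit of `V1`, so `1 + z` is a unit
    have hv : V1.valuation (z : E) < 1 := by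
      have h1 : ¬ V1.valuation (z : E)⁻¹ ≤ 1 := fun h => hzinv ((V1.valuation_le_one_iff _).mp h)
      have hne : (z : E) ≠ 0 := fun h0 => hz2 (by rw [h0]; exact V2.zero_mem)
      rw [map_inv₀, not_le] at h1
      by_contra hge
      rw [not_lt] at hge
      exact absurd (inv_le_one_of_one_le₀ hge) (not_le.mpr h1)
    have hv1 : V1.valuation (1 + (z : E)) = 1 := Valuation.map_one_add_of_lt _ hv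
    have hinv : ((1 + z : V1) : E)⁻¹ ∈ V1 := by
      apply (V1.valuation_le_one_iff _).mp
      push_cast
      rw [map_inv₀, hv1, inv_one]
    have hnot2 : ((1 + z : V1) : E) ∉ V2 := by
      intro h
      apply hz2
      have h2 : (z : E) = ((1 + z : V1) : E) - 1 := by push_cast; ring
      rw [h2]
      exact V2.sub_mem h V2.one_mem
    obtain ⟨c, hc⟩ := key (1 + z) hnot2 hinv
    refine ⟨c - 1, ?_⟩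
    have h3 : (⟨algebraMap V₀ E (c - 1), H.le₁ (c - 1)⟩ : V1) =
        ⟨algebraMap V₀ E c, H.le₁ c⟩ - 1 := Subtype.ext (by
      change algebraMap V₀ E (c - 1) = algebraMap V₀ E c - 1
      rw [map_sub, map_one])
    rw [h3, map_sub, map_one, ← hc, map_add, map_one]
    ring

/-- Integrality: if the generators are integral over `V₀`, so is every element of `V1 ∩ V2`. -/
theorem isIntegral (H : Hyp (V₀ := V₀) E₀ V1 V2 ρ₁ ρ₂ ϖ q x y b) (hxi : IsIntegral V₀ x)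
    (hyi : IsIntegral V₀ y) (hbi : ∀ i, IsIntegral V₀ (b i)) {z : E} (hz1 : z ∈ V1)
    (hz2 : z ∈ V2) : IsIntegral V₀ z := by
  obtain ⟨c₀, c, rfl⟩ := H.exists_repr hz1 hz2
  refine IsIntegral.add (IsIntegral.mul isIntegral_algebraMap hyi) (IsIntegral.sum _ fun i _ => ?_)
  exact IsIntegral.mul isIntegral_algebraMap (hxi.mul (hbi i))

end Hyp

end Fermat.Agent.S34.RamTwoV
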