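/-
S34 block [Model2], row [Red2] (A-owner helper43; captain helper85, architect helper5) —
Red2Alg.lean: the two Mathlib-only algebra inputs of the reducedness row.

* `isIntegral_of_isIntegral_mul` (minimal-polynomial descent): `R ≤ V` subrings of a field `E₀`,
  both integrally closed in `E₀`, `π ∈ R`, `π ≠ 0`, with `R ∩ π V = π R`
  (`∀ a ∈ V, π * a ∈ R → a ∈ R`).  If `z` (in a field extension `E` of `E₀`) is integral over `V`
  and `π z` is integral over `R`, then `z` is integral over `R`.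
* `eq_zero_of_sum_mul_pow_eq_zero` (independence of `1, J, …, J^(q-1)` over the series in
  `Q ^ q`): `J` a Laurent series of order `-1`, `c i` Laurent series all of whose nonzero
  coefficients sit in degrees divisible by `q`; then `∑ i < q, c i * J ^ i = 0` forces `c i = 0`.
-/
import Mathlib

set_option autoImplicit false

namespace Fermat.Agent.S34.Red2Alg

open Polynomial

/-! ### Minimal-polynomial descent -/

section Descent

variable {E₀ E : Type*} [Field E₀] [Field E] [Algebra E₀ E]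

/-- iterate of the reducedness hypothesis. -/
theorem mem_of_pow_mul_mem (R V : Subring E₀) (π : E₀)
    (hred : ∀ a ∈ V, π * a ∈ R → a ∈ R) (hRV : R ≤ V) (hπ : π ∈ R) :
    ∀ (k : ℕ) (a : E₀), a ∈ V → π ^ k * a ∈ R → a ∈ R := by
  intro k
  induction k with
  | zero => intro a _ h; simpa using h
  | succ k ih =>
    intro a ha h
    refine ih a ha (hred _ (V.mul_mem (V.pow_mem (hRV hπ) k) ha) ?_)
    rw [← mul_assoc, ← pow_succ']
    exact h

/-- **Minimal-polynomial descent.** -/
theorem isIntegral_of_isIntegral_mul (R V : Subring E₀) (hRV : R ≤ V)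
    (hRcl : ∀ x : E₀, IsIntegral R x → x ∈ R) (hVcl : ∀ x : E₀, IsIntegral V x → x ∈ V)
    (π : E₀) (hπ : π ∈ R) (hπ0 : π ≠ 0)
    (hred : ∀ a ∈ V, π * a ∈ R → a ∈ R)
    (z : E) (hzV : IsIntegral V z) (hzR : IsIntegral R (algebraMap E₀ E π * z)) :
    IsIntegral R z := by
  classical
  have hzE : IsIntegral E₀ z := hzV.tower_top
  set P := minpoly E₀ z with hP
  have hPmonic : P.Monic := minpoly.monic hzE
  -- the coefficients of `P` lie in `V`
  have hPV : ∀ i, P.coeff i ∈ V := by
    obtain ⟨f, hf, hfz⟩ := hzV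
    have hd : P ∣ f.map (algebraMap V E₀) := by
      apply minpoly.dvd
      rw [aeval_map_algebraMap]
      exact hfz
    have h1 := integralClosure.mem_lifts_of_monic_of_dvd_map E₀ hf hPmonic hd
    rw [lifts_iff_coeff_lifts] at h1
    intro i
    obtain ⟨y, hy⟩ := h1 i
    rw [← hy]
    exact hVcl _ y.2
  -- the coefficients of the scaled polynomial lie in `R`
  have hsm : minpoly E₀ (π • z) = P.scaleRoots π :=
    IsIntegrallyClosed.minpoly_smul hπ0 hzE
  have hQR : ∀ i, (P.scaleRoots π).coeff i ∈ R := by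
    have hzR' : IsIntegral R (π • z) := by rw [Algebra.smul_def]; exact hzR
    obtain ⟨g, hg, hgz⟩ := hzR'
    have hd : minpoly E₀ (π • z) ∣ g.map (algebraMap R E₀) := by
      apply minpoly.dvd
      rw [aeval_map_algebraMap]
      exact hgz
    have hmon : (minpoly E₀ (π • z)).Monic := by
      rw [hsm, monic_scaleRoots_iff]; exact hPmonic
    have h1 := integralClosure.mem_lifts_of_monic_of_dvd_map E₀ hg hmon hd
    rw [lifts_iff_coeff_lifts] at h1
    intro i
    obtain ⟨y, hy⟩ := h1 i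
    rw [← hsm, ← hy]
    exact hRcl _ y.2
  -- hence the coefficients of `P` lie in `R`
  have hPR : ∀ i, P.coeff i ∈ R := by
    intro i
    have h2 := hQR i
    rw [coeff_scaleRoots] at h2
    refine mem_of_pow_mul_mem R V π hred hRV hπ (P.natDegree - i) _ (hPV i) ?_
    rw [mul_comm]
    exact h2
  -- lift `P` to a monic polynomial over `R`
  have hlift : P ∈ lifts (algebraMap R E₀) := by
    rw [lifts_iff_coeff_lifts]
    intro i
    exact ⟨⟨P.coeff i, hPR i⟩, rfl⟩
  obtain ⟨p', hp', -, hp'monic⟩ := lifts_and_natDegree_eq_and_monic hlift hPmonic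
  refine ⟨p', hp'monic, ?_⟩
  have h3 : aeval z (p'.map (algebraMap R E₀)) = 0 := by
    rw [hp']; exact minpoly.aeval E₀ z
  rw [aeval_map_algebraMap] at h3
  exact h3

end Descent

/-! ### Independence of `1, J, …, J^(q-1)` over the Laurent series in `Q ^ q` -/

section Indep

variable {k : Type*} [Field k]

/-- a Laurent series supported in degrees divisible by `q`, times `J ^ i` with `ord J = -1`,
has order `≡ -i` modulo `q`. -/
theorem order_mul_pow (q : ℕ) (J : LaurentSeries k) (hJ : J ≠ 0) (hJo : J.order = -1)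
    (c : LaurentSeries k) (hc : c ≠ 0) (hsupp : ∀ n : ℤ, c.coeff n ≠ 0 → (q : ℤ) ∣ n) (i : ℕ) :
    ∃ a : ℤ, (c * J ^ i).order = (q : ℤ) * a - i := by
  obtain ⟨a, ha⟩ := hsupp c.order (fun h => hc (HahnSeries.coeff_order_eq_zero.mp h))
  refine ⟨a, ?_⟩
  rw [HahnSeries.order_mul hc (pow_ne_zero i hJ), HahnSeries.order_pow, hJo, ha]
  simp only [nsmul_eq_mul]
  ring

/-- **Independence.** -/
theorem eq_zero_of_sum_mul_pow_eq_zero (q : ℕ) (J : LaurentSeries k) (hJo : J.order = -1)
    (c : Fin q → LaurentSeries k) (hsupp : ∀ i, ∀ n : ℤ, (c i).coeff n ≠ 0 → (q : ℤ) ∣ n)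
    (hsum : ∑ i : Fin q, c i * J ^ (i : ℕ) = 0) : ∀ i, c i = 0 := by
  classical
  have hJ : J ≠ 0 := by
    rintro rfl
    rw [HahnSeries.order_zero] at hJo
    omega
  by_contra hne
  rw [not_forall] at hne
  -- the nonzero terms
  set T : Finset (Fin q) := Finset.univ.filter (fun i => c i ≠ 0) with hT
  have hTne : T.Nonempty := by
    obtain ⟨i, hi⟩ := hne
    exact ⟨i, by simp [hT, hi]⟩
  obtain ⟨i₀, hi₀T, hmin⟩ := T.exists_min_image (fun i => (c i * J ^ (i : ℕ)).order) hTne
  have hci₀ : c i₀ ≠ 0 := by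
    have := hi₀T
    simp [hT] at this
    exact this
  have hterm₀ : c i₀ * J ^ (i₀ : ℕ) ≠ 0 := mul_ne_zero hci₀ (pow_ne_zero _ hJ)
  set n₀ := (c i₀ * J ^ (i₀ : ℕ)).order with hn₀
  have hcoeff := congrArg (fun x : LaurentSeries k => x.coeff n₀) hsum
  simp only [HahnSeries.coeff_zero] at hcoeff
  have hsumcoeff : (∑ i : Fin q, c i * J ^ (i : ℕ)).coeff n₀
      = ∑ i : Fin q, (c i * J ^ (i : ℕ)).coeff n₀ := by
    exact map_sum (HahnSeries.coeff.addMonoidHom n₀) _ _
  rw [hsumcoeff] at hcoeff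
  rw [Finset.sum_eq_single i₀] at hcoeff
  · exact hterm₀ (HahnSeries.coeff_order_eq_zero.mp hcoeff)
  · intro i _ hii₀
    by_cases hci : c i = 0
    · simp [hci]
    · have hterm : c i * J ^ (i : ℕ) ≠ 0 := mul_ne_zero hci (pow_ne_zero _ hJ)
      have hiT : i ∈ T := by simp [hT, hci]
      have hle := hmin i hiT
      obtain ⟨a, ha⟩ := order_mul_pow q J hJ hJo (c i) hci (hsupp i) i
      obtain ⟨a₀, ha₀⟩ := order_mul_pow q J hJ hJo (c i₀) hci₀ (hsupp i₀) i₀
      have hlt : n₀ < (c i * J ^ (i : ℕ)).order := by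
        rcases lt_or_eq_of_le hle with h | h
        · exact h
        · exfalso
          apply hii₀
          rw [hn₀, ha, ha₀] at h
          have hq : (q : ℤ) * (a₀ - a) = ((i₀ : ℕ) : ℤ) - ((i : ℕ) : ℤ) := by linarith
          have hi1 : (i : ℕ) < q := i.2
          have hi2 : (i₀ : ℕ) < q := i₀.2
          have hdvd : (q : ℤ) ∣ ((i₀ : ℕ) : ℤ) - ((i : ℕ) : ℤ) := ⟨a₀ - a, hq.symm⟩
          have habs : |((i₀ : ℕ) : ℤ) - ((i : ℕ) : ℤ)| < (q : ℤ) := by
            rw [abs_lt]
            constructor <;> omega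
          have h0 := Int.eq_zero_of_abs_lt_dvd hdvd habs
          ext
          omega
      exact HahnSeries.coeff_eq_zero_of_lt_order hlt
  · intro h
    exact absurd (Finset.mem_univ i₀) h

end Indep

end Fermat.Agent.S34.Red2Alg
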