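/-
S34 — V12Rel.lean (helper48): block [V12] of the MODULAR half, relational (Gauss-reduction) level.

Pure `GRel` / Laurent-series facts comparing the two branches of the level `M * q` model at a
place `A` over `q`; no dependence on the packaged valuation rings.

* `gRel_qExpand`      : `GRel A x y → GRel A (x(Q^d)) (y(Q^d))`;
* `gRel_j`, `gRel_j_inv`, `gRel_jd`, `gRel_jd_inv` : `j`, `j⁻¹`, `j_d := j(Q^d)`, `j_d⁻¹` are Gauss
  units with the expected reductions;
* `gRel_frob`, `kronecker` : `x(Q^q) ≡ x^q` for series whose reduction has `𝔽_q`-coefficients, in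
  particular `j_q ≡ j^q` (Kronecker congruence on branch 1);
* `witness`           : `j − j_q^q` is a Gauss unit (its reduction `j̄ − j̄(Q^{q²})` is nonzero):
  the function `j_q − j^q` vanishes on branch 1 and not on branch 2;
* `gRel_qExpand_frob` : over the (perfect) residue field, `x(Q^q)` reduces to a `q`-th power.
-/
import Mathlib
import Fermat.Agent.S18.GRel
import Fermat.Agent.S18.ModelRed
import Fermat.Agent.S18.ModelQFrac
import Fermat.Agent.S18.BaseRes
import Fermat.Agent.S37.KC

set_option autoImplicit false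

noncomputable section

namespace Fermat.Agent.S34.V12Rel

open ModularCurve HahnSeries Fermat.Agent.S18 Fermat.Agent.S18.Arith Fermat.Agent.S18.ModelPlan

variable (A : ValuationSubring Qb)

/-- The `GRel` calculus at `A`. -/
theorem gFacts : GRelFacts A := GRel.gRelStatement A

/-- **(R1)** Gauss reduction commutes with `Q ↦ Q^d`. -/
theorem gRel_qExpand (d : ℕ) [NeZero d] {x : LaurentSeries Qb}
    {y : LaurentSeries (IsLocalRing.ResidueField A)} (h : GRel A x y) :
    GRel A (qExpand Qb d x) (qExpand (IsLocalRing.ResidueField A) d y) := by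
  obtain ⟨u, p, hu, hxu, hp⟩ := h
  refine ⟨qExpand A d u, qExpand A d p, ?_, ?_, ?_⟩
  · rw [coeffMap_qExpand, hu, map_one]
  · rw [coeffMap_qExpand, coeffMap_qExpand, ← map_mul, hxu]
  · rw [coeffMap_qExpand, hp]

theorem gRel_sub {x x' : LaurentSeries Qb} {y y' : LaurentSeries (IsLocalRing.ResidueField A)}
    (h : GRel A x y) (h' : GRel A x' y') : GRel A (x - x') (y - y') := by
  rw [sub_eq_add_neg, sub_eq_add_neg]
  exact (gFacts A).add _ _ _ _ h ((gFacts A).neg _ _ h')

theorem gRel_pow {x : LaurentSeries Qb} {y : LaurentSeries (IsLocalRing.ResidueField A)}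
    (h : GRel A x y) (n : ℕ) : GRel A (x ^ n) (y ^ n) :=
  ModelRed.gRel_pow (gFacts A) h n

/-- **(R2)** `j` is Gauss-integral with reduction `j`. -/
theorem gRel_j : GRel A (jqModC Qb) (jqModC (IsLocalRing.ResidueField A)) := by
  have h := (gFacts A).of_int (jqModC A)
  rwa [coeffMap_jqModC, coeffMap_jqModC] at h

theorem inv_jqModC (F : Type*) [Field F] : (jqModC F)⁻¹ = ModelQFrac.jInvL F :=
  (eq_inv_of_mul_eq_one_right (ModelQFrac.jqModC_mul_jInvL F)).symm

/-- **(R2)** `j⁻¹` is Gauss-integral with reduction `j⁻¹`. -/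
theorem gRel_j_inv : GRel A (jqModC Qb)⁻¹ (jqModC (IsLocalRing.ResidueField A))⁻¹ := by
  have h := (gFacts A).of_int (ModelQFrac.jInvL A)
  rwa [ModelQFrac.coeffMap_jInvL, ModelQFrac.coeffMap_jInvL, ← inv_jqModC, ← inv_jqModC] at h

/-- **(R2)** `j_d = j(Q^d)` is Gauss-integral with reduction `j(Q^d)`. -/
theorem gRel_jd (d : ℕ) [NeZero d] :
    GRel A (qExpand Qb d (jqModC Qb))
      (qExpand (IsLocalRing.ResidueField A) d (jqModC (IsLocalRing.ResidueField A))) :=
  gRel_qExpand A d (gRel_j A)

/-- **(R2)** `j_d⁻¹` is Gauss-integral with reduction `j(Q^d)⁻¹`. -/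
theorem gRel_jd_inv (d : ℕ) [NeZero d] :
    GRel A (qExpand Qb d (jqModC Qb))⁻¹
      (qExpand (IsLocalRing.ResidueField A) d (jqModC (IsLocalRing.ResidueField A)))⁻¹ := by
  have h := gRel_qExpand A d (gRel_j_inv A)
  rwa [map_inv₀, map_inv₀] at h

theorem jqModC_ne_zero (F : Type*) [Field F] : jqModC F ≠ 0 :=
  jqModC_ne_zero_of_nontrivial F

theorem qExpand_jqModC_ne_zero (F : Type*) [Field F] (d : ℕ) [NeZero d] :
    qExpand F d (jqModC F) ≠ 0 := fun h =>
  jqModC_ne_zero F (qExpand_injective (R := F) d (by rw [h, map_zero]))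

section Frob

variable (q : ℕ) [Fact q.Prime]

/-- **(R3)** general Kronecker congruence: if the reduction of `x` has coefficients fixed by
Frobenius, then `x(Q^q) ≡ x^q`. -/
theorem gRel_frob [CharP (IsLocalRing.ResidueField A) q] {x : LaurentSeries Qb}
    {y : LaurentSeries (IsLocalRing.ResidueField A)} (h : GRel A x y)
    (hy : coeffMap (frobenius (IsLocalRing.ResidueField A) q) y = y) :
    GRel A (qExpand Qb q x - x ^ q) 0 := by
  have h1 := gRel_sub A (gRel_qExpand A q h) (gRel_pow A h q)
  have h2 : qExpand (IsLocalRing.ResidueField A) q y - y ^ q = 0 := by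
    rw [S37.KC.pow_char_eq_qExpand_frobenius q y, hy, sub_self]
  rwa [h2] at h1

/-- **(R3)** Kronecker congruence: `j_q ≡ j^q` in the Gauss ring at a place over `q`. -/
theorem kronecker (hA : A.LiesOverPrime q) :
    GRel A (qExpand Qb q (jqModC Qb) - jqModC Qb ^ q) 0 := by
  have := BaseRes.charP_residueField q A hA
  exact gRel_frob A q (gRel_j A) (coeffMap_jqModC _)

/-- The reduction of `j − j_q^q`. -/
def wit : LaurentSeries (IsLocalRing.ResidueField A) :=
  jqModC (IsLocalRing.ResidueField A) -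
    qExpand (IsLocalRing.ResidueField A) q (jqModC (IsLocalRing.ResidueField A)) ^ q

theorem gRel_wit :
    GRel A (jqModC Qb - qExpand Qb q (jqModC Qb) ^ q) (wit A q) :=
  gRel_sub A (gRel_j A) (gRel_pow A (gRel_jd A q) q)

theorem wit_eq (hA : A.LiesOverPrime q) :
    wit A q = jqModC (IsLocalRing.ResidueField A) -
      qExpand (IsLocalRing.ResidueField A) q
        (qExpand (IsLocalRing.ResidueField A) q (jqModC (IsLocalRing.ResidueField A))) := by
  have := BaseRes.charP_residueField q A hA
  rw [wit, S37.KC.pow_char_eq_qExpand_frobenius q, coeffMap_qExpand, coeffMap_jqModC]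

/-- **(R4)** the reduction of `j − j_q^q` is nonzero. -/
theorem wit_ne_zero (hA : A.LiesOverPrime q) : wit A q ≠ 0 := by
  intro h
  have hq : (2 : ℤ) ≤ (q : ℤ) := by exact_mod_cast (Fact.out : q.Prime).two_le
  have hc : (wit A q).coeff ((q : ℤ) * ((q : ℤ) * (-1))) = 0 := by rw [h, HahnSeries.coeff_zero]
  rw [wit_eq A q hA, HahnSeries.coeff_sub, qExpand_coeff_mul, qExpand_coeff_mul,
    coeff_jqModC_neg_one, coeff_jqModC_of_lt _ (by nlinarith)] at hc
  simp at hc

/-- **(R4)** `j − j_q^q` is a unit of the Gauss ring: `j_q − j^q` vanishes on branch 1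
(`kronecker`) but its Atkin–Lehner transform `j − j_q^q` does not. -/
theorem witness (hA : A.LiesOverPrime q) :
    ∃ z : LaurentSeries (IsLocalRing.ResidueField A), z ≠ 0 ∧
      GRel A (jqModC Qb - qExpand Qb q (jqModC Qb) ^ q) z :=
  ⟨wit A q, wit_ne_zero A q hA, gRel_wit A q⟩

/-- **(R5)** over a perfect residue field, `x(Q^q)` reduces to a `q`-th power. -/
theorem gRel_qExpand_frob [CharP (IsLocalRing.ResidueField A) q]
    [PerfectRing (IsLocalRing.ResidueField A) q] {x : LaurentSeries Qb}
    {y : LaurentSeries (IsLocalRing.ResidueField A)} (h : GRel A x y) :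
    GRel A (qExpand Qb q x)
      (coeffMap ((frobeniusEquiv (IsLocalRing.ResidueField A) q).symm :
        IsLocalRing.ResidueField A →+* IsLocalRing.ResidueField A) y ^ q) := by
  rw [← S37.KC.qExpand_eq_pow_frobeniusEquiv_symm]
  exact gRel_qExpand A q h

end Frob

end Fermat.Agent.S34.V12Rel

end
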