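import Fermat.Agent.S18.ModelBasicCore
import Fermat.Agent.S18.Glob
import Fermat.Agent.S37.W.ALHecke

/-!
# S34 [MODULAR] — WK.lean (helper79): the Atkin–Lehner swap on `F_K`

Level `M * q` with `q` prime, `q ∤ M` (as in `S37/W`).  `F_K = FK (M * q) K ⊂ ℚ̄((x))` is the
function field of `X₀(M q)` over an intermediate field `K` of `ℚ̄/ℚ` (S18 `ArithPlan`).

* `wBar`   : the Atkin–Lehner involution of `F̄_{Mq}` (S37 block [W]), chosen once;
* `wK`     : its restriction to `F_K` (a ring involution fixing the constants `K`);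
* `alphaK`, `betaK : F_K(M) → F_K(M q)` : the two degeneracy maps (`x ↦ x`, `x ↦ x(x^q)`),
  swapped by `wK`;
* Galois: `wBar` commutes with the coefficientwise action of `Gal(ℚ̄/ℚ)`;
* charts: `wK` preserves `R0` (the integral closure of `O[j]`), and maps `Rinf` into the
  integral closure of `O[j_q⁻¹]`.
-/

set_option autoImplicit false

noncomputable section

namespace Fermat.Agent.S34.WK

open ModularCurve ModularCurve.IgusaScheme AlgebraicCurve HahnSeries
open Fermat.Agent.S18.Arith Fermat.Agent.S24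

set_option synthInstance.maxHeartbeats 400000

/-! ### General: an endomorphism of `F̄_N` permuting the generators preserves `F_K` -/

section General

variable (N : ℕ) [NeZero N] (K : IntermediateField ℚ Qb)

omit [NeZero N] in
theorem coe_algebraMap_bar (c : Qb) :
    ((algebraMap Qb (modularFunctionFieldBar N) c : modularFunctionFieldBar N) :
      LaurentSeries Qb) = HahnSeries.C c := by
  show algebraMap Qb (LaurentSeries Qb) c = HahnSeries.C c
  rw [algebraMap_laurentSeries_eq_single]
  rfl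

omit [NeZero N] in
theorem C_mem_FK (c : K) : (HahnSeries.C (c : Qb) : LaurentSeries Qb) ∈ FK N K :=
  Subfield.subset_closure (Or.inl ⟨c, rfl⟩)

omit [NeZero N] in
theorem coeffEmb_mem_FK {z : LaurentSeries ℚ} (hz : z ∈ modularFunctionFieldFull N) :
    coeffEmb Qb z ∈ FK N K :=
  Subfield.subset_closure (Or.inr ⟨⟨z, hz⟩, rfl⟩)

omit [NeZero N] in
theorem coe_genFam_mem_FK (e : ↥N.divisors) :
    ((genFam N e : modularFunctionFieldBar N) : LaurentSeries Qb) ∈ FK N K := by
  have : NeZero (e : ℕ) := ⟨(Nat.pos_of_mem_divisors e.2).ne'⟩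
  exact coeffEmb_mem_FK N K (jqd_mem_full N (Nat.dvd_of_mem_divisors e.2))

variable (w : modularFunctionFieldBar N →ₐ[Qb] modularFunctionFieldBar N)

/-- Inner induction: `w` maps `coeffEmb (F_ℚ(N))` into `F_K`. -/
theorem coe_apply_coeffEmb_mem_FK
    (hw : ∀ e : ↥N.divisors, ∃ e' : ↥N.divisors, w (genFam N e) = genFam N e')
    {z : LaurentSeries ℚ} (hz : z ∈ modularFunctionFieldFull N) :
    ((w ⟨coeffEmb Qb z, coeffEmb_mem_laurentBaseChange Qb hz⟩ : modularFunctionFieldBar N) :
      LaurentSeries Qb) ∈ FK N K := by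
  have key : ∀ (z : LaurentSeries ℚ) (hz : z ∈ modularFunctionFieldFull N),
      ∀ hy : coeffEmb Qb z ∈ modularFunctionFieldBar N,
        ((w ⟨coeffEmb Qb z, hy⟩ : modularFunctionFieldBar N) : LaurentSeries Qb) ∈ FK N K := by
    intro z hz
    unfold modularFunctionFieldFull at hz
    induction hz using IntermediateField.adjoin_induction with
    | mem z hz =>
      intro hy
      obtain ⟨d, hd0, hd, rfl⟩ := hz
      have hmem : d ∈ N.divisors := Nat.mem_divisors.mpr ⟨hd, NeZero.ne N⟩
      have e1 : (⟨coeffEmb Qb (qExpand ℚ d jq), hy⟩ : modularFunctionFieldBar N)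
          = genFam N ⟨d, hmem⟩ := Subtype.ext rfl
      obtain ⟨e', he'⟩ := hw ⟨d, hmem⟩
      rw [e1, he']
      exact coe_genFam_mem_FK N K e'
    | algebraMap r =>
      intro hy
      have e1 : (⟨coeffEmb Qb (algebraMap ℚ (LaurentSeries ℚ) r), hy⟩ :
          modularFunctionFieldBar N) = algebraMap Qb (modularFunctionFieldBar N)
            (algebraMap ℚ Qb r) := by
        apply Subtype.ext
        show coeffEmb Qb (algebraMap ℚ (LaurentSeries ℚ) r)
          = algebraMap Qb (LaurentSeries Qb) (algebraMap ℚ Qb r)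
        rw [algebraMap_laurentSeries_eq_single, algebraMap_laurentSeries_eq_single, coeffEmb,
          coeffMap_single]
      rw [e1, AlgHom.commutes, coe_algebraMap_bar]
      exact C_mem_FK N K (algebraMap ℚ K r)
    | add z₁ z₂ h₁ h₂ ih₁ ih₂ =>
      intro hy
      have hy₁ := coeffEmb_mem_laurentBaseChange Qb (F₀ := modularFunctionFieldFull N) h₁
      have hy₂ := coeffEmb_mem_laurentBaseChange Qb (F₀ := modularFunctionFieldFull N) h₂
      have e1 : (⟨coeffEmb Qb (z₁ + z₂), hy⟩ : modularFunctionFieldBar N)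
          = ⟨coeffEmb Qb z₁, hy₁⟩ + ⟨coeffEmb Qb z₂, hy₂⟩ := Subtype.ext (map_add _ _ _)
      rw [e1, map_add]
      exact add_mem (ih₁ hy₁) (ih₂ hy₂)
    | inv z h ih =>
      intro hy
      have hy₁ := coeffEmb_mem_laurentBaseChange Qb (F₀ := modularFunctionFieldFull N) h
      have e1 : (⟨coeffEmb Qb z⁻¹, hy⟩ : modularFunctionFieldBar N)
          = (⟨coeffEmb Qb z, hy₁⟩ : modularFunctionFieldBar N)⁻¹ :=
        Subtype.ext (map_inv₀ _ _)
      rw [e1, map_inv₀]
      exact inv_mem (ih hy₁)
    | mul z₁ z₂ h₁ h₂ ih₁ ih₂ =>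
      intro hy
      have hy₁ := coeffEmb_mem_laurentBaseChange Qb (F₀ := modularFunctionFieldFull N) h₁
      have hy₂ := coeffEmb_mem_laurentBaseChange Qb (F₀ := modularFunctionFieldFull N) h₂
      have e1 : (⟨coeffEmb Qb (z₁ * z₂), hy⟩ : modularFunctionFieldBar N)
          = ⟨coeffEmb Qb z₁, hy₁⟩ * ⟨coeffEmb Qb z₂, hy₂⟩ := Subtype.ext (map_mul _ _ _)
      rw [e1, map_mul]
      exact mul_mem (ih₁ hy₁) (ih₂ hy₂)
  exact key z hz _

/-- An endomorphism of `F̄_N` over `ℚ̄` which permutes the generators `j(x^d)` maps `F_K` into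
itself. -/
theorem coe_apply_mem_FK
    (hw : ∀ e : ↥N.divisors, ∃ e' : ↥N.divisors, w (genFam N e) = genFam N e')
    (x : modularFunctionFieldBar N) (hx : (x : LaurentSeries Qb) ∈ FK N K) :
    ((w x : modularFunctionFieldBar N) : LaurentSeries Qb) ∈ FK N K := by
  have key : ∀ (y : LaurentSeries Qb) (_ : y ∈ FK N K),
      ∀ hy : y ∈ modularFunctionFieldBar N,
        ((w ⟨y, hy⟩ : modularFunctionFieldBar N) : LaurentSeries Qb) ∈ FK N K := by
    intro y hyK
    unfold FK at hyK
    induction hyK using Subfield.closure_induction with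
    | mem y hy' =>
      intro hy
      rcases hy' with ⟨c, rfl⟩ | ⟨z, rfl⟩
      · have e1 : (⟨(HahnSeries.C (c : Qb) : LaurentSeries Qb), hy⟩ : modularFunctionFieldBar N)
            = algebraMap Qb (modularFunctionFieldBar N) (c : Qb) :=
          Subtype.ext (coe_algebraMap_bar N _).symm
        rw [e1, AlgHom.commutes, coe_algebraMap_bar]
        exact C_mem_FK N K c
      · exact coe_apply_coeffEmb_mem_FK N K w hw z.2
    | one =>
      intro hy
      have e1 : (⟨(1 : LaurentSeries Qb), hy⟩ : modularFunctionFieldBar N) = 1 := rfl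
      rw [e1, map_one]
      exact one_mem _
    | add y₁ y₂ h₁ h₂ ih₁ ih₂ =>
      intro hy
      have hy₁ : y₁ ∈ modularFunctionFieldBar N := S18.Glob.fk_le_bar N K h₁
      have hy₂ : y₂ ∈ modularFunctionFieldBar N := S18.Glob.fk_le_bar N K h₂
      have e1 : (⟨y₁ + y₂, hy⟩ : modularFunctionFieldBar N) = ⟨y₁, hy₁⟩ + ⟨y₂, hy₂⟩ := rfl
      rw [e1, map_add]
      exact add_mem (ih₁ hy₁) (ih₂ hy₂)
    | neg y h ih =>
      intro hy
      have hy₁ : y ∈ modularFunctionFieldBar N := S18.Glob.fk_le_bar N K h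
      have e1 : (⟨-y, hy⟩ : modularFunctionFieldBar N) = -⟨y, hy₁⟩ := rfl
      rw [e1, map_neg]
      exact neg_mem (ih hy₁)
    | inv y h ih =>
      intro hy
      have hy₁ : y ∈ modularFunctionFieldBar N := S18.Glob.fk_le_bar N K h
      have e1 : (⟨y⁻¹, hy⟩ : modularFunctionFieldBar N) = (⟨y, hy₁⟩ : modularFunctionFieldBar N)⁻¹ :=
        rfl
      rw [e1, map_inv₀]
      exact inv_mem (ih hy₁)
    | mul y₁ y₂ h₁ h₂ ih₁ ih₂ =>
      intro hy
      have hy₁ : y₁ ∈ modularFunctionFieldBar N := S18.Glob.fk_le_bar N K h₁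
      have hy₂ : y₂ ∈ modularFunctionFieldBar N := S18.Glob.fk_le_bar N K h₂
      have e1 : (⟨y₁ * y₂, hy⟩ : modularFunctionFieldBar N) = ⟨y₁, hy₁⟩ * ⟨y₂, hy₂⟩ := rfl
      rw [e1, map_mul]
      exact mul_mem (ih₁ hy₁) (ih₂ hy₂)
  exact key (x : LaurentSeries Qb) hx x.2

/-- The restriction to `F_K` of an endomorphism of `F̄_N` permuting the generators. -/
def restrictFK
    (hw : ∀ e : ↥N.divisors, ∃ e' : ↥N.divisors, w (genFam N e) = genFam N e') :
    FK N K →+* FK N K :=
  (((modularFunctionFieldBar N).val.toRingHom.comp w.toRingHom).comp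
    (S18.Glob.toBar N K)).codRestrict (FK N K)
      (fun x => coe_apply_mem_FK N K w hw (S18.Glob.toBar N K x) x.2)

theorem coe_restrictFK
    (hw : ∀ e : ↥N.divisors, ∃ e' : ↥N.divisors, w (genFam N e) = genFam N e') (x : FK N K) :
    ((restrictFK N K w hw x : FK N K) : LaurentSeries Qb)
      = ((w (S18.Glob.toBar N K x) : modularFunctionFieldBar N) : LaurentSeries Qb) :=
  rfl

theorem toBar_restrictFK
    (hw : ∀ e : ↥N.divisors, ∃ e' : ↥N.divisors, w (genFam N e) = genFam N e') (x : FK N K) :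
    S18.Glob.toBar N K (restrictFK N K w hw x) = w (S18.Glob.toBar N K x) :=
  Subtype.ext rfl

theorem restrictFK_constK
    (hw : ∀ e : ↥N.divisors, ∃ e' : ↥N.divisors, w (genFam N e) = genFam N e') (c : K) :
    restrictFK N K w hw (constK N K c) = constK N K c := by
  apply Subtype.ext
  rw [coe_restrictFK]
  have e1 : S18.Glob.toBar N K (constK N K c)
      = algebraMap Qb (modularFunctionFieldBar N) (c : Qb) :=
    Subtype.ext (coe_algebraMap_bar N _).symm
  rw [e1, AlgHom.commutes, coe_algebraMap_bar]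
  rfl

end General

/-! ### The Atkin–Lehner involution of `F̄_{Mq}` and of `F_K` -/

section AL

variable (M q : ℕ) [NeZero M] [NeZero q] (hq : q.Prime) (hqM : ¬ q ∣ M)

/-- **(W1)** The Atkin–Lehner involution `w_q` of `F̄_{Mq}` (S37 block [W]), chosen once. -/
def wBar : modularFunctionFieldBar (M * q) ≃ₐ[Qb] modularFunctionFieldBar (M * q) :=
  (S37.W.exists_atkinLehner M q hq hqM).choose

theorem wBar_wBar (x : modularFunctionFieldBar (M * q)) :
    wBar M q hq hqM (wBar M q hq hqM x) = x :=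
  (S37.W.exists_atkinLehner M q hq hqM).choose_spec.1 x

theorem wBar_low (d : ↥M.divisors) :
    wBar M q hq hqM (genFam (M * q) (S37.W.divLow M q d)) = genFam (M * q) (S37.W.divHigh M q d) :=
  (S37.W.exists_atkinLehner M q hq hqM).choose_spec.2.1 d

theorem wBar_high (d : ↥M.divisors) :
    wBar M q hq hqM (genFam (M * q) (S37.W.divHigh M q d)) = genFam (M * q) (S37.W.divLow M q d) :=
  (S37.W.exists_atkinLehner M q hq hqM).choose_spec.2.2.1 d

/-- `w ∘ α = β`. -/
theorem wBar_alpha (x : modularFunctionFieldBar M) :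
    wBar M q hq hqM (heckeAlphaBar Qb M q x) = heckeBetaBar Qb M q x :=
  (S37.W.exists_atkinLehner M q hq hqM).choose_spec.2.2.2.1 x

/-- `w ∘ β = α`. -/
theorem wBar_beta (x : modularFunctionFieldBar M) :
    wBar M q hq hqM (heckeBetaBar Qb M q x) = heckeAlphaBar Qb M q x :=
  (S37.W.exists_atkinLehner M q hq hqM).choose_spec.2.2.2.2 x

/-- Every divisor of `M q` is `d` or `d q` with `d ∣ M`. -/
theorem exists_low_or_high (hq : q.Prime) (e : ↥(M * q).divisors) :
    (∃ d : ↥M.divisors, e = S37.W.divLow M q d) ∨ (∃ d : ↥M.divisors, e = S37.W.divHigh M q d) := by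
  have he : (e : ℕ) ∣ M * q := Nat.dvd_of_mem_divisors e.2
  by_cases h : q ∣ (e : ℕ)
  · right
    obtain ⟨d, hd⟩ := h
    have hdM : d ∣ M := by
      rw [hd, mul_comm q d] at he
      exact Nat.dvd_of_mul_dvd_mul_right hq.pos he
    refine ⟨⟨d, Nat.mem_divisors.mpr ⟨hdM, NeZero.ne M⟩⟩, Subtype.ext ?_⟩
    rw [S37.W.coe_divHigh, hd, mul_comm]
  · left
    have hdM : (e : ℕ) ∣ M := S37.W.dvd_of_dvd_mul_of_not_dvd M q hq he h
    exact ⟨⟨(e : ℕ), Nat.mem_divisors.mpr ⟨hdM, NeZero.ne M⟩⟩, Subtype.ext rfl⟩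

/-- `w_q` permutes the generators `j(x^e)`, `e ∣ M q`. -/
theorem wBar_genFam_exists (e : ↥(M * q).divisors) :
    ∃ e' : ↥(M * q).divisors,
      (wBar M q hq hqM : modularFunctionFieldBar (M * q) →ₐ[Qb] modularFunctionFieldBar (M * q))
        (genFam (M * q) e) = genFam (M * q) e' := by
  rcases exists_low_or_high M q hq e with ⟨d, rfl⟩ | ⟨d, rfl⟩
  · exact ⟨_, wBar_low M q hq hqM d⟩
  · exact ⟨_, wBar_high M q hq hqM d⟩

variable (K : IntermediateField ℚ Qb)

/-- `w_q` as a ring endomorphism of `F_K`. -/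
def wKHom : FK (M * q) K →+* FK (M * q) K :=
  restrictFK (M * q) K (wBar M q hq hqM : modularFunctionFieldBar (M * q) →ₐ[Qb] _)
    (wBar_genFam_exists M q hq hqM)

theorem toBar_wKHom (x : FK (M * q) K) :
    S18.Glob.toBar (M * q) K (wKHom M q hq hqM K x)
      = wBar M q hq hqM (S18.Glob.toBar (M * q) K x) :=
  Subtype.ext rfl

theorem wKHom_wKHom (x : FK (M * q) K) : wKHom M q hq hqM K (wKHom M q hq hqM K x) = x := by
  apply (S18.Glob.toBar (M * q) K).injective
  rw [toBar_wKHom, toBar_wKHom]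
  exact wBar_wBar M q hq hqM _

/-- **(W2)** The Atkin–Lehner involution of `F_K = FK (M q) K`. -/
def wK : FK (M * q) K ≃+* FK (M * q) K :=
  RingEquiv.ofRingHom (wKHom M q hq hqM K) (wKHom M q hq hqM K)
    (RingHom.ext fun x => wKHom_wKHom M q hq hqM K x)
    (RingHom.ext fun x => wKHom_wKHom M q hq hqM K x)

theorem wK_wK (x : FK (M * q) K) : wK M q hq hqM K (wK M q hq hqM K x) = x :=
  wKHom_wKHom M q hq hqM K x

theorem wK_symm : (wK M q hq hqM K).symm = wK M q hq hqM K := rfl

theorem toBar_wK (x : FK (M * q) K) :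
    S18.Glob.toBar (M * q) K (wK M q hq hqM K x)
      = wBar M q hq hqM (S18.Glob.toBar (M * q) K x) :=
  toBar_wKHom M q hq hqM K x

theorem coe_wK (x : FK (M * q) K) :
    ((wK M q hq hqM K x : FK (M * q) K) : LaurentSeries Qb)
      = ((wBar M q hq hqM (S18.Glob.toBar (M * q) K x) : modularFunctionFieldBar (M * q)) :
          LaurentSeries Qb) :=
  rfl

/-- `w_q` fixes the constants. -/
theorem wK_constK (c : K) : wK M q hq hqM K (constK (M * q) K c) = constK (M * q) K c :=
  restrictFK_constK (M * q) K _ (wBar_genFam_exists M q hq hqM) c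

theorem wK_algebraMap (c : K) :
    wK M q hq hqM K (algebraMap K (FK (M * q) K) c) = algebraMap K (FK (M * q) K) c :=
  wK_constK M q hq hqM K c

theorem wK_algebraMap_OK (A : ValuationSubring Qb) (c : OK A K) :
    wK M q hq hqM K (algebraMap (OK A K) (FK (M * q) K) c)
      = algebraMap (OK A K) (FK (M * q) K) c :=
  wK_constK M q hq hqM K (c : K)

/-! ### The two degeneracy maps on `F_K` -/

theorem FK_le : FK M K ≤ FK (M * q) K := by
  unfold FK
  apply Subfield.closure_mono
  rintro x (⟨c, rfl⟩ | ⟨y, rfl⟩)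
  · exact Or.inl ⟨c, rfl⟩
  · exact Or.inr ⟨⟨(y : LaurentSeries ℚ), full_degeneracy_le (dvd_mul_right M q) y.2⟩, rfl⟩

/-- **(W3)** `α : F_K(M) → F_K(M q)`, the inclusion. -/
def alphaK : FK M K →+* FK (M * q) K where
  toFun x := ⟨(x : LaurentSeries Qb), FK_le M q K x.2⟩
  map_one' := rfl
  map_mul' _ _ := rfl
  map_zero' := rfl
  map_add' _ _ := rfl

/- NB (kernel): state coercion facts through `Subtype.coe_mk`, never by `rfl` — the kernel cannot
cheaply refute `(· ∈ FK M K) = (· ∈ FK (M * q) K)`. -/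
theorem coe_alphaK (x : FK M K) :
    ((alphaK M q K x : FK (M * q) K) : LaurentSeries Qb) = (x : LaurentSeries Qb) :=
  Subtype.coe_mk _ _

theorem toBar_alphaK (x : FK M K) :
    S18.Glob.toBar (M * q) K (alphaK M q K x) = heckeAlphaBar Qb M q (S18.Glob.toBar M K x) := by
  apply Subtype.ext
  rw [coe_heckeAlphaBar, S18.Glob.coe_toBar, S18.Glob.coe_toBar, coe_alphaK]

theorem alphaK_constK (c : K) : alphaK M q K (constK M K c) = constK (M * q) K c := by
  apply Subtype.ext
  rw [coe_alphaK, S18.ModelBasicCore.coe_constK, S18.ModelBasicCore.coe_constK]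

theorem alphaK_jK : alphaK M q K (jK M K) = jK (M * q) K := by
  apply Subtype.ext
  rw [coe_alphaK, S18.ModelBasicCore.coe_jK, S18.ModelBasicCore.coe_jK]

/-- **(W3)** `β : F_K(M) → F_K(M q)`, `x(x) ↦ x(x^q)`, defined as `w_q ∘ α`. -/
def betaK : FK M K →+* FK (M * q) K :=
  ((wK M q hq hqM K : FK (M * q) K ≃+* FK (M * q) K) : FK (M * q) K →+* FK (M * q) K).comp
    (alphaK M q K)

theorem wK_alphaK (x : FK M K) :
    wK M q hq hqM K (alphaK M q K x) = betaK M q hq hqM K x := rfl

theorem wK_betaK (x : FK M K) :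
    wK M q hq hqM K (betaK M q hq hqM K x) = alphaK M q K x :=
  wK_wK M q hq hqM K _

theorem toBar_betaK (x : FK M K) :
    S18.Glob.toBar (M * q) K (betaK M q hq hqM K x)
      = heckeBetaBar Qb M q (S18.Glob.toBar M K x) := by
  rw [← wK_alphaK, toBar_wK, toBar_alphaK, wBar_alpha]

/-- `β x = x(x^q)` on `q`-expansions. -/
theorem coe_betaK (x : FK M K) :
    ((betaK M q hq hqM K x : FK (M * q) K) : LaurentSeries Qb)
      = qExpand Qb q (x : LaurentSeries Qb) := by
  have h := congrArg Subtype.val (toBar_betaK M q hq hqM K x)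
  rw [coe_heckeBetaBar] at h
  exact h

theorem betaK_constK (c : K) : betaK M q hq hqM K (constK M K c) = constK (M * q) K c := by
  rw [← wK_alphaK, alphaK_constK, wK_constK]

/-- `j_q = j(x^q) ∈ F_K(M q)`. -/
def jqK : FK (M * q) K := betaK M q hq hqM K (jK M K)

theorem wK_jK : wK M q hq hqM K (jK (M * q) K) = jqK M q hq hqM K := by
  rw [← alphaK_jK M q K]
  rfl

theorem wK_jqK : wK M q hq hqM K (jqK M q hq hqM K) = jK (M * q) K := by
  rw [jqK, wK_betaK, alphaK_jK]

theorem coe_jqK : ((jqK M q hq hqM K : FK (M * q) K) : LaurentSeries Qb) = S28.jd Qb q := by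
  rw [jqK, coe_betaK, S18.ModelBasicCore.coe_jK, S28.qExpand_jd, mul_one]

end AL

/-! ### Galois: `w_q` commutes with the coefficientwise action -/

section Galois

variable (N : ℕ) [NeZero N]

omit [NeZero N] in
/-- The generators have rational coefficients. -/
theorem arith_genFam (σ : Qb ≃ₐ[ℚ] Qb) (e : ↥N.divisors) :
    arithmeticRingAut (modularFunctionFieldFull N) σ (genFam N e) = genFam N e :=
  Subtype.ext (coeffMap_coeffEmb σ _)

/-- An endomorphism of `F̄_N` over `ℚ̄` permuting the generators commutes with the coefficientwise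
Galois action. -/
theorem apply_arith (w : modularFunctionFieldBar N →ₐ[Qb] modularFunctionFieldBar N)
    (hw : ∀ e : ↥N.divisors, ∃ e' : ↥N.divisors, w (genFam N e) = genFam N e')
    (σ : Qb ≃ₐ[ℚ] Qb) (x : modularFunctionFieldBar N) :
    w (arithmeticRingAut (modularFunctionFieldFull N) σ x)
      = arithmeticRingAut (modularFunctionFieldFull N) σ (w x) := by
  set g := arithmeticRingAut (modularFunctionFieldFull N) σ with hg
  let φ : modularFunctionFieldBar N →ₐ[Qb] modularFunctionFieldBar N :=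
    { toFun := fun y => g.symm (w (g y))
      map_one' := by simp
      map_mul' := fun a b => by simp
      map_zero' := by simp
      map_add' := fun a b => by simp
      commutes' := fun c => by
        show g.symm (w (g (algebraMap Qb (modularFunctionFieldBar N) c)))
          = algebraMap Qb (modularFunctionFieldBar N) c
        rw [hg, arithmeticRingAut_algebraMap, AlgHom.commutes, RingEquiv.symm_apply_eq,
          arithmeticRingAut_algebraMap] }
  have hφ : φ = w := by
    apply algHom_ext_genFam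
    intro e
    obtain ⟨e', he'⟩ := hw e
    show g.symm (w (g (genFam N e))) = w (genFam N e)
    rw [hg, arith_genFam, he', RingEquiv.symm_apply_eq, arith_genFam]
  have h1 : g (φ x) = w (g x) := by
    show g (g.symm (w (g x))) = w (g x)
    rw [RingEquiv.apply_symm_apply]
  rw [← h1, hφ]

variable (M q : ℕ) [NeZero M] [NeZero q] (hq : q.Prime) (hqM : ¬ q ∣ M)

/-- **(W4)** `w_q` commutes with the coefficientwise Galois action on `F̄_{Mq}`. -/
theorem wBar_arith (σ : Qb ≃ₐ[ℚ] Qb) (x : modularFunctionFieldBar (M * q)) :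
    wBar M q hq hqM (arithmeticRingAut (modularFunctionFieldFull (M * q)) σ x)
      = arithmeticRingAut (modularFunctionFieldFull (M * q)) σ (wBar M q hq hqM x) :=
  apply_arith (M * q) (wBar M q hq hqM : modularFunctionFieldBar (M * q) →ₐ[Qb] _)
    (wBar_genFam_exists M q hq hqM) σ x

/-- **(W4)** on `F_K`, in `q`-expansion form: if `y = σ(x)` coefficientwise then
`w_q y = σ(w_q x)` coefficientwise. -/
theorem coe_wK_of_coeffMap (K : IntermediateField ℚ Qb) (σ : Qb ≃ₐ[ℚ] Qb)
    (x y : FK (M * q) K)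
    (h : (y : LaurentSeries Qb) = coeffMap (σ : Qb →+* Qb) (x : LaurentSeries Qb)) :
    ((wK M q hq hqM K y : FK (M * q) K) : LaurentSeries Qb)
      = coeffMap (σ : Qb →+* Qb) ((wK M q hq hqM K x : FK (M * q) K) : LaurentSeries Qb) := by
  have e1 : S18.Glob.toBar (M * q) K y
      = arithmeticRingAut (modularFunctionFieldFull (M * q)) σ (S18.Glob.toBar (M * q) K x) :=
    Subtype.ext h
  rw [coe_wK, coe_wK, e1, wBar_arith]
  rfl

end Galois

/-! ### Charts -/

section Charts

/-- Integrality over `O[s]` and of `s` over `O[t]` gives integrality over `O[t]`. -/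
theorem isIntegral_adjoin_trans {O B : Type*} [CommRing O] [CommRing B] [Algebra O B]
    {s t x : B} (hs : IsIntegral (Algebra.adjoin O {t}) s)
    (hx : IsIntegral (Algebra.adjoin O {s}) x) : IsIntegral (Algebra.adjoin O {t}) x := by
  let C := integralClosure (Algebra.adjoin O {t}) B
  have hC : ∀ y ∈ Algebra.adjoin O {s}, y ∈ C := by
    intro y hy
    induction hy using Algebra.adjoin_induction with
    | mem y hy =>
      rw [Set.mem_singleton_iff] at hy
      rw [hy]
      exact hs
    | algebraMap c =>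
      exact isIntegral_algebraMap (x := algebraMap O (Algebra.adjoin O {t}) c)
    | add y z _ _ hy hz => exact add_mem hy hz
    | mul y z _ _ hy hz => exact mul_mem hy hz
  let ι : Algebra.adjoin O {s} →+* C :=
    (Algebra.adjoin O {s}).val.toRingHom.codRestrict C.toSubring (fun y => hC y y.2)
  obtain ⟨p, hp, hpx⟩ := hx
  have hint : IsIntegral C x := by
    refine ⟨p.map ι, hp.map ι, ?_⟩
    rw [Polynomial.eval₂_map]
    exact hpx
  have h2 : x ∈ integralClosure C B := hint
  rw [integralClosure_idem] at h2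
  obtain ⟨w, hw⟩ := Algebra.mem_bot.mp h2
  rw [← hw]
  exact w.2

variable (M q : ℕ) [NeZero M] [NeZero q] (hq : q.Prime) (hqM : ¬ q ∣ M)
variable (A : ValuationSubring Qb) (K : IntermediateField ℚ Qb)

/-- `w_q` transports integrality over `O[t]` to integrality over `O[w_q t]`. -/
theorem isIntegral_wK {t x : FK (M * q) K}
    (hx : IsIntegral (Algebra.adjoin (OK A K) {t}) x) :
    IsIntegral (Algebra.adjoin (OK A K) {wK M q hq hqM K t}) (wK M q hq hqM K x) := by
  have hmem : ∀ y ∈ Algebra.adjoin (OK A K) {t},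
      wK M q hq hqM K y ∈ Algebra.adjoin (OK A K) {wK M q hq hqM K t} := by
    intro y hy
    induction hy using Algebra.adjoin_induction with
    | mem y hy =>
      rw [Set.mem_singleton_iff] at hy
      rw [hy]
      exact Algebra.subset_adjoin (Set.mem_singleton _)
    | algebraMap c =>
      rw [wK_algebraMap_OK]
      exact Subalgebra.algebraMap_mem _ c
    | add y z _ _ hy hz =>
      rw [map_add]
      exact add_mem hy hz
    | mul y z _ _ hy hz =>
      rw [map_mul]
      exact mul_mem hy hz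
  let φ : Algebra.adjoin (OK A K) {t} →+* Algebra.adjoin (OK A K) {wK M q hq hqM K t} :=
    (((wK M q hq hqM K : FK (M * q) K ≃+* FK (M * q) K) : FK (M * q) K →+* FK (M * q) K).comp
      (Algebra.adjoin (OK A K) {t}).val.toRingHom).codRestrict
        (Algebra.adjoin (OK A K) {wK M q hq hqM K t}).toSubring (fun y => hmem y y.2)
  exact IsIntegral.map_of_comp_eq φ
    ((wK M q hq hqM K : FK (M * q) K ≃+* FK (M * q) K) : FK (M * q) K →+* FK (M * q) K)
    (RingHom.ext fun y => rfl) hx

/-- `w_q` maps the chart with coordinate `t` into the chart with coordinate `w_q t`. -/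
theorem wK_mem_chart {t x : FK (M * q) K} (hx : x ∈ chart (M * q) A K t) :
    wK M q hq hqM K x ∈ chart (M * q) A K (wK M q hq hqM K t) :=
  isIntegral_wK M q hq hqM A K hx

/-- `j_q` is integral over `O[j]`. -/
theorem isIntegral_jqK :
    IsIntegral (Algebra.adjoin (OK A K) {jK (M * q) K}) (jqK M q hq hqM K) :=
  S18.ModelBasicCore.isIntegral_of_coe_eq_jd (M * q) A K (dvd_mul_left q M) (NeZero.ne q) _
    (coe_jqK M q hq hqM K)

/-- `j` is integral over `O[j_q]`. -/
theorem isIntegral_jK :
    IsIntegral (Algebra.adjoin (OK A K) {jqK M q hq hqM K}) (jK (M * q) K) := by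
  have h := isIntegral_wK M q hq hqM A K (isIntegral_jqK M q hq hqM A K)
  rwa [wK_jK, wK_jqK] at h

/-- **(W5)** `w_q` preserves the chart `j ≠ ∞` (the integral closure of `O[j]` in `F_K`). -/
theorem wK_mem_chart_jK {x : FK (M * q) K} (hx : x ∈ chart (M * q) A K (jK (M * q) K)) :
    wK M q hq hqM K x ∈ chart (M * q) A K (jK (M * q) K) := by
  have h := isIntegral_wK M q hq hqM A K ((mem_chart_iff (M * q) A K).mp hx)
  rw [wK_jK] at h
  exact (mem_chart_iff (M * q) A K).mpr
    (isIntegral_adjoin_trans (isIntegral_jqK M q hq hqM A K) h)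

theorem wK_mem_chart_jK_iff {x : FK (M * q) K} :
    wK M q hq hqM K x ∈ chart (M * q) A K (jK (M * q) K)
      ↔ x ∈ chart (M * q) A K (jK (M * q) K) := by
  refine ⟨fun h => ?_, wK_mem_chart_jK M q hq hqM A K⟩
  have h2 := wK_mem_chart_jK M q hq hqM A K h
  rwa [wK_wK] at h2

/-- **(W5)**, `R0` form. -/
theorem wK_mem_R0 [Fact q.Prime] {x : FK (M * q) K} (hx : x ∈ R0 (M * q) q A K) :
    wK M q hq hqM K x ∈ R0 (M * q) q A K :=
  wK_mem_chart_jK M q hq hqM A K hx

/-- **(W5)**, soft form for the chart `j ≠ 0`: `w_q` maps `Rinf` into the integral closure of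
`O[j_q⁻¹]`. -/
theorem isIntegral_wK_of_mem_chart_inv {x : FK (M * q) K}
    (hx : x ∈ chart (M * q) A K (jK (M * q) K)⁻¹) :
    IsIntegral (Algebra.adjoin (OK A K) {(jqK M q hq hqM K)⁻¹}) (wK M q hq hqM K x) := by
  have h := isIntegral_wK M q hq hqM A K ((mem_chart_iff (M * q) A K).mp hx)
  rwa [map_inv₀, wK_jK] at h

/-- `α` maps the level-`M` chart with coordinate `t` into the level-`M q` chart with coordinate
`α t`. -/
theorem alphaK_mem_chart {t x : FK M K} (hx : x ∈ chart M A K t) :
    alphaK M q K x ∈ chart (M * q) A K (alphaK M q K t) := by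
  have hmem : ∀ y ∈ Algebra.adjoin (OK A K) {t},
      alphaK M q K y ∈ Algebra.adjoin (OK A K) {alphaK M q K t} := by
    intro y hy
    induction hy using Algebra.adjoin_induction with
    | mem y hy =>
      rw [Set.mem_singleton_iff] at hy
      rw [hy]
      exact Algebra.subset_adjoin (Set.mem_singleton _)
    | algebraMap c =>
      have e1 : alphaK M q K (algebraMap (OK A K) (FK M K) c)
          = algebraMap (OK A K) (FK (M * q) K) c := alphaK_constK M q K (c : K)
      rw [e1]
      exact Subalgebra.algebraMap_mem _ c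
    | add y z _ _ hy hz =>
      rw [map_add]
      exact add_mem hy hz
    | mul y z _ _ hy hz =>
      rw [map_mul]
      exact mul_mem hy hz
  let φ : Algebra.adjoin (OK A K) {t} →+* Algebra.adjoin (OK A K) {alphaK M q K t} :=
    ((alphaK M q K).comp (Algebra.adjoin (OK A K) {t}).val.toRingHom).codRestrict
      (Algebra.adjoin (OK A K) {alphaK M q K t}).toSubring (fun y => hmem y y.2)
  exact (mem_chart_iff (M * q) A K).mpr
    (IsIntegral.map_of_comp_eq φ (alphaK M q K) (RingHom.ext fun y => rfl)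
      ((mem_chart_iff M A K).mp hx))

/-- `α` maps the level-`M` chart `j ≠ ∞` into the level-`M q` chart `j ≠ ∞`. -/
theorem alphaK_mem_chart_jK {x : FK M K} (hx : x ∈ chart M A K (jK M K)) :
    alphaK M q K x ∈ chart (M * q) A K (jK (M * q) K) := by
  have h := alphaK_mem_chart M q A K hx
  rwa [alphaK_jK] at h

/-- `α` maps the level-`M` chart `j ≠ 0` into the level-`M q` chart `j ≠ 0`. -/
theorem alphaK_mem_chart_inv {x : FK M K} (hx : x ∈ chart M A K (jK M K)⁻¹) :
    alphaK M q K x ∈ chart (M * q) A K (jK (M * q) K)⁻¹ := by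
  have h := alphaK_mem_chart M q A K hx
  rwa [map_inv₀, alphaK_jK] at h

/-- `β` maps the level-`M` chart `j ≠ ∞` into the level-`M q` chart `j ≠ ∞`. -/
theorem betaK_mem_chart_jK {x : FK M K} (hx : x ∈ chart M A K (jK M K)) :
    betaK M q hq hqM K x ∈ chart (M * q) A K (jK (M * q) K) := by
  rw [← wK_alphaK]
  exact wK_mem_chart_jK M q hq hqM A K (alphaK_mem_chart_jK M q A K hx)

end Charts

end Fermat.Agent.S34.WK
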