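/-
S34 — ResDeg.lean (helper61), block [Model2], row [ResDeg] (dealt by helper5).

**Residue degree one on the first branch** at level `N = M q` (`q` prime, `q ∤ M`): every
Gauss reduction of an element of `F_K(M q)` is the Gauss reduction of an element of `F_K(M)`
(`hf1`, the hypothesis of `S34/Branch.exists_level`, `exists_level_R0`, `exists_level_Rinf`).

This is obtained from the modular instantiation `hyp` of helper56's abstract two-valuation
setting `RamTwoV.Hyp`:

* `V₀ = V1(M)` the level-`M` Gauss valuation ring (a discrete valuation ring, `S34/GaussV`),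
  `E₀ = F_K(M) ⊂ E = F_K(M q)` of degree `q + 1` (`S34/DegTower`);
* `V1 = V1(M q)`, `V2 = w_q⁻¹ V1(M q)` (`S34/GaussV`, `S34/WK`), `ρ₁ = red1`, `ρ₂ = red2`;
* `x = j_q - j^q` (`ρ₁ x = 0` : Kronecker, `ρ₂ x ≠ 0` : `V12Rel.wit`), `y = w_q x = j - j_q^q`;
* `b i = j_q ^ i`, with `ρ₂ (b i) = j̄ ^ i` independent over `ρ₂ (V₀) ⊆ k((Q^q))`
  (`Red2Alg.eq_zero_of_sum_mul_pow_eq_zero`).

`hyp` is stated so that the other consumers of the same instantiation (reducedness of the special
fibre on `V1 ⊓ V2`, integrality of `V1 ⊓ V2` over `V1(M)`) can use it verbatim.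
-/
import Mathlib
import Fermat.Agent.S34.GaussV
import Fermat.Agent.S34.V12Rel
import Fermat.Agent.S34.WK
import Fermat.Agent.S34.DegTower
import Fermat.Agent.S34.RamTwoV
import Fermat.Agent.S34.Red2Alg
import Fermat.Agent.S18.SepDeg
import Fermat.Agent.S18.ModelQFrac

set_option autoImplicit false
set_option linter.unusedSectionVars false
set_option linter.style.haveILetI false

noncomputable section

namespace Fermat.Agent.S34.ResDeg

open ModularCurve HahnSeries Fermat.Agent.S18 Fermat.Agent.S18.Arith Fermat.Agent.S18.ModelPlan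

variable (M q : ℕ) [NeZero M] [NeZero q] (hq : q.Prime) (hqM : ¬ q ∣ M)
variable {A : ValuationSubring Qb} {K : IntermediateField ℚ Qb}
variable (hdvr : IsDiscreteValuationRing (OK A K))

/-! ### The tower `V1(M) ⊆ F_K(M) ⊆ F_K(M q)` -/

/-- `M ∣ M * q`. -/
theorem dvd_level : M ∣ M * q := Dvd.intro q rfl

/-- The algebra structure of `F_K(M q)` over `F_K(M)` (`DegTower.algTower`; use with `letI`). -/
@[reducible] def algE : Algebra ↥(FK M K) ↥(FK (M * q) K) :=
  DegTower.algTower M (M * q) K (dvd_level M q)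

/-- The algebra structure of `F_K(M q)` over the level-`M` Gauss valuation ring (use with
`letI`). -/
@[reducible] def algV : Algebra ↥(GaussV.V1 M A K hdvr) ↥(FK (M * q) K) :=
  ((DegTower.incl M (M * q) K (dvd_level M q)).comp (GaussV.V1 M A K hdvr).subtype).toAlgebra

theorem coe_algebraMap_V (c : GaussV.V1 M A K hdvr) :
    letI := algV M q hdvr
    ((algebraMap ↥(GaussV.V1 M A K hdvr) ↥(FK (M * q) K) c : FK (M * q) K) : LaurentSeries Qb)
      = (((c : FK M K) : FK M K) : LaurentSeries Qb) :=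
  DegTower.coe_incl M (M * q) K (dvd_level M q) (c : FK M K)

theorem isScalarTower_V :
    letI := algE M q (K := K)
    letI := algV M q hdvr
    IsScalarTower ↥(GaussV.V1 M A K hdvr) ↥(FK M K) ↥(FK (M * q) K) := by
  letI := algE M q (K := K)
  letI := algV M q hdvr
  exact IsScalarTower.of_algebraMap_eq fun _ => rfl

/-- The inclusion of `DegTower` is the `α` of `WK`. -/
theorem incl_eq_alphaK (x : FK M K) :
    DegTower.incl M (M * q) K (dvd_level M q) x = WK.alphaK M q K x := by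
  apply Subtype.ext
  rw [DegTower.coe_incl, WK.coe_alphaK]

/-- `w_q` of a level-`M` element is its `β`. -/
theorem wK_algebraMap_V (c : GaussV.V1 M A K hdvr) :
    letI := algV M q hdvr
    WK.wK M q hq hqM K (algebraMap ↥(GaussV.V1 M A K hdvr) ↥(FK (M * q) K) c)
      = WK.betaK M q hq hqM K (c : FK M K) := by
  letI := algV M q hdvr
  show WK.wK M q hq hqM K (DegTower.incl M (M * q) K (dvd_level M q) (c : FK M K)) = _
  rw [incl_eq_alphaK M q, WK.wK_alphaK]

/-! ### Level-`M` elements in `V1(M q)` and `V2(M q)` -/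

/-- `V1(M) ⊆ V1(M q)`. -/
theorem algebraMap_mem_V1 (c : GaussV.V1 M A K hdvr) :
    letI := algV M q hdvr
    algebraMap ↥(GaussV.V1 M A K hdvr) ↥(FK (M * q) K) c ∈ GaussV.V1 (M * q) A K hdvr := by
  letI := algV M q hdvr
  obtain ⟨y, hy⟩ := (GaussV.mem_V1_iff hdvr).mp c.2
  refine (GaussV.mem_V1_iff hdvr).mpr ⟨y, ?_⟩
  rw [coe_algebraMap_V]
  exact hy

/-- The level-`M q` reduction of a level-`M` element is its level-`M` reduction. -/
theorem red1_algebraMap_V (c : GaussV.V1 M A K hdvr)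
    (h : letI := algV M q hdvr
      algebraMap ↥(GaussV.V1 M A K hdvr) ↥(FK (M * q) K) c ∈ GaussV.V1 (M * q) A K hdvr) :
    letI := algV M q hdvr
    GaussV.red1 hdvr ⟨algebraMap ↥(GaussV.V1 M A K hdvr) ↥(FK (M * q) K) c, h⟩
      = GaussV.red1 hdvr c := by
  letI := algV M q hdvr
  apply GaussV.red1_eq_of_gRel
  show GRel A ((algebraMap ↥(GaussV.V1 M A K hdvr) ↥(FK (M * q) K) c : FK (M * q) K) :
    LaurentSeries Qb) _
  rw [coe_algebraMap_V]
  exact GaussV.gRel_red1 hdvr c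

/-- The Gauss relation for `w_q` of a level-`M` element: `β c = c(Q^q)`. -/
theorem gRel_wK_algebraMap_V (c : GaussV.V1 M A K hdvr) :
    letI := algV M q hdvr
    GRel A ((WK.wK M q hq hqM K (algebraMap ↥(GaussV.V1 M A K hdvr) ↥(FK (M * q) K) c) :
      FK (M * q) K) : LaurentSeries Qb)
      (qExpand (IsLocalRing.ResidueField A) q (GaussV.red1 hdvr c)) := by
  letI := algV M q hdvr
  rw [wK_algebraMap_V, WK.coe_betaK]
  exact V12Rel.gRel_qExpand A q (GaussV.gRel_red1 hdvr c)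

/-- `V1(M) ⊆ V2(M q)`. -/
theorem algebraMap_mem_V2 (c : GaussV.V1 M A K hdvr) :
    letI := algV M q hdvr
    algebraMap ↥(GaussV.V1 M A K hdvr) ↥(FK (M * q) K) c
      ∈ GaussV.V2 (WK.wK M q hq hqM K) hdvr := by
  letI := algV M q hdvr
  exact (GaussV.mem_V2_iff _ hdvr).mpr
    ((GaussV.mem_V1_iff hdvr).mpr ⟨_, gRel_wK_algebraMap_V M q hq hqM hdvr c⟩)

/-- The second reduction of a level-`M` element is `c̄(Q^q)`. -/
theorem red2_algebraMap_V (c : GaussV.V1 M A K hdvr)
    (h : letI := algV M q hdvr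
      algebraMap ↥(GaussV.V1 M A K hdvr) ↥(FK (M * q) K) c
        ∈ GaussV.V2 (WK.wK M q hq hqM K) hdvr) :
    letI := algV M q hdvr
    GaussV.red2 (WK.wK M q hq hqM K) hdvr
      ⟨algebraMap ↥(GaussV.V1 M A K hdvr) ↥(FK (M * q) K) c, h⟩
      = qExpand (IsLocalRing.ResidueField A) q (GaussV.red1 hdvr c) := by
  letI := algV M q hdvr
  rw [GaussV.red2_apply]
  exact GaussV.red1_eq_of_gRel hdvr _ (gRel_wK_algebraMap_V M q hq hqM hdvr c)

/-! ### The functions `x = j_q - j^q`, `y = j - j_q^q`, `b i = j_q^i` -/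

/-- `x = j_q - j^q` : vanishes on the first branch, not on the second. -/
def xK : FK (M * q) K := WK.jqK M q hq hqM K - jK (M * q) K ^ q

/-- `y = w_q x = j - j_q^q` : vanishes on the second branch, not on the first. -/
def yK : FK (M * q) K := jK (M * q) K - WK.jqK M q hq hqM K ^ q

theorem wK_xK : WK.wK M q hq hqM K (xK M q hq hqM) = yK M q hq hqM := by
  rw [xK, yK, map_sub, map_pow, WK.wK_jqK, WK.wK_jK]

theorem wK_yK : WK.wK M q hq hqM K (yK M q hq hqM) = xK M q hq hqM := by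
  rw [xK, yK, map_sub, map_pow, WK.wK_jqK, WK.wK_jK]

theorem coe_jK' : ((jK (M * q) K : FK (M * q) K) : LaurentSeries Qb) = jqModC Qb :=
  ModelQFrac.coe_jK (M * q) K

theorem coe_jqK' :
    ((WK.jqK M q hq hqM K : FK (M * q) K) : LaurentSeries Qb) = qExpand Qb q (jqModC Qb) := by
  rw [WK.coe_jqK, S28.jd_eq]

theorem coe_xK : ((xK M q hq hqM : FK (M * q) K) : LaurentSeries Qb)
    = qExpand Qb q (jqModC Qb) - jqModC Qb ^ q := by
  rw [xK]
  push_cast
  rw [coe_jqK', coe_jK']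

theorem coe_yK : ((yK M q hq hqM : FK (M * q) K) : LaurentSeries Qb)
    = jqModC Qb - qExpand Qb q (jqModC Qb) ^ q := by
  rw [yK]
  push_cast
  rw [coe_jqK', coe_jK']

/-- The reduction of `y = j - j_q^q` on the first branch (`= V12Rel.wit A q`). -/
def witK (A : ValuationSubring Qb) (q : ℕ) [NeZero q] : LaurentSeries (IsLocalRing.ResidueField A) :=
  jqModC (IsLocalRing.ResidueField A) -
    qExpand (IsLocalRing.ResidueField A) q (jqModC (IsLocalRing.ResidueField A)) ^ q

include hq in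
theorem witK_ne_zero (hA : A.LiesOverPrime q) : witK A q ≠ 0 := by
  haveI : Fact q.Prime := ⟨hq⟩
  exact V12Rel.wit_ne_zero A q hA

/-- Kronecker: `x ≡ 0` on the first branch. -/
theorem gRel_xK (hA : A.LiesOverPrime q) :
    GRel A ((xK M q hq hqM : FK (M * q) K) : LaurentSeries Qb) 0 := by
  haveI : Fact q.Prime := ⟨hq⟩
  rw [coe_xK]
  exact V12Rel.kronecker A q hA

/-- `y` reduces to the nonzero series `wit` on the first branch. -/
theorem gRel_yK :
    GRel A ((yK M q hq hqM : FK (M * q) K) : LaurentSeries Qb) (witK A q) := by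
  haveI : Fact q.Prime := ⟨hq⟩
  rw [coe_yK]
  exact V12Rel.gRel_wit A q

theorem gRel_jqK_pow (i : ℕ) :
    GRel A (((WK.jqK M q hq hqM K ^ i : FK (M * q) K) : FK (M * q) K) : LaurentSeries Qb)
      (qExpand (IsLocalRing.ResidueField A) q (jqModC (IsLocalRing.ResidueField A)) ^ i) := by
  push_cast
  rw [coe_jqK']
  exact V12Rel.gRel_pow A (V12Rel.gRel_jd A q) i

theorem gRel_wK_jqK_pow (i : ℕ) :
    GRel A ((WK.wK M q hq hqM K (WK.jqK M q hq hqM K ^ i) : FK (M * q) K) : LaurentSeries Qb)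
      (jqModC (IsLocalRing.ResidueField A) ^ i) := by
  rw [map_pow, WK.wK_jqK]
  push_cast
  rw [coe_jK']
  exact V12Rel.gRel_pow A (V12Rel.gRel_j A) i

/-! ### Independence of the `ρ₂ (b i)` over `ρ₂ (V1(M))` -/

theorem supp_qExpand (z : LaurentSeries (IsLocalRing.ResidueField A)) (n : ℤ)
    (hn : (qExpand (IsLocalRing.ResidueField A) q z).coeff n ≠ 0) : (q : ℤ) ∣ n := by
  by_contra hd
  exact hn (qExpand_coeff_of_not_dvd q z hd)

theorem dvd_of_sum_eq_zero {π : OK A K} (hπ : Irreducible π)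
    (c : Fin q → GaussV.V1 M A K hdvr)
    (h : ∑ i : Fin q, qExpand (IsLocalRing.ResidueField A) q (GaussV.red1 hdvr (c i)) *
      jqModC (IsLocalRing.ResidueField A) ^ (i : ℕ) = 0) :
    ∀ i, GaussV.piV1 hdvr π ∣ c i := by
  have h0 := Red2Alg.eq_zero_of_sum_mul_pow_eq_zero q (jqModC (IsLocalRing.ResidueField A))
    (SepDeg.order_jqModC _)
    (fun i => qExpand (IsLocalRing.ResidueField A) q (GaussV.red1 hdvr (c i)))
    (fun i n hn => supp_qExpand q _ n hn) h
  intro i
  have h1 : GaussV.red1 hdvr (c i) = 0 :=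
    qExpand_injective (R := IsLocalRing.ResidueField A) q (by rw [h0 i, map_zero])
  have h2 : c i ∈ RingHom.ker (GaussV.red1 (N := M) hdvr) := h1
  rw [GaussV.ker_red1 hdvr hπ, Ideal.mem_span_singleton] at h2
  exact h2

/-! ### The instantiation of `RamTwoV.Hyp` -/

/-- **The modular instance of the two-valuation setting** (`RamTwoV.Hyp`) at level `M q`. -/
theorem hyp (hA : A.LiesOverPrime q) {π : OK A K} (hπ : Irreducible π) :
    letI := algE M q (K := K)
    letI := algV M q hdvr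
    haveI := GaussV.isDiscreteValuationRing_V1 (N := M) hdvr
    RamTwoV.Hyp (V₀ := ↥(GaussV.V1 M A K hdvr)) ↥(FK M K)
      (GaussV.V1 (M * q) A K hdvr) (GaussV.V2 (WK.wK M q hq hqM K) hdvr)
      (GaussV.red1 hdvr) (GaussV.red2 (WK.wK M q hq hqM K) hdvr)
      (GaussV.piV1 hdvr π) q (xK M q hq hqM) (yK M q hq hqM)
      (fun i : Fin q => WK.jqK M q hq hqM K ^ (i : ℕ)) := by
  letI := algE M q (K := K)
  letI := algV M q hdvr
  haveI := GaussV.isDiscreteValuationRing_V1 (N := M) hdvr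
  haveI : Fact q.Prime := ⟨hq⟩
  have hwit : witK A q ≠ 0 := witK_ne_zero q hq hA
  have hx1 : xK M q hq hqM ∈ GaussV.V1 (M * q) A K hdvr := ⟨0, gRel_xK M q hq hqM hA⟩
  have hy1 : yK M q hq hqM ∈ GaussV.V1 (M * q) A K hdvr := ⟨_, gRel_yK M q hq hqM⟩
  have hx2 : xK M q hq hqM ∈ GaussV.V2 (WK.wK M q hq hqM K) hdvr := by
    rw [GaussV.mem_V2_iff, wK_xK]; exact hy1
  have hy2 : yK M q hq hqM ∈ GaussV.V2 (WK.wK M q hq hqM K) hdvr := by
    rw [GaussV.mem_V2_iff, wK_yK]; exact hx1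
  have hb2 : ∀ i : Fin q, WK.jqK M q hq hqM K ^ (i : ℕ) ∈ GaussV.V2 (WK.wK M q hq hqM K) hdvr :=
    fun i => (GaussV.mem_V2_iff _ hdvr).mpr ⟨_, gRel_wK_jqK_pow M q hq hqM i⟩
  have hredb : ∀ (i : Fin q) (h : WK.jqK M q hq hqM K ^ (i : ℕ)
      ∈ GaussV.V2 (WK.wK M q hq hqM K) hdvr),
      GaussV.red2 (WK.wK M q hq hqM K) hdvr ⟨WK.jqK M q hq hqM K ^ (i : ℕ), h⟩
        = jqModC (IsLocalRing.ResidueField A) ^ (i : ℕ) := by
    intro i h
    rw [GaussV.red2_apply]
    exact GaussV.red1_eq_of_gRel hdvr _ (gRel_wK_jqK_pow M q hq hqM i)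
  refine
    { fin := DegTower.finiteDimensional M (M * q) K (dvd_level M q)
      deg := (DegTower.finrank_of_prime M (M * q) K hq hqM rfl).le
      irr := GaussV.irreducible_piV1 hdvr hπ
      le₁ := algebraMap_mem_V1 M q hdvr
      le₂ := algebraMap_mem_V2 M q hq hqM hdvr
      pi₁ := ?_
      pi₂ := ?_
      hx₁ := ⟨hx1, GaussV.red1_eq_of_gRel hdvr _ (gRel_xK M q hq hqM hA)⟩
      hx₂ := ⟨hx2, ?_⟩
      hy₁ := ⟨hy1, ?_⟩
      hy₂ := ⟨hy2, ?_⟩
      hb₁ := fun i => ⟨_, gRel_jqK_pow M q hq hqM i⟩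
      hb₂ := hb2
      ind := ?_ }
  · rw [red1_algebraMap_V]
    exact GaussV.red1_algebraMap_of_not_isUnit hdvr π hπ.not_isUnit
  · rw [red2_algebraMap_V]
    have h0 : GaussV.red1 hdvr (GaussV.piV1 (N := M) hdvr π) = 0 :=
      GaussV.red1_algebraMap_of_not_isUnit hdvr π hπ.not_isUnit
    rw [h0, map_zero]
  · rw [GaussV.red2_apply]
    have h1 : GaussV.red1 hdvr ⟨WK.wK M q hq hqM K (xK M q hq hqM), hx2⟩ = witK A q := by
      apply GaussV.red1_eq_of_gRel
      show GRel A ((WK.wK M q hq hqM K (xK M q hq hqM) : FK (M * q) K) : LaurentSeries Qb) _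
      rw [wK_xK]
      exact gRel_yK M q hq hqM
    rw [h1]
    exact hwit
  · have h1 : GaussV.red1 hdvr ⟨yK M q hq hqM, hy1⟩ = witK A q :=
      GaussV.red1_eq_of_gRel hdvr _ (gRel_yK M q hq hqM)
    rw [h1]
    exact hwit
  · rw [GaussV.red2_apply]
    apply GaussV.red1_eq_of_gRel
    show GRel A ((WK.wK M q hq hqM K (yK M q hq hqM) : FK (M * q) K) : LaurentSeries Qb) _
    rw [wK_yK]
    exact gRel_xK M q hq hqM hA
  · intro c hc
    apply dvd_of_sum_eq_zero M q hdvr hπ c
    rw [← hc]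
    refine Finset.sum_congr rfl fun i _ => ?_
    rw [red2_algebraMap_V, hredb]

/-! ### Residue degree one -/

include hq hqM hdvr in
/-- **[ResDeg]** residue degree one on the first branch: every Gauss reduction of an element of
`F_K(M q)` is the Gauss reduction of an element of `F_K(M)`.  This is the hypothesis `hf1` of
`Branch.exists_level`, `Branch.exists_level_R0`, `Branch.exists_level_Rinf` at `N = M * q`. -/
theorem hf1_of_dvr (hA : A.LiesOverPrime q) (x : FK (M * q) K)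
    (y : LaurentSeries (IsLocalRing.ResidueField A))
    (h : GRel A ((x : FK (M * q) K) : LaurentSeries Qb) y) :
    ∃ x' : FK M K, GRel A ((x' : FK M K) : LaurentSeries Qb) y := by
  haveI := hdvr
  obtain ⟨π, hπ⟩ := IsDiscreteValuationRing.exists_irreducible (OK A K)
  letI := algE M q (K := K)
  letI := algV M q hdvr
  haveI := GaussV.isDiscreteValuationRing_V1 (N := M) hdvr
  haveI := isScalarTower_V M q hdvr
  have H := hyp M q hq hqM hdvr hA hπ
  obtain ⟨c, hc⟩ := H.exists_eq₁ ⟨x, ⟨y, h⟩⟩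
  refine ⟨(c : FK M K), ?_⟩
  have h1 : GaussV.red1 hdvr (⟨x, ⟨y, h⟩⟩ : GaussV.V1 (M * q) A K hdvr) = y :=
    GaussV.red1_eq_of_gRel hdvr _ h
  rw [h1, red1_algebraMap_V] at hc
  rw [hc]
  exact GaussV.gRel_red1 hdvr c

include hq hqM in
/-- **[ResDeg]**, in the exact shape of the hypothesis `hf1` of `S34/Branch`. -/
theorem hf1 (hA : A.LiesOverPrime q) (hB : BaseFacts q A K) :
    ∀ (x : FK (M * q) K) (y : LaurentSeries (IsLocalRing.ResidueField A)),
      GRel A ((x : FK (M * q) K) : LaurentSeries Qb) y →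
      ∃ x' : FK M K, GRel A ((x' : FK M K) : LaurentSeries Qb) y :=
  fun x y h => hf1_of_dvr M q hq hqM hB.dvr hA x y h

end Fermat.Agent.S34.ResDeg

end
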