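/-
S34 — ChartJ.lean (helper45): block [MODULAR], leaf [ChartJ].

Chart-side fields of `Cech2Plan.Setting` for an ARBITRARY coordinate `t` of `F_K`
(`R0 := chart t`, `Rinf := chart t⁻¹`), and the `w_q`-symmetric coordinate `J = j * j_q`.

* (A) pure algebra in a field `E` over a commutative ring `R`:
  `isIntegral_adjoin_of_insert_inv` : `x` integral over `R[x⁻¹, S]` ⟹ `x` integral over `R[S]`;
  `isIntegral_adjoin_mul`           : `x` integral over `R[y]` ⟹ `x` integral over `R[x y]`;
  `isIntegral_adjoin_mul_inv`       : `y` integral over `R[x]` ⟹ `x⁻¹` integral over `R[(x y)⁻¹]`;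
  `isIntegral_adjoin_trans`, `isIntegral_adjoin_map`.
* (B) generic coordinate `t : F_K`: `self_mem_chart`, `chart_le_of_isIntegral`, `glue`, `glue'`,
  `root_chart`, `fin_chart`, bundled as `ChartSide` / `chartSide_of`.
* (C) symmetric coordinate: for `jq : F_K` with `jq` integral over `O[j]` and `j` integral over
  `O[jq]` (in the application `jq = w_q j = j(q^q)`), `J := j * jq`:
  `chart j ≤ chart J`, `chart jq ≤ chart J`, `chart j⁻¹ ≤ chart J⁻¹`, `chart jq⁻¹ ≤ chart J⁻¹`,
  `J` is transcendental over `O`, `F_K` is algebraic over `O[J]`, the charts `chart J`,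
  `chart J⁻¹` are stable under any automorphism swapping `j` and `jq`, and `chartSide_symJ`.
-/
import Mathlib
import Fermat.Agent.S18.ArithPlan
import Fermat.Agent.S18.ModelBasicCore
import Fermat.Agent.S18.ModelFin

set_option autoImplicit false

noncomputable section

namespace Fermat.Agent.S34.ChartJ

open Fermat.Agent.S18 Fermat.Agent.S18.Arith

/-! ### (A) Pure algebra -/

section Abs

variable {R E : Type*} [CommRing R] [Field E] [Algebra R E]

/-- If `x⁻¹` lies in a subalgebra `B` of a field and `x` is integral over `B`, then `x ∈ B`. -/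
theorem mem_of_isIntegral_of_inv_mem (B : Subalgebra R E) {x : E} (hinv : x⁻¹ ∈ B)
    (hx : IsIntegral B x) : x ∈ B := by
  by_cases hx0 : x = 0
  · rw [hx0]; exact B.zero_mem
  obtain ⟨p, hmonic, hroot⟩ := hx
  have hn0 : p.natDegree ≠ 0 := by
    intro h0
    have hp1 : p = 1 := Polynomial.eq_one_of_monic_natDegree_zero hmonic h0
    rw [hp1, Polynomial.eval₂_one] at hroot
    exact one_ne_zero hroot
  obtain ⟨k, hk⟩ := Nat.exists_eq_add_one_of_ne_zero hn0
  have hsum := Polynomial.eval₂_eq_sum_range (algebraMap B E) x (p := p)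
  rw [hroot, Finset.sum_range_succ, hmonic.coeff_natDegree, map_one, one_mul, hk] at hsum
  -- `0 = ∑_{i ≤ k} c_i x^i + x^(k+1)`
  have hx1 : x = - ∑ i ∈ Finset.range (k + 1), algebraMap B E (p.coeff i) * x⁻¹ ^ (k - i) := by
    have h2 : ∀ i ∈ Finset.range (k + 1),
        algebraMap B E (p.coeff i) * x⁻¹ ^ (k - i) =
          algebraMap B E (p.coeff i) * x ^ i * x⁻¹ ^ k := by
      intro i hi
      have hik : i ≤ k := Nat.lt_succ_iff.mp (Finset.mem_range.mp hi)
      have h3 : x⁻¹ ^ k = x⁻¹ ^ i * x⁻¹ ^ (k - i) := by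
        rw [← pow_add]; congr 1; omega
      rw [h3, mul_assoc, ← mul_assoc (x ^ i), ← mul_pow, mul_inv_cancel₀ hx0, one_pow, one_mul]
    rw [Finset.sum_congr rfl h2, ← Finset.sum_mul]
    have h4 : x = x ^ (k + 1) * x⁻¹ ^ k := by
      rw [pow_succ, mul_comm (x ^ k), mul_assoc, ← mul_pow, mul_inv_cancel₀ hx0, one_pow,
        mul_one]
    have h5 : x ^ (k + 1) = - ∑ i ∈ Finset.range (k + 1), algebraMap B E (p.coeff i) * x ^ i := by
      linear_combination -hsum
    calc x = x ^ (k + 1) * x⁻¹ ^ k := h4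
      _ = -((∑ i ∈ Finset.range (k + 1), algebraMap B E (p.coeff i) * x ^ i) * x⁻¹ ^ k) := by
          rw [h5, neg_mul]
  rw [hx1]
  exact B.neg_mem (B.sum_mem fun i _ => B.mul_mem (p.coeff i).2 (B.pow_mem hinv _))

/-- **Atiyah–Macdonald style lemma.** If `x` is integral over `R[x⁻¹, S]`, then `x` is integral
over `R[S]`. -/
theorem isIntegral_adjoin_of_insert_inv {S : Set E} {x : E}
    (hx : IsIntegral (Algebra.adjoin R (insert x⁻¹ S)) x) :
    IsIntegral (Algebra.adjoin R S) x := by
  by_cases hx0 : x = 0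
  · rw [hx0]; exact isIntegral_zero
  have hxmem : x ∈ Algebra.adjoin R (insert x⁻¹ S) :=
    mem_of_isIntegral_of_inv_mem _ (Algebra.subset_adjoin (Set.mem_insert _ _)) hx
  have h1 : Algebra.adjoin R (insert x⁻¹ S) =
      (Algebra.adjoin (Algebra.adjoin R S) {x⁻¹}).restrictScalars R := by
    rw [← Algebra.adjoin_union_eq_adjoin_adjoin, Set.union_singleton]
  rw [h1] at hxmem
  have hxmem' : x ∈ Algebra.adjoin (Algebra.adjoin R S) {x⁻¹} := hxmem
  rw [Algebra.adjoin_singleton_eq_range_aeval] at hxmem'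
  obtain ⟨g, hg⟩ := hxmem'
  have hg' : Polynomial.eval₂ (algebraMap (Algebra.adjoin R S) E) x⁻¹ g = x := hg
  refine ⟨Polynomial.X ^ (g.natDegree + 1) - g.reverse, Polynomial.monic_X_pow_sub ?_, ?_⟩
  · refine lt_of_le_of_lt Polynomial.degree_le_natDegree ?_
    exact_mod_cast Nat.lt_succ_of_le (Polynomial.reverse_natDegree_le g)
  · let _ : Invertible x⁻¹ := invertibleOfNonzero (inv_ne_zero hx0)
    have h2 := Polynomial.eval₂_reverse_mul_pow (algebraMap (Algebra.adjoin R S) E) x⁻¹ g
    have h3 : (⅟(x⁻¹) : E) = x := by rw [invOf_eq_inv, inv_inv]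
    rw [h3, hg'] at h2
    have h4 : Polynomial.eval₂ (algebraMap (Algebra.adjoin R S) E) x g.reverse =
        x ^ (g.natDegree + 1) := by
      have h5 : x⁻¹ ^ g.natDegree * x ^ g.natDegree = 1 := by
        rw [← mul_pow, inv_mul_cancel₀ hx0, one_pow]
      calc Polynomial.eval₂ (algebraMap (Algebra.adjoin R S) E) x g.reverse
          = Polynomial.eval₂ (algebraMap (Algebra.adjoin R S) E) x g.reverse *
              (x⁻¹ ^ g.natDegree * x ^ g.natDegree) := by rw [h5, mul_one]
        _ = x * x ^ g.natDegree := by rw [← mul_assoc, h2]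
        _ = x ^ (g.natDegree + 1) := (pow_succ' x _).symm
    rw [Polynomial.eval₂_sub, Polynomial.eval₂_pow, Polynomial.eval₂_X, h4, sub_self]

/-- Integrality over a subalgebra passes to a larger subalgebra. -/
theorem isIntegral_of_le {B C : Subalgebra R E} (h : B ≤ C) {x : E} (hx : IsIntegral B x) :
    IsIntegral C x := by
  have := hx.map_of_comp_eq (Subalgebra.inclusion h).toRingHom (RingHom.id E) (by ext; rfl)
  simpa using this

/-- Elements of a subalgebra are integral over it. -/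
theorem isIntegral_of_mem {B : Subalgebra R E} {x : E} (hx : x ∈ B) : IsIntegral B x :=
  isIntegral_algebraMap (x := (⟨x, hx⟩ : B))

/-- `x` integral over `R[y]` ⟹ `x` integral over `R[x y]`. -/
theorem isIntegral_adjoin_mul {x y : E} (hx : IsIntegral (Algebra.adjoin R {y}) x) :
    IsIntegral (Algebra.adjoin R {x * y}) x := by
  by_cases hx0 : x = 0
  · rw [hx0]; exact isIntegral_zero
  apply isIntegral_adjoin_of_insert_inv
  refine isIntegral_of_le (Algebra.adjoin_le ?_) hx
  intro z hz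
  rw [Set.mem_singleton_iff.mp hz]
  have h : x⁻¹ * (x * y) ∈ Algebra.adjoin R (insert x⁻¹ {x * y}) :=
    mul_mem (Algebra.subset_adjoin (Set.mem_insert _ _))
      (Algebra.subset_adjoin (Set.mem_insert_of_mem _ (Set.mem_singleton _)))
  rwa [← mul_assoc, inv_mul_cancel₀ hx0, one_mul] at h

/-- `y` integral over `R[x]` ⟹ `x⁻¹` integral over `R[(x y)⁻¹]`. -/
theorem isIntegral_adjoin_mul_inv {x y : E} (hy0 : y ≠ 0)
    (hy : IsIntegral (Algebra.adjoin R {x}) y) :
    IsIntegral (Algebra.adjoin R {(x * y)⁻¹}) x⁻¹ := by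
  apply isIntegral_adjoin_of_insert_inv
  rw [inv_inv]
  have hy' : IsIntegral (Algebra.adjoin R (insert x {(x * y)⁻¹})) y :=
    isIntegral_of_le (Algebra.adjoin_mono (by simp)) hy
  have ht : IsIntegral (Algebra.adjoin R (insert x {(x * y)⁻¹})) (x * y)⁻¹ :=
    isIntegral_of_mem (Algebra.subset_adjoin (Set.mem_insert_of_mem _ (Set.mem_singleton _)))
  have hxy : x⁻¹ = y * (x * y)⁻¹ := by
    rw [mul_inv, mul_comm x⁻¹, ← mul_assoc, mul_inv_cancel₀ hy0, one_mul]
  have h := hy'.mul ht
  rwa [← hxy] at h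

/-- Transitivity of integrality for singly generated subalgebras. -/
theorem isIntegral_adjoin_trans {s t x : E} (ht : IsIntegral (Algebra.adjoin R {s}) t)
    (hx : IsIntegral (Algebra.adjoin R {t}) x) : IsIntegral (Algebra.adjoin R {s}) x := by
  have hmem : ∀ a ∈ Algebra.adjoin R {t}, IsIntegral (Algebra.adjoin R {s}) a := by
    intro a ha
    induction ha using Algebra.adjoin_induction with
    | mem y hy => rw [Set.mem_singleton_iff.mp hy]; exact ht
    | algebraMap r => exact isIntegral_of_mem (Subalgebra.algebraMap_mem _ r)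
    | add y z _ _ hy hz => exact hy.add hz
    | mul y z _ _ hy hz => exact hy.mul hz
  let C := integralClosure (Algebra.adjoin R {s}) E
  let φ : Algebra.adjoin R {t} →+* C :=
    { toFun := fun a => ⟨(a : E), hmem a a.2⟩
      map_one' := rfl
      map_mul' := fun _ _ => rfl
      map_zero' := rfl
      map_add' := fun _ _ => rfl }
  obtain ⟨p, hmonic, hroot⟩ := hx
  have hint : IsIntegral C x := by
    refine ⟨p.map φ, hmonic.map φ, ?_⟩
    rw [Polynomial.eval₂_map]
    exact hroot
  have h2 : x ∈ integralClosure C E := hint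
  rw [integralClosure_idem] at h2
  obtain ⟨w, hw⟩ := Algebra.mem_bot.mp h2
  rw [← hw]
  exact w.2

/-- Integrality is transported by algebra automorphisms. -/
theorem isIntegral_adjoin_map (w : E ≃ₐ[R] E) {t x : E}
    (hx : IsIntegral (Algebra.adjoin R {t}) x) : IsIntegral (Algebra.adjoin R {w t}) (w x) := by
  have hmem : ∀ a : Algebra.adjoin R {t}, w (a : E) ∈ Algebra.adjoin R {w t} := by
    intro a
    have h1 : w (a : E) ∈ (Algebra.adjoin R {t}).map (w : E →ₐ[R] E) := ⟨a, a.2, rfl⟩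
    rwa [AlgHom.map_adjoin, Set.image_singleton] at h1
  let φ : Algebra.adjoin R {t} →+* Algebra.adjoin R {w t} :=
    { toFun := fun a => ⟨w (a : E), hmem a⟩
      map_one' := Subtype.ext (map_one w)
      map_mul' := fun a b => Subtype.ext (map_mul w (a : E) (b : E))
      map_zero' := Subtype.ext (map_zero w)
      map_add' := fun a b => Subtype.ext (map_add w (a : E) (b : E)) }
  exact hx.map_of_comp_eq φ (w : E →+* E) (by ext a; rfl)

end Abs

/-! ### (B) Generic coordinate `t` -/

section Generic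

set_option linter.unusedSectionVars false

variable (N : ℕ) [NeZero N] (A : ValuationSubring Qb) (K : IntermediateField ℚ Qb)

/-- `t ∈ chart t`. -/
theorem self_mem_chart (t : FK N K) : t ∈ chart N A K t :=
  (mem_chart_iff N A K).mpr (isIntegral_of_mem (Algebra.subset_adjoin (Set.mem_singleton _)))

/-- If `t` is integral over `O[s]`, then `chart t ≤ chart s`. -/
theorem chart_le_of_isIntegral {s t : FK N K}
    (h : IsIntegral (Algebra.adjoin (OK A K) {s}) t) : chart N A K t ≤ chart N A K s :=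
  fun _ hx => (mem_chart_iff N A K).mpr (isIntegral_adjoin_trans h ((mem_chart_iff N A K).mp hx))

/-- `chart t ⊆ chart t⁻¹ [t]` (`Setting.glue0` with `j := t`). -/
theorem glue {t : FK N K} (ht : t ≠ 0) {x : FK N K} (hx : x ∈ chart N A K t) :
    ∃ n : ℕ, x * t⁻¹ ^ n ∈ chart N A K t⁻¹ := by
  obtain ⟨n, hn⟩ :=
    ModelBasicCore.exists_inv_pow_mul_isIntegral ht ((mem_chart_iff N A K).mp hx)
  exact ⟨n, by rw [mul_comm]; exact (mem_chart_iff N A K).mpr hn⟩

/-- `chart t⁻¹ ⊆ chart t [t⁻¹]` (`Setting.glueInf` with `j := t`). -/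
theorem glue' {t : FK N K} (ht : t ≠ 0) {x : FK N K} (hx : x ∈ chart N A K t⁻¹) :
    ∃ n : ℕ, x * t ^ n ∈ chart N A K t := by
  obtain ⟨n, hn⟩ := glue N A K (inv_ne_zero ht) hx
  rw [inv_inv] at hn
  exact ⟨n, hn⟩

/-- Charts are closed under `m`-th roots (`Setting.root0`, `Setting.rootInf`). -/
theorem root_chart {t : FK N K} {m : ℕ} (hm : m ≠ 0) {x : FK N K}
    (hx : x ^ m ∈ chart N A K t) : x ∈ chart N A K t :=
  (mem_chart_iff N A K).mpr
    (IsIntegral.of_pow (Nat.pos_of_ne_zero hm) ((mem_chart_iff N A K).mp hx))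

/-- Charts are transported by ring automorphisms of `F_K` fixing `O`. -/
theorem map_mem_chart (w : FK N K ≃+* FK N K)
    (hwO : ∀ c : OK A K, w (algebraMap (OK A K) (FK N K) c) = algebraMap (OK A K) (FK N K) c)
    {t x : FK N K} (hx : x ∈ chart N A K t) : w x ∈ chart N A K (w t) :=
  (mem_chart_iff N A K).mpr
    (isIntegral_adjoin_map (AlgEquiv.ofRingEquiv (f := w) hwO) ((mem_chart_iff N A K).mp hx))

/-- The chart-side fields of `Cech2Plan.Setting` for the coordinate `j := t`, the charts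
`R0 := chart t`, `Rinf := chart t⁻¹` and the exponent `m`. -/
structure ChartSide (t : FK N K) (m : ℕ) : Prop where
  j_ne : t ≠ 0
  j_mem : t ∈ chart N A K t
  jinv_mem : t⁻¹ ∈ chart N A K t⁻¹
  glue0 : ∀ x ∈ chart N A K t, ∃ n : ℕ, x * t⁻¹ ^ n ∈ chart N A K t⁻¹
  glueInf : ∀ x ∈ chart N A K t⁻¹, ∃ n : ℕ, x * t ^ n ∈ chart N A K t
  root0 : ∀ x : FK N K, x ^ m ∈ chart N A K t → x ∈ chart N A K t
  rootInf : ∀ x : FK N K, x ^ m ∈ chart N A K t⁻¹ → x ∈ chart N A K t⁻¹
  fin0 : ∃ s : Finset (FK N K), (chart N A K t : Set (FK N K)) ⊆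
    Submodule.span (Algebra.adjoin (OK A K) {t}) (s : Set (FK N K))

/-- The chart-side fields for any nonzero transcendental coordinate over which `F_K` is
algebraic. -/
theorem chartSide_of {t : FK N K} {m : ℕ} (ht0 : t ≠ 0) (hm : m ≠ 0)
    (htr : Transcendental (OK A K) t)
    (halg : ∀ x : FK N K, IsAlgebraic (Algebra.adjoin (OK A K) {t}) x) :
    ChartSide N A K t m where
  j_ne := ht0
  j_mem := self_mem_chart N A K t
  jinv_mem := self_mem_chart N A K t⁻¹
  glue0 := fun _ hx => glue N A K ht0 hx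
  glueInf := fun _ hx => glue' N A K ht0 hx
  root0 := fun _ hx => root_chart N A K hm hx
  rootInf := fun _ hx => root_chart N A K hm hx
  fin0 := ModelFin.fin_chart N A K t htr halg

/-- The chart-side fields for S18's coordinate `j`. -/
theorem chartSide_jK {m : ℕ} (hm : m ≠ 0) : ChartSide N A K (jK N K) m :=
  chartSide_of N A K (ModelBasicCore.jK_ne_zero N K) hm (ModelFin.transcendental_jK N A K)
    (ModelBasicCore.isAlgebraic_FK N A K)

end Generic

/-! ### (C) The symmetric coordinate `J = j * jq` -/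

section Sym

variable (N : ℕ) [NeZero N] (A : ValuationSubring Qb) (K : IntermediateField ℚ Qb)

/-- The symmetric coordinate `J = j * jq` (in the application `jq = w_q j = j(q^q)`). -/
def symJ (jq : FK N K) : FK N K := jK N K * jq

variable {jq : FK N K}

theorem symJ_ne_zero (hjq0 : jq ≠ 0) : symJ N K jq ≠ 0 :=
  mul_ne_zero (ModelBasicCore.jK_ne_zero N K) hjq0

/-- `j` is integral over `O[J]`. -/
theorem jK_isIntegral_symJ (hj : IsIntegral (Algebra.adjoin (OK A K) {jq}) (jK N K)) :
    IsIntegral (Algebra.adjoin (OK A K) {symJ N K jq}) (jK N K) :=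
  isIntegral_adjoin_mul hj

/-- `jq` is integral over `O[J]`. -/
theorem jq_isIntegral_symJ (hjq : IsIntegral (Algebra.adjoin (OK A K) {jK N K}) jq) :
    IsIntegral (Algebra.adjoin (OK A K) {symJ N K jq}) jq := by
  have h := isIntegral_adjoin_mul hjq
  rw [mul_comm jq (jK N K)] at h
  exact h

/-- `j⁻¹` is integral over `O[J⁻¹]`. -/
theorem jK_inv_isIntegral_symJ (hjq0 : jq ≠ 0)
    (hjq : IsIntegral (Algebra.adjoin (OK A K) {jK N K}) jq) :
    IsIntegral (Algebra.adjoin (OK A K) {(symJ N K jq)⁻¹}) (jK N K)⁻¹ :=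
  isIntegral_adjoin_mul_inv hjq0 hjq

/-- `jq⁻¹` is integral over `O[J⁻¹]`. -/
theorem jq_inv_isIntegral_symJ (hj : IsIntegral (Algebra.adjoin (OK A K) {jq}) (jK N K)) :
    IsIntegral (Algebra.adjoin (OK A K) {(symJ N K jq)⁻¹}) jq⁻¹ := by
  have h := isIntegral_adjoin_mul_inv (ModelBasicCore.jK_ne_zero N K) hj
  rw [mul_comm jq (jK N K)] at h
  exact h

/-- `chart j ≤ chart J`. -/
theorem chart_jK_le (hj : IsIntegral (Algebra.adjoin (OK A K) {jq}) (jK N K)) :
    chart N A K (jK N K) ≤ chart N A K (symJ N K jq) :=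
  chart_le_of_isIntegral N A K (jK_isIntegral_symJ N A K hj)

/-- `chart jq ≤ chart J`. -/
theorem chart_jq_le (hjq : IsIntegral (Algebra.adjoin (OK A K) {jK N K}) jq) :
    chart N A K jq ≤ chart N A K (symJ N K jq) :=
  chart_le_of_isIntegral N A K (jq_isIntegral_symJ N A K hjq)

/-- `chart j⁻¹ ≤ chart J⁻¹`. -/
theorem chart_jK_inv_le (hjq0 : jq ≠ 0)
    (hjq : IsIntegral (Algebra.adjoin (OK A K) {jK N K}) jq) :
    chart N A K (jK N K)⁻¹ ≤ chart N A K (symJ N K jq)⁻¹ :=
  chart_le_of_isIntegral N A K (jK_inv_isIntegral_symJ N A K hjq0 hjq)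

/-- `chart jq⁻¹ ≤ chart J⁻¹`. -/
theorem chart_jq_inv_le (hj : IsIntegral (Algebra.adjoin (OK A K) {jq}) (jK N K)) :
    chart N A K jq⁻¹ ≤ chart N A K (symJ N K jq)⁻¹ :=
  chart_le_of_isIntegral N A K (jq_inv_isIntegral_symJ N A K hj)

/-- `chart J ≤ chart j` (so `chart J = chart j = R0`). -/
theorem chart_symJ_le (hjq : IsIntegral (Algebra.adjoin (OK A K) {jK N K}) jq) :
    chart N A K (symJ N K jq) ≤ chart N A K (jK N K) := by
  refine chart_le_of_isIntegral N A K ?_
  exact (isIntegral_of_mem (Algebra.subset_adjoin (Set.mem_singleton _))).mul hjq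

/-- `J` is transcendental over `O`. -/
theorem transcendental_symJ (hj : IsIntegral (Algebra.adjoin (OK A K) {jq}) (jK N K)) :
    Transcendental (OK A K) (symJ N K jq) := by
  intro hJ
  have h1 : (Algebra.adjoin (OK A K) {symJ N K jq}).IsAlgebraic :=
    Algebra.isAlgebraic_adjoin_singleton_iff.mpr hJ
  have h2 : Algebra.IsAlgebraic (OK A K) (Algebra.adjoin (OK A K) {symJ N K jq}) :=
    (Subalgebra.isAlgebraic_iff _).mp h1
  exact ModelFin.transcendental_jK N A K
    (IsIntegral.trans_isAlgebraic (OK A K) (jK_isIntegral_symJ N A K hj))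

/-- `F_K` is algebraic over `O[J]`. -/
theorem isAlgebraic_symJ (hj : IsIntegral (Algebra.adjoin (OK A K) {jq}) (jK N K))
    (x : FK N K) : IsAlgebraic (Algebra.adjoin (OK A K) {symJ N K jq}) x := by
  obtain ⟨y, hy0, hy⟩ := (ModelBasicCore.isAlgebraic_FK N A K x).exists_integral_multiple
  have hJ := jK_isIntegral_symJ N A K hj
  have h1 : IsIntegral (Algebra.adjoin (OK A K) {symJ N K jq}) (y • x) :=
    isIntegral_adjoin_trans hJ hy
  have h2 : IsIntegral (Algebra.adjoin (OK A K) {symJ N K jq}) ((y : FK N K)) :=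
    isIntegral_adjoin_trans hJ (isIntegral_of_mem y.2)
  have hy0' : (y : FK N K) ≠ 0 := fun h => hy0 (Subtype.ext h)
  exact ModelFin.isAlgebraic_of_frac h1 h2 hy0' (by rw [Algebra.smul_def, mul_comm]; rfl)

/-- The chart-side fields of `Cech2Plan.Setting` for the symmetric coordinate. -/
theorem chartSide_symJ {m : ℕ} (hm : m ≠ 0) (hjq0 : jq ≠ 0)
    (hj : IsIntegral (Algebra.adjoin (OK A K) {jq}) (jK N K)) :
    ChartSide N A K (symJ N K jq) m :=
  chartSide_of N A K (symJ_ne_zero N K hjq0) hm (transcendental_symJ N A K hj)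
    (isAlgebraic_symJ N A K hj)

/-- `chart J` is stable under any automorphism of `F_K` over `O` swapping `j` and `jq`. -/
theorem map_mem_chart_symJ (w : FK N K ≃+* FK N K)
    (hwO : ∀ c : OK A K, w (algebraMap (OK A K) (FK N K) c) = algebraMap (OK A K) (FK N K) c)
    (hw : w (jK N K) = jq) (hw' : w jq = jK N K) {x : FK N K}
    (hx : x ∈ chart N A K (symJ N K jq)) : w x ∈ chart N A K (symJ N K jq) := by
  have h := map_mem_chart N A K w hwO hx
  have hJ : w (symJ N K jq) = symJ N K jq := by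
    unfold symJ
    rw [map_mul, hw, hw', mul_comm]
  rwa [hJ] at h

/-- `chart J⁻¹` is stable under any automorphism of `F_K` over `O` swapping `j` and `jq`. -/
theorem map_mem_chart_symJ_inv (w : FK N K ≃+* FK N K)
    (hwO : ∀ c : OK A K, w (algebraMap (OK A K) (FK N K) c) = algebraMap (OK A K) (FK N K) c)
    (hw : w (jK N K) = jq) (hw' : w jq = jK N K) {x : FK N K}
    (hx : x ∈ chart N A K (symJ N K jq)⁻¹) : w x ∈ chart N A K (symJ N K jq)⁻¹ := by
  have h := map_mem_chart N A K w hwO hx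
  have hJ : w (symJ N K jq)⁻¹ = (symJ N K jq)⁻¹ := by
    unfold symJ
    rw [map_inv₀, map_mul, hw, hw', mul_comm]
  rwa [hJ] at h

end Sym

end Fermat.Agent.S34.ChartJ
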