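/-
S34 (spare; outside every credited closure) — TauAct.lean (helper94).
Block [MODULAR]/V of helper41's blueprint (#2373): the "τ-stability" inputs.

For `τ ∈ Gal(ℚ̄/ℚ)` in the inertia (resp. decomposition) group of a valuation subring `A` of `ℚ̄`,
acting coefficientwise on `ℚ̄((q))`:

* (T0) `τ` preserves `A` and (inertia) acts trivially on the residue field: `tauA`, `residue_tauA`;
* (T1) `gRel_coeffMap` : the Gauss relation `S18.Arith.GRel A x y` is preserved, with the SAME
  reduction `y` (so `τ` preserves the Gauss ring and is the identity modulo its maximal ideal);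
* (T2) `tauE` : the induced ring automorphism of `F_K = S18.Arith.FK N K` for a `τ`-stable
  intermediate field `K` (`Stable K τ`; automatic for `Normal ℚ K`), with its values on constants,
  on the rational subfield and on `j`;
* (T3) `tauE` preserves the charts `R0`, `Rinf` (any level `N`, any prime);
* (T4) commutation with `ℚ̄`-algebra maps given on generators by rational series
  (e.g. the Atkin–Lehner involution `w_q` of `S37/W`), and `F_K`-stability of such maps.
-/
import Mathlib
import Fermat.Agent.S18.ArithPlan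
import Fermat.Agent.S18.DescCoeff
import Fermat.Agent.S37.W.ALHecke

set_option autoImplicit false

noncomputable section

namespace Fermat.Agent.S34.TauAct

open ModularCurve HahnSeries AlgebraicCurve Fermat.Agent.S18.Arith
open scoped Pointwise

/-- `Gal(ℚ̄/ℚ)`. -/
abbrev GQ : Type := Qb ≃ₐ[ℚ] Qb

/-! ### (T0) inertia basics -/

section Inertia

variable (A : ValuationSubring Qb)

/-- Elements of the decomposition group preserve `A`. -/
theorem apply_mem_of_mem_decomp {τ : GQ} (hτ : τ ∈ A.decompositionSubgroup ℚ) {a : Qb}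
    (ha : a ∈ A) : τ a ∈ A := by
  have h1 : τ • A = A := hτ
  have h2 : τ • a ∈ τ • A := ValuationSubring.smul_mem_pointwise_smul τ a A ha
  rw [h1] at h2
  exact h2

theorem mem_decomp_of_mem_inertia {τ : GQ} (hτ : τ ∈ A.inertiaSubgroupIn ℚ) :
    τ ∈ A.decompositionSubgroup ℚ := by
  obtain ⟨g, -, rfl⟩ := hτ
  exact g.2

/-- The ring endomorphism of `A` induced by a decomposition-group element. -/
def tauA {τ : GQ} (hτ : τ ∈ A.decompositionSubgroup ℚ) : A →+* A :=
  ((τ : Qb →+* Qb).comp A.subtype).codRestrict A.toSubring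
    (fun a => apply_mem_of_mem_decomp A hτ a.2)

theorem coe_tauA {τ : GQ} (hτ : τ ∈ A.decompositionSubgroup ℚ) (a : A) :
    ((tauA A hτ a : A) : Qb) = τ (a : Qb) := rfl

/-- Inertia elements act trivially on residues. -/
theorem residue_tauA {τ : GQ} (hτ : τ ∈ A.inertiaSubgroupIn ℚ)
    (hτ' : τ ∈ A.decompositionSubgroup ℚ) (a : A) :
    IsLocalRing.residue A (tauA A hτ' a) = IsLocalRing.residue A a := by
  obtain ⟨g, hg, hgτ⟩ := hτ
  have h1 : tauA A hτ' a = g • a := by
    apply Subtype.ext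
    rw [coe_tauA, ← hgτ]
    rfl
  rw [h1, IsLocalRing.ResidueField.residue_smul]
  have h2 : MulSemiringAction.toRingAut (A.decompositionSubgroup ℚ)
      (IsLocalRing.ResidueField A) g = 1 := hg
  exact congrArg (fun e : RingAut (IsLocalRing.ResidueField A) => e (IsLocalRing.residue A a)) h2

/-- Inertia elements act trivially on residues (pointwise form). -/
theorem residue_apply_of_mem_inertia {τ : GQ} (hτ : τ ∈ A.inertiaSubgroupIn ℚ) (a : A) :
    IsLocalRing.residue A
        (⟨τ (a : Qb), apply_mem_of_mem_decomp A (mem_decomp_of_mem_inertia A hτ) a.2⟩ : A)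
      = IsLocalRing.residue A a :=
  residue_tauA A hτ (mem_decomp_of_mem_inertia A hτ) a

theorem coeffMap_subtype_tauA {τ : GQ} (hτ : τ ∈ A.decompositionSubgroup ℚ)
    (z : LaurentSeries A) :
    coeffMap A.subtype (coeffMap (tauA A hτ) z)
      = coeffMap (τ : Qb →+* Qb) (coeffMap A.subtype z) := by
  rw [coeffMap_coeffMap, coeffMap_coeffMap]
  exact coeffMap_congr (RingHom.ext fun _ => rfl) z

theorem coeffMap_residue_tauA {τ : GQ} (hτ : τ ∈ A.inertiaSubgroupIn ℚ)
    (hτ' : τ ∈ A.decompositionSubgroup ℚ) (z : LaurentSeries A) :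
    coeffMap (IsLocalRing.residue A) (coeffMap (tauA A hτ') z)
      = coeffMap (IsLocalRing.residue A) z := by
  rw [coeffMap_coeffMap]
  exact coeffMap_congr (RingHom.ext fun a => residue_tauA A hτ hτ' a) z

/-! ### (T1) the Gauss relation -/

/-- **(T1)** Inertia preserves the Gauss relation, with the same reduction. -/
theorem gRel_coeffMap {τ : GQ} (hτ : τ ∈ A.inertiaSubgroupIn ℚ) {x : LaurentSeries Qb}
    {y : LaurentSeries (IsLocalRing.ResidueField A)} (h : GRel A x y) :
    GRel A (coeffMap (τ : Qb →+* Qb) x) y := by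
  have hτ' := mem_decomp_of_mem_inertia A hτ
  obtain ⟨u, p, hu, hx, hp⟩ := h
  refine ⟨coeffMap (tauA A hτ') u, coeffMap (tauA A hτ') p, ?_, ?_, ?_⟩
  · rw [coeffMap_residue_tauA A hτ hτ', hu]
  · rw [coeffMap_subtype_tauA, coeffMap_subtype_tauA, ← map_mul, hx]
  · rw [coeffMap_residue_tauA A hτ hτ', hp]

/-- Decomposition-group elements preserve Gauss-integrality (`x·u = p`, `u, p ∈ A((q))`,
`red u = 1`) up to the twist of the reduction by the residual automorphism; here only the
integrality part: coefficients in `A` are mapped to coefficients in `A`. -/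
theorem coeffMap_int_of_mem_decomp {τ : GQ} (hτ : τ ∈ A.decompositionSubgroup ℚ)
    (X : LaurentSeries A) :
    ∃ X' : LaurentSeries A,
      coeffMap (τ : Qb →+* Qb) (coeffMap A.subtype X) = coeffMap A.subtype X' :=
  ⟨coeffMap (tauA A hτ) X, (coeffMap_subtype_tauA A hτ X).symm⟩

/-- Inertia is the identity modulo the maximal ideal of the Gauss ring:
`GRel A x y → GRel A (τ x - x) 0`. -/
theorem gRel_coeffMap_sub {τ : GQ} (hτ : τ ∈ A.inertiaSubgroupIn ℚ) {x : LaurentSeries Qb}
    {y : LaurentSeries (IsLocalRing.ResidueField A)} (h : GRel A x y) :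
    GRel A (coeffMap (τ : Qb →+* Qb) x - x) 0 := by
  have hτ' := mem_decomp_of_mem_inertia A hτ
  obtain ⟨u, p, hu, hx, hp⟩ := h
  set u' := coeffMap (tauA A hτ') u with hu'
  set p' := coeffMap (tauA A hτ') p with hp'
  have hx' : coeffMap (τ : Qb →+* Qb) x * coeffMap A.subtype u' = coeffMap A.subtype p' := by
    rw [hu', hp', coeffMap_subtype_tauA, coeffMap_subtype_tauA, ← map_mul, hx]
  refine ⟨u' * u, p' * u - p * u', ?_, ?_, ?_⟩
  · rw [map_mul, hu', coeffMap_residue_tauA A hτ hτ', hu, mul_one]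
  · rw [map_mul, map_sub, map_mul, map_mul, ← hx, ← hx']
    ring
  · rw [map_sub, map_mul, map_mul, hu', hp', coeffMap_residue_tauA A hτ hτ',
      coeffMap_residue_tauA A hτ hτ', hu, hp, mul_one, sub_self]

end Inertia

/-! ### (T2) the action on `F_K` -/

section FKStab

variable (N : ℕ) [NeZero N] (K : IntermediateField ℚ Qb)

/-- `K` is stable under `τ` and `τ⁻¹`. -/
def Stable (τ : GQ) : Prop := (∀ c ∈ K, τ c ∈ K) ∧ (∀ c ∈ K, τ.symm c ∈ K)

variable {K}

theorem Stable.symm {τ : GQ} (h : Stable K τ) : Stable K τ.symm :=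
  ⟨h.2, fun c hc => by simpa using h.1 c hc⟩

variable (K)

/-- A normal intermediate field is stable under every automorphism. -/
theorem stable_of_normal [Normal ℚ K] (τ : GQ) : Stable K τ := by
  have key : ∀ (σ : GQ) (c : Qb), c ∈ K → σ c ∈ K := by
    intro σ c hc
    have h := AlgEquiv.restrictNormal_commutes σ K ⟨c, hc⟩
    have h2 : σ c = algebraMap K Qb (σ.restrictNormal K ⟨c, hc⟩) := h.symm
    rw [h2]
    exact (σ.restrictNormal K ⟨c, hc⟩).2
  exact ⟨key τ, key τ.symm⟩

omit [NeZero N] in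
/-- `F_K` is stable under the coefficientwise action of `τ` when `K` is. -/
theorem coeffMap_mem_FK {τ : GQ} (hK : ∀ c ∈ K, τ c ∈ K) {x : LaurentSeries Qb}
    (hx : x ∈ FK N K) : coeffMap (τ : Qb →+* Qb) x ∈ FK N K := by
  have h : FK N K ≤ (FK N K).comap (coeffMap (τ : Qb →+* Qb)) := by
    conv_lhs => rw [FK]
    rw [Subfield.closure_le]
    rintro z (⟨c, rfl⟩ | ⟨y, rfl⟩)
    · rw [SetLike.mem_coe, Subfield.mem_comap]
      have h1 : coeffMap (τ : Qb →+* Qb) (HahnSeries.C ((c : K) : Qb) : LaurentSeries Qb)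
          = HahnSeries.C (τ ((c : K) : Qb)) := by
        rw [HahnSeries.C_apply, coeffMap_single, HahnSeries.C_apply]
        rfl
      rw [h1]
      exact Subfield.subset_closure (Or.inl ⟨⟨τ ((c : K) : Qb), hK _ c.2⟩, rfl⟩)
    · rw [SetLike.mem_coe, Subfield.mem_comap, coeffMap_coeffEmb]
      exact Subfield.subset_closure (Or.inr ⟨y, rfl⟩)
  exact h hx

variable {K}

/-- **(T2)** The ring automorphism of `F_K` induced by `τ` (coefficientwise). -/
def tauE {τ : GQ} (hK : Stable K τ) : FK N K ≃+* FK N K where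
  toFun x := ⟨coeffMap (τ : Qb →+* Qb) (x : LaurentSeries Qb), coeffMap_mem_FK N K hK.1 x.2⟩
  invFun x := ⟨coeffMap (τ.symm : Qb →+* Qb) (x : LaurentSeries Qb),
    coeffMap_mem_FK N K (τ := τ.symm) hK.2 x.2⟩
  left_inv x := Subtype.ext <| by
    show coeffMap (τ.symm : Qb →+* Qb) (coeffMap (τ : Qb →+* Qb) (x : LaurentSeries Qb))
      = (x : LaurentSeries Qb)
    rw [coeffMap_coeffMap,
      coeffMap_congr (g := RingHom.id Qb) (RingHom.ext fun a => τ.symm_apply_apply a)
        (x : LaurentSeries Qb),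
      coeffMap_id]
  right_inv x := Subtype.ext <| by
    show coeffMap (τ : Qb →+* Qb) (coeffMap (τ.symm : Qb →+* Qb) (x : LaurentSeries Qb))
      = (x : LaurentSeries Qb)
    rw [coeffMap_coeffMap,
      coeffMap_congr (g := RingHom.id Qb) (RingHom.ext fun a => τ.apply_symm_apply a)
        (x : LaurentSeries Qb),
      coeffMap_id]
  map_mul' x y :=
    Subtype.ext (map_mul (coeffMap (τ : Qb →+* Qb)) (x : LaurentSeries Qb) (y : LaurentSeries Qb))
  map_add' x y :=
    Subtype.ext (map_add (coeffMap (τ : Qb →+* Qb)) (x : LaurentSeries Qb) (y : LaurentSeries Qb))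

omit [NeZero N] in
@[simp]
theorem coe_tauE {τ : GQ} (hK : Stable K τ) (x : FK N K) :
    ((tauE N hK x : FK N K) : LaurentSeries Qb) = coeffMap (τ : Qb →+* Qb) (x : LaurentSeries Qb) :=
  rfl

omit [NeZero N] in
@[simp]
theorem coe_tauE_symm {τ : GQ} (hK : Stable K τ) (x : FK N K) :
    (((tauE N hK).symm x : FK N K) : LaurentSeries Qb)
      = coeffMap (τ.symm : Qb →+* Qb) (x : LaurentSeries Qb) :=
  rfl

omit [NeZero N] in
theorem tauE_symm_eq {τ : GQ} (hK : Stable K τ) (x : FK N K) :
    (tauE N hK).symm x = tauE N hK.symm x := rfl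

omit [NeZero N] in
/-- `τ` acts on the constants through `τ`. -/
theorem tauE_constK {τ : GQ} (hK : Stable K τ) (c : K) :
    tauE N hK (constK N K c) = constK N K ⟨τ (c : Qb), hK.1 _ c.2⟩ := by
  apply Subtype.ext
  show coeffMap (τ : Qb →+* Qb) (HahnSeries.C ((c : K) : Qb) : LaurentSeries Qb)
    = HahnSeries.C (τ ((c : K) : Qb))
  rw [HahnSeries.C_apply, coeffMap_single, HahnSeries.C_apply]
  rfl

omit [NeZero N] in
/-- `τ` fixes the rational subfield. -/
theorem tauE_ratEmb {τ : GQ} (hK : Stable K τ) (x : modularFunctionFieldFull N) :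
    tauE N hK (ratEmb N K x) = ratEmb N K x := by
  apply Subtype.ext
  show coeffMap (τ : Qb →+* Qb) (coeffEmb Qb (x : LaurentSeries ℚ)) = coeffEmb Qb (x : LaurentSeries ℚ)
  exact coeffMap_coeffEmb τ _

/-- `τ` fixes `j`. -/
theorem tauE_jK {τ : GQ} (hK : Stable K τ) : tauE N hK (jK N K) = jK N K :=
  tauE_ratEmb N hK _

end FKStab

/-! ### (T3) the charts -/

section Charts

variable (N : ℕ) [NeZero N] {K : IntermediateField ℚ Qb} (A : ValuationSubring Qb)

omit [NeZero N] in
/-- `τ` in the decomposition group maps `O = A ∩ K` into itself. -/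
theorem apply_mem_OK {τ : GQ} (hτ : τ ∈ A.decompositionSubgroup ℚ) (hK : Stable K τ)
    (c : OK A K) : (⟨τ ((c : K) : Qb), hK.1 _ (c : K).2⟩ : K) ∈ OK A K := by
  rw [ValuationSubring.mem_comap]
  have hc : ((c : K) : Qb) ∈ A := by
    have := c.2
    rwa [ValuationSubring.mem_comap] at this
  exact apply_mem_of_mem_decomp A hτ hc

omit [NeZero N] in
theorem tauE_algebraMap {τ : GQ} (hτ : τ ∈ A.decompositionSubgroup ℚ) (hK : Stable K τ)
    (c : OK A K) :
    tauE N hK (algebraMap (OK A K) (FK N K) c)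
      = algebraMap (OK A K) (FK N K) ⟨_, apply_mem_OK A hτ hK c⟩ :=
  tauE_constK N hK (c : K)

omit [NeZero N] in
/-- `τ` maps `O[t]` into itself when it fixes `t`. -/
theorem tauE_mem_adjoin {τ : GQ} (hτ : τ ∈ A.decompositionSubgroup ℚ) (hK : Stable K τ)
    {t : FK N K} (ht : tauE N hK t = t) {b : FK N K}
    (hb : b ∈ Algebra.adjoin (OK A K) {t}) : tauE N hK b ∈ Algebra.adjoin (OK A K) {t} := by
  have h : (Algebra.adjoin (OK A K) ({t} : Set (FK N K))).toSubring
      ≤ (Algebra.adjoin (OK A K) ({t} : Set (FK N K))).toSubring.comap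
          ((tauE N hK : FK N K ≃+* FK N K) : FK N K →+* FK N K) := by
    conv_lhs => rw [Algebra.adjoin_eq_ring_closure]
    rw [Subring.closure_le]
    rintro z (⟨c, rfl⟩ | hz)
    · rw [SetLike.mem_coe, Subring.mem_comap]
      show tauE N hK (algebraMap (OK A K) (FK N K) c) ∈ Algebra.adjoin (OK A K) {t}
      rw [tauE_algebraMap N A hτ hK c]
      exact Subalgebra.algebraMap_mem _ _
    · rw [Set.mem_singleton_iff] at hz
      rw [SetLike.mem_coe, Subring.mem_comap, hz]
      show tauE N hK t ∈ Algebra.adjoin (OK A K) {t}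
      rw [ht]
      exact Algebra.subset_adjoin rfl
  exact h hb

omit [NeZero N] in
/-- **(T3)** `τ` in the decomposition group preserves the chart with a `τ`-fixed coordinate. -/
theorem tauE_mem_chart {τ : GQ} (hτ : τ ∈ A.decompositionSubgroup ℚ) (hK : Stable K τ)
    {t : FK N K} (ht : tauE N hK t = t) {x : FK N K} (hx : x ∈ chart N A K t) :
    tauE N hK x ∈ chart N A K t := by
  rw [mem_chart_iff] at hx ⊢
  let B := Algebra.adjoin (OK A K) ({t} : Set (FK N K))
  let φ : B →+* B :=
    (((tauE N hK : FK N K ≃+* FK N K) : FK N K →+* FK N K).comp B.toSubring.subtype).codRestrict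
      B.toSubring (fun b => tauE_mem_adjoin N A hτ hK ht b.2)
  exact IsIntegral.map_of_comp_eq φ ((tauE N hK : FK N K ≃+* FK N K) : FK N K →+* FK N K)
    (RingHom.ext fun _ => rfl) hx

theorem tauE_mem_R0 (ℓ : ℕ) [Fact ℓ.Prime] {τ : GQ} (hτ : τ ∈ A.decompositionSubgroup ℚ)
    (hK : Stable K τ) {x : FK N K} (hx : x ∈ R0 N ℓ A K) : tauE N hK x ∈ R0 N ℓ A K :=
  tauE_mem_chart N A hτ hK (tauE_jK N hK) hx

theorem tauE_mem_Rinf (ℓ : ℕ) [Fact ℓ.Prime] {τ : GQ} (hτ : τ ∈ A.decompositionSubgroup ℚ)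
    (hK : Stable K τ) {x : FK N K} (hx : x ∈ Rinf N ℓ A K) : tauE N hK x ∈ Rinf N ℓ A K :=
  tauE_mem_chart N A hτ hK (by rw [map_inv₀, tauE_jK]) hx

theorem symm_mem_decomp {τ : GQ} (hτ : τ ∈ A.decompositionSubgroup ℚ) :
    τ.symm ∈ A.decompositionSubgroup ℚ :=
  inv_mem hτ

theorem tauE_mem_R0_iff (ℓ : ℕ) [Fact ℓ.Prime] {τ : GQ} (hτ : τ ∈ A.decompositionSubgroup ℚ)
    (hK : Stable K τ) {x : FK N K} : tauE N hK x ∈ R0 N ℓ A K ↔ x ∈ R0 N ℓ A K := by
  refine ⟨fun h => ?_, tauE_mem_R0 N A ℓ hτ hK⟩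
  have h2 := tauE_mem_R0 N A ℓ (symm_mem_decomp A hτ) hK.symm h
  rwa [← tauE_symm_eq N hK, RingEquiv.symm_apply_apply] at h2

theorem tauE_mem_Rinf_iff (ℓ : ℕ) [Fact ℓ.Prime] {τ : GQ} (hτ : τ ∈ A.decompositionSubgroup ℚ)
    (hK : Stable K τ) {x : FK N K} : tauE N hK x ∈ Rinf N ℓ A K ↔ x ∈ Rinf N ℓ A K := by
  refine ⟨fun h => ?_, tauE_mem_Rinf N A ℓ hτ hK⟩
  have h2 := tauE_mem_Rinf N A ℓ (symm_mem_decomp A hτ) hK.symm h
  rwa [← tauE_symm_eq N hK, RingEquiv.symm_apply_apply] at h2

end Charts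

/-! ### (T4) commutation with `ℚ̄`-algebra maps defined over `ℚ` (Atkin–Lehner) -/

section Comm

set_option linter.unusedSectionVars false

open Fermat.Agent.S24

variable {N N' : ℕ} [NeZero N] [NeZero N']

omit [NeZero N] in
/-- The generators `j(q^d)` are fixed by the arithmetic Galois action. -/
theorem arithmeticRingAut_genFam (τ : GQ) (d : ↥N.divisors) :
    arithmeticRingAut (modularFunctionFieldFull N) τ (genFam N d) = genFam N d :=
  Subtype.ext (coeffMap_coeffEmb τ _)

omit [NeZero N'] in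
/-- **(T4a)** A `ℚ̄`-algebra map `F̄_N → F̄_{N'}` whose values on the generators `j(q^d)` are
fixed by `τ` commutes with the arithmetic action of `τ`. -/
theorem algHom_arithmeticRingAut (τ : GQ)
    (ι : ↥(modularFunctionFieldBar N) →ₐ[Qb] ↥(modularFunctionFieldBar N'))
    (h : ∀ d, arithmeticRingAut (modularFunctionFieldFull N') τ (ι (genFam N d))
      = ι (genFam N d))
    (x : ↥(modularFunctionFieldBar N)) :
    ι (arithmeticRingAut (modularFunctionFieldFull N) τ x)
      = arithmeticRingAut (modularFunctionFieldFull N') τ (ι x) := by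
  let f₁ : ↥(modularFunctionFieldBar N) →+* ↥(modularFunctionFieldBar N') :=
    (ι : ↥(modularFunctionFieldBar N) →+* ↥(modularFunctionFieldBar N')).comp
      (arithmeticRingAut (modularFunctionFieldFull N) τ :
        ↥(modularFunctionFieldBar N) →+* ↥(modularFunctionFieldBar N))
  let f₂ : ↥(modularFunctionFieldBar N) →+* ↥(modularFunctionFieldBar N') :=
    (arithmeticRingAut (modularFunctionFieldFull N') τ :
        ↥(modularFunctionFieldBar N') →+* ↥(modularFunctionFieldBar N')).comp
      (ι : ↥(modularFunctionFieldBar N) →+* ↥(modularFunctionFieldBar N'))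
  have hpoly : f₁.comp (MvPolynomial.aeval (R := Qb) (genFam N) :
        MvPolynomial ↥N.divisors Qb →+* ↥(modularFunctionFieldBar N))
      = f₂.comp (MvPolynomial.aeval (R := Qb) (genFam N) :
        MvPolynomial ↥N.divisors Qb →+* ↥(modularFunctionFieldBar N)) := by
    apply MvPolynomial.ringHom_ext
    · intro a
      show ι (arithmeticRingAut (modularFunctionFieldFull N) τ (MvPolynomial.aeval (genFam N)
          (MvPolynomial.C a)))
        = arithmeticRingAut (modularFunctionFieldFull N') τ (ι (MvPolynomial.aeval (genFam N)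
          (MvPolynomial.C a)))
      rw [MvPolynomial.aeval_C, arithmeticRingAut_algebraMap, AlgHom.commutes, AlgHom.commutes,
        arithmeticRingAut_algebraMap]
    · intro d
      show ι (arithmeticRingAut (modularFunctionFieldFull N) τ (MvPolynomial.aeval (genFam N)
          (MvPolynomial.X d)))
        = arithmeticRingAut (modularFunctionFieldFull N') τ (ι (MvPolynomial.aeval (genFam N)
          (MvPolynomial.X d)))
      rw [MvPolynomial.aeval_X, arithmeticRingAut_genFam, h]
  have hf : f₁ = f₂ := by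
    apply IsFractionRing.ringHom_ext (A := ↥(RN N))
    intro r
    obtain ⟨P, rfl⟩ := polyToRN_surjective N r
    show f₁ ((polyToRN N P : ↥(RN N)) : ↥(modularFunctionFieldBar N))
      = f₂ ((polyToRN N P : ↥(RN N)) : ↥(modularFunctionFieldBar N))
    rw [coe_polyToRN']
    exact congrArg (fun g : MvPolynomial ↥N.divisors Qb →+* ↥(modularFunctionFieldBar N') => g P)
      hpoly
  exact congrArg (fun g : ↥(modularFunctionFieldBar N) →+* ↥(modularFunctionFieldBar N') => g x) hf

omit [NeZero N'] in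
/-- (T4a), for maps permuting the generators (e.g. the Atkin–Lehner involution of `S37/W`). -/
theorem algHom_arithmeticRingAut_of_genFam (τ : GQ)
    (ι : ↥(modularFunctionFieldBar N) →ₐ[Qb] ↥(modularFunctionFieldBar N'))
    (hι : ∀ d, ∃ d', ι (genFam N d) = genFam N' d')
    (x : ↥(modularFunctionFieldBar N)) :
    ι (arithmeticRingAut (modularFunctionFieldFull N) τ x)
      = arithmeticRingAut (modularFunctionFieldFull N') τ (ι x) :=
  algHom_arithmeticRingAut τ ι (fun d => by
    obtain ⟨d', hd'⟩ := hι d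
    rw [hd', arithmeticRingAut_genFam]) x

variable (N) (K : IntermediateField ℚ Qb)

/-- The subfield of `F̄_N` of the elements lying in `F_K`. -/
def FKbar : Subfield ↥(modularFunctionFieldBar N) :=
  (FK N K).comap
    ((modularFunctionFieldBar N).val : ↥(modularFunctionFieldBar N) →+* LaurentSeries Qb)

omit [NeZero N] in
theorem mem_FKbar {x : ↥(modularFunctionFieldBar N)} :
    x ∈ FKbar N K ↔ (x : LaurentSeries Qb) ∈ FK N K := Iff.rfl

/-- Generators of `F_K` inside `F̄_N`: the constants of `K` and the `j(q^d)`. -/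
def genK : Set ↥(modularFunctionFieldBar N) :=
  Set.range (fun c : K => algebraMap Qb ↥(modularFunctionFieldBar N) ((c : K) : Qb)) ∪
    Set.range (genFam N)

omit [NeZero N] in
theorem coe_algebraMap_bar (c : Qb) :
    ((algebraMap Qb ↥(modularFunctionFieldBar N) c : ↥(modularFunctionFieldBar N)) :
      LaurentSeries Qb) = HahnSeries.C c := by
  show algebraMap Qb (LaurentSeries Qb) c = HahnSeries.C c
  rw [algebraMap_laurentSeries_eq_single]
  rfl

omit [NeZero N] in
theorem genK_subset : genK N K ⊆ (FKbar N K : Set ↥(modularFunctionFieldBar N)) := by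
  rintro z (⟨c, rfl⟩ | ⟨d, rfl⟩)
  · rw [SetLike.mem_coe, mem_FKbar, coe_algebraMap_bar]
    exact Subfield.subset_closure (Or.inl ⟨c, rfl⟩)
  · rw [SetLike.mem_coe, mem_FKbar]
    exact Subfield.subset_closure
      (Or.inr ⟨⟨_, jqd_mem_full N (dvd_of_divisor N d)⟩, rfl⟩)

/-- `F_K` (inside `F̄_N`) is generated as a field by the constants of `K` and the `j(q^d)`. -/
theorem FKbar_eq_closure : FKbar N K = Subfield.closure (genK N K) := by
  apply le_antisymm
  · intro x hx
    rw [mem_FKbar] at hx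
    set T : Subfield (LaurentSeries Qb) := (Subfield.closure (genK N K)).map
      ((modularFunctionFieldBar N).val : ↥(modularFunctionFieldBar N) →+* LaurentSeries Qb)
      with hT
    have hconst : ∀ c : K, (HahnSeries.C ((c : K) : Qb) : LaurentSeries Qb) ∈ T := by
      intro c
      rw [hT, Subfield.mem_map]
      exact ⟨algebraMap Qb ↥(modularFunctionFieldBar N) ((c : K) : Qb),
        Subfield.subset_closure (Or.inl ⟨c, rfl⟩), coe_algebraMap_bar N _⟩
    let S₀ : IntermediateField ℚ (LaurentSeries ℚ) :=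
      Subfield.toIntermediateField (T.comap (coeffEmb Qb)) (fun c => by
        rw [Subfield.mem_comap]
        have h1 : coeffEmb Qb (algebraMap ℚ (LaurentSeries ℚ) c)
            = HahnSeries.C (((⟨algebraMap ℚ Qb c, K.algebraMap_mem c⟩ : K) : Qb)) := by
          rw [ModularCurve.algebraMap_apply_eq_single, coeffEmb, coeffMap_single]
          rfl
        rw [h1]
        exact hconst _)
    have hS₀ : ∀ z : LaurentSeries ℚ, z ∈ S₀ ↔ coeffEmb Qb z ∈ T := fun z => Iff.rfl
    have hfull : modularFunctionFieldFull N ≤ S₀ := by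
      rw [modularFunctionFieldFull, IntermediateField.adjoin_le_iff]
      rintro z ⟨d, hd0, hd, rfl⟩
      rw [SetLike.mem_coe, hS₀, hT, Subfield.mem_map]
      exact ⟨genFam N ⟨d, Nat.mem_divisors.mpr ⟨hd, NeZero.ne N⟩⟩,
        Subfield.subset_closure (Or.inr ⟨_, rfl⟩), rfl⟩
    have hle : FK N K ≤ T := by
      conv_lhs => rw [FK]
      rw [Subfield.closure_le]
      rintro z (⟨c, rfl⟩ | ⟨y, rfl⟩)
      · exact hconst c
      · exact (hS₀ _).mp (hfull y.2)
    have hxT := hle hx
    rw [hT, Subfield.mem_map] at hxT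
    obtain ⟨x', hx', hxx'⟩ := hxT
    have : x' = x := Subtype.ext hxx'
    rw [← this]
    exact hx'
  · rw [Subfield.closure_le]
    exact genK_subset N K

variable {N} {K}

omit [NeZero N'] in
/-- **(T4b)** A `ℚ̄`-algebra map permuting the generators `j(q^d)` maps `F_K` into `F_K`. -/
theorem algHom_mem_FK (ι : ↥(modularFunctionFieldBar N) →ₐ[Qb] ↥(modularFunctionFieldBar N'))
    (hι : ∀ d, ∃ d', ι (genFam N d) = genFam N' d')
    {x : ↥(modularFunctionFieldBar N)} (hx : (x : LaurentSeries Qb) ∈ FK N K) :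
    ((ι x : ↥(modularFunctionFieldBar N')) : LaurentSeries Qb) ∈ FK N' K := by
  have h : FKbar N K ≤ (FKbar N' K).comap
      (ι : ↥(modularFunctionFieldBar N) →+* ↥(modularFunctionFieldBar N')) := by
    rw [FKbar_eq_closure N K, Subfield.closure_le]
    rintro z (⟨c, rfl⟩ | ⟨d, rfl⟩)
    · rw [SetLike.mem_coe, Subfield.mem_comap]
      show ι (algebraMap Qb ↥(modularFunctionFieldBar N) ((c : K) : Qb)) ∈ FKbar N' K
      rw [AlgHom.commutes]
      exact genK_subset N' K (Or.inl ⟨c, rfl⟩)
    · rw [SetLike.mem_coe, Subfield.mem_comap]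
      show ι (genFam N d) ∈ FKbar N' K
      obtain ⟨d', hd'⟩ := hι d
      rw [hd']
      exact genK_subset N' K (Or.inr ⟨d', rfl⟩)
  exact h hx

/-- The restriction to `F_K` of a `ℚ̄`-algebra map permuting the generators. -/
def resE (ι : ↥(modularFunctionFieldBar N) →ₐ[Qb] ↥(modularFunctionFieldBar N'))
    (hι : ∀ d, ∃ d', ι (genFam N d) = genFam N' d') : FK N K →+* FK N' K where
  toFun x := ⟨((ι ⟨(x : LaurentSeries Qb), S18.DescCoeff.FK_le_bar N K x.2⟩ :
      ↥(modularFunctionFieldBar N')) : LaurentSeries Qb), algHom_mem_FK ι hι x.2⟩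
  map_one' := Subtype.ext (by
    show ((ι 1 : ↥(modularFunctionFieldBar N')) : LaurentSeries Qb) = 1
    rw [map_one]; rfl)
  map_zero' := Subtype.ext (by
    show ((ι 0 : ↥(modularFunctionFieldBar N')) : LaurentSeries Qb) = 0
    rw [map_zero]; rfl)
  map_mul' x y := Subtype.ext (by
    show ((ι (⟨(x : LaurentSeries Qb), S18.DescCoeff.FK_le_bar N K x.2⟩
        * ⟨(y : LaurentSeries Qb), S18.DescCoeff.FK_le_bar N K y.2⟩) :
          ↥(modularFunctionFieldBar N')) : LaurentSeries Qb) = _
    rw [map_mul]; rfl)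
  map_add' x y := Subtype.ext (by
    show ((ι (⟨(x : LaurentSeries Qb), S18.DescCoeff.FK_le_bar N K x.2⟩
        + ⟨(y : LaurentSeries Qb), S18.DescCoeff.FK_le_bar N K y.2⟩) :
          ↥(modularFunctionFieldBar N')) : LaurentSeries Qb) = _
    rw [map_add]; rfl)

theorem coe_resE (ι : ↥(modularFunctionFieldBar N) →ₐ[Qb] ↥(modularFunctionFieldBar N'))
    (hι : ∀ d, ∃ d', ι (genFam N d) = genFam N' d') (x : FK N K) :
    ((resE (K := K) ι hι x : FK N' K) : LaurentSeries Qb)
      = ((ι ⟨(x : LaurentSeries Qb), S18.DescCoeff.FK_le_bar N K x.2⟩ :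
          ↥(modularFunctionFieldBar N')) : LaurentSeries Qb) := rfl

/-- `resE ι` is `K`-linear. -/
theorem resE_constK (ι : ↥(modularFunctionFieldBar N) →ₐ[Qb] ↥(modularFunctionFieldBar N'))
    (hι : ∀ d, ∃ d', ι (genFam N d) = genFam N' d') (c : K) :
    resE (K := K) ι hι (constK N K c) = constK N' K c := by
  apply Subtype.ext
  rw [coe_resE]
  have h1 : (⟨((constK N K c : FK N K) : LaurentSeries Qb),
      S18.DescCoeff.FK_le_bar N K (constK N K c).2⟩ : ↥(modularFunctionFieldBar N))
      = algebraMap Qb ↥(modularFunctionFieldBar N) ((c : K) : Qb) :=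
    Subtype.ext (coe_algebraMap_bar N _).symm
  rw [h1, AlgHom.commutes, coe_algebraMap_bar]
  rfl

/-- **(T4c)** On `F_K` the restriction of such a map commutes with `τ`. -/
theorem resE_tauE (ι : ↥(modularFunctionFieldBar N) →ₐ[Qb] ↥(modularFunctionFieldBar N'))
    (hι : ∀ d, ∃ d', ι (genFam N d) = genFam N' d') {τ : GQ} (hK : Stable K τ) (x : FK N K) :
    resE (K := K) ι hι (tauE N hK x) = tauE N' hK (resE (K := K) ι hι x) := by
  apply Subtype.ext
  have h := algHom_arithmeticRingAut_of_genFam τ ι hι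
    ⟨(x : LaurentSeries Qb), S18.DescCoeff.FK_le_bar N K x.2⟩
  exact congrArg (fun z : ↥(modularFunctionFieldBar N') => (z : LaurentSeries Qb)) h

/-- **(T4d)** Inertia preserves the Gauss relation of `ι x` (`V₂ := {x | GRel A (ι x) _}` is
`τ`-stable and `τ` is the identity on its residue ring). -/
theorem gRel_resE_tauE (A : ValuationSubring Qb)
    (ι : ↥(modularFunctionFieldBar N) →ₐ[Qb] ↥(modularFunctionFieldBar N'))
    (hι : ∀ d, ∃ d', ι (genFam N d) = genFam N' d') {τ : GQ}
    (hτ : τ ∈ A.inertiaSubgroupIn ℚ) (hK : Stable K τ) {x : FK N K}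
    {y : LaurentSeries (IsLocalRing.ResidueField A)}
    (h : GRel A ((resE (K := K) ι hι x : FK N' K) : LaurentSeries Qb) y) :
    GRel A ((resE (K := K) ι hι (tauE N hK x) : FK N' K) : LaurentSeries Qb) y := by
  rw [resE_tauE, coe_tauE]
  exact gRel_coeffMap A hτ h


/-- The restriction to `F_K` of an involution permuting the generators is an involution. -/
theorem resE_resE_of_involutive
    (w : ↥(modularFunctionFieldBar N) →ₐ[Qb] ↥(modularFunctionFieldBar N))
    (hw : ∀ x, w (w x) = x) (hι : ∀ d, ∃ d', w (genFam N d) = genFam N d') (x : FK N K) :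
    resE (K := K) w hι (resE (K := K) w hι x) = x := by
  apply Subtype.ext
  rw [coe_resE]
  have h1 : (⟨((resE (K := K) w hι x : FK N K) : LaurentSeries Qb),
      S18.DescCoeff.FK_le_bar N K (resE (K := K) w hι x).2⟩ : ↥(modularFunctionFieldBar N))
      = w ⟨(x : LaurentSeries Qb), S18.DescCoeff.FK_le_bar N K x.2⟩ := Subtype.ext rfl
  rw [h1, hw]

/-- The ring automorphism of `F_K` induced by an involution of `F̄_N` permuting the generators
(e.g. the Atkin–Lehner involution `w_q` of `S37/W/AL`, `N = M * q`). -/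
def resEquiv (w : ↥(modularFunctionFieldBar N) →ₐ[Qb] ↥(modularFunctionFieldBar N))
    (hw : ∀ x, w (w x) = x) (hι : ∀ d, ∃ d', w (genFam N d) = genFam N d') :
    FK N K ≃+* FK N K :=
  RingEquiv.ofRingHom (resE (K := K) w hι) (resE (K := K) w hι)
    (RingHom.ext fun x => resE_resE_of_involutive w hw hι x)
    (RingHom.ext fun x => resE_resE_of_involutive w hw hι x)

theorem resEquiv_apply (w : ↥(modularFunctionFieldBar N) →ₐ[Qb] ↥(modularFunctionFieldBar N))
    (hw : ∀ x, w (w x) = x) (hι : ∀ d, ∃ d', w (genFam N d) = genFam N d') (x : FK N K) :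
    resEquiv (K := K) w hw hι x = resE (K := K) w hι x := rfl

/-- The Atkin–Lehner involution of `S37/W/AL` permutes the generators. -/
theorem atkinLehner_genFam_perm (M q : ℕ) [NeZero M] [NeZero q] (hq : q.Prime)
    (w : ↥(modularFunctionFieldBar (M * q)) →ₐ[Qb] ↥(modularFunctionFieldBar (M * q)))
    (hw : ∀ e, w (genFam (M * q) e) = genFam (M * q) (Fermat.Agent.S37.W.swapDiv M q hq e)) :
    ∀ d, ∃ d', w (genFam (M * q) d) = genFam (M * q) d' :=
  fun d => ⟨_, hw d⟩

end Comm

end Fermat.Agent.S34.TauAct
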