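import Fermat.Agent.S34.WK
import Fermat.Agent.S34.ChartJ
import Fermat.Agent.S34.TauAct

/-!
# S34 [MODULAR] — WKInst.lean (helper79): the specialisation `w := wK`, `jq := jqK`

The hypothesis-form leaves `ChartJ` (helper45: symmetric coordinate `J = j * jq`, charts) and
`TauAct` (helper94: coefficientwise Galois action `tauE` on `F_K`) are specialised to the
Atkin–Lehner swap `WK.wK` of `F_K = FK (M * q) K`:

* `JK = j * j_q`, `wK JK = JK`, `chart JK = chart j`, `chart j⁻¹ ≤ chart JK⁻¹`, both charts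
  `chart JK`, `chart JK⁻¹` are `wK`-stable, `ChartSide` for `JK`;
* the level-`M` charts map into the level-`M q` charts under `alphaK` and `betaK`;
* `wK_tauE` : `wK` commutes with `tauE`; `tauE JK = JK`; the charts are `tauE`-stable.
-/

set_option autoImplicit false

noncomputable section

namespace Fermat.Agent.S34.WKInst

open ModularCurve ModularCurve.IgusaScheme AlgebraicCurve HahnSeries
open Fermat.Agent.S18 Fermat.Agent.S18.Arith Fermat.Agent.S34.WK

set_option synthInstance.maxHeartbeats 400000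

variable (M q : ℕ) [NeZero M] [NeZero q] (hq : q.Prime) (hqM : ¬ q ∣ M)
variable (A : ValuationSubring Qb) (K : IntermediateField ℚ Qb)

/-! ### The symmetric coordinate -/

/-- The symmetric coordinate `J = j * j_q` of level `M q`. -/
def JK : FK (M * q) K := ChartJ.symJ (M * q) K (jqK M q hq hqM K)

theorem JK_eq : JK M q hq hqM K = jK (M * q) K * jqK M q hq hqM K := rfl

theorem jqK_ne_zero : jqK M q hq hqM K ≠ 0 := by
  rw [← wK_jK]
  exact (map_ne_zero (wK M q hq hqM K)).mpr (ModelBasicCore.jK_ne_zero (M * q) K)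

theorem JK_ne_zero : JK M q hq hqM K ≠ 0 :=
  ChartJ.symJ_ne_zero (M * q) K (jqK_ne_zero M q hq hqM K)

/-- `w_q J = J`. -/
theorem wK_JK : wK M q hq hqM K (JK M q hq hqM K) = JK M q hq hqM K := by
  rw [JK_eq, map_mul, wK_jK, wK_jqK]
  exact mul_comm _ _

theorem wK_JK_inv : wK M q hq hqM K (JK M q hq hqM K)⁻¹ = (JK M q hq hqM K)⁻¹ := by
  rw [map_inv₀, wK_JK]

/-! ### Charts -/

/-- `chart J` is `w_q`-stable. -/
theorem wK_mem_chart_JK {x : FK (M * q) K} (hx : x ∈ chart (M * q) A K (JK M q hq hqM K)) :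
    wK M q hq hqM K x ∈ chart (M * q) A K (JK M q hq hqM K) :=
  ChartJ.map_mem_chart_symJ (M * q) A K (wK M q hq hqM K) (wK_algebraMap_OK M q hq hqM K A)
    (wK_jK M q hq hqM K) (wK_jqK M q hq hqM K) hx

/-- `chart J⁻¹` is `w_q`-stable. -/
theorem wK_mem_chart_JK_inv {x : FK (M * q) K}
    (hx : x ∈ chart (M * q) A K (JK M q hq hqM K)⁻¹) :
    wK M q hq hqM K x ∈ chart (M * q) A K (JK M q hq hqM K)⁻¹ :=
  ChartJ.map_mem_chart_symJ_inv (M * q) A K (wK M q hq hqM K) (wK_algebraMap_OK M q hq hqM K A)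
    (wK_jK M q hq hqM K) (wK_jqK M q hq hqM K) hx

theorem wK_mem_chart_JK_iff {x : FK (M * q) K} :
    wK M q hq hqM K x ∈ chart (M * q) A K (JK M q hq hqM K)
      ↔ x ∈ chart (M * q) A K (JK M q hq hqM K) := by
  refine ⟨fun h => ?_, wK_mem_chart_JK M q hq hqM A K⟩
  have h2 := wK_mem_chart_JK M q hq hqM A K h
  rwa [wK_wK] at h2

theorem wK_mem_chart_JK_inv_iff {x : FK (M * q) K} :
    wK M q hq hqM K x ∈ chart (M * q) A K (JK M q hq hqM K)⁻¹
      ↔ x ∈ chart (M * q) A K (JK M q hq hqM K)⁻¹ := by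
  refine ⟨fun h => ?_, wK_mem_chart_JK_inv M q hq hqM A K⟩
  have h2 := wK_mem_chart_JK_inv M q hq hqM A K h
  rwa [wK_wK] at h2

/-- `chart J = chart j` (the S18 chart `R0` of level `M q`). -/
theorem chart_JK_eq :
    chart (M * q) A K (JK M q hq hqM K) = chart (M * q) A K (jK (M * q) K) :=
  le_antisymm (ChartJ.chart_symJ_le (M * q) A K (isIntegral_jqK M q hq hqM A K))
    (ChartJ.chart_jK_le (M * q) A K (isIntegral_jK M q hq hqM A K))

/-- `chart j_q ≤ chart J`. -/
theorem chart_jqK_le :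
    chart (M * q) A K (jqK M q hq hqM K) ≤ chart (M * q) A K (JK M q hq hqM K) :=
  ChartJ.chart_jq_le (M * q) A K (isIntegral_jqK M q hq hqM A K)

/-- `chart j⁻¹ ≤ chart J⁻¹` (the S18 chart `Rinf` lies in the symmetric chart at infinity). -/
theorem chart_jK_inv_le :
    chart (M * q) A K (jK (M * q) K)⁻¹ ≤ chart (M * q) A K (JK M q hq hqM K)⁻¹ :=
  ChartJ.chart_jK_inv_le (M * q) A K (jqK_ne_zero M q hq hqM K) (isIntegral_jqK M q hq hqM A K)

/-- `chart j_q⁻¹ ≤ chart J⁻¹`. -/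
theorem chart_jqK_inv_le :
    chart (M * q) A K (jqK M q hq hqM K)⁻¹ ≤ chart (M * q) A K (JK M q hq hqM K)⁻¹ :=
  ChartJ.chart_jq_inv_le (M * q) A K (isIntegral_jK M q hq hqM A K)

/-- The chart-side fields of `Cech2Plan.Setting` for the symmetric coordinate `J`. -/
theorem chartSide_JK {m : ℕ} (hm : m ≠ 0) :
    ChartJ.ChartSide (M * q) A K (JK M q hq hqM K) m :=
  ChartJ.chartSide_symJ (M * q) A K hm (jqK_ne_zero M q hq hqM K) (isIntegral_jK M q hq hqM A K)

/-! ### The level-`M` charts inside the level-`M q` charts -/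

/-- `α (chart_M j) ⊆ chart J`. -/
theorem alphaK_mem_chart_JK {x : FK M K} (hx : x ∈ chart M A K (jK M K)) :
    alphaK M q K x ∈ chart (M * q) A K (JK M q hq hqM K) :=
  ChartJ.chart_jK_le (M * q) A K (isIntegral_jK M q hq hqM A K)
    (alphaK_mem_chart_jK M q A K hx)

/-- `α (chart_M j⁻¹) ⊆ chart J⁻¹`. -/
theorem alphaK_mem_chart_JK_inv {x : FK M K} (hx : x ∈ chart M A K (jK M K)⁻¹) :
    alphaK M q K x ∈ chart (M * q) A K (JK M q hq hqM K)⁻¹ :=
  chart_jK_inv_le M q hq hqM A K (alphaK_mem_chart_inv M q A K hx)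

/-- `β (chart_M j) ⊆ chart J`. -/
theorem betaK_mem_chart_JK {x : FK M K} (hx : x ∈ chart M A K (jK M K)) :
    betaK M q hq hqM K x ∈ chart (M * q) A K (JK M q hq hqM K) := by
  rw [← wK_alphaK]
  exact wK_mem_chart_JK M q hq hqM A K (alphaK_mem_chart_JK M q hq hqM A K hx)

/-- `β (chart_M j⁻¹) ⊆ chart J⁻¹`. -/
theorem betaK_mem_chart_JK_inv {x : FK M K} (hx : x ∈ chart M A K (jK M K)⁻¹) :
    betaK M q hq hqM K x ∈ chart (M * q) A K (JK M q hq hqM K)⁻¹ := by
  rw [← wK_alphaK]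
  exact wK_mem_chart_JK_inv M q hq hqM A K (alphaK_mem_chart_JK_inv M q hq hqM A K hx)

/-! ### Galois -/

section Galois

variable {K}
variable {τ : Qb ≃ₐ[ℚ] Qb} (hK : TauAct.Stable K τ)

/-- **`w_q` commutes with the coefficientwise Galois action on `F_K`.** -/
theorem wK_tauE (x : FK (M * q) K) :
    wK M q hq hqM K (TauAct.tauE (M * q) hK x) = TauAct.tauE (M * q) hK (wK M q hq hqM K x) := by
  apply Subtype.ext
  rw [coe_wK_of_coeffMap M q hq hqM K τ x (TauAct.tauE (M * q) hK x) (TauAct.coe_tauE (M * q) hK x),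
    TauAct.coe_tauE]

theorem tauE_jqK : TauAct.tauE (M * q) hK (jqK M q hq hqM K) = jqK M q hq hqM K := by
  rw [← wK_jK, ← wK_tauE, TauAct.tauE_jK]

/-- `τ J = J`. -/
theorem tauE_JK : TauAct.tauE (M * q) hK (JK M q hq hqM K) = JK M q hq hqM K := by
  rw [JK_eq, map_mul, TauAct.tauE_jK, tauE_jqK]

theorem tauE_JK_inv :
    TauAct.tauE (M * q) hK (JK M q hq hqM K)⁻¹ = (JK M q hq hqM K)⁻¹ := by
  rw [map_inv₀, tauE_JK]

/-- `chart J` is stable under the decomposition group. -/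
theorem tauE_mem_chart_JK (hτ : τ ∈ A.decompositionSubgroup ℚ) {x : FK (M * q) K}
    (hx : x ∈ chart (M * q) A K (JK M q hq hqM K)) :
    TauAct.tauE (M * q) hK x ∈ chart (M * q) A K (JK M q hq hqM K) :=
  TauAct.tauE_mem_chart (M * q) A hτ hK (tauE_JK M q hq hqM hK) hx

/-- `chart J⁻¹` is stable under the decomposition group. -/
theorem tauE_mem_chart_JK_inv (hτ : τ ∈ A.decompositionSubgroup ℚ) {x : FK (M * q) K}
    (hx : x ∈ chart (M * q) A K (JK M q hq hqM K)⁻¹) :
    TauAct.tauE (M * q) hK x ∈ chart (M * q) A K (JK M q hq hqM K)⁻¹ :=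
  TauAct.tauE_mem_chart (M * q) A hτ hK (tauE_JK_inv M q hq hqM hK) hx

end Galois

end Fermat.Agent.S34.WKInst
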