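import Mathlib
import Fermat.Agent.S18.SepDeg
import Fermat.Agent.S34.Branch
import Fermat.Agent.S34.GaussV
import Fermat.Agent.S34.ResDeg
import Fermat.Agent.S34.V12Rel
import Fermat.Agent.S34.WKInst

/-!
# S34 [MODULAR], leaf [Branch] (B) : the branch statement (B1) on the two symmetric charts

Level `M * q`, `q ∤ M`, `A` a valuation ring of `ℚ̄` over `q`, `K` a base with `BaseFacts q A K`,
`J = j * j_q` the symmetric coordinate (`WKInst.JK`).  On top of helper26's hypothesis-form leaf
`Branch.exists_level` this file discharges, for both symmetric charts `chart J` and `chart J⁻¹`,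

* `hB1` (level `M`, `Branch.mem_redRing_R0`, `Branch.mem_redRing_Rinf`), and
* `ht` : the Gauss reduction of `J` is `j̄ ^ (q + 1)` (Kronecker congruence `j_q ≡ j ^ q`), which
  lies in the reduction ring of the level-`M` chart `R0`; the reduction of `J⁻¹` is
  `(j̄⁻¹) ^ (q + 1)`, which lies in the reduction ring of `Rinf`.

The only remaining input is `hf1` ("residue degree one": every Gauss reduction of an element of
`F_K(M q)` is the reduction of an element of `F_K(M)`), the output of block [Red2] / [ResDeg];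
the statements `branch_*` keep it as a hypothesis, the statements `b1_*` are closed with
`ResDeg.hf1`.

Main statements (`k` the residue field of `A`):

* `gRel_jqK`, `gRel_JK`, `gRel_JK_inv` : the reductions of `j_q`, `J`, `J⁻¹`;
* `red_JK_ne_const`, `red_JK_inv_ne_const` : these reductions are not constants;
* `branch_JK`, `branch_JK_inv` : every element of `chart J` (`chart J⁻¹`) is congruent, modulo
  the Gauss maximal ideal, to an element of the level-`M` chart `chart j` (`chart j⁻¹`);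
* `branch_JK_V1`, `branch_JK_inv_V1` : the same in `GaussV` form,
  `x - α y = π * v` with `v ∈ V1`;
* `b1_JK`, `b1_JK_inv`, `b1_JK_V1`, `b1_JK_inv_V1` : the four statements without hypothesis
  `hf1` (closed form of (B1)).
-/

set_option autoImplicit false

noncomputable section

namespace Fermat.Agent.S34.BranchB

open ModularCurve HahnSeries Fermat.Agent.S18 Fermat.Agent.S18.Arith Fermat.Agent.S18.ModelPlan
open Fermat.Agent.S34.WK Fermat.Agent.S34.WKInst

set_option synthInstance.maxHeartbeats 400000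

variable (M q : ℕ) [NeZero M] [NeZero q] (hq : q.Prime) (hqM : ¬ q ∣ M)
variable {A : ValuationSubring Qb} (K : IntermediateField ℚ Qb)

/-! ### Reductions of `j_q`, `J`, `J⁻¹` -/

/-- In characteristic `q`, `j̄(Q^q) = j̄ ^ q`. -/
theorem qExpand_jqModC_eq_pow (k : Type*) [Field k] [Fact q.Prime] [CharP k q] :
    qExpand k q (jqModC k) = jqModC k ^ q := by
  rw [S37.KC.pow_char_eq_qExpand_frobenius q, coeffMap_jqModC]

/-- The Gauss reduction of `j_q` is `j̄ ^ q` (Kronecker congruence). -/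
theorem gRel_jqK (hA : A.LiesOverPrime q) :
    GRel A ((jqK M q hq hqM K : FK (M * q) K) : LaurentSeries Qb)
      (jqModC (IsLocalRing.ResidueField A) ^ q) := by
  have : Fact q.Prime := ⟨hq⟩
  have := BaseRes.charP_residueField q A hA
  rw [coe_jqK, S28.jd_eq, ← qExpand_jqModC_eq_pow q (IsLocalRing.ResidueField A)]
  exact V12Rel.gRel_jd A q

/-- The Gauss reduction of the symmetric coordinate `J = j * j_q` is `j̄ * j̄ ^ q`. -/
theorem gRel_JK (hA : A.LiesOverPrime q) :
    GRel A ((JK M q hq hqM K : FK (M * q) K) : LaurentSeries Qb)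
      (jqModC (IsLocalRing.ResidueField A) * jqModC (IsLocalRing.ResidueField A) ^ q) := by
  have hG := GRel.gRelStatement A
  exact hG.mul _ _ _ _ (QExpDefs.gRel_jΩ hG) (gRel_jqK M q hq hqM K hA)

omit [NeZero q] in
theorem jb_mul_pow_ne_zero (k : Type*) [Field k] : jqModC k * jqModC k ^ q ≠ 0 :=
  mul_ne_zero (V12Rel.jqModC_ne_zero k) (pow_ne_zero _ (V12Rel.jqModC_ne_zero k))

/-- The Gauss reduction of `J⁻¹` is `(j̄ * j̄ ^ q)⁻¹`. -/
theorem gRel_JK_inv (hA : A.LiesOverPrime q) :
    GRel A (((JK M q hq hqM K)⁻¹ : FK (M * q) K) : LaurentSeries Qb)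
      (jqModC (IsLocalRing.ResidueField A) * jqModC (IsLocalRing.ResidueField A) ^ q)⁻¹ := by
  have hG := GRel.gRelStatement A
  exact hG.inv _ _ (gRel_JK M q hq hqM K hA) (jb_mul_pow_ne_zero q _)

omit [NeZero q] in
/-- `j̄ * j̄ ^ q` has a pole of order `q + 1`. -/
theorem order_jb_mul_pow (k : Type*) [Field k] :
    (jqModC k * jqModC k ^ q).order = -((q : ℤ) + 1) := by
  rw [HahnSeries.order_mul (V12Rel.jqModC_ne_zero k) (pow_ne_zero _ (V12Rel.jqModC_ne_zero k)),
    HahnSeries.order_pow, SepDeg.order_jqModC, nsmul_eq_mul]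
  ring

omit [NeZero q] in
/-- The reduction of `J` is not a constant. -/
theorem red_JK_ne_const (c : OK A K) :
    jqModC (IsLocalRing.ResidueField A) * jqModC (IsLocalRing.ResidueField A) ^ q ≠
      C (resO A K c) := by
  intro h
  have h1 := order_jb_mul_pow q (IsLocalRing.ResidueField A)
  rw [h, HahnSeries.order_C] at h1
  have : (0 : ℤ) ≤ (q : ℤ) := Int.natCast_nonneg q
  omega

omit [NeZero q] in
/-- The reduction of `J⁻¹` is not a constant. -/
theorem red_JK_inv_ne_const (c : OK A K) :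
    (jqModC (IsLocalRing.ResidueField A) * jqModC (IsLocalRing.ResidueField A) ^ q)⁻¹ ≠
      C (resO A K c) := by
  intro h
  have h1 := order_jb_mul_pow q (IsLocalRing.ResidueField A)
  have h0 := jb_mul_pow_ne_zero q (IsLocalRing.ResidueField A)
  have h3 := HahnSeries.order_mul h0 (inv_ne_zero h0)
  rw [mul_inv_cancel₀ h0, HahnSeries.order_one, h1] at h3
  have h2 : (jqModC (IsLocalRing.ResidueField A) *
      jqModC (IsLocalRing.ResidueField A) ^ q)⁻¹.order = (q : ℤ) + 1 := by
    linarith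
  rw [h, HahnSeries.order_C] at h2
  have : (0 : ℤ) ≤ (q : ℤ) := Int.natCast_nonneg q
  omega

/-! ### The coordinates have reductions in the level-`M` reduction rings -/

/-- `j̄` lies in the reduction ring of the level-`M` chart `chart j`. -/
theorem jb_mem_redRing :
    jqModC (IsLocalRing.ResidueField A) ∈ Branch.redRing M A K (chart M A K (jK M K)) :=
  ⟨jK M K, ChartJ.self_mem_chart M A K (jK M K), QExpDefs.gRel_jΩ (GRel.gRelStatement A)⟩

/-- `j̄⁻¹` lies in the reduction ring of the level-`M` chart `chart j⁻¹`. -/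
theorem jb_inv_mem_redRing :
    (jqModC (IsLocalRing.ResidueField A))⁻¹ ∈ Branch.redRing M A K (chart M A K (jK M K)⁻¹) :=
  ⟨(jK M K)⁻¹, ChartJ.self_mem_chart M A K (jK M K)⁻¹,
    (GRel.gRelStatement A).inv _ _ (QExpDefs.gRel_jΩ (GRel.gRelStatement A))
      (V12Rel.jqModC_ne_zero _)⟩

/-- `ht` of `Branch.exists_level` for `t = J` over the level-`M` chart `chart j`. -/
theorem ht_JK (hA : A.LiesOverPrime q) :
    ∃ yt, GRel A ((JK M q hq hqM K : FK (M * q) K) : LaurentSeries Qb) yt ∧
      IsIntegral (Branch.redRing M A K (chart M A K (jK M K))) yt := by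
  refine ⟨_, gRel_JK M q hq hqM K hA, ?_⟩
  exact isIntegral_algebraMap (x := (⟨_, Subring.mul_mem _ (jb_mem_redRing M K)
    (Subring.pow_mem _ (jb_mem_redRing M K) q)⟩ :
      Branch.redRing M A K (chart M A K (jK M K))))

/-- `ht` of `Branch.exists_level` for `t = J⁻¹` over the level-`M` chart `chart j⁻¹`. -/
theorem ht_JK_inv (hA : A.LiesOverPrime q) :
    ∃ yt, GRel A (((JK M q hq hqM K)⁻¹ : FK (M * q) K) : LaurentSeries Qb) yt ∧
      IsIntegral (Branch.redRing M A K (chart M A K (jK M K)⁻¹)) yt := by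
  refine ⟨_, gRel_JK_inv M q hq hqM K hA, ?_⟩
  have e : (jqModC (IsLocalRing.ResidueField A) * jqModC (IsLocalRing.ResidueField A) ^ q)⁻¹ =
      (jqModC (IsLocalRing.ResidueField A))⁻¹ * (jqModC (IsLocalRing.ResidueField A))⁻¹ ^ q := by
    rw [mul_inv, inv_pow]
  rw [e]
  exact isIntegral_algebraMap (x := (⟨_, Subring.mul_mem _ (jb_inv_mem_redRing M K)
    (Subring.pow_mem _ (jb_inv_mem_redRing M K) q)⟩ :
      Branch.redRing M A K (chart M A K (jK M K)⁻¹)))

/-! ### (B1) on the symmetric charts, `GRel` form -/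

/-- **(B1) on `chart J`.**  Every element of the symmetric chart `chart J` of level `M q` is
congruent, modulo the Gauss maximal ideal, to an element of the level-`M` chart `chart j`
(`= R0 M q A K`). -/
theorem branch_JK (hA : A.LiesOverPrime q) (hB : BaseFacts q A K)
    (hf1 : ∀ (x : FK (M * q) K) (y : LaurentSeries (IsLocalRing.ResidueField A)),
      GRel A ((x : FK (M * q) K) : LaurentSeries Qb) y →
      ∃ x' : FK M K, GRel A ((x' : FK M K) : LaurentSeries Qb) y)
    (x : FK (M * q) K) (hx : x ∈ chart (M * q) A K (JK M q hq hqM K)) :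
    ∃ x' ∈ chart M A K (jK M K),
      GRel A (((x : FK (M * q) K) : LaurentSeries Qb) - ((x' : FK M K) : LaurentSeries Qb)) 0 := by
  have : Fact q.Prime := ⟨hq⟩
  exact Branch.exists_level M (M * q) hB.dvr (R0 M q A K)
    (fun y hy hint => Branch.mem_redRing_R0 M q hqM hA hB hy hint) hf1 (JK M q hq hqM K)
    (ht_JK M q hq hqM K hA) x hx

/-- **(B1) on `chart J⁻¹`.**  Every element of the symmetric chart at infinity `chart J⁻¹` of
level `M q` is congruent, modulo the Gauss maximal ideal, to an element of the level-`M` chart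
`chart j⁻¹` (`= Rinf M q A K`). -/
theorem branch_JK_inv (hA : A.LiesOverPrime q) (hB : BaseFacts q A K)
    (hf1 : ∀ (x : FK (M * q) K) (y : LaurentSeries (IsLocalRing.ResidueField A)),
      GRel A ((x : FK (M * q) K) : LaurentSeries Qb) y →
      ∃ x' : FK M K, GRel A ((x' : FK M K) : LaurentSeries Qb) y)
    (x : FK (M * q) K) (hx : x ∈ chart (M * q) A K (JK M q hq hqM K)⁻¹) :
    ∃ x' ∈ chart M A K (jK M K)⁻¹,
      GRel A (((x : FK (M * q) K) : LaurentSeries Qb) - ((x' : FK M K) : LaurentSeries Qb)) 0 := by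
  have : Fact q.Prime := ⟨hq⟩
  exact Branch.exists_level M (M * q) hB.dvr (Rinf M q A K)
    (fun y hy hint => Branch.mem_redRing_Rinf M q hqM hA hB hy hint) hf1 (JK M q hq hqM K)⁻¹
    (ht_JK_inv M q hq hqM K hA) x hx

/-! ### (B1) on the symmetric charts, `GaussV` form -/

/-- A congruence `GRel A (x - x') 0` between levels is `x - α x' ∈ π V1`. -/
theorem exists_pi_mul_of_gRel (hdvr : IsDiscreteValuationRing (OK A K)) {π : OK A K}
    (hπ : Irreducible π) {x : FK (M * q) K} {x' : FK M K}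
    (h : GRel A (((x : FK (M * q) K) : LaurentSeries Qb) - ((x' : FK M K) : LaurentSeries Qb)) 0) :
    ∃ v ∈ GaussV.V1 (M * q) A K hdvr,
      x - alphaK M q K x' = algebraMap (OK A K) (FK (M * q) K) π * v := by
  have hc : (((x - alphaK M q K x' : FK (M * q) K)) : LaurentSeries Qb) =
      ((x : FK (M * q) K) : LaurentSeries Qb) - ((x' : FK M K) : LaurentSeries Qb) := by
    rw [← coe_alphaK M q K x']
    rfl
  have hG : GRel A (((x - alphaK M q K x' : FK (M * q) K)) : LaurentSeries Qb) 0 := by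
    rw [hc]
    exact h
  have hmem : x - alphaK M q K x' ∈ GaussV.V1 (M * q) A K hdvr := ⟨0, hG⟩
  have h0 : GaussV.red1 hdvr ⟨x - alphaK M q K x', hmem⟩ = 0 :=
    GaussV.red1_eq_of_gRel hdvr _ hG
  exact (GaussV.red1_eq_zero_iff hdvr hπ ⟨x - alphaK M q K x', hmem⟩).mp h0

/-- **(B1) on `chart J`, `GaussV` form.** -/
theorem branch_JK_V1 (hA : A.LiesOverPrime q) (hB : BaseFacts q A K)
    (hdvr : IsDiscreteValuationRing (OK A K)) {π : OK A K} (hπ : Irreducible π)
    (hf1 : ∀ (x : FK (M * q) K) (y : LaurentSeries (IsLocalRing.ResidueField A)),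
      GRel A ((x : FK (M * q) K) : LaurentSeries Qb) y →
      ∃ x' : FK M K, GRel A ((x' : FK M K) : LaurentSeries Qb) y)
    (x : FK (M * q) K) (hx : x ∈ chart (M * q) A K (JK M q hq hqM K)) :
    ∃ y ∈ chart M A K (jK M K), ∃ v ∈ GaussV.V1 (M * q) A K hdvr,
      x - alphaK M q K y = algebraMap (OK A K) (FK (M * q) K) π * v := by
  obtain ⟨y, hy, hxy⟩ := branch_JK M q hq hqM K hA hB hf1 x hx
  exact ⟨y, hy, exists_pi_mul_of_gRel M q K hdvr hπ hxy⟩

/-- **(B1) on `chart J⁻¹`, `GaussV` form.** -/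
theorem branch_JK_inv_V1 (hA : A.LiesOverPrime q) (hB : BaseFacts q A K)
    (hdvr : IsDiscreteValuationRing (OK A K)) {π : OK A K} (hπ : Irreducible π)
    (hf1 : ∀ (x : FK (M * q) K) (y : LaurentSeries (IsLocalRing.ResidueField A)),
      GRel A ((x : FK (M * q) K) : LaurentSeries Qb) y →
      ∃ x' : FK M K, GRel A ((x' : FK M K) : LaurentSeries Qb) y)
    (x : FK (M * q) K) (hx : x ∈ chart (M * q) A K (JK M q hq hqM K)⁻¹) :
    ∃ y ∈ chart M A K (jK M K)⁻¹, ∃ v ∈ GaussV.V1 (M * q) A K hdvr,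
      x - alphaK M q K y = algebraMap (OK A K) (FK (M * q) K) π * v := by
  obtain ⟨y, hy, hxy⟩ := branch_JK_inv M q hq hqM K hA hB hf1 x hx
  exact ⟨y, hy, exists_pi_mul_of_gRel M q K hdvr hπ hxy⟩

/-! ### Closed forms (`hf1` from [ResDeg]) -/

/-- **(B1) on `chart J`, closed form.** -/
theorem b1_JK (hA : A.LiesOverPrime q) (hB : BaseFacts q A K)
    (x : FK (M * q) K) (hx : x ∈ chart (M * q) A K (JK M q hq hqM K)) :
    ∃ x' ∈ chart M A K (jK M K),
      GRel A (((x : FK (M * q) K) : LaurentSeries Qb) - ((x' : FK M K) : LaurentSeries Qb)) 0 :=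
  branch_JK M q hq hqM K hA hB (ResDeg.hf1 M q hq hqM hA hB) x hx

/-- **(B1) on `chart J⁻¹`, closed form.** -/
theorem b1_JK_inv (hA : A.LiesOverPrime q) (hB : BaseFacts q A K)
    (x : FK (M * q) K) (hx : x ∈ chart (M * q) A K (JK M q hq hqM K)⁻¹) :
    ∃ x' ∈ chart M A K (jK M K)⁻¹,
      GRel A (((x : FK (M * q) K) : LaurentSeries Qb) - ((x' : FK M K) : LaurentSeries Qb)) 0 :=
  branch_JK_inv M q hq hqM K hA hB (ResDeg.hf1 M q hq hqM hA hB) x hx

/-- **(B1) on `chart J`, closed `GaussV` form.** -/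
theorem b1_JK_V1 (hA : A.LiesOverPrime q) (hB : BaseFacts q A K)
    (hdvr : IsDiscreteValuationRing (OK A K)) {π : OK A K} (hπ : Irreducible π)
    (x : FK (M * q) K) (hx : x ∈ chart (M * q) A K (JK M q hq hqM K)) :
    ∃ y ∈ chart M A K (jK M K), ∃ v ∈ GaussV.V1 (M * q) A K hdvr,
      x - alphaK M q K y = algebraMap (OK A K) (FK (M * q) K) π * v :=
  branch_JK_V1 M q hq hqM K hA hB hdvr hπ (ResDeg.hf1 M q hq hqM hA hB) x hx

/-- **(B1) on `chart J⁻¹`, closed `GaussV` form.** -/
theorem b1_JK_inv_V1 (hA : A.LiesOverPrime q) (hB : BaseFacts q A K)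
    (hdvr : IsDiscreteValuationRing (OK A K)) {π : OK A K} (hπ : Irreducible π)
    (x : FK (M * q) K) (hx : x ∈ chart (M * q) A K (JK M q hq hqM K)⁻¹) :
    ∃ y ∈ chart M A K (jK M K)⁻¹, ∃ v ∈ GaussV.V1 (M * q) A K hdvr,
      x - alphaK M q K y = algebraMap (OK A K) (FK (M * q) K) π * v :=
  branch_JK_inv_V1 M q hq hqM K hA hB hdvr hπ (ResDeg.hf1 M q hq hqM hA hB) x hx

end Fermat.Agent.S34.BranchB
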