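import Mathlib

/-!
# S34, ABSTRACT block: vocabulary and exact leaf statements (Mathlib only, no proofs)

Architect file (helper41) of the abstract (commutative algebra) block of the proof of `(U_q)`.
It fixes ONE vocabulary and the exact `Prop`s of the leaves; every leaf file proves the `Prop`
stated here (under a fresh name in its own namespace).

Picture: `O` a discrete valuation ring with uniformizer `π`; `R` a chart (noetherian integrally
closed domain, an `O`-algebra) with fraction field `E`; `V 0`, `V 1` the valuation rings of the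
two components of the special fibre (`R ⊆ V i`, uniformizer `π`), `P i = R ∩ π (V i)` the two
vertical primes, `π R = P 0 ∩ P 1`; `n` a closed point of the special fibre of `R`; `𝔮` a
"horizontal" prime (`π ∉ 𝔮`).

* `PrincAt 𝔮`      : `𝔮 R_𝔮` is principal and nonzero (for a prime `𝔮`: `R_𝔮` is a DVR);
* `RegAt 𝔮 x`, `UnitAt 𝔮 x` : `x ∈ R_𝔮`, `x ∈ R_𝔮ˣ` (for `x` in the fraction field);
* `Cut ϖ n 𝔮 e`    : `e ∈ R` is a local equation of `𝔮` near `n` up to vertical components;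
* `secondDiff τ τ' f = τ'τf · f / (τf · τ'f)`.

Leaves: [N1] `NodeLEStatement`, [N2a] `NodeCoordsStatement`, [N2b] `SmoothCutStatement`,
[N2c] `CutAtStatement`, [N2t] `TransStatement`, [N3] `KrullUnitStatement`, `PrincMinStatement`,
`PrincOrdStatement`, `DvrAtStatement`, [N4] `HwStatement`, `LocAStatement`, `LocAdapterStatement`.
-/

set_option autoImplicit false

namespace Fermat.Agent.S34.LocPlan

/-! ### Vocabulary -/

section Vocab

variable {R : Type*} [CommRing R]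

/-- `𝔮 R_𝔮` is principal and nonzero: there is `t ∈ 𝔮` generating `𝔮` locally at `𝔮`. -/
def PrincAt (𝔮 : Ideal R) : Prop :=
  𝔮 ≠ ⊥ ∧ ∃ t ∈ 𝔮, ∀ y ∈ 𝔮, ∃ s : R, s ∉ 𝔮 ∧ ∃ c : R, s * y = c * t

/-- `e ∈ 𝔮` is a *cut function* of the prime `𝔮` at `n` (relative to `ϖ`): it generates `𝔮`
locally at `𝔮`, and every prime `𝔮' ≤ n` containing `e` but not `ϖ` contains `𝔮`. -/
def Cut (ϖ : R) (n 𝔮 : Ideal R) (e : R) : Prop :=
  e ∈ 𝔮 ∧ (∀ 𝔮' : Ideal R, 𝔮'.IsPrime → 𝔮' ≤ n → e ∈ 𝔮' → ϖ ∉ 𝔮' → 𝔮 ≤ 𝔮') ∧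
    ∀ y ∈ 𝔮, ∃ s : R, s ∉ 𝔮 ∧ ∃ c : R, s * y = c * e

variable {E : Type*} [Field E] [Algebra R E]

/-- `x ∈ R_𝔮`. -/
def RegAt (𝔮 : Ideal R) (x : E) : Prop :=
  ∃ a s : R, s ∉ 𝔮 ∧ x * algebraMap R E s = algebraMap R E a

/-- `x ∈ R_𝔮ˣ`. -/
def UnitAt (𝔮 : Ideal R) (x : E) : Prop :=
  ∃ a s : R, a ∉ 𝔮 ∧ s ∉ 𝔮 ∧ x * algebraMap R E s = algebraMap R E a

end Vocab

/-- The second difference `τ'τf · f / (τf · τ'f)`. -/
def secondDiff {E : Type*} [Field E] (τ τ' : E ≃+* E) (f : E) : E :=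
  τ' (τ f) * f / (τ f * τ' f)

section Hyp

variable {O : Type*} [CommRing O] {R : Type*} [CommRing R] [Algebra O R]
  {E : Type*} [Field E] [Algebra R E]

/-- Chart hypotheses: the two component valuation rings `V i ⊇ R` with uniformizer `π`, the
vertical primes `P i = R ∩ π (V i)`, and the reduced special fibre `R ∩ π V 0 ∩ π V 1 = π R`. -/
structure ChartHyp (π : O) (V : Fin 2 → ValuationSubring E) (P : Fin 2 → Ideal R) : Prop where
  /-- `R ⊆ V i` -/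
  le : ∀ (i : Fin 2) (r : R), algebraMap R E r ∈ V i
  /-- `π` is not a unit of `V i` -/
  pi_not : ∀ i : Fin 2, (algebraMap R E (algebraMap O R π))⁻¹ ∉ V i
  /-- `V i` is discrete with uniformizer `π`: every nonzero `x` is `π ^ k * unit` -/
  disc : ∀ (i : Fin 2) (x : E), x ≠ 0 →
    ∃ k : ℤ, ∃ u ∈ V i, u⁻¹ ∈ V i ∧ x = algebraMap R E (algebraMap O R π) ^ k * u
  /-- `P i = R ∩ π (V i)` -/
  mem_P : ∀ (i : Fin 2) (r : R),
    r ∈ P i ↔ ∃ y ∈ V i, algebraMap R E r = algebraMap R E (algebraMap O R π) * y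
  /-- reduced special fibre: `P 0 ∩ P 1 = π R` -/
  red : ∀ r : R, (∀ i : Fin 2, r ∈ P i) → ∃ r' : R, r = algebraMap O R π * r'

/-- Hypotheses on an automorphism `σ` of `E` ("element of the inertia group"): it stabilises `R`,
acts trivially on `V i / π`, and multiplies `π` by a unit. -/
structure TauHyp (π : O) (V : Fin 2 → ValuationSubring E) (σ : E ≃+* E) : Prop where
  map_R : ∀ r : R, ∃ r' : R, σ (algebraMap R E r) = algebraMap R E r'
  symm_R : ∀ r : R, ∃ r' : R, σ.symm (algebraMap R E r) = algebraMap R E r'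
  /-- `σ x ≡ x` modulo `π (V i)` for `x ∈ V i` -/
  triv : ∀ (i : Fin 2), ∀ x ∈ V i,
    ∃ y ∈ V i, σ x - x = algebraMap R E (algebraMap O R π) * y
  /-- `σ π = π * unit` -/
  pi : ∀ i : Fin 2, ∃ u ∈ V i, u⁻¹ ∈ V i ∧
    σ (algebraMap R E (algebraMap O R π)) = algebraMap R E (algebraMap O R π) * u

end Hyp

/-! ### [N1]–[N2] the node block -/

/-- **[N1] NodeLE** (local ring; owner helper41, `S34/NodeLE.lean`): cut function of an
`O`-rational horizontal prime at a crossing point with node coordinates `u`, `w`. -/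
def NodeLEStatement : Prop :=
  ∀ (O : Type) [CommRing O] [IsDomain O] [IsDiscreteValuationRing O]
    (R : Type) [CommRing R] [IsDomain R] [IsNoetherianRing R] [IsLocalRing R] [Algebra O R]
    (π : O) (u w : R) (𝔮 : Ideal R), Irreducible π → 𝔮.IsPrime →
    IsLocalRing.maximalIdeal R = Ideal.span {algebraMap O R π, u, w} →
    algebraMap O R π ∣ u * w →
    (∀ a b : R, algebraMap O R π ∣ a * u + b * w →
      a ∈ Ideal.span {algebraMap O R π, w} ∧ b ∈ Ideal.span {algebraMap O R π, u}) →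
    algebraMap O R π ∉ 𝔮 →
    (∀ x : R, ∃ c : O, x - algebraMap O R c ∈ 𝔮) →
    PrincAt 𝔮 →
    ∃ e : R, Cut (algebraMap O R π) (IsLocalRing.maximalIdeal R) 𝔮 e

/-- **[N2a] NodeCoords** (local ring): node coordinates from two transversal regular branches. -/
def NodeCoordsStatement : Prop :=
  ∀ (R : Type) [CommRing R] [IsLocalRing R] (ϖ : R) (𝔭₁ 𝔭₂ : Ideal R), 𝔭₁.IsPrime → 𝔭₂.IsPrime →
    𝔭₁ ⊓ 𝔭₂ = Ideal.span {ϖ} → 𝔭₁ ⊔ 𝔭₂ = IsLocalRing.maximalIdeal R →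
    𝔭₁ ≠ IsLocalRing.maximalIdeal R → 𝔭₂ ≠ IsLocalRing.maximalIdeal R →
    (∃ t : R, IsLocalRing.maximalIdeal R = 𝔭₁ ⊔ Ideal.span {t}) →
    (∃ t : R, IsLocalRing.maximalIdeal R = 𝔭₂ ⊔ Ideal.span {t}) →
    ∃ u w : R, IsLocalRing.maximalIdeal R = Ideal.span {ϖ, u, w} ∧ ϖ ∣ u * w ∧
      ∀ a b : R, ϖ ∣ a * u + b * w → a ∈ Ideal.span {ϖ, w} ∧ b ∈ Ideal.span {ϖ, u}

/-- **[N2b] SmoothCut** (local ring): at a point with `n = (π, t)` every `O`-rational horizontal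
prime is principal (`𝔮 = (t - t(P))`, Nakayama). -/
def SmoothCutStatement : Prop :=
  ∀ (O : Type) [CommRing O] [IsDomain O] [IsDiscreteValuationRing O]
    (R : Type) [CommRing R] [IsDomain R] [IsNoetherianRing R] [IsLocalRing R] [Algebra O R]
    (π : O) (t : R) (𝔮 : Ideal R), Irreducible π → 𝔮.IsPrime →
    IsLocalRing.maximalIdeal R = Ideal.span {algebraMap O R π, t} →
    algebraMap O R π ∉ 𝔮 →
    (∀ x : R, ∃ c : O, x - algebraMap O R c ∈ 𝔮) →
    ∃ e : R, Cut (algebraMap O R π) (IsLocalRing.maximalIdeal R) 𝔮 e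

/-- **[N2t] Trans** (chart level): transversality of the two branches at `n` from a witness `a`
which generates `n` modulo `𝔭₁` locally and lies in `n² + 𝔭₂` locally (Nakayama). -/
def TransStatement : Prop :=
  ∀ (R : Type) [CommRing R] [IsNoetherianRing R] (𝔭₁ 𝔭₂ n : Ideal R) (a : R), n.IsMaximal →
    𝔭₁ ≤ n → 𝔭₂ ≤ n → a ∈ n →
    (∀ x ∈ n, ∃ s : R, s ∉ n ∧ ∃ c : R, s * x - c * a ∈ 𝔭₁) →
    (∃ s : R, s ∉ n ∧ s * a ∈ n * n ⊔ 𝔭₂) →
    ∀ x ∈ n, ∃ s : R, s ∉ n ∧ s * x ∈ 𝔭₁ ⊔ 𝔭₂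

/-- **[N2c] CutAt** (chart level; = [N1] + [N2a] + [N2b] transported along
`R → Localization.AtPrime n`): at a closed point `n` of a chart whose special fibre is
`𝔭₁ ∩ 𝔭₂ = π R` with regular one-dimensional branches, transversal where they cross, every
`O`-rational horizontal prime `𝔮 ≤ n` with `PrincAt 𝔮` has a cut function. -/
def CutAtStatement : Prop :=
  ∀ (O : Type) [CommRing O] [IsDomain O] [IsDiscreteValuationRing O]
    (R : Type) [CommRing R] [IsDomain R] [IsNoetherianRing R] [Algebra O R]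
    (π : O) (𝔭₁ 𝔭₂ n 𝔮 : Ideal R), Irreducible π → n.IsMaximal → 𝔭₁.IsPrime → 𝔭₂.IsPrime →
    𝔮.IsPrime → algebraMap O R π ∈ n →
    𝔭₁ ⊓ 𝔭₂ = Ideal.span {algebraMap O R π} →
    (𝔭₁ ≤ n → (∃ x ∈ n, x ∉ 𝔭₁) ∧
      ∃ t ∈ n, ∀ x ∈ n, ∃ s : R, s ∉ n ∧ ∃ c : R, s * x - c * t ∈ 𝔭₁) →
    (𝔭₂ ≤ n → (∃ x ∈ n, x ∉ 𝔭₂) ∧
      ∃ t ∈ n, ∀ x ∈ n, ∃ s : R, s ∉ n ∧ ∃ c : R, s * x - c * t ∈ 𝔭₂) →
    (𝔭₁ ≤ n → 𝔭₂ ≤ n → ∀ x ∈ n, ∃ s : R, s ∉ n ∧ s * x ∈ 𝔭₁ ⊔ 𝔭₂) →
    𝔮 ≤ n → algebraMap O R π ∉ 𝔮 →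
    (∀ x : R, ∃ c : O, x - algebraMap O R c ∈ 𝔮) → PrincAt 𝔮 →
    ∃ e : R, Cut (algebraMap O R π) n 𝔮 e

/-! ### [N3] Krull-domain facts -/

/-- **[N3] KrullUnit**: in a noetherian integrally closed domain, an element of the fraction
field which is a unit at every prime `𝔮 ≤ n` with `PrincAt 𝔮` is a unit at `n`. -/
def KrullUnitStatement : Prop :=
  ∀ (R : Type) [CommRing R] [IsDomain R] [IsNoetherianRing R] [IsIntegrallyClosed R]
    (E : Type) [Field E] [Algebra R E] [IsFractionRing R E] (n : Ideal R) (x : E), n.IsPrime →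
    x ≠ 0 → (∀ 𝔮 : Ideal R, 𝔮.IsPrime → 𝔮 ≤ n → PrincAt 𝔮 → UnitAt 𝔮 x) → UnitAt n x

/-- **[N3] PrincMin**: a prime with `PrincAt` is minimal among the nonzero primes. -/
def PrincMinStatement : Prop :=
  ∀ (R : Type) [CommRing R] [IsDomain R] [IsNoetherianRing R] (𝔮' 𝔮 : Ideal R),
    𝔮'.IsPrime → 𝔮.IsPrime → PrincAt 𝔮 → 𝔮' ≤ 𝔮 → 𝔮' ≠ ⊥ → 𝔮' = 𝔮

/-- **[N3] PrincOrd**: at a prime `𝔮` with local generator `t`, every nonzero element of the
fraction field is a unit at `𝔮` times a power of `t`. -/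
def PrincOrdStatement : Prop :=
  ∀ (R : Type) [CommRing R] [IsDomain R] [IsNoetherianRing R]
    (E : Type) [Field E] [Algebra R E] [IsFractionRing R E] (𝔮 : Ideal R) (t : R), 𝔮.IsPrime →
    𝔮 ≠ ⊥ → t ∈ 𝔮 → (∀ y ∈ 𝔮, ∃ s : R, s ∉ 𝔮 ∧ ∃ c : R, s * y = c * t) →
    ∀ x : E, x ≠ 0 → ∃ k : ℤ, UnitAt 𝔮 (x * algebraMap R E t ^ k)

/-- **[N3] DvrAt** (bridge to `ValuationSubring`, for the modular side): `R_𝔮` is a discrete
valuation subring of the fraction field. -/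
def DvrAtStatement : Prop :=
  ∀ (R : Type) [CommRing R] [IsDomain R] [IsNoetherianRing R]
    (E : Type) [Field E] [Algebra R E] [IsFractionRing R E] (𝔮 : Ideal R), 𝔮.IsPrime →
    PrincAt 𝔮 →
    ∃ W : ValuationSubring E, IsDiscreteValuationRing W ∧ ∀ x : E, x ∈ W ↔ RegAt 𝔮 x

/-! ### [N4] the local input of the Čech block -/

/-- **[N4] Hw**: the second difference is `≡ 1` modulo `π` at both component valuations. -/
def HwStatement : Prop :=
  ∀ (O : Type) [CommRing O] (R : Type) [CommRing R] [Algebra O R]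
    (E : Type) [Field E] [Algebra R E]
    (π : O) (V : Fin 2 → ValuationSubring E) (P : Fin 2 → Ideal R) (τ τ' : E ≃+* E) (f : E),
    f ≠ 0 → ChartHyp π V P → TauHyp (R := R) π V τ → TauHyp (R := R) π V τ' →
    ∀ i : Fin 2, ∃ z ∈ V i,
      secondDiff τ τ' f - 1 = algebraMap R E (algebraMap O R π) * z

/-- **[N4] LocA**: at a closed point `n` of the special fibre of the chart `R`, if at every
horizontal prime `𝔮 ≤ n` with `PrincAt 𝔮` either `f` is a unit, or `f` is a unit times an `m`-th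
power and `𝔮` has a cut function, then there is `a ≡ 1` modulo `π (V i)` (both `i`) with
`secondDiff τ τ' f * a ^ m ∈ 1 + π R_n`. -/
def LocAStatement : Prop :=
  ∀ (O : Type) [CommRing O] [IsDomain O] [IsDiscreteValuationRing O]
    (R : Type) [CommRing R] [IsDomain R] [IsNoetherianRing R] [IsIntegrallyClosed R] [Algebra O R]
    (E : Type) [Field E] [Algebra R E] [IsFractionRing R E]
    (π : O) (V : Fin 2 → ValuationSubring E) (P : Fin 2 → Ideal R) (τ τ' : E ≃+* E) (f : E)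
    (m : ℕ) (n : Ideal R),
    Irreducible π → n.IsMaximal → algebraMap O R π ∈ n → f ≠ 0 →
    ChartHyp π V P → TauHyp (R := R) π V τ → TauHyp (R := R) π V τ' →
    (∀ 𝔮 : Ideal R, 𝔮.IsPrime → 𝔮 ≤ n → algebraMap O R π ∉ 𝔮 → PrincAt 𝔮 →
      UnitAt 𝔮 f ∨
        ((∃ x : E, x ≠ 0 ∧ UnitAt 𝔮 (f * x ^ m)) ∧ ∃ e : R, Cut (algebraMap O R π) n 𝔮 e)) →
    ∃ a : E, (∀ i : Fin 2, ∃ v ∈ V i, a - 1 = algebraMap R E (algebraMap O R π) * v) ∧
      ∃ s : R, s ∉ n ∧ ∃ r : R,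
        algebraMap R E s * (secondDiff τ τ' f * a ^ m - 1) =
          algebraMap R E (algebraMap O R π) * algebraMap R E r

/-- **[N4] LocAdapter**: the conclusion of `LocAStatement` gives the `loc0`/`locInf` field of
`Cech2Plan.Setting` (`g := s * a`, `r := s`): `w * g ^ m ∈ R` and `g ≡ s` modulo `π V`. -/
def LocAdapterStatement : Prop :=
  ∀ (R : Type) [CommRing R] (E : Type) [Field E] [Algebra R E]
    (ϖ : R) (V : Fin 2 → ValuationSubring E) (w a : E) (m : ℕ) (s r : R), 0 < m →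
    (∀ (i : Fin 2) (x : R), algebraMap R E x ∈ V i) →
    (∀ i : Fin 2, ∃ v ∈ V i, a - 1 = algebraMap R E ϖ * v) →
    algebraMap R E s * (w * a ^ m - 1) = algebraMap R E ϖ * algebraMap R E r →
    (∃ x : R, algebraMap R E x = w * (algebraMap R E s * a) ^ m) ∧
      ∀ i : Fin 2, ∃ z ∈ V i, algebraMap R E s * a - algebraMap R E s = algebraMap R E ϖ * z

end Fermat.Agent.S34.LocPlan
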