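/-
S34 — ChartHypInst.lean (helper93).  [MODULAR] instantiation of the abstract chart hypotheses.

`LocPlan.ChartHyp` and `LocPlan.TauHyp` (helper41's abstract block) for the TYPE of an arbitrary
`O`-subalgebra `R` of `F_K = FK N K` contained in the two Gauss valuation rings
`V1`, `V2 = w⁻¹ V1` of `S34/GaussV.lean`:

* `Vfam w hdvr = ![V1, V2 w]`, `Pfam w hdvr π R i = R ∩ π (V i)` (the two vertical primes),
  `rho1`, `rho2` (the two reductions `R → k((q))`), `Pfam … i = ker rho_i`, `isPrime_Pfam`;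
* `chartHyp`  : `ChartHyp π (Vfam w hdvr) (Pfam w hdvr π R)` from the reducedness statement
                `R ∩ π V12 = π R` (the `desc0` / `descInf` shape of `Cech2Plan.Setting`);
* `tauHyp`    : `TauHyp π (Vfam w hdvr) σ` for a ring automorphism `σ` of `F_K` which stabilises
                `R`, preserves Gauss reduction (together with its inverse) and commutes with `w`.

The Atkin–Lehner swap `w`, the inertia action `σ` and the reducedness enter as hypotheses.
-/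
import Mathlib
import Fermat.Agent.S34.GaussV
import Fermat.Agent.S34.LocPlan

set_option autoImplicit false

namespace Fermat.Agent.S34.ChartHypInst

open HahnSeries Fermat.Agent.S18.Arith Fermat.Agent.S34.GaussV Fermat.Agent.S34.LocPlan

noncomputable section

variable {N : ℕ} [NeZero N] {A : ValuationSubring Qb} {K : IntermediateField ℚ Qb}

/-! ### The two valuation rings as a family -/

/-- The family `![V1, V2 w]` of the two Gauss valuation rings. -/
def Vfam (w : FK N K ≃+* FK N K) (hdvr : IsDiscreteValuationRing (OK A K)) :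
    Fin 2 → ValuationSubring (FK N K) :=
  ![V1 N A K hdvr, V2 w hdvr]

@[simp] theorem Vfam_zero (w : FK N K ≃+* FK N K) (hdvr : IsDiscreteValuationRing (OK A K)) :
    Vfam w hdvr 0 = V1 N A K hdvr := rfl

@[simp] theorem Vfam_one (w : FK N K ≃+* FK N K) (hdvr : IsDiscreteValuationRing (OK A K)) :
    Vfam w hdvr 1 = V2 w hdvr := rfl

/-- Bridge to the semilocal ring `V12` of `GaussV`. -/
theorem vSub_eq (w : FK N K ≃+* FK N K) (hdvr : IsDiscreteValuationRing (OK A K)) :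
    (Vfam w hdvr 0).toSubring ⊓ (Vfam w hdvr 1).toSubring = V12 w hdvr := rfl

theorem mem_Vfam_of_mem_V12 (w : FK N K ≃+* FK N K) (hdvr : IsDiscreteValuationRing (OK A K))
    {x : FK N K} (hx : x ∈ V12 w hdvr) (i : Fin 2) : x ∈ Vfam w hdvr i := by
  fin_cases i
  · exact hx.1
  · exact hx.2

theorem mem_V12_of_forall (w : FK N K ≃+* FK N K) (hdvr : IsDiscreteValuationRing (OK A K))
    {x : FK N K} (hx : ∀ i : Fin 2, x ∈ Vfam w hdvr i) : x ∈ V12 w hdvr :=
  ⟨hx 0, hx 1⟩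

/-! ### The vertical primes -/

/-- The vertical ideals `P i = R ∩ π (V i)` of a subalgebra `R` of `F_K` (stated so that no
hypothesis is needed to make it an ideal; see `mem_Pfam_iff`). -/
def Pfam (w : FK N K ≃+* FK N K) (hdvr : IsDiscreteValuationRing (OK A K)) (π : OK A K)
    (R : Subalgebra (OK A K) (FK N K)) : Fin 2 → Ideal R := fun i =>
  { carrier := {r | ∀ r' : R, ∃ y ∈ Vfam w hdvr i,
      ((r' : FK N K) * (r : FK N K)) = algebraMap (OK A K) (FK N K) π * y}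
    add_mem' := by
      intro a b ha hb r'
      obtain ⟨y, hy, h1⟩ := ha r'
      obtain ⟨z, hz, h2⟩ := hb r'
      refine ⟨y + z, (Vfam w hdvr i).add_mem _ _ hy hz, ?_⟩
      show (r' : FK N K) * ((a : FK N K) + (b : FK N K)) = _
      rw [mul_add, h1, h2, mul_add]
    zero_mem' := by
      intro r'
      refine ⟨0, (Vfam w hdvr i).zero_mem, ?_⟩
      show (r' : FK N K) * (0 : FK N K) = _
      rw [mul_zero, mul_zero]
    smul_mem' := by
      intro c a ha r'
      obtain ⟨y, hy, h1⟩ := ha (r' * c)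
      refine ⟨y, hy, ?_⟩
      show (r' : FK N K) * ((c : FK N K) * (a : FK N K)) = _
      rw [← mul_assoc]
      exact h1 }

variable (w : FK N K ≃+* FK N K) (hdvr : IsDiscreteValuationRing (OK A K)) (π : OK A K)
  (R : Subalgebra (OK A K) (FK N K))

variable {R} in
/-- `P i = R ∩ π (V i)`. -/
theorem mem_Pfam_iff (hR : ∀ x ∈ R, x ∈ V12 w hdvr) (i : Fin 2) (r : R) :
    r ∈ Pfam w hdvr π R i ↔
      ∃ y ∈ Vfam w hdvr i, (r : FK N K) = algebraMap (OK A K) (FK N K) π * y := by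
  constructor
  · intro h
    obtain ⟨y, hy, h1⟩ := h 1
    refine ⟨y, hy, ?_⟩
    rw [← h1]
    show (r : FK N K) = ((1 : R) : FK N K) * (r : FK N K)
    rw [OneMemClass.coe_one, one_mul]
  · rintro ⟨y, hy, h1⟩ r'
    refine ⟨(r' : FK N K) * y,
      (Vfam w hdvr i).mul_mem _ _ (mem_Vfam_of_mem_V12 w hdvr (hR _ r'.2) i) hy, ?_⟩
    rw [h1]
    ring

/-! ### The two reductions of `R` -/

/-- The inclusion `R → V1`. -/
def incl1 (hR : ∀ x ∈ R, x ∈ V12 w hdvr) : R →+* V1 N A K hdvr where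
  toFun r := ⟨(r : FK N K), (hR _ r.2).1⟩
  map_one' := rfl
  map_mul' _ _ := rfl
  map_zero' := rfl
  map_add' _ _ := rfl

/-- The inclusion `R → V2`. -/
def incl2 (hR : ∀ x ∈ R, x ∈ V12 w hdvr) : R →+* V2 w hdvr where
  toFun r := ⟨(r : FK N K), (hR _ r.2).2⟩
  map_one' := rfl
  map_mul' _ _ := rfl
  map_zero' := rfl
  map_add' _ _ := rfl

/-- The first reduction `ρ₁ : R → k((q))` (Gauss reduction of the `q`-expansion). -/
def rho1 (hR : ∀ x ∈ R, x ∈ V12 w hdvr) : R →+* LaurentSeries (IsLocalRing.ResidueField A) :=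
  (red1 hdvr).comp (incl1 w hdvr R hR)

/-- The second reduction `ρ₂ : R → k((q))` (Gauss reduction of the `q`-expansion of `w x`). -/
def rho2 (hR : ∀ x ∈ R, x ∈ V12 w hdvr) : R →+* LaurentSeries (IsLocalRing.ResidueField A) :=
  (red2 w hdvr).comp (incl2 w hdvr R hR)

variable {R}

theorem rho1_apply (hR : ∀ x ∈ R, x ∈ V12 w hdvr) (r : R) :
    rho1 w hdvr R hR r = red1 hdvr (incl1 w hdvr R hR r) := rfl

theorem rho2_apply (hR : ∀ x ∈ R, x ∈ V12 w hdvr) (r : R) :
    rho2 w hdvr R hR r = red2 w hdvr (incl2 w hdvr R hR r) := rfl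

theorem gRel_rho1 (hR : ∀ x ∈ R, x ∈ V12 w hdvr) (r : R) :
    GRel A (((r : FK N K) : FK N K) : LaurentSeries Qb) (rho1 w hdvr R hR r) := by
  rw [rho1_apply]
  exact gRel_red1 hdvr (incl1 w hdvr R hR r)

theorem gRel_rho2 (hR : ∀ x ∈ R, x ∈ V12 w hdvr) (r : R) :
    GRel A ((w (r : FK N K) : FK N K) : LaurentSeries Qb) (rho2 w hdvr R hR r) := by
  rw [rho2_apply]
  exact gRel_red2 w hdvr (incl2 w hdvr R hR r)

/-- `ρ₁` is characterised by `GRel`. -/
theorem rho1_eq_of_gRel (hR : ∀ x ∈ R, x ∈ V12 w hdvr) (r : R)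
    {y : LaurentSeries (IsLocalRing.ResidueField A)}
    (h : GRel A (((r : FK N K) : FK N K) : LaurentSeries Qb) y) : rho1 w hdvr R hR r = y := by
  rw [rho1_apply]
  exact red1_eq_of_gRel hdvr (incl1 w hdvr R hR r) h

/-- `ρ₂` is characterised by `GRel`. -/
theorem rho2_eq_of_gRel (hR : ∀ x ∈ R, x ∈ V12 w hdvr) (r : R)
    {y : LaurentSeries (IsLocalRing.ResidueField A)}
    (h : GRel A ((w (r : FK N K) : FK N K) : LaurentSeries Qb) y) : rho2 w hdvr R hR r = y := by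
  rw [rho2_apply, red2_apply]
  exact red1_eq_of_gRel hdvr ⟨w ((incl2 w hdvr R hR r : V2 w hdvr) : FK N K), _⟩ h

theorem rho1_algebraMap (hR : ∀ x ∈ R, x ∈ V12 w hdvr) (c : OK A K) :
    rho1 w hdvr R hR (algebraMap (OK A K) R c) = C (resO A K c) := by
  rw [rho1_apply]
  exact red1_algebraMap hdvr c

variable {π}

/-- `P 0 = ker ρ₁`. -/
theorem mem_Pfam_zero_iff (hπ : Irreducible π) (hR : ∀ x ∈ R, x ∈ V12 w hdvr) (r : R) :
    r ∈ Pfam w hdvr π R 0 ↔ rho1 w hdvr R hR r = 0 := by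
  rw [mem_Pfam_iff w hdvr π hR 0 r]
  exact (red1_eq_zero_iff hdvr hπ (incl1 w hdvr R hR r)).symm

variable (hw : ∀ c : OK A K, w (algebraMap (OK A K) (FK N K) c) = algebraMap (OK A K) (FK N K) c)

include hw in
/-- `P 1 = ker ρ₂`. -/
theorem mem_Pfam_one_iff (hπ : Irreducible π) (hR : ∀ x ∈ R, x ∈ V12 w hdvr) (r : R) :
    r ∈ Pfam w hdvr π R 1 ↔ rho2 w hdvr R hR r = 0 := by
  rw [mem_Pfam_iff w hdvr π hR 1 r]
  exact (red2_eq_zero_iff w hw hdvr hπ (incl2 w hdvr R hR r)).symm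

theorem Pfam_zero_eq_ker (hπ : Irreducible π) (hR : ∀ x ∈ R, x ∈ V12 w hdvr) :
    Pfam w hdvr π R 0 = RingHom.ker (rho1 w hdvr R hR) := by
  ext r
  rw [RingHom.mem_ker]
  exact mem_Pfam_zero_iff w hdvr hπ hR r

include hw in
theorem Pfam_one_eq_ker (hπ : Irreducible π) (hR : ∀ x ∈ R, x ∈ V12 w hdvr) :
    Pfam w hdvr π R 1 = RingHom.ker (rho2 w hdvr R hR) := by
  ext r
  rw [RingHom.mem_ker]
  exact mem_Pfam_one_iff w hdvr hw hπ hR r

include hw in
/-- The vertical ideals are prime. -/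
theorem isPrime_Pfam (hπ : Irreducible π) (hR : ∀ x ∈ R, x ∈ V12 w hdvr) (i : Fin 2) :
    (Pfam w hdvr π R i).IsPrime := by
  fin_cases i
  · show (Pfam w hdvr π R 0).IsPrime
    rw [Pfam_zero_eq_ker w hdvr hπ hR]
    exact RingHom.ker_isPrime _
  · show (Pfam w hdvr π R 1).IsPrime
    rw [Pfam_one_eq_ker w hdvr hw hπ hR]
    exact RingHom.ker_isPrime _

/-- `π` lies in both vertical primes. -/
theorem pi_mem_Pfam (hR : ∀ x ∈ R, x ∈ V12 w hdvr) (i : Fin 2) :
    algebraMap (OK A K) R π ∈ Pfam w hdvr π R i := by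
  rw [mem_Pfam_iff w hdvr π hR i]
  exact ⟨1, (Vfam w hdvr i).one_mem, (mul_one _).symm⟩

/-! ### `ChartHyp` -/

include hw in
/-- **[ChartHypInst]** the abstract chart hypotheses of `LocPlan` for a subalgebra `R ⊆ V1 ∩ V2`
of `F_K` with `R ∩ π V12 = π R`. -/
theorem chartHyp (hπ : Irreducible π) (hR : ∀ x ∈ R, x ∈ V12 w hdvr)
    (hdesc : ∀ z ∈ V12 w hdvr, algebraMap (OK A K) (FK N K) π * z ∈ R → z ∈ R) :
    ChartHyp (R := R) (E := FK N K) π (Vfam w hdvr) (Pfam w hdvr π R) where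
  le := fun i r => mem_Vfam_of_mem_V12 w hdvr (hR _ r.2) i
  pi_not := by
    intro i hi
    have hπF := algebraMap_ne_zero N A K hπ.ne_zero
    have h1 : (1 : FK N K) = algebraMap (OK A K) (FK N K) π *
        (algebraMap (OK A K) (FK N K) π)⁻¹ := (mul_inv_cancel₀ hπF).symm
    fin_cases i
    · exact one_notV1 hdvr hπ.not_isUnit _ hi h1
    · exact one_notV2 w hw hdvr hπ.not_isUnit _ hi h1
  disc := by
    intro i x hx
    have hπF := algebraMap_ne_zero N A K hπ.ne_zero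
    have key : ∀ γ : ℤ, x = algebraMap (OK A K) (FK N K) π ^ γ *
        (x * algebraMap (OK A K) (FK N K) π ^ (-γ)) := by
      intro γ
      rw [mul_comm x, ← mul_assoc, ← zpow_add₀ hπF, add_neg_cancel, zpow_zero, one_mul]
    fin_cases i
    · obtain ⟨γ, h1, h2⟩ := exists_zpow_mul_unit hdvr hπ x hx
      exact ⟨γ, _, h1, h2, key γ⟩
    · obtain ⟨γ, h1, h2⟩ := exists_zpow_mul_unit₂ w hw hdvr hπ x hx
      exact ⟨γ, _, h1, h2, key γ⟩
  mem_P := fun i r => mem_Pfam_iff w hdvr π hR i r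
  red := by
    intro r hr
    have hπF := algebraMap_ne_zero N A K hπ.ne_zero
    obtain ⟨y, hy, h1⟩ := (mem_Pfam_iff w hdvr π hR 0 r).mp (hr 0)
    obtain ⟨z, hz, h2⟩ := (mem_Pfam_iff w hdvr π hR 1 r).mp (hr 1)
    have hyz : y = z := mul_left_cancel₀ hπF (h1.symm.trans h2)
    have hy12 : y ∈ V12 w hdvr := ⟨hy, hyz ▸ hz⟩
    have hyR : y ∈ R := hdesc y hy12 (h1 ▸ r.2)
    exact ⟨⟨y, hyR⟩, Subtype.ext h1⟩

/-! ### `TauHyp` -/

section Tau

variable (σ : FK N K ≃+* FK N K)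

/-- `σ` preserves `V1` and is trivial modulo `π V1` if it preserves Gauss reduction. -/
theorem triv1 (hπ : Irreducible π)
    (hσG : ∀ (x : FK N K) (y : LaurentSeries (IsLocalRing.ResidueField A)),
      GRel A ((x : FK N K) : LaurentSeries Qb) y →
      GRel A ((σ x : FK N K) : LaurentSeries Qb) y)
    (x : FK N K) (hx : x ∈ V1 N A K hdvr) :
    ∃ y ∈ V1 N A K hdvr, σ x - x = algebraMap (OK A K) (FK N K) π * y := by
  have hG := Fermat.Agent.S18.GRel.gRelStatement A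
  obtain ⟨y, hy⟩ := (mem_V1_iff hdvr).mp hx
  have h1 := hσG x y hy
  have hσx : σ x ∈ V1 N A K hdvr := ⟨y, h1⟩
  have hmem : σ x - x ∈ V1 N A K hdvr := sub_mem hσx hx
  have h0 : red1 hdvr ⟨σ x - x, hmem⟩ = 0 := by
    have e : (⟨σ x - x, hmem⟩ : V1 N A K hdvr) = ⟨σ x, hσx⟩ - ⟨x, hx⟩ := rfl
    rw [e, map_sub, red1_eq_of_gRel hdvr ⟨σ x, hσx⟩ h1, red1_eq_of_gRel hdvr ⟨x, hx⟩ hy, sub_self]
  exact (red1_eq_zero_iff hdvr hπ ⟨σ x - x, hmem⟩).mp h0

include hw in
/-- `σ π = π u` with `u` a unit of `V1` fixed by `w`. -/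
theorem exists_unit_pi (hπ : Irreducible π)
    (hσG : ∀ (x : FK N K) (y : LaurentSeries (IsLocalRing.ResidueField A)),
      GRel A ((x : FK N K) : LaurentSeries Qb) y →
      GRel A ((σ x : FK N K) : LaurentSeries Qb) y)
    (hσG' : ∀ (x : FK N K) (y : LaurentSeries (IsLocalRing.ResidueField A)),
      GRel A ((x : FK N K) : LaurentSeries Qb) y →
      GRel A ((σ.symm x : FK N K) : LaurentSeries Qb) y)
    (hcomm : ∀ x : FK N K, σ (w x) = w (σ x)) :
    ∃ u : FK N K, u ∈ V1 N A K hdvr ∧ u⁻¹ ∈ V1 N A K hdvr ∧ w u = u ∧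
      σ (algebraMap (OK A K) (FK N K) π) = algebraMap (OK A K) (FK N K) π * u := by
  have hπF := algebraMap_ne_zero N A K hπ.ne_zero
  set c := algebraMap (OK A K) (FK N K) π with hc
  have hcV : c ∈ V1 N A K hdvr := algebraMap_mem_V1 hdvr π
  -- `σ c = c + c y = c (1 + y)`
  obtain ⟨y, hy, h1⟩ := triv1 hdvr σ hπ hσG c hcV
  obtain ⟨y', hy', h1'⟩ := triv1 hdvr σ.symm hπ hσG' c hcV
  have e1 : σ c = c * (1 + y) := by rw [mul_add, mul_one, ← h1]; ring
  have e2 : σ.symm c = c * (1 + y') := by rw [mul_add, mul_one, ← h1']; ring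
  have hu : (1 + y) ∈ V1 N A K hdvr := (V1 N A K hdvr).add_mem _ _ (V1 N A K hdvr).one_mem hy
  have hu' : (1 + y') ∈ V1 N A K hdvr := (V1 N A K hdvr).add_mem _ _ (V1 N A K hdvr).one_mem hy'
  have hσu' : σ (1 + y') ∈ V1 N A K hdvr := by
    obtain ⟨z, hz⟩ := (mem_V1_iff hdvr).mp hu'
    exact ⟨z, hσG _ z hz⟩
  -- `c = σ (σ.symm c) = σ c * σ (1 + y') = c (1 + y) σ (1 + y')`
  have e3 : (1 + y) * σ (1 + y') = 1 := by
    have h3 : c = c * ((1 + y) * σ (1 + y')) := by
      calc c = σ (σ.symm c) := (σ.apply_symm_apply c).symm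
        _ = σ c * σ (1 + y') := by rw [e2, map_mul]
        _ = c * ((1 + y) * σ (1 + y')) := by rw [e1]; ring
    have h4 : c * ((1 + y) * σ (1 + y')) = c * 1 := by rw [mul_one]; exact h3.symm
    exact mul_left_cancel₀ hπF h4
  have hinv : (1 + y)⁻¹ = σ (1 + y') := (eq_inv_of_mul_eq_one_right e3).symm
  refine ⟨1 + y, hu, hinv ▸ hσu', ?_, e1⟩
  -- `w (1 + y) = 1 + y` since `w (σ c) = σ (w c) = σ c` and `w c = c`
  have h5 : w (σ c) = σ c := by rw [← hcomm, hc, hw]
  rw [e1, map_mul, hc, hw] at h5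
  exact mul_left_cancel₀ hπF h5

include hw in
/-- **[TauInst]** the abstract inertia hypotheses of `LocPlan` for a ring automorphism `σ` of
`F_K` which stabilises `R`, preserves Gauss reduction (with its inverse) and commutes with `w`. -/
theorem tauHyp (hπ : Irreducible π)
    (hσR : ∀ x ∈ R, σ x ∈ R) (hσR' : ∀ x ∈ R, σ.symm x ∈ R)
    (hσG : ∀ (x : FK N K) (y : LaurentSeries (IsLocalRing.ResidueField A)),
      GRel A ((x : FK N K) : LaurentSeries Qb) y →
      GRel A ((σ x : FK N K) : LaurentSeries Qb) y)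
    (hσG' : ∀ (x : FK N K) (y : LaurentSeries (IsLocalRing.ResidueField A)),
      GRel A ((x : FK N K) : LaurentSeries Qb) y →
      GRel A ((σ.symm x : FK N K) : LaurentSeries Qb) y)
    (hcomm : ∀ x : FK N K, σ (w x) = w (σ x)) :
    TauHyp (R := R) (E := FK N K) π (Vfam w hdvr) σ where
  map_R := fun r => ⟨⟨σ (r : FK N K), hσR _ r.2⟩, rfl⟩
  symm_R := fun r => ⟨⟨σ.symm (r : FK N K), hσR' _ r.2⟩, rfl⟩
  triv := by
    intro i x hx
    fin_cases i
    · exact triv1 hdvr σ hπ hσG x hx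
    · -- transport along `w`
      have hx' : w x ∈ V1 N A K hdvr := hx
      obtain ⟨y, hy, h1⟩ := triv1 hdvr σ hπ hσG (w x) hx'
      refine ⟨w.symm y, ?_, ?_⟩
      · show w (w.symm y) ∈ V1 N A K hdvr
        rw [RingEquiv.apply_symm_apply]; exact hy
      · show σ x - x = algebraMap (OK A K) (FK N K) π * w.symm y
        apply w.injective
        rw [map_sub, map_mul, hw, RingEquiv.apply_symm_apply, ← hcomm]
        exact h1
  pi := by
    intro i
    obtain ⟨u, hu, hu', hwu, h1⟩ := exists_unit_pi w hdvr hw σ hπ hσG hσG' hcomm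
    fin_cases i
    · exact ⟨u, hu, hu', h1⟩
    · refine ⟨u, ?_, ?_, h1⟩
      · show w u ∈ V1 N A K hdvr
        rw [hwu]; exact hu
      · show w u⁻¹ ∈ V1 N A K hdvr
        rw [map_inv₀, hwu]; exact hu'

end Tau

/-! ### The `V`-fields of `Cech2Plan.Setting` for `V := V12 w hdvr` (one-liners) -/

include hw in
/-- `R ∩ π V12 = π R` in the element form used by `ChartHyp.red`, from the `desc` shape. -/
theorem exists_eq_pi_mul_of_rho_eq_zero (hπ : Irreducible π) (hR : ∀ x ∈ R, x ∈ V12 w hdvr)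
    (hdesc : ∀ z ∈ V12 w hdvr, algebraMap (OK A K) (FK N K) π * z ∈ R → z ∈ R) (r : R)
    (h1 : rho1 w hdvr R hR r = 0) (h2 : rho2 w hdvr R hR r = 0) :
    ∃ r' : R, r = algebraMap (OK A K) R π * r' := by
  refine (chartHyp w hdvr hw hπ hR hdesc).red r ?_
  intro i
  fin_cases i
  · exact (mem_Pfam_zero_iff w hdvr hπ hR r).mpr h1
  · exact (mem_Pfam_one_iff w hdvr hw hπ hR r).mpr h2

end

end Fermat.Agent.S34.ChartHypInst
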