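import Mathlib
import Fermat.Agent.S34.Branch
import Fermat.Agent.S37.KC
import Fermat.Agent.S18.QExpFrac
import Fermat.Prelude.Thm_ModularCurve_coeffMap_qExpand

/-!
# S34, block [Model2], leaf [FrobTwist] : the modular input of transversality

Setting: `q ∤ M`, `A` a valuation ring of `ℚ̄` over `q`, `K` a base with `BaseFacts q A K`,
`k` the residue field of `A` (perfect of characteristic `q`), `R_M ∈ {R0 M q A K, Rinf M q A K}`.

Main statement (`exists_frob_root_R0`, `exists_frob_root_Rinf`): for every `x ∈ R_M` there is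
`z ∈ R_M` with `x(Q^q) ≡ z^q` modulo the Gauss maximal ideal:

  `GRel A (qExpand Qb q x - z ^ q) 0`.

Indeed `red (x(Q^q)) = (red x)(Q^q) = (φ⁻¹ (red x))^q` (`φ` the coefficientwise Frobenius of
`k((Q))`), and `φ⁻¹ (red x)` lies in `ρ_M(R_M)` by `Branch.mem_redRing_R0/Rinf` : it lies in
`F_k(M)` (which is generated over `k` by series with coefficients in the prime field), hence is
the reduction of an element of `F_K(M)`, and it is integral over `ρ_M(R_M)`.

Consequence (with the Atkin–Lehner swap `w`, `β = w ∘ α`): on the second branch the pull-back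
`α^* t` of a level-`M` function reduces to a `q`-th power of an element of the branch.

By-products: `gRel_qExpand` (Gauss reduction commutes with `Q ↦ Q^n`) and
`exists_gRel_of_mem_fullC` (every element of `F_k(M)` is the reduction of an element of
`F_K(M)`).
-/

set_option autoImplicit false

noncomputable section

namespace Fermat.Agent.S34.FrobTwist

open ModularCurve HahnSeries Fermat.Agent.S18 Fermat.Agent.S18.Arith Fermat.Agent.S18.ModelPlan
open Fermat.Agent.S34.Branch

/-! ### Gauss reduction and `Q ↦ Q^n` -/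

section QExpand

variable {A : ValuationSubring Qb}

/-- Gauss reduction commutes with the substitution `Q ↦ Q^n`. -/
theorem gRel_qExpand (n : ℕ) [NeZero n] {x : LaurentSeries Qb}
    {y : LaurentSeries (IsLocalRing.ResidueField A)} (h : GRel A x y) :
    GRel A (qExpand Qb n x) (qExpand (IsLocalRing.ResidueField A) n y) := by
  obtain ⟨u, p, hu, hx, hp⟩ := h
  refine ⟨qExpand A n u, qExpand A n p, ?_, ?_, ?_⟩
  · rw [coeffMap_qExpand, hu, map_one]
  · rw [coeffMap_qExpand, coeffMap_qExpand, ← map_mul, hx]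
  · rw [coeffMap_qExpand, hp]

end QExpand

/-! ### Every element of `F_k(M)` is a Gauss reduction -/

section Lift

variable (M : ℕ) [NeZero M] {A : ValuationSubring Qb} {K : IntermediateField ℚ Qb}

/-- The residue field of the Gauss valuation of `F_K(M)`, as a subfield of `k((Q))`. -/
def resField (A : ValuationSubring Qb) (K : IntermediateField ℚ Qb) :
    Subfield (LaurentSeries (IsLocalRing.ResidueField A)) where
  carrier := {y | ∃ x : FK M K, GRel A ((x : FK M K) : LaurentSeries Qb) y}
  mul_mem' := by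
    rintro a b ⟨x, hx⟩ ⟨x', hx'⟩
    exact ⟨x * x', (GRel.gRelStatement A).mul _ _ _ _ hx hx'⟩
  one_mem' := ⟨1, ModelRed.gRel_one (GRel.gRelStatement A)⟩
  add_mem' := by
    rintro a b ⟨x, hx⟩ ⟨x', hx'⟩
    exact ⟨x + x', (GRel.gRelStatement A).add _ _ _ _ hx hx'⟩
  zero_mem' := ⟨0, ModelRed.gRel_zero (GRel.gRelStatement A)⟩
  neg_mem' := by
    rintro a ⟨x, hx⟩
    exact ⟨-x, (GRel.gRelStatement A).neg _ _ hx⟩
  inv_mem' := by
    rintro a ⟨x, hx⟩
    by_cases ha : a = 0
    · rw [ha, inv_zero]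
      exact ⟨0, ModelRed.gRel_zero (GRel.gRelStatement A)⟩
    · exact ⟨x⁻¹, (GRel.gRelStatement A).inv _ _ hx ha⟩

omit [NeZero M] in
/-- Every element of `F_k(M)` is the Gauss reduction of an element of `F_K(M)` (the constants
lift because `O → k` is onto; the generators `j(Q^d)` have integral `q`-expansions). -/
theorem exists_gRel_of_mem_fullC
    (hres : ∀ a : A, ∃ (x : K) (hx : (x : Qb) ∈ A),
      IsLocalRing.residue A a = IsLocalRing.residue A ⟨(x : Qb), hx⟩)
    {y : LaurentSeries (IsLocalRing.ResidueField A)}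
    (hy : y ∈ modularFunctionFieldFullC (IsLocalRing.ResidueField A) M) :
    ∃ x : FK M K, GRel A ((x : FK M K) : LaurentSeries Qb) y := by
  have hG := GRel.gRelStatement A
  have key : (modularFunctionFieldFullC (IsLocalRing.ResidueField A) M).toSubfield ≤
      resField M A K := by
    show Subfield.closure _ ≤ _
    rw [Subfield.closure_le]
    rintro y (⟨c, rfl⟩ | ⟨d, hd, hdM, rfl⟩)
    · obtain ⟨a, rfl⟩ := IsLocalRing.residue_surjective c
      obtain ⟨x, hx, hax⟩ := hres a
      refine ⟨algebraMap (OK A K) (FK M K) ⟨x, hx⟩, ?_⟩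
      have h := ModelRed.gRel_const K hG (⟨x, hx⟩ : OK A K)
      have e : (algebraMap (IsLocalRing.ResidueField A)
          (LaurentSeries (IsLocalRing.ResidueField A))) (IsLocalRing.residue A a) =
          (C (resO A K ⟨x, hx⟩) : LaurentSeries (IsLocalRing.ResidueField A)) := by
        rw [algebraMap_laurentSeries_eq_single, hax]
        rfl
      rw [e]
      exact h
    · have := hd
      let g : modularFunctionFieldFull M := ⟨qExpand ℚ d jq, jqModCd_mem_full ℚ M hdM⟩
      refine ⟨ratEmb M K g, ?_⟩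
      have e : ((ratEmb M K g : FK M K) : LaurentSeries Qb) = qExpand Qb d QExpDefs.jΩ := by
        show coeffEmb Qb (qExpand ℚ d jq) = qExpand Qb d (coeffEmb Qb jq)
        rw [coeffEmb, coeffMap_qExpand]
      rw [e]
      exact gRel_qExpand d (QExpDefs.gRel_jΩ hG)
  exact key hy

end Lift

/-! ### Transport of integrality along a coefficient automorphism -/

section Integral

variable (M : ℕ) {A : ValuationSubring Qb} {K : IntermediateField ℚ Qb}

/-- Let `R` be a subalgebra of `F_K(M)`, integral over `O[t]`, with reduction map `ρ`, and let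
`S` be a ring endomorphism of `k((Q))` mapping the reductions of the constants and of `t` into
the reduction ring `ρ(R)`.  Then `S (ρ x)` is integral over `ρ(R)` for every `x ∈ R`. -/
theorem isIntegral_map_red (R : Subalgebra (OK A K) (FK M K)) (t : FK M K) (ht : t ∈ R)
    (hint : ∀ x ∈ R, IsIntegral (Algebra.adjoin (OK A K) {t}) x)
    (ρ : R →+* LaurentSeries (IsLocalRing.ResidueField A))
    (hρ : ∀ x : R, GRel A ((x : FK M K) : LaurentSeries Qb) (ρ x))
    (S : LaurentSeries (IsLocalRing.ResidueField A) →+*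
      LaurentSeries (IsLocalRing.ResidueField A))
    (hSt : S (ρ ⟨t, ht⟩) ∈ redRing M A K R)
    (hSc : ∀ c : OK A K, S (C (resO A K c)) ∈ redRing M A K R) (x : R) :
    IsIntegral (redRing M A K R) (S (ρ x)) := by
  have hG := GRel.gRelStatement A
  have hBR : Algebra.adjoin (OK A K) {t} ≤ R :=
    Algebra.adjoin_le (Set.singleton_subset_iff.mpr ht)
  have hBS : ∀ z ∈ Algebra.adjoin (OK A K) {t}, ∃ y',
      GRel A ((z : FK M K) : LaurentSeries Qb) y' ∧ S y' ∈ redRing M A K R := by
    intro z hz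
    induction hz using Algebra.adjoin_induction with
    | mem z hz =>
      rw [Set.mem_singleton_iff] at hz
      rw [hz]
      exact ⟨_, hρ ⟨t, ht⟩, hSt⟩
    | algebraMap c => exact ⟨_, ModelRed.gRel_const K hG c, hSc c⟩
    | add a b _ _ ha hb =>
      obtain ⟨ya, h1, h2⟩ := ha
      obtain ⟨yb, h3, h4⟩ := hb
      exact ⟨ya + yb, hG.add _ _ _ _ h1 h3, by rw [map_add]; exact Subring.add_mem _ h2 h4⟩
    | mul a b _ _ ha hb =>
      obtain ⟨ya, h1, h2⟩ := ha
      obtain ⟨yb, h3, h4⟩ := hb
      exact ⟨ya * yb, hG.mul _ _ _ _ h1 h3, by rw [map_mul]; exact Subring.mul_mem _ h2 h4⟩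
  let f : Algebra.adjoin (OK A K) {t} →+* R := (Subalgebra.inclusion hBR).toRingHom
  have hcoef : ∀ b : Algebra.adjoin (OK A K) {t}, S (ρ (f b)) ∈ redRing M A K R := by
    intro b
    obtain ⟨y', h1', h2'⟩ := hBS b.1 b.2
    have e : ρ (f b) = y' := hG.unique _ _ _ (hρ (f b)) h1'
    rw [e]
    exact h2'
  obtain ⟨p, hp, hpx⟩ := hint x.1 x.2
  have h0 : Polynomial.eval₂ f x p = 0 := by
    apply Subtype.val_injective
    have h := Polynomial.hom_eval₂ p f R.val.toRingHom x
    exact h.trans hpx
  have h1 : Polynomial.eval₂ ((S.comp ρ).comp f) (S (ρ x)) p = 0 := by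
    have h := Polynomial.hom_eval₂ p f (S.comp ρ) x
    rw [h0, map_zero] at h
    exact h.symm
  let ψ : Algebra.adjoin (OK A K) {t} →+* redRing M A K R :=
    ((S.comp ρ).comp f).codRestrict _ (fun b => hcoef b)
  have hψ : (algebraMap (redRing M A K R) (LaurentSeries (IsLocalRing.ResidueField A))).comp ψ =
      (S.comp ρ).comp f := by
    ext b : 1
    rfl
  exact ⟨p.map ψ, hp.map ψ, by rw [Polynomial.eval₂_map, hψ]; exact h1⟩

end Integral

/-! ### The Frobenius twist -/

section Main

variable (M : ℕ) [NeZero M] (q : ℕ) [Fact q.Prime] {A : ValuationSubring Qb}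
  {K : IntermediateField ℚ Qb}

/-- **Frobenius twist, general chart.**  `R` is a chart of level `M` with `ChartFacts` whose
reduction ring contains the integral elements of the residue field (`hB1`), and the reduction of
its coordinate has coefficients fixed by every endomorphism of `k`.  Then for `x ∈ R` the series
`x(Q^q)` is congruent to a `q`-th power `z^q`, `z ∈ R`, modulo the Gauss maximal ideal. -/
theorem exists_frob_root_of (hA : A.LiesOverPrime q)
    (hres : ∀ a : A, ∃ (x : K) (hx : (x : Qb) ∈ A),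
      IsLocalRing.residue A a = IsLocalRing.residue A ⟨(x : Qb), hx⟩)
    (R : Subalgebra (OK A K) (FK M K)) (t : FK M K) (hC : ChartFacts M A K R t)
    (hB1 : ∀ y : LaurentSeries (IsLocalRing.ResidueField A),
      (∃ x' : FK M K, GRel A ((x' : FK M K) : LaurentSeries Qb) y) →
      IsIntegral (redRing M A K R) y → y ∈ redRing M A K R)
    (yt : LaurentSeries (IsLocalRing.ResidueField A))
    (hyt : GRel A ((t : FK M K) : LaurentSeries Qb) yt)
    (hσt : ∀ s : IsLocalRing.ResidueField A →+* IsLocalRing.ResidueField A, coeffMap s yt = yt)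
    (x : FK M K) (hx : x ∈ R) :
    ∃ z ∈ R, GRel A (qExpand Qb q ((x : FK M K) : LaurentSeries Qb) -
      ((z : FK M K) : LaurentSeries Qb) ^ q) 0 := by
  have hG := GRel.gRelStatement A
  have : CharP (IsLocalRing.ResidueField A) q := BaseRes.charP_residueField q A hA
  have : IsAlgClosed (IsLocalRing.ResidueField A) := BaseRes.isAlgClosed_residueField_Qb A
  have : PerfectRing (IsLocalRing.ResidueField A) q := PerfectField.toPerfectRing q
  obtain ⟨ρ, hρ, -, hFk⟩ := hC.red
  let σ : IsLocalRing.ResidueField A →+* IsLocalRing.ResidueField A :=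
    ((frobeniusEquiv (IsLocalRing.ResidueField A) q).symm :
      IsLocalRing.ResidueField A →+* IsLocalRing.ResidueField A)
  have hz1 : coeffMap σ (ρ ⟨x, hx⟩) ∈ modularFunctionFieldFullC (IsLocalRing.ResidueField A) M :=
    QExpFrac.coeffMap_mem_fullC σ M (hFk ⟨x, hx⟩)
  have hz2 := exists_gRel_of_mem_fullC (K := K) M hres hz1
  -- every constant of `k` lies in the reduction ring
  have hconst : ∀ c : IsLocalRing.ResidueField A,
      (C c : LaurentSeries (IsLocalRing.ResidueField A)) ∈ redRing M A K R := by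
    intro c
    obtain ⟨a, rfl⟩ := IsLocalRing.residue_surjective c
    obtain ⟨x₀, hx₀, hax⟩ := hres a
    have h := const_mem_redRing R (⟨x₀, hx₀⟩ : OK A K)
    have e : resO A K ⟨x₀, hx₀⟩ = IsLocalRing.residue A a := hax.symm
    rwa [e] at h
  have hz3 : IsIntegral (redRing M A K R) (coeffMap σ (ρ ⟨x, hx⟩)) := by
    refine isIntegral_map_red M R t hC.t_mem hC.integral ρ hρ (coeffMap σ) ?_ ?_ ⟨x, hx⟩
    · have e : ρ ⟨t, hC.t_mem⟩ = yt := hG.unique _ _ _ (hρ _) hyt
      rw [e, hσt σ]
      exact ⟨t, hC.t_mem, hyt⟩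
    · intro c
      have e : coeffMap σ (C (resO A K c) : LaurentSeries (IsLocalRing.ResidueField A)) =
          C (σ (resO A K c)) := coeffMap_single _ _ _
      rw [e]
      exact hconst _
  obtain ⟨z, hzR, hzG⟩ := hB1 _ hz2 hz3
  refine ⟨z, hzR, ?_⟩
  have h1 : GRel A (qExpand Qb q ((x : FK M K) : LaurentSeries Qb))
      (qExpand (IsLocalRing.ResidueField A) q (ρ ⟨x, hx⟩)) := gRel_qExpand q (hρ ⟨x, hx⟩)
  have h2 : qExpand (IsLocalRing.ResidueField A) q (ρ ⟨x, hx⟩) = coeffMap σ (ρ ⟨x, hx⟩) ^ q :=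
    Fermat.Agent.S37.KC.qExpand_eq_pow_frobeniusEquiv_symm q (ρ ⟨x, hx⟩)
  have h3 : GRel A (((z : FK M K) : LaurentSeries Qb) ^ q) (coeffMap σ (ρ ⟨x, hx⟩) ^ q) :=
    ModelRed.gRel_pow hG hzG q
  have h4 := hG.add _ _ _ _ h1 (hG.neg _ _ h3)
  rw [h2, add_neg_cancel, ← sub_eq_add_neg] at h4
  exact h4

/-- **Frobenius twist on `R0`** : for `x ∈ R0(M)` there is `z ∈ R0(M)` with
`x(Q^q) ≡ z^q` modulo the Gauss maximal ideal. -/
theorem exists_frob_root_R0 (hqM : ¬ q ∣ M) (hA : A.LiesOverPrime q) (hB : BaseFacts q A K)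
    (x : FK M K) (hx : x ∈ R0 M q A K) :
    ∃ z ∈ R0 M q A K, GRel A (qExpand Qb q ((x : FK M K) : LaurentSeries Qb) -
      ((z : FK M K) : LaurentSeries Qb) ^ q) 0 := by
  have hG := GRel.gRelStatement A
  have hM := ModelAll.modelStatement M q hqM A hA K hB
  exact exists_frob_root_of M q hA hB.res_surj (R0 M q A K) (jK M K) hM.c0
    (fun y hy hint => mem_redRing_R0 M q hqM hA hB hy hint)
    (jqModC (IsLocalRing.ResidueField A)) (QExpDefs.gRel_jΩ hG)
    (fun s => coeffMap_jqModC s) x hx

/-- **Frobenius twist on `Rinf`** : for `x ∈ Rinf(M)` there is `z ∈ Rinf(M)` with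
`x(Q^q) ≡ z^q` modulo the Gauss maximal ideal. -/
theorem exists_frob_root_Rinf (hqM : ¬ q ∣ M) (hA : A.LiesOverPrime q) (hB : BaseFacts q A K)
    (x : FK M K) (hx : x ∈ Rinf M q A K) :
    ∃ z ∈ Rinf M q A K, GRel A (qExpand Qb q ((x : FK M K) : LaurentSeries Qb) -
      ((z : FK M K) : LaurentSeries Qb) ^ q) 0 := by
  have hG := GRel.gRelStatement A
  have hM := ModelAll.modelStatement M q hqM A hA K hB
  have hjb : jqModC (IsLocalRing.ResidueField A) ≠ 0 := by
    intro h
    have h1 : QExpDefs.evbar A K Polynomial.X = 0 := by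
      rw [QExpDefs.evbar_apply, Polynomial.eval₂_X, h]
    have h2 := (QExpDefs.evbar_eq_zero_iff A K _).mp h1
    rw [Polynomial.map_X] at h2
    exact Polynomial.X_ne_zero h2
  have hjM : GRel A (((jK M K)⁻¹ : FK M K) : LaurentSeries Qb)
      (jqModC (IsLocalRing.ResidueField A))⁻¹ := hG.inv _ _ (QExpDefs.gRel_jΩ hG) hjb
  exact exists_frob_root_of M q hA hB.res_surj (Rinf M q A K) (jK M K)⁻¹ hM.cInf
    (fun y hy hint => mem_redRing_Rinf M q hqM hA hB hy hint)
    (jqModC (IsLocalRing.ResidueField A))⁻¹ hjM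
    (fun s => by rw [map_inv₀, coeffMap_jqModC]) x hx

end Main

end Fermat.Agent.S34.FrobTwist
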