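/-
S34 node block — leaf N3 `KrullUnit` (helper40; blueprint: board #2373 (IV)).  Mathlib-only.

A noetherian integrally closed domain is the intersection of its localisations at the primes `𝔮`
for which `R_𝔮` is a discrete valuation ring (its height-one primes):

* `exists_prime_dvr_of_not_dvd` : if `b ≠ 0` and `b ∤ a`, there is a prime `𝔭 ∋ b` with `R_𝔭` a DVR
  and `b ∤ s * a` for all `s ∉ 𝔭`  (`𝔭` is an associated prime of `R ⧸ bR` above `(bR : a)`; the
  maximal ideal of `R_𝔭` is principal by the determinant trick and normality);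
* `mem_range_of_forall_dvr` : an element of the fraction field that lies in `R_𝔮` for every such
  `𝔮` lies in `R`;
* `exists_unit_of_forall_dvr` : an element that is a unit at every such `𝔮` is a unit of `R`;
* `eq_bot_or_eq_of_le_of_dvr`, `ne_bot_of_dvr` : such a `𝔮` is a minimal nonzero prime.
-/
import Mathlib

set_option autoImplicit false

namespace Fermat.Agent.S34.KrullUnit

open IsLocalRing

variable {R : Type*} [CommRing R]

/-- The ideal quotient `(bR : c) = {r | b ∣ r * c}`. -/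
def quot (b c : R) : Ideal R where
  carrier := {r | b ∣ r * c}
  add_mem' := by
    intro x y (hx : b ∣ x * c) (hy : b ∣ y * c)
    show b ∣ (x + y) * c
    rw [add_mul]
    exact dvd_add hx hy
  zero_mem' := by
    show b ∣ 0 * c
    rw [zero_mul]
    exact dvd_zero b
  smul_mem' := by
    intro x y (hy : b ∣ y * c)
    show b ∣ (x * y) * c
    rw [mul_assoc]
    exact dvd_mul_of_dvd_right hy x

theorem mem_quot {b c r : R} : r ∈ quot b c ↔ b ∣ r * c := Iff.rfl

theorem self_mem_quot (b c : R) : b ∈ quot b c := dvd_mul_right b c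

theorem quot_le_quot_mul (b c x : R) : quot b c ≤ quot b (x * c) := by
  intro r hr
  rw [mem_quot] at hr ⊢
  rw [mul_left_comm]
  exact dvd_mul_of_dvd_right hr x


section Domain

variable [IsNoetherianRing R]

/-- A maximal proper ideal quotient `(bR : c)` above `(bR : a)`, together with its primality. -/
theorem exists_prime_quot {a b : R} (hab : ¬ b ∣ a) :
    ∃ c : R, ¬ b ∣ c ∧ quot b a ≤ quot b c ∧ (quot b c).IsPrime := by
  obtain ⟨P, ⟨c, hc, rfl, hle⟩, hmax⟩ :=
    set_has_maximal_iff_noetherian.mpr (inferInstance : IsNoetherian R R)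
      {I : Ideal R | ∃ c : R, ¬ b ∣ c ∧ I = quot b c ∧ quot b a ≤ I}
      ⟨quot b a, a, hab, rfl, le_rfl⟩
  refine ⟨c, hc, hle, ?_⟩
  rw [Ideal.isPrime_iff]
  refine ⟨?_, ?_⟩
  · intro htop
    have h1 : (1 : R) ∈ quot b c := htop ▸ Submodule.mem_top
    rw [mem_quot, one_mul] at h1
    exact hc h1
  · intro x y hxy
    by_contra hcon
    obtain ⟨hx, hy⟩ := not_or.mp hcon
    have hxc : ¬ b ∣ x * c := hx
    have hle' : quot b c ≤ quot b (x * c) := quot_le_quot_mul b c x
    have hmem : quot b (x * c) ∈ {I : Ideal R | ∃ c : R, ¬ b ∣ c ∧ I = quot b c ∧ quot b a ≤ I} :=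
      ⟨x * c, hxc, rfl, hle.trans hle'⟩
    have hnlt := hmax _ hmem
    have heq : quot b (x * c) ≤ quot b c := by
      by_contra hn
      exact hnlt (lt_of_le_not_ge hle' hn)
    apply hy
    apply heq
    rw [mem_quot]
    have : y * (x * c) = x * y * c := by ring
    rw [this]
    exact hxy

variable [IsDomain R] [IsIntegrallyClosed R]

/-- In a noetherian integrally closed domain, a prime of the form `(bR : c)` with `b ≠ 0`, `b ∤ c`
contains an element `r₀` and there is `t ∉ 𝔭` with `b * t = r₀ * c`. -/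
theorem exists_not_mem_of_prime_quot {b c : R} (hb : b ≠ 0) (hc : ¬ b ∣ c)
    (_hP : (quot b c).IsPrime) :
    ∃ r₀ ∈ quot b c, ∃ t : R, t ∉ quot b c ∧ b * t = r₀ * c := by
  by_contra hcon0
  have hcon : ∀ r₀ ∈ quot b c, ∀ t, t ∉ quot b c → b * t ≠ r₀ * c :=
    fun r₀ hr₀ t ht h => hcon0 ⟨r₀, hr₀, t, ht, h⟩
  let K := FractionRing R
  have hinj : Function.Injective (algebraMap R K) := IsFractionRing.injective R K
  have hbK : algebraMap R K b ≠ 0 := by
    intro h
    exact hb (hinj (by rw [h, map_zero]))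
  let z : K := algebraMap R K c / algebraMap R K b
  let N : Submodule R K := Submodule.map (Algebra.linearMap R K) (quot b c)
  have hN : N ≠ ⊥ := by
    intro h
    have h1 : algebraMap R K b ∈ N := ⟨b, self_mem_quot b c, rfl⟩
    rw [h, Submodule.mem_bot] at h1
    exact hbK h1
  have hNfg : N.FG := (IsNoetherian.noetherian (quot b c)).map _
  have hz : ∀ n ∈ N, z • n ∈ N := by
    rintro n ⟨r, hr, rfl⟩
    obtain ⟨d, hd⟩ := (mem_quot.mp hr)
    -- `hd : r * c = b * d`
    have hdP : d ∈ quot b c := by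
      by_contra hdn
      exact hcon r hr d hdn hd.symm
    refine ⟨d, hdP, ?_⟩
    change algebraMap R K d = z • algebraMap R K r
    rw [smul_eq_mul]
    change algebraMap R K d = algebraMap R K c / algebraMap R K b * algebraMap R K r
    rw [div_mul_eq_mul_div, eq_div_iff hbK, ← map_mul, ← map_mul]
    congr 1
    rw [mul_comm d b, ← hd, mul_comm]
  have hint : IsIntegral R z := isIntegral_of_smul_mem_submodule N hN hNfg z hz
  obtain ⟨y, hy⟩ := IsIntegrallyClosed.isIntegral_iff.mp hint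
  apply hc
  refine ⟨y, hinj ?_⟩
  rw [map_mul, hy]
  change algebraMap R K c = algebraMap R K b * (algebraMap R K c / algebraMap R K b)
  rw [mul_div_cancel₀ _ hbK]


/-- In a noetherian integrally closed domain, the localisation at a prime of the form `(bR : c)`
with `b ≠ 0`, `b ∤ c` is a discrete valuation ring. -/
theorem isDiscreteValuationRing_atPrime_quot {b c : R} (hb : b ≠ 0) (hc : ¬ b ∣ c)
    [hP : (quot b c).IsPrime] : IsDiscreteValuationRing (Localization.AtPrime (quot b c)) := by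
  obtain ⟨r₀, hr₀, t, ht, hbt⟩ := exists_not_mem_of_prime_quot hb hc hP
  let S := Localization.AtPrime (quot b c)
  have : IsNoetherianRing S :=
    IsLocalization.isNoetherianRing (quot b c).primeCompl S inferInstance
  have hinj : Function.Injective (algebraMap R S) :=
    IsLocalization.injective S (quot b c).primeCompl_le_nonZeroDivisors
  have hmax : maximalIdeal S = Ideal.map (algebraMap R S) (quot b c) :=
    (Localization.AtPrime.map_eq_maximalIdeal).symm
  have hnf : ¬ IsField S := by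
    rw [IsLocalRing.isField_iff_maximalIdeal_eq, hmax]
    intro h
    have h1 : algebraMap R S b ∈ Ideal.map (algebraMap R S) (quot b c) :=
      Ideal.mem_map_of_mem _ (self_mem_quot b c)
    rw [h, Ideal.mem_bot] at h1
    exact hb (hinj (by rw [h1, map_zero]))
  refine ((IsDiscreteValuationRing.TFAE S hnf).out 0 4).mpr ?_
  have htu : IsUnit (algebraMap R S t) :=
    IsLocalization.map_units S (⟨t, ht⟩ : (quot b c).primeCompl)
  refine ⟨⟨algebraMap R S r₀, ?_⟩⟩
  rw [hmax]
  apply le_antisymm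
  · rw [Ideal.map_le_iff_le_comap]
    intro r hr
    rw [Ideal.mem_comap, Ideal.submodule_span_eq, Ideal.mem_span_singleton]
    obtain ⟨d, hd⟩ := mem_quot.mp hr
    -- `hd : r * c = b * d`, `hbt : b * t = r₀ * c`
    have hrt : r * t = r₀ * d := by
      apply mul_left_cancel₀ hb
      calc b * (r * t) = r * (b * t) := by ring
        _ = r * (r₀ * c) := by rw [hbt]
        _ = r₀ * (r * c) := by ring
        _ = r₀ * (b * d) := by rw [hd]
        _ = b * (r₀ * d) := by ring
    obtain ⟨u, hu⟩ := htu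
    refine ⟨algebraMap R S d * ((u⁻¹ : Sˣ) : S), ?_⟩
    have h1 : algebraMap R S r * (u : S) = algebraMap R S r₀ * algebraMap R S d := by
      rw [hu, ← map_mul, ← map_mul, hrt]
    calc algebraMap R S r = algebraMap R S r * (u : S) * ((u⁻¹ : Sˣ) : S) := by
          rw [mul_assoc, Units.mul_inv, mul_one]
      _ = algebraMap R S r₀ * (algebraMap R S d * ((u⁻¹ : Sˣ) : S)) := by
          rw [h1, mul_assoc]
  · rw [Ideal.submodule_span_eq, Ideal.span_le, Set.singleton_subset_iff]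
    exact Ideal.mem_map_of_mem _ hr₀

/-- **(K0)** In a noetherian integrally closed domain, if `b ≠ 0` and `b ∤ a`, there is a prime
`𝔭 ∋ b` such that `R_𝔭` is a discrete valuation ring and `a / b ∉ R_𝔭`. -/
theorem exists_prime_dvr_of_not_dvd {a b : R} (hb : b ≠ 0) (hab : ¬ b ∣ a) :
    ∃ (𝔭 : Ideal R) (_ : 𝔭.IsPrime), b ∈ 𝔭 ∧
      IsDiscreteValuationRing (Localization.AtPrime 𝔭) ∧ ∀ s : R, s ∉ 𝔭 → ¬ b ∣ s * a := by
  obtain ⟨c, hc, hle, hP⟩ := exists_prime_quot hab
  exact ⟨quot b c, hP, self_mem_quot b c, isDiscreteValuationRing_atPrime_quot hb hc,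
    fun s hs hdvd => hs (hle (mem_quot.mpr hdvd))⟩


section FractionField

variable {K : Type*} [Field K] [Algebra R K] [IsFractionRing R K]

/-- **(K1)** A noetherian integrally closed domain is the intersection of its discrete valuation
localisations: an element of the fraction field that lies in `R_𝔮` for every prime `𝔮` with `R_𝔮`
a discrete valuation ring lies in `R`. -/
theorem mem_range_of_forall_dvr (x : K)
    (h : ∀ (𝔮 : Ideal R) [𝔮.IsPrime], IsDiscreteValuationRing (Localization.AtPrime 𝔮) →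
      ∃ a s : R, s ∉ 𝔮 ∧ x * algebraMap R K s = algebraMap R K a) :
    x ∈ (algebraMap R K).range := by
  have hinj : Function.Injective (algebraMap R K) := IsFractionRing.injective R K
  obtain ⟨a, b, hb, rfl⟩ := IsFractionRing.div_surjective (A := R) x
  have hb0 : b ≠ 0 := nonZeroDivisors.ne_zero hb
  have hbK : algebraMap R K b ≠ 0 := fun h0 => hb0 (hinj (by rw [h0, map_zero]))
  by_cases hdvd : b ∣ a
  · obtain ⟨d, rfl⟩ := hdvd
    refine ⟨d, ?_⟩
    rw [map_mul, mul_div_cancel_left₀ _ hbK]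
  · exfalso
    obtain ⟨𝔭, hP, -, hdvr, hno⟩ := exists_prime_dvr_of_not_dvd hb0 hdvd
    obtain ⟨a', s, hs, hxs⟩ := @h 𝔭 hP hdvr
    apply hno s hs
    refine ⟨a', hinj ?_⟩
    rw [map_mul, map_mul, ← hxs]
    field_simp

/-- **(K2)** An element of the fraction field of a noetherian integrally closed domain `R` that is
a unit at every prime `𝔮` with `R_𝔮` a discrete valuation ring is (the image of) a unit of `R`. -/
theorem exists_unit_of_forall_dvr (x : K) (hx : x ≠ 0)
    (h : ∀ (𝔮 : Ideal R) [𝔮.IsPrime], IsDiscreteValuationRing (Localization.AtPrime 𝔮) →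
      ∃ a s : R, a ∉ 𝔮 ∧ s ∉ 𝔮 ∧ x * algebraMap R K s = algebraMap R K a) :
    ∃ u : Rˣ, algebraMap R K (u : R) = x := by
  have hinj : Function.Injective (algebraMap R K) := IsFractionRing.injective R K
  obtain ⟨r, hr⟩ := mem_range_of_forall_dvr x (fun 𝔮 _ hdvr => by
    obtain ⟨a, s, -, hs, hxs⟩ := h 𝔮 hdvr
    exact ⟨a, s, hs, hxs⟩)
  obtain ⟨r', hr'⟩ := mem_range_of_forall_dvr x⁻¹ (fun 𝔮 _ hdvr => by
    obtain ⟨a, s, ha, -, hxs⟩ := h 𝔮 hdvr
    refine ⟨s, a, ha, ?_⟩
    rw [← hxs, ← mul_assoc, inv_mul_cancel₀ hx, one_mul])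
  have h1 : r * r' = 1 := by
    apply hinj
    rw [map_mul, map_one, hr, hr', mul_inv_cancel₀ hx]
  exact ⟨⟨r, r', h1, by rw [mul_comm]; exact h1⟩, hr⟩

end FractionField

omit [IsNoetherianRing R] [IsIntegrallyClosed R] in
/-- **(K3a)** A prime `𝔮` of a domain with `R_𝔮` a discrete valuation ring is nonzero. -/
theorem ne_bot_of_dvr (𝔮 : Ideal R) [𝔮.IsPrime]
    (h : IsDiscreteValuationRing (Localization.AtPrime 𝔮)) : 𝔮 ≠ ⊥ := by
  intro h𝔮
  have h1 : Ideal.map (algebraMap R (Localization.AtPrime 𝔮)) 𝔮 = ⊥ :=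
    (congrArg (Ideal.map (algebraMap R (Localization.AtPrime 𝔮))) h𝔮).trans Ideal.map_bot
  rw [Localization.AtPrime.map_eq_maximalIdeal] at h1
  exact IsDiscreteValuationRing.not_a_field (Localization.AtPrime 𝔮) h1

omit [IsNoetherianRing R] [IsIntegrallyClosed R] in
/-- **(K3b)** A prime `𝔮` of a domain with `R_𝔮` a discrete valuation ring is minimal among the
nonzero primes (it has height one): a prime below it is `⊥` or `𝔮`. -/
theorem eq_bot_or_eq_of_le_of_dvr (𝔮 : Ideal R) [𝔮.IsPrime]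
    (h : IsDiscreteValuationRing (Localization.AtPrime 𝔮)) (𝔮' : Ideal R) [h𝔮' : 𝔮'.IsPrime]
    (hle : 𝔮' ≤ 𝔮) : 𝔮' = ⊥ ∨ 𝔮' = 𝔮 := by
  let S := Localization.AtPrime 𝔮
  have hinj : Function.Injective (algebraMap R S) :=
    IsLocalization.injective S 𝔮.primeCompl_le_nonZeroDivisors
  have hdisj : Disjoint (𝔮.primeCompl : Set R) (𝔮' : Set R) := by
    rw [Set.disjoint_left]
    intro r hr hr'
    exact hr (hle hr')
  have hprime : (Ideal.map (algebraMap R S) 𝔮').IsPrime :=
    IsLocalization.isPrime_of_isPrime_disjoint 𝔮.primeCompl S 𝔮' h𝔮' hdisj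
  have hcomap : Ideal.comap (algebraMap R S) (Ideal.map (algebraMap R S) 𝔮') = 𝔮' :=
    IsLocalization.under_map_of_isPrime_disjoint 𝔮.primeCompl S h𝔮' hdisj
  by_cases hbot : Ideal.map (algebraMap R S) 𝔮' = ⊥
  · left
    rw [← hcomap, hbot]
    exact (RingHom.injective_iff_ker_eq_bot _).mp hinj
  · right
    have hmax : (Ideal.map (algebraMap R S) 𝔮').IsMaximal := IsPrime.to_maximal_ideal (hpi := hprime) hbot
    have h2 : Ideal.map (algebraMap R S) 𝔮' = maximalIdeal S := IsLocalRing.eq_maximalIdeal hmax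
    rw [← hcomap, h2]
    exact Localization.AtPrime.under_maximalIdeal

omit [IsNoetherianRing R] [IsIntegrallyClosed R] in
/-- **(K3c)** A prime `𝔮` of a domain with `R_𝔮` a discrete valuation ring has height one. -/
theorem height_eq_one_of_dvr (𝔮 : Ideal R) [𝔮.IsPrime]
    (h : IsDiscreteValuationRing (Localization.AtPrime 𝔮)) : 𝔮.height = 1 := by
  have h1 := IsLocalization.AtPrime.ringKrullDim_eq_height 𝔮 (Localization.AtPrime 𝔮)
  rw [IsDiscreteValuationRing.ringKrullDim_eq_one] at h1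
  exact_mod_cast h1.symm


/-- A nonzero nonunit of a noetherian integrally closed domain lies in a prime `𝔭` with `R_𝔭` a
discrete valuation ring. -/
theorem exists_prime_dvr_of_not_isUnit {r : R} (hr : r ≠ 0) (hu : ¬ IsUnit r) :
    ∃ (𝔭 : Ideal R) (_ : 𝔭.IsPrime), r ∈ 𝔭 ∧ IsDiscreteValuationRing (Localization.AtPrime 𝔭) := by
  have h1 : ¬ r ∣ 1 := fun h => hu (isUnit_of_dvd_one h)
  obtain ⟨𝔭, hP, hmem, hdvr, -⟩ := exists_prime_dvr_of_not_dvd hr h1
  exact ⟨𝔭, hP, hmem, hdvr⟩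

/-- An element of a noetherian integrally closed domain that lies in no prime `𝔮` with `R_𝔮` a
discrete valuation ring is a unit. -/
theorem isUnit_of_forall_dvr_not_mem {r : R} (hr : r ≠ 0)
    (h : ∀ (𝔮 : Ideal R) [𝔮.IsPrime], IsDiscreteValuationRing (Localization.AtPrime 𝔮) → r ∉ 𝔮) :
    IsUnit r := by
  by_contra hu
  obtain ⟨𝔭, hP, hmem, hdvr⟩ := exists_prime_dvr_of_not_isUnit hr hu
  exact @h 𝔭 hP hdvr hmem

section Variants

variable {K : Type*} [Field K] [Algebra R K] [IsFractionRing R K]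

/-- (K1), hypothesis over the minimal nonzero primes. -/
theorem mem_range_of_forall_minimal (x : K)
    (h : ∀ (𝔮 : Ideal R) [𝔮.IsPrime], 𝔮 ≠ ⊥ →
      (∀ (𝔮' : Ideal R) [𝔮'.IsPrime], 𝔮' ≤ 𝔮 → 𝔮' = ⊥ ∨ 𝔮' = 𝔮) →
      ∃ a s : R, s ∉ 𝔮 ∧ x * algebraMap R K s = algebraMap R K a) :
    x ∈ (algebraMap R K).range :=
  mem_range_of_forall_dvr x fun 𝔮 _ hdvr =>
    h 𝔮 (ne_bot_of_dvr 𝔮 hdvr) (fun 𝔮' _ hle => eq_bot_or_eq_of_le_of_dvr 𝔮 hdvr 𝔮' hle)

/-- (K2), hypothesis over the minimal nonzero primes. -/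
theorem exists_unit_of_forall_minimal (x : K) (hx : x ≠ 0)
    (h : ∀ (𝔮 : Ideal R) [𝔮.IsPrime], 𝔮 ≠ ⊥ →
      (∀ (𝔮' : Ideal R) [𝔮'.IsPrime], 𝔮' ≤ 𝔮 → 𝔮' = ⊥ ∨ 𝔮' = 𝔮) →
      ∃ a s : R, a ∉ 𝔮 ∧ s ∉ 𝔮 ∧ x * algebraMap R K s = algebraMap R K a) :
    ∃ u : Rˣ, algebraMap R K (u : R) = x :=
  exists_unit_of_forall_dvr x hx fun 𝔮 _ hdvr =>
    h 𝔮 (ne_bot_of_dvr 𝔮 hdvr) (fun 𝔮' _ hle => eq_bot_or_eq_of_le_of_dvr 𝔮 hdvr 𝔮' hle)

/-- (K1), hypothesis over the primes of height one. -/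
theorem mem_range_of_forall_height_one (x : K)
    (h : ∀ (𝔮 : Ideal R) [𝔮.IsPrime], 𝔮.height = 1 →
      ∃ a s : R, s ∉ 𝔮 ∧ x * algebraMap R K s = algebraMap R K a) :
    x ∈ (algebraMap R K).range :=
  mem_range_of_forall_dvr x fun 𝔮 _ hdvr => h 𝔮 (height_eq_one_of_dvr 𝔮 hdvr)

/-- (K2), hypothesis over the primes of height one. -/
theorem exists_unit_of_forall_height_one (x : K) (hx : x ≠ 0)
    (h : ∀ (𝔮 : Ideal R) [𝔮.IsPrime], 𝔮.height = 1 →
      ∃ a s : R, a ∉ 𝔮 ∧ s ∉ 𝔮 ∧ x * algebraMap R K s = algebraMap R K a) :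
    ∃ u : Rˣ, algebraMap R K (u : R) = x :=
  exists_unit_of_forall_dvr x hx fun 𝔮 _ hdvr => h 𝔮 (height_eq_one_of_dvr 𝔮 hdvr)

end Variants

end Domain

end Fermat.Agent.S34.KrullUnit
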