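/-
S34 node block — leaf N3, localised shape (helper40; consumer: N4 `LocA`, board #2381/#2401).

Let `R` be a noetherian integrally closed domain with fraction field `K` and `n` a prime of `R`
(a closed point of a chart; `R` is NOT assumed local).  Then `R_n` is the intersection of the
localisations `R_𝔮` at the primes `𝔮 ≤ n` with `R_𝔮` a discrete valuation ring:

* `exists_prime_dvr_le_of_not_dvd` : if `b ≠ 0` and `a / b ∉ R_n`, there is a prime `𝔭 ≤ n`,
  `b ∈ 𝔭`, with `R_𝔭` a DVR and `a / b ∉ R_𝔭`;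
* `mem_atPrime_of_forall_dvr` : `x ∈ R_𝔮` for all such `𝔮 ≤ n` implies `x ∈ R_n`;
* `unit_atPrime_of_forall_dvr` : `x` a unit at all such `𝔮 ≤ n` implies `x` a unit at `n`.

"`x ∈ R_𝔮`" is written `∃ a s, s ∉ 𝔮 ∧ x * s = a`, "`x` is a unit at `𝔮`" is written
`∃ a s, a ∉ 𝔮 ∧ s ∉ 𝔮 ∧ x * s = a`.
-/
import Mathlib
import Fermat.Agent.S34.KrullUnit

set_option autoImplicit false

namespace Fermat.Agent.S34.KrullUnitLoc

open Fermat.Agent.S34.KrullUnit

variable {R : Type*} [CommRing R] [IsNoetherianRing R]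

/-- A maximal ideal quotient `(bR : c)` between `(bR : a)` and the prime `n` is prime. -/
theorem exists_prime_quot_le (n : Ideal R) [hn : n.IsPrime] {a b : R}
    (hab : ∀ s : R, s ∉ n → ¬ b ∣ s * a) :
    ∃ c : R, ¬ b ∣ c ∧ quot b a ≤ quot b c ∧ quot b c ≤ n ∧ (quot b c).IsPrime := by
  have h0 : quot b a ≤ n := by
    intro s hs
    by_contra hsn
    exact hab s hsn (mem_quot.mp hs)
  obtain ⟨P, ⟨c, rfl, hle, hPn⟩, hmax⟩ :=
    set_has_maximal_iff_noetherian.mpr (inferInstance : IsNoetherian R R)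
      {I : Ideal R | ∃ c : R, I = quot b c ∧ quot b a ≤ I ∧ I ≤ n}
      ⟨quot b a, a, rfl, le_rfl, h0⟩
  -- every ideal quotient strictly above `quot b c` (and above `quot b a`) leaves `n`
  have hout : ∀ c' : R, quot b c ≤ quot b c' → (∃ y ∈ quot b c', y ∉ quot b c) →
      ∃ s ∈ quot b c', s ∉ n := by
    intro c' hle' ⟨y, hy, hyn⟩
    by_contra hcon
    have hc'n : quot b c' ≤ n := by
      intro s hs
      by_contra hsn
      exact hcon ⟨s, hs, hsn⟩
    have hmem : quot b c' ∈ {I : Ideal R | ∃ c : R, I = quot b c ∧ quot b a ≤ I ∧ I ≤ n} :=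
      ⟨c', rfl, hle.trans hle', hc'n⟩
    have hnlt := hmax _ hmem
    apply hnlt
    refine lt_of_le_not_ge hle' ?_
    intro hge
    exact hyn (hge hy)
  have hne_top : quot b c ≠ ⊤ := by
    intro htop
    exact hn.ne_top (top_le_iff.mp (htop ▸ hPn))
  have hc : ¬ b ∣ c := by
    intro hdvd
    apply hne_top
    rw [Ideal.eq_top_iff_one, mem_quot, one_mul]
    exact hdvd
  refine ⟨c, hc, hle, hPn, ?_⟩
  rw [Ideal.isPrime_iff]
  refine ⟨hne_top, ?_⟩
  intro x y hxy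
  by_contra hcon
  obtain ⟨hx, hy⟩ := not_or.mp hcon
  -- `y ∈ quot b (x * c) ∖ quot b c`, so some `s ∉ n` has `s * x ∈ quot b c`
  have hy' : y ∈ quot b (x * c) := by
    rw [mem_quot]
    have : y * (x * c) = x * y * c := by ring
    rw [this]
    exact hxy
  obtain ⟨s, hs, hsn⟩ := hout (x * c) (quot_le_quot_mul b c x) ⟨y, hy', hy⟩
  -- `x ∈ quot b (s * c) ∖ quot b c`, so some `s' ∉ n` has `s' * s ∈ quot b c ≤ n`
  have hx' : x ∈ quot b (s * c) := by
    rw [mem_quot]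
    have : x * (s * c) = s * (x * c) := by ring
    rw [this]
    exact mem_quot.mp hs
  obtain ⟨s', hs', hs'n⟩ := hout (s * c) (quot_le_quot_mul b c s) ⟨x, hx', hx⟩
  have hss : s' * s ∈ quot b c := by
    rw [mem_quot, mul_assoc]
    exact mem_quot.mp hs'
  rcases hn.mem_or_mem (hPn hss) with h | h
  · exact hs'n h
  · exact hsn h

variable [IsDomain R] [IsIntegrallyClosed R]

/-- **(L0)** If `b ≠ 0` and `a / b ∉ R_n`, there is a prime `𝔭 ≤ n` containing `b` such that `R_𝔭`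
is a discrete valuation ring and `a / b ∉ R_𝔭`. -/
theorem exists_prime_dvr_le_of_not_dvd (n : Ideal R) [n.IsPrime] {a b : R} (hb : b ≠ 0)
    (hab : ∀ s : R, s ∉ n → ¬ b ∣ s * a) :
    ∃ (𝔭 : Ideal R) (_ : 𝔭.IsPrime), 𝔭 ≤ n ∧ b ∈ 𝔭 ∧
      IsDiscreteValuationRing (Localization.AtPrime 𝔭) ∧ ∀ s : R, s ∉ 𝔭 → ¬ b ∣ s * a := by
  obtain ⟨c, hc, hle, hPn, hP⟩ := exists_prime_quot_le n hab
  exact ⟨quot b c, hP, hPn, self_mem_quot b c, isDiscreteValuationRing_atPrime_quot hb hc,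
    fun s hs hdvd => hs (hle (mem_quot.mpr hdvd))⟩

section FractionField

variable {K : Type*} [Field K] [Algebra R K] [IsFractionRing R K]

/-- **(L1)** `R_n` is the intersection of the discrete valuation localisations `R_𝔮`, `𝔮 ≤ n`. -/
theorem mem_atPrime_of_forall_dvr (n : Ideal R) [n.IsPrime] (x : K)
    (h : ∀ (𝔮 : Ideal R) [𝔮.IsPrime], 𝔮 ≤ n →
      IsDiscreteValuationRing (Localization.AtPrime 𝔮) →
      ∃ a s : R, s ∉ 𝔮 ∧ x * algebraMap R K s = algebraMap R K a) :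
    ∃ a s : R, s ∉ n ∧ x * algebraMap R K s = algebraMap R K a := by
  have hinj : Function.Injective (algebraMap R K) := IsFractionRing.injective R K
  obtain ⟨a, b, hb, rfl⟩ := IsFractionRing.div_surjective (A := R) x
  have hb0 : b ≠ 0 := nonZeroDivisors.ne_zero hb
  have hbK : algebraMap R K b ≠ 0 := fun h0 => hb0 (hinj (by rw [h0, map_zero]))
  by_cases hex : ∃ s : R, s ∉ n ∧ b ∣ s * a
  · obtain ⟨s, hs, d, hd⟩ := hex
    refine ⟨d, s, hs, ?_⟩
    rw [div_mul_eq_mul_div, div_eq_iff hbK, ← map_mul, ← map_mul]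
    congr 1
    rw [mul_comm a s, hd, mul_comm]
  · exfalso
    have hab : ∀ s : R, s ∉ n → ¬ b ∣ s * a := fun s hs hdvd => hex ⟨s, hs, hdvd⟩
    obtain ⟨𝔭, hP, hPn, -, hdvr, hno⟩ := exists_prime_dvr_le_of_not_dvd n hb0 hab
    obtain ⟨a', s, hs, hxs⟩ := @h 𝔭 hP hPn hdvr
    apply hno s hs
    refine ⟨a', hinj ?_⟩
    rw [map_mul, map_mul, ← hxs]
    field_simp

/-- **(L2)** An element of the fraction field that is a unit at every prime `𝔮 ≤ n` with `R_𝔮` a
discrete valuation ring is a unit at `n`. -/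
theorem unit_atPrime_of_forall_dvr (n : Ideal R) [hn : n.IsPrime] (x : K) (hx : x ≠ 0)
    (h : ∀ (𝔮 : Ideal R) [𝔮.IsPrime], 𝔮 ≤ n →
      IsDiscreteValuationRing (Localization.AtPrime 𝔮) →
      ∃ a s : R, a ∉ 𝔮 ∧ s ∉ 𝔮 ∧ x * algebraMap R K s = algebraMap R K a) :
    ∃ a s : R, a ∉ n ∧ s ∉ n ∧ x * algebraMap R K s = algebraMap R K a := by
  have hinj : Function.Injective (algebraMap R K) := IsFractionRing.injective R K
  obtain ⟨a, s, hs, hxs⟩ := mem_atPrime_of_forall_dvr n x (fun 𝔮 _ hle hdvr => by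
    obtain ⟨a, s, -, hs, hxs⟩ := h 𝔮 hle hdvr
    exact ⟨a, s, hs, hxs⟩)
  obtain ⟨a', s', hs', hxs'⟩ := mem_atPrime_of_forall_dvr n x⁻¹ (fun 𝔮 _ hle hdvr => by
    obtain ⟨a, s, ha, -, hxs⟩ := h 𝔮 hle hdvr
    refine ⟨s, a, ha, ?_⟩
    rw [← hxs, ← mul_assoc, inv_mul_cancel₀ hx, one_mul])
  refine ⟨a, s, ?_, hs, hxs⟩
  intro han
  -- `a * a' = s * s' ∉ n`
  have hprod : a * a' = s * s' := by
    apply hinj
    rw [map_mul, map_mul, ← hxs, ← hxs']
    field_simp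
  have hmem : s * s' ∈ n := hprod ▸ n.mul_mem_right a' han
  rcases hn.mem_or_mem hmem with h1 | h1
  · exact hs h1
  · exact hs' h1

omit [IsNoetherianRing R] [IsDomain R] [IsIntegrallyClosed R] [IsFractionRing R K] in
/-- Converse direction of (L2): a fraction `a / s` with `a, s ∉ n` is a unit at every prime
below `n`. -/
theorem unit_atPrime_mono {n 𝔮 : Ideal R} (hle : 𝔮 ≤ n) {x : K}
    (h : ∃ a s : R, a ∉ n ∧ s ∉ n ∧ x * algebraMap R K s = algebraMap R K a) :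
    ∃ a s : R, a ∉ 𝔮 ∧ s ∉ 𝔮 ∧ x * algebraMap R K s = algebraMap R K a := by
  obtain ⟨a, s, ha, hs, hxs⟩ := h
  exact ⟨a, s, fun h => ha (hle h), fun h => hs (hle h), hxs⟩

end FractionField

end Fermat.Agent.S34.KrullUnitLoc
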