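/-
S34 abstract block — leaf [N3] in the vocabulary of `S34/LocPlan.lean` (helper40).

* `krullUnitStatement : LocPlan.KrullUnitStatement`
* `princMinStatement  : LocPlan.PrincMinStatement`
* `princOrdStatement  : LocPlan.PrincOrdStatement`

Engine: `S34/KrullUnit.lean`, `S34/KrullUnitLoc.lean` (associated primes of principal ideals in a
noetherian integrally closed domain are locally principal), and the bridge
`dvr_of_princAt : PrincAt 𝔮 → IsDiscreteValuationRing (Localization.AtPrime 𝔮)`.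
-/
import Mathlib
import Fermat.Agent.S34.LocPlan
import Fermat.Agent.S34.KrullUnit
import Fermat.Agent.S34.KrullUnitLoc

set_option autoImplicit false

namespace Fermat.Agent.S34.KrullStmt

open Fermat.Agent.S34.LocPlan Fermat.Agent.S34.KrullUnit Fermat.Agent.S34.KrullUnitLoc
open IsLocalRing

variable {R : Type*} [CommRing R] [IsDomain R] [IsNoetherianRing R]

/-! ### `PrincAt` and the localisation -/

omit [IsNoetherianRing R] in
/-- A local generator of a nonzero prime is nonzero. -/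
theorem gen_ne_zero {𝔮 : Ideal R} [𝔮.IsPrime] (hne : 𝔮 ≠ ⊥) {t : R}
    (hgen : ∀ y ∈ 𝔮, ∃ s : R, s ∉ 𝔮 ∧ ∃ c : R, s * y = c * t) : t ≠ 0 := by
  rintro rfl
  apply hne
  rw [eq_bot_iff]
  intro y hy
  obtain ⟨s, hs, c, hc⟩ := hgen y hy
  rw [mul_zero] at hc
  rcases mul_eq_zero.mp hc with h | h
  · exact absurd (h ▸ 𝔮.zero_mem) hs
  · rw [h]; exact Ideal.zero_mem _

omit [IsDomain R] [IsNoetherianRing R] in
/-- The maximal ideal of `R_𝔮` is generated by a local generator of `𝔮`. -/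
theorem maximalIdeal_eq_span {𝔮 : Ideal R} [h𝔮 : 𝔮.IsPrime] {t : R} (ht : t ∈ 𝔮)
    (hgen : ∀ y ∈ 𝔮, ∃ s : R, s ∉ 𝔮 ∧ ∃ c : R, s * y = c * t) :
    maximalIdeal (Localization.AtPrime 𝔮) =
      Ideal.span {algebraMap R (Localization.AtPrime 𝔮) t} := by
  let S := Localization.AtPrime 𝔮
  have hmax : maximalIdeal S = Ideal.map (algebraMap R S) 𝔮 :=
    (Localization.AtPrime.map_eq_maximalIdeal).symm
  rw [hmax]
  apply le_antisymm
  · rw [Ideal.map_le_iff_le_comap]
    intro y hy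
    rw [Ideal.mem_comap, Ideal.mem_span_singleton]
    obtain ⟨s, hs, c, hc⟩ := hgen y hy
    obtain ⟨u, hu⟩ : IsUnit (algebraMap R S s) :=
      IsLocalization.map_units S (⟨s, hs⟩ : 𝔮.primeCompl)
    refine ⟨algebraMap R S c * ((u⁻¹ : Sˣ) : S), ?_⟩
    have h1 : (u : S) * algebraMap R S y = algebraMap R S c * algebraMap R S t := by
      rw [hu, ← map_mul, ← map_mul, hc]
    calc algebraMap R S y = ((u⁻¹ : Sˣ) : S) * ((u : S) * algebraMap R S y) := by
          rw [← mul_assoc, Units.inv_mul, one_mul]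
      _ = algebraMap R S t * (algebraMap R S c * ((u⁻¹ : Sˣ) : S)) := by
          rw [h1]; ring
  · rw [Ideal.span_le, Set.singleton_subset_iff]
    exact Ideal.mem_map_of_mem _ ht

/-- **Bridge**: a prime `𝔮` of a noetherian domain with `PrincAt 𝔮` has `R_𝔮` a discrete
valuation ring. -/
theorem dvr_of_princAt (𝔮 : Ideal R) [h𝔮 : 𝔮.IsPrime] (h : PrincAt 𝔮) :
    IsDiscreteValuationRing (Localization.AtPrime 𝔮) := by
  obtain ⟨hne, t, ht, hgen⟩ := h
  let S := Localization.AtPrime 𝔮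
  have : IsNoetherianRing S := IsLocalization.isNoetherianRing 𝔮.primeCompl S inferInstance
  have hinj : Function.Injective (algebraMap R S) :=
    IsLocalization.injective S 𝔮.primeCompl_le_nonZeroDivisors
  have hspan := maximalIdeal_eq_span ht hgen
  have ht0 : t ≠ 0 := gen_ne_zero hne hgen
  have hnf : ¬ IsField S := by
    rw [IsLocalRing.isField_iff_maximalIdeal_eq, hspan, Ideal.span_singleton_eq_bot]
    intro h0
    exact ht0 (hinj (by rw [h0, map_zero]))
  refine ((IsDiscreteValuationRing.TFAE S hnf).out 0 4).mpr ?_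
  exact ⟨⟨algebraMap R S t, hspan⟩⟩

/-- Order decomposition at a `PrincAt` prime: every nonzero `a ∈ R` is, locally at `𝔮`, a unit
times a power of the local generator `t`. -/
theorem exists_pow_decomp {𝔮 : Ideal R} [h𝔮 : 𝔮.IsPrime] (hne : 𝔮 ≠ ⊥) {t : R} (ht : t ∈ 𝔮)
    (hgen : ∀ y ∈ 𝔮, ∃ s : R, s ∉ 𝔮 ∧ ∃ c : R, s * y = c * t) {a : R} (ha : a ≠ 0) :
    ∃ (k : ℕ) (s c : R), s ∉ 𝔮 ∧ c ∉ 𝔮 ∧ a * s = c * t ^ k := by
  let S := Localization.AtPrime 𝔮
  have hinj : Function.Injective (algebraMap R S) :=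
    IsLocalization.injective S 𝔮.primeCompl_le_nonZeroDivisors
  have hdvr : IsDiscreteValuationRing S := dvr_of_princAt 𝔮 ⟨hne, t, ht, hgen⟩
  have hirr : Irreducible (algebraMap R S t) :=
    (IsDiscreteValuationRing.irreducible_iff_uniformizer _).mpr (maximalIdeal_eq_span ht hgen)
  have ha' : algebraMap R S a ≠ 0 := fun h0 => ha (hinj (by rw [h0, map_zero]))
  obtain ⟨k, u, hu⟩ := IsDiscreteValuationRing.eq_unit_mul_pow_irreducible ha' hirr
  obtain ⟨c, s, hcs⟩ := IsLocalization.exists_mk'_eq 𝔮.primeCompl (u : S)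
  have hc : c ∉ 𝔮 := by
    have h1 : IsUnit (IsLocalization.mk' S c s) := hcs ▸ u.isUnit
    exact (IsLocalization.AtPrime.isUnit_mk'_iff S 𝔮 c s).mp h1
  refine ⟨k, s, c, s.2, hc, hinj ?_⟩
  rw [map_mul, map_mul, map_pow, hu, ← hcs]
  have h2 : IsLocalization.mk' S c s * algebraMap R S s = algebraMap R S c :=
    IsLocalization.mk'_spec S c s
  calc IsLocalization.mk' S c s * algebraMap R S t ^ k * algebraMap R S s
      = IsLocalization.mk' S c s * algebraMap R S s * algebraMap R S t ^ k := by ring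
    _ = algebraMap R S c * algebraMap R S t ^ k := by rw [h2]


/-! ### [N3] PrincMin -/

/-- A prime with `PrincAt` is minimal among the nonzero primes. -/
theorem eq_of_le_of_princAt {𝔮' 𝔮 : Ideal R} [𝔮'.IsPrime] [𝔮.IsPrime] (h : PrincAt 𝔮)
    (hle : 𝔮' ≤ 𝔮) (hne : 𝔮' ≠ ⊥) : 𝔮' = 𝔮 :=
  (eq_bot_or_eq_of_le_of_dvr 𝔮 (dvr_of_princAt 𝔮 h) 𝔮' hle).resolve_left hne

/-- **[N3] PrincMin** (`LocPlan.PrincMinStatement`). -/
theorem princMinStatement : PrincMinStatement := by
  intro R _ _ _ 𝔮' 𝔮 h𝔮' h𝔮 hP hle hne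
  exact eq_of_le_of_princAt hP hle hne

/-! ### [N3] PrincOrd -/

section Frac

variable {E : Type*} [Field E] [Algebra R E] [IsFractionRing R E]

/-- At a prime `𝔮` with local generator `t`, every nonzero element of the fraction field is a
unit at `𝔮` times a power of `t`. -/
theorem exists_zpow_unitAt {𝔮 : Ideal R} [h𝔮 : 𝔮.IsPrime] (hne : 𝔮 ≠ ⊥) {t : R} (ht : t ∈ 𝔮)
    (hgen : ∀ y ∈ 𝔮, ∃ s : R, s ∉ 𝔮 ∧ ∃ c : R, s * y = c * t) {x : E} (hx : x ≠ 0) :
    ∃ k : ℤ, UnitAt 𝔮 (x * algebraMap R E t ^ k) := by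
  have hinj : Function.Injective (algebraMap R E) := IsFractionRing.injective R E
  obtain ⟨a, b, hb, rfl⟩ := IsFractionRing.div_surjective (A := R) x
  have hb0 : b ≠ 0 := nonZeroDivisors.ne_zero hb
  have hbE : algebraMap R E b ≠ 0 := fun h0 => hb0 (hinj (by rw [h0, map_zero]))
  have ha0 : a ≠ 0 := by
    rintro rfl
    apply hx
    rw [map_zero, zero_div]
  have ht0 : t ≠ 0 := gen_ne_zero hne hgen
  have htE : algebraMap R E t ≠ 0 := fun h0 => ht0 (hinj (by rw [h0, map_zero]))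
  obtain ⟨n, s, c, hs, hc, hA⟩ := exists_pow_decomp hne ht hgen ha0
  obtain ⟨n', s', c', hs', hc', hB⟩ := exists_pow_decomp hne ht hgen hb0
  have hA' : algebraMap R E a * algebraMap R E s = algebraMap R E c * algebraMap R E t ^ n := by
    rw [← map_pow, ← map_mul, ← map_mul, hA]
  have hB' : algebraMap R E b * algebraMap R E s' =
      algebraMap R E c' * algebraMap R E t ^ n' := by
    rw [← map_pow, ← map_mul, ← map_mul, hB]
  refine ⟨(n' : ℤ) - (n : ℤ), c * s', s * c', ?_, ?_, ?_⟩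
  · intro hmem
    rcases h𝔮.mem_or_mem hmem with h | h
    · exact hc h
    · exact hs' h
  · intro hmem
    rcases h𝔮.mem_or_mem hmem with h | h
    · exact hs h
    · exact hc' h
  · rw [zpow_sub₀ htE, zpow_natCast, zpow_natCast, map_mul, map_mul, div_mul_div_comm,
      div_mul_eq_mul_div, div_eq_iff (mul_ne_zero hbE (pow_ne_zero n htE))]
    linear_combination (algebraMap R E c' * algebraMap R E t ^ n') * hA' -
      (algebraMap R E c * algebraMap R E t ^ n) * hB'

end Frac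

/-- **[N3] PrincOrd** (`LocPlan.PrincOrdStatement`). -/
theorem princOrdStatement : PrincOrdStatement := by
  intro R _ _ _ E _ _ _ 𝔮 t h𝔮 hne ht hgen x hx
  exact exists_zpow_unitAt hne ht hgen hx

/-! ### [N3] KrullUnit -/

section Normal

variable [IsIntegrallyClosed R]

/-- The associated prime `(bR : c)` of a principal ideal of a noetherian integrally closed domain
is locally principal. -/
theorem princAt_quot {b c : R} (hb : b ≠ 0) (hc : ¬ b ∣ c) (hP : (quot b c).IsPrime) :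
    PrincAt (quot b c) := by
  obtain ⟨r₀, hr₀, t, ht, hbt⟩ := exists_not_mem_of_prime_quot hb hc hP
  refine ⟨?_, r₀, hr₀, ?_⟩
  · intro hbot
    have h1 : b ∈ quot b c := self_mem_quot b c
    rw [hbot, Ideal.mem_bot] at h1
    exact hb h1
  · intro y hy
    obtain ⟨d, hd⟩ := mem_quot.mp hy
    refine ⟨t, ht, d, ?_⟩
    apply mul_left_cancel₀ hb
    calc b * (t * y) = y * (b * t) := by ring
      _ = y * (r₀ * c) := by rw [hbt]
      _ = r₀ * (y * c) := by ring
      _ = r₀ * (b * d) := by rw [hd]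
      _ = b * (d * r₀) := by ring

variable {E : Type*} [Field E] [Algebra R E] [IsFractionRing R E]

/-- `R_n` is the intersection of the `R_𝔮`, `𝔮 ≤ n` prime with `PrincAt 𝔮`. -/
theorem regAt_of_forall_princAt (n : Ideal R) [n.IsPrime] (x : E)
    (h : ∀ 𝔮 : Ideal R, 𝔮.IsPrime → 𝔮 ≤ n → PrincAt 𝔮 → RegAt 𝔮 x) : RegAt n x := by
  have hinj : Function.Injective (algebraMap R E) := IsFractionRing.injective R E
  obtain ⟨a, b, hb, rfl⟩ := IsFractionRing.div_surjective (A := R) x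
  have hb0 : b ≠ 0 := nonZeroDivisors.ne_zero hb
  have hbE : algebraMap R E b ≠ 0 := fun h0 => hb0 (hinj (by rw [h0, map_zero]))
  by_cases hex : ∃ s : R, s ∉ n ∧ b ∣ s * a
  · obtain ⟨s, hs, d, hd⟩ := hex
    refine ⟨d, s, hs, ?_⟩
    rw [div_mul_eq_mul_div, div_eq_iff hbE, ← map_mul, ← map_mul]
    congr 1
    rw [mul_comm a s, hd, mul_comm]
  · exfalso
    have hab : ∀ s : R, s ∉ n → ¬ b ∣ s * a := fun s hs hdvd => hex ⟨s, hs, hdvd⟩
    obtain ⟨c, hc, hle, hPn, hP⟩ := exists_prime_quot_le n hab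
    obtain ⟨a', s, hs, hxs⟩ := h (quot b c) hP hPn (princAt_quot hb0 hc hP)
    apply hs
    apply hle
    rw [mem_quot]
    refine ⟨a', hinj ?_⟩
    rw [map_mul, map_mul, ← hxs]
    field_simp

/-- An element of the fraction field that is a unit at every prime `𝔮 ≤ n` with `PrincAt 𝔮` is a
unit at `n`. -/
theorem unitAt_of_forall_princAt (n : Ideal R) [hn : n.IsPrime] (x : E) (hx : x ≠ 0)
    (h : ∀ 𝔮 : Ideal R, 𝔮.IsPrime → 𝔮 ≤ n → PrincAt 𝔮 → UnitAt 𝔮 x) : UnitAt n x := by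
  have hinj : Function.Injective (algebraMap R E) := IsFractionRing.injective R E
  obtain ⟨a, s, hs, hxs⟩ := regAt_of_forall_princAt n x (fun 𝔮 h𝔮 hle hP => by
    obtain ⟨a, s, -, hs, hxs⟩ := h 𝔮 h𝔮 hle hP
    exact ⟨a, s, hs, hxs⟩)
  obtain ⟨a', s', hs', hxs'⟩ := regAt_of_forall_princAt n x⁻¹ (fun 𝔮 h𝔮 hle hP => by
    obtain ⟨a, s, ha, -, hxs⟩ := h 𝔮 h𝔮 hle hP
    refine ⟨s, a, ha, ?_⟩
    rw [← hxs, ← mul_assoc, inv_mul_cancel₀ hx, one_mul])
  refine ⟨a, s, ?_, hs, hxs⟩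
  intro han
  have hprod : a * a' = s * s' := by
    apply hinj
    rw [map_mul, map_mul, ← hxs, ← hxs']
    field_simp
  have hmem : s * s' ∈ n := hprod ▸ n.mul_mem_right a' han
  rcases hn.mem_or_mem hmem with h1 | h1
  · exact hs h1
  · exact hs' h1

end Normal

/-- **[N3] KrullUnit** (`LocPlan.KrullUnitStatement`). -/
theorem krullUnitStatement : KrullUnitStatement := by
  intro R _ _ _ _ E _ _ _ n x hn hx h
  exact unitAt_of_forall_princAt n x hx h

end Fermat.Agent.S34.KrullStmt
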