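/-
S34 — RatPlace.lean (helper1): block [RatPlace] of the modular half of `(U_q)`:
**rational support**.  The places of `F̄ = modularFunctionFieldBar N` in the support of a
function become `K`-rational as soon as `K` contains a suitable finite set of constants.

* `exists_finset_rational`  (R1)  for a place `P` of `F̄ / ℚ̄` there is a finite set `S` of
  constants such that for every intermediate field `K ⊇ S`, every element of `F_K = FK N K`
  regular at `P` has its value at `P` in `K`;
* `exists_finset_rational_of_ord_ne_zero`  (R2)  for `f ≠ 0` there is a finite `S` such that for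
  `K ⊇ S` every place of `F_K / K` in the support of `f` is `K`-rational;
* `exists_sec`  (R3)  chart form: a `K`-rational place `v` of `F_K / K` whose centre on a chart
  `R` lies in a proper ideal `n` containing `𝔪_O R` gives `R = O + 𝔮_v` (a section `R → O`).

Method (Galois descent): `P` is cut out by finitely many functions; they lie in `F_K` for `K`
large ([Desc]); `σ ∈ Gal(ℚ̄ / K)` fixes `F_K` coefficientwise ([Coeff]), hence fixes `P`, hence
fixes the value `x(P)` of every `x ∈ F_K` regular at `P`; so `x(P) ∈ K`.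
-/
import Mathlib
import Fermat.Agent.S18.ArithPlan
import Fermat.Agent.S18.DescCoeff
import Fermat.Agent.S18.Dict
import Fermat.Agent.S18.Glob
import Fermat.Agent.S37.PMCover
import Fermat.Agent.S24.Principal

set_option autoImplicit false

noncomputable section

namespace Fermat.Agent.S34.RatPlace

open ModularCurve AlgebraicCurve HahnSeries Fermat.Agent.S18.Arith Fermat.Agent.S37.PMCover

open Fermat.Agent.S37.PM (ValAt)

/-! ### Generic lemmas on places -/

section Generic

variable {K F : Type*} [Field K] [Field F] [Algebra K F]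

/-- Two places with `𝔪_P ⊆ 𝔪_Q` are equal (discrete valuation rings are maximal subrings). -/
theorem eq_of_nonunits_subset (P Q : Place K F)
    (h : ∀ y ∈ P.toValuationSubring.nonunits, y ∈ Q.toValuationSubring.nonunits) : P = Q := by
  apply Place.ext
  have h1 : Q.toValuationSubring ≤ P.toValuationSubring :=
    ValuationSubring.nonunits_le_nonunits.mp h
  refine le_antisymm ?_ h1
  intro x hx
  by_contra hxQ
  have hx0 : x ≠ 0 := fun h0 => hxQ (h0 ▸ zero_mem _)
  have hQx : Q.ord x < 0 := by
    by_contra hn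
    exact hxQ (Fermat.Agent.S24.mem_of_ord_nonneg Q (not_lt.mp hn))
  obtain ⟨π, hπ⟩ := IsDiscreteValuationRing.exists_irreducible P.toValuationSubring
  have hπ0 : (π : F) ≠ 0 := fun h0 => hπ.ne_zero (Subtype.ext h0)
  have hπm : (π : F) ∈ P.toValuationSubring.nonunits := by
    rw [ValuationSubring.mem_nonunits_iff_exists_mem_maximalIdeal]
    exact ⟨π.2, by
      rw [IsLocalRing.mem_maximalIdeal]
      exact hπ.not_isUnit⟩
  have key : ∀ k : ℕ, 0 ≤ Q.ord ((π : F) * x ^ k) := fun k => by
    have hmem : x ^ k * (π : F) ∈ P.toValuationSubring.nonunits :=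
      mul_mem_nonunits (pow_mem hx k) hπm
    rw [mul_comm] at hmem
    exact Fermat.Agent.S24.ord_nonneg_of_mem Q (mem_of_mem_nonunits (h _ hmem))
  have h2 := key ((Q.ord (π : F)).toNat + 1)
  rw [Q.ord_mul hπ0 (pow_ne_zero _ hx0), Fermat.Agent.S24.ord_pow] at h2
  have h3 : Q.ord (π : F) ≤ ((Q.ord (π : F)).toNat : ℤ) := Int.self_le_toNat _
  push_cast at h2
  nlinarith

/-- Distinct places are separated by a function vanishing at the first one only. -/
theorem exists_sep {P Q : Place K F} (h : P ≠ Q) :
    ∃ y : F, y ∈ P.toValuationSubring.nonunits ∧ y ∉ Q.toValuationSubring.nonunits := by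
  by_contra hn
  refine h (eq_of_nonunits_subset P Q fun y hy => ?_)
  by_contra hyQ
  exact hn ⟨y, hy, hyQ⟩

/-- **A place is cut out by finitely many functions.** -/
theorem exists_finset_cut [IsAlgClosed K] [CharZero K] (hF : Fermat.Agent.S24.IsFF1 K F)
    (P : Place K F) :
    ∃ T : Finset F, (∀ t ∈ T, t ∈ P.toValuationSubring.nonunits) ∧
      ∀ Q : Place K F, (∀ t ∈ T, t ∈ Q.toValuationSubring.nonunits) → Q = P := by
  classical
  obtain ⟨π, hπ⟩ := IsDiscreteValuationRing.exists_irreducible P.toValuationSubring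
  have hπ0 : (π : F) ≠ 0 := fun h0 => hπ.ne_zero (Subtype.ext h0)
  have hπm : (π : F) ∈ P.toValuationSubring.nonunits := by
    rw [ValuationSubring.mem_nonunits_iff_exists_mem_maximalIdeal]
    exact ⟨π.2, by
      rw [IsLocalRing.mem_maximalIdeal]
      exact hπ.not_isUnit⟩
  have hfin := Fermat.Agent.S24.finite_ord_ne_zero hF hπ0
  -- a separator for every place
  have hsep : ∀ Q : Place K F, ∃ y : F, y ∈ P.toValuationSubring.nonunits ∧
      (Q ≠ P → y ∉ Q.toValuationSubring.nonunits) := by
    intro Q
    by_cases hQ : Q = P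
    · exact ⟨(π : F), hπm, fun h => absurd hQ h⟩
    · obtain ⟨y, hy1, hy2⟩ := exists_sep (fun h => hQ h.symm : P ≠ Q)
      exact ⟨y, hy1, fun _ => hy2⟩
  choose y hy1 hy2 using hsep
  refine ⟨insert (π : F) (hfin.toFinset.image y), ?_, ?_⟩
  · intro t ht
    rw [Finset.mem_insert] at ht
    rcases ht with rfl | ht
    · exact hπm
    · obtain ⟨Q, -, rfl⟩ := Finset.mem_image.mp ht
      exact hy1 Q
  · intro Q hQ
    by_contra hne
    have h1 : (π : F) ∈ Q.toValuationSubring.nonunits := hQ _ (Finset.mem_insert_self _ _)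
    have h2 : Q ∈ hfin.toFinset := by
      rw [Set.Finite.mem_toFinset]
      show Q.ord (π : F) ≠ 0
      rcases (Fermat.Agent.S37.NormVal.mem_nonunits_iff_ord Q _).mp h1 with h0 | hpos
      · exact absurd h0 hπ0
      · exact ne_of_gt hpos
    exact hy2 Q hne (hQ _ (Finset.mem_insert_of_mem (Finset.mem_image_of_mem y h2)))

/-- Transport of values by a semilinear automorphism. -/
theorem valAt_smul (g : SemilinearAut K F) (P : Place K F) {x : F} {c : K} (h : ValAt P x c) :
    ValAt (g • P) (g • x) (SemilinearAut.baseAut g c) := by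
  rw [valAt_iff] at h ⊢
  have e : g • x - algebraMap K F (SemilinearAut.baseAut g c) = g • (x - algebraMap K F c) := by
    rw [smul_sub, SemilinearAut.smul_algebraMap]
  rw [e, Fermat.Agent.S37.NormVal.mem_nonunits_iff_ord]
  rcases (Fermat.Agent.S37.NormVal.mem_nonunits_iff_ord P _).mp h with h0 | hpos
  · left
    rw [h0, smul_zero]
  · right
    rw [SemilinearAut.ord_smul]
    exact hpos

/-- A semilinear automorphism fixing a cutting set of `P` fixes `P`. -/
theorem smul_eq_of_cut (g : SemilinearAut K F) (P : Place K F) (T : Finset F)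
    (hT1 : ∀ t ∈ T, t ∈ P.toValuationSubring.nonunits)
    (hT2 : ∀ Q : Place K F, (∀ t ∈ T, t ∈ Q.toValuationSubring.nonunits) → Q = P)
    (hg : ∀ t ∈ T, g • t = t) : g • P = P := by
  apply hT2
  intro t ht
  have h1 : ValAt P t 0 := (valAt_zero_iff P).mpr (hT1 t ht)
  have h2 := valAt_smul g P h1
  rw [hg t ht, map_zero] at h2
  exact (valAt_zero_iff (g • P)).mp h2

end Generic

/-! ### The modular function field -/

section Modular

set_option synthInstance.maxHeartbeats 400000

variable (N : ℕ) [NeZero N]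

omit [NeZero N] in
/-- `σ ∈ Gal(ℚ̄ / K)` fixes the elements of `F_K` (coefficientwise action). -/
theorem gal_smul_eq_self (K : IntermediateField ℚ Qb) (σ : Qb ≃ₐ[ℚ] Qb)
    (hσ : σ ∈ K.fixingSubgroup) (x : modularFunctionFieldBar N)
    (hx : (x : LaurentSeries Qb) ∈ FK N K) :
    arithmeticGalois (modularFunctionFieldFull N) σ • x = x := by
  apply Subtype.ext
  rw [coe_arithmeticGalois_smul]
  ext n
  rw [coeffMap_coeff]
  have hc : (x : LaurentSeries Qb).coeff n ∈ K :=
    Fermat.Agent.S18.DescCoeff.coeffStatement N K _ hx n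
  exact (IntermediateField.mem_fixingSubgroup_iff K σ).mp hσ _ hc

/-- **(R1) Rational support.**  For a place `P` of `F̄ / ℚ̄` there is a finite set `S` of
constants such that, for every intermediate field `K ⊇ S`, every element of `F_K` regular at
`P` takes its value at `P` in `K`. -/
theorem exists_finset_rational (P : Place Qb (modularFunctionFieldBar N)) :
    ∃ S : Finset Qb, ∀ K : IntermediateField ℚ Qb, (↑S ⊆ (K : Set Qb)) →
      ∀ x : modularFunctionFieldBar N, (x : LaurentSeries Qb) ∈ FK N K →
        x ∈ P.toValuationSubring →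
        ∃ c : K, x - algebraMap Qb (modularFunctionFieldBar N) (c : Qb)
          ∈ P.toValuationSubring.nonunits := by
  classical
  have hF : Fermat.Agent.S24.IsFF1 Qb (modularFunctionFieldBar N) :=
    Fermat.Agent.S37.HI.isFF1_modular N
  obtain ⟨T, hT1, hT2⟩ := exists_finset_cut hF P
  have hdesc := (Fermat.Agent.S18.DescCoeff.descStatement N).1
  choose! S hS using fun (t : modularFunctionFieldBar N) => hdesc (t : LaurentSeries Qb) t.2
  refine ⟨T.biUnion S, fun K hK x hxK hxP => ?_⟩
  have hTK : ∀ t ∈ T, ((t : modularFunctionFieldBar N) : LaurentSeries Qb) ∈ FK N K := by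
    intro t ht
    refine hS t K (subset_trans ?_ hK)
    intro c hc
    exact Finset.mem_coe.mpr (Finset.mem_biUnion.mpr ⟨t, ht, Finset.mem_coe.mp hc⟩)
  -- the value of `x` at `P`
  obtain ⟨c, hc⟩ := exists_valAt N P x hxP
  -- it is fixed by `Gal(ℚ̄ / K)`
  have hfix : ∀ σ ∈ K.fixingSubgroup, σ c = c := by
    intro σ hσ
    set g := arithmeticGalois (modularFunctionFieldFull N) σ with hg
    have hgP : g • P = P :=
      smul_eq_of_cut g P T hT1 hT2 (fun t ht => gal_smul_eq_self N K σ hσ t (hTK t ht))
    have h1 := valAt_smul g P hc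
    rw [hgP, gal_smul_eq_self N K σ hσ x hxK] at h1
    exact valAt_unique P h1 hc
  have hcK : c ∈ K := by
    have hAC : IsAlgClosure ℚ Qb :=
      ⟨AlgebraicClosure.isAlgClosed ℚ, AlgebraicClosure.isAlgebraic ℚ⟩
    have hGal : IsGalois ℚ Qb := IsAlgClosure.isGalois ℚ Qb
    have h2 : c ∈ IntermediateField.fixedField K.fixingSubgroup := by
      rw [IntermediateField.mem_fixedField_iff]
      exact hfix
    rwa [InfiniteGalois.fixedField_fixingSubgroup] at h2
  exact ⟨⟨c, hcK⟩, hc⟩

omit [NeZero N] in
/-- Constants: `F_K → F̄` maps `c ∈ K` to `c`. -/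
theorem toBar_algebraMapK (K : IntermediateField ℚ Qb) (c : K) :
    Fermat.Agent.S18.Glob.toBar N K (algebraMap K (FK N K) c)
      = algebraMap Qb (modularFunctionFieldBar N) (c : Qb) := by
  apply Subtype.ext
  rw [Fermat.Agent.S18.Glob.coe_toBar]
  show (HahnSeries.C ((c : Qb)) : LaurentSeries Qb) = algebraMap Qb (LaurentSeries Qb) _
  rw [algebraMap_laurentSeries_eq_single]
  rfl

/-- `K`-rationality of a place `v` of `F_K / K`: every function regular at `v` has a value in
`K` there. -/
def IsRational (K : IntermediateField ℚ Qb) (v : Place K (FK N K)) : Prop :=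
  ∀ x ∈ v.toValuationSubring, ∃ c : K,
    x - algebraMap K (FK N K) c ∈ v.toValuationSubring.nonunits

/-- **(R2) Rational support, place form.**  For `f ≠ 0` in `F̄` there is a finite set `S` of
constants such that, for every intermediate field `K ⊇ S`, every place of `F_K / K` at which
`f` has a zero or a pole is `K`-rational. -/
theorem exists_finset_rational_of_ord_ne_zero (f : modularFunctionFieldBar N) (hf : f ≠ 0) :
    ∃ S : Finset Qb, ∀ K : IntermediateField ℚ Qb, (↑S ⊆ (K : Set Qb)) →
      ∀ v : Place K (FK N K),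
        (∃ g : FK N K, (g : LaurentSeries Qb) = (f : LaurentSeries Qb) ∧ v.ord g ≠ 0) →
        IsRational N K v := by
  classical
  have hF : Fermat.Agent.S24.IsFF1 Qb (modularFunctionFieldBar N) :=
    Fermat.Agent.S37.HI.isFF1_modular N
  have hfin := Fermat.Agent.S24.finite_ord_ne_zero hF hf
  choose S hS using fun P => exists_finset_rational N P
  refine ⟨hfin.toFinset.biUnion S, fun K hK v hv x hx => ?_⟩
  obtain ⟨g, hgf, hg⟩ := hv
  obtain ⟨P, hP⟩ := Fermat.Agent.S18.Dict.dictStatement N K v
  have hPf : P.ord f ≠ 0 := by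
    have h1 := hP g (Fermat.Agent.S18.Glob.fk_le_bar N K g.2)
    have e : (⟨(g : LaurentSeries Qb), Fermat.Agent.S18.Glob.fk_le_bar N K g.2⟩ :
        modularFunctionFieldBar N) = f := Subtype.ext hgf
    rw [e] at h1
    rw [h1]
    exact hg
  have hPmem : P ∈ hfin.toFinset := (Set.Finite.mem_toFinset _).mpr hPf
  have hSK : (↑(S P) : Set Qb) ⊆ (K : Set Qb) := by
    refine subset_trans ?_ hK
    intro c hc
    exact Finset.mem_coe.mpr (Finset.mem_biUnion.mpr ⟨P, hPmem, Finset.mem_coe.mp hc⟩)
  have hord : ∀ y : FK N K, P.ord (Fermat.Agent.S18.Glob.toBar N K y) = v.ord y :=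
    fun y => hP y (Fermat.Agent.S18.Glob.fk_le_bar N K y.2)
  have hx' : Fermat.Agent.S18.Glob.toBar N K x ∈ P.toValuationSubring := by
    apply Fermat.Agent.S24.mem_of_ord_nonneg
    rw [hord x]
    exact Fermat.Agent.S24.ord_nonneg_of_mem v hx
  obtain ⟨c, hc⟩ := hS P K hSK (Fermat.Agent.S18.Glob.toBar N K x) x.2 hx'
  refine ⟨c, ?_⟩
  have e : Fermat.Agent.S18.Glob.toBar N K x - algebraMap Qb (modularFunctionFieldBar N) (c : Qb)
      = Fermat.Agent.S18.Glob.toBar N K (x - algebraMap K (FK N K) c) := by
    rw [map_sub, toBar_algebraMapK]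
  rw [e, Fermat.Agent.S37.NormVal.mem_nonunits_iff_ord] at hc
  rw [Fermat.Agent.S37.NormVal.mem_nonunits_iff_ord]
  rcases hc with h0 | hpos
  · left
    exact (map_eq_zero _).mp h0
  · right
    rw [← hord]
    exact hpos

omit [NeZero N] in
/-- **(R3) Sections.**  Let `v` be a `K`-rational place of `F_K / K`, `R` a subalgebra of `F_K`
over `O = A ∩ K` contained in the valuation ring of `v`, and `n` a proper ideal of `R` containing
`𝔪_O R` and the centre `𝔮_v = R ∩ 𝔪_v` of `v` (a closed point of the special fibre through which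
the horizontal prime `𝔮_v` passes).  Then `R = O + 𝔮_v`: every element of `R` is congruent modulo
`𝔪_v` to a constant of `O`. -/
theorem exists_sec (A : ValuationSubring Qb) (K : IntermediateField ℚ Qb)
    (v : Place K (FK N K)) (hv : IsRational N K v)
    (R : Subalgebra (OK A K) (FK N K)) (hR : ∀ x ∈ R, x ∈ v.toValuationSubring)
    (n : Ideal R) (hn : n ≠ ⊤)
    (hπ : ∀ a ∈ IsLocalRing.maximalIdeal (OK A K), algebraMap (OK A K) R a ∈ n)
    (hq : ∀ x : R, (x : FK N K) ∈ v.toValuationSubring.nonunits → x ∈ n) :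
    ∀ x : R, ∃ c : OK A K,
      (x : FK N K) - algebraMap (OK A K) (FK N K) c ∈ v.toValuationSubring.nonunits := by
  intro x
  obtain ⟨c, hc⟩ := hv (x : FK N K) (hR _ x.2)
  by_cases hcA : c ∈ OK A K
  · exact ⟨⟨c, hcA⟩, hc⟩
  · exfalso
    -- `c⁻¹` is a nonunit of `O`
    have hc0 : c ≠ 0 := fun h0 => hcA (h0 ▸ zero_mem _)
    have hci : c⁻¹ ∈ OK A K := ((OK A K).mem_or_inv_mem c).resolve_left hcA
    have hd : (⟨c⁻¹, hci⟩ : OK A K) ∈ IsLocalRing.maximalIdeal (OK A K) := by
      rw [IsLocalRing.mem_maximalIdeal, mem_nonunits_iff]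
      intro hu
      obtain ⟨e, he⟩ := hu.exists_right_inv
      apply hcA
      have h1 : c⁻¹ * (e : K) = 1 := congrArg Subtype.val he
      have h2 : (e : K) = c := by
        have h3 := congrArg (fun z => c * z) h1
        simp only [← mul_assoc, mul_inv_cancel₀ hc0, one_mul, mul_one] at h3
        exact h3
      rw [← h2]
      exact e.2
    have h1 := hπ _ hd
    have h2 : algebraMap (OK A K) R ⟨c⁻¹, hci⟩ * x - 1 ∈ n := by
      apply hq
      have e : ((algebraMap (OK A K) R ⟨c⁻¹, hci⟩ * x - 1 : R) : FK N K)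
          = algebraMap K (FK N K) c⁻¹ * ((x : FK N K) - algebraMap K (FK N K) c) := by
        have e1 : ((algebraMap (OK A K) R ⟨c⁻¹, hci⟩ : R) : FK N K)
            = algebraMap K (FK N K) c⁻¹ := rfl
        rw [Subalgebra.coe_sub, Subalgebra.coe_mul, Subalgebra.coe_one, e1, mul_sub, ← map_mul,
          inv_mul_cancel₀ hc0, map_one]
      rw [e]
      exact mul_mem_nonunits (v.algebraMap_mem' c⁻¹) hc
    apply hn
    rw [Ideal.eq_top_iff_one]
    have h3 := n.sub_mem (n.mul_mem_right x h1) h2
    rwa [sub_sub_cancel] at h3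

omit [NeZero N] in
/-- **(R3'), bundled.**  In the situation of `exists_sec` the section is an `O`-algebra
homomorphism `z : R → O` with `x ≡ z x` modulo `𝔪_v`; its kernel is the centre `R ∩ 𝔪_v`. -/
theorem exists_sec_algHom (A : ValuationSubring Qb) (K : IntermediateField ℚ Qb)
    (v : Place K (FK N K)) (hv : IsRational N K v)
    (R : Subalgebra (OK A K) (FK N K)) (hR : ∀ x ∈ R, x ∈ v.toValuationSubring)
    (n : Ideal R) (hn : n ≠ ⊤)
    (hπ : ∀ a ∈ IsLocalRing.maximalIdeal (OK A K), algebraMap (OK A K) R a ∈ n)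
    (hq : ∀ x : R, (x : FK N K) ∈ v.toValuationSubring.nonunits → x ∈ n) :
    ∃ z : R →ₐ[OK A K] OK A K,
      (∀ x : R, (x : FK N K) - algebraMap (OK A K) (FK N K) (z x)
        ∈ v.toValuationSubring.nonunits) ∧
      ∀ x : R, z x = 0 ↔ (x : FK N K) ∈ v.toValuationSubring.nonunits := by
  have hsec := exists_sec N A K v hv R hR n hn hπ hq
  choose z hz using hsec
  -- values in `K`
  have hval : ∀ x : R, ValAt v (x : FK N K) ((z x : OK A K) : K) := hz
  have uniq : ∀ (x : R) (c : OK A K), ValAt v (x : FK N K) (c : K) → z x = c := fun x c h =>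
    Subtype.ext (valAt_unique v (hval x) h)
  refine ⟨{ toFun := z
            map_one' := uniq 1 1 (valAt_one v)
            map_mul' := fun x y => uniq (x * y) (z x * z y) (valAt_mul v (hval x) (hval y))
            map_zero' := uniq 0 0 (valAt_zero v)
            map_add' := fun x y => uniq (x + y) (z x + z y) (valAt_add v (hval x) (hval y))
            commutes' := fun c => uniq (algebraMap (OK A K) R c) c (valAt_algebraMap v (c : K)) },
    hz, fun x => ⟨fun h0 => ?_, fun hx => ?_⟩⟩
  · have h1 := hval x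
    have h2 : z x = 0 := h0
    rw [h2] at h1
    exact (valAt_zero_iff v).mp h1
  · exact uniq x 0 ((valAt_zero_iff v).mpr hx)

end Modular

end Fermat.Agent.S34.RatPlace
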