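/-
S34 — SecDict.lean (helper73), [MODULAR] row [Sec/Dict], abstract part.

The prime ↔ place link for a chart `R` of an arithmetic surface over a discrete valuation ring `O`
(fraction field `K`, uniformiser `ϖ`), `E = Frac R` a field over `K`:

* `exists_place`  : a prime `𝔮` of `R` with `ϖ ∉ 𝔮` whose localisation is a discrete valuation
                    ring is the centre of a place `v` of `E / K` with valuation ring `R_𝔮`;
* `exists_sec`    : if that place is `K`-rational and `𝔮` lies in a proper ideal `n ∋ ϖ`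
                    (a closed point of the special fibre), then `R = O + 𝔮`: there is an
                    `O`-section `z : R →ₐ[O] O` with kernel `𝔮`;
* `hRat`          : the input `hRat` of `LocPrin` : `ord_𝔮 f = m · k`, and `𝔮` is `O`-rational
                    when `k ≠ 0`.
-/
import Mathlib
import Fermat.Prelude.Def_AlgebraicCurve_DivisorClassGroup

set_option autoImplicit false

noncomputable section

namespace Fermat.Agent.S34.SecDict

open AlgebraicCurve

variable {O K E R : Type*} [CommRing O] [IsDomain O] [IsDiscreteValuationRing O]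
  [Field K] [Algebra O K] [IsFractionRing O K]
  [Field E] [Algebra K E] [Algebra O E] [IsScalarTower O K E]
  [CommRing R] [IsDomain R] [Algebra O R] [Algebra R E] [IsScalarTower O R E]
  [IsFractionRing R E]

set_option linter.unusedSectionVars false
set_option linter.style.haveILetI false

section Loc

variable (E) (𝔮 : Ideal R) [𝔮.IsPrime]

theorem isUnit_algebraMap_of_notMem (y : 𝔮.primeCompl) : IsUnit (algebraMap R E (y : R)) := by
  have hy : (y : R) ≠ 0 := fun h => y.2 (h ▸ 𝔮.zero_mem)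
  exact IsUnit.mk0 _ ((map_ne_zero_iff _ (IsFractionRing.injective R E)).mpr hy)

/-- The canonical map `R_𝔮 → E`. -/
def locMap : Localization.AtPrime 𝔮 →+* E :=
  IsLocalization.lift (M := 𝔮.primeCompl) (g := algebraMap R E) (isUnit_algebraMap_of_notMem E 𝔮)

theorem locMap_algebraMap (x : R) :
    locMap E 𝔮 (algebraMap R (Localization.AtPrime 𝔮) x) = algebraMap R E x :=
  IsLocalization.lift_eq _ x

/-- The localisation `R_𝔮`, a discrete valuation ring, as a valuation subring of `E`. -/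
theorem exists_valuationSubring (h : IsDiscreteValuationRing (Localization.AtPrime 𝔮)) :
    ∃ V : ValuationSubring E, IsPrincipalIdealRing V ∧ V ≠ ⊤ ∧
      ∀ x : E, x ∈ V ↔ ∃ a s : R, s ∉ 𝔮 ∧ x * algebraMap R E s = algebraMap R E a := by
  letI : Algebra (Localization.AtPrime 𝔮) E := (locMap E 𝔮).toAlgebra
  haveI : IsScalarTower R (Localization.AtPrime 𝔮) E :=
    IsScalarTower.of_algebraMap_eq fun x => (locMap_algebraMap E 𝔮 x).symm
  haveI : IsFractionRing (Localization.AtPrime 𝔮) E :=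
    IsFractionRing.isFractionRing_of_isDomain_of_isLocalization 𝔮.primeCompl _ _
  have hinj : Function.Injective (algebraMap (Localization.AtPrime 𝔮) E) :=
    IsFractionRing.injective _ _
  let V : ValuationSubring E :=
    (ValuationRing.valuation (Localization.AtPrime 𝔮) E).valuationSubring
  have hmem : ∀ x : E, x ∈ V ↔ ∃ l : Localization.AtPrime 𝔮, algebraMap _ E l = x :=
    fun x => ValuationRing.mem_integer_iff _ _ x
  have hmem' : ∀ x : E, x ∈ V ↔ ∃ a s : R, s ∉ 𝔮 ∧ x * algebraMap R E s = algebraMap R E a := by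
    intro x
    rw [hmem]
    constructor
    · rintro ⟨l, rfl⟩
      obtain ⟨a, s, rfl⟩ := IsLocalization.exists_mk'_eq 𝔮.primeCompl l
      refine ⟨a, s, s.2, ?_⟩
      rw [IsScalarTower.algebraMap_apply R (Localization.AtPrime 𝔮) E (s : R),
        IsScalarTower.algebraMap_apply R (Localization.AtPrime 𝔮) E a, ← map_mul,
        IsLocalization.mk'_spec]
    · rintro ⟨a, s, hs, hx⟩
      refine ⟨IsLocalization.mk' _ a (⟨s, hs⟩ : 𝔮.primeCompl), ?_⟩
      have hs0 : algebraMap R E s ≠ 0 := (isUnit_algebraMap_of_notMem E 𝔮 ⟨s, hs⟩).ne_zero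
      apply mul_right_cancel₀ hs0
      rw [hx, IsScalarTower.algebraMap_apply R (Localization.AtPrime 𝔮) E s,
        IsScalarTower.algebraMap_apply R (Localization.AtPrime 𝔮) E a, ← map_mul]
      congr 1
      exact IsLocalization.mk'_spec _ a (⟨s, hs⟩ : 𝔮.primeCompl)
  refine ⟨V, ?_, ?_, hmem'⟩
  · -- principal ideal ring: `V` is a quotient (indeed an isomorphic copy) of `R_𝔮`
    let f : Localization.AtPrime 𝔮 →+* V :=
      (algebraMap (Localization.AtPrime 𝔮) E).codRestrict V (fun l => (hmem _).2 ⟨l, rfl⟩)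
    have hf : Function.Surjective f := by
      rintro ⟨x, hx⟩
      obtain ⟨l, rfl⟩ := (hmem x).1 hx
      exact ⟨l, rfl⟩
    exact IsPrincipalIdealRing.of_surjective f hf
  · intro htop
    obtain ⟨ϖL, hϖL⟩ := IsDiscreteValuationRing.exists_irreducible (Localization.AtPrime 𝔮)
    have hx0 : algebraMap (Localization.AtPrime 𝔮) E ϖL ≠ 0 :=
      (map_ne_zero_iff _ hinj).mpr hϖL.ne_zero
    have hxV : (algebraMap (Localization.AtPrime 𝔮) E ϖL)⁻¹ ∈ V := by
      rw [htop]; exact ValuationSubring.mem_top _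
    obtain ⟨l, hl⟩ := (hmem _).1 hxV
    apply hϖL.not_isUnit
    refine IsUnit.of_mul_eq_one l (hinj ?_)
    rw [map_mul, hl, map_one, mul_inv_cancel₀ hx0]

end Loc

/-! ### Generic facts on valuation subrings and places -/

section Generic

/-- Membership in the non-units of a valuation subring, without valuations. -/
theorem mem_nonunits_iff (V : ValuationSubring E) (x : E) :
    x ∈ V.nonunits ↔ x = 0 ∨ x⁻¹ ∉ V := by
  rw [ValuationSubring.mem_nonunits_iff]
  rcases eq_or_ne x 0 with rfl | hx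
  · simp
  · rw [← ValuationSubring.valuation_le_one_iff, map_inv₀, not_le]
    have h0 : V.valuation x ≠ 0 := (Valuation.ne_zero_iff _).mpr hx
    constructor
    · intro h
      exact Or.inr ((one_lt_inv₀ (zero_lt_iff.mpr h0)).mpr h)
    · rintro (h | h)
      · exact absurd h hx
      · exact (one_lt_inv₀ (zero_lt_iff.mpr h0)).mp h

variable (v : Place K E)

/-- Elements of the valuation ring of a place have nonnegative order. -/
theorem ord_nonneg_of_mem {x : E} (hx : x ∈ v.toValuationSubring) : 0 ≤ v.ord x := by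
  rcases eq_or_ne x 0 with rfl | hx0
  · simp
  · have h1 : v.adicValuation x ≤ 1 := by
      have := v.adicValuation_coe ⟨x, hx⟩
      rw [this]
      exact IsDedekindDomain.HeightOneSpectrum.intValuation_le_one _ _
    have h2 : WithZero.log (v.adicValuation x) ≤ WithZero.log 1 :=
      (WithZero.log_le_log (v.adicValuation_ne_zero hx0) one_ne_zero).mpr h1
    rw [WithZero.log_one] at h2
    unfold Place.ord
    linarith

/-- Nonzero elements of the maximal ideal of a place have positive order. -/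
theorem ord_pos_of_mem_nonunits {x : E} (hx0 : x ≠ 0)
    (hx : x ∈ v.toValuationSubring.nonunits) : 0 < v.ord x := by
  obtain ⟨hxm, hmax⟩ := ValuationSubring.mem_nonunits_iff_exists_mem_maximalIdeal.mp hx
  have h1 : v.adicValuation x < 1 := by
    have := v.adicValuation_coe ⟨x, hxm⟩
    rw [this]
    exact (IsDedekindDomain.HeightOneSpectrum.intValuation_lt_one_iff_mem _ _).mpr hmax
  have h2 : WithZero.log (v.adicValuation x) < WithZero.log 1 :=
    (WithZero.log_lt_log (v.adicValuation_ne_zero hx0) one_ne_zero).mpr h1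
  rw [WithZero.log_one] at h2
  unfold Place.ord
  linarith

/-- A unit of the valuation ring has order `0`. -/
theorem ord_eq_zero_of_mem_of_inv_mem {x : E} (hx : x ∈ v.toValuationSubring)
    (hx' : x⁻¹ ∈ v.toValuationSubring) : v.ord x = 0 := by
  have h1 := ord_nonneg_of_mem v hx
  have h2 := ord_nonneg_of_mem v hx'
  rw [v.ord_inv] at h2
  omega

/-- An element of order `0` is a unit of the valuation ring. -/
theorem mem_and_inv_mem_of_ord_eq_zero {x : E} (hx0 : x ≠ 0) (hx : v.ord x = 0) :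
    x ∈ v.toValuationSubring ∧ x⁻¹ ∈ v.toValuationSubring := by
  obtain ⟨π, hπ⟩ := IsDiscreteValuationRing.exists_irreducible v.toValuationSubring
  obtain ⟨u, hu⟩ := v.exists_unit_mul_zpow hx0 hπ
  rw [hx, zpow_zero, mul_one] at hu
  refine ⟨hu ▸ (u : v.toValuationSubring).2, ?_⟩
  have h2 : x⁻¹ = (((u⁻¹ : (v.toValuationSubring)ˣ) : v.toValuationSubring) : E) := by
    apply inv_eq_of_mul_eq_one_right
    rw [hu]
    have h4 : (u : v.toValuationSubring) * ((u⁻¹ : (v.toValuationSubring)ˣ) : v.toValuationSubring)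
        = 1 := u.mul_inv
    exact_mod_cast congrArg (Subtype.val : v.toValuationSubring → E) h4
  rw [h2]
  exact ((u⁻¹ : (v.toValuationSubring)ˣ) : v.toValuationSubring).2

end Generic

/-! ### The place of a horizontal prime -/

section PlaceOfPrime

variable (ϖ : O) (𝔮 : Ideal R) [𝔮.IsPrime]

/-- Nonzero constants are units at a prime not containing the uniformiser. -/
theorem algebraMap_notMem (hϖ : Irreducible ϖ) (hϖ𝔮 : algebraMap O R ϖ ∉ 𝔮) {b : O}
    (hb : b ≠ 0) : algebraMap O R b ∉ 𝔮 := by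
  obtain ⟨j, u, rfl⟩ := IsDiscreteValuationRing.eq_unit_mul_pow_irreducible hb hϖ
  intro hmem
  rw [map_mul, map_pow] at hmem
  rcases Ideal.IsPrime.mem_or_mem ‹𝔮.IsPrime› hmem with h | h
  · exact Ideal.IsPrime.ne_top ‹𝔮.IsPrime› (Ideal.eq_top_of_isUnit_mem _ h (u.isUnit.map _))
  · exact hϖ𝔮 (Ideal.IsPrime.mem_of_pow_mem ‹𝔮.IsPrime› _ h)

/-- **(S1)** A prime `𝔮 ∌ ϖ` of `R` with `R_𝔮` a discrete valuation ring is the centre of a
place of `E / K` whose valuation ring is `R_𝔮`. -/
theorem exists_place (hϖ : Irreducible ϖ) (hϖ𝔮 : algebraMap O R ϖ ∉ 𝔮)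
    (h : IsDiscreteValuationRing (Localization.AtPrime 𝔮)) :
    ∃ v : Place K E, ∀ x : E, x ∈ v.toValuationSubring ↔
      ∃ a s : R, s ∉ 𝔮 ∧ x * algebraMap R E s = algebraMap R E a := by
  obtain ⟨V, hPID, htop, hV⟩ := exists_valuationSubring E 𝔮 h
  refine ⟨⟨V, ?_, htop, hPID⟩, hV⟩
  intro c
  obtain ⟨a, b, hb, rfl⟩ := IsFractionRing.div_surjective (A := O) c
  have hb0 : b ≠ 0 := nonZeroDivisors.ne_zero hb
  refine (hV _).2 ⟨algebraMap O R a, algebraMap O R b, algebraMap_notMem ϖ 𝔮 hϖ hϖ𝔮 hb0, ?_⟩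
  have hbE : algebraMap K E (algebraMap O K b) ≠ 0 :=
    (map_ne_zero_iff _ (algebraMap K E).injective).mpr
      ((map_ne_zero_iff _ (IsFractionRing.injective O K)).mpr hb0)
  rw [← IsScalarTower.algebraMap_apply O R E, ← IsScalarTower.algebraMap_apply O R E,
    IsScalarTower.algebraMap_apply O K E b, IsScalarTower.algebraMap_apply O K E a, map_div₀,
    div_mul_cancel₀ _ hbE]

variable {𝔮}

section Centre

variable (v : Place K E)
  (hv : ∀ x : E, x ∈ v.toValuationSubring ↔
    ∃ a s : R, s ∉ 𝔮 ∧ x * algebraMap R E s = algebraMap R E a)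

include hv

theorem algebraMap_mem_place (x : R) : algebraMap R E x ∈ v.toValuationSubring :=
  (hv _).2 ⟨x, 1, (Ideal.ne_top_iff_one 𝔮).mp (Ideal.IsPrime.ne_top ‹𝔮.IsPrime›),
    by rw [map_one, mul_one]⟩

theorem inv_algebraMap_mem_place {x : R} (hx : x ∉ 𝔮) :
    (algebraMap R E x)⁻¹ ∈ v.toValuationSubring := by
  have hx0 : algebraMap R E x ≠ 0 := (isUnit_algebraMap_of_notMem E 𝔮 ⟨x, hx⟩).ne_zero
  exact (hv _).2 ⟨1, x, hx, by rw [map_one, inv_mul_cancel₀ hx0]⟩

/-- The centre of the place on `R` is `𝔮`. -/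
theorem mem_iff_mem_nonunits (x : R) :
    x ∈ 𝔮 ↔ algebraMap R E x ∈ v.toValuationSubring.nonunits := by
  have hinj : Function.Injective (algebraMap R E) := IsFractionRing.injective R E
  constructor
  · intro hx
    rw [mem_nonunits_iff]
    by_cases hx0 : algebraMap R E x = 0
    · exact Or.inl hx0
    · right
      intro hmem
      obtain ⟨a, s, hs, has⟩ := (hv _).1 hmem
      apply hs
      have h1 : algebraMap R E s = algebraMap R E (a * x) := by
        rw [map_mul, ← has]
        field_simp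
      rw [hinj h1]
      exact 𝔮.mul_mem_left a hx
  · intro hx
    by_contra hxq
    rw [mem_nonunits_iff] at hx
    have hx0 : algebraMap R E x ≠ 0 := (isUnit_algebraMap_of_notMem E 𝔮 ⟨x, hxq⟩).ne_zero
    rcases hx with hx | hx
    · exact hx0 hx
    · exact hx (inv_algebraMap_mem_place v hv hxq)

theorem ord_algebraMap_eq_zero {x : R} (hx : x ∉ 𝔮) : v.ord (algebraMap R E x) = 0 :=
  ord_eq_zero_of_mem_of_inv_mem v (algebraMap_mem_place v hv x) (inv_algebraMap_mem_place v hv hx)

/-- A local generator of `𝔮` has order `1`. -/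
theorem ord_gen {t : R} (ht : t ∈ 𝔮) (hgen : ∀ y ∈ 𝔮, ∃ s c : R, s ∉ 𝔮 ∧ s * y = c * t) :
    v.ord (algebraMap R E t) = 1 := by
  have hinj : Function.Injective (algebraMap R E) := IsFractionRing.injective R E
  obtain ⟨π, hπ⟩ := IsDiscreteValuationRing.exists_irreducible v.toValuationSubring
  have hπ0 : (π : E) ≠ 0 := fun h => hπ.ne_zero (Subtype.ext h)
  obtain ⟨a, s, hs, has⟩ := (hv _).1 π.2
  have hs0 : algebraMap R E s ≠ 0 := (isUnit_algebraMap_of_notMem E 𝔮 ⟨s, hs⟩).ne_zero
  -- `a ∈ 𝔮`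
  have ha : a ∈ 𝔮 := by
    by_contra haq
    have ha0 : algebraMap R E a ≠ 0 := (isUnit_algebraMap_of_notMem E 𝔮 ⟨a, haq⟩).ne_zero
    have hπinv : (π : E)⁻¹ ∈ v.toValuationSubring := by
      have h1 : (π : E)⁻¹ = algebraMap R E s * (algebraMap R E a)⁻¹ := by
        rw [← has]
        field_simp
      rw [h1]
      exact mul_mem (algebraMap_mem_place v hv s) (inv_algebraMap_mem_place v hv haq)
    apply hπ.not_isUnit
    refine IsUnit.of_mul_eq_one (⟨(π : E)⁻¹, hπinv⟩ : v.toValuationSubring) (Subtype.ext ?_)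
    change (π : E) * (π : E)⁻¹ = 1
    exact mul_inv_cancel₀ hπ0
  obtain ⟨s', c, hs', hsc⟩ := hgen a ha
  have hs'0 : algebraMap R E s' ≠ 0 := (isUnit_algebraMap_of_notMem E 𝔮 ⟨s', hs'⟩).ne_zero
  have hE : (π : E) * algebraMap R E s * algebraMap R E s' = algebraMap R E c * algebraMap R E t := by
    rw [has, ← map_mul, ← map_mul, mul_comm a s', hsc]
  have hne : (π : E) * algebraMap R E s * algebraMap R E s' ≠ 0 :=
    mul_ne_zero (mul_ne_zero hπ0 hs0) hs'0
  have hc0 : algebraMap R E c ≠ 0 := fun h => hne (by rw [hE, h, zero_mul])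
  have ht0 : algebraMap R E t ≠ 0 := fun h => hne (by rw [hE, h, mul_zero])
  have h1 := congrArg v.ord hE
  rw [v.ord_mul (mul_ne_zero hπ0 hs0) hs'0, v.ord_mul hπ0 hs0, v.ord_mul hc0 ht0,
    v.ord_coe_irreducible hπ, ord_algebraMap_eq_zero v hv hs, ord_algebraMap_eq_zero v hv hs'] at h1
  have h2 : 0 ≤ v.ord (algebraMap R E c) := ord_nonneg_of_mem v (algebraMap_mem_place v hv c)
  have h3 : 0 < v.ord (algebraMap R E t) :=
    ord_pos_of_mem_nonunits v ht0 ((mem_iff_mem_nonunits v hv t).1 ht)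
  omega

/-- Order `0` at the place means unit at `𝔮`. -/
theorem unitAt_of_ord_eq_zero {x : E} (hx0 : x ≠ 0) (hx : v.ord x = 0) :
    ∃ a s : R, a ∉ 𝔮 ∧ s ∉ 𝔮 ∧ x * algebraMap R E s = algebraMap R E a := by
  have hinj : Function.Injective (algebraMap R E) := IsFractionRing.injective R E
  obtain ⟨h1, h2⟩ := mem_and_inv_mem_of_ord_eq_zero v hx0 hx
  obtain ⟨a, s, hs, has⟩ := (hv _).1 h1
  obtain ⟨a', s', hs', has'⟩ := (hv _).1 h2
  refine ⟨a, s, ?_, hs, has⟩
  intro ha
  have h3 : algebraMap R E (a * a') = algebraMap R E (s * s') := by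
    rw [map_mul, map_mul, ← has, ← has']
    field_simp
  have h4 : s * s' ∈ 𝔮 := by
    rw [← hinj h3]
    exact 𝔮.mul_mem_right a' ha
  rcases Ideal.IsPrime.mem_or_mem ‹𝔮.IsPrime› h4 with h | h
  · exact hs h
  · exact hs' h

end Centre

end PlaceOfPrime

/-! ### Sections at rational places -/

section Sec

theorem mul_mem_nonunits (V : ValuationSubring E) {k y : E} (hk : k ∈ V) (hy : y ∈ V.nonunits) :
    k * y ∈ V.nonunits := by
  rw [mem_nonunits_iff] at hy ⊢
  by_cases hp : k * y = 0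
  · exact Or.inl hp
  · right
    have hk0 : k ≠ 0 := left_ne_zero_of_mul hp
    have hy0 : y ≠ 0 := right_ne_zero_of_mul hp
    intro hmem
    rcases hy with hy | hy
    · exact hy0 hy
    · apply hy
      have h1 : y⁻¹ = k * (k * y)⁻¹ := by
        field_simp
      rw [h1]
      exact mul_mem hk hmem

variable (ϖ : O) {𝔮 : Ideal R} [𝔮.IsPrime] (n : Ideal R)

/-- **(S2)** A `K`-rational place centred at a prime `𝔮 ∌ ϖ` inside a proper ideal `n ∋ ϖ`
(a closed point of the special fibre) gives an `O`-section of `R` with kernel `𝔮`. -/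
theorem exists_sec (hϖ : Irreducible ϖ) (hϖ𝔮 : algebraMap O R ϖ ∉ 𝔮) (hn : n ≠ ⊤)
    (hϖn : algebraMap O R ϖ ∈ n) (h𝔮n : 𝔮 ≤ n) (v : Place K E)
    (hv : ∀ x : E, x ∈ v.toValuationSubring ↔
      ∃ a s : R, s ∉ 𝔮 ∧ x * algebraMap R E s = algebraMap R E a)
    (hrat : ∀ x ∈ v.toValuationSubring,
      ∃ c : K, x - algebraMap K E c ∈ v.toValuationSubring.nonunits) :
    ∃ z : R →ₐ[O] O, RingHom.ker (z : R →+* O) = 𝔮 := by
  have hOE : ∀ c : O, algebraMap R E (algebraMap O R c) = algebraMap K E (algebraMap O K c) := by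
    intro c
    rw [← IsScalarTower.algebraMap_apply O R E, ← IsScalarTower.algebraMap_apply O K E]
  -- existence of the value
  have key1 : ∀ x : R, ∃ c : O, x - algebraMap O R c ∈ 𝔮 := by
    intro x
    obtain ⟨c, hc⟩ := hrat (algebraMap R E x) (algebraMap_mem_place v hv x)
    have hint : ∀ c₀ : O, algebraMap O K c₀ = c → x - algebraMap O R c₀ ∈ 𝔮 := by
      intro c₀ hc₀
      rw [mem_iff_mem_nonunits v hv, map_sub, hOE, hc₀]
      exact hc
    rcases ValuationRing.isInteger_or_isInteger O c with ⟨c₀, hc₀⟩ | ⟨d, hd⟩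
    · exact ⟨c₀, hint c₀ hc₀⟩
    · by_cases hc0 : c = 0
      · exact ⟨0, hint 0 (by rw [map_zero, hc0])⟩
      by_cases hdu : IsUnit d
      · obtain ⟨u, rfl⟩ := hdu
        refine ⟨((u⁻¹ : Oˣ) : O), hint _ ?_⟩
        have h1 : algebraMap O K ((u⁻¹ : Oˣ) : O) * algebraMap O K (u : O) = 1 := by
          rw [← map_mul, Units.inv_mul, map_one]
        rw [hd] at h1
        exact (eq_inv_of_mul_eq_one_left h1).trans (inv_inv c)
      · exfalso
        -- `d = c⁻¹` is a non-unit of `O`, so it lies in `n`; but `d x - 1 ∈ 𝔮 ⊆ n`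
        have hdm : d ∈ IsLocalRing.maximalIdeal O := (IsLocalRing.mem_maximalIdeal d).mpr hdu
        rw [hϖ.maximalIdeal_eq, Ideal.mem_span_singleton] at hdm
        obtain ⟨d', rfl⟩ := hdm
        have hr : algebraMap O R (ϖ * d') * x - 1 ∈ 𝔮 := by
          rw [mem_iff_mem_nonunits v hv, map_sub, map_mul, hOE, hd, map_one]
          have h2 : algebraMap K E c⁻¹ * algebraMap R E x - 1
              = algebraMap K E c⁻¹ * (algebraMap R E x - algebraMap K E c) := by
            rw [mul_sub, ← map_mul, inv_mul_cancel₀ hc0, map_one]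
          rw [h2]
          exact mul_mem_nonunits _ (v.algebraMap_mem' _) hc
        apply hn
        rw [Ideal.eq_top_iff_one]
        have h3 : algebraMap O R (ϖ * d') * x ∈ n := by
          rw [map_mul, mul_assoc]
          exact n.mul_mem_right _ hϖn
        have h4 : (1 : R) = algebraMap O R (ϖ * d') * x - (algebraMap O R (ϖ * d') * x - 1) := by
          ring
        rw [h4]
        exact n.sub_mem h3 (h𝔮n hr)
  -- uniqueness of the value
  have key2 : ∀ c₁ c₂ : O, algebraMap O R c₁ - algebraMap O R c₂ ∈ 𝔮 → c₁ = c₂ := by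
    intro c₁ c₂ h
    by_contra hne
    have h0 : c₁ - c₂ ≠ 0 := sub_ne_zero.mpr hne
    apply algebraMap_notMem ϖ 𝔮 hϖ hϖ𝔮 h0
    rw [map_sub]
    exact h
  choose z₀ hz₀ using key1
  have zeq : ∀ (x : R) (c : O), x - algebraMap O R c ∈ 𝔮 → z₀ x = c := by
    intro x c hc
    apply key2
    have h1 : algebraMap O R (z₀ x) - algebraMap O R c
        = (x - algebraMap O R c) - (x - algebraMap O R (z₀ x)) := by ring
    rw [h1]
    exact 𝔮.sub_mem hc (hz₀ x)
  have h1 : z₀ 1 = 1 := zeq 1 1 (by rw [map_one, sub_self]; exact 𝔮.zero_mem)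
  have hmul : ∀ x y : R, z₀ (x * y) = z₀ x * z₀ y := by
    intro x y
    apply zeq
    have h2 : x * y - algebraMap O R (z₀ x * z₀ y)
        = x * (y - algebraMap O R (z₀ y)) + algebraMap O R (z₀ y) * (x - algebraMap O R (z₀ x)) := by
      rw [map_mul]; ring
    rw [h2]
    exact 𝔮.add_mem (𝔮.mul_mem_left _ (hz₀ y)) (𝔮.mul_mem_left _ (hz₀ x))
  have h0 : z₀ 0 = 0 := zeq 0 0 (by rw [map_zero, sub_self]; exact 𝔮.zero_mem)
  have hadd : ∀ x y : R, z₀ (x + y) = z₀ x + z₀ y := by
    intro x y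
    apply zeq
    have h2 : x + y - algebraMap O R (z₀ x + z₀ y)
        = (x - algebraMap O R (z₀ x)) + (y - algebraMap O R (z₀ y)) := by
      rw [map_add]; ring
    rw [h2]
    exact 𝔮.add_mem (hz₀ x) (hz₀ y)
  have hcomm : ∀ c : O, z₀ (algebraMap O R c) = c := fun c =>
    zeq _ c (by rw [sub_self]; exact 𝔮.zero_mem)
  refine ⟨{ toFun := z₀, map_one' := h1, map_mul' := hmul, map_zero' := h0, map_add' := hadd,
            commutes' := hcomm }, ?_⟩
  ext x
  rw [RingHom.mem_ker]
  change z₀ x = 0 ↔ x ∈ 𝔮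
  constructor
  · intro hx
    have := hz₀ x
    rwa [hx, map_zero, sub_zero] at this
  · intro hx
    exact zeq x 0 (by rwa [map_zero, sub_zero])

/-- **(S3)** The input `hRat` of `LocPrin`: at every prime `𝔮 ≤ n` with `ϖ ∉ 𝔮` and `R_𝔮` a
discrete valuation ring, `ord_𝔮 f = m · k` (for every local generator `t` of `𝔮`, `f / t ^ (m k)`
is a unit at `𝔮`), and `𝔮` is `O`-rational when `k ≠ 0`. -/
theorem hRat (hϖ : Irreducible ϖ) (hn : n ≠ ⊤) (hϖn : algebraMap O R ϖ ∈ n) (m : ℕ) (f : E)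
    (hf : f ≠ 0) (hdiv : ∀ v : Place K E, (m : ℤ) ∣ v.ord f)
    (hrat : ∀ v : Place K E, v.ord f ≠ 0 → ∀ x ∈ v.toValuationSubring,
      ∃ c : K, x - algebraMap K E c ∈ v.toValuationSubring.nonunits) :
    ∀ (𝔮 : Ideal R) [𝔮.IsPrime], 𝔮 ≤ n → algebraMap O R ϖ ∉ 𝔮 →
      IsDiscreteValuationRing (Localization.AtPrime 𝔮) →
      ∃ k : ℤ,
        (∀ t : R, (t ∈ 𝔮 ∧ ∀ y ∈ 𝔮, ∃ s c : R, s ∉ 𝔮 ∧ s * y = c * t) →
          ∃ a s : R, a ∉ 𝔮 ∧ s ∉ 𝔮 ∧
            f / algebraMap R E t ^ ((m : ℤ) * k) * algebraMap R E s = algebraMap R E a) ∧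
        (k ≠ 0 → ∃ z : R →ₐ[O] O, RingHom.ker (z : R →+* O) = 𝔮) := by
  intro 𝔮 _ h𝔮n hϖ𝔮 hD
  obtain ⟨v, hv⟩ := exists_place (K := K) (E := E) ϖ 𝔮 hϖ hϖ𝔮 hD
  by_cases h0 : v.ord f = 0
  · refine ⟨0, fun t _ => ?_, fun h => absurd rfl h⟩
    rw [mul_zero, zpow_zero, div_one]
    exact unitAt_of_ord_eq_zero v hv hf h0
  · obtain ⟨k, hk⟩ := hdiv v
    refine ⟨k, fun t ht => ?_,
      fun _ => exists_sec (K := K) (E := E) ϖ n hϖ hϖ𝔮 hn hϖn h𝔮n v hv (hrat v h0)⟩
    have ht1 : v.ord (algebraMap R E t) = 1 := ord_gen v hv ht.1 ht.2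
    have ht0 : algebraMap R E t ≠ 0 := by
      intro h
      rw [h, v.ord_zero] at ht1
      exact zero_ne_one ht1
    have hz0 : algebraMap R E t ^ ((m : ℤ) * k) ≠ 0 := zpow_ne_zero _ ht0
    apply unitAt_of_ord_eq_zero v hv (div_ne_zero hf hz0)
    rw [div_eq_mul_inv, v.ord_mul hf (inv_ne_zero hz0), v.ord_inv, v.ord_zpow, ht1, hk]
    ring

end Sec

end Fermat.Agent.S34.SecDict
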