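/-
S34 — HorInstB.lean (helper24), [MODULAR] row [HorInst], B-copy (helper5 DEAL #2493).

The `hor` field of `ModelPlan2.ChartModel` for an ARBITRARY chart `R` (a noetherian subalgebra of
`F_K = FK N K` over `O = OK A K` with fraction field `F_K`), at ANY level `N`:

* `hor_of_place`     : if every order of `fK` at a place of `F_K / K` is divisible by `m` and every
                       place in the support of `fK` is `K`-rational, then at every horizontal
                       prime `𝔮` (with `R_𝔮` a discrete valuation ring, specialising into a closed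
                       point `n` of the special fibre) either `fK` is a unit at `𝔮`, or `𝔮` is
                       `O`-rational and `fK` is a unit times an `m`-th power at `𝔮`;
* `exists_finset_hor` : the two hypotheses hold over every base field `K` containing a finite set
                       of constants depending only on `f` (with `m ∣ div f` over `ℚ̄`).

Route (independent of the A-copy): the abstract prime ↔ place link `SecDict.hRat` on
`Localization.AtPrime 𝔮`, the bridge `KrullStmt.dvr_of_princAt`, the dictionary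
`S18.Dict.dictStatement` and the rational support `RatPlace.exists_finset_rational_of_ord_ne_zero`.
-/
import Mathlib
import Fermat.Agent.S34.LocPlan
import Fermat.Agent.S34.KrullStmt
import Fermat.Agent.S34.SecDict
import Fermat.Agent.S34.RatPlace
import Fermat.Agent.S18.ArithPlan
import Fermat.Agent.S18.Dict
import Fermat.Agent.S18.Glob

set_option autoImplicit false
set_option linter.style.haveILetI false

noncomputable section

namespace Fermat.Agent.S34.HorInstB

open ModularCurve AlgebraicCurve HahnSeries Fermat.Agent.S18.Arith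

/-- **(H1)** The horizontal alternative at every horizontal prime of an arbitrary chart. -/
theorem hor_of_place (N : ℕ) [NeZero N] (A : ValuationSubring Qb) (K : IntermediateField ℚ Qb)
    (hdvr : IsDiscreteValuationRing (OK A K)) (π : OK A K) (hπ : Irreducible π) (m : ℕ)
    (fK : FK N K) (hf : fK ≠ 0)
    (hdiv : ∀ v : Place K (FK N K), (m : ℤ) ∣ v.ord fK)
    (hrat : ∀ v : Place K (FK N K), v.ord fK ≠ 0 → RatPlace.IsRational N K v)
    (R : Subalgebra (OK A K) (FK N K)) [IsNoetherianRing R] [IsFractionRing R (FK N K)] :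
    ∀ n : Ideal R, n.IsMaximal → algebraMap (OK A K) R π ∈ n →
    ∀ 𝔮 : Ideal R, 𝔮.IsPrime → 𝔮 ≤ n → algebraMap (OK A K) R π ∉ 𝔮 → LocPlan.PrincAt 𝔮 →
      LocPlan.UnitAt 𝔮 fK ∨
        ((∀ r : R, ∃ c : OK A K, r - algebraMap (OK A K) R c ∈ 𝔮) ∧
          ∃ x : FK N K, x ≠ 0 ∧ LocPlan.UnitAt 𝔮 (fK * x ^ m)) := by
  intro n hn hπn 𝔮 h𝔮 h𝔮n hπ𝔮 hP
  haveI := hdvr
  haveI := h𝔮
  have hD : IsDiscreteValuationRing (Localization.AtPrime 𝔮) := KrullStmt.dvr_of_princAt 𝔮 hP
  obtain ⟨k, hk1, hk2⟩ := SecDict.hRat (K := K) (E := FK N K) π n hπ hn.ne_top hπn m fK hf hdiv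
    hrat 𝔮 h𝔮n hπ𝔮 hD
  obtain ⟨hne, t, ht, hgen⟩ := hP
  have hgen' : ∀ y ∈ 𝔮, ∃ s c : R, s ∉ 𝔮 ∧ s * y = c * t := by
    intro y hy
    obtain ⟨s, hs, c, hc⟩ := hgen y hy
    exact ⟨s, c, hs, hc⟩
  have hU := hk1 t ⟨ht, hgen'⟩
  by_cases hk0 : k = 0
  · left
    rw [hk0, mul_zero, zpow_zero, div_one] at hU
    exact hU
  · right
    obtain ⟨z, hz⟩ := hk2 hk0
    refine ⟨fun r => ⟨z r, ?_⟩, ?_⟩
    · rw [← hz, RingHom.mem_ker]
      change z (r - algebraMap (OK A K) R (z r)) = 0
      rw [map_sub, AlgHom.commutes]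
      exact sub_self _
    · have ht0 : t ≠ 0 := KrullStmt.gen_ne_zero hne hgen
      have htE : algebraMap R (FK N K) t ≠ 0 :=
        (map_ne_zero_iff _ (IsFractionRing.injective R (FK N K))).mpr ht0
      refine ⟨algebraMap R (FK N K) t ^ (-k), zpow_ne_zero _ htE, ?_⟩
      have e : fK * (algebraMap R (FK N K) t ^ (-k)) ^ m
          = fK / algebraMap R (FK N K) t ^ ((m : ℤ) * k) := by
        rw [div_eq_mul_inv, ← zpow_natCast (algebraMap R (FK N K) t ^ (-k)) m, ← zpow_mul,
          ← zpow_neg]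
        congr 2
        ring
      rw [e]
      exact hU

/-- **(H2)** The two hypotheses of `hor_of_place` over every base field containing a finite set
of constants attached to `f`. -/
theorem exists_finset_hor (N : ℕ) [NeZero N] (m : ℕ) (f : modularFunctionFieldBar N)
    (hf : f ≠ 0) (hdiv : ∀ P : Place Qb (modularFunctionFieldBar N), (m : ℤ) ∣ P.ord f) :
    ∃ S : Finset Qb, ∀ K : IntermediateField ℚ Qb, (↑S ⊆ (K : Set Qb)) →
      ∀ fK : FK N K, Fermat.Agent.S18.Glob.toBar N K fK = f →
        (∀ v : Place K (FK N K), (m : ℤ) ∣ v.ord fK) ∧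
        (∀ v : Place K (FK N K), v.ord fK ≠ 0 → RatPlace.IsRational N K v) := by
  obtain ⟨S, hS⟩ := RatPlace.exists_finset_rational_of_ord_ne_zero N f hf
  refine ⟨S, fun K hK fK hfK => ⟨fun v => ?_, fun v hv => hS K hK v ⟨fK, ?_, hv⟩⟩⟩
  · obtain ⟨P, hP⟩ := Fermat.Agent.S18.Dict.dictStatement N K v
    have h1 := hP fK (Fermat.Agent.S18.Glob.fk_le_bar N K fK.2)
    have e : (⟨(fK : LaurentSeries Qb), Fermat.Agent.S18.Glob.fk_le_bar N K fK.2⟩ :
        modularFunctionFieldBar N) = f := hfK
    rw [e] at h1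
    rw [← h1]
    exact hdiv P
  · rw [← hfK]
    rfl

/-- **(H1) + (H2)**: the `hor` field of `ModelPlan2.ChartModel`, for every chart over every base
field containing a finite set of constants attached to `f`. -/
theorem exists_finset_chart_hor (N : ℕ) [NeZero N] (m : ℕ) (f : modularFunctionFieldBar N)
    (hf : f ≠ 0) (hdiv : ∀ P : Place Qb (modularFunctionFieldBar N), (m : ℤ) ∣ P.ord f) :
    ∃ S : Finset Qb, ∀ K : IntermediateField ℚ Qb, (↑S ⊆ (K : Set Qb)) →
      ∀ (A : ValuationSubring Qb), IsDiscreteValuationRing (OK A K) →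
      ∀ (π : OK A K), Irreducible π →
      ∀ fK : FK N K, Fermat.Agent.S18.Glob.toBar N K fK = f →
      ∀ (R : Subalgebra (OK A K) (FK N K)), IsNoetherianRing R → IsFractionRing R (FK N K) →
      ∀ n : Ideal R, n.IsMaximal → algebraMap (OK A K) R π ∈ n →
      ∀ 𝔮 : Ideal R, 𝔮.IsPrime → 𝔮 ≤ n → algebraMap (OK A K) R π ∉ 𝔮 → LocPlan.PrincAt 𝔮 →
        LocPlan.UnitAt 𝔮 fK ∨
          ((∀ r : R, ∃ c : OK A K, r - algebraMap (OK A K) R c ∈ 𝔮) ∧
            ∃ x : FK N K, x ≠ 0 ∧ LocPlan.UnitAt 𝔮 (fK * x ^ m)) := by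
  obtain ⟨S, hS⟩ := exists_finset_hor N m f hf hdiv
  refine ⟨S, fun K hK A hdvr π hπ fK hfK R hR1 hR2 => ?_⟩
  haveI := hR1
  haveI := hR2
  have hfK0 : fK ≠ 0 := by
    rintro rfl
    exact hf (by rw [← hfK, map_zero])
  exact hor_of_place N A K hdvr π hπ m fK hfK0 (hS K hK fK hfK).1 (hS K hK fK hfK).2 R

end Fermat.Agent.S34.HorInstB
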