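/-
S34 — BaseNormal.lean (helper37), MODULAR block, leaf [Base2] = [BaseNormal].

The base field of the node argument: for finitely many functions `f ∈ F̄ = modularFunctionFieldBar N`
and finitely many constants there is an intermediate field `K` of `ℚ̄/ℚ` such that

* `K` is stable under `Gal(ℚ̄/ℚ)` (`Stable K`; so every `τ` acts on `F_K = FK N K` coefficientwise);
* `S18.Arith.BaseFacts ℓ A K` holds (`O = A ∩ K` is a discrete valuation ring with residue field
  `ResidueField A`, prime-to-`ℓ` roots of unity lie in `K`);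
* the given functions lie in `F_K`;
* every zero and every pole `P` of the given functions is fixed by `Gal(ℚ̄/K)`, hence is
  `K`-rational: the residue at `P` of a function of `F_K` regular at `P` lies in `K`.

No hypothesis `ℓ ∤ N` is used anywhere.
-/
import Mathlib
import Fermat.Agent.S18.Base
import Fermat.Agent.S18.DescCoeff
import Fermat.Agent.S18.RedDiv
import Fermat.Agent.S29.FinLevel
import Fermat.Agent.S24.Residue

set_option autoImplicit false

noncomputable section

namespace Fermat.Agent.S34.BaseNormal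

open ModularCurve AlgebraicCurve HahnSeries Fermat.Agent.S18.Arith

attribute [local instance] Fermat.Agent.S29.FinLevel.isAlgClosure_rat
  Fermat.Agent.S29.FinLevel.isAlgebraic_rat Fermat.Agent.S29.FinLevel.normal_rat

/-! ### Galois-stable intermediate fields -/

/-- `K` is stable under `Gal(ℚ̄/ℚ)`. -/
def Stable (K : IntermediateField ℚ Qb) : Prop :=
  ∀ (σ : Qb ≃ₐ[ℚ] Qb) (a : Qb), a ∈ K → σ a ∈ K

theorem Stable.mem_iff {K : IntermediateField ℚ Qb} (hK : Stable K) (σ : Qb ≃ₐ[ℚ] Qb) (a : Qb) :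
    σ a ∈ K ↔ a ∈ K := by
  refine ⟨fun h => ?_, hK σ a⟩
  have := hK σ.symm (σ a) h
  rwa [AlgEquiv.symm_apply_apply] at this

/-- `K₁(μ_n : ℓ ∤ n)` is Galois-stable as soon as `K₁` is. -/
theorem stable_baseField (ℓ : ℕ) {K1 : IntermediateField ℚ Qb} (h : Stable K1) :
    Stable (Fermat.Agent.S18.Base.baseField ℓ K1) := by
  intro σ a ha
  have hle : Fermat.Agent.S18.Base.baseField ℓ K1 ≤
      (Fermat.Agent.S18.Base.baseField ℓ K1).comap (σ : Qb →ₐ[ℚ] Qb) := by
    refine sup_le ?_ ?_
    · intro x hx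
      show (σ : Qb →ₐ[ℚ] Qb) x ∈ Fermat.Agent.S18.Base.baseField ℓ K1
      exact Fermat.Agent.S18.Base.le_baseField ℓ K1 (h σ x hx)
    · rw [IntermediateField.adjoin_le_iff]
      rintro ζ ⟨n, hn, hζ⟩
      show (σ : Qb →ₐ[ℚ] Qb) ζ ∈ Fermat.Agent.S18.Base.baseField ℓ K1
      refine Fermat.Agent.S18.Base.rootOfUnity_mem_baseField K1 hn ?_
      show (σ ζ) ^ n = 1
      rw [← map_pow, hζ, map_one]
  exact hle ha

/-- **[Base2], field part.** A Galois-stable base field containing a given finite-dimensional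
field, with `BaseFacts`. -/
theorem exists_stable_base_of_le (ℓ : ℕ) [Fact ℓ.Prime] (A : ValuationSubring Qb)
    (hA : A.LiesOverPrime ℓ) (L : IntermediateField ℚ Qb) [FiniteDimensional ℚ L] :
    ∃ K : IntermediateField ℚ Qb, L ≤ K ∧ BaseFacts ℓ A K ∧ Stable K := by
  obtain ⟨K1, hLK1, hfin, hst⟩ := Fermat.Agent.S29.FinLevel.exists_stable_ge L
  have := hfin
  exact ⟨Fermat.Agent.S18.Base.baseField ℓ K1,
    hLK1.trans (Fermat.Agent.S18.Base.le_baseField ℓ K1),
    Fermat.Agent.S18.Base.baseFacts A ℓ hA K1, stable_baseField ℓ hst⟩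

/-- **[Base2], field part.** A Galois-stable base field containing a given finite set of
constants, with `BaseFacts`. -/
theorem exists_stable_base (ℓ : ℕ) [Fact ℓ.Prime] (A : ValuationSubring Qb)
    (hA : A.LiesOverPrime ℓ) (S : Finset Qb) :
    ∃ K : IntermediateField ℚ Qb, (↑S ⊆ (K : Set Qb)) ∧ BaseFacts ℓ A K ∧ Stable K := by
  have hfin : FiniteDimensional ℚ (IntermediateField.adjoin ℚ (S : Set Qb)) :=
    IntermediateField.finiteDimensional_adjoin
      (fun x _ => (AlgebraicClosure.isAlgebraic ℚ).isIntegral.isIntegral x)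
  obtain ⟨K, hLK, hB, hst⟩ :=
    exists_stable_base_of_le ℓ A hA (IntermediateField.adjoin ℚ (S : Set Qb))
  exact ⟨K, fun x hx => hLK (IntermediateField.subset_adjoin ℚ _ hx), hB, hst⟩

/-! ### The coefficientwise action on `F_K` -/

/-- For a Galois-stable `K`, the coefficientwise action of `σ` preserves `F_K`. -/
theorem coeffMap_mem_FK (N : ℕ) {K : IntermediateField ℚ Qb} (hK : Stable K)
    (σ : Qb ≃ₐ[ℚ] Qb) {x : LaurentSeries Qb} (hx : x ∈ FK N K) :
    coeffMap (σ : Qb →+* Qb) x ∈ FK N K := by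
  unfold FK at hx ⊢
  induction hx using Subfield.closure_induction with
  | mem x hx =>
    rcases hx with ⟨c, rfl⟩ | ⟨y, rfl⟩
    · refine Subfield.subset_closure (Or.inl ⟨⟨σ (c : Qb), hK σ _ c.2⟩, ?_⟩)
      show (HahnSeries.C (σ (c : Qb)) : LaurentSeries Qb)
        = coeffMap (σ : Qb →+* Qb) (HahnSeries.C (c : Qb))
      change HahnSeries.single 0 (σ (c : Qb))
        = coeffMap (σ : Qb →+* Qb) (HahnSeries.single 0 (c : Qb))
      rw [coeffMap_single]
      rfl
    · refine Subfield.subset_closure (Or.inr ⟨y, ?_⟩)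
      exact (coeffMap_coeffEmb σ (y : LaurentSeries ℚ)).symm
  | one => rw [map_one]; exact one_mem _
  | add x y _ _ hx hy => rw [map_add]; exact add_mem hx hy
  | neg x _ hx => rw [map_neg]; exact neg_mem hx
  | inv x _ hx => rw [map_inv₀]; exact inv_mem hx
  | mul x y _ _ hx hy => rw [map_mul]; exact mul_mem hx hy

/-- An automorphism fixing `K` pointwise fixes every element of `F_K` coefficientwise. -/
theorem coeffMap_eq_self_of_fixed (N : ℕ) {K : IntermediateField ℚ Qb}
    (σ : Qb ≃ₐ[ℚ] Qb) (hσ : ∀ a ∈ K, σ a = a) {x : LaurentSeries Qb} (hx : x ∈ FK N K) :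
    coeffMap (σ : Qb →+* Qb) x = x := by
  ext n
  rw [coeffMap_coeff]
  exact hσ _ (Fermat.Agent.S18.DescCoeff.coeffStatement N K x hx n)

/-! ### The fixed field of `Gal(ℚ̄/K)` -/

/-- An element of `ℚ̄` fixed by every automorphism fixing `K` pointwise lies in `K`. -/
theorem mem_of_forall_fixed (K : IntermediateField ℚ Qb) (c : Qb)
    (h : ∀ σ : Qb ≃ₐ[ℚ] Qb, (∀ a ∈ K, σ a = a) → σ c = c) : c ∈ K := by
  have : IsGalois ℚ Qb := IsGalois.mk
  have h1 : c ∈ IntermediateField.fixedField K.fixingSubgroup := by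
    rw [IntermediateField.mem_fixedField_iff]
    intro σ hσ
    exact h σ fun a ha => (IntermediateField.mem_fixingSubgroup_iff K σ).mp hσ a ha
  rwa [InfiniteGalois.fixedField_fixingSubgroup] at h1

/-! ### Finite level of the zeros and poles of a function -/

/-- Finitely many functions of `F̄` are fixed by the Galois group of one finite extension. -/
theorem exists_level_finset (N : ℕ) {ι : Type*} (s : Finset ι)
    (g : ι → modularFunctionFieldBar N) :
    ∃ L : IntermediateField ℚ Qb, FiniteDimensional ℚ L ∧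
      ∀ σ : Qb ≃ₐ[ℚ] Qb, (∀ a ∈ L, σ a = a) → ∀ i ∈ s,
        arithmeticGalois (modularFunctionFieldFull N) σ • g i = g i := by
  classical
  induction s using Finset.induction_on with
  | empty => exact ⟨⊥, inferInstance, fun σ _ i hi => absurd hi (Finset.notMem_empty i)⟩
  | insert i s _ ih =>
    obtain ⟨L₁, h₁, f₁⟩ := ih
    obtain ⟨L₂, h₂, f₂⟩ :=
      Fermat.Agent.S29.FinLevel.exists_level_function (modularFunctionFieldFull N) (g i)
    refine ⟨L₁ ⊔ L₂, IntermediateField.finiteDimensional_sup L₁ L₂, fun σ hσ j hj => ?_⟩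
    rcases Finset.mem_insert.mp hj with rfl | hj
    · exact f₂ σ fun a ha => hσ a ((le_sup_right : L₂ ≤ L₁ ⊔ L₂) ha)
    · exact f₁ σ (fun a ha => hσ a ((le_sup_left : L₁ ≤ L₁ ⊔ L₂) ha)) j hj

/-- Two distinct places are separated by a function: regular at the first, with a pole at the
second. -/
theorem exists_sep {K F : Type*} [Field K] [Field F] [Algebra K F] (P P' : Place K F) :
    ∃ y : F, P ≠ P' → 0 ≤ P.ord y ∧ P'.ord y < 0 := by
  by_cases hPP : P = P'
  · exact ⟨0, fun h => absurd hPP h⟩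
  · by_contra hcon
    push Not at hcon
    refine hPP (Fermat.Agent.S24.place_ext_of_ord P P' fun f hf => ?_)
    obtain ⟨-, h2⟩ := hcon f
    exact h2 hf

/-- **[Base2], level of the support.** Every zero and every pole of a nonzero function of `F̄`
is fixed by the Galois group of one finite extension of `ℚ`. -/
theorem exists_level_support (N : ℕ) [NeZero N] (f : modularFunctionFieldBar N) (hf : f ≠ 0) :
    ∃ L : IntermediateField ℚ Qb, FiniteDimensional ℚ L ∧
      ∀ σ : Qb ≃ₐ[ℚ] Qb, (∀ a ∈ L, σ a = a) →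
        ∀ P : Place Qb (modularFunctionFieldBar N), P.ord f ≠ 0 →
          arithmeticGalois (modularFunctionFieldFull N) σ • P = P := by
  classical
  have hfin : {v : Place Qb (modularFunctionFieldBar N) | v.ord f ≠ 0}.Finite :=
    Fermat.Agent.S24.finite_ord_ne_zero (Fermat.Agent.S18.Red.isFF1_bar N) hf
  choose y hy using fun PP : Place Qb (modularFunctionFieldBar N) ×
      Place Qb (modularFunctionFieldBar N) => exists_sep PP.1 PP.2
  obtain ⟨L₁, h₁, f₁⟩ :=
    Fermat.Agent.S29.FinLevel.exists_level_function (modularFunctionFieldFull N) f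
  obtain ⟨L₂, h₂, f₂⟩ := exists_level_finset N (hfin.toFinset ×ˢ hfin.toFinset) y
  refine ⟨L₁ ⊔ L₂, IntermediateField.finiteDimensional_sup L₁ L₂, fun σ hσ P hP => ?_⟩
  have hσf : arithmeticGalois (modularFunctionFieldFull N) σ • f = f :=
    f₁ σ fun a ha => hσ a ((le_sup_left : L₁ ≤ L₁ ⊔ L₂) ha)
  set g := arithmeticGalois (modularFunctionFieldFull N) σ with hg
  have hP' : (g • P).ord f ≠ 0 := by
    have h := SemilinearAut.ord_smul g P f
    rw [hσf] at h
    rw [h]
    exact hP
  by_contra hne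
  have hmem : (P, g • P) ∈ hfin.toFinset ×ˢ hfin.toFinset := by
    rw [Finset.mem_product]
    exact ⟨hfin.mem_toFinset.mpr hP, hfin.mem_toFinset.mpr hP'⟩
  have hσy : g • y (P, g • P) = y (P, g • P) :=
    f₂ σ (fun a ha => hσ a ((le_sup_right : L₂ ≤ L₁ ⊔ L₂) ha)) _ hmem
  obtain ⟨h1, h2⟩ := hy (P, g • P) (fun h => hne h.symm)
  have h3 := SemilinearAut.ord_smul g P (y (P, g • P))
  rw [hσy] at h3
  change (g • P).ord (y (P, g • P)) < 0 at h2
  change 0 ≤ P.ord (y (P, g • P)) at h1
  omega

/-! ### `K`-rationality of a place fixed by `Gal(ℚ̄/K)` -/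

/-- **[Base2], rationality.** If the place `P` of `F̄` is fixed by `Gal(ℚ̄/K)`, then the residue
at `P` of every function of `F_K` regular at `P` lies in `K`. -/
theorem exists_residue_mem (N : ℕ) [NeZero N] (K : IntermediateField ℚ Qb)
    (P : Place Qb (modularFunctionFieldBar N))
    (hP : ∀ σ : Qb ≃ₐ[ℚ] Qb, (∀ a ∈ K, σ a = a) →
      arithmeticGalois (modularFunctionFieldFull N) σ • P = P)
    (x : modularFunctionFieldBar N) (hx : (x : LaurentSeries Qb) ∈ FK N K)
    (hord : 0 ≤ P.ord x) :
    ∃ c : Qb, c ∈ K ∧ (x = algebraMap Qb (modularFunctionFieldBar N) c ∨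
      0 < P.ord (x - algebraMap Qb (modularFunctionFieldBar N) c)) := by
  obtain ⟨c, hc⟩ := Fermat.Agent.S24.exists_residue (Fermat.Agent.S18.Red.isFF1_bar N) P hord
  refine ⟨c, mem_of_forall_fixed K c fun σ hσ => ?_, hc⟩
  set g := arithmeticGalois (modularFunctionFieldFull N) σ with hg
  have hgx : g • x = x := by
    apply Subtype.ext
    rw [hg, coe_arithmeticGalois_smul]
    exact coeffMap_eq_self_of_fixed N σ hσ hx
  have hgc : g • algebraMap Qb (modularFunctionFieldBar N) c
      = algebraMap Qb (modularFunctionFieldBar N) (σ c) :=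
    arithmeticRingAut_algebraMap (modularFunctionFieldFull N) σ c
  have hinj : Function.Injective (algebraMap Qb (modularFunctionFieldBar N)) :=
    (algebraMap Qb (modularFunctionFieldBar N)).injective
  rcases hc with hc | hc
  · apply hinj
    rw [← hgc, ← hc, hgx]
  · by_contra hne
    have h1 : 0 < P.ord (x - algebraMap Qb (modularFunctionFieldBar N) (σ c)) := by
      have h := SemilinearAut.ord_smul g P (x - algebraMap Qb (modularFunctionFieldBar N) c)
      rw [hP σ hσ, smul_sub, hgx, hgc] at h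
      rw [h]
      exact hc
    have hz : algebraMap Qb (modularFunctionFieldBar N) (σ c - c) ≠ 0 := by
      rw [Ne, map_eq_zero, sub_eq_zero]
      exact hne
    have heq : algebraMap Qb (modularFunctionFieldBar N) (σ c - c)
        = (x - algebraMap Qb (modularFunctionFieldBar N) c)
          - (x - algebraMap Qb (modularFunctionFieldBar N) (σ c)) := by
      rw [map_sub]; ring
    have h2 := Fermat.Agent.S24.ord_sub_ge P (heq ▸ hz)
    rw [← heq, Fermat.Agent.S24.ord_algebraMap] at h2
    have h4 := lt_min hc h1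
    exact absurd (lt_of_lt_of_le h4 h2) (lt_irrefl _)

/-! ### The base field of the node argument -/

/-- One finite extension of `ℚ` controlling finitely many functions: descent to `F_K` and the
level of their zeros and poles. -/
theorem exists_level_data (N : ℕ) [NeZero N] (fs : Finset (modularFunctionFieldBar N)) :
    ∃ L : IntermediateField ℚ Qb, FiniteDimensional ℚ L ∧
      (∀ f ∈ fs, ∀ K : IntermediateField ℚ Qb, L ≤ K → (f : LaurentSeries Qb) ∈ FK N K) ∧
      ∀ f ∈ fs, f ≠ 0 → ∀ σ : Qb ≃ₐ[ℚ] Qb, (∀ a ∈ L, σ a = a) →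
        ∀ P : Place Qb (modularFunctionFieldBar N), P.ord f ≠ 0 →
          arithmeticGalois (modularFunctionFieldFull N) σ • P = P := by
  classical
  induction fs using Finset.induction_on with
  | empty =>
    exact ⟨⊥, inferInstance, fun f hf => absurd hf (Finset.notMem_empty f),
      fun f hf => absurd hf (Finset.notMem_empty f)⟩
  | insert f fs _ ih =>
    obtain ⟨L₁, h₁, d₁, l₁⟩ := ih
    obtain ⟨S, hS⟩ := (Fermat.Agent.S18.DescCoeff.descStatement N).1 (f : LaurentSeries Qb) f.2
    have h₂ : FiniteDimensional ℚ (IntermediateField.adjoin ℚ (S : Set Qb)) :=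
      IntermediateField.finiteDimensional_adjoin
        (fun x _ => (AlgebraicClosure.isAlgebraic ℚ).isIntegral.isIntegral x)
    obtain ⟨L₃, h₃, l₃⟩ : ∃ L₃ : IntermediateField ℚ Qb, FiniteDimensional ℚ L₃ ∧
        (f ≠ 0 → ∀ σ : Qb ≃ₐ[ℚ] Qb, (∀ a ∈ L₃, σ a = a) →
          ∀ P : Place Qb (modularFunctionFieldBar N), P.ord f ≠ 0 →
            arithmeticGalois (modularFunctionFieldFull N) σ • P = P) := by
      by_cases hf : f = 0
      · exact ⟨⊥, inferInstance, fun h => absurd hf h⟩
      · obtain ⟨L, hL, h⟩ := exists_level_support N f hf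
        exact ⟨L, hL, fun _ => h⟩
    have h₁₂ : FiniteDimensional ℚ ↥(L₁ ⊔ IntermediateField.adjoin ℚ (S : Set Qb)) :=
      IntermediateField.finiteDimensional_sup L₁ _
    refine ⟨L₁ ⊔ IntermediateField.adjoin ℚ (S : Set Qb) ⊔ L₃,
      IntermediateField.finiteDimensional_sup _ L₃, ?_, ?_⟩
    · intro f' hf' K hK
      rcases Finset.mem_insert.mp hf' with rfl | hf'
      · exact hS K fun x hx =>
          hK ((le_sup_left : _ ≤ L₁ ⊔ IntermediateField.adjoin ℚ (S : Set Qb) ⊔ L₃)
            ((le_sup_right : _ ≤ L₁ ⊔ IntermediateField.adjoin ℚ (S : Set Qb))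
              (IntermediateField.subset_adjoin ℚ _ hx)))
      · exact d₁ f' hf' K ((le_sup_left.trans le_sup_left).trans hK)
    · intro f' hf' hne σ hσ P hP
      rcases Finset.mem_insert.mp hf' with rfl | hf'
      · exact l₃ hne σ (fun a ha => hσ a ((le_sup_right : L₃ ≤ _) ha)) P hP
      · exact l₁ f' hf' hne σ
          (fun a ha => hσ a ((le_sup_left.trans le_sup_left : L₁ ≤ _) ha)) P hP

/-- **[Base2].** The base field of the node argument: Galois-stable, with `BaseFacts`, containing
given constants, over which given functions are defined and all their zeros and poles are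
rational. -/
theorem exists_base (N : ℕ) [NeZero N] (ℓ : ℕ) [Fact ℓ.Prime] (A : ValuationSubring Qb)
    (hA : A.LiesOverPrime ℓ) (fs : Finset (modularFunctionFieldBar N)) (S : Finset Qb) :
    ∃ K : IntermediateField ℚ Qb, (↑S ⊆ (K : Set Qb)) ∧ BaseFacts ℓ A K ∧ Stable K ∧
      (∀ f ∈ fs, (f : LaurentSeries Qb) ∈ FK N K) ∧
      ∀ f ∈ fs, f ≠ 0 → ∀ P : Place Qb (modularFunctionFieldBar N), P.ord f ≠ 0 →
        (∀ σ : Qb ≃ₐ[ℚ] Qb, (∀ a ∈ K, σ a = a) →
          arithmeticGalois (modularFunctionFieldFull N) σ • P = P) ∧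
        ∀ x : modularFunctionFieldBar N, (x : LaurentSeries Qb) ∈ FK N K → 0 ≤ P.ord x →
          ∃ c : Qb, c ∈ K ∧ (x = algebraMap Qb (modularFunctionFieldBar N) c ∨
            0 < P.ord (x - algebraMap Qb (modularFunctionFieldBar N) c)) := by
  obtain ⟨L, hL, hd, hl⟩ := exists_level_data N fs
  have h₂ : FiniteDimensional ℚ (IntermediateField.adjoin ℚ (S : Set Qb)) :=
    IntermediateField.finiteDimensional_adjoin
      (fun x _ => (AlgebraicClosure.isAlgebraic ℚ).isIntegral.isIntegral x)
  have h₁₂ : FiniteDimensional ℚ ↥(L ⊔ IntermediateField.adjoin ℚ (S : Set Qb)) :=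
    IntermediateField.finiteDimensional_sup L _
  obtain ⟨K, hLK, hB, hst⟩ :=
    exists_stable_base_of_le ℓ A hA (L ⊔ IntermediateField.adjoin ℚ (S : Set Qb))
  refine ⟨K, fun x hx => hLK ((le_sup_right : _ ≤ L ⊔ _)
      (IntermediateField.subset_adjoin ℚ _ hx)), hB, hst,
    fun f hf => hd f hf K (le_sup_left.trans hLK), fun f hf hne P hP => ?_⟩
  have hfix : ∀ σ : Qb ≃ₐ[ℚ] Qb, (∀ a ∈ K, σ a = a) →
      arithmeticGalois (modularFunctionFieldFull N) σ • P = P := fun σ hσ =>
    hl f hf hne σ (fun a ha => hσ a ((le_sup_left.trans hLK : L ≤ K) ha)) P hP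
  exact ⟨hfix, fun x hx hord => exists_residue_mem N K P hfix x hx hord⟩

end Fermat.Agent.S34.BaseNormal
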