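/-
S34 — ChartRing.lean (helper119), MODULAR block, leaf [ChartRing].

The charts `Arith.chart N A K t` (integral closure of `O[t]` in `F_K`, `O = A ∩ K`) AS RINGS:
the typeclass inputs of the abstract block (`S34/LocPlan.lean`: `KrullUnitStatement`,
`LocAStatement`, `CutAtStatement`, `DvrAtStatement` ask for a noetherian integrally closed
domain `R` with fraction field `E`).

ANY level `N` (no condition relating the residue characteristic and `N`), ANY coordinate `t`:

* `isFractionRing_chart`, `isIntegrallyClosed_chart`   from `F_K = Frac (chart t)`;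
* `isNoetherianRing_chart`                             from finiteness over `O[t]`;
* `frac_of_isAlgebraic`, `all_of_isAlgebraic`          both inputs from
  "`t` transcendental over `O` and `F_K` algebraic over `O[t]`";
* unconditional versions for the two charts `R0`, `Rinf` of `S18/ArithPlan` at every level;
* coercion bookkeeping between `↥(chart t)` and `F_K`, and the unfolded forms of
  `LocPlan.RegAt`, `LocPlan.UnitAt` for a chart.
-/
import Mathlib
import Fermat.Agent.S18.ArithPlan
import Fermat.Agent.S18.Model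
import Fermat.Agent.S18.ModelBasicCore
import Fermat.Agent.S18.ModelFin
import Fermat.Agent.S18.Gauss
import Fermat.Agent.S34.LocPlan

set_option autoImplicit false

noncomputable section

namespace Fermat.Agent.S34.ChartRing

open ModularCurve HahnSeries Fermat.Agent.S18.Arith

variable (N : ℕ) [NeZero N] (A : ValuationSubring Qb) (K : IntermediateField ℚ Qb)

/-! ### Coercions -/

section Coe

variable (t : FK N K)

omit [NeZero N] in
/-- The structure map `↥(chart t) → F_K` is the inclusion. -/
theorem algebraMap_chart_apply (r : chart N A K t) :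
    algebraMap (chart N A K t) (FK N K) r = (r : FK N K) := rfl

omit [NeZero N] in
/-- The structure map `O → ↥(chart t)` followed by the inclusion is the structure map of `F_K`. -/
theorem coe_algebraMap_OK (c : OK A K) :
    ((algebraMap (OK A K) (chart N A K t) c : chart N A K t) : FK N K) =
      algebraMap (OK A K) (FK N K) c := rfl

omit [NeZero N] in
theorem algebraMap_chart_injective :
    Function.Injective (algebraMap (chart N A K t) (FK N K)) :=
  fun _ _ h => Subtype.ext h

omit [NeZero N] in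
/-- Membership in the chart, as "lies in the range of the structure map". -/
theorem mem_chart_iff_exists (x : FK N K) :
    x ∈ chart N A K t ↔ ∃ r : chart N A K t, algebraMap (chart N A K t) (FK N K) r = x :=
  ⟨fun h => ⟨⟨x, h⟩, rfl⟩, fun ⟨r, hr⟩ => hr ▸ r.2⟩

omit [NeZero N] in
/-- `LocPlan.RegAt` for a chart, unfolded. -/
theorem regAt_iff (𝔮 : Ideal (chart N A K t)) (x : FK N K) :
    LocPlan.RegAt 𝔮 x ↔ ∃ a s : chart N A K t, s ∉ 𝔮 ∧ x * (s : FK N K) = (a : FK N K) :=
  Iff.rfl

omit [NeZero N] in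
/-- `LocPlan.UnitAt` for a chart, unfolded. -/
theorem unitAt_iff (𝔮 : Ideal (chart N A K t)) (x : FK N K) :
    LocPlan.UnitAt 𝔮 x ↔
      ∃ a s : chart N A K t, a ∉ 𝔮 ∧ s ∉ 𝔮 ∧ x * (s : FK N K) = (a : FK N K) :=
  Iff.rfl

omit [NeZero N] in
/-- Elements of the chart are regular at every ideal. -/
theorem regAt_coe (𝔮 : Ideal (chart N A K t)) (h𝔮 : 𝔮 ≠ ⊤) (r : chart N A K t) :
    LocPlan.RegAt 𝔮 (r : FK N K) :=
  ⟨r, 1, (Ideal.ne_top_iff_one 𝔮).mp h𝔮, by simp⟩

omit [NeZero N] in
/-- Elements of the chart outside `𝔮` are units at `𝔮`. -/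
theorem unitAt_coe (𝔮 : Ideal (chart N A K t)) (h𝔮 : 𝔮 ≠ ⊤) {r : chart N A K t} (hr : r ∉ 𝔮) :
    LocPlan.UnitAt 𝔮 (r : FK N K) :=
  ⟨r, 1, hr, (Ideal.ne_top_iff_one 𝔮).mp h𝔮, by simp⟩

end Coe

/-! ### Fraction field, integral closedness -/

omit [NeZero N] in
/-- `F_K` is the fraction field of the chart as soon as every element is a quotient of two
elements of the chart. -/
theorem isFractionRing_chart (t : FK N K)
    (hfrac : ∀ x : FK N K, ∃ a ∈ chart N A K t, ∃ b ∈ chart N A K t, b ≠ 0 ∧ x * b = a) :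
    IsFractionRing (chart N A K t) (FK N K) where
  map_units := by
    rintro ⟨y, hy⟩
    have hy0 : y ≠ 0 := nonZeroDivisors.ne_zero hy
    have h : algebraMap (chart N A K t) (FK N K) y ≠ 0 := fun h => hy0 (Subtype.ext h)
    exact IsUnit.mk0 _ h
  surj := by
    intro z
    obtain ⟨a, ha, b, hb, hb0, hab⟩ := hfrac z
    exact ⟨(⟨a, ha⟩, ⟨⟨b, hb⟩, mem_nonZeroDivisors_of_ne_zero
      (fun h => hb0 (congrArg Subtype.val h))⟩), hab⟩
  exists_of_eq := by
    intro x y h
    exact ⟨1, by rw [Subtype.ext h]⟩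

omit [NeZero N] in
/-- The chart is an integrally closed domain. -/
theorem isIntegrallyClosed_chart (t : FK N K)
    (hfrac : ∀ x : FK N K, ∃ a ∈ chart N A K t, ∃ b ∈ chart N A K t, b ≠ 0 ∧ x * b = a) :
    IsIntegrallyClosed (chart N A K t) := by
  have := isFractionRing_chart N A K t hfrac
  refine (isIntegrallyClosed_iff (FK N K)).mpr fun {x} hx => ?_
  exact ⟨⟨x, Fermat.Agent.S18.Model.mem_chart_of_isIntegral N A K t x hx⟩, rfl⟩

/-! ### Noetherianity -/

omit [NeZero N] in
/-- The chart is a noetherian ring as soon as it is contained in a finitely generated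
`O[t]`-module (`O` a discrete valuation ring). -/
theorem isNoetherianRing_chart (hdvr : IsDiscreteValuationRing (OK A K)) (t : FK N K)
    (hfin : ∃ s : Finset (FK N K), (chart N A K t : Set (FK N K)) ⊆
      Submodule.span (Algebra.adjoin (OK A K) {t}) (s : Set (FK N K))) :
    IsNoetherianRing (chart N A K t) := by
  obtain ⟨s, hs⟩ := hfin
  exact Fermat.Agent.S18.Gauss.isNoetherianRing_of_subset_span (chart N A K t) t
    (Fermat.Agent.S18.Model.self_mem_chart N A K t) s hs

/-! ### From "`F_K` is algebraic over `O[t]`" -/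

omit [NeZero N] in
/-- If `F_K` is algebraic over `O[t]` then `F_K = Frac (chart t)`. -/
theorem frac_of_isAlgebraic (t : FK N K)
    (halg : ∀ x : FK N K, IsAlgebraic (Algebra.adjoin (OK A K) {t}) x) (x : FK N K) :
    ∃ a ∈ chart N A K t, ∃ b ∈ chart N A K t, b ≠ 0 ∧ x * b = a := by
  obtain ⟨y, hy0, hy⟩ := (halg x).exists_integral_multiple
  refine ⟨y • x, (mem_chart_iff N A K).mpr hy,
    algebraMap (Algebra.adjoin (OK A K) {t}) (FK N K) y,
    (mem_chart_iff N A K).mpr isIntegral_algebraMap, ?_, ?_⟩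
  · intro h
    exact hy0 (Subtype.ext h)
  · rw [mul_comm, Algebra.smul_def]

/-- All three ring-theoretic properties of a chart with a transcendental coordinate `t` over
which `F_K` is algebraic. -/
theorem all_of_isAlgebraic (hdvr : IsDiscreteValuationRing (OK A K)) (t : FK N K)
    (ht : Transcendental (OK A K) t)
    (halg : ∀ x : FK N K, IsAlgebraic (Algebra.adjoin (OK A K) {t}) x) :
    IsFractionRing (chart N A K t) (FK N K) ∧ IsIntegrallyClosed (chart N A K t) ∧
      IsNoetherianRing (chart N A K t) :=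
  ⟨isFractionRing_chart N A K t (frac_of_isAlgebraic N A K t halg),
    isIntegrallyClosed_chart N A K t (frac_of_isAlgebraic N A K t halg),
    isNoetherianRing_chart N A K hdvr t
      (Fermat.Agent.S18.ModelFin.fin_chart N A K t ht halg)⟩

/-! ### The two charts `R0`, `Rinf` of `S18/ArithPlan`, at every level -/

section S18Charts

variable (ℓ : ℕ) [Fact ℓ.Prime]

theorem isFractionRing_R0 : IsFractionRing (R0 N ℓ A K) (FK N K) :=
  isFractionRing_chart N A K (jK N K) (Fermat.Agent.S18.ModelBasicCore.frac0 N ℓ A K)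

theorem isIntegrallyClosed_R0 : IsIntegrallyClosed (R0 N ℓ A K) :=
  isIntegrallyClosed_chart N A K (jK N K) (Fermat.Agent.S18.ModelBasicCore.frac0 N ℓ A K)

omit ℓ [Fact ℓ.Prime] in
/-- `F_K` is algebraic over `O[j⁻¹]`. -/
theorem isAlgebraic_jK_inv (x : FK N K) :
    IsAlgebraic (Algebra.adjoin (OK A K) {(jK N K)⁻¹}) x := by
  have : Fact (Nat.Prime 2) := ⟨Nat.prime_two⟩
  obtain ⟨a, ha, b, hb, hb0, hab⟩ := Fermat.Agent.S18.ModelBasicCore.fracInf N 2 A K x
  exact Fermat.Agent.S18.ModelFin.isAlgebraic_of_frac ha hb hb0 hab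

theorem isNoetherianRing_R0 (hdvr : IsDiscreteValuationRing (OK A K)) :
    IsNoetherianRing (R0 N ℓ A K) :=
  isNoetherianRing_chart N A K hdvr (jK N K)
    (Fermat.Agent.S18.ModelFin.fin_chart N A K (jK N K)
      (Fermat.Agent.S18.ModelFin.transcendental_jK N A K)
      (Fermat.Agent.S18.ModelBasicCore.isAlgebraic_FK N A K))

theorem isFractionRing_Rinf : IsFractionRing (Rinf N ℓ A K) (FK N K) :=
  isFractionRing_chart N A K (jK N K)⁻¹ (Fermat.Agent.S18.ModelBasicCore.fracInf N ℓ A K)

theorem isIntegrallyClosed_Rinf : IsIntegrallyClosed (Rinf N ℓ A K) :=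
  isIntegrallyClosed_chart N A K (jK N K)⁻¹ (Fermat.Agent.S18.ModelBasicCore.fracInf N ℓ A K)

theorem isNoetherianRing_Rinf (hdvr : IsDiscreteValuationRing (OK A K)) :
    IsNoetherianRing (Rinf N ℓ A K) :=
  isNoetherianRing_chart N A K hdvr (jK N K)⁻¹
    (Fermat.Agent.S18.ModelFin.fin_chart N A K (jK N K)⁻¹
      (Fermat.Agent.S18.ModelFin.transcendental_jK_inv N A K)
      (isAlgebraic_jK_inv N A K))

end S18Charts

end Fermat.Agent.S34.ChartRing
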