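/-
S34 — ChartRingInv.lean (helper119), MODULAR block, supplement of leaf [ChartRing].

Passing from the chart `chart t` to the chart `chart t⁻¹`:

* `frac_inv`               `F_K = Frac (chart t)` ⟹ `F_K = Frac (chart t⁻¹)`;
* `isAlgebraic_of_frac`    `F_K = Frac (chart t)` ⟹ `F_K` is algebraic over `O[t]`;
* `isAlgebraic_inv`        `F_K` algebraic over `O[t]` ⟹ algebraic over `O[t⁻¹]`;
* `transcendental_inv`;
* `fin_chart_inv`          the `fin0`-shape for `chart t⁻¹`;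
* `all_inv`, `pair_of_isAlgebraic`   the fields `noeth`, `frac`, `intcl` of
  `ModelPlan2.ChartModel` for BOTH charts `chart t`, `chart t⁻¹` from
  "`t ≠ 0` transcendental over `O` and `F_K` algebraic over `O[t]`"
  (for the symmetric coordinate: `ChartJ.transcendental_symJ`, `ChartJ.isAlgebraic_symJ`).
-/
import Mathlib
import Fermat.Agent.S34.ChartRing

set_option autoImplicit false

noncomputable section

namespace Fermat.Agent.S34.ChartRingInv

open ModularCurve HahnSeries Fermat.Agent.S18 Fermat.Agent.S18.Arith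

variable (N : ℕ) [NeZero N] (A : ValuationSubring Qb) (K : IntermediateField ℚ Qb)

omit [NeZero N] in
/-- `chart t ⊆ chart t⁻¹ [t]`. -/
theorem glue {t : FK N K} (ht : t ≠ 0) {x : FK N K} (hx : x ∈ chart N A K t) :
    ∃ n : ℕ, x * t⁻¹ ^ n ∈ chart N A K t⁻¹ := by
  obtain ⟨n, hn⟩ :=
    ModelBasicCore.exists_inv_pow_mul_isIntegral ht ((mem_chart_iff N A K).mp hx)
  exact ⟨n, by rw [mul_comm]; exact (mem_chart_iff N A K).mpr hn⟩

omit [NeZero N] in
/-- `F_K = Frac (chart t)` implies `F_K = Frac (chart t⁻¹)`. -/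
theorem frac_inv {t : FK N K} (ht : t ≠ 0)
    (hfrac : ∀ x : FK N K, ∃ a ∈ chart N A K t, ∃ b ∈ chart N A K t, b ≠ 0 ∧ x * b = a)
    (x : FK N K) :
    ∃ a ∈ chart N A K t⁻¹, ∃ b ∈ chart N A K t⁻¹, b ≠ 0 ∧ x * b = a := by
  obtain ⟨a, ha, b, hb, hb0, hab⟩ := hfrac x
  obtain ⟨n, hn⟩ := glue N A K ht ha
  obtain ⟨m, hm⟩ := glue N A K ht hb
  have hj : t⁻¹ ∈ chart N A K t⁻¹ := Model.self_mem_chart N A K t⁻¹
  refine ⟨a * t⁻¹ ^ n * t⁻¹ ^ m, mul_mem hn (pow_mem hj m),
    b * t⁻¹ ^ m * t⁻¹ ^ n, mul_mem hm (pow_mem hj n), ?_, ?_⟩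
  · exact mul_ne_zero (mul_ne_zero hb0 (pow_ne_zero _ (inv_ne_zero ht)))
      (pow_ne_zero _ (inv_ne_zero ht))
  · rw [← hab]
    ring

omit [NeZero N] in
/-- `F_K = Frac (chart t)` implies that `F_K` is algebraic over `O[t]`. -/
theorem isAlgebraic_of_frac {t : FK N K}
    (hfrac : ∀ x : FK N K, ∃ a ∈ chart N A K t, ∃ b ∈ chart N A K t, b ≠ 0 ∧ x * b = a)
    (x : FK N K) : IsAlgebraic (Algebra.adjoin (OK A K) {t}) x := by
  obtain ⟨a, ha, b, hb, hb0, hab⟩ := hfrac x
  exact ModelFin.isAlgebraic_of_frac ha hb hb0 hab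

omit [NeZero N] in
/-- If `F_K` is algebraic over `O[t]`, `t ≠ 0`, it is algebraic over `O[t⁻¹]`. -/
theorem isAlgebraic_inv {t : FK N K} (ht : t ≠ 0)
    (halg : ∀ x : FK N K, IsAlgebraic (Algebra.adjoin (OK A K) {t}) x) (x : FK N K) :
    IsAlgebraic (Algebra.adjoin (OK A K) {t⁻¹}) x :=
  isAlgebraic_of_frac N A K
    (frac_inv N A K ht (ChartRing.frac_of_isAlgebraic N A K t halg)) x

omit [NeZero N] in
/-- The inverse of a transcendental element is transcendental. -/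
theorem transcendental_inv {t : FK N K} (ht : Transcendental (OK A K) t) :
    Transcendental (OK A K) t⁻¹ := fun h => ht (IsAlgebraic.inv_iff.1 h)

/-- The `fin0`-shape for the chart `chart t⁻¹`. -/
theorem fin_chart_inv {t : FK N K} (ht0 : t ≠ 0) (ht : Transcendental (OK A K) t)
    (halg : ∀ x : FK N K, IsAlgebraic (Algebra.adjoin (OK A K) {t}) x) :
    ∃ s : Finset (FK N K), (chart N A K t⁻¹ : Set (FK N K)) ⊆
      Submodule.span (Algebra.adjoin (OK A K) {t⁻¹}) (s : Set (FK N K)) :=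
  ModelFin.fin_chart N A K t⁻¹ (transcendental_inv N A K ht) (isAlgebraic_inv N A K ht0 halg)

/-- The three ring-theoretic properties of the chart `chart t⁻¹`. -/
theorem all_inv (hdvr : IsDiscreteValuationRing (OK A K)) {t : FK N K} (ht0 : t ≠ 0)
    (ht : Transcendental (OK A K) t)
    (halg : ∀ x : FK N K, IsAlgebraic (Algebra.adjoin (OK A K) {t}) x) :
    IsFractionRing (chart N A K t⁻¹) (FK N K) ∧ IsIntegrallyClosed (chart N A K t⁻¹) ∧
      IsNoetherianRing (chart N A K t⁻¹) :=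
  ChartRing.all_of_isAlgebraic N A K hdvr t⁻¹ (transcendental_inv N A K ht)
    (isAlgebraic_inv N A K ht0 halg)

/-- Both charts `chart t`, `chart t⁻¹` at once (the fields `noeth`, `frac`, `intcl` of
`ModelPlan2.ChartModel` for `c0` and `cInf`), together with the two `fin0`-shapes. -/
theorem pair_of_isAlgebraic (hdvr : IsDiscreteValuationRing (OK A K)) {t : FK N K} (ht0 : t ≠ 0)
    (ht : Transcendental (OK A K) t)
    (halg : ∀ x : FK N K, IsAlgebraic (Algebra.adjoin (OK A K) {t}) x) :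
    (IsNoetherianRing (chart N A K t) ∧ IsFractionRing (chart N A K t) (FK N K) ∧
        IsIntegrallyClosed (chart N A K t)) ∧
      (IsNoetherianRing (chart N A K t⁻¹) ∧ IsFractionRing (chart N A K t⁻¹) (FK N K) ∧
        IsIntegrallyClosed (chart N A K t⁻¹)) ∧
      (∃ s : Finset (FK N K), (chart N A K t : Set (FK N K)) ⊆
        Submodule.span (Algebra.adjoin (OK A K) {t}) (s : Set (FK N K))) ∧
      ∃ s : Finset (FK N K), (chart N A K t⁻¹ : Set (FK N K)) ⊆
        Submodule.span (Algebra.adjoin (OK A K) {t⁻¹}) (s : Set (FK N K)) := by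
  obtain ⟨h1, h2, h3⟩ := ChartRing.all_of_isAlgebraic N A K hdvr t ht halg
  obtain ⟨h4, h5, h6⟩ := all_inv N A K hdvr ht0 ht halg
  exact ⟨⟨h3, h1, h2⟩, ⟨h6, h4, h5⟩, ModelFin.fin_chart N A K t ht halg,
    fin_chart_inv N A K ht0 ht halg⟩

end Fermat.Agent.S34.ChartRingInv
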