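import Mathlib
import Fermat.Agent.S34.LocPlan

/-!
# S34, abstract block, leaf [N3] `DvrAt`: `R_𝔮` as a discrete valuation subring

`R` a noetherian domain with fraction field `E`, `𝔮` a prime with `PrincAt 𝔮` (the ideal
`𝔮 R_𝔮` is principal and nonzero).  Then `R_𝔮 = {x : E | RegAt 𝔮 x}` is a discrete valuation
subring `W` of `E` (`dvrAt`, and in the exact Plan shape `dvrAtStatement`).

The remaining statements hold for ANY valuation subring `W` of `E` with
`∀ x, x ∈ W ↔ RegAt 𝔮 x` (hypothesis `hW`), so that a consumer only needs the `W` produced by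
`dvrAt`:

* `algebraMap_mem`, `inv_algebraMap_mem` : `R ⊆ W`, and `s⁻¹ ∈ W` for `s ∉ 𝔮`;
* `mem_nonunits_iff`, `algebraMap_mem_nonunits_iff` : the centre of `W` on `R` is `𝔮`;
* `unitAt_iff`, `unitAt_iff_notMem_nonunits`, `unitAt_of_regAt` : `UnitAt 𝔮` is "unit of `W`";
* `exists_eq_mul_of_mem_nonunits`, `maximalIdeal_eq_span`, `irreducible_gen` : a local
  generator `t` of `𝔮` is a uniformizer of `W`;
* `exists_zpow_unitAt` : every `x ≠ 0` of `E` is `t ^ k` times a unit at `𝔮`.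
-/

set_option autoImplicit false
set_option linter.unusedSectionVars false

namespace Fermat.Agent.S34.DvrAt

open Fermat.Agent.S34.LocPlan IsLocalRing

section Basic

variable {R : Type*} [CommRing R] [IsDomain R] {E : Type*} [Field E] [Algebra R E]
  [IsFractionRing R E]

theorem map_ne_zero_of_notMem {𝔮 : Ideal R} {s : R} (hs : s ∉ 𝔮) : algebraMap R E s ≠ 0 := by
  intro h0
  have : s = 0 := IsFractionRing.injective R E (h0.trans (map_zero _).symm)
  exact hs (this ▸ 𝔮.zero_mem)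

variable (𝔮 : Ideal R) [h𝔮 : 𝔮.IsPrime]

theorem regAt_algebraMap (r : R) : RegAt 𝔮 (algebraMap R E r) :=
  ⟨r, 1, fun h => h𝔮.ne_top ((Ideal.eq_top_iff_one _).mpr h), by rw [map_one, mul_one]⟩

theorem regAt_inv_algebraMap {s : R} (hs : s ∉ 𝔮) : RegAt 𝔮 (algebraMap R E s)⁻¹ :=
  ⟨1, s, hs, by rw [map_one, inv_mul_cancel₀ (map_ne_zero_of_notMem hs)]⟩

variable {𝔮}

/-- `x` and `x⁻¹` regular at `𝔮` (and `x ≠ 0`) implies `x` is a unit at `𝔮`. -/
theorem unitAt_of_regAt {x : E} (hx : x ≠ 0) (h1 : RegAt 𝔮 x) (h2 : RegAt 𝔮 x⁻¹) :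
    UnitAt 𝔮 x := by
  obtain ⟨a, s, hs, e1⟩ := h1
  obtain ⟨a', s', hs', e2⟩ := h2
  refine ⟨a, s, ?_, hs, e1⟩
  intro ha
  have e3 : algebraMap R E (a * a') = algebraMap R E (s * s') := by
    rw [map_mul, map_mul, ← e1, ← e2]
    field_simp
  have e4 : a * a' = s * s' := IsFractionRing.injective R E e3
  have : s * s' ∈ 𝔮 := e4 ▸ 𝔮.mul_mem_right a' ha
  rcases h𝔮.mem_or_mem this with h | h
  · exact hs h
  · exact hs' h

theorem UnitAt_ne_zero {x : E} (h : UnitAt 𝔮 x) : x ≠ 0 := by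
  obtain ⟨a, s, ha, hs, e⟩ := h
  rintro rfl
  rw [zero_mul] at e
  have : a = 0 := IsFractionRing.injective R E (e.symm.trans (map_zero _).symm)
  exact ha (this ▸ 𝔮.zero_mem)

theorem regAt_of_unitAt {x : E} (h : UnitAt 𝔮 x) : RegAt 𝔮 x := by
  obtain ⟨a, s, _, hs, e⟩ := h
  exact ⟨a, s, hs, e⟩

theorem regAt_inv_of_unitAt {x : E} (h : UnitAt 𝔮 x) : RegAt 𝔮 x⁻¹ := by
  have hx := UnitAt_ne_zero h
  obtain ⟨a, s, ha, hs, e⟩ := h
  refine ⟨s, a, ha, ?_⟩
  rw [← e]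
  field_simp

/-! ### Consequences for a valuation subring `W` with `x ∈ W ↔ RegAt 𝔮 x` -/

variable {W : ValuationSubring E}

theorem algebraMap_mem (hW : ∀ x : E, x ∈ W ↔ RegAt 𝔮 x) (r : R) : algebraMap R E r ∈ W :=
  (hW _).mpr (regAt_algebraMap 𝔮 r)

theorem inv_algebraMap_mem (hW : ∀ x : E, x ∈ W ↔ RegAt 𝔮 x) {s : R} (hs : s ∉ 𝔮) :
    (algebraMap R E s)⁻¹ ∈ W :=
  (hW _).mpr (regAt_inv_algebraMap 𝔮 hs)

/-- `O`-algebra form: a constant `π` outside `𝔮` is inverted in `W`. -/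
theorem inv_algebraMap_algebraMap_mem {O : Type*} [CommRing O] [Algebra O R]
    (hW : ∀ x : E, x ∈ W ↔ RegAt 𝔮 x) {π : O} (hπ : algebraMap O R π ∉ 𝔮) :
    (algebraMap R E (algebraMap O R π))⁻¹ ∈ W :=
  inv_algebraMap_mem hW hπ

theorem unitAt_iff (hW : ∀ x : E, x ∈ W ↔ RegAt 𝔮 x) {x : E} (hx : x ≠ 0) :
    UnitAt 𝔮 x ↔ x ∈ W ∧ x⁻¹ ∈ W := by
  constructor
  · intro h
    exact ⟨(hW _).mpr (regAt_of_unitAt h), (hW _).mpr (regAt_inv_of_unitAt h)⟩
  · rintro ⟨h1, h2⟩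
    exact unitAt_of_regAt hx ((hW _).mp h1) ((hW _).mp h2)

/-- The centre of `W`: `x ∈ 𝔪_W` iff `x = a / s` with `a ∈ 𝔮`, `s ∉ 𝔮`. -/
theorem mem_nonunits_iff (hW : ∀ x : E, x ∈ W ↔ RegAt 𝔮 x) {x : E} :
    x ∈ W.nonunits ↔
      ∃ a s : R, a ∈ 𝔮 ∧ s ∉ 𝔮 ∧ x * algebraMap R E s = algebraMap R E a := by
  rw [ValuationSubring.mem_nonunits_iff]
  constructor
  · intro hlt
    have hxW : x ∈ W := (ValuationSubring.valuation_le_one_iff W x).mp hlt.le
    obtain ⟨a, s, hs, e⟩ := (hW _).mp hxW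
    refine ⟨a, s, ?_, hs, e⟩
    by_contra ha
    have hx0 : x ≠ 0 := by
      rintro rfl
      rw [zero_mul] at e
      have : a = 0 := IsFractionRing.injective R E (e.symm.trans (map_zero _).symm)
      exact ha (this ▸ 𝔮.zero_mem)
    have hinv : x⁻¹ ∈ W := by
      refine (hW _).mpr ⟨s, a, ha, ?_⟩
      rw [← e]
      field_simp
    have h1 : W.valuation x⁻¹ ≤ 1 := (ValuationSubring.valuation_le_one_iff W _).mpr hinv
    rw [map_inv₀] at h1
    have h2 : W.valuation x ≠ 0 := (Valuation.ne_zero_iff _).mpr hx0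
    have h3 : (1 : _) ≤ W.valuation x := by
      rwa [inv_le_one₀ (zero_lt_iff.mpr h2)] at h1
    exact absurd hlt (not_lt.mpr h3)
  · rintro ⟨a, s, ha, hs, e⟩
    by_contra hlt
    rw [not_lt] at hlt
    have hx0 : x ≠ 0 := by
      rintro rfl
      rw [map_zero] at hlt
      exact absurd hlt (not_le.mpr zero_lt_one)
    have hinv : x⁻¹ ∈ W := by
      rw [← ValuationSubring.valuation_le_one_iff, map_inv₀]
      exact inv_le_one_of_one_le₀ hlt
    obtain ⟨a', s', hs', e'⟩ := (hW _).mp hinv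
    have e3 : algebraMap R E (a * a') = algebraMap R E (s * s') := by
      rw [map_mul, map_mul, ← e, ← e']
      field_simp
    have e4 : a * a' = s * s' := IsFractionRing.injective R E e3
    have : s * s' ∈ 𝔮 := e4 ▸ 𝔮.mul_mem_right a' ha
    rcases h𝔮.mem_or_mem this with h | h
    · exact hs h
    · exact hs' h

theorem algebraMap_mem_nonunits_iff (hW : ∀ x : E, x ∈ W ↔ RegAt 𝔮 x) {r : R} :
    algebraMap R E r ∈ W.nonunits ↔ r ∈ 𝔮 := by
  rw [mem_nonunits_iff hW]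
  constructor
  · rintro ⟨a, s, ha, hs, e⟩
    rw [← map_mul] at e
    have e' : r * s = a := IsFractionRing.injective R E e
    have : r * s ∈ 𝔮 := e' ▸ ha
    rcases h𝔮.mem_or_mem this with h | h
    · exact h
    · exact absurd h hs
  · intro hr
    exact ⟨r, 1, hr, fun h => h𝔮.ne_top ((Ideal.eq_top_iff_one _).mpr h),
      by rw [map_one, mul_one]⟩

theorem unitAt_iff_notMem_nonunits (hW : ∀ x : E, x ∈ W ↔ RegAt 𝔮 x) {x : E} :
    UnitAt 𝔮 x ↔ x ∈ W ∧ x ∉ W.nonunits := by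
  constructor
  · intro h
    refine ⟨(hW _).mpr (regAt_of_unitAt h), ?_⟩
    rw [mem_nonunits_iff hW]
    rintro ⟨a, s, ha, hs, e⟩
    obtain ⟨a', s', ha', hs', e'⟩ := h
    have e3 : algebraMap R E (a * s') = algebraMap R E (a' * s) := by
      rw [map_mul, map_mul, ← e, ← e']
      ring
    have e4 : a * s' = a' * s := IsFractionRing.injective R E e3
    have : a' * s ∈ 𝔮 := e4 ▸ 𝔮.mul_mem_right s' ha
    rcases h𝔮.mem_or_mem this with h | h
    · exact ha' h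
    · exact hs h
  · rintro ⟨h1, h2⟩
    obtain ⟨a, s, hs, e⟩ := (hW _).mp h1
    refine ⟨a, s, ?_, hs, e⟩
    intro ha
    exact h2 ((mem_nonunits_iff hW).mpr ⟨a, s, ha, hs, e⟩)

/-- A local generator `t` of `𝔮` generates the maximal ideal of `W`. -/
theorem exists_eq_mul_of_mem_nonunits (hW : ∀ x : E, x ∈ W ↔ RegAt 𝔮 x) {t : R}
    (hgen : ∀ y ∈ 𝔮, ∃ s : R, s ∉ 𝔮 ∧ ∃ c : R, s * y = c * t) {x : E} (hx : x ∈ W.nonunits) :
    ∃ y ∈ W, x = algebraMap R E t * y := by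
  obtain ⟨a, s, ha, hs, e⟩ := (mem_nonunits_iff hW).mp hx
  obtain ⟨s', hs', c, hc⟩ := hgen a ha
  have hs0 := map_ne_zero_of_notMem (E := E) hs
  have hs0' := map_ne_zero_of_notMem (E := E) hs'
  refine ⟨algebraMap R E c * ((algebraMap R E s)⁻¹ * (algebraMap R E s')⁻¹),
    mul_mem (algebraMap_mem hW c)
      (mul_mem (inv_algebraMap_mem hW hs) (inv_algebraMap_mem hW hs')), ?_⟩
  have e2 : algebraMap R E s' * algebraMap R E a = algebraMap R E c * algebraMap R E t := by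
    rw [← map_mul, ← map_mul, hc]
  have e3 : x = algebraMap R E a * (algebraMap R E s)⁻¹ := by
    rw [← e, mul_assoc, mul_inv_cancel₀ hs0, mul_one]
  have e4 : algebraMap R E a = algebraMap R E c * algebraMap R E t * (algebraMap R E s')⁻¹ := by
    rw [← e2, mul_comm (algebraMap R E s'), mul_assoc, mul_inv_cancel₀ hs0', mul_one]
  rw [e3, e4]
  ring

theorem maximalIdeal_eq_span (hW : ∀ x : E, x ∈ W ↔ RegAt 𝔮 x) {t : R} (ht : t ∈ 𝔮)
    (hgen : ∀ y ∈ 𝔮, ∃ s : R, s ∉ 𝔮 ∧ ∃ c : R, s * y = c * t) :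
    maximalIdeal W = Ideal.span {(⟨algebraMap R E t, algebraMap_mem hW t⟩ : W)} := by
  apply le_antisymm
  · intro x hx
    have hx' : (x : E) ∈ W.nonunits :=
      ValuationSubring.mem_nonunits_iff_exists_mem_maximalIdeal.mpr ⟨x.2, hx⟩
    obtain ⟨y, hy, e⟩ := exists_eq_mul_of_mem_nonunits hW hgen hx'
    rw [Ideal.mem_span_singleton]
    exact ⟨⟨y, hy⟩, Subtype.ext e⟩
  · rw [Ideal.span_le, Set.singleton_subset_iff]
    have h1 : algebraMap R E t ∈ W.nonunits := (algebraMap_mem_nonunits_iff hW).mpr ht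
    obtain ⟨h2, h3⟩ := ValuationSubring.mem_nonunits_iff_exists_mem_maximalIdeal.mp h1
    exact h3

/-- A local generator `t` of `𝔮` is a uniformizer of the discrete valuation ring `W`. -/
theorem irreducible_gen [IsDiscreteValuationRing W] (hW : ∀ x : E, x ∈ W ↔ RegAt 𝔮 x) {t : R}
    (ht : t ∈ 𝔮) (hgen : ∀ y ∈ 𝔮, ∃ s : R, s ∉ 𝔮 ∧ ∃ c : R, s * y = c * t) :
    Irreducible (⟨algebraMap R E t, algebraMap_mem hW t⟩ : W) :=
  (IsDiscreteValuationRing.irreducible_iff_uniformizer _).mpr (maximalIdeal_eq_span hW ht hgen)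

/-- Every nonzero `x : E` is a power of the local generator `t` times a unit at `𝔮`. -/
theorem exists_zpow_unitAt [IsDiscreteValuationRing W] (hW : ∀ x : E, x ∈ W ↔ RegAt 𝔮 x)
    {t : R} (ht : t ∈ 𝔮) (hgen : ∀ y ∈ 𝔮, ∃ s : R, s ∉ 𝔮 ∧ ∃ c : R, s * y = c * t)
    {x : E} (hx : x ≠ 0) : ∃ k : ℤ, UnitAt 𝔮 (x * algebraMap R E t ^ k) := by
  have hirr := irreducible_gen hW ht hgen
  have ht0 : algebraMap R E t ≠ 0 := by
    intro h0
    exact hirr.ne_zero (Subtype.ext h0)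
  -- the case `x ∈ W`
  have key : ∀ y : E, y ≠ 0 → y ∈ W →
      ∃ n : ℕ, ∃ u : E, u ∈ W ∧ u⁻¹ ∈ W ∧ u ≠ 0 ∧ y = u * algebraMap R E t ^ n := by
    intro y hy0 hyW
    have hy' : (⟨y, hyW⟩ : W) ≠ 0 := fun h => hy0 (congrArg Subtype.val h)
    obtain ⟨n, u, hu⟩ := IsDiscreteValuationRing.eq_unit_mul_pow_irreducible hy' hirr
    have h1 : ((u : W) : E) * (((u⁻¹ : Wˣ) : W) : E) = 1 := by
      have h : (((u : W) * ((u⁻¹ : Wˣ) : W) : W) : E) = 1 := by
        rw [Units.mul_inv]; rfl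
      exact h
    have h2 : (((u⁻¹ : Wˣ) : W) : E) = ((u : W) : E)⁻¹ := eq_inv_of_mul_eq_one_right h1
    refine ⟨n, ((u : W) : E), (u : W).2, ?_, ?_, ?_⟩
    · rw [← h2]
      exact ((u⁻¹ : Wˣ) : W).2
    · intro h0
      rw [h0, zero_mul] at h1
      exact zero_ne_one h1
    · have h3 := congrArg (Subtype.val : W → E) hu
      exact h3
  rcases W.mem_or_inv_mem x with hxW | hxW
  · obtain ⟨n, u, hu1, hu2, hu0, e⟩ := key x hx hxW
    refine ⟨-(n : ℤ), ?_⟩
    have : x * algebraMap R E t ^ (-(n : ℤ)) = u := by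
      rw [e, zpow_neg, zpow_natCast, mul_assoc, mul_inv_cancel₀ (pow_ne_zero n ht0), mul_one]
    rw [this]
    exact (unitAt_iff hW hu0).mpr ⟨hu1, hu2⟩
  · obtain ⟨n, u, hu1, hu2, hu0, e⟩ := key x⁻¹ (inv_ne_zero hx) hxW
    refine ⟨(n : ℤ), ?_⟩
    have : x * algebraMap R E t ^ (n : ℤ) = u⁻¹ := by
      rw [zpow_natCast]
      have hx' : x = (u * algebraMap R E t ^ n)⁻¹ := by rw [← e, inv_inv]
      rw [hx', mul_inv, mul_assoc, inv_mul_cancel₀ (pow_ne_zero n ht0), mul_one]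
    rw [this]
    exact (unitAt_iff hW (inv_ne_zero hu0)).mpr ⟨hu2, by rwa [inv_inv]⟩

end Basic

/-! ### The discrete valuation subring `R_𝔮` -/

/-- **DvrAt** (universe-polymorphic form): for a prime `𝔮` of a noetherian domain `R` with
`PrincAt 𝔮`, the local ring `R_𝔮 ⊆ E = Frac R` is a discrete valuation subring. -/
theorem dvrAt {R : Type*} [CommRing R] [IsDomain R] [IsNoetherianRing R]
    {E : Type*} [Field E] [Algebra R E] [IsFractionRing R E] (𝔮 : Ideal R) [h𝔮 : 𝔮.IsPrime]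
    (h : PrincAt 𝔮) :
    ∃ W : ValuationSubring E, IsDiscreteValuationRing W ∧ ∀ x : E, x ∈ W ↔ RegAt 𝔮 x := by
  obtain ⟨hne, t, ht, hgen⟩ := h
  have hinj : Function.Injective (algebraMap R E) := IsFractionRing.injective R E
  -- `t ≠ 0`
  have ht0 : t ≠ 0 := by
    rintro rfl
    apply hne
    rw [eq_bot_iff]
    intro y hy
    obtain ⟨s, hs, c, hsc⟩ := hgen y hy
    rw [mul_zero] at hsc
    rcases mul_eq_zero.mp hsc with h0 | h0
    · exact absurd (h0 ▸ 𝔮.zero_mem) hs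
    · exact h0
  set W0 : Subalgebra R E :=
    Localization.subalgebra.ofField E 𝔮.primeCompl 𝔮.primeCompl_le_nonZeroDivisors with hW0
  have hmemW0 : ∀ x : E, x ∈ W0 ↔
      ∃ (a s : R) (_ : s ∈ 𝔮.primeCompl), x = algebraMap R E a * (algebraMap R E s)⁻¹ :=
    fun x => Iff.rfl
  have hloc : IsLocalization.AtPrime W0 𝔮 :=
    Localization.subalgebra.isLocalization_ofField E 𝔮.primeCompl
      𝔮.primeCompl_le_nonZeroDivisors
  have : IsLocalRing W0 := IsLocalization.AtPrime.isLocalRing W0 𝔮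
  have : IsNoetherianRing W0 := IsLocalization.isNoetherianRing 𝔮.primeCompl W0 inferInstance
  have hmax : maximalIdeal W0 = Ideal.span {algebraMap R W0 t} := by
    rw [← IsLocalization.AtPrime.map_eq_maximalIdeal 𝔮 W0]
    apply le_antisymm
    · rw [Ideal.map_le_iff_le_comap]
      intro y hy
      obtain ⟨s, hs, c, hsc⟩ := hgen y hy
      rw [Ideal.mem_comap, Ideal.mem_span_singleton]
      obtain ⟨u, hu⟩ := IsLocalization.map_units W0 (⟨s, hs⟩ : 𝔮.primeCompl)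
      refine ⟨↑u⁻¹ * algebraMap R W0 c, ?_⟩
      have e1 : algebraMap R W0 s * algebraMap R W0 y =
          algebraMap R W0 c * algebraMap R W0 t := by
        rw [← map_mul, ← map_mul, hsc]
      have e2 : (u : W0) * algebraMap R W0 y = algebraMap R W0 c * algebraMap R W0 t := by
        rw [hu]; exact e1
      calc algebraMap R W0 y = ↑u⁻¹ * ((u : W0) * algebraMap R W0 y) := by
            rw [← mul_assoc, Units.inv_mul, one_mul]
        _ = algebraMap R W0 t * (↑u⁻¹ * algebraMap R W0 c) := by rw [e2]; ring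
    · rw [Ideal.span_le, Set.singleton_subset_iff]
      exact Ideal.mem_map_of_mem _ ht
  have ht' : algebraMap R W0 t ≠ 0 := by
    intro h0
    have h1 : algebraMap R E t = 0 := by
      have := congrArg (Subtype.val : W0 → E) h0
      simpa using this
    exact ht0 (hinj (h1.trans (map_zero _).symm))
  have hfield : ¬ IsField W0 := by
    rw [IsLocalRing.isField_iff_maximalIdeal_eq, hmax]
    intro h0
    exact ht' (Ideal.span_singleton_eq_bot.mp h0)
  have hdvr : IsDiscreteValuationRing W0 :=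
    ((IsDiscreteValuationRing.TFAE W0 hfield).out 0 4).mpr
      (show (maximalIdeal W0).IsPrincipal from ⟨⟨_, hmax⟩⟩)
  -- the valuation subring
  have hor : ∀ x : E, x ∈ W0 ∨ x⁻¹ ∈ W0 := by
    intro x
    rcases ValuationRing.isInteger_or_isInteger W0 x with ⟨y, hy⟩ | ⟨y, hy⟩
    · left; rw [← hy]; exact y.2
    · right; rw [← hy]; exact y.2
  let W : ValuationSubring E := { W0.toSubring with mem_or_inv_mem' := hor }
  have hWmem : ∀ x : E, x ∈ W ↔ x ∈ W0 := fun x => Iff.rfl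
  let e : W0 ≃+* W :=
    { toFun := fun x => ⟨x.1, x.2⟩
      invFun := fun x => ⟨x.1, x.2⟩
      left_inv := fun _ => rfl
      right_inv := fun _ => rfl
      map_mul' := fun _ _ => rfl
      map_add' := fun _ _ => rfl }
  refine ⟨W, IsDiscreteValuationRing.RingEquivClass.isDiscreteValuationRing e, ?_⟩
  intro x
  rw [hWmem, hmemW0]
  constructor
  · rintro ⟨a, s, hs, rfl⟩
    refine ⟨a, s, hs, ?_⟩
    rw [mul_assoc, inv_mul_cancel₀ (map_ne_zero_of_notMem hs), mul_one]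
  · rintro ⟨a, s, hs, e1⟩
    refine ⟨a, s, hs, ?_⟩
    rw [← e1, mul_assoc, mul_inv_cancel₀ (map_ne_zero_of_notMem hs), mul_one]

/-- **[N3] DvrAt**, in the exact shape of the Plan. -/
theorem dvrAtStatement : DvrAtStatement := by
  intro R _ _ _ E _ _ _ 𝔮 h𝔮 h
  have := h𝔮
  exact dvrAt 𝔮 h

end Fermat.Agent.S34.DvrAt
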