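/-
S34 — HorInst.lean (helper1): block [HorInst] of the modular half of `(U_q)`: the field
`ModelPlan2.ChartModel.hor` (row (4) of the [Model2] ruling), for ANY chart `R ⊆ F_K`.

At a horizontal prime `𝔮` of a chart `R` with `R_𝔮` a discrete valuation ring (`PrincAt 𝔮`),
passing through a closed point `n` of the special fibre: `R_𝔮` is the valuation ring of a place
`v` of `F_K / K` (`DvrAt`), and

* if `ord_v f = 0` then `f` is a unit at `𝔮`;
* otherwise `v` is `K`-rational (`RatPlace`), hence `R = O + 𝔮` (`RatPlace.exists_sec`), and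
  `ord_v f = m k` gives `f · (t ^ (-k)) ^ m` a unit at `𝔮` for a local generator `t` of `𝔮`.

* `hor_of_place`      (H1)  the field `hor` from the two place-level inputs `hdiv`, `hrat`;
* `exists_finset_hor` (H2)  the two inputs, for every `K` containing a finite set of constants.
-/
import Mathlib
import Fermat.Agent.S34.LocPlan
import Fermat.Agent.S34.DvrAt
import Fermat.Agent.S34.RatPlace
import Fermat.Agent.S18.Dict

set_option autoImplicit false

noncomputable section

namespace Fermat.Agent.S34.HorInst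

open ModularCurve AlgebraicCurve HahnSeries Fermat.Agent.S18.Arith Fermat.Agent.S34.LocPlan

set_option synthInstance.maxHeartbeats 400000

section Place

variable {N : ℕ} {A : ValuationSubring Qb} {K : IntermediateField ℚ Qb}

/-- A valuation subring `W` of `F_K` containing the chart-constants `O` in which a uniformizer
`π` of `O` is invertible contains the constants `K`. -/
theorem constK_mem (hdvr : IsDiscreteValuationRing (OK A K)) {π : OK A K} (hπ : Irreducible π)
    (W : ValuationSubring (FK N K))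
    (hO : ∀ c : OK A K, algebraMap (OK A K) (FK N K) c ∈ W)
    (hπW : (algebraMap (OK A K) (FK N K) π)⁻¹ ∈ W) (c : K) :
    algebraMap K (FK N K) c ∈ W := by
  rcases (OK A K).mem_or_inv_mem c with hc | hc
  · exact hO ⟨c, hc⟩
  · -- `c⁻¹ = d ∈ O`, `d = u * π ^ k`
    by_cases hc0 : c = 0
    · rw [hc0, map_zero]
      exact zero_mem _
    have hd0 : (⟨c⁻¹, hc⟩ : OK A K) ≠ 0 := fun h => inv_ne_zero hc0 (congrArg Subtype.val h)
    obtain ⟨k, u, hu⟩ := IsDiscreteValuationRing.eq_unit_mul_pow_irreducible hd0 hπ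
    have h1 : algebraMap K (FK N K) c
        = algebraMap (OK A K) (FK N K) ((u⁻¹ : (OK A K)ˣ) : OK A K)
          * ((algebraMap (OK A K) (FK N K) π)⁻¹) ^ k := by
      have h2 : algebraMap (OK A K) (FK N K) (⟨c⁻¹, hc⟩ : OK A K)
          = (algebraMap K (FK N K) c)⁻¹ := by
        show algebraMap K (FK N K) c⁻¹ = _
        rw [map_inv₀]
      have h3 : algebraMap (OK A K) (FK N K) (⟨c⁻¹, hc⟩ : OK A K)
          = algebraMap (OK A K) (FK N K) (u : OK A K) * algebraMap (OK A K) (FK N K) π ^ k := by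
        rw [hu, map_mul, map_pow]
      have h4 : algebraMap (OK A K) (FK N K) (u : OK A K)
          * algebraMap (OK A K) (FK N K) ((u⁻¹ : (OK A K)ˣ) : OK A K) = 1 := by
        rw [← map_mul, Units.mul_inv, map_one]
      have hc' : algebraMap K (FK N K) c ≠ 0 := fun h => hc0 ((map_eq_zero _).mp h)
      have hπ0 : algebraMap (OK A K) (FK N K) π ≠ 0 := by
        intro h0
        rw [h0, zero_pow_eq] at h3
        split_ifs at h3 with hk
        · rw [mul_one, h2] at h3
          rw [h0, inv_zero] at hπW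
          -- harmless: derive contradiction from irreducibility instead
          have : (π : K) = 0 := by
            have h5 : algebraMap K (FK N K) (π : K) = 0 := h0
            exact (map_eq_zero _).mp h5
          exact hπ.ne_zero (Subtype.ext this)
        · rw [mul_zero, h2] at h3
          exact inv_ne_zero hc' h3
      have hu0 : algebraMap (OK A K) (FK N K) (u : OK A K) ≠ 0 := by
        intro h0
        rw [h0, zero_mul] at h4
        exact zero_ne_one h4
      rw [h2] at h3
      have h5 : algebraMap K (FK N K) c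
          = (algebraMap (OK A K) (FK N K) (u : OK A K)
            * algebraMap (OK A K) (FK N K) π ^ k)⁻¹ := by
        rw [← h3, inv_inv]
      rw [h5, mul_inv, inv_pow]
      congr 1
      exact inv_eq_of_mul_eq_one_right h4
    rw [h1]
    exact mul_mem (hO _) (pow_mem hπW k)

/-- The place of `F_K / K` carried by a discrete valuation subring containing `K`. -/
def placeOf (W : ValuationSubring (FK N K)) (hdW : IsDiscreteValuationRing W)
    (hK : ∀ c : K, algebraMap K (FK N K) c ∈ W) (htop : W ≠ ⊤) : Place K (FK N K) where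
  toValuationSubring := W
  algebraMap_mem' := hK
  ne_top' := htop
  isPrincipalIdealRing' := inferInstance

/-- A valuation subring with a nonzero nonunit is not `⊤`. -/
theorem ne_top_of_mem_nonunits {F : Type*} [Field F] (W : ValuationSubring F) {y : F}
    (hy0 : y ≠ 0) (hy : y ∈ W.nonunits) : W ≠ ⊤ := by
  intro htop
  have h1 : y⁻¹ ∈ W := by
    rw [htop]
    exact ValuationSubring.mem_top _
  rw [ValuationSubring.mem_nonunits_iff] at hy
  have h2 : W.valuation y⁻¹ ≤ 1 := (W.valuation_le_one_iff _).mpr h1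
  have h3 : W.valuation y * W.valuation y⁻¹ = 1 := by
    rw [← map_mul, mul_inv_cancel₀ hy0, map_one]
  have h4 : W.valuation y * W.valuation y⁻¹ < 1 :=
    calc W.valuation y * W.valuation y⁻¹ ≤ W.valuation y * 1 := mul_le_mul' le_rfl h2
      _ = W.valuation y := mul_one _
      _ < 1 := hy
  exact absurd h3 (ne_of_lt h4)

end Place

section Hor

variable (N : ℕ) [NeZero N] (A : ValuationSubring Qb) (K : IntermediateField ℚ Qb)

omit [NeZero N] in
/-- **(H1)** the field `ModelPlan2.ChartModel.hor`, for any chart `R ⊆ F_K` (noetherian with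
fraction field `F_K`), from the two place-level facts: `m ∣ ord_v f` at every place `v` of
`F_K / K`, and the places in the support of `f` are `K`-rational. -/
theorem hor_of_place (hdvr : IsDiscreteValuationRing (OK A K)) (π : OK A K) (hπ : Irreducible π)
    (m : ℕ) (fK : FK N K) (hf : fK ≠ 0)
    (hdiv : ∀ v : Place K (FK N K), (m : ℤ) ∣ v.ord fK)
    (hrat : ∀ v : Place K (FK N K), v.ord fK ≠ 0 → RatPlace.IsRational N K v)
    (R : Subalgebra (OK A K) (FK N K)) [IsNoetherianRing R] [IsFractionRing R (FK N K)] :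
    ∀ n : Ideal R, n.IsMaximal → algebraMap (OK A K) R π ∈ n →
    ∀ 𝔮 : Ideal R, 𝔮.IsPrime → 𝔮 ≤ n → algebraMap (OK A K) R π ∉ 𝔮 → PrincAt 𝔮 →
      UnitAt 𝔮 fK ∨
        ((∀ r : R, ∃ c : OK A K, r - algebraMap (OK A K) R c ∈ 𝔮) ∧
          ∃ x : FK N K, x ≠ 0 ∧ UnitAt 𝔮 (fK * x ^ m)) := by
  intro n hn hπn 𝔮 h𝔮 hqn hπ𝔮 hprinc
  have := h𝔮
  obtain ⟨W, hdW, hW⟩ := DvrAt.dvrAt (E := FK N K) 𝔮 hprinc
  obtain ⟨hne, t, ht, hgen⟩ := hprinc
  -- `R ⊆ W`, `K ⊆ W`, `W ≠ ⊤`
  have hRW : ∀ r : R, (r : FK N K) ∈ W := fun r => DvrAt.algebraMap_mem hW r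
  have hOW : ∀ c : OK A K, algebraMap (OK A K) (FK N K) c ∈ W := fun c =>
    hRW (algebraMap (OK A K) R c)
  have hπW : (algebraMap (OK A K) (FK N K) π)⁻¹ ∈ W := by
    have h := DvrAt.inv_algebraMap_mem hW hπ𝔮
    have e : algebraMap R (FK N K) (algebraMap (OK A K) R π)
        = algebraMap (OK A K) (FK N K) π := rfl
    rwa [e] at h
  have hKW : ∀ c : K, algebraMap K (FK N K) c ∈ W := constK_mem hdvr hπ W hOW hπW
  have hirr := DvrAt.irreducible_gen hW ht hgen
  have ht0 : algebraMap R (FK N K) t ≠ 0 := fun h0 => hirr.ne_zero (Subtype.ext h0)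
  have htop : W ≠ ⊤ :=
    ne_top_of_mem_nonunits W ht0 ((DvrAt.algebraMap_mem_nonunits_iff hW).mpr ht)
  obtain ⟨v, hvW⟩ : ∃ v : Place K (FK N K), v.toValuationSubring = W :=
    ⟨placeOf W hdW hKW htop, rfl⟩
  subst hvW
  -- `UnitAt 𝔮 x ↔ ord_v x = 0`
  have hunit : ∀ x : FK N K, x ≠ 0 → v.ord x = 0 → UnitAt 𝔮 x := by
    intro x hx hord
    refine (DvrAt.unitAt_iff hW hx).mpr ⟨?_, ?_⟩
    · exact Fermat.Agent.S24.mem_of_ord_nonneg v (le_of_eq hord.symm)
    · refine Fermat.Agent.S24.mem_of_ord_nonneg v ?_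
      rw [v.ord_inv, hord, neg_zero]
  by_cases hord : v.ord fK = 0
  · exact Or.inl (hunit fK hf hord)
  · right
    refine ⟨?_, ?_⟩
    · -- the constants
      have hvr : RatPlace.IsRational N K v := hrat v hord
      have hsec := RatPlace.exists_sec N A K v hvr R (fun x hx => hRW ⟨x, hx⟩) n hn.ne_top
        (fun a ha => by
          rw [hπ.maximalIdeal_eq, Ideal.mem_span_singleton] at ha
          obtain ⟨b, rfl⟩ := ha
          rw [map_mul]
          exact n.mul_mem_right _ hπn)
        (fun x hx => hqn ((DvrAt.algebraMap_mem_nonunits_iff hW).mp hx))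
      intro r
      obtain ⟨c, hc⟩ := hsec r
      refine ⟨c, ?_⟩
      have e : algebraMap R (FK N K) (r - algebraMap (OK A K) R c)
          = (r : FK N K) - algebraMap (OK A K) (FK N K) c := by
        rw [map_sub]
        rfl
      rw [← e] at hc
      exact (DvrAt.algebraMap_mem_nonunits_iff hW).mp hc
    · -- `f · (t ^ (-k)) ^ m` is a unit at `𝔮`
      obtain ⟨k, hk⟩ := hdiv v
      have hordt := v.ord_coe_irreducible hirr
      simp only [] at hordt
      refine ⟨algebraMap R (FK N K) t ^ (-k), zpow_ne_zero _ ht0, ?_⟩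
      have hx0 : (algebraMap R (FK N K) t ^ (-k)) ^ m ≠ 0 := pow_ne_zero _ (zpow_ne_zero _ ht0)
      refine hunit _ (mul_ne_zero hf hx0) ?_
      rw [v.ord_mul hf hx0, Fermat.Agent.S24.ord_pow, v.ord_zpow, hordt, hk]
      ring

/-- **(H2)** the two place-level inputs of `hor_of_place`, for every intermediate field `K`
containing a suitable finite set `S` of constants (depending only on `f`): if `m` divides all the
orders of `f ∈ F̄` then `m` divides all the orders of its descent `fK ∈ F_K` ([Dict]), and the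
places of `F_K / K` in the support of `fK` are `K`-rational ([RatPlace]). -/
theorem exists_finset_hor (m : ℕ) (f : modularFunctionFieldBar N) (hf : f ≠ 0)
    (hdiv : ∀ P : Place Qb (modularFunctionFieldBar N), (m : ℤ) ∣ P.ord f) :
    ∃ S : Finset Qb, ∀ K : IntermediateField ℚ Qb, (↑S ⊆ (K : Set Qb)) →
      ∀ fK : FK N K, Fermat.Agent.S18.Glob.toBar N K fK = f →
        (∀ v : Place K (FK N K), (m : ℤ) ∣ v.ord fK) ∧
        (∀ v : Place K (FK N K), v.ord fK ≠ 0 → RatPlace.IsRational N K v) := by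
  obtain ⟨S, hS⟩ := RatPlace.exists_finset_rational_of_ord_ne_zero N f hf
  refine ⟨S, fun K hK fK hfK => ⟨fun v => ?_, fun v hv => ?_⟩⟩
  · obtain ⟨P, hP⟩ := Fermat.Agent.S18.Dict.dictStatement N K v
    have h1 : P.ord (Fermat.Agent.S18.Glob.toBar N K fK) = v.ord fK :=
      hP fK (Fermat.Agent.S18.Glob.fk_le_bar N K fK.2)
    rw [← h1, hfK]
    exact hdiv P
  · refine hS K hK v ⟨fK, ?_, hv⟩
    rw [← hfK]
    rfl

/-- **(H1) + (H2)**: for `f ≠ 0` in `F̄` with all orders divisible by `m` there is a finite set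
`S` of constants such that, for every base `K ⊇ S` with `O = A ∩ K` a discrete valuation ring,
the descent `fK` of `f` satisfies the field `ModelPlan2.ChartModel.hor` on every chart
`R ⊆ F_K` (noetherian, fraction field `F_K`). -/
theorem exists_finset_hor_chart (m : ℕ) (f : modularFunctionFieldBar N) (hf : f ≠ 0)
    (hdiv : ∀ P : Place Qb (modularFunctionFieldBar N), (m : ℤ) ∣ P.ord f) :
    ∃ S : Finset Qb, ∀ (A : ValuationSubring Qb) (K : IntermediateField ℚ Qb),
      (↑S ⊆ (K : Set Qb)) → IsDiscreteValuationRing (OK A K) →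
      ∀ π : OK A K, Irreducible π →
      ∀ fK : FK N K, Fermat.Agent.S18.Glob.toBar N K fK = f →
      ∀ (R : Subalgebra (OK A K) (FK N K)) [IsNoetherianRing R] [IsFractionRing R (FK N K)],
      ∀ n : Ideal R, n.IsMaximal → algebraMap (OK A K) R π ∈ n →
      ∀ 𝔮 : Ideal R, 𝔮.IsPrime → 𝔮 ≤ n → algebraMap (OK A K) R π ∉ 𝔮 → PrincAt 𝔮 →
        UnitAt 𝔮 fK ∨
          ((∀ r : R, ∃ c : OK A K, r - algebraMap (OK A K) R c ∈ 𝔮) ∧
            ∃ x : FK N K, x ≠ 0 ∧ UnitAt 𝔮 (fK * x ^ m)) := by
  obtain ⟨S, hS⟩ := exists_finset_hor N m f hf hdiv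
  refine ⟨S, fun A K hK hdvr π hπ fK hfK R _ _ => ?_⟩
  obtain ⟨h1, h2⟩ := hS K hK fK hfK
  have hfK0 : fK ≠ 0 := by
    rintro rfl
    apply hf
    rw [← hfK, map_zero]
  exact hor_of_place N A K hdvr π hπ m fK hfK0 h1 h2 R

end Hor

end Fermat.Agent.S34.HorInst
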