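/-
S34 — ModelPlan2.lean (captain: helper85).  BINDING interface between the MODULAR block and the
ABSTRACT block of `(U_q)`.  Definitions and `Prop`s only (no proof obligations).

One structure `Model2 N A m τ τ' f` = everything the modular block supplies for one function `f`
(level `N = M q`, `A` a valuation ring of `ℚ̄` over `q`, `τ, τ'` in its inertia group, `m` prime
to `q`), in the vocabulary of `S34/LocPlan.lean` (helper41) and AGNOSTIC of how the base field,
the coordinate `t` and the second component valuation are constructed: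

* `K`, `dvr`, `π`, `irr`, `hm`   — the base: `O = A ∩ K` a DVR with uniformizer `π`, `m ∈ Oˣ`;
* `t`, `t_ne`, `fin0`            — the coordinate; the two charts are `chart t`, `chart t⁻¹`;
* `fK`, `σ`, `σ'`                — `f` and the actions of `τ`, `τ'` descended to `F_K`;
* `V 0`, `V 1`                   — the valuation rings of the two components of the special fibre;
* `c0`, `cInf : ChartModel …`    — per chart `R`: noetherian, `Frac R = F_K`, the vertical primes
                                   `P i = R ∩ π (V i)`, `LocPlan.ChartHyp`, `LocPlan.TauHyp` for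
                                   `σ`, `σ'`, regular branches (`branch`), transversality (`trans`)
                                   and the horizontal alternative (`hor`).

* `Model2Statement N q m`        — the TARGET of the modular block: a `Model2` for every `f` with
                                   `m ∣ div f`;
* `CoreAsmStatement`             — the assembly (`S34/CoreAsm.lean`): the abstract leaves of
                                   `LocPlan` + `Model2Statement` ⟹ `UPlan.CoreStatement`.
-/
import Mathlib
import Fermat.Agent.S34.UPlan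
import Fermat.Agent.S34.LocPlan

set_option autoImplicit false

open ModularCurve AlgebraicCurve HahnSeries

namespace Fermat.Agent.S34.ModelPlan2

open Fermat.Agent.S18.Arith

noncomputable section

/-- What the modular block supplies about ONE chart `R` (a subalgebra of `F_K`; in the
application `R = chart t` or `R = chart t⁻¹`). -/
structure ChartModel (N : ℕ) [NeZero N] (A : ValuationSubring Qb) (K : IntermediateField ℚ Qb)
    (π : OK A K) (m : ℕ) (V : Fin 2 → ValuationSubring (FK N K))
    (σ σ' : FK N K ≃+* FK N K) (fK : FK N K) (R : Subalgebra (OK A K) (FK N K)) where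
  /-- `R` is noetherian -/
  noeth : IsNoetherianRing R
  /-- `F_K = Frac R` -/
  frac : IsFractionRing R (FK N K)
  /-- `R` is integrally closed -/
  intcl : IsIntegrallyClosed R
  /-- the two vertical primes `P i = R ∩ π (V i)` -/
  P : Fin 2 → Ideal R
  /-- `R ⊆ V i`, `π` a uniformizer of `V i`, `P i = R ∩ π (V i)`, `P 0 ∩ P 1 = π R` -/
  hyp : LocPlan.ChartHyp π V P
  /-- `σ R = R`, `σ ≡ 1` on `V i / π`, `σ π = π · unit` -/
  tau : LocPlan.TauHyp (R := R) π V σ
  tau' : LocPlan.TauHyp (R := R) π V σ'
  /-- each branch through a closed point `n` of the special fibre is regular of dimension one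
  there: `P i ≠ n` and `n / P i` is locally principal -/
  branch : ∀ n : Ideal R, n.IsMaximal → algebraMap (OK A K) R π ∈ n → ∀ i : Fin 2, P i ≤ n →
    (∃ x ∈ n, x ∉ P i) ∧
      ∃ u ∈ n, ∀ x ∈ n, ∃ s : R, s ∉ n ∧ ∃ c : R, s * x - c * u ∈ P i
  /-- the two branches are transversal where they cross: `P 0 + P 1 = n` locally at `n` -/
  trans : ∀ n : Ideal R, n.IsMaximal → algebraMap (OK A K) R π ∈ n → P 0 ≤ n → P 1 ≤ n →
    ∀ x ∈ n, ∃ s : R, s ∉ n ∧ s * x ∈ P 0 ⊔ P 1
  /-- at every horizontal prime `𝔮` with `R_𝔮` a DVR specialising into the special fibre,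
  either `f` is a unit, or `𝔮` is `O`-rational and `f` is a unit times an `m`-th power -/
  hor : ∀ n : Ideal R, n.IsMaximal → algebraMap (OK A K) R π ∈ n →
    ∀ 𝔮 : Ideal R, 𝔮.IsPrime → 𝔮 ≤ n → algebraMap (OK A K) R π ∉ 𝔮 → LocPlan.PrincAt 𝔮 →
      LocPlan.UnitAt 𝔮 fK ∨
        ((∀ r : R, ∃ c : OK A K, r - algebraMap (OK A K) R c ∈ 𝔮) ∧
          ∃ x : FK N K, x ≠ 0 ∧ LocPlan.UnitAt 𝔮 (fK * x ^ m))

/-- **The model at level `N`** for one function `f` and two elements `τ, τ'` of the Galois
group: base field, coordinate, component valuations and the two charts. -/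
structure Model2 (N : ℕ) [NeZero N] (A : ValuationSubring Qb) (m : ℕ) (τ τ' : Qb ≃ₐ[ℚ] Qb)
    (f : modularFunctionFieldBar N) where
  /-- the base field -/
  K : IntermediateField ℚ Qb
  dvr : IsDiscreteValuationRing (OK A K)
  /-- a uniformizer of `O = A ∩ K` -/
  π : OK A K
  irr : Irreducible π
  hm : IsUnit ((m : ℕ) : OK A K)
  /-- the coordinate gluing the two charts `chart t`, `chart t⁻¹` -/
  t : FK N K
  t_ne : t ≠ 0
  /-- `chart t` lies in a finitely generated `O[t]`-submodule of `F_K` -/
  fin0 : ∃ s : Finset (FK N K), (chart N A K t : Set (FK N K)) ⊆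
    Submodule.span (Algebra.adjoin (OK A K) {t}) (s : Set (FK N K))
  /-- `f`, descended to `F_K` -/
  fK : FK N K
  fK_coe : Fermat.Agent.S18.Glob.toBar N K fK = f
  /-- the action of `τ` on `F_K` -/
  σ : FK N K ≃+* FK N K
  /-- the action of `τ'` on `F_K` -/
  σ' : FK N K ≃+* FK N K
  σ_coe : ∀ x : FK N K, Fermat.Agent.S18.Glob.toBar N K (σ x) =
    UPlan.gal N τ • Fermat.Agent.S18.Glob.toBar N K x
  σ'_coe : ∀ x : FK N K, Fermat.Agent.S18.Glob.toBar N K (σ' x) =
    UPlan.gal N τ' • Fermat.Agent.S18.Glob.toBar N K x
  /-- the valuation rings of the two components of the special fibre -/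
  V : Fin 2 → ValuationSubring (FK N K)
  /-- the chart `t ≠ ∞` -/
  c0 : ChartModel N A K π m V σ σ' fK (chart N A K t)
  /-- the chart `t ≠ 0` -/
  cInf : ChartModel N A K π m V σ σ' fK (chart N A K t⁻¹)

/-- **[Model2]** (target of the modular block): a model for every `f` all of whose orders are
divisible by `m`, and every `τ, τ'` in an inertia group at `q`. -/
def Model2Statement (N q m : ℕ) [NeZero N] : Prop :=
  ∀ A : ValuationSubring Qb, A.LiesOverPrime q →
  ∀ τ ∈ A.inertiaSubgroupIn ℚ, ∀ τ' ∈ A.inertiaSubgroupIn ℚ,
  ∀ f : modularFunctionFieldBar N, f ≠ 0 →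
    (∀ P : Place Qb (modularFunctionFieldBar N), (m : ℤ) ∣ P.ord f) →
    Nonempty (Model2 N A m τ τ' f)

/-- **[CoreAsm]** (the assembly): the abstract leaves of `LocPlan` turn a `Model2` into the
Čech-bis setting required by `UPlan.CoreStatement`. -/
def CoreAsmStatement : Prop :=
  LocPlan.CutAtStatement → LocPlan.HwStatement → LocPlan.LocAStatement →
  LocPlan.LocAdapterStatement →
  ∀ (N q m : ℕ) [NeZero N], Model2Statement N q m → UPlan.CoreStatement N q m

end

end Fermat.Agent.S34.ModelPlan2
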