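/-
S34 block [Model2], row [Red2] (A-owner helper43; captain helper85, architect helper5) —
Red2.lean: reducedness of the special fibre of the level-`M q` charts along the two Gauss
valuation rings, `R ∩ π (V1 ⊓ V2) = π R` (= `desc0` / `descInf` of `Cech2Plan.Setting`, hence the
field `red` of `LocPlan.ChartHyp`).

* `red_of_chartFacts`        : a chart with `S18.Arith.ChartFacts` is reduced along `V1`
                               (`R ∩ π V1 = π R`) — the level-`M` input (`q ∤ M`);
* `desc_of_isIntegralElem`   : hypothesis form of the descent (minimal-polynomial step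
                               `Red2Alg.isIntegral_of_isIntegral_mul`): `z` integral over `V1(M)`
                               and `π z ∈ chart_N (α t)` give `z ∈ chart_N (α t)`;
* `isIntegralElem_of_mem_V12`: (INT) `V1 ⊓ V2 ⊆` integral closure of `V1(M)` in `F_K(M q)`, from
                               the two-valuation instance `ResDeg.hyp` (helper61) of
                               `RamTwoV.Hyp` (helper56);
* `desc_chart`, `desc0`, `descInf` : the reducedness statements at level `M q`.
-/
import Mathlib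
import Fermat.Agent.S34.Red2Alg
import Fermat.Agent.S34.GaussV
import Fermat.Agent.S34.WK
import Fermat.Agent.S34.DegTower
import Fermat.Agent.S34.RamTwoV
import Fermat.Agent.S34.ResDeg
import Fermat.Agent.S18.ModelAll

set_option autoImplicit false

namespace Fermat.Agent.S34.Red2

open ModularCurve ModularCurve.IgusaScheme AlgebraicCurve HahnSeries Fermat.Agent.S18.Arith
open Fermat.Agent.S18.ModelPlan Fermat.Agent.S18.ModelRed Fermat.Agent.S34.GaussV
open Polynomial

/-! ### Transfer of integrality -/

/-- If every element of (the image of) `T` is integral over `R`, then integral over `T` implies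
integral over `R` (no tower assumption). -/
theorem isIntegral_of_forall_isIntegral {R T E : Type*} [CommRing R] [CommRing T] [CommRing E]
    [Algebra R E] [Algebra T E] (hT : ∀ c : T, IsIntegral R (algebraMap T E c)) {x : E}
    (hx : IsIntegral T x) : IsIntegral R x := by
  let φ : T →+* integralClosure R E :=
    { toFun := fun c => ⟨algebraMap T E c, hT c⟩
      map_one' := Subtype.ext (map_one _)
      map_mul' := fun a b => Subtype.ext (map_mul _ a b)
      map_zero' := Subtype.ext (map_zero _)
      map_add' := fun a b => Subtype.ext (map_add _ a b) }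
  have h := hx.map_of_comp_eq φ (RingHom.id E) (by ext c; rfl)
  exact isIntegral_trans x h

/-! ### Level-`N` reducedness of a chart with `ChartFacts` along `V1` -/

section Level

variable {N : ℕ} [NeZero N] {A : ValuationSubring Qb} {K : IntermediateField ℚ Qb}

/-- For a chart `R` with `ChartFacts` (reduction map with kernel `𝔪_O R`): `R ∩ π V1 = π R`. -/
theorem red_of_chartFacts (hdvr : IsDiscreteValuationRing (OK A K))
    (R : Subalgebra (OK A K) (FK N K)) (t : FK N K) (hR : ChartFacts N A K R t)
    {π : OK A K} (hπ : Irreducible π) :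
    ∀ a ∈ V1 N A K hdvr, algebraMap (OK A K) (FK N K) π * a ∈ R → a ∈ R := by
  intro a ha hπa
  have hG := Fermat.Agent.S18.GRel.gRelStatement A
  obtain ⟨ρ, hρ, hker, -⟩ := hR.red
  obtain ⟨y, hy⟩ := (mem_V1_iff hdvr).mp ha
  have h0 : ρ ⟨_, hπa⟩ = 0 := by
    apply hG.unique _ _ _ (hρ ⟨_, hπa⟩)
    have h := hG.mul _ _ _ _ (gRel_pi (K := K) hG π hπ.not_isUnit) hy
    rw [zero_mul] at h
    exact h
  have hmem : (⟨_, hπa⟩ : R) ∈ piIdeal N A K R := by
    rw [← hker]; exact h0
  unfold piIdeal at hmem
  have := hdvr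
  rw [hπ.maximalIdeal_eq, Ideal.map_span, Set.image_singleton, Ideal.mem_span_singleton] at hmem
  obtain ⟨r, hr⟩ := hmem
  have hr' : algebraMap (OK A K) (FK N K) π * a = algebraMap (OK A K) (FK N K) π * (r : FK N K) :=
    congrArg Subtype.val hr
  have hπF := algebraMap_ne_zero N A K hπ.ne_zero
  rw [mul_left_cancel₀ hπF hr']
  exact r.2

end Level

/-! ### The descent, hypothesis form -/

section Descent

variable {M N : ℕ} {A : ValuationSubring Qb} {K : IntermediateField ℚ Qb}

/-- A ring embedding `α : F_K(M) → F_K(N)` over `O` maps `O[t]` into `O[α t]`. -/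
theorem map_mem_adjoin (α : FK M K →+* FK N K)
    (hα : ∀ c : OK A K, α (algebraMap (OK A K) (FK M K) c) = algebraMap (OK A K) (FK N K) c)
    (t : FK M K) {x : FK M K} (hx : x ∈ Algebra.adjoin (OK A K) {t}) :
    α x ∈ Algebra.adjoin (OK A K) {α t} := by
  let αO : FK M K →ₐ[OK A K] FK N K := { α with commutes' := hα }
  have h : (Algebra.adjoin (OK A K) {t}).map αO = Algebra.adjoin (OK A K) {α t} := by
    rw [AlgHom.map_adjoin, Set.image_singleton]; rfl
  rw [← h]
  exact ⟨x, hx, rfl⟩

/-- every element of `O[α t]` is the image of an element of `O[t]`. -/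
theorem exists_of_mem_adjoin (α : FK M K →+* FK N K)
    (hα : ∀ c : OK A K, α (algebraMap (OK A K) (FK M K) c) = algebraMap (OK A K) (FK N K) c)
    (t : FK M K) {y : FK N K} (hy : y ∈ Algebra.adjoin (OK A K) {α t}) :
    ∃ x ∈ Algebra.adjoin (OK A K) {t}, α x = y := by
  let αO : FK M K →ₐ[OK A K] FK N K := { α with commutes' := hα }
  have h : (Algebra.adjoin (OK A K) {t}).map αO = Algebra.adjoin (OK A K) {α t} := by
    rw [AlgHom.map_adjoin, Set.image_singleton]; rfl
  rw [← h] at hy
  obtain ⟨x, hx, hxy⟩ := hy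
  exact ⟨x, hx, hxy⟩

/-- `α` maps elements integral over `O[t]` to elements integral over `O[α t]`. -/
theorem isIntegral_map_adjoin (α : FK M K →+* FK N K)
    (hα : ∀ c : OK A K, α (algebraMap (OK A K) (FK M K) c) = algebraMap (OK A K) (FK N K) c)
    (t : FK M K) {x : FK M K} (hx : IsIntegral (Algebra.adjoin (OK A K) {t}) x) :
    IsIntegral (Algebra.adjoin (OK A K) {α t}) (α x) := by
  let φ : Algebra.adjoin (OK A K) {t} →+* Algebra.adjoin (OK A K) {α t} :=
    { toFun := fun c => ⟨α (c : FK M K), map_mem_adjoin α hα t c.2⟩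
      map_one' := Subtype.ext (map_one α)
      map_mul' := fun a b => Subtype.ext (map_mul α (a : FK M K) (b : FK M K))
      map_zero' := Subtype.ext (map_zero α)
      map_add' := fun a b => Subtype.ext (map_add α (a : FK M K) (b : FK M K)) }
  exact hx.map_of_comp_eq φ α (by ext c; rfl)

variable [NeZero M]

/-- **[Red2], hypothesis form.**  Let `α : F_K(M) → F_K(N)` be an embedding over `O`, `t` a
Gauss-integral coordinate of level `M` whose chart is reduced along `V1(M)`
(`chart_M(t) ∩ π V1(M) = π chart_M(t)`).  If `z ∈ F_K(N)` is integral over `V1(M)` (through `α`)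
and `π z` lies in the level-`N` chart of `α t`, then `z` lies in that chart. -/
theorem desc_of_isIntegralElem (hdvr : IsDiscreteValuationRing (OK A K)) (α : FK M K →+* FK N K)
    (hα : ∀ c : OK A K, α (algebraMap (OK A K) (FK M K) c) = algebraMap (OK A K) (FK N K) c)
    {π : OK A K} (hπ0 : π ≠ 0) (t : FK M K) (ht : t ∈ V1 M A K hdvr)
    (hred : ∀ a ∈ V1 M A K hdvr, algebraMap (OK A K) (FK M K) π * a ∈ chart M A K t →
      a ∈ chart M A K t)
    (z : FK N K) (hz : (α.comp (V1 M A K hdvr).subtype).IsIntegralElem z)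
    (hπz : algebraMap (OK A K) (FK N K) π * z ∈ chart N A K (α t)) : z ∈ chart N A K (α t) := by
  let _ : Algebra (FK M K) (FK N K) := α.toAlgebra
  set R : Subring (FK M K) := (chart M A K t).toSubring with hR
  set V : Subring (FK M K) := (V1 M A K hdvr).toSubring with hV
  have hRV : R ≤ V := fun x hx => chart_le_V1 hdvr t ht x hx
  have hRcl : ∀ x : FK M K, IsIntegral R x → x ∈ R := by
    intro x hx
    have h : IsIntegral (Algebra.adjoin (OK A K) {t}) x :=
      isIntegral_of_forall_isIntegral (T := R) (fun c => c.2) hx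
    exact h
  have hVcl : ∀ x : FK M K, IsIntegral V x → x ∈ V := by
    intro x hx
    have h2 : IsIntegral (V1 M A K hdvr) x := hx
    obtain ⟨y, hy⟩ := IsIntegrallyClosed.isIntegral_iff.mp h2
    rw [← hy]
    exact y.2
  have hπR : algebraMap (OK A K) (FK M K) π ∈ R := (chart M A K t).algebraMap_mem π
  have hπF := algebraMap_ne_zero M A K hπ0
  have hzV : IsIntegral V z := hz
  have hzR : IsIntegral R (algebraMap (FK M K) (FK N K) (algebraMap (OK A K) (FK M K) π) * z) := by
    have h1 : algebraMap (FK M K) (FK N K) (algebraMap (OK A K) (FK M K) π) =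
        algebraMap (OK A K) (FK N K) π := hα π
    rw [h1]
    refine isIntegral_of_forall_isIntegral (T := Algebra.adjoin (OK A K) {α t}) ?_ hπz
    intro c
    obtain ⟨x, hx, hxc⟩ := exists_of_mem_adjoin α hα t c.2
    have hxR : x ∈ R := by
      have : IsIntegral (Algebra.adjoin (OK A K) {t}) x :=
        (isIntegral_algebraMap (x := (⟨x, hx⟩ : Algebra.adjoin (OK A K) {t})))
      exact this
    have h2 : algebraMap (Algebra.adjoin (OK A K) {α t}) (FK N K) c =
        algebraMap R (FK N K) ⟨x, hxR⟩ := hxc.symm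
    rw [h2]
    exact isIntegral_algebraMap
  have hzInt : IsIntegral R z :=
    Red2Alg.isIntegral_of_isIntegral_mul R V hRV hRcl hVcl _ hπR hπF hred z hzV hzR
  have hfin : IsIntegral (Algebra.adjoin (OK A K) {α t}) z := by
    refine isIntegral_of_forall_isIntegral (T := R) ?_ hzInt
    intro c
    exact isIntegral_map_adjoin α hα t c.2
  exact hfin

end Descent

/-! ### The level `M q`: integrality of `V1 ⊓ V2` over `V1(M)` and the descent -/

section Final

variable (M q : ℕ) [NeZero M] [NeZero q] (hq : q.Prime) (hqM : ¬ q ∣ M)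
variable {A : ValuationSubring Qb} {K : IntermediateField ℚ Qb}
variable (hdvr : IsDiscreteValuationRing (OK A K))

/-- **(INT)** every element of `V1 ⊓ V2` (the two Gauss valuation rings of `F_K(M q)`) is
integral over the level-`M` Gauss valuation ring `V1(M)`; instance-free form (the ring
homomorphism is the algebra map of `ResDeg.algV`). -/
theorem isIntegralElem_of_mem_V12 (hA : A.LiesOverPrime q) (z : FK (M * q) K)
    (hz : z ∈ V12 (WK.wK M q hq hqM K) hdvr) :
    ((DegTower.incl M (M * q) K (ResDeg.dvd_level M q)).comp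
      (V1 M A K hdvr).subtype).IsIntegralElem z := by
  have := hdvr
  obtain ⟨π, hπ⟩ := IsDiscreteValuationRing.exists_irreducible (OK A K)
  let _ := ResDeg.algE M q (K := K)
  let _ := ResDeg.algV M q hdvr
  have := isDiscreteValuationRing_V1 (N := M) hdvr
  have := ResDeg.isScalarTower_V M q hdvr
  have H := ResDeg.hyp M q hq hqM hdvr hA hπ
  -- `j` and `j_q` are integral over `V1(M)`
  have hj : IsIntegral (V1 M A K hdvr) (jK (M * q) K) := by
    have h1 : jK (M * q) K =
        algebraMap (V1 M A K hdvr) (FK (M * q) K) ⟨jK M K, jK_mem_V1 hdvr⟩ :=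
      (DegTower.incl_jK M (M * q) K (ResDeg.dvd_level M q)).symm
    rw [h1]
    exact isIntegral_algebraMap
  have hadj : ∀ y ∈ Algebra.adjoin (OK A K) {jK (M * q) K}, IsIntegral (V1 M A K hdvr) y := by
    intro y hy
    induction hy using Algebra.adjoin_induction with
    | mem y hy =>
      rw [Set.mem_singleton_iff] at hy
      rw [hy]
      exact hj
    | algebraMap c =>
      have h1 : algebraMap (OK A K) (FK (M * q) K) c =
          algebraMap (V1 M A K hdvr) (FK (M * q) K)
            ⟨algebraMap (OK A K) (FK M K) c, algebraMap_mem_V1 hdvr c⟩ :=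
        (DegTower.incl_constK M (M * q) K (ResDeg.dvd_level M q) (c : K)).symm
      rw [h1]
      exact isIntegral_algebraMap
    | add y z _ _ hy hz => exact hy.add hz
    | mul y z _ _ hy hz => exact hy.mul hz
  have hjq : IsIntegral (V1 M A K hdvr) (WK.jqK M q hq hqM K) :=
    isIntegral_of_forall_isIntegral (T := Algebra.adjoin (OK A K) {jK (M * q) K})
      (fun c => hadj _ c.2) (WK.isIntegral_jqK M q hq hqM A K)
  exact H.isIntegral (hjq.sub (hj.pow q)) (hj.sub (hjq.pow q)) (fun i => hjq.pow _) hz.1 hz.2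

/-- **[Red2], generic coordinate.**  For a Gauss-integral coordinate `t` of level `M` whose chart
is reduced along `V1(M)`, the level-`M q` chart of `α t` is reduced along `V1 ⊓ V2`:
`chart(α t) ∩ π (V1 ⊓ V2) = π chart(α t)`. -/
theorem desc_chart (hA : A.LiesOverPrime q) {π : OK A K} (hπ0 : π ≠ 0) (t : FK M K)
    (ht : t ∈ V1 M A K hdvr)
    (hred : ∀ a ∈ V1 M A K hdvr, algebraMap (OK A K) (FK M K) π * a ∈ chart M A K t →
      a ∈ chart M A K t) :
    ∀ z ∈ V12 (WK.wK M q hq hqM K) hdvr,
      algebraMap (OK A K) (FK (M * q) K) π * z ∈ chart (M * q) A K (WK.alphaK M q K t) →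
      z ∈ chart (M * q) A K (WK.alphaK M q K t) := by
  intro z hz hπz
  rw [← ResDeg.incl_eq_alphaK M q t] at hπz ⊢
  exact desc_of_isIntegralElem hdvr (DegTower.incl M (M * q) K (ResDeg.dvd_level M q))
    (fun c => DegTower.incl_constK M (M * q) K (ResDeg.dvd_level M q) (c : K)) hπ0 t ht hred z
    (isIntegralElem_of_mem_V12 M q hq hqM hdvr hA z hz) hπz

/-- **[Red2] `desc0`**: the chart `j ≠ ∞` of level `M q` (`q ∤ M`, `A` over `q`) is reduced along
the two Gauss valuation rings: `R0 ∩ π (V1 ⊓ V2) = π R0`. -/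
theorem desc0 (hA : A.LiesOverPrime q) (hB : BaseFacts q A K) {π : OK A K} (hπ : Irreducible π) :
    ∀ z ∈ V12 (WK.wK M q hq hqM K) hB.dvr,
      algebraMap (OK A K) (FK (M * q) K) π * z ∈ chart (M * q) A K (jK (M * q) K) →
      z ∈ chart (M * q) A K (jK (M * q) K) := by
  have : Fact q.Prime := ⟨hq⟩
  have hMF := Fermat.Agent.S18.ModelAll.modelStatement M q hqM A hA K hB
  have h := desc_chart M q hq hqM hB.dvr hA hπ.ne_zero (jK M K) (jK_mem_V1 hB.dvr)
    (red_of_chartFacts hB.dvr (R0 M q A K) (jK M K) hMF.c0 hπ)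
  rwa [WK.alphaK_jK] at h

/-- **[Red2] `descInf`**: the chart `j ≠ 0` of level `M q` is reduced along the two Gauss
valuation rings: `Rinf ∩ π (V1 ⊓ V2) = π Rinf`. -/
theorem descInf (hA : A.LiesOverPrime q) (hB : BaseFacts q A K) {π : OK A K}
    (hπ : Irreducible π) :
    ∀ z ∈ V12 (WK.wK M q hq hqM K) hB.dvr,
      algebraMap (OK A K) (FK (M * q) K) π * z ∈ chart (M * q) A K (jK (M * q) K)⁻¹ →
      z ∈ chart (M * q) A K (jK (M * q) K)⁻¹ := by
  have : Fact q.Prime := ⟨hq⟩
  have hMF := Fermat.Agent.S18.ModelAll.modelStatement M q hqM A hA K hB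
  have h := desc_chart M q hq hqM hB.dvr hA hπ.ne_zero (jK M K)⁻¹ (jK_inv_mem_V1 hB.dvr)
    (red_of_chartFacts hB.dvr (Rinf M q A K) (jK M K)⁻¹ hMF.cInf hπ)
  rwa [map_inv₀, WK.alphaK_jK] at h

end Final

end Fermat.Agent.S34.Red2
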