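/-
S34 — V12.lean (helper48): block [V12] of the MODULAR half, packaged level.

On top of `GaussV` (helper93: `V1`, `red1`, transport `V2 = V1.comap w`, `red2 = red1 ∘ w`) and
`V12Rel` (Gauss-reduction facts), for an automorphism `w` of `F_K = FK N K` fixing the constants
(the Atkin–Lehner involution `w_q`, supplied by `WK`):

* `VV w hdvr : Fin 2 → ValuationSubring (FK N K)` = `![V1, V2]`, the two component valuation
  rings of the special fibre, and for a subalgebra `R ⊆ V1 ∩ V2` the vertical primes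
  `PP w hdvr R hR i = ker (red_i |_R) = R ∩ π (V i)` (prime ideals);
* `chartHyp` : the structure `LocPlan.ChartHyp π (VV w hdvr) (PP w hdvr R hR)` (fields `le`,
  `pi_not`, `disc`, `mem_P`) from the single remaining input `red` (reducedness, block [Red2]);
* `chart_le_V12` : a chart whose coordinate `t` satisfies `t ∈ V1`, `w t ∈ V1` lies in `V1 ∩ V2`;
  the symmetric coordinate `J = j · w j` and its inverse qualify (`symJ_mem`, `symJ_inv_mem`);
* level comparison: `red1_of_coe_eq` (same `q`-expansion at two levels ⇒ same reduction),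
  `red1_of_coe_eq_qExpand` (`x' = x(Q^d)` ⇒ `red1 x' = (red1 x)(Q^d)`);
* the witness `x = w j − j^q` (`= j_q − j^q`): `x ∈ V1 ∩ V2`, `red1 x = 0`, `red2 x ≠ 0`
  (`witness_red1`, `witness_red2_ne`), and its mirror `w x`.
-/
import Mathlib
import Fermat.Agent.S34.GaussV
import Fermat.Agent.S34.V12Rel
import Fermat.Agent.S34.LocPlan
import Fermat.Agent.S34.WK

set_option autoImplicit false

noncomputable section

namespace Fermat.Agent.S34.V12

open ModularCurve HahnSeries Fermat.Agent.S18 Fermat.Agent.S18.Arith Fermat.Agent.S18.ModelPlan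
open Fermat.Agent.S34.GaussV

variable {N : ℕ} [NeZero N] {A : ValuationSubring Qb} {K : IntermediateField ℚ Qb}

/-! ### Level comparison -/

section Level

variable {M : ℕ} [NeZero M]

/-- An element of `F_K(N)` with the `q`-expansion of a Gauss-integral element of `F_K(M)` is
Gauss-integral. -/
theorem mem_V1_of_coe_eq (hdvr : IsDiscreteValuationRing (OK A K)) {x' : FK N K}
    (x : V1 M A K hdvr)
    (h : ((x' : FK N K) : LaurentSeries Qb) = (((x : FK M K) : FK M K) : LaurentSeries Qb)) :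
    x' ∈ V1 N A K hdvr :=
  ⟨red1 hdvr x, h ▸ gRel_red1 hdvr x⟩

/-- ... and has the same reduction. -/
theorem red1_of_coe_eq (hdvr : IsDiscreteValuationRing (OK A K)) {x' : FK N K}
    (x : V1 M A K hdvr)
    (h : ((x' : FK N K) : LaurentSeries Qb) = (((x : FK M K) : FK M K) : LaurentSeries Qb)) :
    red1 hdvr ⟨x', mem_V1_of_coe_eq hdvr x h⟩ = red1 hdvr x :=
  red1_eq_of_gRel hdvr _ (h ▸ gRel_red1 hdvr x)

/-- An element of `F_K(N)` with `q`-expansion `x(Q^d)`, `x` Gauss-integral in `F_K(M)`, is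
Gauss-integral. -/
theorem mem_V1_of_coe_eq_qExpand (hdvr : IsDiscreteValuationRing (OK A K)) (d : ℕ) [NeZero d]
    {x' : FK N K} (x : V1 M A K hdvr)
    (h : ((x' : FK N K) : LaurentSeries Qb) =
      qExpand Qb d (((x : FK M K) : FK M K) : LaurentSeries Qb)) :
    x' ∈ V1 N A K hdvr :=
  ⟨_, h ▸ V12Rel.gRel_qExpand A d (gRel_red1 hdvr x)⟩

/-- ... and its reduction is `(red1 x)(Q^d)`. -/
theorem red1_of_coe_eq_qExpand (hdvr : IsDiscreteValuationRing (OK A K)) (d : ℕ) [NeZero d]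
    {x' : FK N K} (x : V1 M A K hdvr)
    (h : ((x' : FK N K) : LaurentSeries Qb) =
      qExpand Qb d (((x : FK M K) : FK M K) : LaurentSeries Qb)) :
    red1 hdvr ⟨x', mem_V1_of_coe_eq_qExpand hdvr d x h⟩ =
      qExpand (IsLocalRing.ResidueField A) d (red1 hdvr x) :=
  red1_eq_of_gRel hdvr _ (h ▸ V12Rel.gRel_qExpand A d (gRel_red1 hdvr x))

end Level

/-! ### The two component valuation rings -/

section Two

variable (w : FK N K ≃+* FK N K) (hdvr : IsDiscreteValuationRing (OK A K))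

/-- The two component valuation rings `![V1, V2]`, `V2 = w⁻¹ V1`. -/
def VV : Fin 2 → ValuationSubring (FK N K) := ![V1 N A K hdvr, V2 w hdvr]

theorem VV_zero : VV w hdvr 0 = V1 N A K hdvr := rfl

theorem VV_one : VV w hdvr 1 = V2 w hdvr := rfl

theorem mem_VV_zero {x : FK N K} : x ∈ VV w hdvr 0 ↔ x ∈ V1 N A K hdvr := Iff.rfl

theorem mem_VV_one {x : FK N K} : x ∈ VV w hdvr 1 ↔ w x ∈ V1 N A K hdvr := Iff.rfl

/-- The `V` of `Cech2Plan.Setting` is `GaussV.V12`. -/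
theorem VV_inf : (VV w hdvr 0).toSubring ⊓ (VV w hdvr 1).toSubring = V12 w hdvr := rfl

theorem mem_V12_iff_forall {x : FK N K} : x ∈ V12 w hdvr ↔ ∀ i : Fin 2, x ∈ VV w hdvr i := by
  rw [Fin.forall_fin_two]
  exact Iff.rfl

variable (R : Subalgebra (OK A K) (FK N K)) (hR : ∀ x ∈ R, x ∈ V12 w hdvr)

/-- The inclusion `R → V1`. -/
def incl1 : R →+* V1 N A K hdvr where
  toFun x := ⟨(x : FK N K), (hR x x.2).1⟩
  map_one' := rfl
  map_mul' _ _ := rfl
  map_zero' := rfl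
  map_add' _ _ := rfl

/-- The inclusion `R → V2`. -/
def incl2 : R →+* V2 w hdvr where
  toFun x := ⟨(x : FK N K), (hR x x.2).2⟩
  map_one' := rfl
  map_mul' _ _ := rfl
  map_zero' := rfl
  map_add' _ _ := rfl

/-- The reduction of the chart `R` along branch 1. -/
def rho1 : R →+* LaurentSeries (IsLocalRing.ResidueField A) :=
  (red1 hdvr).comp (incl1 w hdvr R hR)

/-- The reduction of the chart `R` along branch 2. -/
def rho2 : R →+* LaurentSeries (IsLocalRing.ResidueField A) :=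
  (red2 w hdvr).comp (incl2 w hdvr R hR)

theorem gRel_rho1 (x : R) :
    GRel A (((x : FK N K) : FK N K) : LaurentSeries Qb) (rho1 w hdvr R hR x) :=
  gRel_red1 hdvr (incl1 w hdvr R hR x)

theorem gRel_rho2 (x : R) :
    GRel A ((w (x : FK N K) : FK N K) : LaurentSeries Qb) (rho2 w hdvr R hR x) :=
  gRel_red2 w hdvr (incl2 w hdvr R hR x)

theorem rho1_eq_of_gRel (x : R) {y : LaurentSeries (IsLocalRing.ResidueField A)}
    (h : GRel A (((x : FK N K) : FK N K) : LaurentSeries Qb) y) : rho1 w hdvr R hR x = y :=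
  red1_eq_of_gRel hdvr (incl1 w hdvr R hR x) h

theorem rho2_eq_of_gRel (x : R) {y : LaurentSeries (IsLocalRing.ResidueField A)}
    (h : GRel A ((w (x : FK N K) : FK N K) : LaurentSeries Qb) y) : rho2 w hdvr R hR x = y :=
  red1_eq_of_gRel hdvr ⟨w (x : FK N K), (hR x x.2).2⟩ h

/-- The two vertical primes `P i = R ∩ π (V i)` of the chart `R`. -/
def PP : Fin 2 → Ideal R :=
  ![RingHom.ker (rho1 w hdvr R hR), RingHom.ker (rho2 w hdvr R hR)]

theorem PP_zero : PP w hdvr R hR 0 = RingHom.ker (rho1 w hdvr R hR) := rfl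

theorem PP_one : PP w hdvr R hR 1 = RingHom.ker (rho2 w hdvr R hR) := rfl

theorem mem_PP_zero {r : R} : r ∈ PP w hdvr R hR 0 ↔ rho1 w hdvr R hR r = 0 := Iff.rfl

theorem mem_PP_one {r : R} : r ∈ PP w hdvr R hR 1 ↔ rho2 w hdvr R hR r = 0 := Iff.rfl

theorem PP_isPrime (i : Fin 2) : (PP w hdvr R hR i).IsPrime := by
  fin_cases i
  · exact RingHom.ker_isPrime (rho1 w hdvr R hR)
  · exact RingHom.ker_isPrime (rho2 w hdvr R hR)

variable (hw : ∀ c : OK A K, w (algebraMap (OK A K) (FK N K) c) = algebraMap (OK A K) (FK N K) c)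

include hw in
/-- `P i = R ∩ π (V i)`. -/
theorem mem_PP {π : OK A K} (hπ : Irreducible π) (i : Fin 2) (r : R) :
    r ∈ PP w hdvr R hR i ↔
      ∃ y ∈ VV w hdvr i, (r : FK N K) = algebraMap (OK A K) (FK N K) π * y := by
  fin_cases i
  · exact red1_eq_zero_iff hdvr hπ (incl1 w hdvr R hR r)
  · exact red2_eq_zero_iff w hw hdvr hπ (incl2 w hdvr R hR r)

include hw in
/-- `π ∈ P i`. -/
theorem pi_mem_PP {π : OK A K} (hπ : Irreducible π) (i : Fin 2) :
    algebraMap (OK A K) R π ∈ PP w hdvr R hR i :=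
  (mem_PP w hdvr R hR hw hπ i _).mpr ⟨1, (VV w hdvr i).one_mem, (mul_one _).symm⟩

include hw in
/-- `π⁻¹ ∉ V i`. -/
theorem pi_inv_notMem {π : OK A K} (hπ : Irreducible π) (i : Fin 2) :
    (algebraMap (OK A K) (FK N K) π)⁻¹ ∉ VV w hdvr i := by
  have hπF := algebraMap_ne_zero N A K hπ.ne_zero
  intro h
  fin_cases i
  · exact one_notV1 hdvr hπ.not_isUnit _ h (mul_inv_cancel₀ hπF).symm
  · exact one_notV2 w hw hdvr hπ.not_isUnit _ h (mul_inv_cancel₀ hπF).symm

include hw in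
/-- `V i` is discrete with uniformiser `π`. -/
theorem exists_zpow_mul {π : OK A K} (hπ : Irreducible π) (i : Fin 2) (x : FK N K)
    (hx : x ≠ 0) :
    ∃ k : ℤ, ∃ u ∈ VV w hdvr i, u⁻¹ ∈ VV w hdvr i ∧
      x = algebraMap (OK A K) (FK N K) π ^ k * u := by
  have hπF := algebraMap_ne_zero N A K hπ.ne_zero
  have key : ∀ γ : ℤ, x = algebraMap (OK A K) (FK N K) π ^ γ *
      (x * algebraMap (OK A K) (FK N K) π ^ (-γ)) := by
    intro γ
    rw [mul_comm x, ← mul_assoc, ← zpow_add₀ hπF, add_neg_cancel, zpow_zero, one_mul]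
  fin_cases i
  · obtain ⟨γ, h1, h2⟩ := exists_zpow_mul_unit hdvr hπ x hx
    exact ⟨γ, _, h1, h2, key γ⟩
  · obtain ⟨γ, h1, h2⟩ := exists_zpow_mul_unit₂ w hw hdvr hπ x hx
    exact ⟨γ, _, h1, h2, key γ⟩

include hw in
/-- **[V12]** the chart hypotheses `LocPlan.ChartHyp` for a subalgebra `R ⊆ V1 ∩ V2`, from
reducedness (`red`, block [Red2]). -/
theorem chartHyp {π : OK A K} (hπ : Irreducible π)
    (hred : ∀ r : R, (∀ i : Fin 2, r ∈ PP w hdvr R hR i) →
      ∃ r' : R, r = algebraMap (OK A K) R π * r') :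
    LocPlan.ChartHyp (O := OK A K) (R := R) (E := FK N K) π (VV w hdvr) (PP w hdvr R hR) where
  le := fun i r => (mem_V12_iff_forall w hdvr).mp (hR r r.2) i
  pi_not := pi_inv_notMem w hdvr hw hπ
  disc := exists_zpow_mul w hdvr hw hπ
  mem_P := mem_PP w hdvr R hR hw hπ
  red := hred

end Two

/-! ### Charts inside `V1 ∩ V2` -/

section Charts

variable (w : FK N K ≃+* FK N K) (hdvr : IsDiscreteValuationRing (OK A K))
  (hw : ∀ c : OK A K, w (algebraMap (OK A K) (FK N K) c) = algebraMap (OK A K) (FK N K) c)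

include hw in
/-- A chart whose coordinate `t` satisfies `t ∈ V1` and `w t ∈ V1` lies in `V1 ∩ V2`. -/
theorem chart_le_V12 (t : FK N K) (ht1 : t ∈ V1 N A K hdvr) (ht2 : w t ∈ V1 N A K hdvr) :
    ∀ x ∈ chart N A K t, x ∈ V12 w hdvr := by
  intro x hx
  refine ⟨chart_le_V1 hdvr t ht1 x hx, ?_⟩
  have hS : ∀ z ∈ Algebra.adjoin (OK A K) {t}, z ∈ V2 w hdvr := by
    intro z hz
    induction hz using Algebra.adjoin_induction with
    | mem z hz =>
      rw [Set.mem_singleton_iff] at hz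
      rw [hz]
      exact ht2
    | algebraMap c => exact algebraMap_mem_V2 w hw hdvr c
    | add a b _ _ ha hb => exact (V2 w hdvr).add_mem _ _ ha hb
    | mul a b _ _ ha hb => exact (V2 w hdvr).mul_mem _ _ ha hb
  exact ModelRed.mem_valuationSubring_of_isIntegral (V2 w hdvr) _ hS x hx

variable (q : ℕ) [NeZero q]
  (hwj : ((w (jK N K) : FK N K) : LaurentSeries Qb) = qExpand Qb q (jqModC Qb))
  (hww : w (w (jK N K)) = jK N K)

/-- `j` is Gauss-integral with reduction `j`. -/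
theorem gRel_coe_jK :
    GRel A ((jK N K : FK N K) : LaurentSeries Qb) (jqModC (IsLocalRing.ResidueField A)) := by
  rw [ModelQFrac.coe_jK N K]
  exact V12Rel.gRel_j A

include hwj in
/-- `w j = j_q` is Gauss-integral with reduction `j(Q^q)`. -/
theorem gRel_coe_wj :
    GRel A ((w (jK N K) : FK N K) : LaurentSeries Qb)
      (qExpand (IsLocalRing.ResidueField A) q (jqModC (IsLocalRing.ResidueField A))) := by
  rw [hwj]
  exact V12Rel.gRel_jd A q

theorem jK_mem_V12_left : jK N K ∈ V1 N A K hdvr := ⟨_, gRel_coe_jK⟩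

include hwj in
theorem wj_mem_V1 : w (jK N K) ∈ V1 N A K hdvr := ⟨_, gRel_coe_wj w q hwj⟩

include hwj in
theorem wj_inv_mem_V1 : (w (jK N K))⁻¹ ∈ V1 N A K hdvr := by
  have h := V12Rel.gRel_jd_inv A q
  rw [← hwj] at h
  exact ⟨_, h⟩

include hwj in
/-- `j ∈ V1 ∩ V2`. -/
theorem jK_mem_V12 : jK N K ∈ V12 w hdvr :=
  ⟨jK_mem_V1 hdvr, wj_mem_V1 w hdvr q hwj⟩

include hwj hww in
/-- `w j ∈ V1 ∩ V2`. -/
theorem wj_mem_V12 : w (jK N K) ∈ V12 w hdvr :=
  ⟨wj_mem_V1 w hdvr q hwj, by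
    show w (w (jK N K)) ∈ V1 N A K hdvr
    rw [hww]; exact jK_mem_V1 hdvr⟩

/-- The symmetric coordinate `J = j · w j` (`= j · j_q`). -/
def symJ : FK N K := jK N K * w (jK N K)

include hww in
theorem w_symJ : w (symJ w) = symJ w := by
  rw [symJ, map_mul, hww, mul_comm]

include hwj in
theorem symJ_mem_V1 : symJ w ∈ V1 N A K hdvr :=
  (V1 N A K hdvr).mul_mem _ _ (jK_mem_V1 hdvr) (wj_mem_V1 w hdvr q hwj)

include hwj in
theorem symJ_inv_mem_V1 : (symJ w)⁻¹ ∈ V1 N A K hdvr := by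
  rw [symJ, mul_inv]
  exact (V1 N A K hdvr).mul_mem _ _ (jK_inv_mem_V1 hdvr) (wj_inv_mem_V1 w hdvr q hwj)

include hw hwj hww in
/-- The symmetric chart `chart J` lies in `V1 ∩ V2`. -/
theorem chart_symJ_le : ∀ x ∈ chart N A K (symJ w), x ∈ V12 w hdvr :=
  chart_le_V12 w hdvr hw _ (symJ_mem_V1 w hdvr q hwj)
    (by rw [w_symJ w hww]; exact symJ_mem_V1 w hdvr q hwj)

include hw hwj hww in
/-- The symmetric chart `chart J⁻¹` lies in `V1 ∩ V2`. -/
theorem chart_symJ_inv_le : ∀ x ∈ chart N A K (symJ w)⁻¹, x ∈ V12 w hdvr :=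
  chart_le_V12 w hdvr hw _ (symJ_inv_mem_V1 w hdvr q hwj)
    (by rw [map_inv₀, w_symJ w hww]; exact symJ_inv_mem_V1 w hdvr q hwj)

include hw hwj in
/-- The chart `chart j` lies in `V1 ∩ V2`. -/
theorem chart_jK_le : ∀ x ∈ chart N A K (jK N K), x ∈ V12 w hdvr :=
  chart_le_V12 w hdvr hw _ (jK_mem_V1 hdvr) (wj_mem_V1 w hdvr q hwj)

include hw hwj in
/-- The chart `chart j⁻¹` lies in `V1 ∩ V2`. -/
theorem chart_jK_inv_le : ∀ x ∈ chart N A K (jK N K)⁻¹, x ∈ V12 w hdvr :=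
  chart_le_V12 w hdvr hw _ (jK_inv_mem_V1 hdvr)
    (by rw [map_inv₀]; exact wj_inv_mem_V1 w hdvr q hwj)

end Charts

/-! ### The witness `j_q − j^q` -/

section Witness

variable (w : FK N K ≃+* FK N K) (hdvr : IsDiscreteValuationRing (OK A K))
  (q : ℕ) [Fact q.Prime]
  (hwj : ((w (jK N K) : FK N K) : LaurentSeries Qb) = qExpand Qb q (jqModC Qb))
  (hww : w (w (jK N K)) = jK N K)

/-- The witness `x = w j − j^q` (`= j_q − j^q`). -/
def witX : FK N K := w (jK N K) - jK N K ^ q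

omit [Fact q.Prime] in
include hww in
theorem w_witX : w (witX w q) = jK N K - w (jK N K) ^ q := by
  rw [witX, map_sub, map_pow, hww]

include hwj in
theorem coe_witX :
    ((witX w q : FK N K) : LaurentSeries Qb) = qExpand Qb q (jqModC Qb) - jqModC Qb ^ q := by
  rw [witX, Subfield.coe_sub, SubmonoidClass.coe_pow, hwj, ModelQFrac.coe_jK N K]

include hwj hww in
theorem coe_w_witX :
    ((w (witX w q) : FK N K) : LaurentSeries Qb) =
      jqModC Qb - qExpand Qb q (jqModC Qb) ^ q := by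
  rw [w_witX w q hww, Subfield.coe_sub, SubmonoidClass.coe_pow, hwj, ModelQFrac.coe_jK N K]

include hwj in
/-- `x ≡ 0` on branch 1 (Kronecker). -/
theorem gRel_witX (hA : A.LiesOverPrime q) :
    GRel A ((witX w q : FK N K) : LaurentSeries Qb) 0 := by
  rw [coe_witX w q hwj]
  exact V12Rel.kronecker A q hA

include hwj hww in
/-- `w x` is a Gauss unit. -/
theorem gRel_w_witX :
    GRel A ((w (witX w q) : FK N K) : LaurentSeries Qb) (V12Rel.wit A q) := by
  rw [coe_w_witX w q hwj hww]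
  exact V12Rel.gRel_wit A q

include hwj hww in
theorem witX_mem_V12 (hA : A.LiesOverPrime q) : witX w q ∈ V12 w hdvr :=
  ⟨⟨_, gRel_witX w q hwj hA⟩, ⟨_, gRel_w_witX w q hwj hww⟩⟩

include hwj hww in
/-- **witness**: `red1 x = 0`. -/
theorem witness_red1 (hA : A.LiesOverPrime q) :
    red1 hdvr ⟨witX w q, (witX_mem_V12 w hdvr q hwj hww hA).1⟩ = 0 :=
  red1_eq_of_gRel hdvr _ (gRel_witX w q hwj hA)

include hwj hww in
/-- **witness**: `red2 x ≠ 0`. -/
theorem witness_red2_ne (hA : A.LiesOverPrime q) :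
    red2 w hdvr ⟨witX w q, (witX_mem_V12 w hdvr q hwj hww hA).2⟩ ≠ 0 := by
  have h : red2 w hdvr ⟨witX w q, (witX_mem_V12 w hdvr q hwj hww hA).2⟩ = V12Rel.wit A q :=
    red1_eq_of_gRel hdvr ⟨w (witX w q), (witX_mem_V12 w hdvr q hwj hww hA).2⟩
      (gRel_w_witX w q hwj hww)
  rw [h]
  exact V12Rel.wit_ne_zero A q hA

variable (R : Subalgebra (OK A K) (FK N K)) (hR : ∀ x ∈ R, x ∈ V12 w hdvr)

include hwj hww in
/-- On a chart containing `j` and `w j`, the vertical prime `P 0` is not contained in `P 1`. -/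
theorem exists_mem_PP_zero_notMem_one (hA : A.LiesOverPrime q) (hj : jK N K ∈ R)
    (hwjR : w (jK N K) ∈ R) :
    ∃ r : R, r ∈ PP w hdvr R hR 0 ∧ r ∉ PP w hdvr R hR 1 := by
  have hx : witX w q ∈ R := R.sub_mem hwjR (R.pow_mem hj q)
  refine ⟨⟨witX w q, hx⟩, ?_, ?_⟩
  · rw [mem_PP_zero]
    exact rho1_eq_of_gRel w hdvr R hR ⟨witX w q, hx⟩ (gRel_witX w q hwj hA)
  · rw [mem_PP_one, rho2_eq_of_gRel w hdvr R hR ⟨witX w q, hx⟩ (gRel_w_witX w q hwj hww)]
    exact V12Rel.wit_ne_zero A q hA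

include hwj hww in
/-- On a chart containing `j` and `w j`, the vertical prime `P 1` is not contained in `P 0`. -/
theorem exists_mem_PP_one_notMem_zero (hA : A.LiesOverPrime q) (hj : jK N K ∈ R)
    (hwjR : w (jK N K) ∈ R) :
    ∃ r : R, r ∈ PP w hdvr R hR 1 ∧ r ∉ PP w hdvr R hR 0 := by
  have hx : jK N K - w (jK N K) ^ q ∈ R := R.sub_mem hj (R.pow_mem hwjR q)
  have hwx : w (jK N K - w (jK N K) ^ q) = witX w q := by
    rw [map_sub, map_pow, hww, witX]
  have h1 : GRel A (((jK N K - w (jK N K) ^ q : FK N K) : FK N K) : LaurentSeries Qb)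
      (V12Rel.wit A q) := by
    have h := gRel_w_witX (A := A) w q hwj hww
    rwa [w_witX w q hww] at h
  refine ⟨⟨_, hx⟩, ?_, ?_⟩
  · rw [mem_PP_one]
    refine rho2_eq_of_gRel w hdvr R hR ⟨_, hx⟩ ?_
    show GRel A ((w (jK N K - w (jK N K) ^ q) : FK N K) : LaurentSeries Qb) 0
    rw [hwx]
    exact gRel_witX w q hwj hA
  · rw [mem_PP_zero, rho1_eq_of_gRel w hdvr R hR ⟨_, hx⟩ h1]
    exact V12Rel.wit_ne_zero A q hA

include hwj hww in
/-- The two vertical primes are different (on a chart containing `j` and `w j`). -/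
theorem PP_ne (hA : A.LiesOverPrime q) (hj : jK N K ∈ R) (hwjR : w (jK N K) ∈ R) :
    PP w hdvr R hR 0 ≠ PP w hdvr R hR 1 := by
  obtain ⟨r, h0, h1⟩ := exists_mem_PP_zero_notMem_one w hdvr q hwj hww R hR hA hj hwjR
  exact fun h => h1 (h ▸ h0)

end Witness

/-! ### Instantiation at level `M * q` with the Atkin–Lehner involution `wK` -/

section Inst

variable (M q : ℕ) [NeZero M] [NeZero q] (hq : q.Prime) (hqM : ¬ q ∣ M)
variable (A : ValuationSubring Qb) (K : IntermediateField ℚ Qb)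
  (hdvr : IsDiscreteValuationRing (OK A K))

/-- `w_q j = j_q` has `q`-expansion `j(Q^q)`. -/
theorem coe_wK_jK :
    ((WK.wK M q hq hqM K (jK (M * q) K) : FK (M * q) K) : LaurentSeries Qb) =
      qExpand Qb q (jqModC Qb) := by
  rw [WK.wK_jK, WK.coe_jqK, S28.jd_eq]

theorem wK_wK_jK :
    WK.wK M q hq hqM K (WK.wK M q hq hqM K (jK (M * q) K)) = jK (M * q) K :=
  WK.wK_wK M q hq hqM K _

/-- The two component valuation rings of the special fibre at level `M * q`: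
`V 0 = V1` (Gauss), `V 1 = V2 = w_q⁻¹ V1`. -/
def VK : Fin 2 → ValuationSubring (FK (M * q) K) := VV (WK.wK M q hq hqM K) hdvr

/-- The semilocal ring `V1 ∩ V2` at level `M * q`. -/
def V12K : Subring (FK (M * q) K) := V12 (WK.wK M q hq hqM K) hdvr

theorem VK_inf :
    (VK M q hq hqM A K hdvr 0).toSubring ⊓ (VK M q hq hqM A K hdvr 1).toSubring =
      V12K M q hq hqM A K hdvr := rfl

theorem mem_V12K_iff {x : FK (M * q) K} :
    x ∈ V12K M q hq hqM A K hdvr ↔
      x ∈ V1 (M * q) A K hdvr ∧ WK.wK M q hq hqM K x ∈ V1 (M * q) A K hdvr := Iff.rfl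

/-- The symmetric coordinate `J = j · j_q`. -/
def JK : FK (M * q) K := jK (M * q) K * WK.jqK M q hq hqM K

theorem JK_eq_symJ : JK M q hq hqM K = symJ (WK.wK M q hq hqM K) := by
  rw [JK, symJ, WK.wK_jK]

theorem wK_JK : WK.wK M q hq hqM K (JK M q hq hqM K) = JK M q hq hqM K := by
  rw [JK_eq_symJ]
  exact w_symJ _ (wK_wK_jK M q hq hqM K)

/-- `chart J ⊆ V1 ∩ V2`. -/
theorem chart_JK_le :
    ∀ x ∈ chart (M * q) A K (JK M q hq hqM K), x ∈ V12K M q hq hqM A K hdvr := by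
  rw [JK_eq_symJ]
  exact chart_symJ_le _ hdvr (WK.wK_algebraMap_OK M q hq hqM K A) q
    (coe_wK_jK M q hq hqM K) (wK_wK_jK M q hq hqM K)

/-- `chart J⁻¹ ⊆ V1 ∩ V2`. -/
theorem chart_JK_inv_le :
    ∀ x ∈ chart (M * q) A K (JK M q hq hqM K)⁻¹, x ∈ V12K M q hq hqM A K hdvr := by
  rw [JK_eq_symJ]
  exact chart_symJ_inv_le _ hdvr (WK.wK_algebraMap_OK M q hq hqM K A) q
    (coe_wK_jK M q hq hqM K) (wK_wK_jK M q hq hqM K)

/-- `chart j ⊆ V1 ∩ V2`. -/
theorem chart_jK_le_K :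
    ∀ x ∈ chart (M * q) A K (jK (M * q) K), x ∈ V12K M q hq hqM A K hdvr :=
  chart_jK_le _ hdvr (WK.wK_algebraMap_OK M q hq hqM K A) q (coe_wK_jK M q hq hqM K)

/-- `chart j⁻¹ ⊆ V1 ∩ V2`. -/
theorem chart_jK_inv_le_K :
    ∀ x ∈ chart (M * q) A K (jK (M * q) K)⁻¹, x ∈ V12K M q hq hqM A K hdvr :=
  chart_jK_inv_le _ hdvr (WK.wK_algebraMap_OK M q hq hqM K A) q (coe_wK_jK M q hq hqM K)

/-- The vertical primes of a chart `R ⊆ V1 ∩ V2` at level `M * q`. -/
def PK (R : Subalgebra (OK A K) (FK (M * q) K))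
    (hR : ∀ x ∈ R, x ∈ V12K M q hq hqM A K hdvr) : Fin 2 → Ideal R :=
  PP (WK.wK M q hq hqM K) hdvr R hR

theorem PK_isPrime (R : Subalgebra (OK A K) (FK (M * q) K))
    (hR : ∀ x ∈ R, x ∈ V12K M q hq hqM A K hdvr) (i : Fin 2) :
    (PK M q hq hqM A K hdvr R hR i).IsPrime :=
  PP_isPrime _ hdvr R hR i

/-- `P i = R ∩ π (V i)` at level `M * q`. -/
theorem mem_PK (R : Subalgebra (OK A K) (FK (M * q) K))
    (hR : ∀ x ∈ R, x ∈ V12K M q hq hqM A K hdvr) {π : OK A K} (hπ : Irreducible π)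
    (i : Fin 2) (r : R) :
    r ∈ PK M q hq hqM A K hdvr R hR i ↔
      ∃ y ∈ VK M q hq hqM A K hdvr i,
        (r : FK (M * q) K) = algebraMap (OK A K) (FK (M * q) K) π * y :=
  mem_PP _ hdvr R hR (WK.wK_algebraMap_OK M q hq hqM K A) hπ i r

/-- **[V12]** `LocPlan.ChartHyp` at level `M * q` for any chart `R ⊆ V1 ∩ V2`, from reducedness. -/
theorem chartHypK (R : Subalgebra (OK A K) (FK (M * q) K))
    (hR : ∀ x ∈ R, x ∈ V12K M q hq hqM A K hdvr) {π : OK A K} (hπ : Irreducible π)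
    (hred : ∀ r : R, (∀ i : Fin 2, r ∈ PK M q hq hqM A K hdvr R hR i) →
      ∃ r' : R, r = algebraMap (OK A K) R π * r') :
    LocPlan.ChartHyp (O := OK A K) (R := R) (E := FK (M * q) K) π
      (VK M q hq hqM A K hdvr) (PK M q hq hqM A K hdvr R hR) :=
  chartHyp _ hdvr R hR (WK.wK_algebraMap_OK M q hq hqM K A) hπ hred

/-- Reducedness in `Cech2Plan` form (`desc`) gives the `red` input of `chartHypK`. -/
theorem red_of_desc (R : Subalgebra (OK A K) (FK (M * q) K))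
    (hR : ∀ x ∈ R, x ∈ V12K M q hq hqM A K hdvr) {π : OK A K} (hπ : Irreducible π)
    (hdesc : ∀ z ∈ V12K M q hq hqM A K hdvr,
      algebraMap (OK A K) (FK (M * q) K) π * z ∈ R → z ∈ R) :
    ∀ r : R, (∀ i : Fin 2, r ∈ PK M q hq hqM A K hdvr R hR i) →
      ∃ r' : R, r = algebraMap (OK A K) R π * r' := by
  intro r hr
  have hπF := algebraMap_ne_zero (M * q) A K hπ.ne_zero
  obtain ⟨y0, hy0, e0⟩ := (mem_PK M q hq hqM A K hdvr R hR hπ 0 r).mp (hr 0)
  obtain ⟨y1, hy1, e1⟩ := (mem_PK M q hq hqM A K hdvr R hR hπ 1 r).mp (hr 1)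
  have hy : y0 = y1 := mul_left_cancel₀ hπF (e0.symm.trans e1)
  have hyV : y0 ∈ V12K M q hq hqM A K hdvr := ⟨hy0, hy ▸ hy1⟩
  have hyR : y0 ∈ R := hdesc y0 hyV (e0 ▸ r.2)
  exact ⟨⟨y0, hyR⟩, Subtype.ext e0⟩

/-! #### Reductions of `α` and `β` -/

theorem alphaK_mem_V1 (x : V1 M A K hdvr) :
    WK.alphaK M q K (x : FK M K) ∈ V1 (M * q) A K hdvr :=
  mem_V1_of_coe_eq hdvr x (WK.coe_alphaK M q K _)

/-- `red1 (α x) = red_M x`. -/
theorem red1_alphaK (x : V1 M A K hdvr) :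
    red1 hdvr ⟨WK.alphaK M q K (x : FK M K), alphaK_mem_V1 M q A K hdvr x⟩ = red1 hdvr x :=
  red1_of_coe_eq hdvr x (WK.coe_alphaK M q K _)

theorem betaK_mem_V1 (x : V1 M A K hdvr) :
    WK.betaK M q hq hqM K (x : FK M K) ∈ V1 (M * q) A K hdvr :=
  mem_V1_of_coe_eq_qExpand hdvr q x (WK.coe_betaK M q hq hqM K _)

/-- `red1 (β x) = (red_M x)(Q^q)`. -/
theorem red1_betaK (x : V1 M A K hdvr) :
    red1 hdvr ⟨WK.betaK M q hq hqM K (x : FK M K), betaK_mem_V1 M q hq hqM A K hdvr x⟩ =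
      qExpand (IsLocalRing.ResidueField A) q (red1 hdvr x) :=
  red1_of_coe_eq_qExpand hdvr q x (WK.coe_betaK M q hq hqM K _)

theorem alphaK_mem_V2 (x : V1 M A K hdvr) :
    WK.alphaK M q K (x : FK M K) ∈ V2 (WK.wK M q hq hqM K) hdvr :=
  betaK_mem_V1 M q hq hqM A K hdvr x

/-- `red2 (α x) = (red_M x)(Q^q)`. -/
theorem red2_alphaK (x : V1 M A K hdvr) :
    red2 (WK.wK M q hq hqM K) hdvr
        ⟨WK.alphaK M q K (x : FK M K), alphaK_mem_V2 M q hq hqM A K hdvr x⟩ =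
      qExpand (IsLocalRing.ResidueField A) q (red1 hdvr x) :=
  red1_betaK M q hq hqM A K hdvr x

theorem betaK_mem_V2 (x : V1 M A K hdvr) :
    WK.betaK M q hq hqM K (x : FK M K) ∈ V2 (WK.wK M q hq hqM K) hdvr := by
  show WK.wK M q hq hqM K (WK.betaK M q hq hqM K (x : FK M K)) ∈ V1 (M * q) A K hdvr
  rw [WK.wK_betaK]
  exact alphaK_mem_V1 M q A K hdvr x

/-- `red2 (β x) = red_M x`. -/
theorem red2_betaK (x : V1 M A K hdvr) :
    red2 (WK.wK M q hq hqM K) hdvr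
        ⟨WK.betaK M q hq hqM K (x : FK M K), betaK_mem_V2 M q hq hqM A K hdvr x⟩ =
      red1 hdvr x := by
  refine red1_eq_of_gRel hdvr _ ?_
  show GRel A ((WK.wK M q hq hqM K (WK.betaK M q hq hqM K (x : FK M K)) : FK (M * q) K) :
    LaurentSeries Qb) (red1 hdvr x)
  rw [WK.wK_betaK, WK.coe_alphaK]
  exact gRel_red1 hdvr x

theorem alphaK_mem_V12K (x : V1 M A K hdvr) :
    WK.alphaK M q K (x : FK M K) ∈ V12K M q hq hqM A K hdvr :=
  ⟨alphaK_mem_V1 M q A K hdvr x, alphaK_mem_V2 M q hq hqM A K hdvr x⟩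

theorem betaK_mem_V12K (x : V1 M A K hdvr) :
    WK.betaK M q hq hqM K (x : FK M K) ∈ V12K M q hq hqM A K hdvr :=
  ⟨betaK_mem_V1 M q hq hqM A K hdvr x, betaK_mem_V2 M q hq hqM A K hdvr x⟩

/-! #### The witness at level `M * q` -/

/-- The witness `x = j_q − j^q ∈ F_K(M q)`. -/
def witK : FK (M * q) K := WK.jqK M q hq hqM K - jK (M * q) K ^ q

theorem witK_eq : witK M q hq hqM K = witX (WK.wK M q hq hqM K) q := by
  rw [witK, witX, WK.wK_jK]

theorem witK_mem (hA : A.LiesOverPrime q) : witK M q hq hqM K ∈ V12K M q hq hqM A K hdvr := by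
  have : Fact q.Prime := ⟨hq⟩
  rw [witK_eq]
  exact witX_mem_V12 _ hdvr q (coe_wK_jK M q hq hqM K) (wK_wK_jK M q hq hqM K) hA

/-- **witness**: `j_q − j^q` vanishes on branch 1 ... -/
theorem red1_witK (hA : A.LiesOverPrime q) :
    red1 hdvr ⟨witK M q hq hqM K, (witK_mem M q hq hqM A K hdvr hA).1⟩ = 0 := by
  have : Fact q.Prime := ⟨hq⟩
  refine red1_eq_of_gRel hdvr _ ?_
  show GRel A ((witK M q hq hqM K : FK (M * q) K) : LaurentSeries Qb) 0
  rw [witK_eq]
  exact gRel_witX _ q (coe_wK_jK M q hq hqM K) hA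

/-- ... and not on branch 2. -/
theorem red2_witK_ne (hA : A.LiesOverPrime q) :
    red2 (WK.wK M q hq hqM K) hdvr
      ⟨witK M q hq hqM K, (witK_mem M q hq hqM A K hdvr hA).2⟩ ≠ 0 := by
  have : Fact q.Prime := ⟨hq⟩
  have h : red2 (WK.wK M q hq hqM K) hdvr
      ⟨witK M q hq hqM K, (witK_mem M q hq hqM A K hdvr hA).2⟩ = V12Rel.wit A q := by
    refine red1_eq_of_gRel hdvr _ ?_
    show GRel A ((WK.wK M q hq hqM K (witK M q hq hqM K) : FK (M * q) K) : LaurentSeries Qb)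
      (V12Rel.wit A q)
    rw [witK_eq]
    exact gRel_w_witX _ q (coe_wK_jK M q hq hqM K) (wK_wK_jK M q hq hqM K)
  rw [h]
  exact V12Rel.wit_ne_zero A q hA

/-- The two vertical primes of a chart containing `j` and `j_q` are incomparable. -/
theorem PK_not_le (R : Subalgebra (OK A K) (FK (M * q) K))
    (hR : ∀ x ∈ R, x ∈ V12K M q hq hqM A K hdvr) (hA : A.LiesOverPrime q)
    (hj : jK (M * q) K ∈ R) (hjq : WK.jqK M q hq hqM K ∈ R) :
    ¬ PK M q hq hqM A K hdvr R hR 0 ≤ PK M q hq hqM A K hdvr R hR 1 ∧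
      ¬ PK M q hq hqM A K hdvr R hR 1 ≤ PK M q hq hqM A K hdvr R hR 0 := by
  have : Fact q.Prime := ⟨hq⟩
  have hjq' : WK.wK M q hq hqM K (jK (M * q) K) ∈ R := by rw [WK.wK_jK]; exact hjq
  constructor
  · intro hle
    obtain ⟨r, h0, h1⟩ := exists_mem_PP_zero_notMem_one _ hdvr q (coe_wK_jK M q hq hqM K)
      (wK_wK_jK M q hq hqM K) R hR hA hj hjq'
    exact h1 (hle h0)
  · intro hle
    obtain ⟨r, h1, h0⟩ := exists_mem_PP_one_notMem_zero _ hdvr q (coe_wK_jK M q hq hqM K)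
      (wK_wK_jK M q hq hqM K) R hR hA hj hjq'
    exact h0 (hle h1)

end Inst

end Fermat.Agent.S34.V12

end
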