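/-
S34 — Model2AsmB.lean (helper10): the modular ASSEMBLY (architect ruling #3: assembly of record).

`ModelPlan2.Model2Statement (M * q) q m` (`q` prime, `q ∤ M`, `q ∤ m`) assembled field by field
from the rows of the modular block, in hypothesis form over the two inputs

* `Red2Statement M q hq hqM`   — reducedness of the special fibre of `chart j` at level `M q`
                                 (closed here: `red2Statement`, from `S34/Red2.lean`);
* `PtsStatement M q hq hqM m`  — the point fields `branch ∧ trans ∧ hor` of both charts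
                                 `chart J`, `chart J⁻¹` (points desk).

Fields and their sources: base field (`BaseNormal.exists_base`), uniformizer, `m ∈ Oˣ`,
coordinate `J = j · j_q` (`WKInst.JK`), ring-theoretic facts of the two charts
(`ChartRingInv.pair_of_isAlgebraic`), `f` descended, `σ = TauAct.tauE`, component valuation rings
`ChartHypInst.Vfam wK`, vertical primes `ChartHypInst.Pfam wK`, `ChartHyp` (`ChartHypInst.chartHyp`,
reducedness at infinity by `RegInf.descInf_of_desc0'`), `TauHyp` (`ChartHypInst.tauHyp`).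

* `model2Statement`  : `Red2Statement → PtsStatement m → Model2Statement (M * q) q m`;
* `hModel_of_pts`    : the `hModel` argument of `UFinal.s34_of_model2` / `UModel.s34_of_modular`
                       from `PtsStatement` alone.
-/
import Mathlib
import Fermat.Agent.S34.ModelPlan2
import Fermat.Agent.S34.BaseNormal
import Fermat.Agent.S34.WKInst
import Fermat.Agent.S34.ChartRingInv
import Fermat.Agent.S34.ChartHypInst
import Fermat.Agent.S34.HorInst
import Fermat.Agent.S34.RegInf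
import Fermat.Agent.S34.V12
import Fermat.Agent.S34.Red2
import Fermat.Agent.S18.FinalCore

set_option autoImplicit false

open ModularCurve AlgebraicCurve HahnSeries

namespace Fermat.Agent.S34.Model2AsmB

open Fermat.Agent.S18 Fermat.Agent.S18.Arith

noncomputable section

set_option synthInstance.maxHeartbeats 400000

variable (M q : ℕ) [NeZero M] [NeZero q] (hq : q.Prime) (hqM : ¬ q ∣ M)

/-! ### The base -/

/-- The base field: `BaseFacts`, stable under `τ`, `τ'`, containing a prescribed finite set of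
constants, and over which `f` is defined. -/
theorem exists_base [Fact q.Prime] (A : ValuationSubring Qb) (hA : A.LiesOverPrime q)
    (τ τ' : Qb ≃ₐ[ℚ] Qb) (f : modularFunctionFieldBar (M * q)) (S : Finset Qb) :
    ∃ K : IntermediateField ℚ Qb, (↑S ⊆ (K : Set Qb)) ∧ BaseFacts q A K ∧
      TauAct.Stable K τ ∧ TauAct.Stable K τ' ∧ (f : LaurentSeries Qb) ∈ FK (M * q) K := by
  obtain ⟨K, hS, hB, hst, hf, -⟩ := BaseNormal.exists_base (M * q) q A hA {f} S
  exact ⟨K, hS, hB, ⟨fun c hc => hst τ c hc, fun c hc => hst τ.symm c hc⟩,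
    ⟨fun c hc => hst τ' c hc, fun c hc => hst τ'.symm c hc⟩, hf f (Finset.mem_singleton_self f)⟩

/-! ### The Galois action -/

section Galois

variable {K : IntermediateField ℚ Qb} {τ : Qb ≃ₐ[ℚ] Qb}

/-- `Model2.σ_coe` for `σ := tauE`. -/
theorem toBar_tauE (N : ℕ) [NeZero N] (hK : TauAct.Stable K τ) (x : FK N K) :
    Glob.toBar N K (TauAct.tauE N hK x) = UPlan.gal N τ • Glob.toBar N K x := by
  apply Subtype.ext
  rw [Glob.coe_toBar, TauAct.coe_tauE]
  exact (coe_arithmeticGalois_smul (F₀ := modularFunctionFieldFull N) τ (Glob.toBar N K x)).symm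

end Galois


/-! ### The charts `chart J`, `chart J⁻¹` -/

section Charts

variable (A : ValuationSubring Qb) (K : IntermediateField ℚ Qb)
  (hdvr : IsDiscreteValuationRing (OK A K))

/-- The coordinate. -/
abbrev tJ : FK (M * q) K := WKInst.JK M q hq hqM K

/-- The component valuation rings. -/
abbrev Vc : Fin 2 → ValuationSubring (FK (M * q) K) :=
  ChartHypInst.Vfam (WK.wK M q hq hqM K) hdvr

/-- The vertical primes of a chart. -/
abbrev Pc (π : OK A K) (R : Subalgebra (OK A K) (FK (M * q) K)) : Fin 2 → Ideal R :=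
  ChartHypInst.Pfam (WK.wK M q hq hqM K) hdvr π R

theorem chart_J_le_V12 :
    ∀ x ∈ chart (M * q) A K (tJ M q hq hqM K), x ∈ GaussV.V12 (WK.wK M q hq hqM K) hdvr :=
  V12.chart_JK_le M q hq hqM A K hdvr

theorem chart_J_inv_le_V12 :
    ∀ x ∈ chart (M * q) A K (tJ M q hq hqM K)⁻¹, x ∈ GaussV.V12 (WK.wK M q hq hqM K) hdvr :=
  V12.chart_JK_inv_le M q hq hqM A K hdvr

include hdvr in
/-- Ring-theoretic facts of both charts and the two `fin0` shapes. -/
theorem rings :
    (IsNoetherianRing (chart (M * q) A K (tJ M q hq hqM K)) ∧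
        IsFractionRing (chart (M * q) A K (tJ M q hq hqM K)) (FK (M * q) K) ∧
        IsIntegrallyClosed (chart (M * q) A K (tJ M q hq hqM K))) ∧
      (IsNoetherianRing (chart (M * q) A K (tJ M q hq hqM K)⁻¹) ∧
        IsFractionRing (chart (M * q) A K (tJ M q hq hqM K)⁻¹) (FK (M * q) K) ∧
        IsIntegrallyClosed (chart (M * q) A K (tJ M q hq hqM K)⁻¹)) ∧
      (∃ s : Finset (FK (M * q) K), (chart (M * q) A K (tJ M q hq hqM K) : Set (FK (M * q) K)) ⊆
        Submodule.span (Algebra.adjoin (OK A K) {tJ M q hq hqM K}) (s : Set (FK (M * q) K))) ∧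
      ∃ s : Finset (FK (M * q) K),
        (chart (M * q) A K (tJ M q hq hqM K)⁻¹ : Set (FK (M * q) K)) ⊆
        Submodule.span (Algebra.adjoin (OK A K) {(tJ M q hq hqM K)⁻¹})
          (s : Set (FK (M * q) K)) :=
  ChartRingInv.pair_of_isAlgebraic (M * q) A K hdvr (WKInst.JK_ne_zero M q hq hqM K)
    (ChartJ.transcendental_symJ (M * q) A K (WK.isIntegral_jK M q hq hqM A K))
    (ChartJ.isAlgebraic_symJ (M * q) A K (WK.isIntegral_jK M q hq hqM A K))

/-- **[Red2]** in the shape used here: reducedness of the special fibre of `chart j`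
(`Cech2Plan` `desc0` shape). -/
def Desc0 (π : OK A K) : Prop :=
  ∀ z ∈ GaussV.V12 (WK.wK M q hq hqM K) hdvr,
    algebraMap (OK A K) (FK (M * q) K) π * z ∈ chart (M * q) A K (jK (M * q) K) →
      z ∈ chart (M * q) A K (jK (M * q) K)

variable {A K hdvr}
variable {π : OK A K}

/-- `desc` for `chart J` (`= chart j`). -/
theorem desc_J (hdesc : Desc0 M q hq hqM A K hdvr π) :
    ∀ z ∈ GaussV.V12 (WK.wK M q hq hqM K) hdvr,
      algebraMap (OK A K) (FK (M * q) K) π * z ∈ chart (M * q) A K (tJ M q hq hqM K) →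
        z ∈ chart (M * q) A K (tJ M q hq hqM K) := by
  intro z hz h
  rw [tJ, WKInst.chart_JK_eq] at h ⊢
  exact hdesc z hz h

/-- `desc` for `chart J⁻¹`, by regularity at infinity (`RegInf`). -/
theorem desc_J_inv (hπ : Irreducible π) (hdesc : Desc0 M q hq hqM A K hdvr π) :
    ∀ z ∈ GaussV.V12 (WK.wK M q hq hqM K) hdvr,
      algebraMap (OK A K) (FK (M * q) K) π * z ∈ chart (M * q) A K (tJ M q hq hqM K)⁻¹ →
        z ∈ chart (M * q) A K (tJ M q hq hqM K)⁻¹ := by
  have := hdvr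
  have hne := WKInst.JK_ne_zero M q hq hqM K
  exact RegInf.descInf_of_desc0' hπ.prime
    (ChartJ.transcendental_symJ (M * q) A K (WK.isIntegral_jK M q hq hqM A K))
    (chart (M * q) A K (tJ M q hq hqM K)) (chart (M * q) A K (tJ M q hq hqM K)⁻¹)
    (GaussV.V12 (WK.wK M q hq hqM K) hdvr) (fun _ => Iff.rfl)
    (chart_J_le_V12 M q hq hqM A K hdvr _ (ChartJ.self_mem_chart (M * q) A K _))
    (fun x hx => ChartJ.glue (M * q) A K hne hx) (fun x hx => ChartJ.glue' (M * q) A K hne hx)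
    (desc_J M q hq hqM hdesc)

/-- `ChartModel.hyp` for `chart J`. -/
theorem hyp_J (hπ : Irreducible π) (hdesc : Desc0 M q hq hqM A K hdvr π) :
    LocPlan.ChartHyp π (Vc M q hq hqM A K hdvr)
      (Pc M q hq hqM A K hdvr π (chart (M * q) A K (tJ M q hq hqM K))) :=
  ChartHypInst.chartHyp (WK.wK M q hq hqM K) hdvr (WK.wK_algebraMap_OK M q hq hqM K A) hπ
    (chart_J_le_V12 M q hq hqM A K hdvr) (desc_J M q hq hqM hdesc)

/-- `ChartModel.hyp` for `chart J⁻¹`. -/
theorem hyp_J_inv (hπ : Irreducible π) (hdesc : Desc0 M q hq hqM A K hdvr π) :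
    LocPlan.ChartHyp π (Vc M q hq hqM A K hdvr)
      (Pc M q hq hqM A K hdvr π (chart (M * q) A K (tJ M q hq hqM K)⁻¹)) :=
  ChartHypInst.chartHyp (WK.wK M q hq hqM K) hdvr (WK.wK_algebraMap_OK M q hq hqM K A) hπ
    (chart_J_inv_le_V12 M q hq hqM A K hdvr) (desc_J_inv M q hq hqM hπ hdesc)

/-- `ChartModel.tau` for both charts (`R` any `tauE`-stable subalgebra). -/
theorem tau_of {τ : Qb ≃ₐ[ℚ] Qb} (hτ : τ ∈ A.inertiaSubgroupIn ℚ) (hK : TauAct.Stable K τ)
    (hπ : Irreducible π) (R : Subalgebra (OK A K) (FK (M * q) K))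
    (hR : ∀ (σ : Qb ≃ₐ[ℚ] Qb) (_ : σ ∈ A.decompositionSubgroup ℚ) (hσK : TauAct.Stable K σ),
      ∀ x ∈ R, TauAct.tauE (M * q) hσK x ∈ R) :
    LocPlan.TauHyp (R := R) π (Vc M q hq hqM A K hdvr) (TauAct.tauE (M * q) hK) := by
  have hτd := TauAct.mem_decomp_of_mem_inertia A hτ
  have hτi : τ.symm ∈ A.inertiaSubgroupIn ℚ := inv_mem hτ
  refine ChartHypInst.tauHyp (WK.wK M q hq hqM K) hdvr (WK.wK_algebraMap_OK M q hq hqM K A)
    (TauAct.tauE (M * q) hK) hπ (hR τ hτd hK)
    (fun x hx => hR τ.symm (TauAct.symm_mem_decomp A hτd) hK.symm x hx)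
    (fun x y h => TauAct.gRel_coeffMap A hτ h) (fun x y h => TauAct.gRel_coeffMap A hτi h)
    (fun x => (WKInst.wK_tauE M q hq hqM hK x).symm)

end Charts


/-! ### The point fields (input from the points desk) -/

/-- The three point-fields `branch`, `trans`, `hor` of `ModelPlan2.ChartModel` for one chart `R`
with vertical primes `P` (a plain conjunction `branch ∧ trans ∧ hor`). -/
def Pts {N : ℕ} {A : ValuationSubring Qb} {K : IntermediateField ℚ Qb} (π : OK A K)
    (m : ℕ) (fK : FK N K) (R : Subalgebra (OK A K) (FK N K)) (P : Fin 2 → Ideal R) : Prop :=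
  (∀ n : Ideal R, n.IsMaximal → algebraMap (OK A K) R π ∈ n → ∀ i : Fin 2, P i ≤ n →
    (∃ x ∈ n, x ∉ P i) ∧
      ∃ u ∈ n, ∀ x ∈ n, ∃ s : R, s ∉ n ∧ ∃ c : R, s * x - c * u ∈ P i) ∧
  (∀ n : Ideal R, n.IsMaximal → algebraMap (OK A K) R π ∈ n → P 0 ≤ n → P 1 ≤ n →
    ∀ x ∈ n, ∃ s : R, s ∉ n ∧ s * x ∈ P 0 ⊔ P 1) ∧
  (∀ n : Ideal R, n.IsMaximal → algebraMap (OK A K) R π ∈ n →
    ∀ 𝔮 : Ideal R, 𝔮.IsPrime → 𝔮 ≤ n → algebraMap (OK A K) R π ∉ 𝔮 → LocPlan.PrincAt 𝔮 →
      LocPlan.UnitAt 𝔮 fK ∨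
        ((∀ r : R, ∃ c : OK A K, r - algebraMap (OK A K) R c ∈ 𝔮) ∧
          ∃ x : FK N K, x ≠ 0 ∧ LocPlan.UnitAt 𝔮 (fK * x ^ m)))

/-- **[Pts]** (target of the points desk): for every `f` there is a finite set `S` of constants
such that over every base `K ⊇ S` with `BaseFacts` the point fields hold on both charts
`chart J`, `chart J⁻¹`, for any family `P` of vertical primes satisfying `ChartHyp`. -/
def PtsStatement (m : ℕ) : Prop :=
  ∀ A : ValuationSubring Qb, A.LiesOverPrime q →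
  ∀ f : modularFunctionFieldBar (M * q), f ≠ 0 →
    (∀ P : Place Qb (modularFunctionFieldBar (M * q)), (m : ℤ) ∣ P.ord f) →
    ∃ S : Finset Qb, ∀ K : IntermediateField ℚ Qb, ↑S ⊆ (K : Set Qb) →
      ∀ (hB : BaseFacts q A K) (π : OK A K), Irreducible π →
      ∀ fK : FK (M * q) K, Glob.toBar (M * q) K fK = f →
      ∀ R : Subalgebra (OK A K) (FK (M * q) K),
        R = chart (M * q) A K (tJ M q hq hqM K) ∨ R = chart (M * q) A K (tJ M q hq hqM K)⁻¹ →
        IsNoetherianRing R → IsFractionRing R (FK (M * q) K) → IsIntegrallyClosed R →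
        ∀ P : Fin 2 → Ideal R, LocPlan.ChartHyp π (Vc M q hq hqM A K hB.dvr) P → Pts π m fK R P

/-- **[Red2]** (target of the reducedness desk), for every base with `BaseFacts`. -/
def Red2Statement : Prop :=
  ∀ (A : ValuationSubring Qb) (K : IntermediateField ℚ Qb), A.LiesOverPrime q →
    ∀ (hB : BaseFacts q A K) (π : OK A K), Irreducible π → Desc0 M q hq hqM A K hB.dvr π

/-! ### The assembly -/

/-- **[Model2Asm]** from [Red2] and [Pts]. -/
theorem model2Statement (m : ℕ) (hqm : ¬ q ∣ m) (hRed2 : Red2Statement M q hq hqM)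
    (hPts : PtsStatement M q hq hqM m) : ModelPlan2.Model2Statement (M * q) q m := by
  intro A hA τ hτ τ' hτ' f hf hdiv
  have : Fact q.Prime := ⟨hq⟩
  obtain ⟨S, hS⟩ := hPts A hA f hf hdiv
  obtain ⟨K, hSK, hB, hK, hK', hfK⟩ := exists_base M q A hA τ τ' f S
  have hdvr := hB.dvr
  obtain ⟨π, hπ⟩ := IsDiscreteValuationRing.exists_irreducible (OK A K)
  have hdesc := hRed2 A K hA hB π hπ
  obtain ⟨⟨hn0, hf0, hi0⟩, ⟨hnI, hfI, hiI⟩, hfin0, -⟩ := rings M q hq hqM A K hdvr
  have hyp0 := hyp_J M q hq hqM hπ hdesc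
  have hypI := hyp_J_inv M q hq hqM hπ hdesc
  have hfKc : Glob.toBar (M * q) K ⟨(f : LaurentSeries Qb), hfK⟩ = f := Subtype.ext rfl
  have p0 := hS K hSK hB π hπ _ hfKc _ (Or.inl rfl) hn0 hf0 hi0 _ hyp0
  have pI := hS K hSK hB π hπ _ hfKc _ (Or.inr rfl) hnI hfI hiI _ hypI
  have st0 : ∀ (σ : Qb ≃ₐ[ℚ] Qb) (_ : σ ∈ A.decompositionSubgroup ℚ) (hσK : TauAct.Stable K σ),
      ∀ x ∈ chart (M * q) A K (tJ M q hq hqM K),
        TauAct.tauE (M * q) hσK x ∈ chart (M * q) A K (tJ M q hq hqM K) :=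
    fun σ hσ hσK x hx => WKInst.tauE_mem_chart_JK M q hq hqM A hσK hσ hx
  have stI : ∀ (σ : Qb ≃ₐ[ℚ] Qb) (_ : σ ∈ A.decompositionSubgroup ℚ) (hσK : TauAct.Stable K σ),
      ∀ x ∈ chart (M * q) A K (tJ M q hq hqM K)⁻¹,
        TauAct.tauE (M * q) hσK x ∈ chart (M * q) A K (tJ M q hq hqM K)⁻¹ :=
    fun σ hσ hσK x hx => WKInst.tauE_mem_chart_JK_inv M q hq hqM A hσK hσ hx
  exact ⟨{
    K := K
    dvr := hdvr
    π := π
    irr := hπ
    hm := FinalCore.isUnit_natCast_OK A hA K hqm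
    t := tJ M q hq hqM K
    t_ne := WKInst.JK_ne_zero M q hq hqM K
    fin0 := hfin0
    fK := ⟨(f : LaurentSeries Qb), hfK⟩
    fK_coe := hfKc
    σ := TauAct.tauE (M * q) hK
    σ' := TauAct.tauE (M * q) hK'
    σ_coe := toBar_tauE (M * q) hK
    σ'_coe := toBar_tauE (M * q) hK'
    V := Vc M q hq hqM A K hdvr
    c0 := {
      noeth := hn0
      frac := hf0
      intcl := hi0
      P := Pc M q hq hqM A K hdvr π _
      hyp := hyp0
      tau := tau_of M q hq hqM hτ hK hπ _ st0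
      tau' := tau_of M q hq hqM hτ' hK' hπ _ st0
      branch := p0.1
      trans := p0.2.1
      hor := p0.2.2 }
    cInf := {
      noeth := hnI
      frac := hfI
      intcl := hiI
      P := Pc M q hq hqM A K hdvr π _
      hyp := hypI
      tau := tau_of M q hq hqM hτ hK hπ _ stI
      tau' := tau_of M q hq hqM hτ' hK' hπ _ stI
      branch := pI.1
      trans := pI.2.1
      hor := pI.2.2 } }⟩

/-- **[Red2]** closed (helper43's `Red2.desc0`). -/
theorem red2Statement : Red2Statement M q hq hqM :=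
  fun _ _ hA hB _ hπ => Red2.desc0 M q hq hqM hA hB hπ

/-- **[Model2Asm]** from [Pts] alone. -/
theorem model2Statement_of_pts (m : ℕ) (hqm : ¬ q ∣ m) (hPts : PtsStatement M q hq hqM m) :
    ModelPlan2.Model2Statement (M * q) q m :=
  model2Statement M q hq hqM m hqm (red2Statement M q hq hqM) hPts

/-- The `hModel` argument of `UFinal.s34_of_model2`, from [Red2] and [Pts]. -/
theorem hModel
    (hRed2 : ∀ (M q : ℕ) [NeZero M] [NeZero q] (hq : q.Prime) (hqM : ¬ q ∣ M),
      Red2Statement M q hq hqM)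
    (hPts : ∀ (M q m : ℕ) [NeZero M] [NeZero q] (hq : q.Prime) (hqM : ¬ q ∣ M), ¬ q ∣ m →
      PtsStatement M q hq hqM m) :
    ∀ (M q m : ℕ) [NeZero M] [NeZero (M * q)], q.Prime → ¬ q ∣ M → ¬ q ∣ m →
      ModelPlan2.Model2Statement (M * q) q m := by
  intro M q m _ _ hq hqM hqm
  have : NeZero q := ⟨hq.ne_zero⟩
  exact model2Statement M q hq hqM m hqm (hRed2 M q hq hqM) (hPts M q m hq hqM hqm)

/-- The `hModel` argument of `UFinal.s34_of_model2`, from [Pts] alone. -/
theorem hModel_of_pts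
    (hPts : ∀ (M q m : ℕ) [NeZero M] [NeZero q] (hq : q.Prime) (hqM : ¬ q ∣ M), ¬ q ∣ m →
      PtsStatement M q hq hqM m) :
    ∀ (M q m : ℕ) [NeZero M] [NeZero (M * q)], q.Prime → ¬ q ∣ M → ¬ q ∣ m →
      ModelPlan2.Model2Statement (M * q) q m :=
  hModel (fun M q _ _ hq hqM => red2Statement M q hq hqM) hPts

end

end Fermat.Agent.S34.Model2AsmB
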