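import Mathlib

/-!
# Node block (abstract, Mathlib-only): coordinates at a crossing point, transversality

Elementary commutative algebra around a crossing point of a two-branch special fibre
(leaf N2 of the node blueprint).  `R` is any commutative ring, `π : R`, and `𝔭1`, `𝔭2` are the
two branches through the point (ideals of `R`).

* `Coords π 𝔭1 𝔭2 u w` : `u`, `w` are coordinates at the crossing: `𝔭1 ⊓ 𝔭2 = (π)`,
  `u ∈ 𝔭2 ∖ 𝔭1`, `w ∈ 𝔭1 ∖ 𝔭2`, `𝔭1 = (π, w)`, `𝔭2 = (π, u)`, `𝔭1 ⊔ 𝔭2 = (π, u, w)`;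
  consequences: `Coords.mul_eq` (`u * w ∈ π R`), `Coords.syz` / `Coords.syz'`
  (`a u + b w ∈ π R → a ∈ (π, w) ∧ b ∈ (π, u)`), membership criteria.
* `exists_coords` : coordinates exist as soon as `𝔭1 ⊓ 𝔭2 = (π)` and `𝔭1 ⊔ 𝔭2` is principal
  modulo `𝔭1` and modulo `𝔭2` (no locality needed).
* `exists_coords_of_dvr` : the local form: `R` local, `R ⧸ 𝔭i` discrete valuation rings,
  `𝔭1 ⊓ 𝔭2 = (π)`, `𝔭1 ⊔ 𝔭2 = 𝔪`; then moreover `𝔪 = (π, u, w)`.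
* `exists_mul_mem_sup_of_local` / `exists_mul_mem_sup` / `sup_eq_maximalIdeal`
  (transversality): if `a` generates `n` modulo `𝔭1` (locally at `n`) and `a ∈ n ^ 2 ⊔ 𝔭2`,
  then `𝔭1 ⊔ 𝔭2 = n` locally at `n`.  `mem_sq_sup_of_pow_sub_mem` produces the second
  hypothesis from "`a` is a `q`-th power on the branch `𝔭2`".

No noetherian hypothesis, no regularity, no completion.
-/

set_option autoImplicit false

namespace Fermat.Agent.S34.NodeCoords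

open IsLocalRing

variable {R : Type*} [CommRing R]

/-! ### Coordinates at a crossing point -/

/-- `u`, `w` are coordinates at the crossing of the two branches `𝔭1`, `𝔭2` of the fibre
`π = 0`: `w` is an equation of the branch `𝔭1`, `u` an equation of the branch `𝔭2`. -/
structure Coords (π : R) (𝔭1 𝔭2 : Ideal R) (u w : R) : Prop where
  inf_eq : 𝔭1 ⊓ 𝔭2 = Ideal.span {π}
  u_mem : u ∈ 𝔭2
  w_mem : w ∈ 𝔭1
  u_notMem : u ∉ 𝔭1
  w_notMem : w ∉ 𝔭2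
  left_eq : 𝔭1 = Ideal.span {π, w}
  right_eq : 𝔭2 = Ideal.span {π, u}
  sup_eq : 𝔭1 ⊔ 𝔭2 = Ideal.span {π, u, w}

namespace Coords

variable {π : R} {𝔭1 𝔭2 : Ideal R} {u w : R}

theorem pi_mem_inf (h : Coords π 𝔭1 𝔭2 u w) : π ∈ 𝔭1 ⊓ 𝔭2 := by
  rw [h.inf_eq]; exact Ideal.mem_span_singleton_self π

theorem pi_mem_left (h : Coords π 𝔭1 𝔭2 u w) : π ∈ 𝔭1 := h.pi_mem_inf.1

theorem pi_mem_right (h : Coords π 𝔭1 𝔭2 u w) : π ∈ 𝔭2 := h.pi_mem_inf.2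

/-- The roles of the two branches can be exchanged. -/
theorem symm (h : Coords π 𝔭1 𝔭2 u w) : Coords π 𝔭2 𝔭1 w u where
  inf_eq := by rw [inf_comm]; exact h.inf_eq
  u_mem := h.w_mem
  w_mem := h.u_mem
  u_notMem := h.w_notMem
  w_notMem := h.u_notMem
  left_eq := h.right_eq
  right_eq := h.left_eq
  sup_eq := by
    rw [sup_comm, h.sup_eq]
    congr 1
    ext x
    simp only [Set.mem_insert_iff, Set.mem_singleton_iff]
    tauto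

/-- `u * w ∈ π R`. -/
theorem mul_eq (h : Coords π 𝔭1 𝔭2 u w) : ∃ c : R, u * w = π * c := by
  have h1 : u * w ∈ 𝔭1 ⊓ 𝔭2 :=
    ⟨Ideal.mul_mem_left _ _ h.w_mem, Ideal.mul_mem_right _ _ h.u_mem⟩
  rw [h.inf_eq, Ideal.mem_span_singleton'] at h1
  obtain ⟨c, hc⟩ := h1
  exact ⟨c, by rw [← hc, mul_comm]⟩

theorem mem_left_iff (h : Coords π 𝔭1 𝔭2 u w) {x : R} :
    x ∈ 𝔭1 ↔ ∃ a b : R, x = π * a + w * b := by
  rw [h.left_eq, Ideal.mem_span_pair]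
  constructor
  · rintro ⟨a, b, rfl⟩; exact ⟨a, b, by ring⟩
  · rintro ⟨a, b, rfl⟩; exact ⟨a, b, by ring⟩

theorem mem_right_iff (h : Coords π 𝔭1 𝔭2 u w) {x : R} :
    x ∈ 𝔭2 ↔ ∃ a b : R, x = π * a + u * b := by
  rw [h.right_eq, Ideal.mem_span_pair]
  constructor
  · rintro ⟨a, b, rfl⟩; exact ⟨a, b, by ring⟩
  · rintro ⟨a, b, rfl⟩; exact ⟨a, b, by ring⟩

theorem mem_sup_iff (h : Coords π 𝔭1 𝔭2 u w) {x : R} :
    x ∈ 𝔭1 ⊔ 𝔭2 ↔ ∃ a b c : R, x = π * a + u * b + w * c := by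
  rw [h.sup_eq, Ideal.mem_span_insert]
  constructor
  · rintro ⟨a, z, hz, rfl⟩
    rw [Ideal.mem_span_pair] at hz
    obtain ⟨b, c, rfl⟩ := hz
    exact ⟨a, b, c, by ring⟩
  · rintro ⟨a, b, c, rfl⟩
    exact ⟨a, u * b + w * c, Ideal.mem_span_pair.mpr ⟨b, c, by ring⟩, by ring⟩

theorem mem_inf_iff (h : Coords π 𝔭1 𝔭2 u w) {x : R} :
    x ∈ 𝔭1 ⊓ 𝔭2 ↔ ∃ c : R, x = π * c := by
  rw [h.inf_eq, Ideal.mem_span_singleton']
  constructor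
  · rintro ⟨c, rfl⟩; exact ⟨c, mul_comm _ _⟩
  · rintro ⟨c, rfl⟩; exact ⟨c, mul_comm _ _⟩

/-- **Syzygies.**  If `a u + b w ∈ π R` then `a ∈ 𝔭1` and `b ∈ 𝔭2`. -/
theorem syz [h1 : 𝔭1.IsPrime] [h2 : 𝔭2.IsPrime] (h : Coords π 𝔭1 𝔭2 u w) {a b c : R}
    (habc : a * u + b * w = π * c) : a ∈ 𝔭1 ∧ b ∈ 𝔭2 := by
  constructor
  · have hau : a * u ∈ 𝔭1 := by
      have : a * u = π * c - b * w := by rw [← habc]; ring
      rw [this]
      exact Ideal.sub_mem _ (Ideal.mul_mem_right _ _ h.pi_mem_left)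
        (Ideal.mul_mem_left _ _ h.w_mem)
    exact (h1.mem_or_mem hau).resolve_right h.u_notMem
  · have hbw : b * w ∈ 𝔭2 := by
      have : b * w = π * c - a * u := by rw [← habc]; ring
      rw [this]
      exact Ideal.sub_mem _ (Ideal.mul_mem_right _ _ h.pi_mem_right)
        (Ideal.mul_mem_left _ _ h.u_mem)
    exact (h2.mem_or_mem hbw).resolve_right h.w_notMem

/-- **Syzygies**, explicit form: if `a u + b w ∈ π R` then `a ∈ (π, w)` and `b ∈ (π, u)`. -/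
theorem syz' [𝔭1.IsPrime] [𝔭2.IsPrime] (h : Coords π 𝔭1 𝔭2 u w) {a b c : R}
    (habc : a * u + b * w = π * c) :
    (∃ a₁ a₂ : R, a = π * a₁ + w * a₂) ∧ (∃ b₁ b₂ : R, b = π * b₁ + u * b₂) :=
  ⟨h.mem_left_iff.mp (h.syz habc).1, h.mem_right_iff.mp (h.syz habc).2⟩

/-- A prime containing `π` contains one of the two coordinates. -/
theorem mem_or_mem_of_pi_mem (h : Coords π 𝔭1 𝔭2 u w) {𝔮 : Ideal R} [h𝔮 : 𝔮.IsPrime]
    (hπ : π ∈ 𝔮) : u ∈ 𝔮 ∨ w ∈ 𝔮 := by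
  obtain ⟨c, hc⟩ := h.mul_eq
  exact h𝔮.mem_or_mem (by rw [hc]; exact Ideal.mul_mem_right _ _ hπ)

/-- A prime containing `π` contains one of the two branches. -/
theorem le_or_le_of_pi_mem (h : Coords π 𝔭1 𝔭2 u w) {𝔮 : Ideal R} [𝔮.IsPrime]
    (hπ : π ∈ 𝔮) : 𝔭1 ≤ 𝔮 ∨ 𝔭2 ≤ 𝔮 := by
  rcases h.mem_or_mem_of_pi_mem hπ with hu | hw
  · right
    rw [h.right_eq, Ideal.span_le]
    intro x hx
    simp only [Set.mem_insert_iff, Set.mem_singleton_iff] at hx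
    rcases hx with rfl | rfl
    · exact hπ
    · exact hu
  · left
    rw [h.left_eq, Ideal.span_le]
    intro x hx
    simp only [Set.mem_insert_iff, Set.mem_singleton_iff] at hx
    rcases hx with rfl | rfl
    · exact hπ
    · exact hw

end Coords

/-- **Existence of coordinates.**  If `𝔭1 ⊓ 𝔭2 = (π)`, neither branch contains the other, and
`𝔭1 ⊔ 𝔭2` is generated by one element modulo `𝔭1` and modulo `𝔭2`, then there are coordinates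
`u ∈ 𝔭2`, `w ∈ 𝔭1` at the crossing. -/
theorem exists_coords {π : R} {𝔭1 𝔭2 : Ideal R} (hcap : 𝔭1 ⊓ 𝔭2 = Ideal.span {π})
    (h1 : ∃ a ∈ 𝔭1 ⊔ 𝔭2, 𝔭1 ⊔ 𝔭2 ≤ Ideal.span {a} ⊔ 𝔭1)
    (h2 : ∃ a ∈ 𝔭1 ⊔ 𝔭2, 𝔭1 ⊔ 𝔭2 ≤ Ideal.span {a} ⊔ 𝔭2)
    (hne1 : ¬ 𝔭2 ≤ 𝔭1) (hne2 : ¬ 𝔭1 ≤ 𝔭2) :
    ∃ u w : R, Coords π 𝔭1 𝔭2 u w := by
  have hπ : π ∈ 𝔭1 ⊓ 𝔭2 := by rw [hcap]; exact Ideal.mem_span_singleton_self π
  -- a generator of `𝔭1 ⊔ 𝔭2` modulo `𝔭` can be taken in the other branch `𝔮`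
  have key : ∀ (𝔭 𝔮 : Ideal R), (∃ a ∈ 𝔭 ⊔ 𝔮, 𝔭 ⊔ 𝔮 ≤ Ideal.span {a} ⊔ 𝔭) →
      ∃ u ∈ 𝔮, 𝔭 ⊔ 𝔮 ≤ Ideal.span {u} ⊔ 𝔭 := by
    rintro 𝔭 𝔮 ⟨a, ha, hle⟩
    obtain ⟨y, hy, z, hz, rfl⟩ := Submodule.mem_sup.mp ha
    refine ⟨z, hz, hle.trans (sup_le ?_ le_sup_right)⟩
    rw [Ideal.span_le, Set.singleton_subset_iff]
    exact Ideal.add_mem _ (Ideal.mem_sup_right hy)
      (Ideal.mem_sup_left (Ideal.mem_span_singleton_self z))
  -- the branch `𝔮` is then generated by `π` and this generator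
  have key2 : ∀ (𝔭 𝔮 : Ideal R) (u : R), 𝔭 ⊓ 𝔮 = Ideal.span {π} → u ∈ 𝔮 →
      𝔭 ⊔ 𝔮 ≤ Ideal.span {u} ⊔ 𝔭 → 𝔮 = Ideal.span {π, u} := by
    intro 𝔭 𝔮 u hc hu hle
    have hπq : π ∈ 𝔮 := by
      have : π ∈ 𝔭 ⊓ 𝔮 := by rw [hc]; exact Ideal.mem_span_singleton_self π
      exact this.2
    apply le_antisymm
    · intro x hx
      obtain ⟨y, hy, z, hz, hyz⟩ := Submodule.mem_sup.mp (hle (Ideal.mem_sup_right hx))
      obtain ⟨c, rfl⟩ := Ideal.mem_span_singleton'.mp hy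
      have hz2 : z ∈ 𝔭 ⊓ 𝔮 := by
        refine ⟨hz, ?_⟩
        have : z = x - c * u := by rw [← hyz]; ring
        rw [this]
        exact Ideal.sub_mem _ hx (Ideal.mul_mem_left _ _ hu)
      rw [hc, Ideal.mem_span_singleton'] at hz2
      obtain ⟨d, rfl⟩ := hz2
      rw [Ideal.mem_span_pair]
      exact ⟨d, c, by rw [← hyz]; ring⟩
    · rw [Ideal.span_le]
      intro x hx
      simp only [Set.mem_insert_iff, Set.mem_singleton_iff] at hx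
      rcases hx with rfl | rfl
      · exact hπq
      · exact hu
  obtain ⟨u, hu, hule⟩ := key 𝔭1 𝔭2 h1
  obtain ⟨w, hw, hwle⟩ := key 𝔭2 𝔭1 (by rw [sup_comm]; exact h2)
  have hr : 𝔭2 = Ideal.span {π, u} := key2 𝔭1 𝔭2 u hcap hu hule
  have hl : 𝔭1 = Ideal.span {π, w} := key2 𝔭2 𝔭1 w (by rw [inf_comm]; exact hcap) hw hwle
  refine ⟨u, w, ⟨hcap, hu, hw, ?_, ?_, hl, hr, ?_⟩⟩
  · intro hu1
    apply hne1
    have : 𝔭1 ⊔ 𝔭2 ≤ 𝔭1 := hule.trans (sup_le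
      (by rw [Ideal.span_le, Set.singleton_subset_iff]; exact hu1) le_rfl)
    exact le_sup_right.trans this
  · intro hw2
    apply hne2
    have : 𝔭2 ⊔ 𝔭1 ≤ 𝔭2 := hwle.trans (sup_le
      (by rw [Ideal.span_le, Set.singleton_subset_iff]; exact hw2) le_rfl)
    exact le_sup_right.trans this
  · apply le_antisymm
    · refine sup_le ?_ ?_
      · rw [hl]
        apply Ideal.span_mono
        intro x hx
        simp only [Set.mem_insert_iff, Set.mem_singleton_iff] at hx ⊢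
        tauto
      · rw [hr]
        apply Ideal.span_mono
        intro x hx
        simp only [Set.mem_insert_iff, Set.mem_singleton_iff] at hx ⊢
        tauto
    · rw [Ideal.span_le]
      intro x hx
      simp only [Set.mem_insert_iff, Set.mem_singleton_iff] at hx
      rcases hx with rfl | rfl | rfl
      · exact Ideal.mem_sup_left hπ.1
      · exact Ideal.mem_sup_right hu
      · exact Ideal.mem_sup_left hw

/-! ### The local form: branches with discrete valuation rings as coordinate rings -/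

/-- In a local ring, if `R ⧸ 𝔭` is a discrete valuation ring then the maximal ideal is
generated by one element modulo `𝔭`. -/
theorem exists_gen_of_dvr [IsLocalRing R] (𝔭 : Ideal R) [𝔭.IsPrime]
    [IsDiscreteValuationRing (R ⧸ 𝔭)] :
    ∃ a ∈ maximalIdeal R, maximalIdeal R ≤ Ideal.span {a} ⊔ 𝔭 := by
  obtain ⟨ϖ, hϖ⟩ := IsDiscreteValuationRing.exists_irreducible (R ⧸ 𝔭)
  obtain ⟨a, rfl⟩ := Ideal.Quotient.mk_surjective ϖ
  have hmax := hϖ.maximalIdeal_eq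
  refine ⟨a, ?_, ?_⟩
  · rw [mem_maximalIdeal, mem_nonunits_iff]
    intro hu
    exact hϖ.not_isUnit (hu.map (Ideal.Quotient.mk 𝔭))
  · intro x hx
    have hx' : Ideal.Quotient.mk 𝔭 x ∈ maximalIdeal (R ⧸ 𝔭) := by
      rw [mem_maximalIdeal, mem_nonunits_iff]
      intro hu
      rw [mem_maximalIdeal, mem_nonunits_iff] at hx
      apply hx
      obtain ⟨y, hy⟩ := hu.exists_right_inv
      obtain ⟨y, rfl⟩ := Ideal.Quotient.mk_surjective y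
      have h1 : x * y - 1 ∈ 𝔭 := by
        rw [← Ideal.Quotient.eq, map_mul, hy, map_one]
      have h2 : x * y - 1 ∈ maximalIdeal R :=
        IsLocalRing.le_maximalIdeal (Ideal.IsPrime.ne_top inferInstance) h1
      have h3 : IsUnit (x * y) := by
        by_contra hnu
        have h4 : x * y ∈ maximalIdeal R := by
          rw [mem_maximalIdeal, mem_nonunits_iff]; exact hnu
        have h5 : (1 : R) ∈ maximalIdeal R := by
          have : (1 : R) = x * y - (x * y - 1) := by ring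
          rw [this]
          exact Ideal.sub_mem _ h4 h2
        exact (Ideal.ne_top_iff_one _).mp (maximalIdeal.isMaximal R).ne_top h5
      exact isUnit_of_mul_isUnit_left h3
    rw [hmax, Ideal.mem_span_singleton'] at hx'
    obtain ⟨c, hc⟩ := hx'
    obtain ⟨c, rfl⟩ := Ideal.Quotient.mk_surjective c
    rw [← map_mul, Ideal.Quotient.eq] at hc
    have : x = c * a + -(c * a - x) := by ring
    rw [this]
    exact Ideal.add_mem _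
      (Ideal.mem_sup_left (Ideal.mul_mem_left _ _ (Ideal.mem_span_singleton_self a)))
      (Ideal.mem_sup_right (neg_mem hc))

/-- If `R ⧸ 𝔭` is a discrete valuation ring, `𝔭` is not the maximal ideal. -/
theorem ne_maximalIdeal_of_dvr [IsLocalRing R] (𝔭 : Ideal R) [𝔭.IsPrime]
    [IsDiscreteValuationRing (R ⧸ 𝔭)] : 𝔭 ≠ maximalIdeal R := by
  intro h
  have hmax : 𝔭.IsMaximal := h ▸ maximalIdeal.isMaximal R
  exact IsDiscreteValuationRing.not_isField (R ⧸ 𝔭)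
    ((Ideal.Quotient.maximal_ideal_iff_isField_quotient 𝔭).mp hmax)

/-- **Coordinates at an ordinary double point.**  `R` local, `𝔭1 ⊓ 𝔭2 = (π)`,
`𝔭1 ⊔ 𝔭2 = 𝔪`, and both `R ⧸ 𝔭i` discrete valuation rings: then there are `u ∈ 𝔭2`, `w ∈ 𝔭1`
with `𝔪 = (π, u, w)`, `𝔭1 = (π, w)`, `𝔭2 = (π, u)`, `u w ∈ π R` and the syzygy property. -/
theorem exists_coords_of_dvr [IsLocalRing R] {π : R} {𝔭1 𝔭2 : Ideal R} [𝔭1.IsPrime]
    [𝔭2.IsPrime] [IsDiscreteValuationRing (R ⧸ 𝔭1)] [IsDiscreteValuationRing (R ⧸ 𝔭2)]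
    (hcap : 𝔭1 ⊓ 𝔭2 = Ideal.span {π}) (hsum : 𝔭1 ⊔ 𝔭2 = maximalIdeal R) :
    ∃ u w : R, Coords π 𝔭1 𝔭2 u w ∧ maximalIdeal R = Ideal.span {π, u, w} := by
  have hc : ∃ u w : R, Coords π 𝔭1 𝔭2 u w := by
    refine exists_coords hcap ?_ ?_ ?_ ?_
    · rw [hsum]; exact exists_gen_of_dvr 𝔭1
    · rw [hsum]; exact exists_gen_of_dvr 𝔭2
    · intro hle
      apply ne_maximalIdeal_of_dvr 𝔭1
      rw [← hsum]
      exact (sup_eq_left.mpr hle).symm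
    · intro hle
      apply ne_maximalIdeal_of_dvr 𝔭2
      rw [← hsum]
      exact (sup_eq_right.mpr hle).symm
  obtain ⟨u, w, h⟩ := hc
  exact ⟨u, w, h, by rw [← hsum, h.sup_eq]⟩

/-! ### Transversality -/

/-- If `a - r ^ q ∈ 𝔭2` with `r ∈ n` and `2 ≤ q` ("`a` is a `q`-th power on the branch
`𝔭2`"), then `a ∈ n ^ 2 ⊔ 𝔭2`. -/
theorem mem_sq_sup_of_pow_sub_mem {n 𝔭2 : Ideal R} {a r : R} {q : ℕ} (hq : 2 ≤ q)
    (hr : r ∈ n) (h : a - r ^ q ∈ 𝔭2) : a ∈ n ^ 2 ⊔ 𝔭2 := by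
  have h1 : r ^ q ∈ n ^ 2 := Ideal.pow_le_pow_right hq (Ideal.pow_mem_pow hr q)
  have : a = r ^ q + (a - r ^ q) := by ring
  rw [this]
  exact Ideal.add_mem _ (Ideal.mem_sup_left h1) (Ideal.mem_sup_right h)

/-- **Transversality, local at a prime `n` of an arbitrary ring.**  Suppose `a` generates `n`
modulo `𝔭1` locally at `n`, and `a ∈ n ^ 2 ⊔ 𝔭2` with `𝔭2 ≤ n`.  Then `𝔭1 ⊔ 𝔭2 = n` locally
at `n`: a single `s ∉ n` works for the generator `a`, and every `x ∈ n` is multiplied into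
`𝔭1 ⊔ 𝔭2` by some element outside `n`. -/
theorem exists_mul_mem_sup_of_local {n 𝔭1 𝔭2 : Ideal R} [hn : n.IsPrime] {a : R}
    (hgen : ∀ x ∈ n, ∃ s, s ∉ n ∧ s * x ∈ Ideal.span {a} ⊔ 𝔭1)
    (ha : a ∈ n ^ 2 ⊔ 𝔭2) (h2 : 𝔭2 ≤ n) :
    (∃ s, s ∉ n ∧ s * a ∈ 𝔭1 ⊔ 𝔭2) ∧ ∀ x ∈ n, ∃ s, s ∉ n ∧ s * x ∈ 𝔭1 ⊔ 𝔭2 := by
  -- explicit form of `hgen`
  have hgen' : ∀ x ∈ n, ∃ s d y, s ∉ n ∧ y ∈ 𝔭1 ∧ s * x = d * a + y := by
    intro x hx
    obtain ⟨s, hs, hsx⟩ := hgen x hx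
    obtain ⟨y, hy, z, hz, hyz⟩ := Submodule.mem_sup.mp hsx
    obtain ⟨d, rfl⟩ := Ideal.mem_span_singleton'.mp hy
    exact ⟨s, d, z, hs, hz, hyz.symm⟩
  -- it suffices to treat the generator `a`
  have hfin : (∃ s, s ∉ n ∧ s * a ∈ 𝔭1 ⊔ 𝔭2) →
      (∃ s, s ∉ n ∧ s * a ∈ 𝔭1 ⊔ 𝔭2) ∧ ∀ x ∈ n, ∃ s, s ∉ n ∧ s * x ∈ 𝔭1 ⊔ 𝔭2 := by
    rintro ⟨s, hs, hsa⟩
    refine ⟨⟨s, hs, hsa⟩, ?_⟩
    intro x hx
    obtain ⟨s₁, d, y, hs₁, hy, hxy⟩ := hgen' x hx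
    refine ⟨s * s₁, fun h => (hn.mem_or_mem h).elim hs hs₁, ?_⟩
    have : s * s₁ * x = d * (s * a) + s * y := by rw [mul_assoc, hxy]; ring
    rw [this]
    exact Ideal.add_mem _ (Ideal.mul_mem_left _ _ hsa)
      (Ideal.mem_sup_left (Ideal.mul_mem_left _ _ hy))
  apply hfin
  -- `n ^ 2 ⊆ a n + 𝔭1` locally at `n`
  have hsq : ∀ z ∈ n ^ 2, ∃ S ν y, S ∉ n ∧ ν ∈ n ∧ y ∈ 𝔭1 ∧ S * z = a * ν + y := by
    intro z hz
    rw [pow_two] at hz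
    refine Submodule.mul_induction_on hz ?_ ?_
    · intro x hx x' hx'
      obtain ⟨s, d, y, hs, hy, hxy⟩ := hgen' x hx
      refine ⟨s, d * x', y * x', hs, Ideal.mul_mem_left _ _ hx', Ideal.mul_mem_right _ _ hy, ?_⟩
      rw [← mul_assoc, hxy]; ring
    · rintro z₁ z₂ ⟨S₁, ν₁, y₁, hS₁, hν₁, hy₁, h₁⟩ ⟨S₂, ν₂, y₂, hS₂, hν₂, hy₂, h₂⟩
      refine ⟨S₁ * S₂, S₂ * ν₁ + S₁ * ν₂, S₂ * y₁ + S₁ * y₂,
        fun h => (hn.mem_or_mem h).elim hS₁ hS₂,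
        Ideal.add_mem _ (Ideal.mul_mem_left _ _ hν₁) (Ideal.mul_mem_left _ _ hν₂),
        Ideal.add_mem _ (Ideal.mul_mem_left _ _ hy₁) (Ideal.mul_mem_left _ _ hy₂), ?_⟩
      have : S₁ * S₂ * (z₁ + z₂) = S₂ * (S₁ * z₁) + S₁ * (S₂ * z₂) := by ring
      rw [this, h₁, h₂]; ring
  obtain ⟨m₂, hm₂, p₂, hp₂, hmp⟩ := Submodule.mem_sup.mp ha
  obtain ⟨s₀, c, y, hs₀, hy, hcy⟩ := hgen' p₂ (h2 hp₂)
  by_cases hc : c ∈ n
  · -- `a (s₀ - c) = s₀ m₂ + y`, and `S m₂ = a ν + y'`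
    obtain ⟨S, ν, y', hS, hν, hy', hSm⟩ := hsq m₂ hm₂
    refine ⟨S * (s₀ - c) - s₀ * ν, ?_, Ideal.mem_sup_left ?_⟩
    · intro hmem
      have h1 : S * (s₀ - c) ∈ n := by
        have : S * (s₀ - c) = (S * (s₀ - c) - s₀ * ν) + s₀ * ν := by ring
        rw [this]
        exact Ideal.add_mem _ hmem (Ideal.mul_mem_left _ _ hν)
      rcases hn.mem_or_mem h1 with h | h
      · exact hS h
      · apply hs₀
        have : s₀ = (s₀ - c) + c := by ring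
        rw [this]
        exact Ideal.add_mem _ h hc
    · have : (S * (s₀ - c) - s₀ * ν) * a = S * y + s₀ * y' := by
        have e1 : s₀ * a = s₀ * m₂ + (c * a + y) := by rw [← hcy, ← hmp]; ring
        have e2 : S * (s₀ - c) * a = s₀ * (S * m₂) + S * y := by
          linear_combination S * e1
        rw [hSm] at e2
        linear_combination e2
      rw [this]
      exact Ideal.add_mem _ (Ideal.mul_mem_left _ _ hy) (Ideal.mul_mem_left _ _ hy')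
  · -- `c a = s₀ p₂ - y`
    refine ⟨c, hc, ?_⟩
    have : c * a = s₀ * p₂ + -y := by rw [hcy]; ring
    rw [this]
    exact Ideal.add_mem _ (Ideal.mem_sup_right (Ideal.mul_mem_left _ _ hp₂))
      (Ideal.mem_sup_left (neg_mem hy))

/-- **Transversality**, global generator: if `n ≤ (a) ⊔ 𝔭1` for a prime `n ⊇ 𝔭2` and
`a ∈ n ^ 2 ⊔ 𝔭2`, then every `x ∈ n` is multiplied into `𝔭1 ⊔ 𝔭2` by some `s ∉ n`. -/
theorem exists_mul_mem_sup {n 𝔭1 𝔭2 : Ideal R} [n.IsPrime] {a : R}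
    (hgen : n ≤ Ideal.span {a} ⊔ 𝔭1) (ha : a ∈ n ^ 2 ⊔ 𝔭2) (h2 : 𝔭2 ≤ n) :
    ∀ x ∈ n, ∃ s, s ∉ n ∧ s * x ∈ 𝔭1 ⊔ 𝔭2 :=
  (exists_mul_mem_sup_of_local (n := n)
    (fun x hx => ⟨1, (Ideal.ne_top_iff_one n).mp (Ideal.IsPrime.ne_top inferInstance),
      by rw [one_mul]; exact hgen hx⟩) ha h2).2

/-- **Transversality in a local ring.**  If `a` generates the maximal ideal modulo `𝔭1` and
`a ∈ 𝔪 ^ 2 ⊔ 𝔭2`, then `𝔭1 ⊔ 𝔭2 = 𝔪`. -/
theorem sup_eq_maximalIdeal [IsLocalRing R] {𝔭1 𝔭2 : Ideal R} (h1 : 𝔭1 ≤ maximalIdeal R)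
    (h2 : 𝔭2 ≤ maximalIdeal R) {a : R} (hgen : maximalIdeal R ≤ Ideal.span {a} ⊔ 𝔭1)
    (ha : a ∈ maximalIdeal R ^ 2 ⊔ 𝔭2) : 𝔭1 ⊔ 𝔭2 = maximalIdeal R := by
  apply le_antisymm (sup_le h1 h2)
  intro x hx
  obtain ⟨s, hs, hsx⟩ := exists_mul_mem_sup (n := maximalIdeal R) hgen ha h2 x hx
  have hsu : IsUnit s := by
    by_contra hnu
    exact hs ((mem_maximalIdeal s).mpr hnu)
  obtain ⟨t, ht⟩ := hsu.exists_left_inv
  have : x = t * (s * x) := by rw [← mul_assoc, ht, one_mul]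
  rw [this]
  exact Ideal.mul_mem_left _ _ hsx

/-- **Ordinary double point from one function.**  `R` local, `R ⧸ 𝔭i` discrete valuation
rings, `𝔭1 ⊓ 𝔭2 = (π)`, and a function `a` which is a uniformiser on the branch `𝔭1` and lies
in `𝔪 ^ 2 ⊔ 𝔭2` (e.g. a `q`-th power on the branch `𝔭2`): then the crossing is transversal and
has coordinates. -/
theorem exists_coords_of_trans [IsLocalRing R] {π : R} {𝔭1 𝔭2 : Ideal R} [𝔭1.IsPrime]
    [𝔭2.IsPrime] [IsDiscreteValuationRing (R ⧸ 𝔭1)] [IsDiscreteValuationRing (R ⧸ 𝔭2)]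
    (hcap : 𝔭1 ⊓ 𝔭2 = Ideal.span {π}) {a : R}
    (hgen : maximalIdeal R ≤ Ideal.span {a} ⊔ 𝔭1) (ha : a ∈ maximalIdeal R ^ 2 ⊔ 𝔭2) :
    𝔭1 ⊔ 𝔭2 = maximalIdeal R ∧
      ∃ u w : R, Coords π 𝔭1 𝔭2 u w ∧ maximalIdeal R = Ideal.span {π, u, w} := by
  have hsum : 𝔭1 ⊔ 𝔭2 = maximalIdeal R :=
    sup_eq_maximalIdeal (IsLocalRing.le_maximalIdeal (Ideal.IsPrime.ne_top inferInstance))
      (IsLocalRing.le_maximalIdeal (Ideal.IsPrime.ne_top inferInstance)) hgen ha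
  exact ⟨hsum, exists_coords_of_dvr hcap hsum⟩

end Fermat.Agent.S34.NodeCoords
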