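/-
S34 — Trans.lean (helper78): leaves [N2a] `NodeCoordsStatement` and [N2t] `TransStatement` of
the abstract plan `S34/LocPlan.lean`, as thin wrappers over `S34/NodeCoords.lean`.
-/
import Mathlib
import Fermat.Agent.S34.LocPlan
import Fermat.Agent.S34.NodeCoords

set_option autoImplicit false

namespace Fermat.Agent.S34.Trans

open Fermat.Agent.S34.LocPlan Fermat.Agent.S34.NodeCoords IsLocalRing

/-- **[N2a] NodeCoords** in the plan's shape (universe-polymorphic): node coordinates from two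
transversal branches which are principal modulo each other. -/
theorem nodeCoords {R : Type*} [CommRing R] [IsLocalRing R] (ϖ : R) (𝔭₁ 𝔭₂ : Ideal R)
    (h₁ : 𝔭₁.IsPrime) (h₂ : 𝔭₂.IsPrime)
    (hcap : 𝔭₁ ⊓ 𝔭₂ = Ideal.span {ϖ}) (hsum : 𝔭₁ ⊔ 𝔭₂ = maximalIdeal R)
    (hne₁ : 𝔭₁ ≠ maximalIdeal R) (hne₂ : 𝔭₂ ≠ maximalIdeal R)
    (ht₁ : ∃ t : R, maximalIdeal R = 𝔭₁ ⊔ Ideal.span {t})
    (ht₂ : ∃ t : R, maximalIdeal R = 𝔭₂ ⊔ Ideal.span {t}) :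
    ∃ u w : R, maximalIdeal R = Ideal.span {ϖ, u, w} ∧ ϖ ∣ u * w ∧
      ∀ a b : R, ϖ ∣ a * u + b * w → a ∈ Ideal.span {ϖ, w} ∧ b ∈ Ideal.span {ϖ, u} := by
  have hc : ∃ u w : R, Coords ϖ 𝔭₁ 𝔭₂ u w := by
    refine exists_coords hcap ?_ ?_ ?_ ?_
    · obtain ⟨t, ht⟩ := ht₁
      refine ⟨t, ?_, ?_⟩
      · rw [hsum, ht]
        exact Ideal.mem_sup_right (Ideal.mem_span_singleton_self t)
      · rw [hsum, ht, sup_comm]
    · obtain ⟨t, ht⟩ := ht₂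
      refine ⟨t, ?_, ?_⟩
      · rw [hsum, ht]
        exact Ideal.mem_sup_right (Ideal.mem_span_singleton_self t)
      · rw [hsum, ht, sup_comm]
    · intro hle
      apply hne₁
      rw [← hsum]
      exact (sup_eq_left.mpr hle).symm
    · intro hle
      apply hne₂
      rw [← hsum]
      exact (sup_eq_right.mpr hle).symm
  obtain ⟨u, w, h⟩ := hc
  refine ⟨u, w, by rw [← hsum, h.sup_eq], ?_, ?_⟩
  · obtain ⟨c, hc⟩ := h.mul_eq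
    exact ⟨c, hc⟩
  · rintro a b ⟨c, hc⟩
    have := h.syz hc
    rw [← h.left_eq, ← h.right_eq]
    exact this

/-- **[N2a]** `LocPlan.NodeCoordsStatement`. -/
theorem nodeCoordsStatement : NodeCoordsStatement := by
  intro R _ _ ϖ 𝔭₁ 𝔭₂ h₁ h₂ hcap hsum hne₁ hne₂ ht₁ ht₂
  exact nodeCoords ϖ 𝔭₁ 𝔭₂ h₁ h₂ hcap hsum hne₁ hne₂ ht₁ ht₂

/-- **[N2t] Trans** in the plan's shape (universe-polymorphic, no noetherian hypothesis, `n`
only prime): if `a` generates `n` modulo `𝔭₁` locally at `n` and `a ∈ n² + 𝔭₂` locally at `n`,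
then `𝔭₁ ⊔ 𝔭₂ = n` locally at `n`. -/
theorem trans {R : Type*} [CommRing R] (𝔭₁ 𝔭₂ n : Ideal R) (a : R) [hn : n.IsPrime]
    (h₂ : 𝔭₂ ≤ n)
    (hgen : ∀ x ∈ n, ∃ s : R, s ∉ n ∧ ∃ c : R, s * x - c * a ∈ 𝔭₁)
    (ha : ∃ s : R, s ∉ n ∧ s * a ∈ n * n ⊔ 𝔭₂) :
    ∀ x ∈ n, ∃ s : R, s ∉ n ∧ s * x ∈ 𝔭₁ ⊔ 𝔭₂ := by
  obtain ⟨s₀, hs₀, hs₀a⟩ := ha
  rw [← pow_two] at hs₀a
  refine (exists_mul_mem_sup_of_local (n := n) (𝔭1 := 𝔭₁) (𝔭2 := 𝔭₂) (a := s₀ * a)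
    ?_ hs₀a h₂).2
  intro x hx
  obtain ⟨s, hs, c, hc⟩ := hgen x hx
  refine ⟨s₀ * s, fun h => (hn.mem_or_mem h).elim hs₀ hs, ?_⟩
  have : s₀ * s * x = c * (s₀ * a) + s₀ * (s * x - c * a) := by ring
  rw [this]
  exact Ideal.add_mem _
    (Ideal.mem_sup_left (Ideal.mul_mem_left _ _ (Ideal.mem_span_singleton_self _)))
    (Ideal.mem_sup_right (Ideal.mul_mem_left _ _ hc))

/-- **[N2t]** `LocPlan.TransStatement`. -/
theorem transStatement : TransStatement := by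
  intro R _ _ 𝔭₁ 𝔭₂ n a hn _ h₂ _ hgen ha
  have : n.IsPrime := hn.isPrime
  exact trans 𝔭₁ 𝔭₂ n a h₂ hgen ha

end Fermat.Agent.S34.Trans
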