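/-
S34 — PointHyp.lean (helper69), row [PointHyp] of the MODULAR block (helper5, DEAL #2).

The per-closed-point inputs `branch` / `trans` of `ModelPlan2.ChartModel` (= the three branch
hypotheses of `LocPlan.CutAtStatement`), in hypothesis form.

* Abstract layer (`Mathlib` + `LocPlan` + `Trans`): rings `S` ("level-`M` chart") and `R`
  ("level-`N` chart"), a ring hom `a : S → R` ("`α`"), an automorphism `e` of `R`
  ("`w_q`"), two ideals `P 0`, `P 1 = e⁻¹ (P 0)` of `R` (the vertical primes).  From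
  (B1) `R = a(S) + P 0`, (Ig) the Igusa shape on `S`, (Fr) `e (a y) ≡ (a r) ^ q` modulo `P 0`
  we get: each branch through a closed point `n` is regular there, and the two branches are
  transversal where they cross.
* Chart layer (`S18.Arith` vocabulary): the same for `R = chart N A K t`, `S` a subalgebra of
  `F_K(M)`, `a` the restriction of a ring hom `F_K(M) → F_K(N)`, `e` the restriction of a ring
  automorphism `w` of `F_K(N)`, and `P` the ideals of a `LocPlan.ChartHyp`.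
-/
import Mathlib
import Fermat.Agent.S18.ArithPlan
import Fermat.Agent.S18.IgusaPtsChart
import Fermat.Agent.S34.LocPlan
import Fermat.Agent.S34.Trans

set_option autoImplicit false

namespace Fermat.Agent.S34.PointHyp

/-! ### Abstract layer -/

section Abstract

variable {R S : Type*} [CommRing R] [CommRing S]

/-- The contraction of a closed point of the branch `P0` to the lower level is a closed point. -/
theorem comap_isMaximal (a : S →+* R) (P0 n : Ideal R) (hn : n.IsMaximal) (h0 : P0 ≤ n)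
    (hB : ∀ x : R, ∃ y : S, x - a y ∈ P0) : (n.comap a).IsMaximal := by
  let _ : Field (R ⧸ n) := Ideal.Quotient.field n
  have hsurj : Function.Surjective ((Ideal.Quotient.mk n).comp a) := by
    intro z
    obtain ⟨x, rfl⟩ := Ideal.Quotient.mk_surjective z
    obtain ⟨y, hy⟩ := hB x
    refine ⟨y, ?_⟩
    rw [RingHom.comp_apply]
    exact (Ideal.Quotient.eq.mpr (h0 hy)).symm
  have hker : RingHom.ker ((Ideal.Quotient.mk n).comp a) = n.comap a := by
    ext y
    rw [RingHom.mem_ker, RingHom.comp_apply, Ideal.Quotient.eq_zero_iff_mem, Ideal.mem_comap]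
  rw [← hker]
  exact RingHom.ker_isMaximal_of_surjective _ hsurj

/-- (gen) At a closed point `n` of the branch `P0`, the image `a t` of an Igusa generator `t` of
the point below generates `n` modulo `P0`, locally at `n`. -/
theorem exists_gen (a : S →+* R) (ϖ : S) (P0 n : Ideal R) (hn : n.IsMaximal) (h0 : P0 ≤ n)
    (hϖ : a ϖ ∈ P0) (hB : ∀ x : R, ∃ y : S, x - a y ∈ P0)
    (hI : ∀ m : Ideal S, m.IsMaximal → ϖ ∈ m →
      ∃ t ∈ m, ∀ x ∈ m, ∃ c : S, c ∉ m ∧ c * x ∈ Ideal.span {ϖ, t}) :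
    ∃ t : S, a t ∈ n ∧ ∀ x ∈ n, ∃ s : R, s ∉ n ∧ ∃ c : R, s * x - c * a t ∈ P0 := by
  have hm : (n.comap a).IsMaximal := comap_isMaximal a P0 n hn h0 hB
  obtain ⟨t, ht, hgen⟩ := hI (n.comap a) hm (Ideal.mem_comap.mpr (h0 hϖ))
  refine ⟨t, Ideal.mem_comap.mp ht, fun x hx => ?_⟩
  obtain ⟨y, hy⟩ := hB x
  have hym : y ∈ n.comap a := by
    rw [Ideal.mem_comap]
    have : a y = x - (x - a y) := by ring
    rw [this]
    exact n.sub_mem hx (h0 hy)
  obtain ⟨c, hc, hcy⟩ := hgen y hym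
  obtain ⟨u, v, huv⟩ := Ideal.mem_span_pair.mp hcy
  refine ⟨a c, fun h => hc (Ideal.mem_comap.mpr h), a v, ?_⟩
  have h1 : a c * a y = a u * a ϖ + a v * a t := by
    rw [← map_mul, ← map_mul, ← map_mul, ← map_add, huv]
  have h2 : a c * x - a v * a t = a c * (x - a y) + a u * a ϖ := by
    linear_combination h1
  rw [h2]
  exact P0.add_mem (P0.mul_mem_left _ hy) (P0.mul_mem_left _ hϖ)

/-- (b0) The branch `P0` is regular of dimension one at each of its closed points. -/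
theorem branch_zero (a : S →+* R) (ϖ : S) (P0 n : Ideal R) (hn : n.IsMaximal) (h0 : P0 ≤ n)
    (hϖ : a ϖ ∈ P0) (hB : ∀ x : R, ∃ y : S, x - a y ∈ P0)
    (hI : ∀ m : Ideal S, m.IsMaximal → ϖ ∈ m →
      ∃ t ∈ m, ∀ x ∈ m, ∃ c : S, c ∉ m ∧ c * x ∈ Ideal.span {ϖ, t}) :
    ∃ u ∈ n, ∀ x ∈ n, ∃ s : R, s ∉ n ∧ ∃ c : R, s * x - c * u ∈ P0 := by
  obtain ⟨t, ht, h⟩ := exists_gen a ϖ P0 n hn h0 hϖ hB hI
  exact ⟨a t, ht, h⟩

/-- (b1) Transport of (b0) along an automorphism `e` of `R`: the branch `e⁻¹ (P0)`. -/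
theorem branch_comap (e : R ≃+* R) (P0 P1 n : Ideal R) (hn : n.IsMaximal)
    (hP1 : ∀ r : R, r ∈ P1 ↔ e r ∈ P0) (h1 : P1 ≤ n)
    (h : ∀ n' : Ideal R, n'.IsMaximal → P0 ≤ n' →
      ∃ u ∈ n', ∀ x ∈ n', ∃ s : R, s ∉ n' ∧ ∃ c : R, s * x - c * u ∈ P0) :
    ∃ u ∈ n, ∀ x ∈ n, ∃ s : R, s ∉ n ∧ ∃ c : R, s * x - c * u ∈ P1 := by
  have hn' : (n.comap (e.symm : R →+* R)).IsMaximal :=
    Ideal.comap_isMaximal_of_surjective (e.symm : R →+* R) e.symm.surjective
  have h0' : P0 ≤ n.comap (e.symm : R →+* R) := by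
    intro x hx
    rw [Ideal.mem_comap]
    apply h1
    rw [hP1]
    simpa using hx
  obtain ⟨u', hu', hgen⟩ := h _ hn' h0'
  refine ⟨e.symm u', by simpa [Ideal.mem_comap] using hu', fun x hx => ?_⟩
  have hex : e x ∈ n.comap (e.symm : R →+* R) := by
    rw [Ideal.mem_comap]
    simpa using hx
  obtain ⟨s', hs', c', hc'⟩ := hgen (e x) hex
  refine ⟨e.symm s', fun hs => hs' (by simpa [Ideal.mem_comap] using hs), e.symm c', ?_⟩
  rw [hP1]
  simpa using hc'

/-- (tr) Transversality of the two branches at a crossing point, from the Frobenius congruence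
`a t ≡ r ^ q` modulo `P1`. -/
theorem trans_of (a : S →+* R) (ϖ : S) (P0 P1 n : Ideal R) (q : ℕ) (hq : 2 ≤ q)
    (hn : n.IsMaximal) (h0 : P0 ≤ n) (h1 : P1 ≤ n) (hϖ : a ϖ ∈ P0)
    (hB : ∀ x : R, ∃ y : S, x - a y ∈ P0)
    (hI : ∀ m : Ideal S, m.IsMaximal → ϖ ∈ m →
      ∃ t ∈ m, ∀ x ∈ m, ∃ c : S, c ∉ m ∧ c * x ∈ Ideal.span {ϖ, t})
    (hF : ∀ t : S, ∃ r : R, a t - r ^ q ∈ P1) :
    ∀ x ∈ n, ∃ s : R, s ∉ n ∧ s * x ∈ P0 ⊔ P1 := by
  obtain ⟨t, ht, hgen⟩ := exists_gen a ϖ P0 n hn h0 hϖ hB hI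
  have : n.IsPrime := hn.isPrime
  refine Trans.trans P0 P1 n (a t) h1 hgen ?_
  obtain ⟨r, hr⟩ := hF t
  have hrq : r ^ q ∈ n := by
    have : r ^ q = a t - (a t - r ^ q) := by ring
    rw [this]
    exact n.sub_mem ht (h1 hr)
  have hrn : r ∈ n := hn.isPrime.mem_of_pow_mem q hrq
  obtain ⟨k, rfl⟩ : ∃ k, q = 2 + k := ⟨q - 2, by omega⟩
  refine ⟨1, (Ideal.ne_top_iff_one n).mp hn.ne_top, ?_⟩
  have : 1 * a t = r * r * r ^ k + (a t - r ^ (2 + k)) := by ring
  rw [this]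
  exact Ideal.add_mem _
    (Ideal.mem_sup_left (Ideal.mul_mem_right _ _ (Ideal.mul_mem_mul hrn hrn)))
    (Ideal.mem_sup_right hr)

end Abstract

/-! ### Chart layer (`S18.Arith` vocabulary, any level, any automorphism, any coordinate) -/

section Chart

open Fermat.Agent.S18.Arith

variable (N M : ℕ) (A : ValuationSubring Qb) (K : IntermediateField ℚ Qb)

/-- The restriction of a ring automorphism `w` of `F_K(N)` to a `w`-stable subalgebra. -/
noncomputable def restrictEquiv (R : Subalgebra (OK A K) (FK N K)) (w : FK N K ≃+* FK N K)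
    (h : ∀ x ∈ R, w x ∈ R) (h' : ∀ x ∈ R, w.symm x ∈ R) : R ≃+* R where
  toFun x := ⟨w x, h x x.2⟩
  invFun x := ⟨w.symm x, h' x x.2⟩
  left_inv x := Subtype.ext (w.symm_apply_apply x)
  right_inv x := Subtype.ext (w.apply_symm_apply x)
  map_mul' x y := Subtype.ext (map_mul w (x : FK N K) (y : FK N K))
  map_add' x y := Subtype.ext (map_add w (x : FK N K) (y : FK N K))

/-- The restriction of a ring hom `F_K(M) → F_K(N)` to subalgebras. -/
noncomputable def restrictHom (RM : Subalgebra (OK A K) (FK M K)) (R : Subalgebra (OK A K) (FK N K))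
    (al : FK M K →+* FK N K) (hmap : ∀ y ∈ RM, al y ∈ R) : RM →+* R :=
  (al.comp RM.val.toRingHom).codRestrict R (fun y => hmap y y.2)

variable {N M A K}

/-- **[PointHyp], generic form.**  Let `R = chart N A K t` with vertical ideals `P` as in
`LocPlan.ChartHyp π V P`, `RM` a subalgebra of `F_K(M)` with the Igusa property, `al : F_K(M) →
F_K(N)` an `O`-linear ring hom mapping `RM` into `R`, and `w` a ring automorphism of `F_K(N)`
fixing `O`, stabilising `R`, with `V 1 = w⁻¹ (V 0)`.  Assume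
* (B1) `R = al(RM) + π V 0`;
* (Fr) `w (al y) ≡ (al r) ^ q` modulo `π V 0` for some `r ∈ RM` (every `y ∈ RM`), `q ≥ 2`;
* (ne) `t - c ∉ π (V i)` for all constants `c : O`.
Then the fields `branch` and `trans` of `ModelPlan2.ChartModel` hold for `R`. -/
theorem branch_trans [IsDiscreteValuationRing (OK A K)]
    [IsAlgClosed (IsLocalRing.ResidueField (OK A K))]
    (π : OK A K) (hπ : Irreducible π) (q : ℕ) (hq : 2 ≤ q) (t : FK N K)
    (RM : Subalgebra (OK A K) (FK M K))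
    (V : Fin 2 → ValuationSubring (FK N K)) (P : Fin 2 → Ideal (chart N A K t))
    (hyp : LocPlan.ChartHyp π V P)
    (al : FK M K →+* FK N K)
    (hal : ∀ c : OK A K, al (algebraMap (OK A K) (FK M K) c) = algebraMap (OK A K) (FK N K) c)
    (hmap : ∀ y ∈ RM, al y ∈ chart N A K t)
    (w : FK N K ≃+* FK N K)
    (hwO : ∀ c : OK A K, w (algebraMap (OK A K) (FK N K) c) = algebraMap (OK A K) (FK N K) c)
    (hwR : ∀ x ∈ chart N A K t, w x ∈ chart N A K t)
    (hwR' : ∀ x ∈ chart N A K t, w.symm x ∈ chart N A K t)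
    (hV : ∀ x : FK N K, x ∈ V 1 ↔ w x ∈ V 0)
    (hB : ∀ x ∈ chart N A K t, ∃ y ∈ RM, ∃ v ∈ V 0,
      x - al y = algebraMap (OK A K) (FK N K) π * v)
    (hI : IgusaAt M A K RM)
    (hF : ∀ y ∈ RM, ∃ r ∈ RM, ∃ v ∈ V 0,
      w (al y) - al r ^ q = algebraMap (OK A K) (FK N K) π * v)
    (hne : ∀ (c : OK A K) (i : Fin 2), ¬ ∃ v ∈ V i,
      t - algebraMap (OK A K) (FK N K) c = algebraMap (OK A K) (FK N K) π * v) :
    (∀ n : Ideal (chart N A K t), n.IsMaximal →
        algebraMap (OK A K) (chart N A K t) π ∈ n → ∀ i : Fin 2, P i ≤ n →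
        (∃ x ∈ n, x ∉ P i) ∧
          ∃ u ∈ n, ∀ x ∈ n, ∃ s : chart N A K t, s ∉ n ∧
            ∃ c : chart N A K t, s * x - c * u ∈ P i) ∧
    (∀ n : Ideal (chart N A K t), n.IsMaximal →
        algebraMap (OK A K) (chart N A K t) π ∈ n → P 0 ≤ n → P 1 ≤ n →
        ∀ x ∈ n, ∃ s : chart N A K t, s ∉ n ∧ s * x ∈ P 0 ⊔ P 1) := by
  classical
  -- the restricted maps
  set a : RM →+* chart N A K t := restrictHom N M A K RM (chart N A K t) al hmap with ha
  set e : chart N A K t ≃+* chart N A K t :=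
    restrictEquiv N A K (chart N A K t) w hwR hwR' with he
  have ha_coe : ∀ y : RM, ((a y : chart N A K t) : FK N K) = al (y : FK M K) := fun _ => rfl
  have he_coe : ∀ x : chart N A K t, ((e x : chart N A K t) : FK N K) = w (x : FK N K) :=
    fun _ => rfl
  have hes_coe : ∀ x : chart N A K t,
      ((e.symm x : chart N A K t) : FK N K) = w.symm (x : FK N K) := fun _ => rfl
  -- membership in `P i`
  have hmem : ∀ (i : Fin 2) (r : chart N A K t),
      r ∈ P i ↔ ∃ y ∈ V i, (r : FK N K) = algebraMap (OK A K) (FK N K) π * y :=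
    fun i r => hyp.mem_P i r
  set ϖ : RM := algebraMap (OK A K) RM π with hϖdef
  have haϖ : a ϖ = algebraMap (OK A K) (chart N A K t) π := Subtype.ext (hal π)
  have hϖ0 : a ϖ ∈ P 0 := by
    rw [haϖ, hmem]
    exact ⟨1, (V 0).one_mem, (mul_one _).symm⟩
  have hP1 : ∀ r : chart N A K t, r ∈ P 1 ↔ e r ∈ P 0 := by
    intro r
    rw [hmem, hmem]
    constructor
    · rintro ⟨y, hy, hr⟩
      refine ⟨w y, (hV y).mp hy, ?_⟩
      rw [he_coe, hr, map_mul, hwO]
    · rintro ⟨y, hy, hr⟩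
      refine ⟨w.symm y, (hV _).mpr (by rwa [RingEquiv.apply_symm_apply]), ?_⟩
      rw [he_coe] at hr
      have h2 : (r : FK N K) = w.symm (algebraMap (OK A K) (FK N K) π * y) := by
        rw [← hr, RingEquiv.symm_apply_apply]
      rw [h2, map_mul]
      congr 1
      rw [RingEquiv.symm_apply_eq, hwO]
  have hB' : ∀ x : chart N A K t, ∃ y : RM, x - a y ∈ P 0 := by
    intro x
    obtain ⟨y, hy, v, hv, hxy⟩ := hB x x.2
    refine ⟨⟨y, hy⟩, ?_⟩
    rw [hmem]
    exact ⟨v, hv, hxy⟩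
  have hI' : ∀ m : Ideal RM, m.IsMaximal → ϖ ∈ m →
      ∃ t' ∈ m, ∀ x ∈ m, ∃ c : RM, c ∉ m ∧ c * x ∈ Ideal.span {ϖ, t'} :=
    fun m hm hϖm => hI π hπ m hm hϖm
  have hF' : ∀ y : RM, ∃ r : chart N A K t, a y - r ^ q ∈ P 1 := by
    intro y
    obtain ⟨r, hr, v, hv, hyr⟩ := hF y y.2
    refine ⟨e.symm (a ⟨r, hr⟩), ?_⟩
    rw [hP1, hmem]
    refine ⟨v, hv, ?_⟩
    rw [he_coe]
    push_cast
    rw [map_sub, map_pow, hes_coe, RingEquiv.apply_symm_apply, ha_coe, ha_coe]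
    exact hyr
  have hpt : ∀ n : Ideal (chart N A K t), n.IsMaximal →
      algebraMap (OK A K) (chart N A K t) π ∈ n → ∀ i : Fin 2, ∃ x ∈ n, x ∉ P i := by
    intro n hn hπn i
    obtain ⟨c, hc⟩ := Fermat.Agent.S18.IgusaPtsChart.exists_coord_sub_mem N A K t π hπ n hn hπn
    refine ⟨_, hc, fun hmemP => hne c i ?_⟩
    obtain ⟨v, hv, hval⟩ := (hmem i _).mp hmemP
    exact ⟨v, hv, hval⟩
  have hb0 : ∀ n' : Ideal (chart N A K t), n'.IsMaximal → P 0 ≤ n' →
      ∃ u ∈ n', ∀ x ∈ n', ∃ s : chart N A K t, s ∉ n' ∧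
        ∃ c : chart N A K t, s * x - c * u ∈ P 0 :=
    fun n' hn' h0 => branch_zero a ϖ (P 0) n' hn' h0 hϖ0 hB' hI'
  refine ⟨?_, ?_⟩
  · intro n hn hπn i hi
    refine ⟨hpt n hn hπn i, ?_⟩
    fin_cases i
    · exact hb0 n hn hi
    · exact branch_comap e (P 0) (P 1) n hn hP1 hi hb0
  · intro n hn _ h0 h1
    exact trans_of a ϖ (P 0) (P 1) n q hq hn h0 h1 hϖ0 hB' hI' hF'

end Chart

end Fermat.Agent.S34.PointHyp
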