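/-
S34 — PointInst.lean (helper69), row [PointHyp] of the MODULAR block, closed form at level
`N = M q`: the fields `branch` / `trans` of `ModelPlan2.ChartModel` for a `w_q`-stable chart
`chart (M q) A K t`, with `V = ![V1, V2 = w_q⁻¹ V1]` (GaussV), `w_q = WK.wK`, `α = WK.alphaK`.

Inputs, in the shapes delivered by the other rows:
* (B1) `∀ x ∈ chart, ∃ x' ∈ RM, GRel A (x - x') 0`                    (`Branch.exists_level`);
* (Fr) `∀ x ∈ RM, ∃ r ∈ RM, GRel A (x(Q^q) - r ^ q) 0`                  (FrobTwist / FrobD);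
* (Ig) `IgusaAt M A K RM`                                              (S18 at level `M`);
* chart side: `α(RM) ⊆ chart`, `w_q (chart) ⊆ chart`, `w_q t = t`, and the reduction of `t` is
  not a constant.
-/
import Mathlib
import Fermat.Agent.S18.IgusaStmt
import Fermat.Agent.S18.ModelAll
import Fermat.Agent.S18.ResOKEquiv
import Fermat.Agent.S34.PointHyp
import Fermat.Agent.S34.GaussV
import Fermat.Agent.S34.WK

set_option autoImplicit false

namespace Fermat.Agent.S34.PointInst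

open ModularCurve HahnSeries Fermat.Agent.S18 Fermat.Agent.S18.Arith Fermat.Agent.S18.ModelPlan

section Gen

variable {N : ℕ} [NeZero N] {A : ValuationSubring Qb} {K : IntermediateField ℚ Qb}

/-- An element of `F_K` with Gauss reduction `0` lies in `π V1`. -/
theorem exists_eq_pi_mul_of_gRel_zero (hdvr : IsDiscreteValuationRing (OK A K)) {π : OK A K}
    (hπ : Irreducible π) {z : FK N K} (h : GRel A ((z : FK N K) : LaurentSeries Qb) 0) :
    ∃ v ∈ GaussV.V1 N A K hdvr, z = algebraMap (OK A K) (FK N K) π * v := by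
  have hz : z ∈ GaussV.V1 N A K hdvr := (GaussV.mem_V1_iff hdvr).mpr ⟨0, h⟩
  have h0 : GaussV.red1 hdvr ⟨z, hz⟩ = 0 := GaussV.red1_eq_of_gRel hdvr ⟨z, hz⟩ h
  exact (GaussV.red1_eq_zero_iff hdvr hπ ⟨z, hz⟩).mp h0

/-- An element of `π V1` has Gauss reduction `0`. -/
theorem gRel_zero_of_eq_pi_mul (hdvr : IsDiscreteValuationRing (OK A K)) {π : OK A K}
    (hπ : Irreducible π) {z v : FK N K} (hv : v ∈ GaussV.V1 N A K hdvr)
    (h : z = algebraMap (OK A K) (FK N K) π * v) :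
    GRel A ((z : FK N K) : LaurentSeries Qb) 0 := by
  have hG := GRel.gRelStatement A
  obtain ⟨y, hy⟩ := (GaussV.mem_V1_iff hdvr).mp hv
  have h1 := hG.mul _ _ _ _ (ModelRed.gRel_pi hG π hπ.not_isUnit) hy
  rw [zero_mul] at h1
  rw [h]
  exact h1

end Gen

section Inst

variable (M q : ℕ) [NeZero M] [NeZero q] (hq : q.Prime) (hqM : ¬ q ∣ M)
variable {A : ValuationSubring Qb} {K : IntermediateField ℚ Qb}

/-- **[PointHyp], closed form at level `M q`.**  The fields `branch` and `trans` of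
`ModelPlan2.ChartModel` for the chart `chart (M q) A K t`. -/
theorem branch_trans (hdvr : IsDiscreteValuationRing (OK A K))
    (hac : IsAlgClosed (IsLocalRing.ResidueField (OK A K)))
    (π : OK A K) (hπ : Irreducible π) (t : FK (M * q) K)
    (RM : Subalgebra (OK A K) (FK M K)) (hI : IgusaAt M A K RM)
    (P : Fin 2 → Ideal (chart (M * q) A K t))
    (hyp : LocPlan.ChartHyp π
      ![GaussV.V1 (M * q) A K hdvr, GaussV.V2 (WK.wK M q hq hqM K) hdvr] P)
    (hmap : ∀ y ∈ RM, WK.alphaK M q K y ∈ chart (M * q) A K t)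
    (hwR : ∀ x ∈ chart (M * q) A K t, WK.wK M q hq hqM K x ∈ chart (M * q) A K t)
    (hwt : WK.wK M q hq hqM K t = t)
    (yt : LaurentSeries (IsLocalRing.ResidueField A))
    (hyt : GRel A ((t : FK (M * q) K) : LaurentSeries Qb) yt)
    (hnc : ∀ c : OK A K, yt ≠ C (resO A K c))
    (hBr : ∀ x ∈ chart (M * q) A K t, ∃ x' ∈ RM,
      GRel A (((x : FK (M * q) K) : LaurentSeries Qb) - ((x' : FK M K) : LaurentSeries Qb)) 0)
    (hFr : ∀ x ∈ RM, ∃ r ∈ RM,
      GRel A (qExpand Qb q ((x : FK M K) : LaurentSeries Qb)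
        - ((r : FK M K) : LaurentSeries Qb) ^ q) 0) :
    (∀ n : Ideal (chart (M * q) A K t), n.IsMaximal →
        algebraMap (OK A K) (chart (M * q) A K t) π ∈ n → ∀ i : Fin 2, P i ≤ n →
        (∃ x ∈ n, x ∉ P i) ∧
          ∃ u ∈ n, ∀ x ∈ n, ∃ s : chart (M * q) A K t, s ∉ n ∧
            ∃ c : chart (M * q) A K t, s * x - c * u ∈ P i) ∧
    (∀ n : Ideal (chart (M * q) A K t), n.IsMaximal →
        algebraMap (OK A K) (chart (M * q) A K t) π ∈ n → P 0 ≤ n → P 1 ≤ n →
        ∀ x ∈ n, ∃ s : chart (M * q) A K t, s ∉ n ∧ s * x ∈ P 0 ⊔ P 1) := by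
  have hG := GRel.gRelStatement A
  have := hdvr
  have := hac
  set w := WK.wK M q hq hqM K with hw
  -- `t - c ∉ π V1`
  have hne0 : ∀ c : OK A K, ¬ ∃ v ∈ GaussV.V1 (M * q) A K hdvr,
      t - algebraMap (OK A K) (FK (M * q) K) c = algebraMap (OK A K) (FK (M * q) K) π * v := by
    rintro c ⟨v, hv, hval⟩
    have h0 := gRel_zero_of_eq_pi_mul hdvr hπ hv hval
    have h1 : GRel A (((t - algebraMap (OK A K) (FK (M * q) K) c : FK (M * q) K)) :
        LaurentSeries Qb) (yt - C (resO A K c)) := by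
      have h2 := hG.add _ _ _ _ hyt (hG.neg _ _ (ModelRed.gRel_const K hG c))
      rw [← sub_eq_add_neg, ← sub_eq_add_neg] at h2
      exact h2
    have h3 := hG.unique _ _ _ h1 h0
    exact hnc c (sub_eq_zero.mp h3)
  refine PointHyp.branch_trans (N := M * q) (M := M) π hπ q hq.two_le t RM
    ![GaussV.V1 (M * q) A K hdvr, GaussV.V2 w hdvr] P hyp (WK.alphaK M q K)
    (fun c => WK.alphaK_constK M q K (c : K)) hmap w
    (fun c => WK.wK_algebraMap_OK M q hq hqM K A c) hwR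
    (fun x hx => by rw [hw, WK.wK_symm]; exact hwR x hx)
    (fun _ => Iff.rfl) ?_ hI ?_ ?_
  · -- (B1)
    intro x hx
    obtain ⟨x', hx', hrel⟩ := hBr x hx
    exact ⟨x', hx', exists_eq_pi_mul_of_gRel_zero hdvr hπ
      (z := x - WK.alphaK M q K x') hrel⟩
  · -- (Fr)
    intro y hy
    obtain ⟨r, hr, hrel⟩ := hFr y hy
    refine ⟨r, hr, exists_eq_pi_mul_of_gRel_zero hdvr hπ
      (z := w (WK.alphaK M q K y) - WK.alphaK M q K r ^ q) ?_⟩
    have hc : (((w (WK.alphaK M q K y) - WK.alphaK M q K r ^ q : FK (M * q) K)) :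
        LaurentSeries Qb) = qExpand Qb q ((y : FK M K) : LaurentSeries Qb)
          - ((r : FK M K) : LaurentSeries Qb) ^ q := by
      have h1 : ((w (WK.alphaK M q K y) : FK (M * q) K) : LaurentSeries Qb)
          = qExpand Qb q ((y : FK M K) : LaurentSeries Qb) := WK.coe_betaK M q hq hqM K y
      have h2 : ((WK.alphaK M q K r : FK (M * q) K) : LaurentSeries Qb)
          = ((r : FK M K) : LaurentSeries Qb) := WK.coe_alphaK M q K r
      push_cast
      rw [h1, h2]
    rw [hc]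
    exact hrel
  · -- (ne)
    intro c i
    fin_cases i
    · exact hne0 c
    · rintro ⟨v, hv, hval⟩
      refine hne0 c ⟨w v, hv, ?_⟩
      have h1 := congrArg w hval
      rw [map_sub, map_mul, hwt, WK.wK_algebraMap_OK, WK.wK_algebraMap_OK] at h1
      exact h1

/-- **[PointHyp]** for a chart lying over the level-`M` chart `R0 M q A K` (e.g. `t = J`):
(Ig) and the algebraic closedness of the residue field are discharged from S18. -/
theorem branch_trans_R0 [Fact q.Prime] (hA : A.LiesOverPrime q) (hB : BaseFacts q A K)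
    (π : OK A K) (hπ : Irreducible π) (t : FK (M * q) K)
    (P : Fin 2 → Ideal (chart (M * q) A K t))
    (hyp : LocPlan.ChartHyp π
      ![GaussV.V1 (M * q) A K hB.dvr, GaussV.V2 (WK.wK M q hq hqM K) hB.dvr] P)
    (hmap : ∀ y ∈ R0 M q A K, WK.alphaK M q K y ∈ chart (M * q) A K t)
    (hwR : ∀ x ∈ chart (M * q) A K t, WK.wK M q hq hqM K x ∈ chart (M * q) A K t)
    (hwt : WK.wK M q hq hqM K t = t)
    (yt : LaurentSeries (IsLocalRing.ResidueField A))
    (hyt : GRel A ((t : FK (M * q) K) : LaurentSeries Qb) yt)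
    (hnc : ∀ c : OK A K, yt ≠ C (resO A K c))
    (hBr : ∀ x ∈ chart (M * q) A K t, ∃ x' ∈ R0 M q A K,
      GRel A (((x : FK (M * q) K) : LaurentSeries Qb) - ((x' : FK M K) : LaurentSeries Qb)) 0)
    (hFr : ∀ x ∈ R0 M q A K, ∃ r ∈ R0 M q A K,
      GRel A (qExpand Qb q ((x : FK M K) : LaurentSeries Qb)
        - ((r : FK M K) : LaurentSeries Qb) ^ q) 0) :
    (∀ n : Ideal (chart (M * q) A K t), n.IsMaximal →
        algebraMap (OK A K) (chart (M * q) A K t) π ∈ n → ∀ i : Fin 2, P i ≤ n →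
        (∃ x ∈ n, x ∉ P i) ∧
          ∃ u ∈ n, ∀ x ∈ n, ∃ s : chart (M * q) A K t, s ∉ n ∧
            ∃ c : chart (M * q) A K t, s * x - c * u ∈ P i) ∧
    (∀ n : Ideal (chart (M * q) A K t), n.IsMaximal →
        algebraMap (OK A K) (chart (M * q) A K t) π ∈ n → P 0 ≤ n → P 1 ≤ n →
        ∀ x ∈ n, ∃ s : chart (M * q) A K t, s ∉ n ∧ s * x ∈ P 0 ⊔ P 1) :=
  branch_trans M q hq hqM hB.dvr (ResOK.isAlgClosed_residueField_OK q A K hB) π hπ t
    (R0 M q A K)
    (IgusaStmt.igusaStatement M q hqM A hA K hB (ModelAll.modelStatement M q hqM A hA K hB)).1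
    P hyp hmap hwR hwt yt hyt hnc hBr hFr

/-- **[PointHyp]** for a chart lying over the level-`M` chart `Rinf M q A K` (e.g. `t = J⁻¹`). -/
theorem branch_trans_Rinf [Fact q.Prime] (hA : A.LiesOverPrime q) (hB : BaseFacts q A K)
    (π : OK A K) (hπ : Irreducible π) (t : FK (M * q) K)
    (P : Fin 2 → Ideal (chart (M * q) A K t))
    (hyp : LocPlan.ChartHyp π
      ![GaussV.V1 (M * q) A K hB.dvr, GaussV.V2 (WK.wK M q hq hqM K) hB.dvr] P)
    (hmap : ∀ y ∈ Rinf M q A K, WK.alphaK M q K y ∈ chart (M * q) A K t)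
    (hwR : ∀ x ∈ chart (M * q) A K t, WK.wK M q hq hqM K x ∈ chart (M * q) A K t)
    (hwt : WK.wK M q hq hqM K t = t)
    (yt : LaurentSeries (IsLocalRing.ResidueField A))
    (hyt : GRel A ((t : FK (M * q) K) : LaurentSeries Qb) yt)
    (hnc : ∀ c : OK A K, yt ≠ C (resO A K c))
    (hBr : ∀ x ∈ chart (M * q) A K t, ∃ x' ∈ Rinf M q A K,
      GRel A (((x : FK (M * q) K) : LaurentSeries Qb) - ((x' : FK M K) : LaurentSeries Qb)) 0)
    (hFr : ∀ x ∈ Rinf M q A K, ∃ r ∈ Rinf M q A K,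
      GRel A (qExpand Qb q ((x : FK M K) : LaurentSeries Qb)
        - ((r : FK M K) : LaurentSeries Qb) ^ q) 0) :
    (∀ n : Ideal (chart (M * q) A K t), n.IsMaximal →
        algebraMap (OK A K) (chart (M * q) A K t) π ∈ n → ∀ i : Fin 2, P i ≤ n →
        (∃ x ∈ n, x ∉ P i) ∧
          ∃ u ∈ n, ∀ x ∈ n, ∃ s : chart (M * q) A K t, s ∉ n ∧
            ∃ c : chart (M * q) A K t, s * x - c * u ∈ P i) ∧
    (∀ n : Ideal (chart (M * q) A K t), n.IsMaximal →
        algebraMap (OK A K) (chart (M * q) A K t) π ∈ n → P 0 ≤ n → P 1 ≤ n →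
        ∀ x ∈ n, ∃ s : chart (M * q) A K t, s ∉ n ∧ s * x ∈ P 0 ⊔ P 1) :=
  branch_trans M q hq hqM hB.dvr (ResOK.isAlgClosed_residueField_OK q A K hB) π hπ t
    (Rinf M q A K)
    (IgusaStmt.igusaStatement M q hqM A hA K hB (ModelAll.modelStatement M q hqM A hA K hB)).2
    P hyp hmap hwR hwt yt hyt hnc hBr hFr

omit [NeZero M] in
/-- Conversion of the `FrobD` shape of (Fr) into the shape consumed above: if the reduction
ring of `RM` is stable under "inverse coefficient Frobenius" in the sense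
`∀ x ∈ RM, GRel A x y → ∃ r ∈ RM, ∃ y', GRel A r y' ∧ y' ^ q = y(Q^q)`, then
`x(Q^q) ≡ r ^ q` modulo the Gauss maximal ideal. -/
theorem frob_of_lift (RM : Subalgebra (OK A K) (FK M K))
    (hle : ∀ x ∈ RM, ∃ y, GRel A ((x : FK M K) : LaurentSeries Qb) y)
    (hlift : ∀ x ∈ RM, ∀ y, GRel A ((x : FK M K) : LaurentSeries Qb) y →
      ∃ r ∈ RM, ∃ y', GRel A ((r : FK M K) : LaurentSeries Qb) y' ∧
        y' ^ q = qExpand (IsLocalRing.ResidueField A) q y) :
    ∀ x ∈ RM, ∃ r ∈ RM,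
      GRel A (qExpand Qb q ((x : FK M K) : LaurentSeries Qb)
        - ((r : FK M K) : LaurentSeries Qb) ^ q) 0 := by
  have hG := GRel.gRelStatement A
  intro x hx
  obtain ⟨y, hy⟩ := hle x hx
  obtain ⟨r, hr, y', hy', hpow⟩ := hlift x hx y hy
  refine ⟨r, hr, ?_⟩
  -- Gauss reduction commutes with `Q ↦ Q ^ q`
  have h1 : GRel A (qExpand Qb q ((x : FK M K) : LaurentSeries Qb))
      (qExpand (IsLocalRing.ResidueField A) q y) := by
    obtain ⟨u, p, hu, hxu, hp⟩ := hy
    refine ⟨qExpand A q u, qExpand A q p, ?_, ?_, ?_⟩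
    · rw [coeffMap_qExpand, hu, map_one]
    · rw [coeffMap_qExpand, coeffMap_qExpand, ← map_mul, hxu]
    · rw [coeffMap_qExpand, hp]
  have h2 := ModelRed.gRel_pow hG hy' q
  have h3 := hG.add _ _ _ _ h1 (hG.neg _ _ h2)
  rw [← sub_eq_add_neg, ← sub_eq_add_neg, hpow, sub_self] at h3
  exact h3

end Inst

end Fermat.Agent.S34.PointInst
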