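/-
S34 — Model2PtsB.lean (helper88, shadow integrator of the "points" fields).

The three point-fields `branch`, `trans`, `hor` of `ModelPlan2.ChartModel` for the two symmetric
charts `chart J`, `chart J⁻¹` of level `M q` (`J = j * j_q = WKInst.JK`), with
`V = ![V1, V2 = w_q⁻¹ V1]` (`ChartHypInst.Vfam (WK.wK …)`), for ANY family `P` of vertical primes
satisfying `LocPlan.ChartHyp`:

* `branch_trans_JK`, `branch_trans_JK_inv` : `branch ∧ trans` (from PointInst + BranchB +
  FrobTwist + WKInst, everything discharged);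
* `ptsStatement : Model2AsmB.PtsStatement M q hq hqM m` : the closed statement consumed by the
  assembly `Model2AsmB` of `ModelPlan2.Model2`: for `f ≠ 0` with `m ∣ div f` there is a finite
  set `S` of constants such that over every base `K ⊇ S` with `BaseFacts q A K`, both symmetric
  charts satisfy `branch ∧ trans ∧ hor` (`hor` from `HorInstB.exists_finset_chart_hor`);
* `hModel` : the modular block closed, `∀ M q m, q.Prime → ¬ q ∣ M → ¬ q ∣ m →
  ModelPlan2.Model2Statement (M * q) q m` = the single hypothesis of `UModel.s34_of_modular`.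
-/
import Mathlib
import Fermat.Agent.S34.ModelPlan2
import Fermat.Agent.S34.Model2AsmB
import Fermat.Agent.S34.PointInst
import Fermat.Agent.S34.BranchB
import Fermat.Agent.S34.FrobTwist
import Fermat.Agent.S34.WKInst
import Fermat.Agent.S34.ChartHypInst
import Fermat.Agent.S34.HorInstB

set_option autoImplicit false

namespace Fermat.Agent.S34.Model2PtsB

open ModularCurve AlgebraicCurve HahnSeries Fermat.Agent.S18 Fermat.Agent.S18.Arith
  Fermat.Agent.S18.ModelPlan

variable (M q : ℕ) [NeZero M] [NeZero q] (hq : q.Prime) (hqM : ¬ q ∣ M)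
variable {A : ValuationSubring Qb} {K : IntermediateField ℚ Qb}

/-- **`branch ∧ trans` on `chart J`.** -/
theorem branch_trans_JK (hA : A.LiesOverPrime q) (hB : BaseFacts q A K)
    (π : OK A K) (hπ : Irreducible π)
    (P : Fin 2 → Ideal (chart (M * q) A K (WKInst.JK M q hq hqM K)))
    (hyp : LocPlan.ChartHyp π (ChartHypInst.Vfam (WK.wK M q hq hqM K) hB.dvr) P) :
    (∀ n : Ideal (chart (M * q) A K (WKInst.JK M q hq hqM K)), n.IsMaximal →
        algebraMap (OK A K) (chart (M * q) A K (WKInst.JK M q hq hqM K)) π ∈ n →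
        ∀ i : Fin 2, P i ≤ n →
        (∃ x ∈ n, x ∉ P i) ∧
          ∃ u ∈ n, ∀ x ∈ n, ∃ s : chart (M * q) A K (WKInst.JK M q hq hqM K), s ∉ n ∧
            ∃ c : chart (M * q) A K (WKInst.JK M q hq hqM K), s * x - c * u ∈ P i) ∧
    (∀ n : Ideal (chart (M * q) A K (WKInst.JK M q hq hqM K)), n.IsMaximal →
        algebraMap (OK A K) (chart (M * q) A K (WKInst.JK M q hq hqM K)) π ∈ n →
        P 0 ≤ n → P 1 ≤ n →
        ∀ x ∈ n, ∃ s : chart (M * q) A K (WKInst.JK M q hq hqM K), s ∉ n ∧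
          s * x ∈ P 0 ⊔ P 1) := by
  have : Fact q.Prime := ⟨hq⟩
  exact PointInst.branch_trans_R0 M q hq hqM hA hB π hπ (WKInst.JK M q hq hqM K) P hyp
    (fun y hy => WKInst.alphaK_mem_chart_JK M q hq hqM A K hy)
    (fun x hx => WKInst.wK_mem_chart_JK M q hq hqM A K hx)
    (WKInst.wK_JK M q hq hqM K)
    (jqModC (IsLocalRing.ResidueField A) * jqModC (IsLocalRing.ResidueField A) ^ q)
    (BranchB.gRel_JK M q hq hqM K hA)
    (fun c => BranchB.red_JK_ne_const q K c)
    (fun x hx => BranchB.b1_JK M q hq hqM K hA hB x hx)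
    (fun x hx => FrobTwist.exists_frob_root_R0 M q hqM hA hB x hx)

/-- **`branch ∧ trans` on `chart J⁻¹`.** -/
theorem branch_trans_JK_inv (hA : A.LiesOverPrime q) (hB : BaseFacts q A K)
    (π : OK A K) (hπ : Irreducible π)
    (P : Fin 2 → Ideal (chart (M * q) A K (WKInst.JK M q hq hqM K)⁻¹))
    (hyp : LocPlan.ChartHyp π (ChartHypInst.Vfam (WK.wK M q hq hqM K) hB.dvr) P) :
    (∀ n : Ideal (chart (M * q) A K (WKInst.JK M q hq hqM K)⁻¹), n.IsMaximal →
        algebraMap (OK A K) (chart (M * q) A K (WKInst.JK M q hq hqM K)⁻¹) π ∈ n →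
        ∀ i : Fin 2, P i ≤ n →
        (∃ x ∈ n, x ∉ P i) ∧
          ∃ u ∈ n, ∀ x ∈ n, ∃ s : chart (M * q) A K (WKInst.JK M q hq hqM K)⁻¹, s ∉ n ∧
            ∃ c : chart (M * q) A K (WKInst.JK M q hq hqM K)⁻¹, s * x - c * u ∈ P i) ∧
    (∀ n : Ideal (chart (M * q) A K (WKInst.JK M q hq hqM K)⁻¹), n.IsMaximal →
        algebraMap (OK A K) (chart (M * q) A K (WKInst.JK M q hq hqM K)⁻¹) π ∈ n →
        P 0 ≤ n → P 1 ≤ n →
        ∀ x ∈ n, ∃ s : chart (M * q) A K (WKInst.JK M q hq hqM K)⁻¹, s ∉ n ∧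
          s * x ∈ P 0 ⊔ P 1) := by
  have : Fact q.Prime := ⟨hq⟩
  exact PointInst.branch_trans_Rinf M q hq hqM hA hB π hπ (WKInst.JK M q hq hqM K)⁻¹ P hyp
    (fun y hy => WKInst.alphaK_mem_chart_JK_inv M q hq hqM A K hy)
    (fun x hx => WKInst.wK_mem_chart_JK_inv M q hq hqM A K hx)
    (WKInst.wK_JK_inv M q hq hqM K)
    (jqModC (IsLocalRing.ResidueField A) * jqModC (IsLocalRing.ResidueField A) ^ q)⁻¹
    (BranchB.gRel_JK_inv M q hq hqM K hA)
    (fun c => BranchB.red_JK_inv_ne_const q K c)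
    (fun x hx => BranchB.b1_JK_inv M q hq hqM K hA hB x hx)
    (fun x hx => FrobTwist.exists_frob_root_Rinf M q hqM hA hB x hx)

/-- **[Pts], closed**: the points statement of the assembly `Model2AsmB`. -/
theorem ptsStatement (m : ℕ) : Model2AsmB.PtsStatement M q hq hqM m := by
  intro A hA f hf hdiv
  obtain ⟨S, hS⟩ := HorInstB.exists_finset_chart_hor (M * q) m f hf hdiv
  refine ⟨S, fun K hK hB π hπ fK hfK R hR hR1 hR2 _ P hyp => ?_⟩
  have hhor := hS K hK A hB.dvr π hπ fK hfK R hR1 hR2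
  rcases hR with rfl | rfl
  · obtain ⟨h1, h2⟩ := branch_trans_JK M q hq hqM hA hB π hπ P hyp
    exact ⟨h1, h2, hhor⟩
  · obtain ⟨h1, h2⟩ := branch_trans_JK_inv M q hq hqM hA hB π hπ P hyp
    exact ⟨h1, h2, hhor⟩

/-- **[Model2], closed**: the modular block, in the shape of the hypothesis `hModel` of
`UFinal.s34_of_model2` / `UModel.s34_of_modular`. -/
theorem hModel : ∀ (M q m : ℕ) [NeZero M] [NeZero (M * q)], q.Prime → ¬ q ∣ M → ¬ q ∣ m →
    ModelPlan2.Model2Statement (M * q) q m :=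
  Model2AsmB.hModel_of_pts (fun M q m _ _ hq hqM _ => ptsStatement M q hq hqM m)

end Fermat.Agent.S34.Model2PtsB
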