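import Mathlib

/-!
# S34, block [Cech-bis] : abstract two-chart lifting of an `m`-th root, reducible special fibre

This is the analogue of `S18/CechPlan` for a special fibre with SEVERAL components (no
"`π` prime in the charts", no normality (Nor) of the special fibre).

Setting (`Setting O E`): a discrete valuation ring `O` with uniformizer `π`, a field `E ⊇ O`,
two `O`-subalgebras `R0`, `Rinf` of `E` ("charts") glued along `j` (`R0[1/j] = Rinf[j]`), both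
closed under `m`-th roots in `E`, `R0` finite over `O[j]`, `m` a unit of `O`; a subring `V` of
`E` (the semilocal ring of the generic points of ALL components of the special fibre; in the
application `V = V₁ ⊓ V₂`, the two Gauss valuation rings) with
`R0, Rinf ⊆ V`, `R• ∩ π V = π R•`, `V` closed under `m`-th roots, `1 ∉ π V`, `1 + π V ⊆ Vˣ`;
and `w ∈ E` with `w ≡ 1` modulo `π V` which is, locally at every closed point `n` of the special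
fibre of each chart, of the form `unit · g⁻ᵐ` with `g ≡ (an element of the chart outside n)`
modulo `π V` (`loc0`, `locInf`): "the local generator of `L` is `≡ 1` on every branch through `n`".

Conclusion (`Conclusion S`): `w * h ^ m ∈ R0 ∩ Rinf` for some `h ≡ 1` modulo `π V` (so `h ≠ 0`).

This file only fixes the setting, the derived sets and the leaf statements (`Prop`-valued);
it has no proof obligations.
-/

set_option autoImplicit false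

namespace Fermat.Agent.S34.Cech2Plan

/-- The abstract two-chart setting (reducible special fibre allowed). -/
structure Setting (O : Type*) [CommRing O] [IsDomain O] [IsDiscreteValuationRing O]
    (E : Type*) [Field E] [Algebra O E] where
  /-- uniformizer of `O` -/
  π : O
  /-- the exponent (prime to the residue characteristic) -/
  m : ℕ
  /-- the coordinate gluing the two charts -/
  j : E
  /-- the function whose `m`-th root is to be found -/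
  w : E
  /-- the chart `j ≠ ∞` -/
  R0 : Subalgebra O E
  /-- the chart `j ≠ 0` -/
  Rinf : Subalgebra O E
  /-- the semilocal ring of the generic points of the special fibre -/
  V : Subring E
  inj : Function.Injective (algebraMap O E)
  irr : Irreducible π
  hm : IsUnit (m : O)
  j_ne : j ≠ 0
  j_mem : j ∈ R0
  jinv_mem : j⁻¹ ∈ Rinf
  /-- `R0 ⊆ Rinf[j]` -/
  glue0 : ∀ x ∈ R0, ∃ n : ℕ, x * j⁻¹ ^ n ∈ Rinf
  /-- `Rinf ⊆ R0[1/j]` -/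
  glueInf : ∀ x ∈ Rinf, ∃ n : ℕ, x * j ^ n ∈ R0
  root0 : ∀ x : E, x ^ m ∈ R0 → x ∈ R0
  rootInf : ∀ x : E, x ^ m ∈ Rinf → x ∈ Rinf
  /-- `R0` is contained in a finitely generated `O[j]`-submodule of `E` -/
  fin0 : ∃ s : Finset E, (R0 : Set E) ⊆ Submodule.span (Algebra.adjoin O {j}) (s : Set E)
  R0_le : ∀ x ∈ R0, x ∈ V
  Rinf_le : ∀ x ∈ Rinf, x ∈ V
  rootV : ∀ x : E, x ^ m ∈ V → x ∈ V
  /-- `1 ∉ π V` -/
  one_not : ∀ z ∈ V, (1 : E) ≠ algebraMap O E π * z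
  /-- `1 + π V ⊆ Vˣ` -/
  invV : ∀ z ∈ V, (1 + algebraMap O E π * z)⁻¹ ∈ V
  /-- `R0 ∩ π V = π R0` -/
  desc0 : ∀ z ∈ V, algebraMap O E π * z ∈ R0 → z ∈ R0
  /-- `Rinf ∩ π V = π Rinf` -/
  descInf : ∀ z ∈ V, algebraMap O E π * z ∈ Rinf → z ∈ Rinf
  /-- `w ≡ 1` modulo `π V` -/
  hw : ∃ z ∈ V, w - 1 = algebraMap O E π * z
  /-- (Loc-bis) for the chart `R0`: at every closed point `n` of the special fibre there is a
  section `g` of `L` which is congruent modulo `π V` to an element of `R0` outside `n`. -/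
  loc0 : ∀ n : Ideal R0, n.IsMaximal → algebraMap O R0 π ∈ n →
    ∃ g : E, w * g ^ m ∈ R0 ∧ ∃ r : R0, r ∉ n ∧ ∃ z ∈ V, g - (r : E) = algebraMap O E π * z
  /-- (Loc-bis) for the chart `Rinf` -/
  locInf : ∀ n : Ideal Rinf, n.IsMaximal → algebraMap O Rinf π ∈ n →
    ∃ g : E, w * g ^ m ∈ Rinf ∧ ∃ r : Rinf, r ∉ n ∧ ∃ z ∈ V, g - (r : E) = algebraMap O E π * z

variable {O : Type*} [CommRing O] [IsDomain O] [IsDiscreteValuationRing O]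
  {E : Type*} [Field E] [Algebra O E]

namespace Setting

variable (S : Setting O E)

/-! ### Derived sets -/

/-- `x ∈ π R` for a subset `R` of `E`. -/
def PiDvd (R : Set E) (x : E) : Prop := ∃ z ∈ R, x = algebraMap O E S.π * z

/-- The middle chart `Rm = R0[1/j] = Rinf[j]`. -/
def Rm : Set E := {x | ∃ n : ℕ, x * S.j ^ n ∈ S.R0}

/-- `L(R) = {h : w h^m ∈ R}` ("sections of `O(D)` over `Spec R`", `div w = m D`). -/
def L (R : Set E) : Set E := {h | S.w * h ^ S.m ∈ R}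

/-- The conclusion of block [Cech-bis]: `w * h ^ m` is a global section, for some
`h ≡ 1` modulo `π V` (in particular `h ≠ 0`). -/
def Conclusion : Prop :=
  ∃ h : E, h ≠ 0 ∧ S.w * h ^ S.m ∈ S.R0 ∧ S.w * h ^ S.m ∈ S.Rinf ∧ S.PiDvd S.V (h - 1)

/-! ### Leaves -/

/-- [Cech2-R] the middle chart is a subring containing both charts, contained in `V`,
`m`-root closed, with `Rm ∩ π V = π Rm`. -/
structure LeafR : Prop where
  of_R0 : ∀ x ∈ S.R0, x ∈ S.Rm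
  of_Rinf : ∀ x ∈ S.Rinf, x ∈ S.Rm
  iff_inf : ∀ x : E, x ∈ S.Rm ↔ ∃ n : ℕ, x * S.j⁻¹ ^ n ∈ S.Rinf
  add_mem : ∀ x ∈ S.Rm, ∀ y ∈ S.Rm, x + y ∈ S.Rm
  mul_mem : ∀ x ∈ S.Rm, ∀ y ∈ S.Rm, x * y ∈ S.Rm
  neg_mem : ∀ x ∈ S.Rm, -x ∈ S.Rm
  jinv_mem : S.j⁻¹ ∈ S.Rm
  root : ∀ x : E, x ^ S.m ∈ S.Rm → x ∈ S.Rm
  le_V : ∀ x ∈ S.Rm, x ∈ S.V
  descM : ∀ z ∈ S.V, algebraMap O E S.π * z ∈ S.Rm → z ∈ S.Rm

/-- [Cech2-L] basic facts on the modules `L(R)`, `R ∈ {R0, Rinf, Rm}`. -/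
structure LeafL : Prop where
  w_mem : S.w ∈ S.V
  w_inv_mem : S.w⁻¹ ∈ S.V
  w_ne : S.w ≠ 0
  mixed0 : ∀ x ∈ S.L S.R0, ∀ y ∈ S.L S.R0, ∀ i ≤ S.m, S.w * (x ^ i * y ^ (S.m - i)) ∈ S.R0
  mixedInf : ∀ x ∈ S.L S.Rinf, ∀ y ∈ S.L S.Rinf, ∀ i ≤ S.m,
    S.w * (x ^ i * y ^ (S.m - i)) ∈ S.Rinf
  mixedM : ∀ x ∈ S.L S.Rm, ∀ y ∈ S.L S.Rm, ∀ i ≤ S.m, S.w * (x ^ i * y ^ (S.m - i)) ∈ S.Rm
  zero0 : (0 : E) ∈ S.L S.R0
  zeroInf : (0 : E) ∈ S.L S.Rinf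
  zeroM : (0 : E) ∈ S.L S.Rm
  add0 : ∀ x ∈ S.L S.R0, ∀ y ∈ S.L S.R0, x + y ∈ S.L S.R0
  addInf : ∀ x ∈ S.L S.Rinf, ∀ y ∈ S.L S.Rinf, x + y ∈ S.L S.Rinf
  addM : ∀ x ∈ S.L S.Rm, ∀ y ∈ S.L S.Rm, x + y ∈ S.L S.Rm
  smul0 : ∀ r ∈ S.R0, ∀ y ∈ S.L S.R0, r * y ∈ S.L S.R0
  smulInf : ∀ r ∈ S.Rinf, ∀ y ∈ S.L S.Rinf, r * y ∈ S.L S.Rinf
  smulM : ∀ r ∈ S.Rm, ∀ y ∈ S.L S.Rm, r * y ∈ S.L S.Rm
  of_L0 : ∀ y ∈ S.L S.R0, y ∈ S.L S.Rm
  of_LInf : ∀ y ∈ S.L S.Rinf, y ∈ S.L S.Rm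
  subV : ∀ y ∈ S.L S.Rm, y ∈ S.V
  desc0 : ∀ y ∈ S.L S.R0, S.PiDvd S.V y → S.PiDvd (S.L S.R0) y
  descInf : ∀ y ∈ S.L S.Rinf, S.PiDvd S.V y → S.PiDvd (S.L S.Rinf) y
  descM : ∀ y ∈ S.L S.Rm, S.PiDvd S.V y → S.PiDvd (S.L S.Rm) y
  iff0 : ∀ y : E, y ∈ S.L S.Rm ↔ ∃ n : ℕ, y * S.j ^ n ∈ S.L S.R0
  iffInf : ∀ y : E, y ∈ S.L S.Rm ↔ ∃ n : ℕ, y * S.j⁻¹ ^ n ∈ S.L S.Rinf

/-- [Cech2-a] each chart carries a section of `L` which is `≡ 1` modulo `π V`. -/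
def LeafA : Prop :=
  (∃ a ∈ S.L S.R0, S.PiDvd S.V (a - 1)) ∧ (∃ b ∈ S.L S.Rinf, S.PiDvd S.V (b - 1))

/-- [Cech2-b] `Lm = Rm · a + π Lm` for every `a ∈ Lm` with `a ≡ 1`. -/
def LeafB : Prop :=
  ∀ a ∈ S.L S.Rm, S.PiDvd S.V (a - 1) → ∀ y ∈ S.L S.Rm,
    ∃ c ∈ S.Rm, ∃ y' ∈ S.L S.Rm, y = c * a + algebraMap O E S.π * y'

/-- [Cech2-F] `L(R0)` is a finitely generated `O[j]`-module. -/
def LeafF : Prop :=
  ∃ s : Finset E, (∀ e ∈ s, e ∈ S.L S.R0) ∧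
    S.L S.R0 ⊆ Submodule.span (Algebra.adjoin O {S.j}) (s : Set E)

/-- [Cech2-d] `H = Lm / (L0 + Linf)` is `π`-adically separated. -/
def LeafD : Prop :=
  ∀ x ∈ S.L S.Rm,
    (∀ n : ℕ, ∃ x0 ∈ S.L S.R0, ∃ x1 ∈ S.L S.Rinf, ∃ y ∈ S.L S.Rm,
      x = x0 + x1 + algebraMap O E S.π ^ n * y) →
    ∃ x0 ∈ S.L S.R0, ∃ x1 ∈ S.L S.Rinf, x = x0 + x1

/-- [Cech2-c+d] a common section: two local sections `≡ 1` can be corrected to a global one. -/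
def LeafH : Prop :=
  ∀ a ∈ S.L S.R0, ∀ b ∈ S.L S.Rinf, S.PiDvd S.V (a - 1) → S.PiDvd S.V (b - 1) →
    ∃ h ∈ S.L S.R0, h ∈ S.L S.Rinf ∧ S.PiDvd (S.L S.R0) (h - a)

end Setting

/-- The target of block [Cech-bis]. -/
def Cech2Statement : Prop :=
  ∀ (O : Type) [CommRing O] [IsDomain O] [IsDiscreteValuationRing O]
    (E : Type) [Field E] [Algebra O E] (S : Setting O E), S.Conclusion

end Fermat.Agent.S34.Cech2Plan
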