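/-
S34 — Cech2Facts.lean (helper78): block [Cech-bis], leaves (F) and (D) of `Cech2Plan`:
`L(R0)` is a finitely generated `O[j]`-module, and `Lm / (L0 + L∞)` is `π`-adically separated.
Adapted from `S18/CechFacts` (helper54) to the two-component setting: the embedding
`L(R0) ↪ R0` is multiplication by `w * a ^ (m - 1)` for a section `a ≡ 1` of `L` over `R0`
(leaf [Cech2-a]); no primality of `π`, no normality of the special fibre.
-/
import Mathlib
import Fermat.Agent.S34.Cech2Plan
import Fermat.Agent.S18.CechSep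

set_option autoImplicit false

namespace Fermat.Agent.S34.Cech2Facts

open Fermat.Agent.S34.Cech2Plan

variable {O : Type*} [CommRing O] [IsDomain O] [IsDiscreteValuationRing O]
  {E : Type*} [Field E] [Algebra O E]

/-- The exponent `m` is nonzero (it is a unit of the domain `O`). -/
theorem m_ne_zero (S : Setting O E) : S.m ≠ 0 := by
  intro h
  have h1 := S.hm
  rw [h, Nat.cast_zero] at h1
  exact not_isUnit_zero h1

/-- `0 ∈ L(R)` as soon as `0 ∈ R`. -/
theorem zero_mem_L (S : Setting O E) (R : Set E) (h0 : (0 : E) ∈ R) : (0 : E) ∈ S.L R := by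
  show S.w * 0 ^ S.m ∈ R
  rw [zero_pow (m_ne_zero S), mul_zero]
  exact h0

/-- An element `≡ 1` modulo `π V` is nonzero. -/
theorem ne_zero_of_piDvd_sub_one (S : Setting O E) {a : E} (ha : S.PiDvd S.V (a - 1)) :
    a ≠ 0 := by
  intro h0
  obtain ⟨z, hz, hza⟩ := ha
  refine S.one_not (-z) (S.V.neg_mem hz) ?_
  rw [h0] at hza
  linear_combination -hza

/-- `O[j]` is noetherian. -/
theorem isNoetherianRing_adjoin_j (S : Setting O E) :
    IsNoetherianRing (Algebra.adjoin O {S.j}) := by
  have hBfg : (Algebra.adjoin O ({S.j} : Set E)).FG := ⟨{S.j}, by simp⟩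
  have : Algebra.FiniteType O (Algebra.adjoin O ({S.j} : Set E)) :=
    (Subalgebra.fg_iff_finiteType _).mp hBfg
  exact Algebra.FiniteType.isNoetherianRing O _

/-- **[Cech2-F]** `L(R0)` is a finitely generated `O[j]`-module. -/
theorem leafF (S : Setting O E) (_hR : S.LeafR) (hL : S.LeafL) (hA : S.LeafA) : S.LeafF := by
  classical
  have hm0 : S.m ≠ 0 := m_ne_zero S
  obtain ⟨a, haL0, ha1⟩ := hA.1
  have ha0 : a ≠ 0 := ne_zero_of_piDvd_sub_one S ha1
  -- the multiplier `μ := w * a ^ (m - 1)`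
  have hμ0 : S.w * a ^ (S.m - 1) ≠ 0 := mul_ne_zero hL.w_ne (pow_ne_zero _ ha0)
  -- `μ * L(R0) ⊆ R0`
  have hμL : ∀ h ∈ S.L S.R0, S.w * a ^ (S.m - 1) * h ∈ S.R0 := by
    intro h hh
    have h1 := hL.mixed0 h hh a haL0 1 (Nat.one_le_iff_ne_zero.mpr hm0)
    have h2 : S.w * a ^ (S.m - 1) * h = S.w * (h ^ 1 * a ^ (S.m - 1)) := by ring
    rw [h2]
    exact h1
  obtain ⟨s₀, hs₀⟩ := S.fin0
  have : IsNoetherianRing (Algebra.adjoin O {S.j}) := isNoetherianRing_adjoin_j S
  have hBR0 : Algebra.adjoin O {S.j} ≤ S.R0 :=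
    Algebra.adjoin_le (Set.singleton_subset_iff.mpr S.j_mem)
  let L0B : Submodule (Algebra.adjoin O {S.j}) E :=
    { carrier := S.L S.R0
      add_mem' := fun {x y} hx hy => hL.add0 x hx y hy
      zero_mem' := zero_mem_L S _ S.R0.zero_mem
      smul_mem' := fun c x hx => by
        have hc : (c : E) ∈ S.R0 := hBR0 c.2
        have h1 := hL.smul0 c hc x hx
        rwa [Subalgebra.smul_def, smul_eq_mul] }
  have hle : Submodule.map
      (LinearMap.mulLeft (Algebra.adjoin O {S.j}) (S.w * a ^ (S.m - 1))) L0B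
      ≤ Submodule.span (Algebra.adjoin O {S.j}) (s₀ : Set E) := by
    rintro y ⟨x, hx, rfl⟩
    exact hs₀ (hμL x hx)
  have hfg1 : (Submodule.map
      (LinearMap.mulLeft (Algebra.adjoin O {S.j}) (S.w * a ^ (S.m - 1))) L0B).FG :=
    (isNoetherian_submodule.mp
      (isNoetherian_of_fg_of_noetherian _ (Submodule.fg_span s₀.finite_toSet))) _ hle
  have hinj : Function.Injective
      (LinearMap.mulLeft (Algebra.adjoin O {S.j}) (S.w * a ^ (S.m - 1))) := by
    intro x y hxy
    exact mul_left_cancel₀ hμ0 hxy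
  have hfg : L0B.FG := Submodule.fg_of_fg_map_injective _ hinj hfg1
  obtain ⟨T, hT⟩ := hfg
  refine ⟨T, ?_, ?_⟩
  · intro e he
    have : e ∈ L0B := by
      rw [← hT]
      exact Submodule.subset_span (Finset.mem_coe.mpr he)
    exact this
  · intro x hx
    have : x ∈ L0B := hx
    rw [← hT] at this
    exact this

omit [IsDomain O] [IsDiscreteValuationRing O] in
/-- Multiplication by a power of the unit `t` preserves the `O`-span of the `t ^ n * g`. -/
theorem zpow_mul_mem_span (t : Eˣ) (T : Finset E) (k : ℤ) (y : E)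
    (hy : y ∈ Submodule.span O {y : E | ∃ g ∈ T, ∃ n : ℤ, y = ((t ^ n : Eˣ) : E) * g}) :
    ((t ^ k : Eˣ) : E) * y
      ∈ Submodule.span O {y : E | ∃ g ∈ T, ∃ n : ℤ, y = ((t ^ n : Eˣ) : E) * g} := by
  induction hy using Submodule.span_induction with
  | mem y hy =>
    obtain ⟨g, hg, n, rfl⟩ := hy
    refine Submodule.subset_span ⟨g, hg, k + n, ?_⟩
    rw [zpow_add, Units.val_mul, mul_assoc]
  | zero => rw [mul_zero]; exact Submodule.zero_mem _
  | add x y _ _ hx hy => rw [mul_add]; exact Submodule.add_mem _ hx hy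
  | smul c x _ hx => rw [mul_smul_comm]; exact Submodule.smul_mem _ c hx

/-- **[Cech2-d]** from [Cech2-F]: `Lm / (L0 + L∞)` is `π`-adically separated. -/
theorem leafD (S : Setting O E) (hR : S.LeafR) (hL : S.LeafL) (hF : S.LeafF) :
    S.LeafD := by
  classical
  have hj0 : S.j ≠ 0 := S.j_ne
  obtain ⟨T, hT1, hT2⟩ := hF
  have hπ : S.π ∈ IsLocalRing.maximalIdeal O := by
    rw [IsLocalRing.mem_maximalIdeal]
    exact S.irr.not_isUnit
  let L0 : Submodule O E :=
    { carrier := S.L S.R0
      add_mem' := fun {x y} hx hy => hL.add0 x hx y hy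
      zero_mem' := zero_mem_L S _ S.R0.zero_mem
      smul_mem' := fun c x hx => by
        have h1 := hL.smul0 _ (S.R0.algebraMap_mem c) x hx
        rwa [Algebra.smul_def] }
  let Li : Submodule O E :=
    { carrier := S.L S.Rinf
      add_mem' := fun {x y} hx hy => hL.addInf x hx y hy
      zero_mem' := zero_mem_L S _ S.Rinf.zero_mem
      smul_mem' := fun c x hx => by
        have h1 := hL.smulInf _ (S.Rinf.algebraMap_mem c) x hx
        rwa [Algebra.smul_def] }
  let Lm : Submodule O E :=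
    { carrier := S.L S.Rm
      add_mem' := fun {x y} hx hy => hL.addM x hx y hy
      zero_mem' := zero_mem_L S _ (hR.of_R0 _ S.R0.zero_mem)
      smul_mem' := fun c x hx => by
        have h1 := hL.smulM _ (hR.of_R0 _ (S.R0.algebraMap_mem c)) x hx
        rwa [Algebra.smul_def] }
  have hL0m : ∀ x ∈ S.L S.R0, x ∈ S.L S.Rm := hL.of_L0
  have hLim : ∀ x ∈ S.L S.Rinf, x ∈ S.L S.Rm := hL.of_LInf
  have hBR0 : Algebra.adjoin O {S.j} ≤ S.R0 :=
    Algebra.adjoin_le (Set.singleton_subset_iff.mpr S.j_mem)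
  have htinv : (((Units.mk0 S.j hj0)⁻¹ : Eˣ) : E) = S.j⁻¹ := by
    rw [Units.val_inv_eq_inv_val, Units.val_mk0]
  -- `O[j]` preserves the `O`-span of the `j ^ n * g`
  have hadj : ∀ c ∈ Algebra.adjoin O {S.j}, ∀ y ∈ Submodule.span O
        {y : E | ∃ g ∈ T, ∃ n : ℤ, y = (((Units.mk0 S.j hj0) ^ n : Eˣ) : E) * g},
      c * y ∈ Submodule.span O
        {y : E | ∃ g ∈ T, ∃ n : ℤ, y = (((Units.mk0 S.j hj0) ^ n : Eˣ) : E) * g} := by
    intro c hc
    induction hc using Algebra.adjoin_induction with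
    | mem x hx =>
      intro y hy
      rw [Set.mem_singleton_iff] at hx
      subst hx
      have h1 := zpow_mul_mem_span (O := O) (Units.mk0 S.j hj0) T 1 y hy
      rwa [zpow_one, Units.val_mk0] at h1
    | algebraMap r =>
      intro y hy
      rw [← Algebra.smul_def]
      exact Submodule.smul_mem _ r hy
    | add x y _ _ hx hy =>
      intro z hz
      rw [add_mul]
      exact Submodule.add_mem _ (hx z hz) (hy z hz)
    | mul x y _ _ hx hy =>
      intro z hz
      rw [mul_assoc]
      exact hx _ (hy z hz)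
  -- the `O[j]`-span of `T` lies in the `O`-span of the `j ^ n * g`
  have hspan : ∀ y ∈ Submodule.span (Algebra.adjoin O {S.j}) (T : Set E),
      y ∈ Submodule.span O
        {y : E | ∃ g ∈ T, ∃ n : ℤ, y = (((Units.mk0 S.j hj0) ^ n : Eˣ) : E) * g} := by
    intro y hy
    induction hy using Submodule.span_induction with
    | mem g hg =>
      refine Submodule.subset_span ⟨g, Finset.mem_coe.mp hg, 0, ?_⟩
      rw [zpow_zero, Units.val_one, one_mul]
    | zero => exact Submodule.zero_mem _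
    | add x y _ _ hx hy => exact Submodule.add_mem _ hx hy
    | smul c x _ hx =>
      rw [Subalgebra.smul_def, smul_eq_mul]
      exact hadj c c.2 x hx
  have key := Fermat.Agent.S18.CechSep.sep_of_fg (O := O) (F := E) S.π hπ
    (Units.mk0 S.j hj0) L0 Li Lm
    (fun x hx => hL0m x hx) (fun x hx => hLim x hx) T
    (by
      intro g hg n
      rw [Units.val_mk0]
      exact hL.smul0 _ (S.R0.pow_mem S.j_mem n) g (hT1 g hg))
    (by
      intro x hx
      rw [htinv]
      exact hL.smulInf _ S.jinv_mem x hx)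
    (by
      intro g hg
      obtain ⟨n, hn⟩ := (hL.iffInf g).mp (hL0m g (hT1 g hg))
      refine ⟨n, ?_⟩
      rw [htinv, mul_comm]
      exact hn)
    (by
      intro x hx
      obtain ⟨n, hn⟩ := (hL.iff0 x).mp hx
      have h1 := hspan _ (hT2 hn)
      have h2 := zpow_mul_mem_span (O := O) (Units.mk0 S.j hj0) T (-(n : ℤ)) _ h1
      have h3 : (((Units.mk0 S.j hj0) ^ (-(n : ℤ)) : Eˣ) : E) * (x * S.j ^ n) = x := by
        rw [zpow_neg, zpow_natCast, Units.val_inv_eq_inv_val, Units.val_pow_eq_pow_val,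
          Units.val_mk0]
        field_simp
      rwa [h3] at h2)
    (by
      intro g hg n
      have hmem : (((Units.mk0 S.j hj0) ^ n : Eˣ) : E) ∈ S.Rm := by
        obtain ⟨k, rfl | rfl⟩ := Int.eq_nat_or_neg n
        · rw [zpow_natCast, Units.val_pow_eq_pow_val, Units.val_mk0]
          exact hR.of_R0 _ (S.R0.pow_mem S.j_mem k)
        · rw [zpow_neg, zpow_natCast, ← inv_pow, Units.val_pow_eq_pow_val, htinv]
          exact hR.of_Rinf _ (S.Rinf.pow_mem S.jinv_mem k)
      exact hL.smulM _ hmem g (hL0m g (hT1 g hg)))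
  intro x hx h
  exact key x hx h

/-- **[Cech2-d]** with [Cech2-F] supplied by [Cech2-a]. -/
theorem leafD_of_leafA (S : Setting O E) (hR : S.LeafR) (hL : S.LeafL) (hA : S.LeafA) :
    S.LeafD :=
  leafD S hR hL (leafF S hR hL hA)

end Fermat.Agent.S34.Cech2Facts
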