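import Mathlib
import Fermat.Agent.S34.Cech2Plan

/-!
# S34, block [Cech-bis] : leaves [Cech2-R] and [Cech2-L]

`leafR` : the middle chart `Rm = R0[1/j] = Rinf[j]` is a subring of `E` containing both charts,
contained in `V`, `m`-root closed, with `Rm ∩ π V = π Rm`.

`leafL` : basic facts on the modules `L(R) = {h : w h^m ∈ R}` for `R ∈ {R0, Rinf, Rm}`.

Everything is by clearing powers of `j` and the descent fields `desc0`, `descInf` of the setting
(no primality of `π` is used).  Adapted from `S18/CechRing` and `S18/CechL`.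
-/

set_option autoImplicit false
set_option linter.unusedSectionVars false

namespace Fermat.Agent.S34.Cech2Ring

open Fermat.Agent.S34.Cech2Plan

variable {O : Type*} [CommRing O] [IsDomain O] [IsDiscreteValuationRing O]
  {E : Type*} [Field E] [Algebra O E]

section Aux

variable (S : Setting O E)

theorem m_ne_zero : S.m ≠ 0 := by
  intro h
  have h1 := S.hm
  rw [h, Nat.cast_zero] at h1
  exact not_isUnit_zero h1

theorem m_pos : 0 < S.m := Nat.pos_of_ne_zero (m_ne_zero S)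

theorem pi_ne_zero : algebraMap O E S.π ≠ 0 := by
  intro h
  exact S.irr.ne_zero (S.inj (by rw [h, map_zero]))

theorem jinv_mul_j : S.j⁻¹ * S.j = 1 := inv_mul_cancel₀ S.j_ne

theorem j_mul_jinv : S.j * S.j⁻¹ = 1 := mul_inv_cancel₀ S.j_ne

theorem jpow_mul_jinvpow (n : ℕ) : S.j ^ n * S.j⁻¹ ^ n = 1 := by
  rw [← mul_pow, j_mul_jinv S, one_pow]

theorem jpow_mem (n : ℕ) : S.j ^ n ∈ S.R0 := S.R0.pow_mem S.j_mem n

theorem jinvpow_mem (n : ℕ) : S.j⁻¹ ^ n ∈ S.Rinf := S.Rinf.pow_mem S.jinv_mem n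

theorem pi_mem_R0 : algebraMap O E S.π ∈ S.R0 := S.R0.algebraMap_mem S.π

theorem pi_mem_Rinf : algebraMap O E S.π ∈ S.Rinf := S.Rinf.algebraMap_mem S.π

theorem pi_mem_V : algebraMap O E S.π ∈ S.V := S.R0_le _ (pi_mem_R0 S)

theorem pipow_mem_V (k : ℕ) : algebraMap O E S.π ^ k ∈ S.V := S.V.pow_mem (pi_mem_V S) k

theorem mem_Rm_iff (x : E) : x ∈ S.Rm ↔ ∃ n : ℕ, x * S.j ^ n ∈ S.R0 := Iff.rfl

theorem mem_Rm_iff_inf (x : E) : x ∈ S.Rm ↔ ∃ n : ℕ, x * S.j⁻¹ ^ n ∈ S.Rinf := by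
  constructor
  · rintro ⟨n, hn⟩
    obtain ⟨k, hk⟩ := S.glue0 _ hn
    refine ⟨k, ?_⟩
    have h1 := S.Rinf.mul_mem hk ((jinvpow_mem S) n)
    have h2 : x * S.j ^ n * S.j⁻¹ ^ k * S.j⁻¹ ^ n = x * S.j⁻¹ ^ k * (S.j ^ n * S.j⁻¹ ^ n) := by
      ring
    rw [h2, (jpow_mul_jinvpow S), mul_one] at h1
    exact h1
  · rintro ⟨n, hn⟩
    obtain ⟨k, hk⟩ := S.glueInf _ hn
    refine ⟨k, ?_⟩
    have h1 := S.R0.mul_mem hk ((jpow_mem S) n)
    have h2 : x * S.j⁻¹ ^ n * S.j ^ k * S.j ^ n = x * S.j ^ k * (S.j ^ n * S.j⁻¹ ^ n) := by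
      ring
    rw [h2, (jpow_mul_jinvpow S), mul_one] at h1
    exact h1

theorem Rm_of_R0 {x : E} (hx : x ∈ S.R0) : x ∈ S.Rm := ⟨0, by rw [pow_zero, mul_one]; exact hx⟩

theorem Rm_add {x y : E} (hx : x ∈ S.Rm) (hy : y ∈ S.Rm) : x + y ∈ S.Rm := by
  obtain ⟨a, ha⟩ := hx
  obtain ⟨b, hb⟩ := hy
  refine ⟨a + b, ?_⟩
  have h1 : (x + y) * S.j ^ (a + b) = x * S.j ^ a * S.j ^ b + y * S.j ^ b * S.j ^ a := by ring
  rw [h1]
  exact S.R0.add_mem (S.R0.mul_mem ha ((jpow_mem S) b)) (S.R0.mul_mem hb ((jpow_mem S) a))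

theorem Rm_mul {x y : E} (hx : x ∈ S.Rm) (hy : y ∈ S.Rm) : x * y ∈ S.Rm := by
  obtain ⟨a, ha⟩ := hx
  obtain ⟨b, hb⟩ := hy
  refine ⟨a + b, ?_⟩
  have h1 : x * y * S.j ^ (a + b) = x * S.j ^ a * (y * S.j ^ b) := by ring
  rw [h1]
  exact S.R0.mul_mem ha hb

theorem Rm_neg {x : E} (hx : x ∈ S.Rm) : -x ∈ S.Rm := by
  obtain ⟨a, ha⟩ := hx
  refine ⟨a, ?_⟩
  rw [neg_mul]
  exact S.R0.neg_mem ha

theorem Rm_one : (1 : E) ∈ S.Rm := (Rm_of_R0 S) S.R0.one_mem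

theorem Rm_zero : (0 : E) ∈ S.Rm := (Rm_of_R0 S) S.R0.zero_mem

theorem Rm_pow {x : E} (hx : x ∈ S.Rm) (n : ℕ) : x ^ n ∈ S.Rm := by
  induction n with
  | zero => rw [pow_zero]; exact (Rm_one S)
  | succ n ih => rw [pow_succ]; exact (Rm_mul S) ih hx

theorem Rm_jinvpow (n : ℕ) : S.j⁻¹ ^ n ∈ S.Rm :=
  ⟨n, by rw [mul_comm, (jpow_mul_jinvpow S)]; exact S.R0.one_mem⟩

/-- `Rm ⊆ V`. -/
theorem Rm_le_V {x : E} (hx : x ∈ S.Rm) : x ∈ S.V := by
  obtain ⟨n, hn⟩ := hx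
  have h1 : x = x * S.j ^ n * S.j⁻¹ ^ n := by
    rw [mul_assoc, (jpow_mul_jinvpow S), mul_one]
  rw [h1]
  exact S.V.mul_mem (S.R0_le _ hn) (S.Rinf_le _ ((jinvpow_mem S) n))

/-- `Rm ∩ π V = π Rm`. -/
theorem Rm_desc {z : E} (hz : z ∈ S.V) (h : algebraMap O E S.π * z ∈ S.Rm) : z ∈ S.Rm := by
  obtain ⟨n, hn⟩ := h
  refine ⟨n, S.desc0 (z * S.j ^ n) (S.V.mul_mem hz (S.R0_le _ ((jpow_mem S) n))) ?_⟩
  rw [← mul_assoc]
  exact hn

end Aux

/-- **[Cech2-R]** -/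
theorem leafR (S : Setting O E) : S.LeafR where
  of_R0 := fun x hx => (Rm_of_R0 S) hx
  of_Rinf := fun x hx => S.glueInf x hx
  iff_inf := (mem_Rm_iff_inf S)
  add_mem := fun x hx y hy => (Rm_add S) hx hy
  mul_mem := fun x hx y hy => (Rm_mul S) hx hy
  neg_mem := fun x hx => (Rm_neg S) hx
  jinv_mem := by
    have := (Rm_jinvpow S) 1
    rwa [pow_one] at this
  root := by
    intro x hx
    obtain ⟨n, hn⟩ := hx
    refine ⟨n, S.root0 _ ?_⟩
    obtain ⟨k, hk⟩ := Nat.exists_eq_succ_of_ne_zero (m_ne_zero S)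
    have h1 : (x * S.j ^ n) ^ S.m = x ^ S.m * S.j ^ n * (S.j ^ n) ^ k := by
      rw [mul_pow, hk, pow_succ (S.j ^ n) k]
      ring
    rw [h1]
    exact S.R0.mul_mem hn (S.R0.pow_mem ((jpow_mem S) n) k)
  le_V := fun x hx => (Rm_le_V S) hx
  descM := fun z hz h => (Rm_desc S) hz h

section L

variable (S : Setting O E)

theorem w_mem : S.w ∈ S.V := by
  obtain ⟨z, hz, hwz⟩ := S.hw
  have : S.w = 1 + algebraMap O E S.π * z := by linear_combination hwz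
  rw [this]
  exact S.V.add_mem S.V.one_mem (S.V.mul_mem (pi_mem_V S) hz)

theorem w_inv_mem : S.w⁻¹ ∈ S.V := by
  obtain ⟨z, hz, hwz⟩ := S.hw
  have : S.w = 1 + algebraMap O E S.π * z := by linear_combination hwz
  rw [this]
  exact S.invV z hz

theorem w_ne_zero : S.w ≠ 0 := by
  intro h0
  obtain ⟨z, hz, hwz⟩ := S.hw
  refine S.one_not (-z) (S.V.neg_mem hz) ?_
  rw [h0] at hwz
  linear_combination -hwz

/-- Abstract product lemma for a multiplicatively closed, `m`-root closed subset. -/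
theorem prod_mem_of (R : Set E) (h1 : (1 : E) ∈ R) (hmul : ∀ x ∈ R, ∀ y ∈ R, x * y ∈ R)
    (hroot : ∀ x : E, x ^ S.m ∈ R → x ∈ R) (y : Fin S.m → E) (hy : ∀ i, y i ∈ S.L R) :
    S.w * ∏ i, y i ∈ R := by
  apply hroot
  have h : (S.w * ∏ i, y i) ^ S.m = ∏ i, (S.w * y i ^ S.m) := by
    rw [mul_pow, Finset.prod_mul_distrib, Finset.prod_const, Finset.card_univ, Fintype.card_fin,
      Finset.prod_pow]
  rw [h]
  have key : ∀ s : Finset (Fin S.m), ∏ i ∈ s, (S.w * y i ^ S.m) ∈ R := by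
    intro s
    induction s using Finset.induction_on with
    | empty => simpa using h1
    | insert a s ha ih =>
      rw [Finset.prod_insert ha]
      exact hmul _ (hy a) _ ih
  exact key _

/-- Mixed monomials `w x^i y^(m-i)` lie in `R`. -/
theorem mixed_mem_of (R : Set E) (h1 : (1 : E) ∈ R) (hmul : ∀ x ∈ R, ∀ y ∈ R, x * y ∈ R)
    (hroot : ∀ x : E, x ^ S.m ∈ R → x ∈ R) {x y : E} (hx : x ∈ S.L R) (hy : y ∈ S.L R)
    (i : ℕ) (hi : i ≤ S.m) : S.w * (x ^ i * y ^ (S.m - i)) ∈ R := by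
  have h := prod_mem_of S R h1 hmul hroot (fun k : Fin S.m => if (k : ℕ) < i then x else y)
    (fun k => by split_ifs <;> assumption)
  have h2 : ∏ k : Fin S.m, (if (k : ℕ) < i then x else y) = x ^ i * y ^ (S.m - i) := by
    rw [Fin.prod_univ_eq_prod_range (fun k => if k < i then x else y) S.m,
      Finset.prod_ite, Finset.prod_const, Finset.prod_const]
    congr 2
    · have : (Finset.range S.m).filter (fun k => k < i) = Finset.range i := by
        ext k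
        simp only [Finset.mem_filter, Finset.mem_range]
        omega
      rw [this, Finset.card_range]
    · have : (Finset.range S.m).filter (fun k => ¬ k < i) = Finset.Ico i S.m := by
        ext k
        simp only [Finset.mem_filter, Finset.mem_range, not_lt, Finset.mem_Ico]
        tauto
      rw [this, Nat.card_Ico]
  rw [h2] at h
  exact h

theorem nsmul_mem_of (R : Set E) (h0 : (0 : E) ∈ R) (hadd : ∀ x ∈ R, ∀ y ∈ R, x + y ∈ R)
    (n : ℕ) {x : E} (hx : x ∈ R) : (n : E) * x ∈ R := by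
  induction n with
  | zero => simpa using h0
  | succ k ih =>
    have : ((k + 1 : ℕ) : E) * x = (k : E) * x + x := by push_cast; ring
    rw [this]
    exact hadd _ ih _ hx

theorem add_mem_of (R : Set E) (h0 : (0 : E) ∈ R) (h1 : (1 : E) ∈ R)
    (hadd : ∀ x ∈ R, ∀ y ∈ R, x + y ∈ R) (hmul : ∀ x ∈ R, ∀ y ∈ R, x * y ∈ R)
    (hroot : ∀ x : E, x ^ S.m ∈ R → x ∈ R) {x y : E} (hx : x ∈ S.L R) (hy : y ∈ S.L R) :
    x + y ∈ S.L R := by
  show S.w * (x + y) ^ S.m ∈ R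
  rw [add_pow, Finset.mul_sum]
  have key : ∀ s : Finset ℕ, (∀ i ∈ s, i ≤ S.m) →
      ∑ i ∈ s, S.w * (x ^ i * y ^ (S.m - i) * (S.m.choose i : E)) ∈ R := by
    intro s
    induction s using Finset.induction_on with
    | empty => intro _; simpa using h0
    | insert a s ha ih =>
      intro hs
      rw [Finset.sum_insert ha]
      refine hadd _ ?_ _ (ih fun i hi => hs i (Finset.mem_insert_of_mem hi))
      have h3 := nsmul_mem_of R h0 hadd (S.m.choose a)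
        (mixed_mem_of S R h1 hmul hroot hx hy a (hs a (Finset.mem_insert_self _ _)))
      have h4 : S.w * (x ^ a * y ^ (S.m - a) * (S.m.choose a : E)) =
          (S.m.choose a : E) * (S.w * (x ^ a * y ^ (S.m - a))) := by ring
      rw [h4]
      exact h3
  exact key _ fun i hi => Nat.lt_succ_iff.mp (Finset.mem_range.mp hi)

theorem smul_mem_of (R : Set E) (hmul : ∀ x ∈ R, ∀ y ∈ R, x * y ∈ R) (h1 : (1 : E) ∈ R)
    {r y : E} (hr : r ∈ R) (hy : y ∈ S.L R) : r * y ∈ S.L R := by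
  show S.w * (r * y) ^ S.m ∈ R
  have : S.w * (r * y) ^ S.m = r ^ S.m * (S.w * y ^ S.m) := by ring
  rw [this]
  have hpow : ∀ n : ℕ, r ^ n ∈ R := by
    intro n
    induction n with
    | zero => simpa using h1
    | succ k ih => rw [pow_succ]; exact hmul _ ih _ hr
  exact hmul _ (hpow _) _ hy

theorem zero_mem_L (R : Set E) (h0 : (0 : E) ∈ R) : (0 : E) ∈ S.L R := by
  show S.w * (0 : E) ^ S.m ∈ R
  rw [zero_pow (m_ne_zero S), mul_zero]
  exact h0

/-- `L(Rm) ⊆ V`. -/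
theorem subV {y : E} (hy : y ∈ S.L S.Rm) : y ∈ S.V := by
  apply S.rootV
  have h : y ^ S.m = S.w⁻¹ * (S.w * y ^ S.m) := by
    rw [← mul_assoc, inv_mul_cancel₀ (w_ne_zero S), one_mul]
  rw [h]
  exact S.V.mul_mem (w_inv_mem S) ((Rm_le_V S) hy)

/-- `t ∈ V`, `π^k t ∈ R0` ⟹ `t ∈ R0`. -/
theorem mem_R0_of_pow_mul (k : ℕ) {t : E} (ht : t ∈ S.V)
    (h : algebraMap O E S.π ^ k * t ∈ S.R0) : t ∈ S.R0 := by
  induction k with
  | zero => simpa using h
  | succ k ih =>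
    apply ih
    apply S.desc0 _ (S.V.mul_mem (pipow_mem_V S k) ht)
    have h1 : algebraMap O E S.π * (algebraMap O E S.π ^ k * t)
        = algebraMap O E S.π ^ (k + 1) * t := by ring
    rw [h1]
    exact h

/-- `t ∈ V`, `π^k t ∈ Rinf` ⟹ `t ∈ Rinf`. -/
theorem mem_Rinf_of_pow_mul (k : ℕ) {t : E} (ht : t ∈ S.V)
    (h : algebraMap O E S.π ^ k * t ∈ S.Rinf) : t ∈ S.Rinf := by
  induction k with
  | zero => simpa using h
  | succ k ih =>
    apply ih
    apply S.descInf _ (S.V.mul_mem (pipow_mem_V S k) ht)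
    have h1 : algebraMap O E S.π * (algebraMap O E S.π ^ k * t)
        = algebraMap O E S.π ^ (k + 1) * t := by ring
    rw [h1]
    exact h

/-- `t ∈ V`, `π^k t ∈ Rm` ⟹ `t ∈ Rm`. -/
theorem mem_Rm_of_pow_mul (k : ℕ) {t : E} (ht : t ∈ S.V)
    (h : algebraMap O E S.π ^ k * t ∈ S.Rm) : t ∈ S.Rm := by
  induction k with
  | zero => simpa using h
  | succ k ih =>
    apply ih
    apply (Rm_desc S) (S.V.mul_mem (pipow_mem_V S k) ht)
    have h1 : algebraMap O E S.π * (algebraMap O E S.π ^ k * t)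
        = algebraMap O E S.π ^ (k + 1) * t := by ring
    rw [h1]
    exact h

/-- `w z^m ∈ V` for `z ∈ V`. -/
theorem w_mul_pow_mem_V {z : E} (hz : z ∈ S.V) : S.w * z ^ S.m ∈ S.V :=
  S.V.mul_mem (w_mem S) (S.V.pow_mem hz _)

theorem pow_mul_w_eq {y z : E} (hyz : y = algebraMap O E S.π * z) :
    algebraMap O E S.π ^ S.m * (S.w * z ^ S.m) = S.w * y ^ S.m := by
  rw [hyz]; ring

end L

/-- **[Cech2-L]** -/
theorem leafL (S : Setting O E) (hR : S.LeafR) : S.LeafL where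
  w_mem := w_mem S
  w_inv_mem := w_inv_mem S
  w_ne := w_ne_zero S
  mixed0 := fun _ hx _ hy i hi =>
    mixed_mem_of S _ S.R0.one_mem (fun _ hx _ hy => S.R0.mul_mem hx hy) S.root0 hx hy i hi
  mixedInf := fun _ hx _ hy i hi =>
    mixed_mem_of S _ S.Rinf.one_mem (fun _ hx _ hy => S.Rinf.mul_mem hx hy) S.rootInf hx hy i hi
  mixedM := fun _ hx _ hy i hi =>
    mixed_mem_of S _ (Rm_one S) hR.mul_mem hR.root hx hy i hi
  zero0 := zero_mem_L S _ S.R0.zero_mem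
  zeroInf := zero_mem_L S _ S.Rinf.zero_mem
  zeroM := zero_mem_L S _ (Rm_zero S)
  add0 := fun _ hx _ hy => add_mem_of S _ S.R0.zero_mem S.R0.one_mem
    (fun _ hx _ hy => S.R0.add_mem hx hy) (fun _ hx _ hy => S.R0.mul_mem hx hy) S.root0 hx hy
  addInf := fun _ hx _ hy => add_mem_of S _ S.Rinf.zero_mem S.Rinf.one_mem
    (fun _ hx _ hy => S.Rinf.add_mem hx hy) (fun _ hx _ hy => S.Rinf.mul_mem hx hy) S.rootInf
    hx hy
  addM := fun _ hx _ hy => add_mem_of S _ (Rm_zero S) (Rm_one S) hR.add_mem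
    hR.mul_mem hR.root hx hy
  smul0 := fun _ hr _ hy =>
    smul_mem_of S _ (fun _ hx _ hy => S.R0.mul_mem hx hy) S.R0.one_mem hr hy
  smulInf := fun _ hr _ hy =>
    smul_mem_of S _ (fun _ hx _ hy => S.Rinf.mul_mem hx hy) S.Rinf.one_mem hr hy
  smulM := fun _ hr _ hy => smul_mem_of S _ hR.mul_mem (Rm_one S) hr hy
  of_L0 := fun _ hy => hR.of_R0 _ hy
  of_LInf := fun _ hy => hR.of_Rinf _ hy
  subV := fun _ hy => subV S hy
  desc0 := by
    rintro y hy ⟨z, hz, hyz⟩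
    refine ⟨z, ?_, hyz⟩
    refine mem_R0_of_pow_mul S S.m (w_mul_pow_mem_V S hz) ?_
    rw [pow_mul_w_eq S hyz]
    exact hy
  descInf := by
    rintro y hy ⟨z, hz, hyz⟩
    refine ⟨z, ?_, hyz⟩
    refine mem_Rinf_of_pow_mul S S.m (w_mul_pow_mem_V S hz) ?_
    rw [pow_mul_w_eq S hyz]
    exact hy
  descM := by
    rintro y hy ⟨z, hz, hyz⟩
    refine ⟨z, ?_, hyz⟩
    refine mem_Rm_of_pow_mul S S.m (w_mul_pow_mem_V S hz) ?_
    rw [pow_mul_w_eq S hyz]
    exact hy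
  iff0 := by
    intro y
    have hm := m_pos S
    constructor
    · rintro ⟨n, hn⟩
      refine ⟨n, ?_⟩
      show S.w * (y * S.j ^ n) ^ S.m ∈ S.R0
      have : S.w * (y * S.j ^ n) ^ S.m = S.w * y ^ S.m * S.j ^ n * (S.j ^ n) ^ (S.m - 1) := by
        have h2 : (S.j ^ n) ^ S.m = S.j ^ n * (S.j ^ n) ^ (S.m - 1) := by
          rw [← pow_succ']
          congr 1
          omega
        rw [mul_pow, h2]
        ring
      rw [this]
      exact S.R0.mul_mem hn (S.R0.pow_mem (S.R0.pow_mem S.j_mem n) _)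
    · rintro ⟨n, hn⟩
      refine ⟨n * S.m, ?_⟩
      have h3 : S.w * (y * S.j ^ n) ^ S.m ∈ S.R0 := hn
      have : S.w * y ^ S.m * S.j ^ (n * S.m) = S.w * (y * S.j ^ n) ^ S.m := by
        rw [mul_pow, ← pow_mul]
        ring
      rw [this]
      exact h3
  iffInf := by
    intro y
    have hm := m_pos S
    constructor
    · intro hy
      obtain ⟨n, hn⟩ := (hR.iff_inf _).mp hy
      refine ⟨n, ?_⟩
      show S.w * (y * S.j⁻¹ ^ n) ^ S.m ∈ S.Rinf
      have : S.w * (y * S.j⁻¹ ^ n) ^ S.m =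
          S.w * y ^ S.m * S.j⁻¹ ^ n * (S.j⁻¹ ^ n) ^ (S.m - 1) := by
        have h2 : (S.j⁻¹ ^ n) ^ S.m = S.j⁻¹ ^ n * (S.j⁻¹ ^ n) ^ (S.m - 1) := by
          rw [← pow_succ']
          congr 1
          omega
        rw [mul_pow, h2]
        ring
      rw [this]
      exact S.Rinf.mul_mem hn (S.Rinf.pow_mem (S.Rinf.pow_mem S.jinv_mem n) _)
    · rintro ⟨n, hn⟩
      refine (hR.iff_inf _).mpr ⟨n * S.m, ?_⟩
      have h3 : S.w * (y * S.j⁻¹ ^ n) ^ S.m ∈ S.Rinf := hn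
      have : S.w * y ^ S.m * S.j⁻¹ ^ (n * S.m) = S.w * (y * S.j⁻¹ ^ n) ^ S.m := by
        rw [mul_pow, ← pow_mul]
        ring
      rw [this]
      exact h3

end Fermat.Agent.S34.Cech2Ring
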