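import Fermat.Agent.S34.Cech2Asm
import Fermat.Agent.S34.Cech2Ring
import Fermat.Agent.S34.Cech2Facts

/-!
# S34, block [Cech-bis] : the abstract two-chart lifting theorem, reducible special fibre

In the setting of `Cech2Plan.Setting` there is `h ≡ 1` modulo `π V` (in particular `h ≠ 0`)
with `w * h ^ m ∈ R0 ∩ Rinf`.
-/

set_option autoImplicit false

namespace Fermat.Agent.S34.Cech2

open Fermat.Agent.S34.Cech2Plan

/-- Block [Cech-bis], universe-polymorphic form. -/
theorem cech2 {O : Type*} [CommRing O] [IsDomain O] [IsDiscreteValuationRing O]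
    {E : Type*} [Field E] [Algebra O E] (S : Setting O E) : S.Conclusion := by
  have hR := Cech2Ring.leafR S
  have hL := Cech2Ring.leafL S hR
  have hA := Cech2Start.leafA S hL
  have hD := Cech2Facts.leafD_of_leafA S hR hL hA
  exact Cech2Asm.conclusion_of_RLD S hR hL hD

/-- Block [Cech-bis] in the form of the Plan. -/
theorem cech2Statement : Cech2Statement := fun _ _ _ _ _ _ _ S => cech2 S

/-- Unfolded form of the conclusion, for consumers. -/
theorem exists_root {O : Type*} [CommRing O] [IsDomain O] [IsDiscreteValuationRing O]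
    {E : Type*} [Field E] [Algebra O E] (S : Setting O E) :
    ∃ h : E, h ≠ 0 ∧ S.w * h ^ S.m ∈ S.R0 ∧ S.w * h ^ S.m ∈ S.Rinf ∧
      ∃ z ∈ S.V, h - 1 = algebraMap O E S.π * z :=
  cech2 S

end Fermat.Agent.S34.Cech2
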