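import Fermat.Agent.S34.LocPlan
import Fermat.Agent.S34.Cech2

/-!
# S34, ABSTRACT block, top: from the leaves of `LocPlan` to the conclusion of `Cech2`

Glue file (helper44) between the abstract leaf statements of `S34/LocPlan.lean` and the
two-chart lifting theorem `Cech2.cech2`.

Input: a discrete valuation ring `O` with uniformizer `π`, a field `E ⊇ O`, two `O`-subalgebras
`R0`, `Rinf` of `E` (the charts) glued along `j`, the two component valuation rings `V 0`, `V 1`
with `LocPlan.ChartHyp` on both charts, two automorphisms `τ`, `τ'` with `LocPlan.TauHyp` on both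
charts, a function `f ≠ 0`, and at every closed point `n` of the special fibre of either chart
the hypothesis of `LocPlan.LocAStatement` (at every horizontal prime `𝔮 ≤ n` with `PrincAt 𝔮`,
`f` is a unit, or a unit times an `m`-th power and `𝔮` has a cut function at `n`).

Output: `setting` — a complete `Cech2Plan.Setting O E` with `m`, `j`, `R0`, `Rinf` as given,
`V = V 0 ⊓ V 1` and `w = LocPlan.secondDiff τ τ' f`; `exists_root` — the conclusion of the
Čech-bis block for it: `secondDiff τ τ' f * h ^ m ∈ R0 ∩ Rinf` for some `h ≠ 0`.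

The three `[N4]` leaves `LocPlan.HwStatement`, `LocPlan.LocAStatement`,
`LocPlan.LocAdapterStatement` enter as hypotheses (`Prop`s of the Plan).
-/

set_option autoImplicit false

namespace Fermat.Agent.S34.AbsTop

open Fermat.Agent.S34.LocPlan

/-! ### The semilocal ring `V 0 ⊓ V 1` -/

section VSub

variable {E : Type*} [Field E]

/-- The semilocal ring of the two components: `V 0 ⊓ V 1`. -/
def vSub (V : Fin 2 → ValuationSubring E) : Subring E :=
  (V 0).toSubring ⊓ (V 1).toSubring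

theorem mem_vSub (V : Fin 2 → ValuationSubring E) (x : E) :
    x ∈ vSub V ↔ ∀ i : Fin 2, x ∈ V i := by
  unfold vSub
  rw [Subring.mem_inf]
  constructor
  · rintro ⟨h0, h1⟩ i
    fin_cases i
    · exact h0
    · exact h1
  · intro h
    exact ⟨h 0, h 1⟩

/-- A valuation ring is closed under `m`-th roots (`0 < m`). -/
theorem mem_of_pow_mem (W : ValuationSubring E) {m : ℕ} (hm : 0 < m) (x : E)
    (hx : x ^ m ∈ W) : x ∈ W := by
  rcases W.mem_or_inv_mem x with h | h
  · exact h
  · by_cases hx0 : x = 0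
    · rw [hx0]
      exact W.zero_mem
    · have h1 : x = x ^ m * x⁻¹ ^ (m - 1) := by
        obtain ⟨k, rfl⟩ : ∃ k, m = k + 1 := ⟨m - 1, by omega⟩
        rw [Nat.add_sub_cancel, pow_succ, inv_pow]
        field_simp
      rw [h1]
      exact W.mul_mem _ _ hx (pow_mem h _)

/-- `1 + ϖ z` is a unit of the valuation ring `W` if `ϖ` is a non-unit and `z ∈ W`. -/
theorem inv_one_add_mem (W : ValuationSubring E) (ϖ : E) (hϖ : ϖ⁻¹ ∉ W) (z : E) (hz : z ∈ W) :
    (1 + ϖ * z)⁻¹ ∈ W := by
  have hϖ0 : ϖ ≠ 0 := by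
    rintro rfl
    apply hϖ
    rw [inv_zero]
    exact W.zero_mem
  have h1 : W.valuation ϖ < 1 := by
    by_contra hcon
    apply hϖ
    rw [← ValuationSubring.valuation_le_one_iff, map_inv₀]
    exact inv_le_one_of_one_le₀ (not_lt.1 hcon)
  have h2 : W.valuation z ≤ 1 := (ValuationSubring.valuation_le_one_iff W z).2 hz
  have h3 : W.valuation (ϖ * z) < 1 := by
    rw [map_mul]
    calc W.valuation ϖ * W.valuation z ≤ W.valuation ϖ * 1 := mul_le_mul' le_rfl h2
      _ = W.valuation ϖ := mul_one _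
      _ < 1 := h1
  have h4 : W.valuation (1 + ϖ * z) = 1 := Valuation.map_one_add_of_lt _ h3
  rw [← ValuationSubring.valuation_le_one_iff, map_inv₀, h4, inv_one]

end VSub

/-! ### The fields of the Čech-bis setting coming from one chart -/

section Chart

variable {O : Type*} [CommRing O] {E : Type*} [Field E] [Algebra O E]
  (R : Subalgebra O E) {π : O} {V : Fin 2 → ValuationSubring E} {P : Fin 2 → Ideal R}

theorem pi_inv_not_mem (hC : ChartHyp π V P) (i : Fin 2) : (algebraMap O E π)⁻¹ ∉ V i :=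
  hC.pi_not i

theorem pi_ne_zero (hC : ChartHyp π V P) : algebraMap O E π ≠ 0 := by
  intro h
  apply pi_inv_not_mem R hC 0
  rw [h, inv_zero]
  exact (V 0).zero_mem

theorem le_vSub (hC : ChartHyp π V P) : ∀ x ∈ R, x ∈ vSub V := by
  intro x hx
  rw [mem_vSub]
  intro i
  exact hC.le i ⟨x, hx⟩

theorem one_not (hC : ChartHyp π V P) : ∀ z ∈ vSub V, (1 : E) ≠ algebraMap O E π * z := by
  intro z hz h
  apply pi_inv_not_mem R hC 0
  have h1 : (algebraMap O E π)⁻¹ = z := (eq_inv_of_mul_eq_one_right h.symm).symm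
  rw [h1]
  exact (mem_vSub V z).1 hz 0

theorem invV (hC : ChartHyp π V P) :
    ∀ z ∈ vSub V, (1 + algebraMap O E π * z)⁻¹ ∈ vSub V := by
  intro z hz
  rw [mem_vSub]
  intro i
  exact inv_one_add_mem (V i) _ (pi_inv_not_mem R hC i) z ((mem_vSub V z).1 hz i)

/-- `R ∩ π (V 0 ⊓ V 1) = π R`. -/
theorem desc (hC : ChartHyp π V P) :
    ∀ z ∈ vSub V, algebraMap O E π * z ∈ R → z ∈ R := by
  intro z hz hmem
  have hP : ∀ i : Fin 2, (⟨algebraMap O E π * z, hmem⟩ : R) ∈ P i := by
    intro i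
    rw [hC.mem_P i]
    exact ⟨z, (mem_vSub V z).1 hz i, rfl⟩
  obtain ⟨r', hr'⟩ := hC.red _ hP
  have h1 : algebraMap O E π * z = algebraMap O E π * (r' : E) := by
    have := congrArg (fun x : R => (x : E)) hr'
    simpa using this
  have h2 : z = (r' : E) := mul_left_cancel₀ (pi_ne_zero R hC) h1
  rw [h2]
  exact r'.2

/-- Uniqueness of the quotient by `π`: a family `z i ∈ V i` with `x = π * z i` gives one
`z ∈ V 0 ⊓ V 1`. -/
theorem exists_vSub (hC : ChartHyp π V P) (x : E)
    (h : ∀ i : Fin 2, ∃ z ∈ V i, x = algebraMap O E π * z) :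
    ∃ z ∈ vSub V, x = algebraMap O E π * z := by
  obtain ⟨z0, hz0, h0⟩ := h 0
  refine ⟨z0, ?_, h0⟩
  rw [mem_vSub]
  intro i
  obtain ⟨zi, hzi, hi⟩ := h i
  have : z0 = zi := mul_left_cancel₀ (pi_ne_zero R hC) (h0.symm.trans hi)
  rw [this]
  exact hzi

end Chart

/-! ### The `loc` field from `LocA` + `LocAdapter` -/

section Loc

variable {O : Type} [CommRing O] [IsDomain O] [IsDiscreteValuationRing O]
  {E : Type} [Field E] [Algebra O E]

/-- The hypothesis of `LocPlan.LocAStatement` at the closed point `n` of the chart `R`. -/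
def CutHyp (R : Subalgebra O E) (π : O) (f : E) (m : ℕ) (n : Ideal R) : Prop :=
  ∀ 𝔮 : Ideal R, 𝔮.IsPrime → 𝔮 ≤ n → algebraMap O R π ∉ 𝔮 → PrincAt 𝔮 →
    UnitAt 𝔮 f ∨
      ((∃ x : E, x ≠ 0 ∧ UnitAt 𝔮 (f * x ^ m)) ∧ ∃ e : R, Cut (algebraMap O R π) n 𝔮 e)

/-- The `loc0` / `locInf` field of `Cech2Plan.Setting` for one chart. -/
theorem loc (hLocA : LocAStatement) (hAd : LocAdapterStatement)
    (R : Subalgebra O E) [IsNoetherianRing R] [IsIntegrallyClosed R] [IsFractionRing R E]
    {π : O} (hπ : Irreducible π) {V : Fin 2 → ValuationSubring E} {P : Fin 2 → Ideal R}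
    (hC : ChartHyp π V P) {τ τ' : E ≃+* E} (hτ : TauHyp (R := R) π V τ)
    (hτ' : TauHyp (R := R) π V τ') {f : E} (hf : f ≠ 0) {m : ℕ} (hm : 0 < m)
    (n : Ideal R) (hn : n.IsMaximal) (hπn : algebraMap O R π ∈ n)
    (hcut : CutHyp R π f m n) :
    ∃ g : E, secondDiff τ τ' f * g ^ m ∈ R ∧
      ∃ r : R, r ∉ n ∧ ∃ z ∈ vSub V, g - (r : E) = algebraMap O E π * z := by
  obtain ⟨a, ha, s, hs, r, hr⟩ :=
    hLocA O R E π V P τ τ' f m n hπ hn hπn hf hC hτ hτ' hcut
  obtain ⟨⟨x, hx⟩, hz⟩ :=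
    hAd R E (algebraMap O R π) V (secondDiff τ τ' f) a m s r hm (fun i x => hC.le i x) ha hr
  refine ⟨(s : E) * a, ?_, s, hs, ?_⟩
  · have : secondDiff τ τ' f * ((s : E) * a) ^ m = (x : E) := hx.symm
    rw [this]
    exact x.2
  · exact exists_vSub R hC _ hz

end Loc

/-! ### The setting and the conclusion -/

section Top

variable {O : Type} [CommRing O] [IsDomain O] [IsDiscreteValuationRing O]
  {E : Type} [Field E] [Algebra O E]

/-- The complete input of the abstract block on two charts `R0`, `Rinf ⊆ E`. -/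
structure Hyp (π : O) (m : ℕ) (j : E) (R0 Rinf : Subalgebra O E)
    (V : Fin 2 → ValuationSubring E) (τ τ' : E ≃+* E) (f : E) : Prop where
  inj : Function.Injective (algebraMap O E)
  irr : Irreducible π
  hm : IsUnit (m : O)
  j_ne : j ≠ 0
  j_mem : j ∈ R0
  jinv_mem : j⁻¹ ∈ Rinf
  /-- `R0 ⊆ Rinf[j]` -/
  glue0 : ∀ x ∈ R0, ∃ n : ℕ, x * j⁻¹ ^ n ∈ Rinf
  /-- `Rinf ⊆ R0[1/j]` -/
  glueInf : ∀ x ∈ Rinf, ∃ n : ℕ, x * j ^ n ∈ R0
  root0 : ∀ x : E, x ^ m ∈ R0 → x ∈ R0
  rootInf : ∀ x : E, x ^ m ∈ Rinf → x ∈ Rinf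
  /-- `R0` is contained in a finitely generated `O[j]`-submodule of `E` -/
  fin0 : ∃ s : Finset E, (R0 : Set E) ⊆ Submodule.span (Algebra.adjoin O {j}) (s : Set E)
  noeth0 : IsNoetherianRing R0
  noethInf : IsNoetherianRing Rinf
  closed0 : IsIntegrallyClosed R0
  closedInf : IsIntegrallyClosed Rinf
  frac0 : IsFractionRing R0 E
  fracInf : IsFractionRing Rinf E
  /-- the vertical primes of the two charts and the chart hypotheses -/
  chart0 : ∃ P : Fin 2 → Ideal R0, ChartHyp π V P
  chartInf : ∃ P : Fin 2 → Ideal Rinf, ChartHyp π V P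
  tau0 : TauHyp (R := R0) π V τ
  tauInf : TauHyp (R := Rinf) π V τ
  tau'0 : TauHyp (R := R0) π V τ'
  tau'Inf : TauHyp (R := Rinf) π V τ'
  f_ne : f ≠ 0
  /-- the horizontal input at the closed points of the special fibre of `R0` -/
  cut0 : ∀ n : Ideal R0, n.IsMaximal → algebraMap O R0 π ∈ n → CutHyp R0 π f m n
  /-- the horizontal input at the closed points of the special fibre of `Rinf` -/
  cutInf : ∀ n : Ideal Rinf, n.IsMaximal → algebraMap O Rinf π ∈ n → CutHyp Rinf π f m n

variable {π : O} {m : ℕ} {j : E} {R0 Rinf : Subalgebra O E}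
  {V : Fin 2 → ValuationSubring E} {τ τ' : E ≃+* E} {f : E}

theorem Hyp.m_pos (H : Hyp π m j R0 Rinf V τ τ' f) : 0 < m := by
  rcases Nat.eq_zero_or_pos m with h | h
  · exfalso
    have h0 := H.hm
    rw [h, Nat.cast_zero] at h0
    exact not_isUnit_zero h0
  · exact h

/-- **The Čech-bis setting of the abstract block.** -/
noncomputable def setting (hLocA : LocAStatement) (hAd : LocAdapterStatement) (hHw : HwStatement)
    (H : Hyp π m j R0 Rinf V τ τ' f) : Cech2Plan.Setting O E where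
  π := π
  m := m
  j := j
  w := secondDiff τ τ' f
  R0 := R0
  Rinf := Rinf
  V := vSub V
  inj := H.inj
  irr := H.irr
  hm := H.hm
  j_ne := H.j_ne
  j_mem := H.j_mem
  jinv_mem := H.jinv_mem
  glue0 := H.glue0
  glueInf := H.glueInf
  root0 := H.root0
  rootInf := H.rootInf
  fin0 := H.fin0
  R0_le := by
    obtain ⟨P, hC⟩ := H.chart0
    exact le_vSub R0 hC
  Rinf_le := by
    obtain ⟨P, hC⟩ := H.chartInf
    exact le_vSub Rinf hC
  rootV := by
    intro x hx
    rw [mem_vSub] at hx ⊢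
    intro i
    exact mem_of_pow_mem (V i) H.m_pos x (hx i)
  one_not := by
    obtain ⟨P, hC⟩ := H.chart0
    exact one_not R0 hC
  invV := by
    obtain ⟨P, hC⟩ := H.chart0
    exact invV R0 hC
  desc0 := by
    obtain ⟨P, hC⟩ := H.chart0
    exact desc R0 hC
  descInf := by
    obtain ⟨P, hC⟩ := H.chartInf
    exact desc Rinf hC
  hw := by
    obtain ⟨P, hC⟩ := H.chart0
    exact exists_vSub R0 hC _ (hHw O R0 E π V P τ τ' f H.f_ne hC H.tau0 H.tau'0)
  loc0 := by
    intro n hn hπn
    obtain ⟨P, hC⟩ := H.chart0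
    have := H.noeth0
    have := H.closed0
    have := H.frac0
    exact loc hLocA hAd R0 H.irr hC H.tau0 H.tau'0 H.f_ne H.m_pos n hn hπn (H.cut0 n hn hπn)
  locInf := by
    intro n hn hπn
    obtain ⟨P, hC⟩ := H.chartInf
    have := H.noethInf
    have := H.closedInf
    have := H.fracInf
    exact loc hLocA hAd Rinf H.irr hC H.tauInf H.tau'Inf H.f_ne H.m_pos n hn hπn
      (H.cutInf n hn hπn)

section Simp

variable (hLocA : LocAStatement) (hAd : LocAdapterStatement) (hHw : HwStatement)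
  (H : Hyp π m j R0 Rinf V τ τ' f)

@[simp] theorem setting_π : (setting hLocA hAd hHw H).π = π := rfl
@[simp] theorem setting_m : (setting hLocA hAd hHw H).m = m := rfl
@[simp] theorem setting_j : (setting hLocA hAd hHw H).j = j := rfl
@[simp] theorem setting_w : (setting hLocA hAd hHw H).w = secondDiff τ τ' f := rfl
@[simp] theorem setting_R0 : (setting hLocA hAd hHw H).R0 = R0 := rfl
@[simp] theorem setting_Rinf : (setting hLocA hAd hHw H).Rinf = Rinf := rfl
@[simp] theorem setting_V : (setting hLocA hAd hHw H).V = vSub V := rfl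

end Simp

/-- **Top of the abstract block**: the second difference of `f` times an `m`-th power is a
global function (lies in both charts). -/
theorem exists_root (hLocA : LocAStatement) (hAd : LocAdapterStatement) (hHw : HwStatement)
    (H : Hyp π m j R0 Rinf V τ τ' f) :
    ∃ h : E, h ≠ 0 ∧ secondDiff τ τ' f * h ^ m ∈ R0 ∧ secondDiff τ τ' f * h ^ m ∈ Rinf ∧
      ∃ z ∈ vSub V, h - 1 = algebraMap O E π * z :=
  Cech2.exists_root (setting hLocA hAd hHw H)

end Top

end Fermat.Agent.S34.AbsTop
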