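/-
S34 — UGlue.lean (helper122).  "S34 from (U_q)", hypothesis form.

Frozen S34: in a Hecke–Galois datum `H` of level `N` away from `S` (`p ∈ S`, primes of `N` in
`S`), the representation `H.ρ` is unipotent on inertia at every prime `q ≠ p` with `q ∥ N`:
`charpoly (H.ρ.ρ τ) = (X - 1) ^ 2` for `τ` in an inertia group at `q`.

This file reduces S34 to ONE geometric statement about `J₀(N)`:

* `UStatement N p q` — `(τ - 1)² x = 0` for every `p`-power torsion class `x` of `J₀(N)` and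
  every `τ` in an inertia group at `q`  (Grothendieck's unipotent monodromy for the semistable
  reduction of `X₀(N)` at `q ∥ N`; NOT proved here).

Proof of the reduction (same trace technique as `S31/Plan.lean`).  Fix `τ` and a depth `k`.
With `c` from Artin–Rees [L5] and `n = k + c`: by [FD], `τ = σ ^ j` on a finite level containing
the level of `ρ mod 𝔪 ^ k`, `μ_{p^n}` and the fields of definition of `θ_n(Lpar N)`, `σ` a
Frobenius element at `ℓ ∉ S`.  Then `ℓ ^ j ≡ 1 mod p ^ n` (inertia at `q ≠ p` fixes `μ_{p^n}`), so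
`det ρ(τ) ≡ ℓ ^ j ≡ 1`; and on `y = θ_n u`:
`V_j(T_ℓ, ℓ) y = σ^j y + ℓ^j σ^{-j} y = τ y + τ⁻¹ y = 2 y` by (U), hence
`(V_j(T_ℓ, ℓ) - 2) Lpar N ⊆ p ^ n Lpar N`, hence ([L5] + [L6]) `π(V_j(T_ℓ, ℓ)) - 2 ∈ 𝔪 ^ k`, i.e.
`tr ρ(τ) ≡ tr ρ(σ)^j ≡ 2`.  Krull's intersection theorem gives `tr ρ(τ) = 2`, `det ρ(τ) = 1`,
and in rank two `charpoly = X² - tr · X + det`.
-/
import Mathlib
import Fermat.Statements.S34
import Fermat.Agent.S31.Defs
import Fermat.Agent.S31.Plan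
import Fermat.Agent.S31.JSideB
import Fermat.Agent.S31.TraceLevel
import Fermat.Agent.S29.ESUse
import Fermat.Agent.S41.LparFree

set_option autoImplicit false

open ModularCurve CongruenceSubgroup Polynomial

namespace Fermat.Agent.S34

noncomputable section

open Fermat.Agent.S29 (Qb GQ heckeLpar KStatement SpecCoreStatement FDStatement)
open Fermat.Agent.S29.Lucas (lucasV)
open Fermat.Agent.S41 (Lpar)
open Fermat.Agent.S31 (lucasPoly TraceContStatement LucasTraceStatement FrobPowStatement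
  RootStatement ArtinReesStatement HeckeCompareStatement HIdx HPoly evL evC evL_single evC_single)

/-! ### The geometric leaf -/

/-- **(U_q)** unipotent monodromy: `(τ - 1)² x = 0` for every `p`-power torsion class `x` of
`J₀(N)` and every `τ` in an inertia group at `q`.  (True for `q ∥ N`, `q ≠ p`.) -/
def UStatement (N p q : ℕ) [NeZero N] : Prop :=
  ∀ P : ValuationSubring Qb, P.LiesOverPrime q → ∀ τ ∈ P.inertiaSubgroupIn ℚ,
    ∀ x : JZero N, (∃ n : ℕ, p ^ n • x = 0) → τ • τ • x + x = 2 • τ • x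

/-- The second-difference form of (U_q): `(τ' - 1)(τ - 1) x = 0` for `τ, τ'` in the same
inertia group. -/
def U2Statement (N p q : ℕ) [NeZero N] : Prop :=
  ∀ P : ValuationSubring Qb, P.LiesOverPrime q → ∀ τ ∈ P.inertiaSubgroupIn ℚ,
    ∀ τ' ∈ P.inertiaSubgroupIn ℚ, ∀ x : JZero N, (∃ n : ℕ, p ^ n • x = 0) →
      τ' • τ • x + x = τ' • x + τ • x

theorem uStatement_of_u2 {N p q : ℕ} [NeZero N] (h : U2Statement N p q) : UStatement N p q := by
  intro P hP τ hτ x hx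
  rw [h P hP τ hτ τ hτ x hx, two_smul]

/-- `(τ - 1)² x = 0` in the form `τ x + τ⁻¹ x = 2 x`. -/
theorem smul_add_inv_smul {N : ℕ} (τ : GQ) (x : JZero N) (h : τ • τ • x + x = 2 • τ • x) :
    τ • x + τ⁻¹ • x = 2 • x := by
  have h1 : τ⁻¹ • (τ • τ • x + x) = τ⁻¹ • (2 • τ • x) := by rw [h]
  rw [two_smul, smul_add, smul_add, inv_smul_smul, inv_smul_smul] at h1
  rw [h1, two_smul]

/-! ### The `J₀(N)`-side -/

/-- **The J-side of S34**: an inertia element `τ` at `q` agrees on a prescribed finite level with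
a power `σ ^ j` of a Frobenius element at a prime `ℓ ∉ S`, `ℓ ∤ N p`, such that
`ℓ ^ j ≡ 1 mod p ^ n` and `V_j(T_ℓ, ℓ) - 2` is divisible by `p ^ n` on `Lpar N`. -/
def UJSideStatement (N p q : ℕ) [NeZero N] : Prop :=
  ∀ (n : ℕ) (S : Finset ℕ) (L₀ : IntermediateField ℚ Qb), FiniteDimensional ℚ L₀ →
    ∀ P : ValuationSubring Qb, P.LiesOverPrime q → ∀ τ : GQ, τ ∈ P.inertiaSubgroupIn ℚ →
      ∃ (ℓ : ℕ) (h : ℓ.Prime) (hN : ¬ ℓ ∣ N) (A : ValuationSubring Qb) (σ : GQ) (j : ℕ),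
        ℓ ∉ S ∧ ℓ ≠ p ∧ A.LiesOverPrime ℓ ∧ A.IsFrobeniusAt σ ℓ ∧
        (∀ x ∈ L₀, τ x = (σ ^ j) x) ∧ ℓ ^ j ≡ 1 [MOD p ^ n] ∧
        ∀ u : Lpar N, ∃ w : Lpar N,
          Polynomial.aeval (heckeLpar N ℓ h hN) (lucasPoly ℓ j - C 2) u = ((p : ℤ) ^ n) • w

/-- The J-side from (U_q) and the landed level-`p^n` leaves of the S29/S31 routes. -/
theorem ujSide_of_u (N p q : ℕ) [NeZero N] (hp : p.Prime) (hq : q.Prime) (hqp : q ≠ p)
    (hK : ∀ n : ℕ, KStatement N (p ^ n)) (hFrob : FrobPowStatement N p)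
    (hRoot : RootStatement p) (hFD : FDStatement) (hU : UStatement N p q) :
    UJSideStatement N p q := by
  classical
  intro n S L₀ hL₀ P hP τ hτ
  obtain ⟨θ, htors, hker, hhecke⟩ := hK n
  have hm : p ^ n ≠ 0 := pow_ne_zero n hp.ne_zero
  have : NeZero (p ^ n) := ⟨hm⟩
  obtain ⟨ζ, hζ⟩ := Fermat.Agent.S31.JSideB.exists_primitiveRoot (p ^ n) hm
  have hζint : IsIntegral ℚ ζ :=
    (Fermat.Agent.S29.FinLevel.isAlgebraic_rat.isAlgebraic ζ).isIntegral
  obtain ⟨L, hLfin, hLstab, hL₀L, hζL, hfix⟩ :=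
    Fermat.Agent.S31.JSideB.exists_level N (p ^ n) hm θ htors L₀ hL₀ ζ hζint
  have hNp : N * p ≠ 0 := Nat.mul_ne_zero (NeZero.ne N) hp.ne_zero
  obtain ⟨ℓ, A, σ, j, h, hS, hA, hσ, hτσ⟩ := hFD L hLfin (S ∪ (N * p).primeFactors) τ
  have hℓNp : ¬ ℓ ∣ N * p := fun hd =>
    hS (Finset.mem_union_right _ (Nat.mem_primeFactors.mpr ⟨h, hd, hNp⟩))
  have hN : ¬ ℓ ∣ N := fun hd => hℓNp (Dvd.dvd.mul_right hd p)
  have hℓp : ℓ ≠ p := fun he => hℓNp (he ▸ Dvd.intro_left N rfl)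
  -- the congruence `ℓ ^ j ≡ 1 mod p ^ n`
  have hζ1 : ζ ^ (p ^ n) = 1 := hζ.pow_eq_one
  have hcong : ℓ ^ j ≡ 1 [MOD p ^ n] := by
    apply Fermat.Agent.S31.JSideB.modEq_of_pow_eq hζ
    have e1 : τ ζ = ζ ^ (ℓ ^ j) := by
      rw [hτσ ζ hζL]
      exact Fermat.Agent.S31.JSideB.frob_pow_root hRoot h hℓp A hA σ hσ n j ζ hζ1
    have e3 : τ ζ = ζ := (hRoot n ζ hζ1).2 q hq hqp P hP τ hτ
    rw [← e1, e3, pow_one]
  refine ⟨ℓ, h, hN, A, σ, j, fun h' => hS (Finset.mem_union_left _ h'), hℓp, hA, hσ,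
    fun x hx => hτσ x (hL₀L hx), hcong, ?_⟩
  -- Hecke clause at `ℓ ≠ p^n`
  have hne : ℓ ≠ p ^ n := by
    intro he
    rcases Nat.eq_zero_or_pos n with h0 | hpos
    · rw [h0, pow_zero] at he
      exact h.one_lt.ne' he
    · have hdvd : p ∣ ℓ := he ▸ dvd_pow_self p hpos.ne'
      exact hℓp ((Nat.prime_dvd_prime_iff_eq hp h).mp hdvd).symm
  intro u
  have htor' : ∃ k : ℕ, p ^ k • θ u = 0 := ⟨n, htors u⟩
  set x := θ u with hx
  have hxfix : ∀ η : GQ, (∀ a ∈ L, η a = a) → η • x = x := fun η hη => hfix η hη u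
  have a1 : τ • x = (σ ^ j) • x :=
    Fermat.Agent.S31.JSideB.smul_eq_of_eq_on L x hxfix _ _ hτσ
  have a2 : τ⁻¹ • x = (σ ^ j)⁻¹ • x :=
    Fermat.Agent.S31.JSideB.smul_eq_of_eq_on L x hxfix _ _
      (Fermat.Agent.S31.JSideB.inv_eq_on_of_eq_on L hLstab _ _ hτσ)
  have c1 := hFrob ℓ h hℓNp A hA σ hσ j x htor'
  rw [← a1, ← a2] at c1
  have hy : (p ^ n) • (τ⁻¹ • x) = 0 := by
    have h0 : (p ^ n) • x = 0 := htors u
    rw [← Fermat.Agent.S29.ESUse.gal_apply, ← map_nsmul, h0, map_zero]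
  have c3 : (ℓ ^ j) • (τ⁻¹ • x) = 1 • (τ⁻¹ • x) :=
    Fermat.Agent.S31.JSideB.nsmul_eq_of_modEq hcong hy
  rw [c3, one_nsmul] at c1
  have hu2 : τ • x + τ⁻¹ • x = 2 • x := smul_add_inv_smul τ x (hU P hP τ hτ x htor')
  have heq : Polynomial.aeval (heckeOperatorBar N ⟨ℓ, h⟩) (lucasPoly ℓ j - C 2) x = 0 := by
    rw [map_sub, LinearMap.sub_apply, ← c1, hu2, aeval_C, Module.algebraMap_end_apply,
      show (2 : ℤ) = ((2 : ℕ) : ℤ) from rfl, natCast_zsmul, sub_self]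
  have i1 := Fermat.Agent.S31.JSideB.aeval_intertwine θ (heckeLpar N ℓ h hN)
    (heckeOperatorBar N ⟨ℓ, h⟩) (fun v => hhecke ℓ h hN hne v) (lucasPoly ℓ j - C 2) u
  have hzero : θ (Polynomial.aeval (heckeLpar N ℓ h hN) (lucasPoly ℓ j - C 2) u) = 0 := by
    rw [i1, ← hx, heq]
  obtain ⟨z, hz⟩ := hker _ hzero
  refine ⟨z, ?_⟩
  rw [hz]
  push_cast
  rfl

/-! ### The `ρ`-side -/

namespace UGlue

/-- The determinants of two endomorphisms of a finite free module that differ by a map with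
image in `I • ⊤` are congruent modulo `I`. -/
theorem det_sub_mem_of_forall_mem {T : Type*} [CommRing T] {V : Type*} [AddCommGroup V]
    [Module T V] [Module.Free T V] [Module.Finite T V] (I : Ideal T) (f f' : Module.End T V)
    (hf : ∀ v : V, (f - f') v ∈ I • (⊤ : Submodule T V)) :
    LinearMap.det f - LinearMap.det f' ∈ I := by
  classical
  rcases subsingleton_or_nontrivial T with hT | hT
  · have h0 : LinearMap.det f - LinearMap.det f' = 0 := Subsingleton.elim _ _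
    rw [h0]
    exact I.zero_mem
  let b := Module.Free.chooseBasis T V
  have key : ∀ x ∈ I • (⊤ : Submodule T V), ∀ i, b.repr x i ∈ I := by
    intro x hx i
    refine Submodule.smul_induction_on (p := fun x => b.repr x i ∈ I) hx ?_ ?_
    · intro r hr m _
      rw [map_smul, Finsupp.smul_apply, smul_eq_mul]
      exact I.mul_mem_right _ hr
    · intro x y hx hy
      rw [map_add, Finsupp.add_apply]
      exact I.add_mem hx hy
  rw [← LinearMap.det_toMatrix b f, ← LinearMap.det_toMatrix b f', ← Ideal.Quotient.eq,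
    RingHom.map_det, RingHom.map_det]
  congr 1
  ext i j
  rw [RingHom.mapMatrix_apply, RingHom.mapMatrix_apply, Matrix.map_apply, Matrix.map_apply,
    Ideal.Quotient.eq, LinearMap.toMatrix_apply, LinearMap.toMatrix_apply, ← Finsupp.sub_apply,
    ← map_sub, ← LinearMap.sub_apply]
  exact key _ (hf (b j)) i

/-- Adic continuity of trace and determinant, at the same finite level. -/
theorem exists_level_trace_det {T : Type} [CommRing T] [IsLocalRing T] (ρ : GaloisRepAdic T)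
    (n : ℕ) :
    ∃ L : IntermediateField ℚ Qb, FiniteDimensional ℚ L ∧
      ∀ g g' : GQ, (∀ x ∈ L, g x = g' x) →
        LinearMap.trace T ρ.V (ρ.ρ g) - LinearMap.trace T ρ.V (ρ.ρ g') ∈
            IsLocalRing.maximalIdeal T ^ n ∧
          LinearMap.det (ρ.ρ g) - LinearMap.det (ρ.ρ g') ∈ IsLocalRing.maximalIdeal T ^ n := by
  obtain ⟨L, hL, h⟩ := ρ.isAdicContinuous n
  refine ⟨L, hL, fun g g' hgg' => ?_⟩
  have hσ : ∀ x ∈ L, (g'⁻¹ * g) x = x := by
    intro x hx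
    rw [AlgEquiv.mul_apply, hgg' x hx, AlgEquiv.aut_inv, AlgEquiv.symm_apply_apply]
  have h1 := h (g'⁻¹ * g) hσ
  have hdiff : ∀ v : ρ.V, (ρ.ρ g - ρ.ρ g') v ∈
      (IsLocalRing.maximalIdeal T ^ n) • (⊤ : Submodule T ρ.V) := by
    intro v
    have h2 : (ρ.ρ g - ρ.ρ g') v = ρ.ρ g' (ρ.ρ (g'⁻¹ * g) v - v) := by
      rw [map_sub, ← Module.End.mul_apply, ← map_mul, mul_inv_cancel_left, LinearMap.sub_apply]
    rw [h2]
    exact Fermat.Agent.S31.TraceLevel.map_mem_smul_top _ (ρ.ρ g') (h1 v)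
  refine ⟨?_, det_sub_mem_of_forall_mem _ _ _ hdiff⟩
  rw [← map_sub]
  exact Fermat.Agent.S31.TraceLevel.trace_mem_of_forall_mem _ _ hdiff

/-- In rank two, `charpoly f = X² - tr f · X + det f`. -/
theorem charpoly_eq_trace_det {T : Type*} [CommRing T] [Nontrivial T] {V : Type*}
    [AddCommGroup V] [Module T V] [Module.Free T V] [Module.Finite T V]
    (h2 : Module.finrank T V = 2) (f : Module.End T V) :
    LinearMap.charpoly f = X ^ 2 - C (LinearMap.trace T V f) * X + C (LinearMap.det f) := by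
  classical
  let b := Module.Free.chooseBasis T V
  have hcard : Fintype.card (Module.Free.ChooseBasisIndex T V) = 2 := by
    rw [← Module.finrank_eq_card_chooseBasisIndex, h2]
  let e : Module.Free.ChooseBasisIndex T V ≃ Fin 2 := Fintype.equivFinOfCardEq hcard
  let b' : Module.Basis (Fin 2) T V := b.reindex e
  rw [← LinearMap.charpoly_toMatrix f b', Matrix.charpoly_fin_two,
    LinearMap.trace_eq_matrix_trace T b' f, ← LinearMap.det_toMatrix b' f]

variable {p q : ℕ} {N : ℕ} [NeZero N] {S : Finset ℕ}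
  {𝒪 : Type} [CommRing 𝒪] [IsDomain 𝒪] [IsDiscreteValuationRing 𝒪]
  [IsAdicComplete (IsLocalRing.maximalIdeal 𝒪) 𝒪]
  {θ : CuspForm.heckeAlgebra N 2 (↑S : Set ℕ) →+* IsLocalRing.ResidueField 𝒪}
  {T : Type} [CommRing T] [IsLocalRing T] [IsNoetherianRing T]
  [IsAdicComplete (IsLocalRing.maximalIdeal T) T] [Algebra 𝒪 T] [IsLocalHom (algebraMap 𝒪 T)]
  [Module.Finite 𝒪 T] [Module.Free 𝒪 T]

/-- The determinant of `ρ` at a Frobenius element at `ℓ ∉ S`, `ℓ ∤ N`. -/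
theorem det_frob (H : CuspForm.HeckeGaloisRepDatum N (↑S : Set ℕ) 𝒪 θ T)
    (i : HIdx N (↑S : Set ℕ)) (A : ValuationSubring Qb) (hA : A.LiesOverPrime i.1)
    (σ : GQ) (hσ : A.IsFrobeniusAt σ i.1) :
    LinearMap.det (H.ρ.ρ σ) = (i.1 : T) := by
  have h1 := H.charpoly_frob i.1 i.2.1 i.2.2.1 i.2.2.2 A hA σ hσ
  have h2 := charpoly_eq_trace_det H.ρ.finrank_eq (H.ρ.ρ σ)
  rw [h1] at h2
  have h3 := congrArg (fun P : Polynomial T => P.coeff 0) h2
  simp only [coeff_add, coeff_sub, coeff_X_pow, coeff_C_mul, coeff_X_zero, coeff_C_zero,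
    mul_zero, sub_zero] at h3
  simpa using h3.symm

/-- **The congruences**: `tr ρ(τ) ≡ 2` and `det ρ(τ) ≡ 1` modulo every power of `𝔪_T`. -/
theorem trace_det_mem (hL2b : LucasTraceStatement) (hL5 : ArtinReesStatement)
    (hL6 : HeckeCompareStatement N (↑S : Set ℕ)) (hJ : UJSideStatement N p q)
    (hp𝒪 : (p : 𝒪) ∈ IsLocalRing.maximalIdeal 𝒪)
    (H : CuspForm.HeckeGaloisRepDatum N (↑S : Set ℕ) 𝒪 θ T)
    (P : ValuationSubring Qb) (hP : P.LiesOverPrime q) (τ : GQ)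
    (hτ : τ ∈ P.inertiaSubgroupIn ℚ) (k : ℕ) :
    LinearMap.trace T H.ρ.V (H.ρ.ρ τ) - 2 ∈ IsLocalRing.maximalIdeal T ^ k ∧
      LinearMap.det (H.ρ.ρ τ) - 1 ∈ IsLocalRing.maximalIdeal T ^ k := by
  have : Module.Finite ℤ (Lpar N) := Fermat.Agent.S41.LparFree.lpar_finite N
  have : Module.Free ℤ (Lpar N) := Fermat.Agent.S41.LparFree.lpar_free N
  obtain ⟨c, hc⟩ := hL5 (Lpar N) (HPoly N (↑S : Set ℕ)) (evL N (↑S : Set ℕ)) p
  obtain ⟨L₀, hL₀fd, hL₀⟩ := exists_level_trace_det H.ρ k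
  obtain ⟨ℓ, h, hN, A, σ, j, hS, -, hA, hσ, hg, hcong, hdiv⟩ :=
    hJ (k + c) S L₀ hL₀fd P hP τ hτ
  set i : HIdx N (↑S : Set ℕ) := ⟨ℓ, h, hN, by simpa using hS⟩ with hi
  set PP : HPoly N (↑S : Set ℕ) := Finsupp.single i (lucasPoly ℓ j - C 2) with hPP
  have hev : evL N (↑S : Set ℕ) PP =
      Polynomial.aeval (heckeLpar N ℓ h hN) (lucasPoly ℓ j - C 2) := by
    rw [hPP, evL_single]
  obtain ⟨Q, hQ⟩ := hc (k + c) PP (fun u => by rw [hev]; exact hdiv u)
  rw [Nat.add_sub_cancel] at hQ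
  have h0 : evL N (↑S : Set ℕ) (PP - ((p : ℤ) ^ k) • Q) = 0 := by
    rw [map_sub, map_zsmul, hQ, sub_self]
  have h1 := hL6 _ h0
  rw [map_sub, map_zsmul, sub_eq_zero] at h1
  have hpT : (p : T) ∈ IsLocalRing.maximalIdeal T :=
    Fermat.Agent.S31.Plan.natCast_mem_maximalIdeal hp𝒪
  have h2 : H.π (evC N (↑S : Set ℕ) PP) ∈ IsLocalRing.maximalIdeal T ^ k := by
    rw [h1, zsmul_eq_mul, map_mul, map_intCast, Int.cast_pow, Int.cast_natCast]
    exact Ideal.mul_mem_right _ _ (Ideal.pow_mem_pow hpT k)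
  have h3 : H.π (evC N (↑S : Set ℕ) PP) = LinearMap.trace T H.ρ.V (H.ρ.ρ (σ ^ j)) - 2 := by
    rw [Fermat.Agent.S31.Plan.trace_frob_pow hL2b H i A hA σ hσ j, hPP, evC_single, evC_single,
      map_sub, map_sub, aeval_C]
    simp only [map_ofNat]
    rfl
  obtain ⟨e1, e2⟩ := hL₀ τ (σ ^ j) hg
  rw [h3] at h2
  refine ⟨?_, ?_⟩
  · have := Ideal.add_mem _ e1 h2
    convert this using 1
    ring
  · have hdet : LinearMap.det (H.ρ.ρ (σ ^ j)) = ((ℓ ^ j : ℕ) : T) := by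
      rw [map_pow, map_pow, det_frob H i A hA σ hσ]
      push_cast
      rfl
    have hmem : ((ℓ ^ j : ℕ) : T) - 1 ∈ IsLocalRing.maximalIdeal T ^ k := by
      obtain ⟨z, hz⟩ := (Nat.modEq_iff_dvd.mp hcong)
      have hz' : ((ℓ ^ j : ℕ) : ℤ) - 1 = ((p : ℤ) ^ (k + c)) * (-z) := by
        have : ((1 : ℕ) : ℤ) - ((ℓ ^ j : ℕ) : ℤ) = ((p ^ (k + c) : ℕ) : ℤ) * z := hz
        push_cast at this ⊢
        linarith
      have hcast : ((ℓ ^ j : ℕ) : T) - 1 = ((p : T) ^ (k + c)) * ((-z : ℤ) : T) := by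
        have := congrArg (fun a : ℤ => (a : T)) hz'
        push_cast at this ⊢
        simpa using this
      rw [hcast]
      exact Ideal.mul_mem_right _ _
        (Ideal.pow_le_pow_right (Nat.le_add_right k c) (Ideal.pow_mem_pow hpT (k + c)))
    rw [hdet] at e2
    have := Ideal.add_mem _ e2 hmem
    convert this using 1
    ring

/-- **S34 from its leaves** (the J-side statement `UJSideStatement N p q` is the only one not
on main; it follows from `UStatement N p q` by `ujSide_of_u`). -/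
theorem result_of_leaves (hL2b : LucasTraceStatement) (hL5 : ArtinReesStatement)
    (hL6 : HeckeCompareStatement N (↑S : Set ℕ)) (hJ : UJSideStatement N p q)
    (hp𝒪 : (p : 𝒪) ∈ IsLocalRing.maximalIdeal 𝒪)
    (H : CuspForm.HeckeGaloisRepDatum N (↑S : Set ℕ) 𝒪 θ T) :
    H.ρ.IsUnipotentOnInertiaAt q := by
  intro P hP τ hτ
  have hbot : (⨅ k : ℕ, IsLocalRing.maximalIdeal T ^ k) = ⊥ :=
    Ideal.iInf_pow_eq_bot_of_isLocalRing (IsLocalRing.maximalIdeal T) Ideal.IsPrime.ne_top'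
  have htr : LinearMap.trace T H.ρ.V (H.ρ.ρ τ) = 2 := by
    have hmem : LinearMap.trace T H.ρ.V (H.ρ.ρ τ) - 2 ∈
        (⨅ k : ℕ, IsLocalRing.maximalIdeal T ^ k) :=
      (Ideal.mem_iInf).2 fun k => (trace_det_mem hL2b hL5 hL6 hJ hp𝒪 H P hP τ hτ k).1
    rw [hbot, Ideal.mem_bot, sub_eq_zero] at hmem
    exact hmem
  have hdet : LinearMap.det (H.ρ.ρ τ) = 1 := by
    have hmem : LinearMap.det (H.ρ.ρ τ) - 1 ∈ (⨅ k : ℕ, IsLocalRing.maximalIdeal T ^ k) :=
      (Ideal.mem_iInf).2 fun k => (trace_det_mem hL2b hL5 hL6 hJ hp𝒪 H P hP τ hτ k).2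
    rw [hbot, Ideal.mem_bot, sub_eq_zero] at hmem
    exact hmem
  rw [charpoly_eq_trace_det H.ρ.finrank_eq, htr, hdet]
  simp only [map_ofNat, map_one]
  ring

end UGlue

end

end Fermat.Agent.S34
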