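/-
S34 — UTop.lean (helper122).  "S34 from (U_q)" with every other leaf discharged from main.

`result_of_u`: the frozen S34 conclusion from the single hypothesis `UStatement N p q`
(`(τ - 1)² = 0` on the `p`-power torsion of `J₀(N)` for `τ` in an inertia group at `q`;
`S34/UGlue.lean`).  All other inputs are landed results of the S29 / S31 routes:
`S29.kStatement N (p ^ n)`, `FrobPow.frobPowStatement_of_specCore`, `rootStatement`,
`FDStmt.fdStatement`, `lucasTraceStatement`, `artinReesStatement`,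
`HeckeCompareB.heckeCompareStatement`.

`UqStatement` is the geometric block in the exact generality S34 needs (`q ∥ N`, `q ≠ p`), and
`s34_of_uq : UqStatement → <frozen S34>` is the statement of `Fermat/Templates/S34.lean.txt`
verbatim, so `S34.lean` is a one-liner once `UqStatement` is proved.
-/
import Mathlib
import Fermat.Statements.S34
import Fermat.Agent.S34.UGlue
import Fermat.Agent.S31.TraceLevel
import Fermat.Agent.S31.ArtinRees
import Fermat.Agent.S31.FrobPow
import Fermat.Agent.S31.RootN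
import Fermat.Agent.S31.HeckeCompareB
import Fermat.Agent.S29.KTop
import Fermat.Agent.S29.SpecCoreS37
import Fermat.Agent.S29.FDStmt

set_option autoImplicit false

open IsLocalRing
open CuspForm CuspForm.HeckeGaloisRepDatum

namespace Fermat.Agent.S34

/-- The J-side of S34 from (U_q) alone (all other leaves are on main). -/
theorem ujSideStatement_of_u (N p q : ℕ) [NeZero N] (hp : p.Prime) (hq : q.Prime) (hqp : q ≠ p)
    (hU : UStatement N p q) : UJSideStatement N p q :=
  ujSide_of_u N p q hp hq hqp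
    (fun n => Fermat.Agent.S29.kStatement N (p ^ n) (pow_ne_zero n hp.ne_zero))
    (Fermat.Agent.S31.FrobPow.frobPowStatement_of_specCore N p
      (Fermat.Agent.S29.specCoreStatement N p))
    (Fermat.Agent.S31.rootStatement p hp) Fermat.Agent.S29.FDStmt.fdStatement hU

/-- **S34 from (U_q)**, under the frozen binders. -/
theorem result_of_u
    {𝒪 : Type} [CommRing 𝒪] [IsDomain 𝒪] [IsDiscreteValuationRing 𝒪]
    [IsAdicComplete (maximalIdeal 𝒪) 𝒪]
    {p : ℕ} (hp : p.Prime) (hp𝒪 : (p : 𝒪) ∈ maximalIdeal 𝒪)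
    {N : ℕ} [NeZero N] {S : Finset ℕ}
    {θ : CuspForm.heckeAlgebra N 2 (↑S : Set ℕ) →+* ResidueField 𝒪}
    {T : Type} [CommRing T] [IsLocalRing T] [IsNoetherianRing T]
    [IsAdicComplete (maximalIdeal T) T] [Algebra 𝒪 T] [IsLocalHom (algebraMap 𝒪 T)]
    [Module.Finite 𝒪 T] [Module.Free 𝒪 T]
    (H : CuspForm.HeckeGaloisRepDatum N (↑S : Set ℕ) 𝒪 θ T)
    (q : ℕ) (hq : q.Prime) (hqp : q ≠ p) (hU : UStatement N p q) :
    H.ρ.IsUnipotentOnInertiaAt q :=
  UGlue.result_of_leaves Fermat.Agent.S31.lucasTraceStatement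
    Fermat.Agent.S31.artinReesStatement
    (Fermat.Agent.S31.HeckeCompareB.heckeCompareStatement N (↑S : Set ℕ))
    (ujSideStatement_of_u N p q hp hq hqp hU) hp𝒪 H

/-- **The geometric block** in the generality needed by S34: unipotent monodromy of the
`p`-power torsion of `J₀(N)` at every prime `q ≠ p` exactly dividing `N`. -/
def UqStatement : Prop :=
  ∀ (N : ℕ) [NeZero N] (p q : ℕ), p.Prime → q.Prime → q ≠ p → q ∣ N → ¬ q ^ 2 ∣ N →
    UStatement N p q

/-- **S34 from the geometric block** — the statement of `Fermat/Templates/S34.lean.txt`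
verbatim, with the extra hypothesis `hUq`. -/
theorem s34_of_uq (hUq : UqStatement)
    {𝒪 : Type} [CommRing 𝒪] [IsDomain 𝒪] [IsDiscreteValuationRing 𝒪]
    [IsAdicComplete (maximalIdeal 𝒪) 𝒪] [Finite (ResidueField 𝒪)] [CharZero 𝒪]
    {p : ℕ} (hp : p.Prime) (hp𝒪 : (p : 𝒪) ∈ maximalIdeal 𝒪)
    {N : ℕ} [NeZero N] {S : Finset ℕ} (_hpS : p ∈ S) (_hNS : ∀ q : ℕ, q.Prime → q ∣ N → q ∈ S)
    {θ : CuspForm.heckeAlgebra N 2 (↑S : Set ℕ) →+* ResidueField 𝒪}
    {T : Type} [CommRing T] [IsLocalRing T] [IsNoetherianRing T]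
    [IsAdicComplete (maximalIdeal T) T] [Algebra 𝒪 T] [IsLocalHom (algebraMap 𝒪 T)]
    [Module.Finite 𝒪 T] [Module.Free 𝒪 T]
    (H : CuspForm.HeckeGaloisRepDatum N (↑S : Set ℕ) 𝒪 θ T)
    (q : ℕ) (hq : q.Prime) (hqp : q ≠ p) (hqN : q ∣ N) (hq2 : ¬ q ^ 2 ∣ N) :
    H.ρ.IsUnipotentOnInertiaAt q :=
  result_of_u hp hp𝒪 H q hq hqp (hUq N p q hp hq hqp hqN hq2)

end Fermat.Agent.S34
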