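/-
S34 — UPlan.lean (captain: helper85).  BINDING J-side plan of the geometric block `(U_q)`.

Chain (each arrow one kernel-checked hypothesis-form theorem):

    frozen S34  ⇐  UqStatement                                    (S34/UTop.lean, helper122)
    UqStatement ⇐  ∀ M q m, CoreStatement (M * q) q m  +  Cech2Statement     (`uq_of_core`, here)

* `sdFun N τ τ' f`  — the second difference `τ'τ f · f / (τ' f · τ f)` of a function of `F̄_N`
                      (`τ g` = coefficientwise Galois action);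
* `sdDiv N τ τ' D`  — the second difference `τ'τ D + D - (τ' D + τ D)` of a divisor;
* `SDStatement N q m` — if `div f = m • D` then `sdDiv τ τ' D` is principal, for `τ, τ'` in an
                      inertia group at `q`;
* `CoreStatement N q m` — THE INTERFACE TO THE MODULAR BLOCK (`S34/ModPlan.lean`, helper5): over a
                      suitable base `K` (with `O = A ∩ K` a DVR) there is a complete Čech-bis
                      setting (`Cech2Plan.Setting`) on the two charts `chart t`, `chart t⁻¹` of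
                      `F_K` with exponent `m` and `w = sdFun τ τ' f`;
* `sd_of_core`      — `CoreStatement` + `Cech2Statement` ⟹ `SDStatement`  (generic [Glob]);
* `u2_of_sd`        — `SDStatement N q (p ^ n)` for all `n` ⟹ `U2Statement N p q`;
* `uq_of_core`      — the top of the geometric block.
-/
import Mathlib
import Fermat.Agent.S34.UTop
import Fermat.Agent.S34.Cech2Plan
import Fermat.Agent.S18.ArithPlan
import Fermat.Agent.S18.Glob

set_option autoImplicit false

open ModularCurve AlgebraicCurve HahnSeries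

namespace Fermat.Agent.S34.UPlan

open Fermat.Agent.S18.Arith

noncomputable section

set_option synthInstance.maxHeartbeats 400000

/-! ### Vocabulary -/

/-- The coefficientwise Galois action on `F̄_N` as a semilinear automorphism. -/
abbrev gal (N : ℕ) (σ : Qb ≃ₐ[ℚ] Qb) : SemilinearAut Qb (modularFunctionFieldBar N) :=
  arithmeticGalois (modularFunctionFieldFull N) σ

/-- The second difference `τ'τ f · f / (τ' f · τ f)` of a function. -/
def sdFun (N : ℕ) (τ τ' : Qb ≃ₐ[ℚ] Qb) (f : modularFunctionFieldBar N) :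
    modularFunctionFieldBar N :=
  (gal N τ' • gal N τ • f) * f / ((gal N τ' • f) * (gal N τ • f))

/-- The second difference `τ'τ D + D - (τ' D + τ D)` of a divisor. -/
def sdDiv (N : ℕ) (τ τ' : Qb ≃ₐ[ℚ] Qb) (D : Divisor Qb (modularFunctionFieldBar N)) :
    Divisor Qb (modularFunctionFieldBar N) :=
  gal N τ' • gal N τ • D + D - (gal N τ' • D + gal N τ • D)

/-! ### The statements -/

/-- **(SD)** the second difference of an `m`-divisible principal divisor is `m` times a principal
divisor: if `div f = m • D` then `(τ' - 1)(τ - 1) D` is principal, `τ, τ'` in an inertia group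
at `q`. -/
def SDStatement (N q m : ℕ) : Prop :=
  ∀ A : ValuationSubring Qb, A.LiesOverPrime q →
  ∀ τ ∈ A.inertiaSubgroupIn ℚ, ∀ τ' ∈ A.inertiaSubgroupIn ℚ,
  ∀ f : modularFunctionFieldBar N, f ≠ 0 →
  ∀ D : Divisor Qb (modularFunctionFieldBar N),
    (∀ P : Place Qb (modularFunctionFieldBar N), (m : ℤ) * D P = P.ord f) →
    Divisor.IsPrincipal (sdDiv N τ τ' D)

/-- **[Core]** (interface to the modular block): for every `f ≠ 0` of `F̄_N` with `m ∣ div f` and
`τ, τ'` in an inertia group at `q` there are a base field `K` with `O = A ∩ K` a discrete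
valuation ring, a coordinate `t ∈ F_K` and a Čech-bis setting on the charts `chart t`,
`chart t⁻¹` (integral closures of `O[t]`, `O[t⁻¹]` in `F_K`) with exponent `m` whose function `w`
is the second difference `τ'τ f · f / (τ' f · τ f)`. -/
def CoreStatement (N q m : ℕ) [NeZero N] : Prop :=
  ∀ A : ValuationSubring Qb, A.LiesOverPrime q →
  ∀ τ ∈ A.inertiaSubgroupIn ℚ, ∀ τ' ∈ A.inertiaSubgroupIn ℚ,
  ∀ f : modularFunctionFieldBar N, f ≠ 0 →
    (∀ P : Place Qb (modularFunctionFieldBar N), (m : ℤ) ∣ P.ord f) →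
    ∃ (K : IntermediateField ℚ Qb) (_ : IsDiscreteValuationRing (OK A K))
      (S : Cech2Plan.Setting (OK A K) (FK N K)) (t : FK N K),
      S.m = m ∧ S.R0 = chart N A K t ∧ S.Rinf = chart N A K t⁻¹ ∧
        ((S.w : FK N K) : LaurentSeries Qb) =
          ((sdFun N τ τ' f : modularFunctionFieldBar N) : LaurentSeries Qb)

/-! ### Orders under the Galois action -/

section Ord

variable {N : ℕ}

theorem ord_gal_smul (σ : Qb ≃ₐ[ℚ] Qb) (P : Place Qb (modularFunctionFieldBar N))
    (f : modularFunctionFieldBar N) :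
    P.ord (gal N σ • f) = ((gal N σ)⁻¹ • P).ord f := by
  have h := SemilinearAut.ord_smul (gal N σ) ((gal N σ)⁻¹ • P) f
  rwa [smul_inv_smul] at h

theorem gal_smul_ne_zero (σ : Qb ≃ₐ[ℚ] Qb) {f : modularFunctionFieldBar N} (hf : f ≠ 0) :
    gal N σ • f ≠ 0 := by
  intro h
  apply hf
  have h2 : (gal N σ)⁻¹ • (gal N σ • f) = (gal N σ)⁻¹ • (0 : modularFunctionFieldBar N) := by
    rw [h]
  rwa [inv_smul_smul, smul_zero] at h2

/-- `div (σ f) = m • σ D` if `div f = m • D`. -/
theorem ord_gal_of_div (σ : Qb ≃ₐ[ℚ] Qb) {m : ℕ} {f : modularFunctionFieldBar N}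
    {D : Divisor Qb (modularFunctionFieldBar N)}
    (hD : ∀ P : Place Qb (modularFunctionFieldBar N), (m : ℤ) * D P = P.ord f)
    (P : Place Qb (modularFunctionFieldBar N)) :
    (m : ℤ) * (gal N σ • D) P = P.ord (gal N σ • f) := by
  rw [SemilinearAut.divisor_smul_apply, ord_gal_smul, hD]

theorem sdFun_ne_zero (τ τ' : Qb ≃ₐ[ℚ] Qb) {f : modularFunctionFieldBar N} (hf : f ≠ 0) :
    sdFun N τ τ' f ≠ 0 := by
  unfold sdFun
  exact div_ne_zero (mul_ne_zero (gal_smul_ne_zero τ' (gal_smul_ne_zero τ hf)) hf)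
    (mul_ne_zero (gal_smul_ne_zero τ' hf) (gal_smul_ne_zero τ hf))

/-- `div (sdFun f) = m • sdDiv D` if `div f = m • D`. -/
theorem ord_sdFun (τ τ' : Qb ≃ₐ[ℚ] Qb) {m : ℕ} {f : modularFunctionFieldBar N} (hf : f ≠ 0)
    {D : Divisor Qb (modularFunctionFieldBar N)}
    (hD : ∀ P : Place Qb (modularFunctionFieldBar N), (m : ℤ) * D P = P.ord f)
    (P : Place Qb (modularFunctionFieldBar N)) :
    (m : ℤ) * (sdDiv N τ τ' D) P = P.ord (sdFun N τ τ' f) := by
  have h1 := ord_gal_of_div τ hD
  have h2 := ord_gal_of_div τ' hD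
  have h3 := ord_gal_of_div τ' h1
  have e1 := gal_smul_ne_zero τ hf
  have e2 := gal_smul_ne_zero τ' hf
  have e3 := gal_smul_ne_zero τ' e1
  unfold sdFun sdDiv
  rw [Fermat.Agent.S24.ord_div P (mul_ne_zero e3 hf) (mul_ne_zero e2 e1), P.ord_mul e3 hf,
    P.ord_mul e2 e1, ← h3 P, ← hD P, ← h2 P, ← h1 P]
  simp only [Finsupp.coe_sub, Finsupp.coe_add, Pi.sub_apply, Pi.add_apply]
  ring

/-- `m ∣ ord_P (σ f)` at every place if `m ∣ ord_P f` at every place. -/
theorem dvd_ord_gal (σ : Qb ≃ₐ[ℚ] Qb) {m : ℕ} {f : modularFunctionFieldBar N}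
    (h : ∀ P : Place Qb (modularFunctionFieldBar N), (m : ℤ) ∣ P.ord f)
    (P : Place Qb (modularFunctionFieldBar N)) : (m : ℤ) ∣ P.ord (gal N σ • f) := by
  rw [ord_gal_smul]
  exact h _

end Ord

/-! ### Generic [Glob]: global functions on the two charts `chart t`, `chart t⁻¹` -/

section Glob

variable (N : ℕ) [NeZero N]

/-- A nonzero element of `chart t ∩ chart t⁻¹` has order `0` at every place of `F̄ / ℚ̄`. -/
theorem ord_eq_zero_of_mem_charts (A : ValuationSubring Qb) (K : IntermediateField ℚ Qb)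
    (t x : FK N K) (h0 : x ∈ chart N A K t) (hInf : x ∈ chart N A K t⁻¹) (hx : x ≠ 0)
    (P : Place Qb (modularFunctionFieldBar N)) :
    P.ord (Fermat.Agent.S18.Glob.toBar N K x) = 0 := by
  have hne : Fermat.Agent.S18.Glob.toBar N K x ≠ 0 := fun h =>
    hx ((Fermat.Agent.S18.Glob.toBar N K).injective (by rw [h, map_zero]))
  refine Fermat.Agent.S18.Glob.ord_eq_zero_of_forall_ord_nonneg
    (Fermat.Agent.S18.Red.isFF1_bar N) hne ?_ P
  intro v
  apply Fermat.Agent.S24.ord_nonneg_of_mem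
  rcases v.toValuationSubring.mem_or_inv_mem (Fermat.Agent.S18.Glob.toBar N K t) with hj | hj
  · exact Fermat.Agent.S18.Glob.toBar_mem_of_isIntegral N A K v t hj x ((mem_chart_iff N A K).1 h0)
  · refine Fermat.Agent.S18.Glob.toBar_mem_of_isIntegral N A K v t⁻¹ ?_ x ((mem_chart_iff N A K).1 hInf)
    rw [map_inv₀]
    exact hj

end Glob

/-! ### `CoreStatement` + `Cech2Statement` ⟹ `SDStatement` -/

theorem sd_of_core (N q m : ℕ) [NeZero N] (hm : m ≠ 0) (hCech : Cech2Plan.Cech2Statement)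
    (hCore : CoreStatement N q m) : SDStatement N q m := by
  intro A hA τ hτ τ' hτ' f hf D hD
  have hdvd : ∀ P : Place Qb (modularFunctionFieldBar N), (m : ℤ) ∣ P.ord f :=
    fun P => ⟨D P, (hD P).symm⟩
  obtain ⟨K, hdvr, S, t, hSm, hS0, hSinf, hw⟩ := hCore A hA τ hτ τ' hτ' f hf hdvd
  obtain ⟨h, hh0, hh1, hh2, -⟩ := hCech (OK A K) (FK N K) S
  rw [hS0] at hh1
  rw [hSinf] at hh2
  rw [hSm] at hh1 hh2
  -- the function `G = sdFun f` and its image in `F_K`
  have hG : Fermat.Agent.S18.Glob.toBar N K S.w = sdFun N τ τ' f := Subtype.ext hw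
  have hG0 : sdFun N τ τ' f ≠ 0 := sdFun_ne_zero τ τ' hf
  have hw0 : S.w ≠ 0 := by
    intro h0
    apply hG0
    rw [← hG, h0, map_zero]
  have hne : S.w * h ^ m ≠ 0 := mul_ne_zero hw0 (pow_ne_zero m hh0)
  set hb : modularFunctionFieldBar N := Fermat.Agent.S18.Glob.toBar N K h with hhb
  have hhb0 : hb ≠ 0 := fun h0 =>
    hh0 ((Fermat.Agent.S18.Glob.toBar N K).injective (by rw [← hhb, h0, map_zero]))
  refine ⟨hb⁻¹, inv_ne_zero hhb0, fun P => ?_⟩
  have h1 := ord_eq_zero_of_mem_charts N A K t (S.w * h ^ m) hh1 hh2 hne P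
  rw [map_mul, map_pow, hG, ← hhb, P.ord_mul hG0 (pow_ne_zero m hhb0),
    Fermat.Agent.S24.ord_pow, ← ord_sdFun τ τ' hf hD P] at h1
  rw [P.ord_inv]
  have h2 : (m : ℤ) * (sdDiv N τ τ' D) P = (m : ℤ) * (-P.ord hb) := by linarith
  exact mul_left_cancel₀ (Nat.cast_ne_zero.mpr hm) h2

/-! ### `SDStatement` ⟹ `U2Statement` -/

/-- A torsion class of `Pic⁰` is represented by a divisor `D` with `m • D = div f`. -/
theorem exists_div_of_nsmul_eq_zero {N : ℕ} (m : ℕ) (x : JZero N) (hx : m • x = 0) :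
    ∃ (D : Divisor.degZero (K := Qb) (F := modularFunctionFieldBar N))
      (f : modularFunctionFieldBar N), Pic0.mk D = x ∧ f ≠ 0 ∧
      ∀ P : Place Qb (modularFunctionFieldBar N),
        (m : ℤ) * (D : Divisor Qb (modularFunctionFieldBar N)) P = P.ord f := by
  obtain ⟨D, rfl⟩ := Pic0.mk_surjective x
  have h1 : Pic0.mk (m • D) = 0 := by
    rw [← hx]
    exact map_nsmul (QuotientAddGroup.mk' _) m D
  have h2 : ((m • D : Divisor.degZero (K := Qb) (F := modularFunctionFieldBar N)) :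
      Divisor Qb (modularFunctionFieldBar N)) ∈ Divisor.principal := by
    have h3 := (QuotientAddGroup.eq_zero_iff _).1 h1
    exact h3
  obtain ⟨f, hf, hfD⟩ := h2
  refine ⟨D, f, rfl, hf, fun P => ?_⟩
  rw [← hfD P]
  simp [Finsupp.smul_apply]

theorem u2_of_sd (N p q : ℕ) [NeZero N] (hSD : ∀ n : ℕ, SDStatement N q (p ^ n)) :
    U2Statement N p q := by
  intro A hA τ hτ τ' hτ' x ⟨n, hx⟩
  obtain ⟨D, f, rfl, hf, hD⟩ := exists_div_of_nsmul_eq_zero (p ^ n) x hx
  have hprin := hSD n A hA τ hτ τ' hτ' f hf D hD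
  -- translate to `Pic⁰`
  have hd0 : sdDiv N τ τ' (D : Divisor Qb (modularFunctionFieldBar N)) ∈
      Divisor.degZero (K := Qb) (F := modularFunctionFieldBar N) := by
    unfold sdDiv
    exact sub_mem (add_mem (SemilinearAut.smul_mem_degZero _
      (SemilinearAut.smul_mem_degZero _ D.2)) D.2)
      (add_mem (SemilinearAut.smul_mem_degZero _ D.2) (SemilinearAut.smul_mem_degZero _ D.2))
  have hzero : Pic0.mk (⟨sdDiv N τ τ' (D : Divisor Qb (modularFunctionFieldBar N)), hd0⟩ :
      Divisor.degZero (K := Qb) (F := modularFunctionFieldBar N)) = 0 := by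
    refine (QuotientAddGroup.eq_zero_iff _).2 ?_
    exact hprin
  have hsplit : (⟨sdDiv N τ τ' (D : Divisor Qb (modularFunctionFieldBar N)), hd0⟩ :
      Divisor.degZero (K := Qb) (F := modularFunctionFieldBar N)) =
      SemilinearAut.degZeroSMulHom (gal N τ') (SemilinearAut.degZeroSMulHom (gal N τ) D) + D -
        (SemilinearAut.degZeroSMulHom (gal N τ') D + SemilinearAut.degZeroSMulHom (gal N τ) D) :=
    Subtype.ext rfl
  rw [hsplit] at hzero
  have e1 : τ • (Pic0.mk D : JZero N) = Pic0.mk (SemilinearAut.degZeroSMulHom (gal N τ) D) := rfl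
  have e2 : τ' • (Pic0.mk D : JZero N) = Pic0.mk (SemilinearAut.degZeroSMulHom (gal N τ') D) := rfl
  have e3 : τ' • (Pic0.mk (SemilinearAut.degZeroSMulHom (gal N τ) D) : JZero N) =
      Pic0.mk (SemilinearAut.degZeroSMulHom (gal N τ')
        (SemilinearAut.degZeroSMulHom (gal N τ) D)) := rfl
  rw [e1, e2, e3]
  have hz2 : Pic0.mk (SemilinearAut.degZeroSMulHom (gal N τ')
      (SemilinearAut.degZeroSMulHom (gal N τ) D)) + Pic0.mk D -
      (Pic0.mk (SemilinearAut.degZeroSMulHom (gal N τ') D) +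
        Pic0.mk (SemilinearAut.degZeroSMulHom (gal N τ) D)) = (0 : JZero N) := hzero
  exact sub_eq_zero.1 hz2

/-! ### The top of the geometric block -/

/-- **`UqStatement` from the modular core and the abstract Čech-bis.** -/
theorem uq_of_core (hCech : Cech2Plan.Cech2Statement)
    (hCore : ∀ (M q m : ℕ) [NeZero M] [NeZero (M * q)], q.Prime → ¬ q ∣ M → ¬ q ∣ m →
      CoreStatement (M * q) q m) : UqStatement := by
  intro N _ p q hp hq hqp hqN hq2
  obtain ⟨M, hM⟩ := hqN
  have hN : N = M * q := by rw [hM, mul_comm]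
  subst hN
  have hM0 : M ≠ 0 := fun h => by
    subst h
    exact (NeZero.ne (0 * q)) (zero_mul q)
  have : NeZero M := ⟨hM0⟩
  have hqM : ¬ q ∣ M := by
    rintro ⟨c, rfl⟩
    apply hq2
    exact ⟨c, by ring⟩
  refine uStatement_of_u2 (u2_of_sd (M * q) p q fun n => ?_)
  have hqm : ¬ q ∣ p ^ n := fun h =>
    hqp ((Nat.prime_dvd_prime_iff_eq hq hp).1 (hq.dvd_of_dvd_pow h))
  exact sd_of_core (M * q) q (p ^ n) (pow_ne_zero n hp.ne_zero) hCech (hCore M q (p ^ n) hq hqM hqm)

end

end Fermat.Agent.S34.UPlan
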