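/-
S34 — CoreAsm.lean (helper9; captain order m258039816).  THE ASSEMBLY of the geometric block:

    `coreAsmStatement : ModelPlan2.CoreAsmStatement`
      = `LocPlan.CutAtStatement → LocPlan.HwStatement → LocPlan.LocAStatement →
         LocPlan.LocAdapterStatement → ∀ N q m, Model2Statement N q m → UPlan.CoreStatement N q m`.

From a `ModelPlan2.Model2` (what the modular block supplies for one function `f`) we build the
complete input `AbsTop.Hyp` of the abstract block on the two charts `chart t`, `chart t⁻¹`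
(chart-side fields from `S34/ChartJ.lean`, the horizontal input `AbsTop.CutHyp` from
`LocPlan.CutAtStatement` + the `branch` / `trans` / `hor` fields of `ChartModel`, the vertical
primes being prime with `P 0 ⊓ P 1 = (π)` by `LocPlan.ChartHyp` alone), take the Čech-bis setting
`AbsTop.setting`, and identify its function `w = secondDiff σ σ' fK` with `UPlan.sdFun N τ τ' f`.
-/
import Mathlib
import Fermat.Agent.S34.UPlan
import Fermat.Agent.S34.LocPlan
import Fermat.Agent.S34.Cech2Plan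
import Fermat.Agent.S34.ModelPlan2
import Fermat.Agent.S34.AbsTop
import Fermat.Agent.S34.ChartJ
import Fermat.Agent.S18.FinalCore

set_option autoImplicit false

open ModularCurve AlgebraicCurve HahnSeries

namespace Fermat.Agent.S34.CoreAsm

open Fermat.Agent.S18.Arith Fermat.Agent.S34.LocPlan

noncomputable section

/-! ### Valuation-subring facts -/

section Val

variable {E : Type*} [Field E] (W : ValuationSubring E)

theorem val_root {m : ℕ} (hm : m ≠ 0) {x : E} (hx : x ^ m ∈ W) : x ∈ W := by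
  by_contra h
  have hinv : x⁻¹ ∈ W := (W.mem_or_inv_mem x).resolve_left h
  have hx0 : x ≠ 0 := fun h0 => h (h0 ▸ W.zero_mem)
  obtain ⟨k, rfl⟩ : ∃ k, m = k + 1 := ⟨m - 1, by omega⟩
  have : x = x ^ (k + 1) * x⁻¹ ^ k := by
    rw [pow_succ, mul_assoc, mul_comm x, ← mul_assoc, ← mul_pow, mul_inv_cancel₀ hx0, one_pow,
      one_mul]
  rw [this] at h
  exact h (W.mul_mem _ _ hx (pow_mem hinv k))

theorem val_pi_lt {ϖ : E} (hϖ : ϖ⁻¹ ∉ W) : W.valuation ϖ < 1 := by
  by_contra h
  rw [not_lt] at h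
  apply hϖ
  rw [← W.valuation_le_one_iff, map_inv₀]
  exact inv_le_one_of_one_le₀ h

theorem val_inv_one_add {ϖ : E} (hϖ : ϖ⁻¹ ∉ W) {z : E} (hz : z ∈ W) : (1 + ϖ * z)⁻¹ ∈ W := by
  have h1 : W.valuation (ϖ * z) < 1 := by
    rw [map_mul]
    exact lt_of_le_of_lt (mul_le_of_le_one_right' ((W.valuation_le_one_iff z).2 hz))
      (val_pi_lt W hϖ)
  have h2 : W.valuation (1 + ϖ * z) = 1 := (W.valuation).map_one_add_of_lt h1
  rw [← W.valuation_le_one_iff, map_inv₀, h2, inv_one]

theorem val_one_ne {ϖ : E} (hϖ : ϖ⁻¹ ∉ W) {z : E} (hz : z ∈ W) : (1 : E) ≠ ϖ * z := by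
  intro h
  apply hϖ
  have hϖ0 : ϖ ≠ 0 := by
    rintro rfl
    simp at h
  have : ϖ⁻¹ = z := by
    calc ϖ⁻¹ = ϖ⁻¹ * 1 := (mul_one _).symm
      _ = ϖ⁻¹ * (ϖ * z) := by rw [← h]
      _ = z := inv_mul_cancel_left₀ hϖ0 z
  rw [this]; exact hz

end Val

/-! ### Consequences of `ChartHyp` -/

section Chart

variable {O : Type*} [CommRing O] {R : Type*} [CommRing R] [Algebra O R]
  {E : Type*} [Field E] [Algebra R E]
  {π : O} {V : Fin 2 → ValuationSubring E} {P : Fin 2 → Ideal R}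

theorem pi_ne_zero (h : ChartHyp π V P) : algebraMap R E (algebraMap O R π) ≠ 0 := by
  intro h0
  apply h.pi_not 0
  rw [h0, inv_zero]
  exact (V 0).zero_mem

/-- `r ∈ P i ↔ v_i(r) < 1`. -/
theorem mem_P_iff_val_lt (h : ChartHyp π V P) (i : Fin 2) (r : R) :
    r ∈ P i ↔ (V i).valuation (algebraMap R E r) < 1 := by
  have hϖlt := val_pi_lt (V i) (h.pi_not i)
  have hϖV : algebraMap R E (algebraMap O R π) ∈ V i := h.le i _
  rw [h.mem_P]
  constructor
  · rintro ⟨y, hy, hry⟩
    rw [hry, map_mul]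
    exact lt_of_le_of_lt (mul_le_of_le_one_right' (((V i).valuation_le_one_iff y).2 hy)) hϖlt
  · intro hlt
    by_cases hr0 : algebraMap R E r = 0
    · exact ⟨0, (V i).zero_mem, by rw [hr0, mul_zero]⟩
    · obtain ⟨k, u, hu, hu', hk⟩ := h.disc i _ hr0
      have hu0 : u ≠ 0 := by
        rintro rfl
        rw [mul_zero] at hk
        exact hr0 hk
      have hvu : (V i).valuation u = 1 := by
        apply le_antisymm (((V i).valuation_le_one_iff u).2 hu)
        have h1 := ((V i).valuation_le_one_iff u⁻¹).2 hu'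
        rw [map_inv₀] at h1
        by_contra hcon
        rw [not_le] at hcon
        have h2 : 1 < ((V i).valuation u)⁻¹ := by
          rw [one_lt_inv₀ (by rwa [pos_iff_ne_zero, ne_eq, map_eq_zero])]
          exact hcon
        exact absurd h1 (not_le.2 h2)
      rw [hk, map_mul, hvu, mul_one, map_zpow₀] at hlt
      rcases le_or_gt k 0 with hk0 | hk0
      · exfalso
        obtain ⟨n, rfl⟩ : ∃ n : ℕ, k = -(n : ℤ) := ⟨(-k).toNat, by omega⟩
        rw [zpow_neg, zpow_natCast] at hlt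
        have h3 : (V i).valuation (algebraMap R E (algebraMap O R π)) ^ n ≤ 1 :=
          pow_le_one₀ zero_le hϖlt.le
        have h4 : (V i).valuation (algebraMap R E (algebraMap O R π)) ^ n ≠ 0 := by
          apply pow_ne_zero
          rw [ne_eq, map_eq_zero]
          exact pi_ne_zero h
        have h5 : 1 ≤ ((V i).valuation (algebraMap R E (algebraMap O R π)) ^ n)⁻¹ :=
          (one_le_inv₀ (pos_iff_ne_zero.2 h4)).2 h3
        exact absurd hlt (not_lt.2 h5)
      · obtain ⟨n, rfl⟩ : ∃ n : ℕ, k = (n : ℤ) + 1 := ⟨(k - 1).toNat, by omega⟩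
        refine ⟨algebraMap R E (algebraMap O R π) ^ n * u,
          (V i).mul_mem _ _ (pow_mem hϖV n) hu, ?_⟩
        rw [hk, zpow_add_one₀ (pi_ne_zero h), zpow_natCast]
        ring

theorem P_isPrime (h : ChartHyp π V P) (i : Fin 2) : (P i).IsPrime := by
  refine ⟨?_, ?_⟩
  · rw [Ideal.ne_top_iff_one, mem_P_iff_val_lt h, map_one, map_one]
    exact lt_irrefl 1
  · intro a b hab
    rw [mem_P_iff_val_lt h, map_mul, map_mul] at hab
    by_contra hcon
    rw [not_or, mem_P_iff_val_lt h, mem_P_iff_val_lt h, not_lt, not_lt] at hcon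
    have ha := ((V i).valuation_le_one_iff _).2 (h.le i a)
    have hb := ((V i).valuation_le_one_iff _).2 (h.le i b)
    rw [le_antisymm ha hcon.1, le_antisymm hb hcon.2, one_mul] at hab
    exact lt_irrefl 1 hab

theorem P_inf_eq (h : ChartHyp π V P) : P 0 ⊓ P 1 = Ideal.span {algebraMap O R π} := by
  apply le_antisymm
  · intro r hr
    obtain ⟨r', rfl⟩ := h.red r (fun i => by
      fin_cases i
      · exact hr.1
      · exact hr.2)
    exact Ideal.mem_span_singleton.2 (dvd_mul_right _ _)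
  · rw [Ideal.span_le, Set.singleton_subset_iff]
    exact ⟨(h.mem_P 0 _).2 ⟨1, (V 0).one_mem, by rw [mul_one]⟩,
      (h.mem_P 1 _).2 ⟨1, (V 1).one_mem, by rw [mul_one]⟩⟩

/-- `R ∩ π (V 0 ∩ V 1) = π R`. -/
theorem desc_of_chartHyp (h : ChartHyp π V P) (z : E) (hz : ∀ i, z ∈ V i) (r : R)
    (hr : algebraMap R E (algebraMap O R π) * z = algebraMap R E r) :
    ∃ r' : R, z = algebraMap R E r' := by
  obtain ⟨r', rfl⟩ := h.red r (fun i => (h.mem_P i r).2 ⟨z, hz i, hr.symm⟩)
  refine ⟨r', ?_⟩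
  rw [map_mul] at hr
  exact mul_left_cancel₀ (pi_ne_zero h) hr

end Chart

/-! ### The horizontal input of the abstract block from `CutAt` -/

section Cut

/-- The hypothesis `AbsTop.CutHyp` of `LocPlan.LocAStatement` at a closed point `n` of a chart,
from `LocPlan.CutAtStatement` and the `branch` / `trans` / `hor` data of the chart. -/
theorem cutHyp_of_cutAt (hCut : CutAtStatement)
    {O : Type} [CommRing O] [IsDomain O] [IsDiscreteValuationRing O]
    {E : Type} [Field E] [Algebra O E] (R : Subalgebra O E) [IsNoetherianRing R]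
    {π : O} (hπ : Irreducible π) {V : Fin 2 → ValuationSubring E} {P : Fin 2 → Ideal R}
    (hC : ChartHyp π V P) {f : E} {m : ℕ}
    (n : Ideal R) (hn : n.IsMaximal) (hπn : algebraMap O R π ∈ n)
    (hbr : ∀ i : Fin 2, P i ≤ n → (∃ x ∈ n, x ∉ P i) ∧
      ∃ u ∈ n, ∀ x ∈ n, ∃ s : R, s ∉ n ∧ ∃ c : R, s * x - c * u ∈ P i)
    (htr : P 0 ≤ n → P 1 ≤ n → ∀ x ∈ n, ∃ s : R, s ∉ n ∧ s * x ∈ P 0 ⊔ P 1)
    (hhor : ∀ 𝔮 : Ideal R, 𝔮.IsPrime → 𝔮 ≤ n → algebraMap O R π ∉ 𝔮 → PrincAt 𝔮 →
      UnitAt 𝔮 f ∨ ((∀ r : R, ∃ c : O, r - algebraMap O R c ∈ 𝔮) ∧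
        ∃ x : E, x ≠ 0 ∧ UnitAt 𝔮 (f * x ^ m))) :
    AbsTop.CutHyp R π f m n := by
  intro 𝔮 h𝔮 hle hπ𝔮 hprinc
  refine (hhor 𝔮 h𝔮 hle hπ𝔮 hprinc).imp id (fun h => ⟨h.2, ?_⟩)
  exact hCut O R π (P 0) (P 1) n 𝔮 hπ hn (P_isPrime hC 0) (P_isPrime hC 1) h𝔮 hπn
    (P_inf_eq hC) (hbr 0) (hbr 1) htr hle hπ𝔮 h.1 hprinc

end Cut

/-! ### From a `Model2` to the Čech-bis setting -/

section Asm

open Fermat.Agent.S34.ModelPlan2

variable {N : ℕ} [NeZero N] {A : ValuationSubring Qb} {m : ℕ} {τ τ' : Qb ≃ₐ[ℚ] Qb}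
  {f : modularFunctionFieldBar N}

/-- `f`, descended to `F_K`, is nonzero. -/
theorem fK_ne_zero (M : Model2 N A m τ τ' f) (hf : f ≠ 0) : M.fK ≠ 0 := by
  intro h
  apply hf
  rw [← M.fK_coe, h, map_zero]

/-- The complete input of the abstract block attached to a `Model2`. -/
theorem hyp_of_model2 (hCut : CutAtStatement) (M : Model2 N A m τ τ' f) (hf : f ≠ 0) :
    haveI := M.dvr
    AbsTop.Hyp M.π m M.t (chart N A M.K M.t) (chart N A M.K M.t⁻¹) M.V M.σ M.σ' M.fK := by
  have := M.dvr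
  have hm0 : m ≠ 0 := by
    rintro rfl
    have h0 := M.hm
    rw [Nat.cast_zero] at h0
    exact not_isUnit_zero h0
  exact
    { inj := Fermat.Agent.S18.FinalCore.algebraMap_injective_OK N A M.K
      irr := M.irr
      hm := M.hm
      j_ne := M.t_ne
      j_mem := ChartJ.self_mem_chart N A M.K M.t
      jinv_mem := ChartJ.self_mem_chart N A M.K M.t⁻¹
      glue0 := fun x hx => ChartJ.glue N A M.K M.t_ne hx
      glueInf := fun x hx => ChartJ.glue' N A M.K M.t_ne hx
      root0 := fun x hx => ChartJ.root_chart N A M.K hm0 hx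
      rootInf := fun x hx => ChartJ.root_chart N A M.K hm0 hx
      fin0 := M.fin0
      noeth0 := M.c0.noeth
      noethInf := M.cInf.noeth
      closed0 := M.c0.intcl
      closedInf := M.cInf.intcl
      frac0 := M.c0.frac
      fracInf := M.cInf.frac
      chart0 := ⟨M.c0.P, M.c0.hyp⟩
      chartInf := ⟨M.cInf.P, M.cInf.hyp⟩
      tau0 := M.c0.tau
      tauInf := M.cInf.tau
      tau'0 := M.c0.tau'
      tau'Inf := M.cInf.tau'
      f_ne := fK_ne_zero M hf
      cut0 := fun n hn hπn =>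
        haveI := M.c0.noeth
        cutHyp_of_cutAt hCut (chart N A M.K M.t) M.irr M.c0.hyp n hn hπn
          (M.c0.branch n hn hπn) (M.c0.trans n hn hπn) (M.c0.hor n hn hπn)
      cutInf := fun n hn hπn =>
        haveI := M.cInf.noeth
        cutHyp_of_cutAt hCut (chart N A M.K M.t⁻¹) M.irr M.cInf.hyp n hn hπn
          (M.cInf.branch n hn hπn) (M.cInf.trans n hn hπn) (M.cInf.hor n hn hπn) }

/-- The second difference commutes with the inclusion `F_K → F̄`. -/
theorem toBar_secondDiff (M : Model2 N A m τ τ' f) :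
    Fermat.Agent.S18.Glob.toBar N M.K (secondDiff M.σ M.σ' M.fK) = UPlan.sdFun N τ τ' f := by
  unfold secondDiff UPlan.sdFun
  rw [map_div₀, map_mul, map_mul, M.σ'_coe, M.σ_coe, M.σ'_coe, M.fK_coe,
    mul_comm (UPlan.gal N τ • f)]

/-- **One instance of `UPlan.CoreStatement`** from a `Model2`. -/
theorem core_of_model2 (hCut : CutAtStatement) (hHw : HwStatement) (hLocA : LocAStatement)
    (hAd : LocAdapterStatement) (M : Model2 N A m τ τ' f) (hf : f ≠ 0) :
    ∃ (K : IntermediateField ℚ Qb) (_ : IsDiscreteValuationRing (OK A K))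
      (S : Cech2Plan.Setting (OK A K) (FK N K)) (t : FK N K),
      S.m = m ∧ S.R0 = chart N A K t ∧ S.Rinf = chart N A K t⁻¹ ∧
        ((S.w : FK N K) : LaurentSeries Qb) =
          ((UPlan.sdFun N τ τ' f : modularFunctionFieldBar N) : LaurentSeries Qb) := by
  have := M.dvr
  refine ⟨M.K, M.dvr, AbsTop.setting hLocA hAd hHw (hyp_of_model2 hCut M hf), M.t, rfl, rfl, rfl,
    ?_⟩
  rw [AbsTop.setting_w, ← toBar_secondDiff M]
  rfl

end Asm

/-- **[CoreAsm]** the assembly of the geometric block. -/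
theorem coreAsmStatement : ModelPlan2.CoreAsmStatement := by
  intro hCut hHw hLocA hAd N q m _ hM A hA τ hτ τ' hτ' f hf hdvd
  obtain ⟨M⟩ := hM A hA τ hτ τ' hτ' f hf hdvd
  exact core_of_model2 hCut hHw hLocA hAd M hf

end

end Fermat.Agent.S34.CoreAsm
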