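/-
S34, ABSTRACT block — CutAt.lean (helper65): leaf [N2c] of `S34/LocPlan.lean`.

`cutAt_of_leaves : NodeLEStatement → NodeCoordsStatement → SmoothCutStatement → CutAtStatement`

The chart-level cut function at a closed point `n` of the special fibre, from the three local
leaves [N1] (node), [N2a] (node coordinates), [N2b] (smooth point), by transport along
`R → Localization.AtPrime n`:

* `π ∈ n` and `𝔭₁ ⊓ 𝔭₂ = (π)` force `𝔭₁ ≤ n` or `𝔭₂ ≤ n`;
* both branches through `n`: the images of `𝔭₁`, `𝔭₂` in `R_n` satisfy the hypotheses of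
  [N2a], which gives node coordinates, and then [N1] applies to the image of `𝔮`;
* one branch through `n`: `n R_n = (π, t)` and [N2b] applies;
* the cut function of `𝔮 R_n` in `R_n` is (up to a unit) the image of an element of `R`, which is
  a cut function of `𝔮` at `n`.
-/
import Mathlib
import Fermat.Agent.S34.LocPlan

set_option autoImplicit false

namespace Fermat.Agent.S34.CutAt

open Fermat.Agent.S34.LocPlan

/-! ### Localisation at a prime of a domain: elementwise toolkit -/

section Loc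

variable {R : Type} [CommRing R] [IsDomain R] (n : Ideal R) [n.IsPrime]

theorem algebraMap_injective :
    Function.Injective (algebraMap R (Localization.AtPrime n)) :=
  IsLocalization.injective _ (Ideal.primeCompl_le_nonZeroDivisors n)

theorem isUnit_algebraMap {s : R} (hs : s ∉ n) :
    IsUnit (algebraMap R (Localization.AtPrime n) s) :=
  IsLocalization.map_units (Localization.AtPrime n) (⟨s, hs⟩ : n.primeCompl)

theorem exists_rep (z : Localization.AtPrime n) :
    ∃ r s : R, s ∉ n ∧ z * algebraMap R (Localization.AtPrime n) s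
      = algebraMap R (Localization.AtPrime n) r := by
  obtain ⟨⟨r, s⟩, h⟩ := IsLocalization.surj n.primeCompl z
  exact ⟨r, s.1, s.2, h⟩

theorem mem_map_iff {I : Ideal R} {z : Localization.AtPrime n} :
    z ∈ I.map (algebraMap R (Localization.AtPrime n)) ↔
      ∃ x ∈ I, ∃ s : R, s ∉ n ∧ z * algebraMap R (Localization.AtPrime n) s
        = algebraMap R (Localization.AtPrime n) x := by
  rw [IsLocalization.mem_map_algebraMap_iff n.primeCompl]
  constructor
  · rintro ⟨⟨x, s⟩, h⟩
    exact ⟨x.1, x.2, s.1, s.2, h⟩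
  · rintro ⟨x, hx, s, hs, h⟩
    exact ⟨⟨⟨x, hx⟩, ⟨s, hs⟩⟩, h⟩

theorem algebraMap_mem_map_iff {𝔭 : Ideal R} (h𝔭 : 𝔭.IsPrime) (hle : 𝔭 ≤ n) {x : R} :
    algebraMap R (Localization.AtPrime n) x ∈ 𝔭.map (algebraMap R (Localization.AtPrime n)) ↔
      x ∈ 𝔭 := by
  constructor
  · intro h
    obtain ⟨y, hy, s, hs, e⟩ := (mem_map_iff n).mp h
    rw [← map_mul] at e
    have h1 : x * s ∈ 𝔭 := by
      rw [algebraMap_injective n e]
      exact hy
    rcases h𝔭.mem_or_mem h1 with h2 | h2
    · exact h2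
    · exact absurd (hle h2) hs
  · exact fun h => Ideal.mem_map_of_mem _ h

theorem map_isPrime {𝔭 : Ideal R} (h𝔭 : 𝔭.IsPrime) (hle : 𝔭 ≤ n) :
    (𝔭.map (algebraMap R (Localization.AtPrime n))).IsPrime := by
  refine IsLocalization.isPrime_of_isPrime_disjoint n.primeCompl _ 𝔭 h𝔭 ?_
  rw [Set.disjoint_left]
  intro s hs h𝔭s
  exact hs (hle h𝔭s)

theorem mem_map_of_mul_mem {I : Ideal R} {s x : R} (hs : s ∉ n) (h : s * x ∈ I) :
    algebraMap R (Localization.AtPrime n) x ∈ I.map (algebraMap R (Localization.AtPrime n)) :=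
  (mem_map_iff n).mpr ⟨s * x, h, s, hs, by rw [map_mul, mul_comm]⟩

theorem maximalIdeal_eq :
    IsLocalRing.maximalIdeal (Localization.AtPrime n)
      = n.map (algebraMap R (Localization.AtPrime n)) :=
  Localization.AtPrime.map_eq_maximalIdeal.symm

/-- A unit of the localisation does not lie in a proper ideal. -/
theorem algebraMap_notMem {J : Ideal (Localization.AtPrime n)} (hJ : J ≠ ⊤) {s : R}
    (hs : s ∉ n) : algebraMap R (Localization.AtPrime n) s ∉ J :=
  fun h => hJ (Ideal.eq_top_of_isUnit_mem J h (isUnit_algebraMap n hs))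

/-- `PrincAt` passes to the localisation. -/
theorem princAt_map {𝔮 : Ideal R} (h𝔮 : 𝔮.IsPrime) (hle : 𝔮 ≤ n) (h : PrincAt 𝔮) :
    PrincAt (𝔮.map (algebraMap R (Localization.AtPrime n))) := by
  obtain ⟨hne, t, ht, hgen⟩ := h
  have hprime := map_isPrime n h𝔮 hle
  refine ⟨?_, algebraMap R _ t, Ideal.mem_map_of_mem _ ht, ?_⟩
  · intro hbot
    apply hne
    rw [eq_bot_iff]
    intro x hx
    have h1 : algebraMap R (Localization.AtPrime n) x ∈
        𝔮.map (algebraMap R (Localization.AtPrime n)) := Ideal.mem_map_of_mem _ hx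
    rw [hbot, Ideal.mem_bot] at h1
    rw [Ideal.mem_bot]
    exact algebraMap_injective n (by rw [h1, map_zero])
  · intro y' hy'
    obtain ⟨y, hy, σ, hσ, e⟩ := (mem_map_iff n).mp hy'
    obtain ⟨s, hs, c, hc⟩ := hgen y hy
    refine ⟨algebraMap R _ s * algebraMap R _ σ, ?_, algebraMap R _ c, ?_⟩
    · intro hmem
      rcases hprime.mem_or_mem hmem with h1 | h1
      · exact hs ((algebraMap_mem_map_iff n h𝔮 hle).mp h1)
      · exact algebraMap_notMem n hprime.ne_top hσ h1
    · calc algebraMap R (Localization.AtPrime n) s * algebraMap R _ σ * y'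
          = algebraMap R _ s * (y' * algebraMap R _ σ) := by ring
        _ = algebraMap R _ s * algebraMap R _ y := by rw [e]
        _ = algebraMap R _ (s * y) := by rw [map_mul]
        _ = algebraMap R _ (c * t) := by rw [hc]
        _ = algebraMap R _ c * algebraMap R _ t := by rw [map_mul]

/-- A cut function in the localisation comes from a cut function in `R`. -/
theorem cut_of_cut_map (ϖ : R) {𝔮 : Ideal R} (h𝔮 : 𝔮.IsPrime) (hle : 𝔮 ≤ n)
    {e' : Localization.AtPrime n}
    (h : Cut (algebraMap R (Localization.AtPrime n) ϖ)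
      (IsLocalRing.maximalIdeal (Localization.AtPrime n))
      (𝔮.map (algebraMap R (Localization.AtPrime n))) e') :
    ∃ e : R, Cut ϖ n 𝔮 e := by
  obtain ⟨he', hmin, hgen⟩ := h
  have hprime := map_isPrime n h𝔮 hle
  obtain ⟨e, σ, hσ, heq⟩ := exists_rep n e'
  refine ⟨e, ?_, ?_, ?_⟩
  · rw [← algebraMap_mem_map_iff n h𝔮 hle, ← heq]
    exact Ideal.mul_mem_right _ _ he'
  · intro 𝔮₁ h𝔮₁ h𝔮₁n he𝔮₁ hϖ𝔮₁
    have hprime₁ := map_isPrime n h𝔮₁ h𝔮₁n
    have h1 : e' ∈ 𝔮₁.map (algebraMap R (Localization.AtPrime n)) := by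
      have h2 : e' * algebraMap R (Localization.AtPrime n) σ ∈
          𝔮₁.map (algebraMap R (Localization.AtPrime n)) := by
        rw [heq]
        exact Ideal.mem_map_of_mem _ he𝔮₁
      rcases hprime₁.mem_or_mem h2 with h3 | h3
      · exact h3
      · exact absurd h3 (algebraMap_notMem n hprime₁.ne_top hσ)
    have h4 := hmin _ hprime₁ (IsLocalRing.le_maximalIdeal hprime₁.ne_top) h1
      (fun hϖ => hϖ𝔮₁ ((algebraMap_mem_map_iff n h𝔮₁ h𝔮₁n).mp hϖ))
    intro y hy
    exact (algebraMap_mem_map_iff n h𝔮₁ h𝔮₁n).mp (h4 (Ideal.mem_map_of_mem _ hy))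
  · intro y hy
    obtain ⟨s', hs', c', hc'⟩ := hgen _ (Ideal.mem_map_of_mem _ hy)
    obtain ⟨s₀, σ₁, hσ₁, hs₀⟩ := exists_rep n s'
    obtain ⟨c₀, σ₂, hσ₂, hc₀⟩ := exists_rep n c'
    have hs₀𝔮 : s₀ ∉ 𝔮 := by
      intro hmem
      have h2 : s' * algebraMap R (Localization.AtPrime n) σ₁ ∈
          𝔮.map (algebraMap R (Localization.AtPrime n)) := by
        rw [hs₀]
        exact Ideal.mem_map_of_mem _ hmem
      rcases hprime.mem_or_mem h2 with h3 | h3
      · exact hs' h3
      · exact algebraMap_notMem n hprime.ne_top hσ₁ h3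
    refine ⟨s₀ * σ₂ * σ, ?_, c₀ * σ₁, ?_⟩
    · intro hmem
      rcases h𝔮.mem_or_mem hmem with h3 | h3
      · rcases h𝔮.mem_or_mem h3 with h4 | h4
        · exact hs₀𝔮 h4
        · exact hσ₂ (hle h4)
      · exact hσ (hle h3)
    · apply algebraMap_injective n
      simp only [map_mul]
      calc algebraMap R (Localization.AtPrime n) s₀ * algebraMap R _ σ₂ * algebraMap R _ σ
            * algebraMap R _ y
          = (s' * algebraMap R _ y) * algebraMap R _ σ₁ * algebraMap R _ σ₂
              * algebraMap R _ σ := by rw [← hs₀]; ring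
        _ = (c' * algebraMap R _ σ₂) * (e' * algebraMap R _ σ) * algebraMap R _ σ₁ := by
            rw [hc']; ring
        _ = algebraMap R _ c₀ * algebraMap R _ σ₁ * algebraMap R _ e := by
            rw [hc₀, heq]; ring

end Loc

/-! ### Rationality passes to the localisation -/

section Rat

variable {O : Type} [CommRing O] [IsDomain O] [IsDiscreteValuationRing O]
  {R : Type} [CommRing R] [IsDomain R] [Algebra O R] (n : Ideal R) [n.IsPrime]

theorem algebraMap_comp (c : O) :
    algebraMap O (Localization.AtPrime n) c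
      = algebraMap R (Localization.AtPrime n) (algebraMap O R c) :=
  IsScalarTower.algebraMap_apply O R (Localization.AtPrime n) c

theorem rational_map {π : O} (hπ : Irreducible π) (hϖn : algebraMap O R π ∈ n)
    {𝔮 : Ideal R} (hle : 𝔮 ≤ n) (hrat : ∀ x : R, ∃ c : O, x - algebraMap O R c ∈ 𝔮)
    (z : Localization.AtPrime n) :
    ∃ c : O, z - algebraMap O (Localization.AtPrime n) c
      ∈ 𝔮.map (algebraMap R (Localization.AtPrime n)) := by
  obtain ⟨r, s, hs, hz⟩ := exists_rep n z
  obtain ⟨c₁, hc₁⟩ := hrat r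
  obtain ⟨c₂, hc₂⟩ := hrat s
  -- `c₂` is a unit of `O`
  have hc₂n : algebraMap O R c₂ ∉ n := by
    intro hmem
    apply hs
    have : s = (s - algebraMap O R c₂) + algebraMap O R c₂ := by ring
    rw [this]
    exact n.add_mem (hle hc₂) hmem
  have hu : IsUnit c₂ := by
    by_contra hnu
    have h1 : c₂ ∈ IsLocalRing.maximalIdeal O := (IsLocalRing.mem_maximalIdeal c₂).mpr hnu
    rw [(IsDiscreteValuationRing.irreducible_iff_uniformizer π).mp hπ,
      Ideal.mem_span_singleton] at h1
    obtain ⟨d, rfl⟩ := h1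
    apply hc₂n
    rw [map_mul]
    exact n.mul_mem_right _ hϖn
  obtain ⟨u, rfl⟩ := hu
  refine ⟨c₁ * ((u⁻¹ : Oˣ) : O), ?_⟩
  refine (mem_map_iff n).mpr ⟨(r - algebraMap O R c₁) * algebraMap O R (u : O)
      - algebraMap O R c₁ * (s - algebraMap O R (u : O)), ?_, s * algebraMap O R (u : O), ?_, ?_⟩
  · exact 𝔮.sub_mem (𝔮.mul_mem_right _ hc₁) (𝔮.mul_mem_left _ hc₂)
  · intro hmem
    rcases Ideal.IsPrime.mem_or_mem (I := n) inferInstance hmem with h | h
    · exact hs h
    · exact hc₂n h
  · rw [algebraMap_comp n]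
    have e1 : algebraMap O R (c₁ * ((u⁻¹ : Oˣ) : O)) * algebraMap O R (u : O)
        = algebraMap O R c₁ := by
      rw [← map_mul, mul_assoc, Units.inv_mul, mul_one]
    have e2 : (r - algebraMap O R c₁) * algebraMap O R (u : O)
        - algebraMap O R c₁ * (s - algebraMap O R (u : O))
        = r * algebraMap O R (u : O)
          - algebraMap O R (c₁ * ((u⁻¹ : Oˣ) : O)) * algebraMap O R (u : O) * s := by
      rw [e1]; ring
    rw [e2]
    simp only [map_mul, map_sub]
    rw [← hz]
    ring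

end Rat

/-! ### The leaf -/

/-- **[N2c] CutAt** from the local leaves [N1], [N2a], [N2b]. -/
theorem cutAt_of_leaves (hN : NodeLEStatement) (hC : NodeCoordsStatement)
    (hS : SmoothCutStatement) : CutAtStatement := by
  intro O _ _ _ R _ _ _ _ π 𝔭₁ 𝔭₂ n 𝔮 hπ hn h𝔭₁ h𝔭₂ h𝔮 hϖn hinf hb1 hb2 htr h𝔮n hϖ𝔮 hrat hprinc
  have hnp : n.IsPrime := hn.isPrime
  -- the data of `𝔮` in the localisation
  have h𝔮' := map_isPrime n h𝔮 h𝔮n
  have hϖA : algebraMap O (Localization.AtPrime n) π
      = algebraMap R (Localization.AtPrime n) (algebraMap O R π) := algebraMap_comp n π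
  have hϖ𝔮' : algebraMap O (Localization.AtPrime n) π ∉
      𝔮.map (algebraMap R (Localization.AtPrime n)) := by
    rw [hϖA]
    exact fun h => hϖ𝔮 ((algebraMap_mem_map_iff n h𝔮 h𝔮n).mp h)
  have hrat' := rational_map n hπ hϖn h𝔮n hrat
  have hprinc' := princAt_map n h𝔮 h𝔮n hprinc
  -- it suffices to find a cut function in the localisation
  suffices h : ∃ e' : Localization.AtPrime n,
      Cut (algebraMap O (Localization.AtPrime n) π)
        (IsLocalRing.maximalIdeal (Localization.AtPrime n))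
        (𝔮.map (algebraMap R (Localization.AtPrime n))) e' by
    obtain ⟨e', he'⟩ := h
    rw [hϖA] at he'
    exact cut_of_cut_map n (algebraMap O R π) h𝔮 h𝔮n he'
  have hϖ₁ : algebraMap O R π ∈ 𝔭₁ := by
    have : algebraMap O R π ∈ 𝔭₁ ⊓ 𝔭₂ := by
      rw [hinf]; exact Ideal.subset_span rfl
    exact this.1
  have hϖ₂ : algebraMap O R π ∈ 𝔭₂ := by
    have : algebraMap O R π ∈ 𝔭₁ ⊓ 𝔭₂ := by
      rw [hinf]; exact Ideal.subset_span rfl
    exact this.2
  -- the smooth case, stated symmetrically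
  have smooth : ∀ (𝔭 𝔭' : Ideal R), 𝔭 ⊓ 𝔭' = Ideal.span {algebraMap O R π} →
      ¬ 𝔭' ≤ n →
      (∃ t ∈ n, ∀ x ∈ n, ∃ s : R, s ∉ n ∧ ∃ c : R, s * x - c * t ∈ 𝔭) →
      ∃ e' : Localization.AtPrime n,
        Cut (algebraMap O (Localization.AtPrime n) π)
          (IsLocalRing.maximalIdeal (Localization.AtPrime n))
          (𝔮.map (algebraMap R (Localization.AtPrime n))) e' := by
    intro 𝔭 𝔭' hinf' hnot ht
    obtain ⟨t, htn, hgen⟩ := ht
    obtain ⟨y, hy𝔭', hyn⟩ := Set.not_subset.mp hnot
    have hmax : IsLocalRing.maximalIdeal (Localization.AtPrime n)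
        = Ideal.span {algebraMap O (Localization.AtPrime n) π,
            algebraMap R (Localization.AtPrime n) t} := by
      rw [maximalIdeal_eq n, hϖA]
      apply le_antisymm
      · rw [Ideal.map_le_iff_le_comap]
        intro x hx
        rw [Ideal.mem_comap]
        obtain ⟨s, hs, c, hc⟩ := hgen x hx
        have h1 : (s * x - c * t) * y ∈ 𝔭 ⊓ 𝔭' :=
          ⟨𝔭.mul_mem_right _ hc, 𝔭'.mul_mem_left _ hy𝔭'⟩
        rw [hinf', Ideal.mem_span_singleton] at h1
        obtain ⟨d, hd⟩ := h1
        obtain ⟨us, hus⟩ := isUnit_algebraMap n hs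
        obtain ⟨uy, huy⟩ := isUnit_algebraMap n hyn
        have h2 : algebraMap R (Localization.AtPrime n) x
            = algebraMap R _ (algebraMap O R π) * (algebraMap R _ d * ↑uy⁻¹ * ↑us⁻¹)
              + algebraMap R _ t * (algebraMap R _ c * ↑us⁻¹) := by
          have h3 : (algebraMap R (Localization.AtPrime n) s * algebraMap R _ x
              - algebraMap R _ c * algebraMap R _ t) * algebraMap R _ y
              = algebraMap R _ (algebraMap O R π) * algebraMap R _ d := by
            rw [← map_mul, ← map_mul, ← map_mul, ← map_sub, ← map_mul, hd]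
          rw [← hus, ← huy] at h3
          have e1 : (us : Localization.AtPrime n) * ↑us⁻¹ = 1 := Units.mul_inv us
          have e2 : (uy : Localization.AtPrime n) * ↑uy⁻¹ = 1 := Units.mul_inv uy
          linear_combination ((↑uy⁻¹ : Localization.AtPrime n) * ↑us⁻¹) * h3
            + (- algebraMap R (Localization.AtPrime n) x) * e1
            + (- ((us : Localization.AtPrime n) * algebraMap R _ x
                - algebraMap R _ c * algebraMap R _ t) * ↑us⁻¹) * e2
        rw [h2]
        exact Ideal.add_mem _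
          (Ideal.mul_mem_right _ _ (Ideal.subset_span (Set.mem_insert _ _)))
          (Ideal.mul_mem_right _ _ (Ideal.subset_span (Set.mem_insert_of_mem _ rfl)))
      · rw [Ideal.span_le]
        intro z hz
        rcases hz with rfl | rfl
        · exact Ideal.mem_map_of_mem _ hϖn
        · exact Ideal.mem_map_of_mem _ htn
    exact hS O (Localization.AtPrime n) π (algebraMap R (Localization.AtPrime n) t)
      (𝔮.map (algebraMap R (Localization.AtPrime n))) hπ h𝔮' hmax hϖ𝔮' hrat'
  by_cases h1n : 𝔭₁ ≤ n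
  · by_cases h2n : 𝔭₂ ≤ n
    · -- crossing point
      obtain ⟨⟨x₁, hx₁n, hx₁⟩, t₁, ht₁n, hgen₁⟩ := hb1 h1n
      obtain ⟨⟨x₂, hx₂n, hx₂⟩, t₂, ht₂n, hgen₂⟩ := hb2 h2n
      have htr' := htr h1n h2n
      have hp₁ := map_isPrime n h𝔭₁ h1n
      have hp₂ := map_isPrime n h𝔭₂ h2n
      have hinfA : 𝔭₁.map (algebraMap R (Localization.AtPrime n))
          ⊓ 𝔭₂.map (algebraMap R (Localization.AtPrime n))
          = Ideal.span {algebraMap R (Localization.AtPrime n) (algebraMap O R π)} := by
        rw [← IsLocalization.map_inf n.primeCompl, hinf, Ideal.map_span, Set.image_singleton]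
      have hsupA : 𝔭₁.map (algebraMap R (Localization.AtPrime n))
          ⊔ 𝔭₂.map (algebraMap R (Localization.AtPrime n))
          = IsLocalRing.maximalIdeal (Localization.AtPrime n) := by
        rw [maximalIdeal_eq n, ← Ideal.map_sup]
        apply le_antisymm
        · exact Ideal.map_mono (sup_le h1n h2n)
        · rw [Ideal.map_le_iff_le_comap]
          intro x hx
          obtain ⟨s, hs, hsx⟩ := htr' x hx
          exact mem_map_of_mul_mem n hs hsx
      have hne : ∀ (𝔭 : Ideal R), 𝔭.IsPrime → 𝔭 ≤ n → ∀ x ∈ n, x ∉ 𝔭 →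
          𝔭.map (algebraMap R (Localization.AtPrime n))
            ≠ IsLocalRing.maximalIdeal (Localization.AtPrime n) := by
        intro 𝔭 h𝔭 hle x hxn hx heq
        apply hx
        rw [← algebraMap_mem_map_iff n h𝔭 hle, heq, maximalIdeal_eq n]
        exact Ideal.mem_map_of_mem _ hxn
      have hgenA : ∀ (𝔭 : Ideal R) (t : R), 𝔭 ≤ n → t ∈ n →
          (∀ x ∈ n, ∃ s : R, s ∉ n ∧ ∃ c : R, s * x - c * t ∈ 𝔭) →
          IsLocalRing.maximalIdeal (Localization.AtPrime n)
            = 𝔭.map (algebraMap R (Localization.AtPrime n))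
              ⊔ Ideal.span {algebraMap R (Localization.AtPrime n) t} := by
        intro 𝔭 t hle htn hgen
        rw [maximalIdeal_eq n]
        apply le_antisymm
        · rw [Ideal.map_le_iff_le_comap]
          intro x hx
          rw [Ideal.mem_comap]
          obtain ⟨s, hs, c, hc⟩ := hgen x hx
          obtain ⟨us, hus⟩ := isUnit_algebraMap n hs
          have h2 : algebraMap R (Localization.AtPrime n) x
              = algebraMap R _ (s * x - c * t) * ↑us⁻¹
                + algebraMap R _ t * (algebraMap R _ c * ↑us⁻¹) := by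
            have e1 : (us : Localization.AtPrime n) * ↑us⁻¹ = 1 := Units.mul_inv us
            rw [map_sub, map_mul, map_mul, ← hus]
            linear_combination (- algebraMap R (Localization.AtPrime n) x) * e1
          rw [h2]
          exact Ideal.add_mem _
            (Ideal.mem_sup_left (Ideal.mul_mem_right _ _ (Ideal.mem_map_of_mem _ hc)))
            (Ideal.mem_sup_right (Ideal.mul_mem_right _ _ (Ideal.subset_span rfl)))
        · refine sup_le (Ideal.map_mono hle) ?_
          rw [Ideal.span_le]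
          intro z hz
          rw [Set.mem_singleton_iff] at hz
          rw [hz]
          exact Ideal.mem_map_of_mem _ htn
      obtain ⟨u, w, hmax, hdvd, hsyz⟩ :=
        hC (Localization.AtPrime n) (algebraMap R (Localization.AtPrime n) (algebraMap O R π))
          (𝔭₁.map (algebraMap R (Localization.AtPrime n)))
          (𝔭₂.map (algebraMap R (Localization.AtPrime n))) hp₁ hp₂ hinfA hsupA
          (hne 𝔭₁ h𝔭₁ h1n x₁ hx₁n hx₁) (hne 𝔭₂ h𝔭₂ h2n x₂ hx₂n hx₂)
          ⟨_, hgenA 𝔭₁ t₁ h1n ht₁n hgen₁⟩ ⟨_, hgenA 𝔭₂ t₂ h2n ht₂n hgen₂⟩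
      rw [← hϖA] at hmax hdvd hsyz
      exact hN O (Localization.AtPrime n) π u w
        (𝔮.map (algebraMap R (Localization.AtPrime n))) hπ h𝔮' hmax hdvd hsyz hϖ𝔮' hrat' hprinc'
    · -- only the first branch passes through `n`
      exact smooth 𝔭₁ 𝔭₂ hinf h2n (hb1 h1n).2
  · -- the first branch does not pass through `n`: the second one does
    have h2n : 𝔭₂ ≤ n := by
      by_contra h2n
      obtain ⟨y₁, hy₁, hy₁n⟩ := Set.not_subset.mp h1n
      obtain ⟨y₂, hy₂, hy₂n⟩ := Set.not_subset.mp h2n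
      have h3 : y₁ * y₂ ∈ 𝔭₁ ⊓ 𝔭₂ := ⟨𝔭₁.mul_mem_right _ hy₁, 𝔭₂.mul_mem_left _ hy₂⟩
      rw [hinf, Ideal.mem_span_singleton] at h3
      obtain ⟨d, hd⟩ := h3
      have h4 : y₁ * y₂ ∈ n := by
        rw [hd]
        exact n.mul_mem_right _ hϖn
      rcases hnp.mem_or_mem h4 with h5 | h5
      · exact hy₁n h5
      · exact hy₂n h5
    exact smooth 𝔭₂ 𝔭₁ (by rw [inf_comm]; exact hinf) h1n (hb2 h2n).2

end Fermat.Agent.S34.CutAt
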