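import Mathlib
import Fermat.Agent.S34.LocPlan

/-!
# S34, leaf [N1] (`NodeLE`): cut function of an `O`-rational horizontal prime at a crossing point

Pure commutative algebra (Mathlib only).  Let `(R, n)` be a noetherian local domain which is an
algebra over a discrete valuation ring `O` with uniformizer `π` (`ϖ` its image in `R`), and let
`u, w ∈ R` be "node coordinates":

* `n = (ϖ, u, w)`, `ϖ ∣ u w`,
* `a u + b w ∈ ϖ R → a ∈ (ϖ, w) ∧ b ∈ (ϖ, u)`.

Let `𝔮` be a prime of `R` with `ϖ ∉ 𝔮`, which is `O`-rational (`R = O + 𝔮`) and such that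
`𝔮 R_𝔮` is principal (`LocPlan.PrincAt`).  Then `𝔮` has a cut function (`LocPlan.Cut`): there is
`e ∈ 𝔮` generating `𝔮 R_𝔮` such that every prime `𝔮'` with `e ∈ 𝔮'` and `ϖ ∉ 𝔮'` contains `𝔮`.

No assumption on the "thickness" of the node is made (no `u w = ϖ · unit`): the proof is a finite
Morse-type iteration `u ← u - ϖ^k λ w`, `w ← w - ϖ^k μ u` which makes the linear part of the
local equation `u w ε = ϖ (a u + b w) + ϖ^k (A u² + C w²)` constant to any prescribed order,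
while the content `min (v a, v b)` (finite because `𝔮 R_𝔮` is principal) stays fixed.

Main result: `nodeLE : LocPlan.NodeLEStatement`.
-/

set_option autoImplicit false

namespace Fermat.Agent.S34.NodeLE

open IsLocalRing Fermat.Agent.S34.LocPlan

section Units

variable {R : Type*} [CommRing R] [IsLocalRing R]

theorem isUnit_sub_of_mem {ε x : R} (hε : IsUnit ε) (hx : x ∈ maximalIdeal R) :
    IsUnit (ε - x) := by
  by_contra h
  have h1 : ε - x ∈ maximalIdeal R := (IsLocalRing.mem_maximalIdeal _).2 h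
  have h2 : ε ∈ maximalIdeal R := by
    have := (maximalIdeal R).add_mem h1 hx
    simpa using this
  exact (IsLocalRing.mem_maximalIdeal _).1 h2 hε

theorem isUnit_add_of_mem {ε x : R} (hε : IsUnit ε) (hx : x ∈ maximalIdeal R) :
    IsUnit (ε + x) := by
  have := isUnit_sub_of_mem hε ((maximalIdeal R).neg_mem hx)
  simpa using this

end Units

section Span

variable {R : Type*} [CommRing R]

theorem span_pair_sub_mul (u w c : R) :
    Ideal.span ({u - c * w, w} : Set R) = Ideal.span {u, w} := by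
  apply le_antisymm
  · rw [Ideal.span_le]
    rintro x (rfl | rfl)
    · exact Ideal.mem_span_pair.2 ⟨1, -c, by ring⟩
    · exact Ideal.mem_span_pair.2 ⟨0, 1, by ring⟩
  · rw [Ideal.span_le]
    rintro x (rfl | rfl)
    · exact Ideal.mem_span_pair.2 ⟨1, c, by ring⟩
    · exact Ideal.mem_span_pair.2 ⟨0, 1, by ring⟩

theorem span_pair_sub_mul' (u w c : R) :
    Ideal.span ({u, w - c * u} : Set R) = Ideal.span {u, w} := by
  rw [Set.pair_comm, span_pair_sub_mul, Set.pair_comm]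

end Span

variable {O R : Type*} [CommRing O] [IsDomain O] [IsDiscreteValuationRing O]
  [CommRing R] [IsDomain R] [IsLocalRing R] [Algebra O R]

/-- The `j`-th stage of the iteration (quadratic part divisible by `π ^ (j + 1)`). -/
def Stage (π : O) (𝔮 : Ideal R) (b₀ : O) (j : ℕ) (u w : R) : Prop :=
  Ideal.span {u, w} = 𝔮 ∧ ∃ (ε : R) (a b : O) (A C : R), IsUnit ε ∧ b ∣ a ∧ Associated b b₀ ∧
    u * w * ε = algebraMap O R π * (algebraMap O R a * u + algebraMap O R b * w) +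
      algebraMap O R (π ^ (j + 1)) * (A * u ^ 2 + C * w ^ 2)

omit [IsDomain O] [IsDiscreteValuationRing O] [IsDomain R] [IsLocalRing R] in
/-- Decomposition of an element along `𝔮 = (u, w)` and the constants. -/
theorem exists_decomp {𝔮 : Ideal R} (hrat : ∀ x : R, ∃ c : O, x - algebraMap O R c ∈ 𝔮)
    {u w : R} (hspan : Ideal.span {u, w} = 𝔮) (x : R) :
    ∃ (c : O) (x₁ x₂ : R), x = algebraMap O R c + x₁ * u + x₂ * w := by
  obtain ⟨c, hc⟩ := hrat x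
  rw [← hspan] at hc
  obtain ⟨p, q, hpq⟩ := Ideal.mem_span_pair.1 hc
  exact ⟨c, p, q, by linear_combination -hpq⟩

omit [IsDomain R] in
/-- One step of the iteration. -/
theorem stage_succ {π : O} (hπ : Irreducible π) (hπn : algebraMap O R π ∈ maximalIdeal R)
    {𝔮 : Ideal R} (hrat : ∀ x : R, ∃ c : O, x - algebraMap O R c ∈ 𝔮) {b₀ : O} {j : ℕ}
    {u w : R} (h : Stage π 𝔮 b₀ j u w) :
    ∃ u' w' : R, Stage π 𝔮 b₀ (j + 1) u' w' := by
  obtain ⟨hspan, ε, a, b, A, C, hε, hba, hbb₀, heq⟩ := h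
  obtain ⟨ϖ, hϖ⟩ : ∃ ϖ : R, ϖ = algebraMap O R π := ⟨_, rfl⟩
  obtain ⟨p, hp⟩ : ∃ p : R, p = algebraMap O R (π ^ (j + 1)) := ⟨_, rfl⟩
  rw [← hϖ, ← hp] at heq
  rw [← hϖ] at hπn
  have hpϖ : p = ϖ * algebraMap O R (π ^ j) := by
    rw [hp, hϖ, pow_succ, map_mul]; ring
  have hpn : p ∈ maximalIdeal R := by
    rw [hpϖ]; exact (maximalIdeal R).mul_mem_right _ hπn
  have hpO : π ^ (j + 1) ∈ maximalIdeal O := by
    rw [pow_succ]
    exact (maximalIdeal O).mul_mem_left _ ((IsLocalRing.mem_maximalIdeal _).2 hπ.not_isUnit)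
  -- first half: kill the `w ^ 2` term
  obtain ⟨ι, hι⟩ := hε.exists_right_inv
  obtain ⟨lam, hlam⟩ : ∃ lam : R, lam = C * ι := ⟨_, rfl⟩
  obtain ⟨u', hu'⟩ : ∃ u' : R, u' = u - p * lam * w := ⟨_, rfl⟩
  have hspan' : Ideal.span {u', w} = 𝔮 := by rw [hu', span_pair_sub_mul, hspan]
  obtain ⟨l0, l1, l2, hl⟩ := exists_decomp hrat hspan' lam
  have h1 : u' * w * ε = ϖ * (algebraMap O R a * u + algebraMap O R b * w) + p * (A * u ^ 2) := by
    rw [hu', hlam]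
    linear_combination heq - p * C * w ^ 2 * hι
  have h2 : u = u' + p * lam * w := by rw [hu']; ring
  obtain ⟨ε', hε'⟩ : ∃ ε' : R,
      ε' = ε - (ϖ * p * algebraMap O R a * l1 + 2 * p * p * A * lam) := ⟨_, rfl⟩
  have hε'u : IsUnit ε' := by
    rw [hε']
    apply isUnit_sub_of_mem hε
    have : ϖ * p * algebraMap O R a * l1 + 2 * p * p * A * lam =
        p * (ϖ * algebraMap O R a * l1 + 2 * p * A * lam) := by ring
    rw [this]
    exact (maximalIdeal R).mul_mem_right _ hpn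
  obtain ⟨b', hb'⟩ : ∃ b' : O, b' = b + π ^ (j + 1) * a * l0 := ⟨_, rfl⟩
  obtain ⟨q, hq⟩ := hba
  have hb'b : Associated b b' := by
    have hunit : IsUnit (1 + π ^ (j + 1) * q * l0) := by
      have h1 : π ^ (j + 1) * q * l0 ∈ maximalIdeal O := by
        have h2 := (maximalIdeal O).mul_mem_right (q * l0) hpO
        rwa [← mul_assoc] at h2
      exact isUnit_add_of_mem isUnit_one h1
    obtain ⟨υ, hυ⟩ := hunit
    refine ⟨υ, ?_⟩
    rw [hυ, hb', hq]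
    ring
  have hb'R : algebraMap O R b' = algebraMap O R b + p * algebraMap O R a * algebraMap O R l0 := by
    rw [hb', hp, map_add, map_mul, map_mul]
  obtain ⟨C', hC'⟩ : ∃ C' : R,
      C' = algebraMap O R a * l2 + algebraMap O R (π ^ j) * p * A * lam ^ 2 := ⟨_, rfl⟩
  have hmid : u' * w * ε' = ϖ * (algebraMap O R a * u' + algebraMap O R b' * w) +
      p * (A * u' ^ 2) + ϖ * p * (C' * w ^ 2) := by
    rw [hb'R, hC', hε']
    linear_combination h1 + (ϖ * algebraMap O R a + p * A * (u + u' + p * lam * w)) * h2 +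
      p ^ 2 * A * lam ^ 2 * w ^ 2 * hpϖ + ϖ * algebraMap O R a * p * w * hl
  -- second half: kill the `u ^ 2` term
  obtain ⟨ι', hι'⟩ := hε'u.exists_right_inv
  obtain ⟨mu, hmu⟩ : ∃ mu : R, mu = A * ι' := ⟨_, rfl⟩
  obtain ⟨w', hw'⟩ : ∃ w' : R, w' = w - p * mu * u' := ⟨_, rfl⟩
  have hspan'' : Ideal.span {u', w'} = 𝔮 := by rw [hw', span_pair_sub_mul', hspan']
  obtain ⟨m0, m1, m2, hm⟩ := exists_decomp hrat hspan'' mu
  have h1' : u' * w' * ε' = ϖ * (algebraMap O R a * u' + algebraMap O R b' * w) +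
      ϖ * p * (C' * w ^ 2) := by
    rw [hw', hmu]
    linear_combination hmid - p * A * u' ^ 2 * hι'
  have h2' : w = w' + p * mu * u' := by rw [hw']; ring
  obtain ⟨ε'', hε''⟩ : ∃ ε'' : R,
      ε'' = ε' - (ϖ * p * algebraMap O R b' * m2 + 2 * ϖ * p * p * C' * mu) := ⟨_, rfl⟩
  have hε''u : IsUnit ε'' := by
    rw [hε'']
    apply isUnit_sub_of_mem hε'u
    have : ϖ * p * algebraMap O R b' * m2 + 2 * ϖ * p * p * C' * mu =
        p * (ϖ * algebraMap O R b' * m2 + 2 * ϖ * p * C' * mu) := by ring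
    rw [this]
    exact (maximalIdeal R).mul_mem_right _ hpn
  obtain ⟨a', ha'⟩ : ∃ a' : O, a' = a + π ^ (j + 1) * b' * m0 := ⟨_, rfl⟩
  have ha'R : algebraMap O R a' = algebraMap O R a + p * algebraMap O R b' * algebraMap O R m0 := by
    rw [ha', hp, map_add, map_mul, map_mul]
  have hb'a' : b' ∣ a' := by
    obtain ⟨υ, hυ⟩ := hb'b
    have hba' : b' ∣ a :=
      ⟨((υ⁻¹ : Oˣ) : O) * q, by
        rw [hq, ← hυ, mul_assoc, ← mul_assoc (υ : O), Units.mul_inv, one_mul]⟩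
    rw [ha']
    exact dvd_add hba' (Dvd.intro_left _ (by ring : π ^ (j + 1) * m0 * b' = π ^ (j + 1) * b' * m0))
  refine ⟨u', w', hspan'', ε'', a', b', algebraMap O R b' * m1 + p * p * C' * mu ^ 2, C', hε''u,
    hb'a', hb'b.symm.trans hbb₀, ?_⟩
  have hpp : algebraMap O R (π ^ (j + 1 + 1)) = ϖ * p := by
    rw [hp, hϖ, pow_succ (π) (j + 1), map_mul]; ring
  rw [hpp, ha'R, hε'', ← hϖ]
  linear_combination h1' +
    (ϖ * algebraMap O R b' + ϖ * p * C' * (w + w' + p * mu * u')) * h2' +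
    ϖ * p * algebraMap O R b' * u' * hm

omit [IsDomain R] in
/-- All stages exist once the first one does. -/
theorem stage_all {π : O} (hπ : Irreducible π) (hπn : algebraMap O R π ∈ maximalIdeal R)
    {𝔮 : Ideal R} (hrat : ∀ x : R, ∃ c : O, x - algebraMap O R c ∈ 𝔮) {b₀ : O}
    {u w : R} (h : Stage π 𝔮 b₀ 0 u w) (j : ℕ) :
    ∃ u' w' : R, Stage π 𝔮 b₀ j u' w' := by
  induction j with
  | zero => exact ⟨u, w, h⟩
  | succ j ih =>
    obtain ⟨u', w', h'⟩ := ih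
    exact stage_succ hπ hπn hrat h'

omit [IsDomain R] in
/-- At a sufficiently late stage, `u` is a cut function. -/
theorem cut_of_stage {π : O} (hπ : Irreducible π) {𝔮 : Ideal R} [h𝔮 : 𝔮.IsPrime]
    (hπ𝔮 : algebraMap O R π ∉ 𝔮) {b₀ : O} (hb₀ : b₀ ≠ 0)
    (h : ∀ j : ℕ, ∃ u' w' : R, Stage π 𝔮 b₀ j u' w') :
    ∃ e : R, Cut (algebraMap O R π) (maximalIdeal R) 𝔮 e := by
  obtain ⟨c, hc⟩ := IsDiscreteValuationRing.associated_pow_irreducible hb₀ hπ
  obtain ⟨u, w, hspan, ε, a, b, A, C, hε, -, hbb₀, heq⟩ := h c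
  have hwn : w ∈ maximalIdeal R :=
    IsLocalRing.le_maximalIdeal h𝔮.ne_top (hspan ▸ Ideal.subset_span (by simp))
  obtain ⟨υ, hυ⟩ := (hbb₀.trans hc).symm
  -- `b = π ^ c * υ`
  obtain ⟨ϖ, hϖ⟩ : ∃ ϖ : R, ϖ = algebraMap O R π := ⟨_, rfl⟩
  have hbR : algebraMap O R b = ϖ ^ c * algebraMap O R (υ : O) := by
    rw [← hυ, map_mul, map_pow, hϖ]
  have hpR : algebraMap O R (π ^ (c + 1)) = ϖ ^ c * ϖ := by
    rw [pow_succ, map_mul, map_pow, hϖ]
  rw [hbR, hpR, ← hϖ] at heq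
  rw [← hϖ] at hπ𝔮
  have hυR : IsUnit (algebraMap O R (υ : O)) := (υ.isUnit).map (algebraMap O R)
  have hu𝔮 : u ∈ 𝔮 := hspan ▸ Ideal.subset_span (by simp)
  have hw𝔮 : w ∈ 𝔮 := hspan ▸ Ideal.subset_span (by simp)
  have hϖc : ∀ k : ℕ, ϖ ^ k ∉ 𝔮 := fun k hk => hπ𝔮 (h𝔮.mem_of_pow_mem k hk)
  refine ⟨u, hu𝔮, ?_, ?_⟩
  · intro 𝔮' h𝔮' _ hu𝔮' hϖ𝔮'
    rw [← hϖ] at hϖ𝔮'
    have hunit : IsUnit (algebraMap O R (υ : O) + C * w) :=
      isUnit_add_of_mem hυR ((maximalIdeal R).mul_mem_left _ hwn)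
    have hmem : ϖ ^ (c + 1) * (w * (algebraMap O R (υ : O) + C * w)) ∈ 𝔮' := by
      have h1 : ϖ ^ (c + 1) * (w * (algebraMap O R (υ : O) + C * w)) =
          u * (w * ε - ϖ * algebraMap O R a - ϖ ^ c * ϖ * (A * u)) := by
        linear_combination -heq
      rw [h1]
      exact 𝔮'.mul_mem_right _ hu𝔮'
    have hw𝔮' : w ∈ 𝔮' := by
      rcases h𝔮'.mem_or_mem hmem with h1 | h1
      · exact absurd (h𝔮'.mem_of_pow_mem _ h1) hϖ𝔮'
      · rcases h𝔮'.mem_or_mem h1 with h2 | h2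
        · exact h2
        · exact absurd (𝔮'.eq_top_of_isUnit_mem h2 hunit) h𝔮'.ne_top
    rw [← hspan, Ideal.span_le]
    rintro x (rfl | rfl)
    · exact hu𝔮'
    · exact hw𝔮'
  · intro y hy
    rw [← hspan] at hy
    obtain ⟨y₁, y₂, rfl⟩ := Ideal.mem_span_pair.1 hy
    refine ⟨u * ε - ϖ * (ϖ ^ c * algebraMap O R (υ : O)) - ϖ ^ c * ϖ * (C * w), ?_,
      y₁ * (u * ε - ϖ * (ϖ ^ c * algebraMap O R (υ : O)) - ϖ ^ c * ϖ * (C * w)) +
        y₂ * (ϖ * algebraMap O R a + ϖ ^ c * ϖ * (A * u)), ?_⟩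
    · intro hs
      have h1 : ϖ ^ (c + 1) * algebraMap O R (υ : O) ∈ 𝔮 := by
        have h2 : ϖ ^ (c + 1) * algebraMap O R (υ : O) =
            u * ε - ϖ ^ c * ϖ * (C * w) -
              (u * ε - ϖ * (ϖ ^ c * algebraMap O R (υ : O)) - ϖ ^ c * ϖ * (C * w)) := by ring
        rw [h2]
        exact 𝔮.sub_mem (𝔮.sub_mem (𝔮.mul_mem_right _ hu𝔮)
          (𝔮.mul_mem_left _ (𝔮.mul_mem_left _ hw𝔮))) hs
      rcases h𝔮.mem_or_mem h1 with h3 | h3
      · exact hϖc _ h3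
      · exact h𝔮.ne_top (𝔮.eq_top_of_isUnit_mem h3 hυR)
    · linear_combination y₂ * heq

/-! ### The set-up: coordinates in `𝔮`, the equation, finiteness of the content -/

section Setup

omit [IsDomain R] [IsLocalRing R] in
theorem mem_span_triple {a b c x : R} :
    x ∈ Ideal.span ({a, b, c} : Set R) ↔ ∃ p q r : R, p * a + q * b + r * c = x := by
  rw [Ideal.mem_span_insert]
  constructor
  · rintro ⟨p, z, hz, rfl⟩
    obtain ⟨q, r, rfl⟩ := Ideal.mem_span_pair.1 hz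
    exact ⟨p, q, r, by ring⟩
  · rintro ⟨p, q, r, rfl⟩
    exact ⟨p, q * b + r * c, Ideal.mem_span_pair.2 ⟨q, r, rfl⟩, by ring⟩

omit [IsDomain R] [IsLocalRing R] in
theorem span_triple_sub (ϖ u w x y : R) :
    Ideal.span ({ϖ, u - ϖ * x, w - ϖ * y} : Set R) = Ideal.span {ϖ, u, w} := by
  apply le_antisymm
  · rw [Ideal.span_le]
    rintro z (rfl | rfl | rfl)
    · exact mem_span_triple.2 ⟨1, 0, 0, by ring⟩
    · exact mem_span_triple.2 ⟨-x, 1, 0, by ring⟩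
    · exact mem_span_triple.2 ⟨-y, 0, 1, by ring⟩
  · rw [Ideal.span_le]
    rintro z (rfl | rfl | rfl)
    · exact mem_span_triple.2 ⟨1, 0, 0, by ring⟩
    · exact mem_span_triple.2 ⟨x, 1, 0, by ring⟩
    · exact mem_span_triple.2 ⟨y, 0, 1, by ring⟩

omit [IsDomain R] [IsLocalRing R] in
theorem span_pair_sub (ϖ w y : R) :
    Ideal.span ({ϖ, w - ϖ * y} : Set R) = Ideal.span {ϖ, w} := by
  apply le_antisymm
  · rw [Ideal.span_le]
    rintro z (rfl | rfl)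
    · exact Ideal.mem_span_pair.2 ⟨1, 0, by ring⟩
    · exact Ideal.mem_span_pair.2 ⟨-y, 1, by ring⟩
  · rw [Ideal.span_le]
    rintro z (rfl | rfl)
    · exact Ideal.mem_span_pair.2 ⟨1, 0, by ring⟩
    · exact Ideal.mem_span_pair.2 ⟨y, 1, by ring⟩

omit [IsDomain R] in
/-- Nakayama: an ideal `T` contained in `N + ϖ T` is contained in `N`. -/
theorem le_of_le_sup_smul [IsNoetherianRing R] {ϖ : R} (hϖ : ϖ ∈ maximalIdeal R) {T N : Ideal R}
    (h : T ≤ N ⊔ Ideal.span {ϖ} • T) : T ≤ N := by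
  refine Submodule.le_of_le_smul_of_le_jacobson_bot (IsNoetherian.noetherian T) ?_ h
  rw [IsLocalRing.jacobson_eq_maximalIdeal ⊥ bot_ne_top]
  exact (Ideal.span_singleton_le_iff_mem _).2 hϖ

/-- The ideal of second coordinates of the syzygies of `(u, w)`. -/
def syzSnd (u w : R) : Ideal R where
  carrier := {b | ∃ a, a * u + b * w = 0}
  add_mem' := by
    rintro b b' ⟨a, h⟩ ⟨a', h'⟩
    exact ⟨a + a', by linear_combination h + h'⟩
  zero_mem' := ⟨0, by ring⟩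
  smul_mem' := by
    rintro c b ⟨a, h⟩
    exact ⟨c * a, by simp only [smul_eq_mul]; linear_combination c * h⟩

/-- The syzygies of node coordinates: second coordinates lie in `(u, ϖ β)`. -/
theorem syzSnd_le [IsNoetherianRing R] {ϖ u w α β : R} (hϖn : ϖ ∈ maximalIdeal R) (hϖ0 : ϖ ≠ 0)
    (hsyz : ∀ a b : R, ϖ ∣ a * u + b * w → a ∈ Ideal.span {ϖ, w} ∧ b ∈ Ideal.span {ϖ, u})
    (heq : u * w = ϖ * (α * u + β * w)) :
    syzSnd u w ≤ Ideal.span {u, ϖ * β} := by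
  apply le_of_le_sup_smul hϖn
  rintro b ⟨a, hab⟩
  obtain ⟨ha, hb⟩ := hsyz a b (by rw [hab]; exact dvd_zero _)
  obtain ⟨a', c, rfl⟩ := Ideal.mem_span_pair.1 ha
  obtain ⟨b', d, rfl⟩ := Ideal.mem_span_pair.1 hb
  have h1 : ϖ * ((a' + (c + d) * α) * u + (b' + (c + d) * β) * w) = 0 := by
    linear_combination hab - (c + d) * heq
  have h2 := (mul_eq_zero.1 h1).resolve_left hϖ0
  have hT : b' + (c + d) * β ∈ syzSnd u w := ⟨a' + (c + d) * α, h2⟩
  refine Submodule.mem_sup.2 ⟨d * u - (c + d) * (ϖ * β), ?_, ϖ * (b' + (c + d) * β), ?_, by ring⟩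
  · exact Ideal.sub_mem _ (Ideal.mul_mem_left _ _ (Ideal.subset_span (by simp)))
      (Ideal.mul_mem_left _ _ (Ideal.subset_span (by simp)))
  · exact Submodule.smul_mem_smul (Ideal.mem_span_singleton_self ϖ) hT

end Setup

/-- **[N1] NodeLE.** -/
theorem nodeLE : NodeLEStatement := by
  intro O _ _ _ R _ _ _ _ _ π u w 𝔮 hπ h𝔮 hmax hdvd hsyz hπ𝔮 hrat hprinc
  have hπn : algebraMap O R π ∈ maximalIdeal R := by
    rw [hmax]; exact Ideal.subset_span (by simp)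
  have h𝔮n : 𝔮 ≤ maximalIdeal R := IsLocalRing.le_maximalIdeal h𝔮.ne_top
  have hϖ0 : algebraMap O R π ≠ 0 := fun h0 => hπ𝔮 (h0 ▸ 𝔮.zero_mem)
  -- constants of elements of the maximal ideal are divisible by `π`
  have hconst : ∀ x ∈ maximalIdeal R, ∀ c : O, x - algebraMap O R c ∈ 𝔮 → π ∣ c := by
    intro x hx c hc
    have hcn : algebraMap O R c ∈ maximalIdeal R := by
      have := (maximalIdeal R).sub_mem hx (h𝔮n hc)
      simpa using this
    by_contra hdc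
    have hunit : IsUnit c := by
      by_contra hnu
      apply hdc
      have h1 : c ∈ maximalIdeal O := (IsLocalRing.mem_maximalIdeal _).2 hnu
      rw [hπ.maximalIdeal_eq] at h1
      exact Ideal.mem_span_singleton.1 h1
    exact (IsLocalRing.mem_maximalIdeal _).1 hcn (hunit.map _)
  -- Step 1: move the coordinates into `𝔮`
  obtain ⟨cu, hcu⟩ := hrat u
  obtain ⟨cw, hcw⟩ := hrat w
  obtain ⟨du, rfl⟩ := hconst u (by rw [hmax]; exact Ideal.subset_span (by simp)) cu hcu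
  obtain ⟨dw, rfl⟩ := hconst w (by rw [hmax]; exact Ideal.subset_span (by simp)) cw hcw
  obtain ⟨ϖ, hϖ⟩ : ∃ ϖ : R, ϖ = algebraMap O R π := ⟨_, rfl⟩
  rw [← hϖ] at hπn hϖ0 hmax hdvd hsyz hπ𝔮
  obtain ⟨u₁, hu₁⟩ : ∃ u₁ : R, u₁ = u - ϖ * algebraMap O R du := ⟨_, rfl⟩
  obtain ⟨w₁, hw₁⟩ : ∃ w₁ : R, w₁ = w - ϖ * algebraMap O R dw := ⟨_, rfl⟩
  have hu₁𝔮 : u₁ ∈ 𝔮 := by rw [hu₁, hϖ, ← map_mul]; exact hcu
  have hw₁𝔮 : w₁ ∈ 𝔮 := by rw [hw₁, hϖ, ← map_mul]; exact hcw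
  have hmax₁ : maximalIdeal R = Ideal.span {ϖ, u₁, w₁} := by
    rw [hu₁, hw₁, span_triple_sub, hmax]
  have hsyz₁ : ∀ a b : R, ϖ ∣ a * u₁ + b * w₁ →
      a ∈ Ideal.span {ϖ, w₁} ∧ b ∈ Ideal.span {ϖ, u₁} := by
    intro a b hab
    have h1 : ϖ ∣ a * u + b * w := by
      have h2 : a * u + b * w =
          (a * u₁ + b * w₁) + ϖ * (a * algebraMap O R du + b * algebraMap O R dw) := by
        rw [hu₁, hw₁]; ring
      rw [h2]
      exact dvd_add hab (dvd_mul_right _ _)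
    obtain ⟨ha, hb⟩ := hsyz a b h1
    rw [hu₁, hw₁, span_pair_sub, span_pair_sub]
    exact ⟨ha, hb⟩
  -- Step 2: `𝔮 = (u₁, w₁)`
  have hspan : Ideal.span {u₁, w₁} = 𝔮 := by
    apply le_antisymm
    · rw [Ideal.span_le]
      rintro x (rfl | rfl)
      · exact hu₁𝔮
      · exact hw₁𝔮
    · apply le_of_le_sup_smul hπn
      intro x hx
      have hxn := h𝔮n hx
      rw [hmax₁] at hxn
      obtain ⟨p, q, r, rfl⟩ := mem_span_triple.1 hxn
      have hp : p ∈ 𝔮 := by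
        have h1 : p * ϖ ∈ 𝔮 := by
          have h2 : p * ϖ = (p * ϖ + q * u₁ + r * w₁) - (q * u₁ + r * w₁) := by ring
          rw [h2]
          exact 𝔮.sub_mem hx (𝔮.add_mem (𝔮.mul_mem_left _ hu₁𝔮) (𝔮.mul_mem_left _ hw₁𝔮))
        exact (h𝔮.mem_or_mem h1).resolve_right hπ𝔮
      refine Submodule.mem_sup.2 ⟨q * u₁ + r * w₁, Ideal.mem_span_pair.2 ⟨q, r, rfl⟩, ϖ * p,
        Submodule.smul_mem_smul (Ideal.mem_span_singleton_self ϖ) hp, by ring⟩
  -- Step 3: the equation `u₁ w₁ = ϖ (α u₁ + β w₁)`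
  obtain ⟨α, β, heq⟩ : ∃ α β : R, u₁ * w₁ = ϖ * (α * u₁ + β * w₁) := by
    have h1 : ϖ ∣ u₁ * w₁ := by
      have h2 : u₁ * w₁ = u * w - ϖ * (algebraMap O R du * w + u * algebraMap O R dw
          - ϖ * algebraMap O R du * algebraMap O R dw) := by
        rw [hu₁, hw₁]; ring
      rw [h2]
      exact dvd_sub hdvd (dvd_mul_right _ _)
    obtain ⟨z, hz⟩ := h1
    have hz𝔮 : z ∈ 𝔮 := by
      have h3 : ϖ * z ∈ 𝔮 := hz ▸ 𝔮.mul_mem_right _ hu₁𝔮
      exact (h𝔮.mem_or_mem h3).resolve_left hπ𝔮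
    rw [← hspan] at hz𝔮
    obtain ⟨α, β, rfl⟩ := Ideal.mem_span_pair.1 hz𝔮
    exact ⟨α, β, hz⟩
  -- Step 4: `α ∉ 𝔮` or `β ∉ 𝔮`
  have hαβ : α ∉ 𝔮 ∨ β ∉ 𝔮 := by
    obtain ⟨hne, t, ht, hgen⟩ := hprinc
    have ht' := ht
    rw [← hspan] at ht'
    obtain ⟨x, y, hxy⟩ := Ideal.mem_span_pair.1 ht'
    obtain ⟨su, hsu, cu', hcu'⟩ := hgen u₁ hu₁𝔮
    obtain ⟨sw, hsw, cw', hcw'⟩ := hgen w₁ hw₁𝔮
    have hsu0 : su ≠ 0 := fun h0 => hsu (h0 ▸ 𝔮.zero_mem)
    have hsw0 : sw ≠ 0 := fun h0 => hsw (h0 ▸ 𝔮.zero_mem)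
    have ht0 : t ≠ 0 := by
      rintro rfl
      apply hne
      rw [mul_zero] at hcu' hcw'
      have hu0 : u₁ = 0 := (mul_eq_zero.1 hcu').resolve_left hsu0
      have hw0 : w₁ = 0 := (mul_eq_zero.1 hcw').resolve_left hsw0
      rw [← hspan, hu0, hw0]
      simp
    have hkey : su * sw = sw * x * cu' + su * y * cw' := by
      have h1 : (su * sw - (sw * x * cu' + su * y * cw')) * t = 0 := by
        linear_combination (-(su * sw)) * hxy + sw * x * hcu' + su * y * hcw'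
      have h2 := (mul_eq_zero.1 h1).resolve_right ht0
      linear_combination h2
    have hss : su * sw ∉ 𝔮 := fun h => (h𝔮.mem_or_mem h).elim hsu hsw
    by_cases hcu𝔮 : cu' ∈ 𝔮
    · -- then `cw' ∉ 𝔮`: `w₁` generates, `α ∉ 𝔮`
      have hcw𝔮 : cw' ∉ 𝔮 := by
        intro hcw𝔮
        apply hss
        rw [hkey]
        exact 𝔮.add_mem (𝔮.mul_mem_left _ hcu𝔮) (𝔮.mul_mem_left _ hcw𝔮)
      left
      intro hα
      have hs : cw' * su ∈ syzSnd w₁ u₁ :=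
        ⟨-(cu' * sw), by linear_combination cw' * hcu' - cu' * hcw'⟩
      have hle := syzSnd_le (u := w₁) (w := u₁) (α := β) (β := α) hπn hϖ0
        (fun a b hab => (hsyz₁ b a (by rwa [add_comm] at hab)).symm)
        (by linear_combination heq) hs
      obtain ⟨x', y', hx'y'⟩ := Ideal.mem_span_pair.1 hle
      have : cw' * su ∈ 𝔮 := by
        rw [← hx'y']
        exact 𝔮.add_mem (𝔮.mul_mem_left _ hw₁𝔮) (𝔮.mul_mem_left _ (𝔮.mul_mem_left _ hα))
      exact (h𝔮.mem_or_mem this).elim hcw𝔮 hsu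
    · -- `u₁` generates, `β ∉ 𝔮`
      right
      intro hβ
      have hs : cu' * sw ∈ syzSnd u₁ w₁ :=
        ⟨-(cw' * su), by linear_combination cu' * hcw' - cw' * hcu'⟩
      have hle := syzSnd_le hπn hϖ0 hsyz₁ heq hs
      obtain ⟨x', y', hx'y'⟩ := Ideal.mem_span_pair.1 hle
      have : cu' * sw ∈ 𝔮 := by
        rw [← hx'y']
        exact 𝔮.add_mem (𝔮.mul_mem_left _ hu₁𝔮) (𝔮.mul_mem_left _ (𝔮.mul_mem_left _ hβ))
      exact (h𝔮.mem_or_mem this).elim hcu𝔮 hsw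
  -- Step 5: the first stage
  obtain ⟨a₁, α₁, α₂, hα⟩ := exists_decomp hrat hspan α
  obtain ⟨b₁, β₁, β₂, hβ⟩ := exists_decomp hrat hspan β
  have hab0 : a₁ ≠ 0 ∨ b₁ ≠ 0 := by
    rcases hαβ with h | h
    · left
      rintro rfl
      apply h
      rw [hα, map_zero, zero_add]
      exact 𝔮.add_mem (𝔮.mul_mem_left _ hu₁𝔮) (𝔮.mul_mem_left _ hw₁𝔮)
    · right
      rintro rfl
      apply h
      rw [hβ, map_zero, zero_add]
      exact 𝔮.add_mem (𝔮.mul_mem_left _ hu₁𝔮) (𝔮.mul_mem_left _ hw₁𝔮)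
  have hεu : IsUnit (1 - ϖ * (α₂ + β₁)) :=
    isUnit_sub_of_mem isUnit_one ((maximalIdeal R).mul_mem_right _ hπn)
  have hbase : u₁ * w₁ * (1 - ϖ * (α₂ + β₁)) =
      ϖ * (algebraMap O R a₁ * u₁ + algebraMap O R b₁ * w₁) +
        ϖ * (α₁ * u₁ ^ 2 + β₂ * w₁ ^ 2) := by
    linear_combination heq + ϖ * u₁ * hα + ϖ * w₁ * hβ
  have hpow : algebraMap O R (π ^ (0 + 1)) = ϖ := by rw [zero_add, pow_one, hϖ]
  -- orientation
  have horient : (b₁ ≠ 0 ∧ b₁ ∣ a₁) ∨ (a₁ ≠ 0 ∧ a₁ ∣ b₁) := by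
    rcases ValuationRing.dvd_total a₁ b₁ with h | h
    · by_cases ha : a₁ = 0
      · subst ha
        have hb : b₁ = 0 := zero_dvd_iff.1 h
        rcases hab0 with h' | h'
        · exact absurd rfl h'
        · exact absurd hb h'
      · exact Or.inr ⟨ha, h⟩
    · by_cases hb : b₁ = 0
      · subst hb
        have ha : a₁ = 0 := zero_dvd_iff.1 h
        rcases hab0 with h' | h'
        · exact absurd ha h'
        · exact absurd rfl h'
      · exact Or.inl ⟨hb, h⟩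
  rw [hϖ] at hπn hπ𝔮
  rcases horient with ⟨hb0, hba⟩ | ⟨ha0, hab⟩
  · have hst : Stage π 𝔮 b₁ 0 u₁ w₁ :=
      ⟨hspan, 1 - ϖ * (α₂ + β₁), a₁, b₁, α₁, β₂, hεu, hba, Associated.refl _, by
        rw [hpow, ← hϖ]; exact hbase⟩
    exact cut_of_stage hπ hπ𝔮 hb0 (stage_all hπ hπn hrat hst)
  · have hst : Stage π 𝔮 a₁ 0 w₁ u₁ :=
      ⟨by rw [Set.pair_comm]; exact hspan, 1 - ϖ * (α₂ + β₁), b₁, a₁, β₂, α₁, hεu, hab,
        Associated.refl _, by
        rw [hpow, ← hϖ]; linear_combination hbase⟩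
    exact cut_of_stage hπ hπ𝔮 ha0 (stage_all hπ hπn hrat hst)

end Fermat.Agent.S34.NodeLE
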