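import Mathlib
import Fermat.Agent.S34.LocPlan

/-!
# S34, ABSTRACT block, leaf [N2b] : `LocPlan.SmoothCutStatement`

At a closed point of the special fibre with `𝔪 = (π, t)` (one regular branch), every
`O`-rational horizontal prime `𝔮` is principal: `𝔮 = (t - c)` for the constant `c` with
`t - c ∈ 𝔮` (Nakayama).  In particular `t - c` is a cut function of `𝔮`.
-/

set_option autoImplicit false

namespace Fermat.Agent.S34.SmoothCutStmt

open IsLocalRing Fermat.Agent.S34.LocPlan

variable {O : Type*} [CommRing O] [IsDomain O] [IsDiscreteValuationRing O]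
  {R : Type*} [CommRing R] [IsLocalRing R] [Algebra O R]

/-- **One-branch cut, ideal form.**  If `𝔪 = (π, t)` and `𝔮` is a prime with `π ∉ 𝔮` and
`R = O + 𝔮`, then `𝔮` is principal, generated by `t - c` (`c : O` with `t - c ∈ 𝔮`). -/
theorem exists_eq_span_singleton [IsNoetherianRing R] {π : O} (hπ : Irreducible π) {t : R}
    {𝔮 : Ideal R} (h𝔮 : 𝔮.IsPrime)
    (hmax : maximalIdeal R = Ideal.span {algebraMap O R π, t})
    (hπ𝔮 : algebraMap O R π ∉ 𝔮)
    (hrat : ∀ x : R, ∃ c : O, x - algebraMap O R c ∈ 𝔮) :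
    ∃ e : R, e ∈ 𝔮 ∧ 𝔮 = Ideal.span {e} := by
  obtain ⟨ct, hct⟩ := hrat t
  have h𝔮le : 𝔮 ≤ maximalIdeal R := IsLocalRing.le_maximalIdeal h𝔮.ne_top
  have hπm : algebraMap O R π ∈ maximalIdeal R := by
    rw [hmax]; exact Ideal.subset_span (by simp)
  have htm : t ∈ maximalIdeal R := by
    rw [hmax]; exact Ideal.subset_span (by simp)
  -- `π ∣ ct`
  have hctm : algebraMap O R ct ∈ maximalIdeal R := by
    have h1 : algebraMap O R ct = t - (t - algebraMap O R ct) := by ring
    rw [h1]; exact Ideal.sub_mem _ htm (h𝔮le hct)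
  have hdvd : π ∣ ct := by
    by_contra hnd
    have hu : IsUnit ct := by
      by_contra hnu
      have h2 : ct ∈ maximalIdeal O := (IsLocalRing.mem_maximalIdeal ct).mpr hnu
      rw [hπ.maximalIdeal_eq, Ideal.mem_span_singleton] at h2
      exact hnd h2
    exact (IsLocalRing.mem_maximalIdeal _).mp hctm (hu.map (algebraMap O R))
  obtain ⟨c', hc'⟩ := hdvd
  have hcR : algebraMap O R ct = algebraMap O R π * algebraMap O R c' := by
    rw [hc', map_mul]
  refine ⟨t - algebraMap O R ct, hct, ?_⟩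
  apply le_antisymm
  · -- Nakayama
    have hfg : 𝔮.FG := IsNoetherian.noetherian _
    have hjac : Ideal.span {algebraMap O R π} ≤ Ideal.jacobson (⊥ : Ideal R) := by
      rw [IsLocalRing.jacobson_eq_maximalIdeal ⊥ bot_ne_top, Ideal.span_le]
      intro x hx
      rw [Set.mem_singleton_iff] at hx
      rw [hx]; exact hπm
    refine Submodule.le_of_le_smul_of_le_jacobson_bot hfg hjac ?_
    intro r hr
    have hrm : r ∈ Ideal.span {algebraMap O R π, t} := hmax ▸ h𝔮le hr
    rw [Ideal.mem_span_pair] at hrm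
    obtain ⟨r₁, r₂, hr12⟩ := hrm
    -- `s := r₁ + c' r₂ ∈ 𝔮` because `π s = r - (t - ct) r₂ ∈ 𝔮`
    have hs : r₁ + algebraMap O R c' * r₂ ∈ 𝔮 := by
      have h3 : algebraMap O R π * (r₁ + algebraMap O R c' * r₂)
          = r - r₂ * (t - algebraMap O R ct) := by
        linear_combination hr12 - r₂ * hcR
      have h4 : algebraMap O R π * (r₁ + algebraMap O R c' * r₂) ∈ 𝔮 := by
        rw [h3]
        exact Ideal.sub_mem _ hr (Ideal.mul_mem_left _ _ hct)
      exact (h𝔮.mem_or_mem h4).resolve_left hπ𝔮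
    have key : r = r₂ * (t - algebraMap O R ct)
        + algebraMap O R π * (r₁ + algebraMap O R c' * r₂) := by
      linear_combination -hr12 + r₂ * hcR
    rw [key]
    refine Submodule.add_mem_sup ?_ ?_
    · exact Ideal.mul_mem_left _ _ (Ideal.subset_span rfl)
    · rw [smul_eq_mul]
      exact Ideal.mul_mem_mul (Ideal.subset_span rfl) hs
  · rw [Ideal.span_le]
    intro x hx
    rw [Set.mem_singleton_iff] at hx
    rw [hx]; exact hct

/-- **[N2b]** `LocPlan.SmoothCutStatement`. -/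
theorem smoothCutStatement : SmoothCutStatement := by
  intro O _ _ _ R _ _ _ _ _ π t 𝔮 hπ h𝔮 hmax hπ𝔮 hrat
  obtain ⟨e, he, heq⟩ := exists_eq_span_singleton hπ h𝔮 hmax hπ𝔮 hrat
  refine ⟨e, he, ?_, ?_⟩
  · intro 𝔮' _ _ he' _
    rw [heq, Ideal.span_le]
    intro x hx
    rw [Set.mem_singleton_iff] at hx
    rw [hx]; exact he'
  · intro y hy
    have hy' : y ∈ Ideal.span {e} := heq ▸ hy
    rw [Ideal.mem_span_singleton'] at hy'
    obtain ⟨c, hc⟩ := hy'
    exact ⟨1, fun h1 => h𝔮.ne_top ((Ideal.eq_top_iff_one _).mpr h1), c, by rw [one_mul, hc]⟩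

end Fermat.Agent.S34.SmoothCutStmt
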