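/-
S34, ABSTRACT block — CutAtTop.lean (helper65): leaf [N2c] of `S34/LocPlan.lean` in CLOSED form,

  `cutAtStatement : LocPlan.CutAtStatement`,

from the hypothesis form `CutAt.cutAt_of_leaves` and the three landed leaves
[N1] `NodeLE.nodeLE`, [N2a] `Trans.nodeCoordsStatement`, [N2b] `SmoothCutStmt.smoothCutStatement`.
-/
import Fermat.Agent.S34.LocPlan
import Fermat.Agent.S34.CutAt
import Fermat.Agent.S34.NodeLE
import Fermat.Agent.S34.Trans
import Fermat.Agent.S34.SmoothCutStmt

set_option autoImplicit false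

namespace Fermat.Agent.S34.CutAtTop

/-- **[N2c]** `LocPlan.CutAtStatement`, closed form. -/
theorem cutAtStatement : Fermat.Agent.S34.LocPlan.CutAtStatement :=
  Fermat.Agent.S34.CutAt.cutAt_of_leaves Fermat.Agent.S34.NodeLE.nodeLE
    Fermat.Agent.S34.Trans.nodeCoordsStatement
    Fermat.Agent.S34.SmoothCutStmt.smoothCutStatement

end Fermat.Agent.S34.CutAtTop
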