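import Mathlib

/-!
# S34, abstract block: products of cut functions (`[HorProd]`)

Bookkeeping between the LOCAL cut lemmas (`NodeCut` / `NodeAll` / `SmoothCut` / `NodeLE`: one
section `z` of the local ring at a closed point at a time) and the NON-local input of `LocA`
(a chart `R`, a prime `n`, all horizontal DVR-primes `𝔮 ≤ n` at once).

* `UnitAt 𝔮 x` : `x ∈ Frac R` is a unit of `R_𝔮` (the shape `∃ a s, a ∉ 𝔮 ∧ s ∉ 𝔮 ∧ x * s = a`);
* `exists_unitAt_div_pow` : if at every horizontal height-one prime `𝔮 ≤ n` either `f` is a unit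
  or there is a cut function `e_𝔮` (`𝔮` is the only horizontal prime `≤ n` through `e_𝔮`) with
  `f / e_𝔮 ^ (m k_𝔮)` a unit at `𝔮`, then `f / e ^ m` is a unit at every horizontal height-one
  prime `≤ n` for `e := ∏ e_𝔮 ^ k_𝔮` (finite product: `R` is noetherian);
* `cut_of_local` : transfer of a cut function from the local ring `R_n` to the chart `R`;
* `unitAt_div_of_gen`, `unitAt_div_zpow_of_gen` : change of uniformiser at `𝔮`.
-/

set_option autoImplicit false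
set_option linter.unusedSectionVars false
set_option linter.style.haveILetI false

namespace Fermat.Agent.S34.HorProd

variable {R E : Type*} [CommRing R] [IsDomain R] [Field E] [Algebra R E] [IsFractionRing R E]

/-- `x` is a unit of the localisation of `R` at `𝔮`. -/
def UnitAt (𝔮 : Ideal R) (x : E) : Prop :=
  ∃ a s : R, a ∉ 𝔮 ∧ s ∉ 𝔮 ∧ x * algebraMap R E s = algebraMap R E a

namespace UnitAt

variable {𝔮 : Ideal R}

theorem ne_zero {x : E} (h : UnitAt 𝔮 x) : x ≠ 0 := by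
  rintro rfl
  obtain ⟨a, s, ha, -, h⟩ := h
  rw [zero_mul] at h
  have : a = 0 := by
    apply IsFractionRing.injective R E
    rw [← h, map_zero]
  exact ha (this ▸ 𝔮.zero_mem)

theorem one [𝔮.IsPrime] : UnitAt 𝔮 (1 : E) :=
  ⟨1, 1, fun h => (Ideal.IsPrime.ne_top ‹_›) ((Ideal.eq_top_iff_one _).mpr h),
    fun h => (Ideal.IsPrime.ne_top ‹_›) ((Ideal.eq_top_iff_one _).mpr h), by simp⟩

theorem mul [𝔮.IsPrime] {x y : E} (hx : UnitAt 𝔮 x) (hy : UnitAt 𝔮 y) : UnitAt 𝔮 (x * y) := by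
  obtain ⟨a, s, ha, hs, h⟩ := hx
  obtain ⟨a', s', ha', hs', h'⟩ := hy
  refine ⟨a * a', s * s', ?_, ?_, ?_⟩
  · exact fun hm => (Ideal.IsPrime.mem_or_mem ‹_› hm).elim ha ha'
  · exact fun hm => (Ideal.IsPrime.mem_or_mem ‹_› hm).elim hs hs'
  · rw [map_mul, map_mul, ← h, ← h']; ring

theorem inv {x : E} (hx : UnitAt 𝔮 x) : UnitAt 𝔮 x⁻¹ := by
  have hx0 := hx.ne_zero
  obtain ⟨a, s, ha, hs, h⟩ := hx
  refine ⟨s, a, hs, ha, ?_⟩
  rw [← h]; field_simp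

theorem div [𝔮.IsPrime] {x y : E} (hx : UnitAt 𝔮 x) (hy : UnitAt 𝔮 y) : UnitAt 𝔮 (x / y) := by
  rw [div_eq_mul_inv]; exact hx.mul hy.inv

theorem pow [𝔮.IsPrime] {x : E} (hx : UnitAt 𝔮 x) (k : ℕ) : UnitAt 𝔮 (x ^ k) := by
  induction k with
  | zero => rw [pow_zero]; exact one
  | succ k ih => rw [pow_succ]; exact ih.mul hx

theorem zpow [𝔮.IsPrime] {x : E} (hx : UnitAt 𝔮 x) (k : ℤ) : UnitAt 𝔮 (x ^ k) := by
  obtain ⟨k, rfl | rfl⟩ := k.eq_nat_or_neg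
  · rw [zpow_natCast]; exact hx.pow k
  · rw [zpow_neg, zpow_natCast]; exact (hx.pow k).inv

theorem of_notMem {e : R} (he : e ∉ 𝔮) [𝔮.IsPrime] : UnitAt 𝔮 (algebraMap R E e) :=
  ⟨e, 1, he, fun h => (Ideal.IsPrime.ne_top ‹_›) ((Ideal.eq_top_iff_one _).mpr h), by simp⟩

theorem prod [𝔮.IsPrime] {ι : Type*} (s : Finset ι) (g : ι → E)
    (h : ∀ i ∈ s, UnitAt 𝔮 (g i)) : UnitAt 𝔮 (∏ i ∈ s, g i) :=
  Finset.prod_induction g (UnitAt 𝔮) (fun _ _ hx hy => hx.mul hy) one h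

end UnitAt

/-- A unit at `𝔮` coming from `R` is not in `𝔮`. -/
theorem notMem_of_unitAt_algebraMap {𝔮 : Ideal R} {e : R}
    (h : UnitAt 𝔮 (algebraMap R E e)) : e ∉ 𝔮 := by
  obtain ⟨a, s, ha, -, h⟩ := h
  intro he
  apply ha
  have : e * s = a := by
    apply IsFractionRing.injective R E
    rw [map_mul, h]
  rw [← this]
  exact 𝔮.mul_mem_right _ he

/-! ### Finiteness of the set of height-one primes where `f` is not a unit -/

/-- For `f ≠ 0` in the fraction field of a noetherian domain, the set of "height one" primes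
(nonzero primes minimal among nonzero primes) at which `f` is not a unit is finite. -/
theorem finite_not_unitAt [IsNoetherianRing R] (f : E) (hf : f ≠ 0) :
    {𝔮 : Ideal R | 𝔮.IsPrime ∧ 𝔮 ≠ ⊥ ∧
      (∀ 𝔮' : Ideal R, 𝔮'.IsPrime → 𝔮' ≤ 𝔮 → 𝔮' = ⊥ ∨ 𝔮' = 𝔮) ∧ ¬ UnitAt 𝔮 f}.Finite := by
  obtain ⟨a, b, hb, rfl⟩ := IsFractionRing.div_surjective (A := R) f
  have hb0 : b ≠ 0 := nonZeroDivisors.ne_zero hb
  have ha0 : a ≠ 0 := by
    rintro rfl
    apply hf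
    simp
  have hbE : algebraMap R E b ≠ 0 := by
    rwa [Ne, map_eq_zero_iff _ (IsFractionRing.injective R E)]
  refine Set.Finite.subset (Ideal.finite_minimalPrimes_of_isNoetherianRing R
    (Ideal.span {a * b})) ?_
  rintro 𝔮 ⟨hprime, -, hmin, hnot⟩
  have hab : a * b ∈ 𝔮 := by
    by_contra hab
    apply hnot
    refine ⟨a, b, fun ha => hab (𝔮.mul_mem_right _ ha), fun hb' => hab (𝔮.mul_mem_left _ hb'), ?_⟩
    field_simp
  refine ⟨⟨hprime, (Ideal.span_singleton_le_iff_mem _).mpr hab⟩, ?_⟩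
  rintro 𝔮' ⟨hprime', hle'⟩ hle
  rcases hmin 𝔮' hprime' hle with h | h
  · exfalso
    have : a * b ∈ (⊥ : Ideal R) := h ▸ (Ideal.span_singleton_le_iff_mem _).mp hle'
    exact mul_ne_zero ha0 hb0 (by simpa using this)
  · exact h.ge

/-! ### The product of cut functions -/

/-- **Product of cut functions.**  `R` a noetherian domain with fraction field `E`, `n` a prime,
`Hor`, `D` two predicates on ideals ("horizontal", "`R_𝔮` is a DVR" — the latter only used through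
`hD`: such primes are nonzero and minimal among nonzero primes).  If at every prime `𝔮 ≤ n` with
`Hor 𝔮`, `D 𝔮` either `f` is a unit, or there is a cut function `e ∈ 𝔮` (`𝔮` is the smallest
horizontal prime `≤ n` through `e`) and `k : ℤ` with `f / e ^ (m k)` a unit at `𝔮`, then there
is `e ≠ 0` in `E` such that `f / e ^ m` is a unit at all these primes. -/
theorem exists_unitAt_div_pow [IsNoetherianRing R] (n : Ideal R) (Hor D : Ideal R → Prop)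
    (hD : ∀ 𝔮 : Ideal R, 𝔮.IsPrime → D 𝔮 →
      𝔮 ≠ ⊥ ∧ ∀ 𝔮' : Ideal R, 𝔮'.IsPrime → 𝔮' ≤ 𝔮 → 𝔮' = ⊥ ∨ 𝔮' = 𝔮)
    (m : ℕ) (f : E) (hf : f ≠ 0)
    (hcut : ∀ 𝔮 : Ideal R, 𝔮.IsPrime → 𝔮 ≤ n → Hor 𝔮 → D 𝔮 → UnitAt 𝔮 f ∨
      ∃ e : R, e ∈ 𝔮 ∧
        (∀ 𝔮' : Ideal R, 𝔮'.IsPrime → 𝔮' ≤ n → Hor 𝔮' → e ∈ 𝔮' → 𝔮 ≤ 𝔮') ∧
        ∃ k : ℤ, UnitAt 𝔮 (f / algebraMap R E e ^ ((m : ℤ) * k))) :
    ∃ e : E, e ≠ 0 ∧
      ∀ 𝔮 : Ideal R, 𝔮.IsPrime → 𝔮 ≤ n → Hor 𝔮 → D 𝔮 → UnitAt 𝔮 (f / e ^ m) := by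
  classical
  -- the bad set
  set B : Set (Ideal R) :=
    {𝔮 | 𝔮.IsPrime ∧ 𝔮 ≤ n ∧ Hor 𝔮 ∧ D 𝔮 ∧ ¬ UnitAt 𝔮 f} with hB
  have hBfin : B.Finite := by
    refine Set.Finite.subset (finite_not_unitAt (R := R) f hf) ?_
    rintro 𝔮 ⟨hp, -, -, hd, hnot⟩
    exact ⟨hp, (hD 𝔮 hp hd).1, (hD 𝔮 hp hd).2, hnot⟩
  -- choice of the cut data on the bad set
  have hch : ∀ 𝔮 : Ideal R, ∃ (e : R) (k : ℤ), 𝔮 ∈ B →
      e ∈ 𝔮 ∧ (∀ 𝔮' : Ideal R, 𝔮'.IsPrime → 𝔮' ≤ n → Hor 𝔮' → e ∈ 𝔮' → 𝔮 ≤ 𝔮') ∧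
        UnitAt 𝔮 (f / algebraMap R E e ^ ((m : ℤ) * k)) := by
    intro 𝔮
    by_cases h𝔮 : 𝔮 ∈ B
    · obtain ⟨hp, hn, hh, hd, hnot⟩ := h𝔮
      rcases hcut 𝔮 hp hn hh hd with h | ⟨e, he, ha, k, hk⟩
      · exact absurd h hnot
      · exact ⟨e, k, fun _ => ⟨he, ha, hk⟩⟩
    · exact ⟨0, 0, fun h => absurd h h𝔮⟩
  choose eF kF hF using hch
  -- nonvanishing of the chosen cut functions
  have heF0 : ∀ 𝔮 ∈ B, algebraMap R E (eF 𝔮) ≠ 0 := by
    intro 𝔮 h𝔮 h0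
    obtain ⟨-, -, hu⟩ := hF 𝔮 h𝔮
    rw [h0] at hu
    by_cases hk : (m : ℤ) * kF 𝔮 = 0
    · rw [hk, zpow_zero, div_one] at hu
      exact h𝔮.2.2.2.2 hu
    · rw [zero_zpow _ hk, div_zero] at hu
      exact hu.ne_zero rfl
  set g : Ideal R → E := fun 𝔮 => algebraMap R E (eF 𝔮) ^ kF 𝔮 with hg
  refine ⟨∏ 𝔮 ∈ hBfin.toFinset, g 𝔮, ?_, ?_⟩
  · rw [Finset.prod_ne_zero_iff]
    intro 𝔮 h𝔮
    exact zpow_ne_zero _ (heF0 𝔮 ((Set.Finite.mem_toFinset hBfin).mp h𝔮))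
  · intro 𝔮 hp hn hh hd
    haveI := hp
    -- the other factors are units at `𝔮`
    have hother : ∀ 𝔮' ∈ B, 𝔮' ≠ 𝔮 → UnitAt 𝔮 (g 𝔮') := by
      intro 𝔮' h𝔮' hne
      refine UnitAt.zpow (UnitAt.of_notMem ?_) _
      intro hmem
      have hle : 𝔮' ≤ 𝔮 := (hF 𝔮' h𝔮').2.1 𝔮 hp hn hh hmem
      rcases (hD 𝔮 hp hd).2 𝔮' h𝔮'.1 hle with h | h
      · exact (hD 𝔮' h𝔮'.1 h𝔮'.2.2.2.1).1 h
      · exact hne h
    by_cases h𝔮 : 𝔮 ∈ B
    · have hmemF : 𝔮 ∈ hBfin.toFinset := (Set.Finite.mem_toFinset hBfin).mpr h𝔮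
      rw [← Finset.mul_prod_erase _ _ hmemF]
      have h1 : UnitAt 𝔮 (f / g 𝔮 ^ m) := by
        have := (hF 𝔮 h𝔮).2.2
        rw [zpow_mul', zpow_natCast] at this
        exact this
      have h2 : UnitAt 𝔮 (∏ x ∈ hBfin.toFinset.erase 𝔮, g x) := by
        refine UnitAt.prod _ _ fun 𝔮' h𝔮' => ?_
        rw [Finset.mem_erase] at h𝔮'
        exact hother 𝔮' ((Set.Finite.mem_toFinset hBfin).mp h𝔮'.2) h𝔮'.1
      have : f / (g 𝔮 * ∏ x ∈ hBfin.toFinset.erase 𝔮, g x) ^ m =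
          (f / g 𝔮 ^ m) / (∏ x ∈ hBfin.toFinset.erase 𝔮, g x) ^ m := by
        rw [mul_pow, div_div]
      rw [this]
      exact h1.div (h2.pow m)
    · have hu : UnitAt 𝔮 f := by
        by_contra hnot
        exact h𝔮 ⟨hp, hn, hh, hd, hnot⟩
      refine hu.div (UnitAt.pow (UnitAt.prod _ _ fun 𝔮' h𝔮' => ?_) m)
      have h𝔮'B := (Set.Finite.mem_toFinset hBfin).mp h𝔮'
      exact hother 𝔮' h𝔮'B (fun h => h𝔮 (h ▸ h𝔮'B))

/-! ### Change of uniformiser at `𝔮` -/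

/-- Two local generators `e`, `t` of `𝔮 R_𝔮` differ by a unit of `R_𝔮`. -/
theorem unitAt_div_of_gen {𝔮 : Ideal R} [𝔮.IsPrime] {e t : R} (ht0 : t ≠ 0)
    (he : e ∈ 𝔮) (ht : t ∈ 𝔮)
    (hge : ∀ y ∈ 𝔮, ∃ s : R, s ∉ 𝔮 ∧ ∃ c : R, s * y = c * e)
    (hgt : ∀ y ∈ 𝔮, ∃ s : R, s ∉ 𝔮 ∧ ∃ c : R, s * y = c * t) :
    UnitAt 𝔮 (algebraMap R E e / algebraMap R E t) := by
  obtain ⟨s₁, hs₁, c₁, h₁⟩ := hge t ht
  obtain ⟨s₂, hs₂, c₂, h₂⟩ := hgt e he
  have hprod : s₁ * s₂ = c₁ * c₂ := by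
    have : (s₁ * s₂ - c₁ * c₂) * t = 0 := by
      linear_combination s₂ * h₁ + c₁ * h₂
    rcases mul_eq_zero.mp this with h | h
    · exact sub_eq_zero.mp h
    · exact absurd h ht0
  have hc₂ : c₂ ∉ 𝔮 := by
    intro hc
    have : s₁ * s₂ ∈ 𝔮 := hprod ▸ 𝔮.mul_mem_left _ hc
    exact (Ideal.IsPrime.mem_or_mem ‹_› this).elim hs₁ hs₂
  have htE : algebraMap R E t ≠ 0 := by
    rwa [Ne, map_eq_zero_iff _ (IsFractionRing.injective R E)]
  refine ⟨c₂, s₂, hc₂, hs₂, ?_⟩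
  have h₂E : algebraMap R E s₂ * algebraMap R E e = algebraMap R E c₂ * algebraMap R E t := by
    rw [← map_mul, ← map_mul, h₂]
  field_simp
  linear_combination h₂E

/-- `m ∣ ord_𝔮 f` may be tested with any uniformiser at `𝔮`. -/
theorem unitAt_div_zpow_of_gen {𝔮 : Ideal R} [𝔮.IsPrime] {e t : R} (ht0 : t ≠ 0)
    (he : e ∈ 𝔮) (ht : t ∈ 𝔮)
    (hge : ∀ y ∈ 𝔮, ∃ s : R, s ∉ 𝔮 ∧ ∃ c : R, s * y = c * e)
    (hgt : ∀ y ∈ 𝔮, ∃ s : R, s ∉ 𝔮 ∧ ∃ c : R, s * y = c * t)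
    {f : E} {j : ℤ} (h : UnitAt 𝔮 (f / algebraMap R E t ^ j)) :
    UnitAt 𝔮 (f / algebraMap R E e ^ j) := by
  have hu := unitAt_div_of_gen (E := E) ht0 he ht hge hgt
  have htE : algebraMap R E t ≠ 0 := by
    rwa [Ne, map_eq_zero_iff _ (IsFractionRing.injective R E)]
  have : f / algebraMap R E e ^ j =
      (f / algebraMap R E t ^ j) / (algebraMap R E e / algebraMap R E t) ^ j := by
    rw [div_zpow, div_div, mul_div_cancel₀]
    exact zpow_ne_zero _ htE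
  rw [this]
  exact h.div (hu.zpow j)

/-! ### Transfer of a cut function from the local ring to the chart -/

/-- **Local → chart.**  Let `Rn` be the localisation of the chart `R` at the prime `n`,
`z : Rn →+* O` a section-like homomorphism to a domain, and `e ∈ ker z` a local cut function
(`hb`: `e` generates `ker z` locally at `ker z`; `ha`: `ker z` lies in every prime of `Rn`
through `e` not containing `π`) — this is verbatim the conclusion of `NodeAll.exists_cut`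
(and follows from `SmoothCut.ker_eq_span_singleton`).  Then the prime `𝔮 = R ∩ ker z` of the
chart has a cut function `e' ∈ R`: `e'` generates `𝔮 R_𝔮`, and `𝔮` lies in every prime `𝔮' ≤ n`
through `e'` not containing `π`. -/
theorem cut_of_local (n : Ideal R) [n.IsPrime] (Rn : Type*) [CommRing Rn] [Algebra R Rn]
    [IsLocalization.AtPrime Rn n] {O : Type*} [CommRing O] [IsDomain O] (z : Rn →+* O)
    (π : R) (e : Rn) (he : z e = 0)
    (hb : ∀ y : Rn, z y = 0 → ∃ s c : Rn, z s ≠ 0 ∧ s * y = c * e)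
    (ha : ∀ P : Ideal Rn, P.IsPrime → e ∈ P → algebraMap R Rn π ∉ P → RingHom.ker z ≤ P) :
    ∃ e' : R, e' ∈ (RingHom.ker z).comap (algebraMap R Rn) ∧
      (∀ y ∈ (RingHom.ker z).comap (algebraMap R Rn),
        ∃ s : R, s ∉ (RingHom.ker z).comap (algebraMap R Rn) ∧ ∃ c : R, s * y = c * e') ∧
      ∀ 𝔮' : Ideal R, 𝔮'.IsPrime → 𝔮' ≤ n → π ∉ 𝔮' → e' ∈ 𝔮' →
        (RingHom.ker z).comap (algebraMap R Rn) ≤ 𝔮' := by
  have hinj : Function.Injective (algebraMap R Rn) :=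
    IsLocalization.injective Rn (M := n.primeCompl) n.primeCompl_le_nonZeroDivisors
  -- units of `Rn` coming from `R ∖ n` have nonzero image under `z`
  have hunit : ∀ σ : n.primeCompl, z (algebraMap R Rn σ) ≠ 0 := fun σ =>
    ((IsLocalization.map_units Rn σ).map z).ne_zero
  obtain ⟨⟨e', σ⟩, hσ⟩ := IsLocalization.surj n.primeCompl e
  -- hσ : e * algebraMap σ = algebraMap e'
  refine ⟨e', ?_, ?_, ?_⟩
  · rw [Ideal.mem_comap, RingHom.mem_ker, ← hσ, map_mul, he, zero_mul]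
  · intro y hy
    rw [Ideal.mem_comap, RingHom.mem_ker] at hy
    obtain ⟨s, c, hs, hsc⟩ := hb _ hy
    obtain ⟨⟨s', σ₁⟩, hσ₁⟩ := IsLocalization.surj n.primeCompl s
    obtain ⟨⟨c', σ₂⟩, hσ₂⟩ := IsLocalization.surj n.primeCompl c
    replace hσ : e * algebraMap R Rn σ = algebraMap R Rn e' := hσ
    replace hσ₁ : s * algebraMap R Rn σ₁ = algebraMap R Rn s' := hσ₁
    replace hσ₂ : c * algebraMap R Rn σ₂ = algebraMap R Rn c' := hσ₂
    refine ⟨s' * σ₂ * σ, ?_, c' * σ₁, ?_⟩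
    · have h1 : z (algebraMap R Rn (s' * σ₂ * σ)) =
          z s * z (algebraMap R Rn σ₁) * z (algebraMap R Rn σ₂) * z (algebraMap R Rn σ) := by
        simp only [map_mul]
        rw [← hσ₁, map_mul]
      rw [Ideal.mem_comap, RingHom.mem_ker, h1]
      exact mul_ne_zero (mul_ne_zero (mul_ne_zero hs (hunit σ₁)) (hunit σ₂)) (hunit σ)
    · apply hinj
      simp only [map_mul]
      rw [← hσ₁, ← hσ₂, ← hσ]
      linear_combination (algebraMap R Rn σ₁ * algebraMap R Rn σ₂ * algebraMap R Rn σ) * hsc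
  · intro 𝔮' hp hn hπ hmem
    have hdisj : Disjoint (n.primeCompl : Set R) (𝔮' : Set R) := by
      rw [Set.disjoint_left]
      intro x hx hx'
      exact hx (hn hx')
    have hP : (Ideal.map (algebraMap R Rn) 𝔮').IsPrime :=
      IsLocalization.isPrime_of_isPrime_disjoint n.primeCompl Rn 𝔮' hp hdisj
    have hcomap : Ideal.comap (algebraMap R Rn) (Ideal.map (algebraMap R Rn) 𝔮') = 𝔮' :=
      IsLocalization.under_map_of_isPrime_disjoint n.primeCompl Rn hp hdisj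
    have heP : e ∈ Ideal.map (algebraMap R Rn) 𝔮' := by
      have h1 : e * algebraMap R Rn σ ∈ Ideal.map (algebraMap R Rn) 𝔮' := by
        rw [hσ]; exact Ideal.mem_map_of_mem _ hmem
      rcases hP.mem_or_mem h1 with h | h
      · exact h
      · exfalso
        exact hP.ne_top (Ideal.eq_top_of_isUnit_mem _ h (IsLocalization.map_units Rn σ))
    have hπP : algebraMap R Rn π ∉ Ideal.map (algebraMap R Rn) 𝔮' := by
      intro h
      apply hπ
      rw [← hcomap]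
      exact h
    have hle := ha _ hP heP hπP
    calc (RingHom.ker z).comap (algebraMap R Rn)
        ≤ (Ideal.map (algebraMap R Rn) 𝔮').comap (algebraMap R Rn) := Ideal.comap_mono hle
      _ = 𝔮' := hcomap

end Fermat.Agent.S34.HorProd
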