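/-
S34 node block — leaf N4 [LocA] of helper41's blueprint (board #2373, step (IV)), Mathlib-only.

Abstract setting: `R` a domain with fraction field `E` (a chart of the normal model), `V ⊆ E` the
semilocal ring of the generic points of the special fibre (`R ⊆ V`, `1 + πV ⊆ Vˣ`, `R ∩ πV = πR`),
`n` a prime of `R` containing `π` (a closed point of the special fibre), and two field
endomorphisms `τ`, `τ'` of `E` which map `R` into `R` and are trivial on `V / πV` ("inertia");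
`τ` moreover preserves the valuations at the generic points (`τ x / x ∈ Vˣ`).

For `f, e ∈ Eˣ` put `φ = f / e ^ m`, `G = τ'τf · f / (τf · τ'f)` (the second difference of `f`) and
`g = τe · τ'e / (τ'τe · e)`.  If `τφ / φ` has no horizontal zero or pole through `n`, then
`g ≡ 1 mod πV` and `G · g ^ m ∈ 1 + π R_n`: the root-free, gluing-free local input of the
two-component Čech argument.
-/
import Mathlib

set_option autoImplicit false
set_option linter.unusedSectionVars false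

namespace Fermat.Agent.S34.LocA

variable {R E : Type*} [CommRing R] [IsDomain R] [Field E] [Algebra R E] [IsFractionRing R E]

/-- `x ∈ E` is a unit of the local ring `R_𝔮`. -/
def UnitAt (𝔮 : Ideal R) (x : E) : Prop :=
  ∃ a s : R, a ∉ 𝔮 ∧ s ∉ 𝔮 ∧ x * algebraMap R E s = algebraMap R E a

/-- `x ∈ E` lies in the local ring `R_𝔮`. -/
def RegAt (𝔮 : Ideal R) (x : E) : Prop :=
  ∃ a s : R, s ∉ 𝔮 ∧ x * algebraMap R E s = algebraMap R E a

/-- `x ∈ E` lies in the maximal ideal of the local ring `R_𝔮`. -/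
def InMax (𝔮 : Ideal R) (x : E) : Prop :=
  ∃ a s : R, a ∈ 𝔮 ∧ s ∉ 𝔮 ∧ x * algebraMap R E s = algebraMap R E a

/-- `R_𝔮` is a discrete valuation ring, in `E`-language: there is a uniformizer `t`. -/
def DvrAt (E : Type*) [Field E] [Algebra R E] (𝔮 : Ideal R) : Prop :=
  ∃ t : E, t ≠ 0 ∧ InMax 𝔮 t ∧ ∀ x : E, x ≠ 0 → ∃ k : ℤ, UnitAt 𝔮 (x * t ^ k)

/-- The semilocal ring `V` of the generic points of the special fibre, relative to the chart `R`:
`R ⊆ V`, `1 + πV ⊆ Vˣ`, `R ∩ πV = πR`. -/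
structure Base (V : Subring E) (π : R) : Prop where
  R_le : ∀ x : R, algebraMap R E x ∈ V
  invV : ∀ z ∈ V, (1 + algebraMap R E π * z)⁻¹ ∈ V
  desc : ∀ z ∈ V, ∀ x : R, algebraMap R E π * z = algebraMap R E x → ∃ y : R, z = algebraMap R E y

/-- `σ` maps `R` into `R` and is trivial on `V / πV`. -/
structure Inert (V : Subring E) (π : R) (σ : E →+* E) : Prop where
  stabR : ∀ x : R, ∃ y : R, σ (algebraMap R E x) = algebraMap R E y
  trivV : ∀ v ∈ V, ∃ z ∈ V, σ v - v = algebraMap R E π * z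

/-- `σ` preserves the valuations at the generic points of the special fibre: `σ x / x ∈ Vˣ`. -/
def ValPres (V : Subring E) (σ : E →+* E) : Prop :=
  ∀ x : E, x ≠ 0 → σ x / x ∈ V ∧ x / σ x ∈ V

/-! ### Elementary calculus of `UnitAt`, `RegAt`, `InMax` -/

section Calculus

variable {𝔮 : Ideal R}

theorem algebraMap_ne_zero_of_not_mem {a : R} (ha : a ∉ 𝔮) : algebraMap R E a ≠ 0 := by
  intro h
  have h0 : a = 0 := (IsFractionRing.injective R E) (by rw [h, map_zero])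
  exact ha (h0 ▸ 𝔮.zero_mem)

theorem UnitAt.ne_zero {x : E} (h : UnitAt 𝔮 x) : x ≠ 0 := by
  obtain ⟨a, s, ha, -, h⟩ := h
  intro hx
  rw [hx, zero_mul] at h
  exact algebraMap_ne_zero_of_not_mem (E := E) ha h.symm

theorem UnitAt.regAt {x : E} (h : UnitAt 𝔮 x) : RegAt 𝔮 x := by
  obtain ⟨a, s, -, hs, h⟩ := h
  exact ⟨a, s, hs, h⟩

theorem unitAt_one [𝔮.IsPrime] : UnitAt 𝔮 (1 : E) :=
  ⟨1, 1, fun h => (Ideal.IsPrime.ne_top inferInstance) ((Ideal.eq_top_iff_one 𝔮).2 h),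
    fun h => (Ideal.IsPrime.ne_top inferInstance) ((Ideal.eq_top_iff_one 𝔮).2 h), by simp⟩

theorem UnitAt.mul [𝔮.IsPrime] {x y : E} (hx : UnitAt 𝔮 x) (hy : UnitAt 𝔮 y) : UnitAt 𝔮 (x * y) := by
  obtain ⟨a, s, ha, hs, h⟩ := hx
  obtain ⟨b, u, hb, hu, h'⟩ := hy
  refine ⟨a * b, s * u, fun h => (Ideal.IsPrime.mem_or_mem inferInstance h).elim ha hb,
    fun h => (Ideal.IsPrime.mem_or_mem inferInstance h).elim hs hu, ?_⟩
  rw [map_mul, map_mul, ← h, ← h']; ring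

theorem UnitAt.inv {x : E} (hx : UnitAt 𝔮 x) : UnitAt 𝔮 x⁻¹ := by
  have hx0 := hx.ne_zero
  obtain ⟨a, s, ha, hs, h⟩ := hx
  refine ⟨s, a, hs, ha, ?_⟩
  rw [← h]; field_simp

theorem UnitAt.div [𝔮.IsPrime] {x y : E} (hx : UnitAt 𝔮 x) (hy : UnitAt 𝔮 y) : UnitAt 𝔮 (x / y) := by
  rw [div_eq_mul_inv]; exact hx.mul hy.inv

theorem UnitAt.pow [𝔮.IsPrime] {x : E} (hx : UnitAt 𝔮 x) (k : ℕ) : UnitAt 𝔮 (x ^ k) := by
  induction k with
  | zero => simpa using unitAt_one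
  | succ k ih => rw [pow_succ]; exact ih.mul hx

theorem RegAt.mul [𝔮.IsPrime] {x y : E} (hx : RegAt 𝔮 x) (hy : RegAt 𝔮 y) : RegAt 𝔮 (x * y) := by
  obtain ⟨a, s, hs, h⟩ := hx
  obtain ⟨b, u, hu, h'⟩ := hy
  refine ⟨a * b, s * u, fun h => (Ideal.IsPrime.mem_or_mem inferInstance h).elim hs hu, ?_⟩
  rw [map_mul, map_mul, ← h, ← h']; ring

theorem InMax.regAt {x : E} (h : InMax 𝔮 x) : RegAt 𝔮 x := by
  obtain ⟨a, s, -, hs, h⟩ := h
  exact ⟨a, s, hs, h⟩

theorem RegAt.pow [𝔮.IsPrime] {x : E} (hx : RegAt 𝔮 x) (k : ℕ) : RegAt 𝔮 (x ^ k) := by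
  induction k with
  | zero => simpa using (unitAt_one (𝔮 := 𝔮) (E := E)).regAt
  | succ k ih => rw [pow_succ]; exact ih.mul hx

/-- An element of `𝔮 R_𝔮` times an element of `R_𝔮` lies in `𝔮 R_𝔮`. -/
theorem InMax.mul_regAt [𝔮.IsPrime] {x y : E} (hx : InMax 𝔮 x) (hy : RegAt 𝔮 y) :
    InMax 𝔮 (x * y) := by
  obtain ⟨a, s, ha, hs, h⟩ := hx
  obtain ⟨b, u, hu, h'⟩ := hy
  refine ⟨a * b, s * u, 𝔮.mul_mem_right _ ha,
    fun h => (Ideal.IsPrime.mem_or_mem inferInstance h).elim hs hu, ?_⟩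
  rw [map_mul, map_mul, ← h, ← h']; ring

theorem inMax_algebraMap [𝔮.IsPrime] {a : R} (ha : a ∈ 𝔮) : InMax 𝔮 (algebraMap R E a) :=
  ⟨a, 1, ha, fun h => (Ideal.IsPrime.ne_top inferInstance) ((Ideal.eq_top_iff_one 𝔮).2 h), by simp⟩

/-- A unit of `R_𝔮` does not lie in `𝔮 R_𝔮`. -/
theorem not_inMax_of_unitAt [𝔮.IsPrime] {x : E} (hx : UnitAt 𝔮 x) : ¬ InMax 𝔮 x := by
  rintro ⟨b, u, hb, hu, h'⟩
  obtain ⟨a, s, ha, hs, h⟩ := hx
  have hx0 : algebraMap R E (a * u) = algebraMap R E (b * s) := by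
    rw [map_mul, map_mul, ← h, ← h']; ring
  have := (IsFractionRing.injective R E) hx0
  have hmem : a * u ∈ 𝔮 := this ▸ 𝔮.mul_mem_right _ hb
  exact (Ideal.IsPrime.mem_or_mem inferInstance hmem).elim ha hu

/-- An element of `R_𝔮` whose inverse also lies in `R_𝔮` is a unit of `R_𝔮`. -/
theorem unitAt_of_regAt_inv [𝔮.IsPrime] {x : E} (hx0 : x ≠ 0) (hx : RegAt 𝔮 x)
    (hx' : RegAt 𝔮 x⁻¹) : UnitAt 𝔮 x := by
  obtain ⟨a, s, hs, h⟩ := hx
  obtain ⟨b, u, hu, h'⟩ := hx'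
  refine ⟨a, s, fun ha => ?_, hs, h⟩
  have hx1 : algebraMap R E (a * b) = algebraMap R E (s * u) := by
    rw [map_mul, map_mul, ← h, ← h']; field_simp
  have := (IsFractionRing.injective R E) hx1
  have hmem : s * u ∈ 𝔮 := this ▸ 𝔮.mul_mem_right _ ha
  exact (Ideal.IsPrime.mem_or_mem inferInstance hmem).elim hs hu

end Calculus

/-! ### The vertical height-one primes: `V ⊆ R_𝔮` -/

section Vertical

variable {V : Subring E} {π : R} {𝔮 : Ideal R}

/-- If `R_𝔮` is a discrete valuation ring and `π ∈ 𝔮`, then `V ⊆ R_𝔮` (from `R ∩ πV = πR`). -/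
theorem regAt_of_mem (hB : Base V π) [𝔮.IsPrime] (hπ : π ∈ 𝔮) (hdvr : DvrAt E 𝔮) {v : E}
    (hv : v ∈ V) : RegAt 𝔮 v := by
  classical
  by_cases hv0 : v = 0
  · subst hv0
    exact ⟨0, 1, fun h => (Ideal.IsPrime.ne_top inferInstance) ((Ideal.eq_top_iff_one 𝔮).2 h),
      by simp⟩
  obtain ⟨t, ht0, htmax, ht⟩ := hdvr
  -- powers of `t` with nonnegative exponent lie in `R_𝔮`
  have htreg : ∀ k : ℕ, RegAt 𝔮 (t ^ k) := fun k => htmax.regAt.pow k
  obtain ⟨A, hA⟩ := ht v hv0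
  -- it suffices to show `A ≤ 0`
  by_cases hA0 : A ≤ 0
  · obtain ⟨c, hc⟩ := Int.exists_eq_neg_ofNat hA0
    have : v = v * t ^ A * t ^ c := by
      rw [hc, mul_assoc, zpow_neg, zpow_natCast, inv_mul_cancel₀ (pow_ne_zero c ht0), mul_one]
    rw [this]
    exact hA.regAt.mul (htreg c)
  exfalso
  rw [not_le] at hA0
  obtain ⟨a, rfl⟩ : ∃ a : ℕ, A = (a : ℤ) := ⟨A.toNat, (Int.toNat_of_nonneg hA0.le).symm⟩
  have ha1 : 1 ≤ a := by exact_mod_cast hA0
  by_cases hπ0 : algebraMap R E π = 0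
  · -- `π = 0`: then `V ⊆ R` by `desc`
    obtain ⟨y, hy⟩ := hB.desc v hv 0 (by rw [hπ0, zero_mul, map_zero])
    -- `v ∈ R` is regular, so `v * t ^ a` lies in `𝔮 R_𝔮` (as `a ≥ 1`): contradiction
    have h1 : InMax 𝔮 (v * t ^ (a : ℤ)) := by
      have : v * t ^ (a : ℤ) = t * (algebraMap R E y * t ^ (a - 1)) := by
        rw [zpow_natCast, hy]
        conv_lhs => rw [← Nat.sub_add_cancel ha1, pow_succ]
        ring
      rw [this]
      exact htmax.mul_regAt (RegAt.mul ⟨y, 1,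
        fun h => (Ideal.IsPrime.ne_top inferInstance) ((Ideal.eq_top_iff_one 𝔮).2 h), by simp⟩
        (htreg _))
    exact not_inMax_of_unitAt hA h1
  obtain ⟨B, hB'⟩ := ht (algebraMap R E π) hπ0
  -- `B < 0` since `π ∈ 𝔮`
  have hBneg : B < 0 := by
    by_contra hB0
    rw [not_lt] at hB0
    obtain ⟨b, rfl⟩ : ∃ b : ℕ, B = (b : ℤ) := ⟨B.toNat, (Int.toNat_of_nonneg hB0).symm⟩
    rw [zpow_natCast] at hB'
    exact not_inMax_of_unitAt hB' ((inMax_algebraMap hπ).mul_regAt (htreg b))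
  obtain ⟨e, he⟩ : ∃ e : ℕ, B = -(e : ℤ) := ⟨(-B).toNat, by
    rw [Int.toNat_of_nonneg (by omega)]; ring⟩
  have he1 : 1 ≤ e := by
    rcases Nat.eq_zero_or_pos e with h | h
    · subst h; simp at he; omega
    · exact h
  -- the unit `u = π ^ a * v ^ e`
  have hu : UnitAt 𝔮 ((algebraMap R E π) ^ a * v ^ e) := by
    have h1 := (hB'.pow a).mul (hA.pow e)
    have h2 : (algebraMap R E π * t ^ B) ^ a * (v * t ^ (a : ℤ)) ^ e =
        (algebraMap R E π) ^ a * v ^ e := by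
      rw [mul_pow, mul_pow, he]
      have h3 : (t ^ (-(e : ℤ))) ^ a * (t ^ (a : ℤ)) ^ e = 1 := by
        rw [← zpow_natCast (t ^ (-(e : ℤ))) a, ← zpow_natCast (t ^ (a : ℤ)) e, ← zpow_mul,
          ← zpow_mul, ← zpow_add₀ ht0]
        have : -(e : ℤ) * (a : ℤ) + (a : ℤ) * (e : ℤ) = 0 := by ring
        rw [this, zpow_zero]
      calc (algebraMap R E π) ^ a * (t ^ (-(e : ℤ))) ^ a * (v ^ e * (t ^ (a : ℤ)) ^ e)
          = (algebraMap R E π) ^ a * v ^ e * ((t ^ (-(e : ℤ))) ^ a * (t ^ (a : ℤ)) ^ e) := by ring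
        _ = (algebraMap R E π) ^ a * v ^ e := by rw [h3, mul_one]
    rw [h2] at h1
    exact h1
  obtain ⟨x₀, s, hx₀, hs, hxs⟩ := hu
  -- `u * s = π * z` with `z ∈ V`
  have hz : (algebraMap R E π) ^ (a - 1) * v ^ e * algebraMap R E s ∈ V :=
    V.mul_mem (V.mul_mem (V.pow_mem (hB.R_le π) _) (V.pow_mem hv _)) (hB.R_le s)
  obtain ⟨y, hy⟩ := hB.desc _ hz x₀ (by
    rw [← hxs]
    conv_rhs => rw [← Nat.sub_add_cancel ha1, pow_succ]
    ring)
  have hx₀' : x₀ = π * y := (IsFractionRing.injective R E) (by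
    rw [map_mul, ← hy, ← hxs]
    conv_lhs => rw [← Nat.sub_add_cancel ha1, pow_succ]
    ring)
  exact hx₀ (hx₀' ▸ 𝔮.mul_mem_right _ hπ)

/-- If `R_𝔮` is a discrete valuation ring and `π ∈ 𝔮`, then units of `V` are units of `R_𝔮`. -/
theorem unitAt_of_mem (hB : Base V π) [𝔮.IsPrime] (hπ : π ∈ 𝔮) (hdvr : DvrAt E 𝔮) {v : E}
    (hv0 : v ≠ 0) (hv : v ∈ V) (hv' : v⁻¹ ∈ V) : UnitAt 𝔮 v :=
  unitAt_of_regAt_inv hv0 (regAt_of_mem hB hπ hdvr hv) (regAt_of_mem hB hπ hdvr hv')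

end Vertical

/-! ### Restriction of an endomorphism of `E` to `R` -/

section Res

/-- The restriction to `R` of a ring endomorphism `σ` of `E` mapping `R` into `R`. -/
noncomputable def resR (σ : E →+* E)
    (h : ∀ x : R, ∃ y : R, σ (algebraMap R E x) = algebraMap R E y) : R →+* R where
  toFun x := Classical.choose (h x)
  map_one' := (IsFractionRing.injective R E)
    ((Classical.choose_spec (h 1)).symm.trans (by simp))
  map_mul' x y := (IsFractionRing.injective R E)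
    ((Classical.choose_spec (h (x * y))).symm.trans (by
      rw [map_mul, map_mul, map_mul]
      exact congrArg₂ (· * ·) (Classical.choose_spec (h x)) (Classical.choose_spec (h y))))
  map_zero' := (IsFractionRing.injective R E)
    ((Classical.choose_spec (h 0)).symm.trans (by simp))
  map_add' x y := (IsFractionRing.injective R E)
    ((Classical.choose_spec (h (x + y))).symm.trans (by
      rw [map_add, map_add, map_add]
      exact congrArg₂ (· + ·) (Classical.choose_spec (h x)) (Classical.choose_spec (h y))))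

theorem algebraMap_resR (σ : E →+* E)
    (h : ∀ x : R, ∃ y : R, σ (algebraMap R E x) = algebraMap R E y) (x : R) :
    algebraMap R E (resR σ h x) = σ (algebraMap R E x) :=
  (Classical.choose_spec (h x)).symm

/-- Transport of `UnitAt` along `σ`. -/
theorem UnitAt.map {σ : E →+* E}
    (h : ∀ x : R, ∃ y : R, σ (algebraMap R E x) = algebraMap R E y) {𝔮 : Ideal R} {x : E}
    (hx : UnitAt (𝔮.comap (resR σ h)) x) : UnitAt 𝔮 (σ x) := by
  obtain ⟨a, s, ha, hs, hxs⟩ := hx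
  refine ⟨resR σ h a, resR σ h s, ha, hs, ?_⟩
  rw [algebraMap_resR, algebraMap_resR, ← map_mul, hxs]

variable {V : Subring E} {π : R} {σ : E →+* E}

/-- An inertial endomorphism moves the elements of `R` by multiples of `π`. -/
theorem Inert.exists_sub_eq (hB : Base V π) (hσ : Inert V π σ) (x : R) :
    ∃ y : R, resR σ hσ.stabR x - x = π * y := by
  obtain ⟨z, hz, h⟩ := hσ.trivV _ (hB.R_le x)
  obtain ⟨y, hy⟩ := hB.desc z hz (resR σ hσ.stabR x - x) (by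
    rw [map_sub, algebraMap_resR, h])
  refine ⟨y, (IsFractionRing.injective R E) ?_⟩
  rw [map_sub, algebraMap_resR, map_mul, ← hy, h]

/-- An inertial endomorphism preserves every ideal containing `π`, and its complement. -/
theorem Inert.mem_iff (hB : Base V π) (hσ : Inert V π σ) {I : Ideal R} (hπ : π ∈ I) (x : R) :
    resR σ hσ.stabR x ∈ I ↔ x ∈ I := by
  obtain ⟨y, hy⟩ := hσ.exists_sub_eq hB x
  have h1 : resR σ hσ.stabR x - x ∈ I := hy ▸ I.mul_mem_right _ hπ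
  constructor
  · intro h
    have := I.sub_mem h h1
    simpa using this
  · intro h
    have := I.add_mem h1 h
    simpa using this

end Res

/-! ### The local input of the two-component Čech argument -/

section Main

variable {V : Subring E} {π : R} {n : Ideal R} {τ τ' : E →+* E}

/-- **Unit at a closed point.** If `τ` preserves the valuations at the generic points of the
special fibre and `τ φ / φ` has no horizontal zero or pole through `n`, then `τ φ / φ` is a unit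
of `R_n`.  `D` is the predicate "`R_𝔮` is a discrete valuation ring"; `hKU` is leaf N3
([KrullUnit]) at `n`. -/
theorem unitAt_quot (hB : Base V π) (hV : ValPres V τ)
    (D : Ideal R → Prop) (hD : ∀ 𝔮 : Ideal R, 𝔮.IsPrime → D 𝔮 → DvrAt E 𝔮)
    (hKU : ∀ x : E, x ≠ 0 →
      (∀ 𝔮 : Ideal R, 𝔮.IsPrime → 𝔮 ≤ n → D 𝔮 → UnitAt 𝔮 x) → UnitAt n x)
    {φ : E} (hφ : φ ≠ 0)
    (hhor : ∀ 𝔮 : Ideal R, 𝔮.IsPrime → 𝔮 ≤ n → π ∉ 𝔮 → D 𝔮 → UnitAt 𝔮 (τ φ / φ)) :
    UnitAt n (τ φ / φ) := by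
  have hτφ : τ φ ≠ 0 := (map_ne_zero τ).2 hφ
  refine hKU _ (div_ne_zero hτφ hφ) fun 𝔮 h𝔮 hle hD𝔮 => ?_
  by_cases hπ : π ∈ 𝔮
  · have := h𝔮
    refine unitAt_of_mem hB hπ (hD 𝔮 h𝔮 hD𝔮) (div_ne_zero hτφ hφ) (hV φ hφ).1 ?_
    rw [inv_div]
    exact (hV φ hφ).2
  · exact hhor 𝔮 h𝔮 hle hπ hD𝔮

/-- The easy way to supply `hhor`: `φ` itself is a unit at every horizontal prime through `n`
(then so is `τ φ`, because `τ` permutes the horizontal primes through `n`). -/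
theorem hhor_of_unitAt (hB : Base V π) [n.IsPrime] (hπn : π ∈ n) (hτ : Inert V π τ)
    (hπτ : ∃ c : R, IsUnit c ∧ τ (algebraMap R E π) = algebraMap R E (c * π))
    {φ : E} (hφ : ∀ 𝔮 : Ideal R, 𝔮.IsPrime → 𝔮 ≤ n → π ∉ 𝔮 → UnitAt 𝔮 φ)
    (𝔮 : Ideal R) (h𝔮 : 𝔮.IsPrime) (hle : 𝔮 ≤ n) (hπ : π ∉ 𝔮) : UnitAt 𝔮 (τ φ / φ) := by
  have := h𝔮
  have h1 : UnitAt 𝔮 φ := hφ 𝔮 h𝔮 hle hπ
  have h2 : UnitAt 𝔮 (τ φ) := by
    refine UnitAt.map hτ.stabR (hφ _ (Ideal.comap_isPrime _ _) ?_ ?_)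
    · intro x hx
      exact (hτ.mem_iff hB hπn x).1 (hle hx)
    · intro hmem
      obtain ⟨c, hc, hcπ⟩ := hπτ
      have h3 : resR τ hτ.stabR π = c * π := (IsFractionRing.injective R E) (by
        rw [algebraMap_resR, hcπ])
      have h4 : c * π ∈ 𝔮 := h3 ▸ hmem
      rcases Ideal.IsPrime.mem_or_mem h𝔮 h4 with h5 | h5
      · exact (Ideal.IsPrime.ne_top h𝔮) (Ideal.eq_top_of_isUnit_mem _ h5 hc)
      · exact hπ h5
  exact h2.div h1

/-- `G ≡ 1` at the generic points of the special fibre (`hw` of the Čech setting), for the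
second difference `G = τ'τf · f / (τf · τ'f)`. -/
theorem hw (hτ' : Inert V π τ') (hV : ValPres V τ) {f : E} (hf : f ≠ 0) :
    ∃ z ∈ V, τ' (τ f) * f / (τ f * τ' f) - 1 = algebraMap R E π * z := by
  have hT : τ f ≠ 0 := (map_ne_zero τ).2 hf
  have hT' : τ' f ≠ 0 := (map_ne_zero τ').2 hf
  obtain ⟨z, hz, h⟩ := hτ'.trivV _ (hV f hf).1
  refine ⟨z * (f / τ f), V.mul_mem hz (hV f hf).2, ?_⟩
  rw [map_div₀] at h
  have h' : τ' (τ f) / τ' f = τ f / f + algebraMap R E π * z := by rw [← h]; ring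
  have : τ' (τ f) * f / (τ f * τ' f) = (τ' (τ f) / τ' f) * (f / τ f) := by field_simp
  rw [this, h']
  field_simp
  ring

/-- **[LocA]** — the root-free, gluing-free local generator at a closed point `n` of the special
fibre.  With `φ = f / e ^ m`, `G = τ'τf · f / (τf · τ'f)` and `g = τe · τ'e / (τ'τe · e)`:
if `τ φ / φ` has no horizontal zero or pole through `n`, then `g ≡ 1 mod πV`, and there is
`s ∈ R ∖ n` with `s · (G g ^ m - 1) ∈ πR` and `G · (s g) ^ m ∈ R`. -/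
theorem loc (hB : Base V π) [n.IsPrime] (hπn : π ∈ n) (hτ' : Inert V π τ') (hV : ValPres V τ)
    (D : Ideal R → Prop) (hD : ∀ 𝔮 : Ideal R, 𝔮.IsPrime → D 𝔮 → DvrAt E 𝔮)
    (hKU : ∀ x : E, x ≠ 0 →
      (∀ 𝔮 : Ideal R, 𝔮.IsPrime → 𝔮 ≤ n → D 𝔮 → UnitAt 𝔮 x) → UnitAt n x)
    {f e : E} (hf : f ≠ 0) (he : e ≠ 0) {m : ℕ} (hm : m ≠ 0)
    (hhor : ∀ 𝔮 : Ideal R, 𝔮.IsPrime → 𝔮 ≤ n → π ∉ 𝔮 → D 𝔮 →
      UnitAt 𝔮 (τ (f / e ^ m) / (f / e ^ m))) :
    (∃ z ∈ V, τ e * τ' e / (τ' (τ e) * e) - 1 = algebraMap R E π * z) ∧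
    ∃ s : R, s ∉ n ∧
      (∃ r : R, algebraMap R E s *
          (τ' (τ f) * f / (τ f * τ' f) * (τ e * τ' e / (τ' (τ e) * e)) ^ m - 1) =
            algebraMap R E (π * r)) ∧
      ∃ x : R, τ' (τ f) * f / (τ f * τ' f) *
          (algebraMap R E s * (τ e * τ' e / (τ' (τ e) * e))) ^ m = algebraMap R E x := by
  have hT : τ f ≠ 0 := (map_ne_zero τ).2 hf
  have hT' : τ' f ≠ 0 := (map_ne_zero τ').2 hf
  have hTT : τ' (τ f) ≠ 0 := (map_ne_zero τ').2 hT
  have hS : τ e ≠ 0 := (map_ne_zero τ).2 he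
  have hS' : τ' e ≠ 0 := (map_ne_zero τ').2 he
  have hSS : τ' (τ e) ≠ 0 := (map_ne_zero τ').2 hS
  constructor
  · -- `g ≡ 1 mod πV`
    obtain ⟨z, hz, h⟩ := hτ'.trivV _ (hV e he).1
    rw [map_div₀] at h
    have h' : τ' (τ e) / τ' e = τ e / e + algebraMap R E π * z := by rw [← h]; ring
    have hz' : z * (e / τ e) ∈ V := V.mul_mem hz (hV e he).2
    have hg : τ e * τ' e / (τ' (τ e) * e) = (1 + algebraMap R E π * (z * (e / τ e)))⁻¹ := by
      have h1 : 1 + algebraMap R E π * (z * (e / τ e)) = (τ' (τ e) / τ' e) * (e / τ e) := by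
        rw [h']; field_simp
      rw [h1]; field_simp
    have hne : 1 + algebraMap R E π * (z * (e / τ e)) ≠ 0 := by
      intro h0
      rw [h0, inv_zero] at hg
      exact (div_ne_zero (mul_ne_zero hS hS') (mul_ne_zero hSS he)) hg
    refine ⟨-(z * (e / τ e) * (1 + algebraMap R E π * (z * (e / τ e)))⁻¹),
      V.neg_mem (V.mul_mem hz' (hB.invV _ hz')), ?_⟩
    rw [hg]
    linear_combination inv_mul_cancel₀ hne
  · -- the unit `ε = τ φ / φ` at `n`
    have hφ : f / e ^ m ≠ 0 := div_ne_zero hf (pow_ne_zero m he)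
    obtain ⟨a, b, ha, hb, hab⟩ := unitAt_quot hB hV D hD hKU hφ hhor
    have ha0 : algebraMap R E a ≠ 0 := algebraMap_ne_zero_of_not_mem ha
    have hb0 : algebraMap R E b ≠ 0 := algebraMap_ne_zero_of_not_mem hb
    have ha' : resR τ' hτ'.stabR a ∉ n := fun h => ha ((hτ'.mem_iff hB hπn a).1 h)
    have hb' : resR τ' hτ'.stabR b ∉ n := fun h => hb ((hτ'.mem_iff hB hπn b).1 h)
    have ha'0 : algebraMap R E (resR τ' hτ'.stabR a) ≠ 0 := algebraMap_ne_zero_of_not_mem ha'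
    have hb'0 : algebraMap R E (resR τ' hτ'.stabR b) ≠ 0 := algebraMap_ne_zero_of_not_mem hb'
    -- apply `τ'` to `ε * b = a`
    have hab' : τ' (τ (f / e ^ m) / (f / e ^ m)) * algebraMap R E (resR τ' hτ'.stabR b) =
        algebraMap R E (resR τ' hτ'.stabR a) := by
      rw [algebraMap_resR, algebraMap_resR, ← map_mul, hab]
    -- the key identity `G * g ^ m = τ' ε / ε`
    have hkey : τ' (τ f) * f / (τ f * τ' f) * (τ e * τ' e / (τ' (τ e) * e)) ^ m =
        algebraMap R E (resR τ' hτ'.stabR a * b) / algebraMap R E (resR τ' hτ'.stabR b * a) := by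
      rw [map_mul, map_mul, ← hab, ← hab']
      simp only [map_div₀, map_pow, div_pow, mul_pow]
      field_simp
    obtain ⟨y₁, hy₁⟩ := hτ'.exists_sub_eq hB a
    obtain ⟨y₂, hy₂⟩ := hτ'.exists_sub_eq hB b
    refine ⟨resR τ' hτ'.stabR b * a,
      fun h => (Ideal.IsPrime.mem_or_mem inferInstance h).elim hb' ha, ⟨y₁ * b - y₂ * a, ?_⟩, ?_⟩
    · rw [hkey]
      have h1 : algebraMap R E (resR τ' hτ'.stabR b * a) ≠ 0 := by
        rw [map_mul]; exact mul_ne_zero hb'0 ha0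
      have h2 : algebraMap R E (resR τ' hτ'.stabR b * a) *
          (algebraMap R E (resR τ' hτ'.stabR a * b) / algebraMap R E (resR τ' hτ'.stabR b * a) - 1)
          = algebraMap R E (resR τ' hτ'.stabR a * b - resR τ' hτ'.stabR b * a) := by
        rw [map_sub]; field_simp
      rw [h2]
      congr 1
      have e1 : resR τ' hτ'.stabR a = a + π * y₁ := by rw [← hy₁]; ring
      have e2 : resR τ' hτ'.stabR b = b + π * y₂ := by rw [← hy₂]; ring
      rw [e1, e2]; ring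
    · refine ⟨(resR τ' hτ'.stabR b * a) ^ (m - 1) * (resR τ' hτ'.stabR a * b), ?_⟩
      have h1 : algebraMap R E (resR τ' hτ'.stabR b * a) ≠ 0 := by
        rw [map_mul]; exact mul_ne_zero hb'0 ha0
      rw [mul_pow, ← mul_assoc, mul_comm _ (algebraMap R E (resR τ' hτ'.stabR b * a) ^ m),
        mul_assoc, hkey, map_mul (algebraMap R E) (_ ^ (m - 1)), map_pow]
      conv_lhs => rw [← Nat.sub_add_cancel (Nat.one_le_iff_ne_zero.2 hm), pow_succ]
      field_simp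

/-- **[LocA], Čech form** (the shape of `Cech2Plan.Setting.loc0` with `w := G`): there is a
section `g₀` of `L` (`G · g₀ ^ m ∈ R`) which is congruent modulo `πV` to an element of `R`
outside `n`. -/
theorem loc_cech (hB : Base V π) [n.IsPrime] (hπn : π ∈ n) (hτ' : Inert V π τ')
    (hV : ValPres V τ)
    (D : Ideal R → Prop) (hD : ∀ 𝔮 : Ideal R, 𝔮.IsPrime → D 𝔮 → DvrAt E 𝔮)
    (hKU : ∀ x : E, x ≠ 0 →
      (∀ 𝔮 : Ideal R, 𝔮.IsPrime → 𝔮 ≤ n → D 𝔮 → UnitAt 𝔮 x) → UnitAt n x)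
    {f e : E} (hf : f ≠ 0) (he : e ≠ 0) {m : ℕ} (hm : m ≠ 0)
    (hhor : ∀ 𝔮 : Ideal R, 𝔮.IsPrime → 𝔮 ≤ n → π ∉ 𝔮 → D 𝔮 →
      UnitAt 𝔮 (τ (f / e ^ m) / (f / e ^ m))) :
    ∃ g₀ : E, (∃ x : R, τ' (τ f) * f / (τ f * τ' f) * g₀ ^ m = algebraMap R E x) ∧
      ∃ r : R, r ∉ n ∧ ∃ z ∈ V, g₀ - algebraMap R E r = algebraMap R E π * z := by
  obtain ⟨⟨z, hz, hgz⟩, s, hs, -, hx⟩ := loc hB hπn hτ' hV D hD hKU hf he hm hhor
  refine ⟨algebraMap R E s * (τ e * τ' e / (τ' (τ e) * e)), hx, s, hs,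
    algebraMap R E s * z, V.mul_mem (hB.R_le s) hz, ?_⟩
  linear_combination algebraMap R E s * hgz

end Main

end Fermat.Agent.S34.LocA
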