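/-
S34 abstract block — leaf [N4] `LocPlan.LocAStatement` from the three Krull leaves [N3]
(helper46).

* `locA_of_leaves : KrullUnitStatement → PrincMinStatement → PrincOrdStatement → LocAStatement`;
* `locAStatement : LocPlan.LocAStatement` (closed form, with the leaves [N3] of
  `S34/KrullStmt.lean`).

This is an adapter onto the engine `S34/LocA.lean` (`LocA.loc`), with the semilocal ring
`V := V 0 ∩ V 1`, and onto `S34/HorProd.lean` (`HorProd.exists_unitAt_div_pow`: the finite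
product of the cut functions).  Steps:

* `base`, `inert`, `valPres` : `ChartHyp` / `TauHyp` give `LocA.Base`, `LocA.Inert`,
  `LocA.ValPres` for `V 0 ∩ V 1`;
* `inert_symm` : the inverse of an inertial automorphism is inertial, hence the restriction of
  `τ` to the chart `R` is an automorphism of `R` permuting the horizontal primes through `n`
  (`princAt_comap`);
* the product `e` of the cut functions makes `f / e ^ m` a unit at every horizontal prime
  through `n`, and `a := τe · τ'e / (τ'τe · e)` is the required correction.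
-/
import Mathlib
import Fermat.Agent.S34.LocPlan
import Fermat.Agent.S34.LocA
import Fermat.Agent.S34.HorProd
import Fermat.Agent.S34.KrullStmt

set_option autoImplicit false
set_option linter.unusedSectionVars false

namespace Fermat.Agent.S34.LocAStmt

/-! ### Two facts on valuation subrings -/

section Val

variable {E : Type*} [Field E]

/-- If `p` is a non-unit of the valuation ring `A` then `1 + p z` is a unit of `A` (`z ∈ A`). -/
theorem inv_one_add_mem (A : ValuationSubring E) {p z : E} (hp : p⁻¹ ∉ A) (hz : z ∈ A) :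
    (1 + p * z)⁻¹ ∈ A := by
  by_cases hu : 1 + p * z = 0
  · rw [hu, inv_zero]
    exact zero_mem A
  have hp0 : p ≠ 0 := by
    rintro rfl
    exact hp (by rw [inv_zero]; exact zero_mem A)
  rcases A.mem_or_inv_mem (p / (1 + p * z)) with h | h
  · have h1 : (1 + p * z)⁻¹ = 1 - p / (1 + p * z) * z := by
      field_simp
      ring
    rw [h1]
    exact sub_mem (one_mem A) (mul_mem h hz)
  · exfalso
    apply hp
    have h1 : p⁻¹ = (p / (1 + p * z))⁻¹ - z := by
      field_simp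
      ring
    rw [h1]
    exact sub_mem h hz

/-- Integral powers of a unit of `A` lie in `A`. -/
theorem zpow_mem_of_inv_mem (A : ValuationSubring E) {u : E} (hu : u ∈ A) (hu' : u⁻¹ ∈ A)
    (k : ℤ) : u ^ k ∈ A := by
  obtain ⟨k, rfl | rfl⟩ := k.eq_nat_or_neg
  · rw [zpow_natCast]
    exact pow_mem hu k
  · rw [zpow_neg, zpow_natCast, ← inv_pow]
    exact pow_mem hu' k

end Val

/-! ### From the chart hypotheses to the engine hypotheses -/

section Chart

variable {O : Type*} [CommRing O] {R : Type*} [CommRing R] [IsDomain R] [Algebra O R]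
  {E : Type*} [Field E] [Algebra R E] [IsFractionRing R E]
  {π : O} {V : Fin 2 → ValuationSubring E} {P : Fin 2 → Ideal R}

/-- The semilocal ring `V 0 ∩ V 1` of the two generic points of the special fibre. -/
def VV (V : Fin 2 → ValuationSubring E) : Subring E := (V 0).toSubring ⊓ (V 1).toSubring

theorem mem_VV {x : E} : x ∈ VV V ↔ ∀ i : Fin 2, x ∈ V i := by
  unfold VV
  rw [Subring.mem_inf, Fin.forall_fin_two]
  exact Iff.rfl

theorem pi_ne_zero (hC : LocPlan.ChartHyp π V P) :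
    algebraMap R E (algebraMap O R π) ≠ 0 := by
  intro h
  apply hC.pi_not 0
  rw [h, inv_zero]
  exact zero_mem (V 0)

/-- `ChartHyp` gives the `Base` hypotheses of the engine for `V 0 ∩ V 1`. -/
theorem base (hC : LocPlan.ChartHyp π V P) : LocA.Base (VV V) (algebraMap O R π) where
  R_le x := mem_VV.2 fun i => hC.le i x
  invV z hz := mem_VV.2 fun i => inv_one_add_mem (V i) (hC.pi_not i) (mem_VV.1 hz i)
  desc z hz x h := by
    obtain ⟨r', hr'⟩ := hC.red x fun i => (hC.mem_P i x).2 ⟨z, mem_VV.1 hz i, h.symm⟩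
    refine ⟨r', mul_left_cancel₀ (pi_ne_zero hC) ?_⟩
    rw [h, hr', map_mul]

/-- `TauHyp` gives the `Inert` hypotheses of the engine for `V 0 ∩ V 1`. -/
theorem inert (hC : LocPlan.ChartHyp π V P) {σ : E ≃+* E}
    (hσ : LocPlan.TauHyp (R := R) π V σ) :
    LocA.Inert (VV V) (algebraMap O R π) σ.toRingHom where
  stabR := hσ.map_R
  trivV v hv := by
    obtain ⟨y0, hy0, h0⟩ := hσ.triv 0 v (mem_VV.1 hv 0)
    obtain ⟨y1, hy1, h1⟩ := hσ.triv 1 v (mem_VV.1 hv 1)
    have h01 : y0 = y1 := mul_left_cancel₀ (pi_ne_zero hC) (h0.symm.trans h1)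
    refine ⟨y0, mem_VV.2 ?_, h0⟩
    rw [Fin.forall_fin_two]
    exact ⟨hy0, h01 ▸ hy1⟩

/-- `TauHyp` gives `ValPres`: `σ x / x` is a unit of `V 0 ∩ V 1`. -/
theorem valPres (hC : LocPlan.ChartHyp π V P) {σ : E ≃+* E}
    (hσ : LocPlan.TauHyp (R := R) π V σ) : LocA.ValPres (VV V) σ.toRingHom := by
  intro x hx
  have key : ∀ i : Fin 2, σ x / x ∈ V i ∧ x / σ x ∈ V i := by
    intro i
    obtain ⟨k, u, hu, hu', rfl⟩ := hC.disc i x hx
    obtain ⟨c, hc, hc', hσπ⟩ := hσ.pi i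
    obtain ⟨y, hy, hσu⟩ := hσ.triv i u hu
    have hϖ := pi_ne_zero hC
    have hu0 : u ≠ 0 := by
      rintro rfl
      exact hx (mul_zero _)
    have hσu' : σ u = u * (1 + algebraMap R E (algebraMap O R π) * (y * u⁻¹)) := by
      field_simp
      linear_combination hσu
    have hyu : y * u⁻¹ ∈ V i := mul_mem hy hu'
    have hk := zpow_ne_zero k hϖ
    have e1 : σ (algebraMap R E (algebraMap O R π) ^ k * u) /
        (algebraMap R E (algebraMap O R π) ^ k * u) =
          c ^ k * (1 + algebraMap R E (algebraMap O R π) * (y * u⁻¹)) := by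
      rw [map_mul, map_zpow₀, hσπ, hσu', mul_zpow]
      field_simp
    have e2 : (algebraMap R E (algebraMap O R π) ^ k * u) /
        σ (algebraMap R E (algebraMap O R π) ^ k * u) =
          c⁻¹ ^ k * (1 + algebraMap R E (algebraMap O R π) * (y * u⁻¹))⁻¹ := by
      rw [← inv_div, e1, mul_inv, inv_zpow]
    constructor
    · rw [e1]
      exact mul_mem (zpow_mem_of_inv_mem _ hc hc' k)
        (add_mem (one_mem (V i)) (mul_mem (hC.le i _) hyu))
    · rw [e2]
      exact mul_mem (zpow_mem_of_inv_mem _ hc' (by rwa [inv_inv]) k)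
        (inv_one_add_mem _ (hC.pi_not i) hyu)
  exact ⟨mem_VV.2 fun i => (key i).1, mem_VV.2 fun i => (key i).2⟩

/-- The inverse of an inertial, valuation preserving automorphism stabilising `R` is inertial. -/
theorem inert_symm {W : Subring E} {ϖ : R} {σ : E ≃+* E} (hσ : LocA.Inert W ϖ σ.toRingHom)
    (hV : LocA.ValPres W σ.toRingHom)
    (hs : ∀ x : R, ∃ y : R, σ.symm (algebraMap R E x) = algebraMap R E y) :
    LocA.Inert W ϖ σ.symm.toRingHom where
  stabR := hs
  trivV v hv := by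
    have hw : σ.symm v ∈ W := by
      by_cases hv0 : v = 0
      · rw [hv0, map_zero]
        exact W.zero_mem
      · have h0 : σ.symm v ≠ 0 := (map_ne_zero σ.symm).2 hv0
        have h1 : σ.symm v / σ (σ.symm v) ∈ W := (hV (σ.symm v) h0).2
        have h2 : σ.symm v = v * (σ.symm v / σ (σ.symm v)) := by
          rw [RingEquiv.apply_symm_apply]
          field_simp
        rw [h2]
        exact W.mul_mem hv h1
    obtain ⟨z, hz, h⟩ := hσ.trivV _ hw
    have h' : σ (σ.symm v) - σ.symm v = algebraMap R E ϖ * z := h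
    rw [RingEquiv.apply_symm_apply] at h'
    refine ⟨-z, W.neg_mem hz, ?_⟩
    show σ.symm v - v = _
    linear_combination -h'

/-- `PrincAt` is transported along an automorphism of `R`. -/
theorem princAt_comap {a b : R →+* R} (hab : ∀ x, a (b x) = x) (hba : ∀ x, b (a x) = x)
    {𝔮 : Ideal R} (h : LocPlan.PrincAt 𝔮) : LocPlan.PrincAt (𝔮.comap a) := by
  obtain ⟨hne, t, ht, hgen⟩ := h
  refine ⟨?_, b t, ?_, ?_⟩
  · intro hbot
    apply hne
    rw [eq_bot_iff]
    intro x hx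
    have h1 : b x ∈ 𝔮.comap a := by
      rw [Ideal.mem_comap, hab]
      exact hx
    rw [hbot, Ideal.mem_bot] at h1
    rw [Ideal.mem_bot, ← hab x, h1, map_zero]
  · rw [Ideal.mem_comap, hab]
    exact ht
  · intro y hy
    obtain ⟨s, hs, c, hsc⟩ := hgen (a y) hy
    refine ⟨b s, ?_, b c, ?_⟩
    · rw [Ideal.mem_comap, hab]
      exact hs
    · rw [← map_mul b c t, ← hsc, map_mul, hba]

end Chart

/-! ### The statement -/

/-- **[N4] LocA**, from the three Krull leaves [N3]. -/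
theorem locA_of_leaves (hKU : LocPlan.KrullUnitStatement) (hPM : LocPlan.PrincMinStatement)
    (hPO : LocPlan.PrincOrdStatement) : LocPlan.LocAStatement := by
  unfold LocPlan.LocAStatement
  intro O _ _ _ R _ _ _ _ _ E _ _ _ π V P τ τ' f m n _ hn hπn hf hC hτ hτ' hpts
  have hnP : n.IsPrime := hn.isPrime
  have hB := base hC
  have hτI := inert hC hτ
  have hτ'I := inert hC hτ'
  have hVτ := valPres hC hτ
  have hτsI := inert_symm hτI hVτ hτ.symm_R
  -- the restrictions of `τ` and `τ⁻¹` to `R` are mutually inverse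
  have hab : ∀ x : R, LocA.resR τ.toRingHom hτI.stabR
      (LocA.resR τ.symm.toRingHom hτsI.stabR x) = x := by
    intro x
    apply IsFractionRing.injective R E
    rw [LocA.algebraMap_resR, LocA.algebraMap_resR]
    exact τ.apply_symm_apply _
  have hba : ∀ x : R, LocA.resR τ.symm.toRingHom hτsI.stabR
      (LocA.resR τ.toRingHom hτI.stabR x) = x := by
    intro x
    apply IsFractionRing.injective R E
    rw [LocA.algebraMap_resR, LocA.algebraMap_resR]
    exact τ.symm_apply_apply _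
  -- the primes with `PrincAt` are discrete valuation primes
  have hD : ∀ 𝔮 : Ideal R, 𝔮.IsPrime → LocPlan.PrincAt 𝔮 → LocA.DvrAt E 𝔮 := by
    intro 𝔮 h𝔮 hP
    have := h𝔮
    obtain ⟨hne, t, ht, hgen⟩ := hP
    refine ⟨algebraMap R E t, ?_, LocA.inMax_algebraMap ht,
      fun x hx => hPO R E 𝔮 t h𝔮 hne ht hgen x hx⟩
    intro h0
    have ht0 : t = 0 := (IsFractionRing.injective R E) (by rw [h0, map_zero])
    apply hne
    rw [eq_bot_iff]
    intro y hy
    obtain ⟨s, hs, c, hsc⟩ := hgen y hy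
    rw [ht0, mul_zero] at hsc
    rcases mul_eq_zero.1 hsc with h | h
    · exact absurd (h ▸ 𝔮.zero_mem) hs
    · rw [h]
      exact Ideal.zero_mem _
  have hKU' : ∀ x : E, x ≠ 0 →
      (∀ 𝔮 : Ideal R, 𝔮.IsPrime → 𝔮 ≤ n → LocPlan.PrincAt 𝔮 → LocA.UnitAt 𝔮 x) →
        LocA.UnitAt n x :=
    fun x hx h => hKU R E n x hnP hx h
  -- the engine, for a correction `e` making `f / e ^ m'` a unit at the horizontal primes
  have core : ∀ (m' : ℕ) (e : E), m' ≠ 0 → e ≠ 0 →
      (∀ 𝔮 : Ideal R, 𝔮.IsPrime → 𝔮 ≤ n → algebraMap O R π ∉ 𝔮 → LocPlan.PrincAt 𝔮 →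
        LocA.UnitAt 𝔮 (f / e ^ m')) →
      (∀ i : Fin 2, ∃ v ∈ V i,
        τ e * τ' e / (τ' (τ e) * e) - 1 = algebraMap R E (algebraMap O R π) * v) ∧
      ∃ s : R, s ∉ n ∧ ∃ r : R, algebraMap R E s *
        (LocPlan.secondDiff τ τ' f * (τ e * τ' e / (τ' (τ e) * e)) ^ m' - 1) =
          algebraMap R E (algebraMap O R π) * algebraMap R E r := by
    intro m' e hm' he hφ
    have hhor : ∀ 𝔮 : Ideal R, 𝔮.IsPrime → 𝔮 ≤ n → algebraMap O R π ∉ 𝔮 → LocPlan.PrincAt 𝔮 →
        LocA.UnitAt 𝔮 (τ.toRingHom (f / e ^ m') / (f / e ^ m')) := by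
      intro 𝔮 h𝔮 hle hπ𝔮 hP
      have := h𝔮
      have h1 := hφ 𝔮 h𝔮 hle hπ𝔮 hP
      have h2 : LocA.UnitAt 𝔮 (τ.toRingHom (f / e ^ m')) := by
        refine LocA.UnitAt.map hτI.stabR
          (hφ _ (Ideal.comap_isPrime _ _) ?_ ?_ (princAt_comap hab hba hP))
        · intro x hx
          exact (hτI.mem_iff hB hπn x).1 (hle hx)
        · intro hmem
          have h3 := (hτsI.mem_iff hB hmem (algebraMap O R π)).2 hmem
          rw [Ideal.mem_comap, hab] at h3
          exact hπ𝔮 h3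
      exact h2.div h1
    obtain ⟨⟨z, hz, hgz⟩, s, hs, ⟨r, hr⟩, -⟩ :=
      LocA.loc hB hπn hτ'I hVτ LocPlan.PrincAt hD hKU' hf he hm' hhor
    exact ⟨fun i => ⟨z, mem_VV.1 hz i, hgz⟩, s, hs, r, hr.trans (map_mul _ _ _)⟩
  by_cases hm : m = 0
  · -- `m = 0`: `f` is a unit at every horizontal prime
    subst hm
    have hu : ∀ 𝔮 : Ideal R, 𝔮.IsPrime → 𝔮 ≤ n → algebraMap O R π ∉ 𝔮 → LocPlan.PrincAt 𝔮 →
        LocA.UnitAt 𝔮 (f / (1 : E) ^ 1) := by
      intro 𝔮 h𝔮 hle hπ𝔮 hP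
      rw [one_pow, div_one]
      rcases hpts 𝔮 h𝔮 hle hπ𝔮 hP with h | ⟨⟨x, -, hx⟩, -⟩
      · exact h
      · rw [pow_zero, mul_one] at hx
        exact hx
    obtain ⟨-, s, hs, r, hr⟩ := core 1 1 one_ne_zero one_ne_zero hu
    refine ⟨1, fun i => ⟨0, zero_mem (V i), by ring⟩, s, hs, r, ?_⟩
    rw [← hr]
    simp
  · -- `m ≠ 0`: the product of the cut functions
    have hD' : ∀ 𝔮 : Ideal R, 𝔮.IsPrime → LocPlan.PrincAt 𝔮 →
        𝔮 ≠ ⊥ ∧ ∀ 𝔮' : Ideal R, 𝔮'.IsPrime → 𝔮' ≤ 𝔮 → 𝔮' = ⊥ ∨ 𝔮' = 𝔮 := by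
      intro 𝔮 h𝔮 hP
      refine ⟨hP.1, fun 𝔮' h𝔮' hle => ?_⟩
      by_cases hb : 𝔮' = ⊥
      · exact Or.inl hb
      · exact Or.inr (hPM R 𝔮' 𝔮 h𝔮' h𝔮 hP hle hb)
    have hcut : ∀ 𝔮 : Ideal R, 𝔮.IsPrime → 𝔮 ≤ n → algebraMap O R π ∉ 𝔮 → LocPlan.PrincAt 𝔮 →
        HorProd.UnitAt 𝔮 f ∨ ∃ e : R, e ∈ 𝔮 ∧
          (∀ 𝔮' : Ideal R, 𝔮'.IsPrime → 𝔮' ≤ n → algebraMap O R π ∉ 𝔮' → e ∈ 𝔮' → 𝔮 ≤ 𝔮') ∧
          ∃ k : ℤ, HorProd.UnitAt 𝔮 (f / algebraMap R E e ^ ((m : ℤ) * k)) := by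
      intro 𝔮 h𝔮 hle hπ𝔮 hP
      have := h𝔮
      rcases hpts 𝔮 h𝔮 hle hπ𝔮 hP with h | ⟨⟨x, hx0, hx⟩, e, he𝔮, hmin, hgen⟩
      · exact Or.inl h
      · right
        obtain ⟨k, hk⟩ := hPO R E 𝔮 e h𝔮 hP.1 he𝔮 hgen x hx0
        refine ⟨e, he𝔮, fun 𝔮' h𝔮' hle' hπ' he' => hmin 𝔮' h𝔮' hle' he' hπ', k, ?_⟩
        have e1 : f / algebraMap R E e ^ ((m : ℤ) * k) =
            (f * x ^ m) / (x * algebraMap R E e ^ k) ^ m := by
          rw [zpow_mul', zpow_natCast, mul_pow, mul_comm (x ^ m),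
            mul_div_mul_right _ _ (pow_ne_zero m hx0)]
        rw [e1]
        exact HorProd.UnitAt.div hx (HorProd.UnitAt.pow hk m)
    obtain ⟨e, he, hφ⟩ := HorProd.exists_unitAt_div_pow (R := R) (E := E) n
      (fun 𝔮 => algebraMap O R π ∉ 𝔮) LocPlan.PrincAt hD' m f hf hcut
    obtain ⟨h1, h2⟩ := core m e hm he hφ
    exact ⟨_, h1, h2⟩

/-- **[N4] LocA**, closed form. -/
theorem locAStatement : LocPlan.LocAStatement :=
  locA_of_leaves KrullStmt.krullUnitStatement KrullStmt.princMinStatement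
    KrullStmt.princOrdStatement

end Fermat.Agent.S34.LocAStmt
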