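/-
S34 — UFinal.lean (captain: helper85).  The frozen S34 statement in HYPOTHESIS FORM over the two
remaining blocks:

* `hAsm   : ModelPlan2.CoreAsmStatement`            — the assembly (`S34/CoreAsm.lean`);
* `hCut`, `hHw`, `hLocA`, `hAd`                     — the abstract leaves of `S34/LocPlan.lean`;
* `hModel : ∀ M q m, … → Model2Statement (M * q) q m` — the modular block (`S34/Model2Asm.lean`).

Everything else is on `origin/main`: the glue `s34_of_uq` (`S34/UTop.lean`), the J-side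
`UPlan.uq_of_core` and the abstract Čech-bis `Cech2.cech2Statement`.
-/
import Mathlib
import Fermat.Agent.S34.UPlan
import Fermat.Agent.S34.ModelPlan2
import Fermat.Agent.S34.Cech2

set_option autoImplicit false

open IsLocalRing
open CuspForm CuspForm.HeckeGaloisRepDatum

namespace Fermat.Agent.S34.UFinal

/-- `UqStatement` from the assembly, the abstract leaves and the modular block. -/
theorem uq_of_model2 (hAsm : ModelPlan2.CoreAsmStatement)
    (hCut : LocPlan.CutAtStatement) (hHw : LocPlan.HwStatement) (hLocA : LocPlan.LocAStatement)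
    (hAd : LocPlan.LocAdapterStatement)
    (hModel : ∀ (M q m : ℕ) [NeZero M] [NeZero (M * q)], q.Prime → ¬ q ∣ M → ¬ q ∣ m →
      ModelPlan2.Model2Statement (M * q) q m) : UqStatement :=
  UPlan.uq_of_core Cech2.cech2Statement fun M q m _ _ hq hqM hqm =>
    hAsm hCut hHw hLocA hAd (M * q) q m (hModel M q m hq hqM hqm)

/-- **S34 in hypothesis form** — the statement of `Fermat/Templates/S34.lean.txt` verbatim, with
the three remaining blocks as hypotheses. -/
theorem s34_of_model2 (hAsm : ModelPlan2.CoreAsmStatement)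
    (hCut : LocPlan.CutAtStatement) (hHw : LocPlan.HwStatement) (hLocA : LocPlan.LocAStatement)
    (hAd : LocPlan.LocAdapterStatement)
    (hModel : ∀ (M q m : ℕ) [NeZero M] [NeZero (M * q)], q.Prime → ¬ q ∣ M → ¬ q ∣ m →
      ModelPlan2.Model2Statement (M * q) q m)
    {𝒪 : Type} [CommRing 𝒪] [IsDomain 𝒪] [IsDiscreteValuationRing 𝒪]
    [IsAdicComplete (maximalIdeal 𝒪) 𝒪] [Finite (ResidueField 𝒪)] [CharZero 𝒪]
    {p : ℕ} (hp : p.Prime) (hp𝒪 : (p : 𝒪) ∈ maximalIdeal 𝒪)
    {N : ℕ} [NeZero N] {S : Finset ℕ} (hpS : p ∈ S) (hNS : ∀ q : ℕ, q.Prime → q ∣ N → q ∈ S)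
    {θ : CuspForm.heckeAlgebra N 2 (↑S : Set ℕ) →+* ResidueField 𝒪}
    {T : Type} [CommRing T] [IsLocalRing T] [IsNoetherianRing T]
    [IsAdicComplete (maximalIdeal T) T] [Algebra 𝒪 T] [IsLocalHom (algebraMap 𝒪 T)]
    [Module.Finite 𝒪 T] [Module.Free 𝒪 T]
    (H : CuspForm.HeckeGaloisRepDatum N (↑S : Set ℕ) 𝒪 θ T)
    (q : ℕ) (hq : q.Prime) (hqp : q ≠ p) (hqN : q ∣ N) (hq2 : ¬ q ^ 2 ∣ N) :
    H.ρ.IsUnipotentOnInertiaAt q :=
  s34_of_uq (uq_of_model2 hAsm hCut hHw hLocA hAd hModel) hp hp𝒪 hpS hNS H q hq hqp hqN hq2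

end Fermat.Agent.S34.UFinal
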