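/-
S34 — UModel.lean (captain: helper85).  The frozen S34 statement from the MODULAR block alone:
the abstract leaves of `S34/LocPlan.lean` and the assembly `CoreAsm.coreAsmStatement` are plugged
into `UFinal.s34_of_model2`, so that the only remaining hypothesis is

  `hModel : ∀ M q m, q.Prime → ¬ q ∣ M → ¬ q ∣ m → ModelPlan2.Model2Statement (M * q) q m`.
-/
import Mathlib
import Fermat.Agent.S34.UFinal
import Fermat.Agent.S34.CoreAsm
import Fermat.Agent.S34.CutAtTop
import Fermat.Agent.S34.LocHw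
import Fermat.Agent.S34.LocAStmt

set_option autoImplicit false

open IsLocalRing
open CuspForm CuspForm.HeckeGaloisRepDatum

namespace Fermat.Agent.S34.UModel

/-- `UqStatement` from the modular block. -/
theorem uq_of_modular
    (hModel : ∀ (M q m : ℕ) [NeZero M] [NeZero (M * q)], q.Prime → ¬ q ∣ M → ¬ q ∣ m →
      ModelPlan2.Model2Statement (M * q) q m) : UqStatement :=
  UFinal.uq_of_model2 CoreAsm.coreAsmStatement CutAtTop.cutAtStatement LocHw.hw
    LocAStmt.locAStatement LocHw.locAdapter hModel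

/-- **S34 from the modular block** — the statement of `Fermat/Templates/S34.lean.txt` verbatim,
with the single hypothesis `hModel`. -/
theorem s34_of_modular
    (hModel : ∀ (M q m : ℕ) [NeZero M] [NeZero (M * q)], q.Prime → ¬ q ∣ M → ¬ q ∣ m →
      ModelPlan2.Model2Statement (M * q) q m)
    {𝒪 : Type} [CommRing 𝒪] [IsDomain 𝒪] [IsDiscreteValuationRing 𝒪]
    [IsAdicComplete (maximalIdeal 𝒪) 𝒪] [Finite (ResidueField 𝒪)] [CharZero 𝒪]
    {p : ℕ} (hp : p.Prime) (hp𝒪 : (p : 𝒪) ∈ maximalIdeal 𝒪)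
    {N : ℕ} [NeZero N] {S : Finset ℕ} (hpS : p ∈ S) (hNS : ∀ q : ℕ, q.Prime → q ∣ N → q ∈ S)
    {θ : CuspForm.heckeAlgebra N 2 (↑S : Set ℕ) →+* ResidueField 𝒪}
    {T : Type} [CommRing T] [IsLocalRing T] [IsNoetherianRing T]
    [IsAdicComplete (maximalIdeal T) T] [Algebra 𝒪 T] [IsLocalHom (algebraMap 𝒪 T)]
    [Module.Finite 𝒪 T] [Module.Free 𝒪 T]
    (H : CuspForm.HeckeGaloisRepDatum N (↑S : Set ℕ) 𝒪 θ T)
    (q : ℕ) (hq : q.Prime) (hqp : q ≠ p) (hqN : q ∣ N) (hq2 : ¬ q ^ 2 ∣ N) :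
    H.ρ.IsUnipotentOnInertiaAt q :=
  UFinal.s34_of_model2 CoreAsm.coreAsmStatement CutAtTop.cutAtStatement LocHw.hw
    LocAStmt.locAStatement LocHw.locAdapter hModel hp hp𝒪 hpS hNS H q hq hqp hqN hq2

end Fermat.Agent.S34.UModel
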