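/-
S34 — Base2.lean (helper31): the GALOIS-STABLE base field of the node block.

For a finite set `S` of constants, `normalBase ℓ S := K₁(μ_n : ℓ ∤ n)` with `K₁` the normal closure
of `ℚ(S)` in `ℚ̄`.  It contains `S`, satisfies the S18 `BaseFacts ℓ A` for every valuation subring
`A` over `ℓ` (so `O = A ∩ K` is a DVR with residue field that of `A`), is normal over `ℚ`, hence
stable under every `σ ∈ Gal(ℚ̄/ℚ)` — in particular under the inertia elements `τ, τ'` — and is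
monotone in `S`.
-/
import Mathlib
import Fermat.Agent.S18.Base
import Fermat.Agent.S30.CycN

set_option autoImplicit false

noncomputable section

namespace Fermat.Agent.S34.Base2

open Fermat.Agent.S18 Fermat.Agent.S18.Arith

theorem isAlgClosure_rat : IsAlgClosure ℚ Qb := by
  have h : (DivisionRing.toRatAlgebra : Algebra ℚ Qb) = AlgebraicClosure.instAlgebra ℚ :=
    Subsingleton.elim _ _
  rw [h]
  infer_instance

theorem normal_rat : Normal ℚ Qb :=
  have := isAlgClosure_rat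
  IsAlgClosure.normal ℚ Qb

attribute [local instance] isAlgClosure_rat normal_rat

/-- The finite normal field `K₁`: the normal closure of `ℚ(S)` in `ℚ̄`. -/
def normalCore (S : Finset Qb) : IntermediateField ℚ Qb :=
  IntermediateField.normalClosure ℚ (IntermediateField.adjoin ℚ (S : Set Qb)) Qb

theorem finiteDimensional_adjoin (S : Finset Qb) :
    FiniteDimensional ℚ (IntermediateField.adjoin ℚ (S : Set Qb)) :=
  IntermediateField.finiteDimensional_adjoin
    (fun x _ => (AlgebraicClosure.isAlgebraic ℚ).isIntegral.isIntegral x)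

theorem finiteDimensional_normalCore (S : Finset Qb) : FiniteDimensional ℚ (normalCore S) :=
  haveI := finiteDimensional_adjoin S
  normalClosure.is_finiteDimensional ℚ (IntermediateField.adjoin ℚ (S : Set Qb)) Qb

theorem normal_normalCore (S : Finset Qb) : Normal ℚ (normalCore S) :=
  normalClosure.normal ℚ (IntermediateField.adjoin ℚ (S : Set Qb)) Qb

theorem adjoin_le_normalCore (S : Finset Qb) :
    IntermediateField.adjoin ℚ (S : Set Qb) ≤ normalCore S :=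
  IntermediateField.le_normalClosure _

theorem subset_normalCore (S : Finset Qb) : (↑S : Set Qb) ⊆ (normalCore S : Set Qb) :=
  fun _ hx => adjoin_le_normalCore S (IntermediateField.subset_adjoin ℚ _ hx)

theorem normalCore_mono {S S' : Finset Qb} (h : S ⊆ S') : normalCore S ≤ normalCore S' :=
  IntermediateField.normalClosure_mono _ _
    (IntermediateField.adjoin.mono ℚ _ _ (Finset.coe_subset.2 h))

/-- The Galois-stable base field `K = K₁(μ_n : ℓ ∤ n)`, `K₁ = normalCore S`. -/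
def normalBase (ℓ : ℕ) (S : Finset Qb) : IntermediateField ℚ Qb :=
  Base.baseField ℓ (normalCore S)

theorem normalCore_le_normalBase (ℓ : ℕ) (S : Finset Qb) : normalCore S ≤ normalBase ℓ S :=
  Base.le_baseField ℓ _

/-- `S ⊆ K`. -/
theorem subset_normalBase (ℓ : ℕ) (S : Finset Qb) : (↑S : Set Qb) ⊆ (normalBase ℓ S : Set Qb) :=
  fun _ hx => normalCore_le_normalBase ℓ S (subset_normalCore S hx)

/-- Monotonicity in the set of constants. -/
theorem normalBase_mono (ℓ : ℕ) {S S' : Finset Qb} (h : S ⊆ S') :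
    normalBase ℓ S ≤ normalBase ℓ S' :=
  sup_le_sup_right (normalCore_mono h) _

/-- The S18 base facts: `O = A ∩ K` is a DVR, `O → ResidueField A` is onto, and `K` contains the
roots of unity of order prime to `ℓ`. -/
theorem baseFacts_normalBase (A : ValuationSubring Qb) (ℓ : ℕ) [Fact ℓ.Prime]
    (hA : A.LiesOverPrime ℓ) (S : Finset Qb) : BaseFacts ℓ A (normalBase ℓ S) :=
  haveI := finiteDimensional_normalCore S
  Base.baseFacts A ℓ hA (normalCore S)

/-- The cyclotomic part is stable under every automorphism. -/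
theorem map_cyclo (ℓ : ℕ) (σ : Qb ≃ₐ[ℚ] Qb) :
    (IntermediateField.adjoin ℚ {ζ : Qb | ∃ n : ℕ, ¬ ℓ ∣ n ∧ ζ ^ n = 1}).map
      (σ : Qb →ₐ[ℚ] Qb) ≤ IntermediateField.adjoin ℚ {ζ : Qb | ∃ n : ℕ, ¬ ℓ ∣ n ∧ ζ ^ n = 1} := by
  rw [IntermediateField.adjoin_map]
  refine IntermediateField.adjoin.mono ℚ _ _ ?_
  rintro _ ⟨ζ, ⟨n, hn, hζ⟩, rfl⟩
  refine ⟨n, hn, ?_⟩
  show (σ ζ) ^ n = 1
  rw [← map_pow, hζ, map_one]

/-- `σ(K) ⊆ K` for every `σ ∈ Gal(ℚ̄/ℚ)`. -/
theorem map_normalBase_le (ℓ : ℕ) (S : Finset Qb) (σ : Qb ≃ₐ[ℚ] Qb) :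
    (normalBase ℓ S).map (σ : Qb →ₐ[ℚ] Qb) ≤ normalBase ℓ S := by
  unfold normalBase Base.baseField
  rw [IntermediateField.map_sup]
  refine sup_le_sup ?_ (map_cyclo ℓ σ)
  exact (IntermediateField.normal_iff_forall_map_le'.1 (normal_normalCore S)) σ

/-- `K` is normal over `ℚ`. -/
theorem normal_normalBase (ℓ : ℕ) (S : Finset Qb) : Normal ℚ (normalBase ℓ S) :=
  IntermediateField.normal_iff_forall_map_le'.2 (map_normalBase_le ℓ S)

/-- `σ x ∈ K` for `x ∈ K`. -/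
theorem apply_mem_normalBase (ℓ : ℕ) (S : Finset Qb) (σ : Qb ≃ₐ[ℚ] Qb) {x : Qb}
    (hx : x ∈ normalBase ℓ S) : σ x ∈ normalBase ℓ S :=
  map_normalBase_le ℓ S σ ⟨x, hx, rfl⟩

/-- `σ x ∈ K ↔ x ∈ K`. -/
theorem apply_mem_normalBase_iff (ℓ : ℕ) (S : Finset Qb) (σ : Qb ≃ₐ[ℚ] Qb) (x : Qb) :
    σ x ∈ normalBase ℓ S ↔ x ∈ normalBase ℓ S := by
  refine ⟨fun h => ?_, apply_mem_normalBase ℓ S σ⟩
  have h2 := apply_mem_normalBase ℓ S σ.symm h
  rwa [AlgEquiv.symm_apply_apply] at h2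

/-- `σ` preserves `O = A ∩ K` when `σ` is in the decomposition group of `A`
(in the form: `σ a ∈ A` for all `a ∈ A`). -/
theorem apply_mem_OK (ℓ : ℕ) (S : Finset Qb) (A : ValuationSubring Qb) (σ : Qb ≃ₐ[ℚ] Qb)
    (hσ : ∀ a : Qb, a ∈ A → σ a ∈ A) (x : Qb) (hxK : x ∈ normalBase ℓ S) (hxA : x ∈ A) :
    σ x ∈ normalBase ℓ S ∧ σ x ∈ A :=
  ⟨apply_mem_normalBase ℓ S σ hxK, hσ x hxA⟩

/-- **[Base2]**: for every finite set of constants there is a base field `K ∋ S` with the S18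
`BaseFacts`, normal over `ℚ` (hence stable under all of `Gal(ℚ̄/ℚ)`). -/
def Base2Statement (ℓ : ℕ) : Prop :=
  ∀ A : ValuationSubring Qb, A.LiesOverPrime ℓ → ∀ S : Finset Qb,
    ∃ K : IntermediateField ℚ Qb, (↑S ⊆ (K : Set Qb)) ∧ BaseFacts ℓ A K ∧ Normal ℚ K ∧
      ∀ (σ : Qb ≃ₐ[ℚ] Qb) (x : Qb), σ x ∈ K ↔ x ∈ K

theorem base2Statement (ℓ : ℕ) [Fact ℓ.Prime] : Base2Statement ℓ := fun A hA S =>
  ⟨normalBase ℓ S, subset_normalBase ℓ S, baseFacts_normalBase A ℓ hA S, normal_normalBase ℓ S,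
    apply_mem_normalBase_iff ℓ S⟩

/-! ### The unramified (inertia-fixed) sub-base `K₀ = ℚ(μ_n : ℓ ∤ n)` -/

/-- The unramified base `K₀ = ℚ(μ_n : ℓ ∤ n)`. -/
def unrBase (ℓ : ℕ) : IntermediateField ℚ Qb := Base.baseField ℓ ⊥

theorem unrBase_le_normalBase (ℓ : ℕ) (S : Finset Qb) : unrBase ℓ ≤ normalBase ℓ S :=
  sup_le_sup_right bot_le _

/-- The S18 base facts for the unramified base. -/
theorem baseFacts_unrBase (A : ValuationSubring Qb) (ℓ : ℕ) [Fact ℓ.Prime]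
    (hA : A.LiesOverPrime ℓ) : BaseFacts ℓ A (unrBase ℓ) :=
  Base.baseFacts A ℓ hA ⊥

theorem unrBase_eq_adjoin (ℓ : ℕ) :
    unrBase ℓ = IntermediateField.adjoin ℚ {ζ : Qb | ∃ n : ℕ, ¬ ℓ ∣ n ∧ ζ ^ n = 1} := by
  unfold unrBase Base.baseField
  exact bot_sup_eq _

/-- **Inertia fixes the unramified base**: every element of the inertia group of a valuation
subring `A` over `ℓ` fixes `K₀ = ℚ(μ_n : ℓ ∤ n)` pointwise. -/
theorem inertia_apply_of_mem_unrBase {ℓ : ℕ} (hℓ : ℓ.Prime) (A : ValuationSubring Qb)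
    (hA : A.LiesOverPrime ℓ) (τ : Qb ≃ₐ[ℚ] Qb) (hτ : τ ∈ A.inertiaSubgroupIn ℚ) {x : Qb}
    (hx : x ∈ unrBase ℓ) : τ x = x := by
  rw [unrBase_eq_adjoin] at hx
  have hle : IntermediateField.adjoin ℚ {ζ : Qb | ∃ n : ℕ, ¬ ℓ ∣ n ∧ ζ ^ n = 1} ≤
      IntermediateField.fixedField (Subgroup.zpowers τ) := by
    refine IntermediateField.adjoin_le_iff.2 ?_
    rintro ζ ⟨n, hn, hζ⟩
    have hn0 : n ≠ 0 := fun h => hn (h ▸ dvd_zero ℓ)
    have hfix : τ ζ = ζ :=
      Fermat.Agent.S30.CycN.inertia_apply_of_pow_eq_one hn0 hℓ hn A hA τ hτ ζ hζ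
    rintro ⟨g, k, rfl⟩
    show (τ ^ k) ζ = ζ
    have hinv : τ.symm ζ = ζ := by
      conv_lhs => rw [← hfix]
      exact τ.symm_apply_apply ζ
    induction k using Int.induction_on with
    | zero => simp
    | succ i ih =>
      rw [zpow_add_one, AlgEquiv.mul_apply, hfix]; exact ih
    | pred i ih =>
      rw [zpow_sub_one, AlgEquiv.mul_apply]
      have : (τ⁻¹ : Qb ≃ₐ[ℚ] Qb) ζ = ζ := hinv
      rw [this]; exact ih
  have := hle hx
  exact this ⟨τ, Subgroup.mem_zpowers τ⟩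

end Fermat.Agent.S34.Base2
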