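import Mathlib
import Fermat.Agent.S18.ModelAll
import Fermat.Agent.S18.IgusaStmt
import Fermat.Agent.S18.IgusaPtsChart
import Fermat.Agent.S18.ResOK
import Fermat.Agent.S34.GaussV
import Fermat.Agent.S34.LocPlan

/-!
# S34, block [Model2], row [PointHyp] (b0)+(b1): the branches through a closed point are regular

B-copy (helper76) of the `branch` field of `ModelPlan2.ChartModel`, in hypothesis form.

Setting: levels `M`, `N`; `a : F_K(M) → F_K(N)` an embedding which is the identity on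
`q`-expansions; `w` an automorphism of `F_K(N)` fixing the constants; `R = chart N A K t` a chart
of level `N` which is `w`-stable and contains `a (chart M A K tM)`; `P 0 = R ∩ π V1`,
`P 1 = R ∩ π V2` (`V2 = w⁻¹ V1`) the two vertical primes.

* `branch_core`      (Mathlib only) the branch `R / P` is the special fibre `S / ϖ` of the lower
                      level: regularity at a closed point from the Igusa property of `S`;
* `branch_transport` (Mathlib only) the second branch is the `w`-image of the first;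
* `exists_mem_not_span` : `π R_M` is not a maximal ideal of a chart with transcendental
                      coordinate;
* `branch`           the `branch` field for a chart of level `N`, hypothesis form;
* `branch_R0`, `branch_Rinf` : the same with the level-`M` inputs discharged from S18.
-/

set_option autoImplicit false

noncomputable section

namespace Fermat.Agent.S34.BranchInst

open ModularCurve HahnSeries Fermat.Agent.S18 Fermat.Agent.S18.Arith Fermat.Agent.S18.ModelPlan
open Fermat.Agent.S34.GaussV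

/-! ### Abstract cores -/

section Abstract

variable {R S : Type*} [CommRing R] [CommRing S]

/-- The contraction of a maximal ideal `n ⊇ P` along `α : S → R` with `R = α S + P` is
maximal. -/
theorem comap_isMaximal (α : S →+* R) (P : Ideal R) (hB1 : ∀ x : R, ∃ y : S, x - α y ∈ P)
    (n : Ideal R) (hn : n.IsMaximal) (hPn : P ≤ n) : (n.comap α).IsMaximal := by
  let _ : Field (R ⧸ n) := Ideal.Quotient.field n
  have hsurj : Function.Surjective ((Ideal.Quotient.mk n).comp α) := by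
    intro z
    obtain ⟨x, rfl⟩ := Ideal.Quotient.mk_surjective z
    obtain ⟨y, hy⟩ := hB1 x
    refine ⟨y, ?_⟩
    rw [RingHom.comp_apply]
    exact (Ideal.Quotient.eq.mpr (hPn hy)).symm
  have hker : RingHom.ker ((Ideal.Quotient.mk n).comp α) = n.comap α := by
    ext y
    rw [RingHom.mem_ker, RingHom.comp_apply, Ideal.Quotient.eq_zero_iff_mem, Ideal.mem_comap]
  rw [← hker]
  exact RingHom.ker_isMaximal_of_surjective _ hsurj

/-- **(b0), abstract.** If `R = α S + P`, `α⁻¹ P = ϖ S`, `S` has the Igusa property at its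
closed points and `ϖ S` is not maximal, then at every maximal ideal `n ⊇ P` of `R` the ideal
`n / P` is nonzero and locally principal. -/
theorem branch_core (α : S →+* R) (P : Ideal R) (ϖ : S) (hϖ : α ϖ ∈ P)
    (hB1 : ∀ x : R, ∃ y : S, x - α y ∈ P)
    (hker : ∀ y : S, α y ∈ P → y ∈ Ideal.span {ϖ})
    (hIg : ∀ nS : Ideal S, nS.IsMaximal → ϖ ∈ nS →
      ∃ t ∈ nS, ∀ x ∈ nS, ∃ c : S, c ∉ nS ∧ c * x ∈ Ideal.span {ϖ, t})
    (hnz : ∀ nS : Ideal S, nS.IsMaximal → ϖ ∈ nS → ∃ y ∈ nS, y ∉ Ideal.span {ϖ})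
    (n : Ideal R) (hn : n.IsMaximal) (hPn : P ≤ n) :
    (∃ x ∈ n, x ∉ P) ∧
      ∃ u ∈ n, ∀ x ∈ n, ∃ s : R, s ∉ n ∧ ∃ c : R, s * x - c * u ∈ P := by
  have hmax : (n.comap α).IsMaximal := comap_isMaximal α P hB1 n hn hPn
  have hϖn : ϖ ∈ n.comap α := Ideal.mem_comap.mpr (hPn hϖ)
  constructor
  · obtain ⟨y, hy, hyϖ⟩ := hnz _ hmax hϖn
    exact ⟨α y, Ideal.mem_comap.mp hy, fun h => hyϖ (hker y h)⟩
  · obtain ⟨t, ht, hI⟩ := hIg _ hmax hϖn
    refine ⟨α t, Ideal.mem_comap.mp ht, fun x hx => ?_⟩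
    obtain ⟨y, hy⟩ := hB1 x
    have hyn : y ∈ n.comap α := by
      rw [Ideal.mem_comap]
      have h1 : α y = x - (x - α y) := by ring
      rw [h1]
      exact n.sub_mem hx (hPn hy)
    obtain ⟨c, hc, hcy⟩ := hI y hyn
    obtain ⟨a, b, hab⟩ := Ideal.mem_span_pair.mp hcy
    refine ⟨α c, fun h => hc (Ideal.mem_comap.mpr h), α b, ?_⟩
    have h2 : α c * α y = α a * α ϖ + α b * α t := by
      rw [← map_mul, ← map_mul, ← map_mul, ← map_add, hab]
    have h3 : α c * x - α b * α t = α c * (x - α y) + α a * α ϖ := by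
      linear_combination h2
    rw [h3]
    exact P.add_mem (P.mul_mem_left _ hy) (P.mul_mem_left _ hϖ)

/-- **(b1) from (b0), abstract.** Transport of the branch statement along an automorphism `w`
with `P1 = w⁻¹ P0`. -/
theorem branch_transport (w : R ≃+* R) (P0 P1 : Ideal R) (hP : ∀ r : R, r ∈ P1 ↔ w r ∈ P0)
    (h0 : ∀ n : Ideal R, n.IsMaximal → P0 ≤ n → (∃ x ∈ n, x ∉ P0) ∧
      ∃ u ∈ n, ∀ x ∈ n, ∃ s : R, s ∉ n ∧ ∃ c : R, s * x - c * u ∈ P0)
    (n : Ideal R) (hn : n.IsMaximal) (hPn : P1 ≤ n) :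
    (∃ x ∈ n, x ∉ P1) ∧
      ∃ u ∈ n, ∀ x ∈ n, ∃ s : R, s ∉ n ∧ ∃ c : R, s * x - c * u ∈ P1 := by
  have hmax : (n.comap (w.symm : R →+* R)).IsMaximal :=
    Ideal.comap_isMaximal_of_surjective (w.symm : R →+* R) w.symm.surjective
  have hmem : ∀ x : R, x ∈ n.comap (w.symm : R →+* R) ↔ w.symm x ∈ n := fun x => Iff.rfl
  have hle : P0 ≤ n.comap (w.symm : R →+* R) := by
    intro r hr
    rw [hmem]
    apply hPn
    rw [hP, RingEquiv.apply_symm_apply]
    exact hr
  obtain ⟨⟨x', hx', hx'P⟩, u', hu', hI⟩ := h0 _ hmax hle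
  constructor
  · refine ⟨w.symm x', (hmem x').mp hx', fun h => hx'P ?_⟩
    have := (hP _).mp h
    rwa [RingEquiv.apply_symm_apply] at this
  · refine ⟨w.symm u', (hmem u').mp hu', fun x hx => ?_⟩
    have hwx : w x ∈ n.comap (w.symm : R →+* R) := by
      rw [hmem, RingEquiv.symm_apply_apply]
      exact hx
    obtain ⟨s', hs', c', hsc⟩ := hI (w x) hwx
    refine ⟨w.symm s', fun h => hs' ((hmem s').mpr h), w.symm c', ?_⟩
    rw [hP, map_sub, map_mul, map_mul, RingEquiv.apply_symm_apply, RingEquiv.apply_symm_apply,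
      RingEquiv.apply_symm_apply]
    exact hsc

end Abstract

/-- An element of a field, integral over an integrally closed domain `B` and a quotient of two
elements of `B`, comes from `B`. -/
theorem exists_algebraMap_eq_of_isIntegral_of_mul_eq {B E : Type*} [CommRing B] [IsDomain B]
    [IsIntegrallyClosed B] [Field E] [Algebra B E]
    (hinj : Function.Injective (algebraMap B E)) {y : E} (hint : IsIntegral B y) {a d : B}
    (hd0 : d ≠ 0) (h : y * algebraMap B E d = algebraMap B E a) :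
    ∃ b : B, algebraMap B E b = y := by
  let φ : FractionRing B →ₐ[B] E :=
    IsFractionRing.liftAlgHom (g := Algebra.ofId B E) hinj
  have hφinj : Function.Injective φ := φ.toRingHom.injective
  let y' : FractionRing B := algebraMap B (FractionRing B) a / algebraMap B (FractionRing B) d
  have hdE : algebraMap B E d ≠ 0 := fun h0 => hd0 (hinj (by rw [h0, map_zero]))
  have hφy : φ y' = y := by
    have h1 : φ (algebraMap B (FractionRing B) a) = algebraMap B E a := φ.commutes _
    have h2 : φ (algebraMap B (FractionRing B) d) = algebraMap B E d := φ.commutes _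
    rw [map_div₀, h1, h2, ← h, mul_div_cancel_right₀ _ hdE]
  have hint' : IsIntegral B y' := by
    rw [← isIntegral_algHom_iff φ hφinj, hφy]
    exact hint
  obtain ⟨b, hb⟩ := IsIntegrallyClosed.isIntegral_iff.mp hint'
  refine ⟨b, ?_⟩
  rw [← hφy, ← hb]
  exact (φ.commutes b).symm

/-! ### The modular instantiation -/

section Modular

variable {M N : ℕ} [NeZero M] [NeZero N] {A : ValuationSubring Qb} {K : IntermediateField ℚ Qb}

omit [NeZero M] in
/-- **(nz)** `π R_M` is not a maximal ideal of a chart with transcendental coordinate: every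
closed point `n_M ∋ π` contains an element outside `π R_M` (namely `tM - c`). -/
theorem exists_mem_not_span [IsDiscreteValuationRing (OK A K)]
    [IsAlgClosed (IsLocalRing.ResidueField (OK A K))] (tM : FK M K)
    (htr : Transcendental (OK A K) tM) {π : OK A K} (hπ : Irreducible π)
    (nM : Ideal ↥(chart M A K tM)) (hn : nM.IsMaximal)
    (hπn : algebraMap (OK A K) ↥(chart M A K tM) π ∈ nM) :
    ∃ y ∈ nM, y ∉ Ideal.span {algebraMap (OK A K) ↥(chart M A K tM) π} := by
  classical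
  obtain ⟨c, hc⟩ := IgusaPtsChart.exists_coord_sub_mem M A K tM π hπ nM hn hπn
  refine ⟨_, hc, fun hmem => ?_⟩
  rw [Ideal.mem_span_singleton] at hmem
  obtain ⟨r, hr⟩ := hmem
  have hr' : tM - algebraMap (OK A K) (FK M K) c =
      algebraMap (OK A K) (FK M K) π * (r : FK M K) := congrArg Subtype.val hr
  -- `r` is integral over `B = O[tM]`, which is integrally closed
  set B : Subalgebra (OK A K) (FK M K) := Algebra.adjoin (OK A K) {tM} with hB
  have hBic : IsIntegrallyClosed B :=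
    ModelFin.isIntegrallyClosed_adjoin_of_transcendental tM htr
  have hrint : IsIntegral B (r : FK M K) := r.2
  have htB : tM ∈ B := Algebra.subset_adjoin (Set.mem_singleton tM)
  have hπ0 : algebraMap (OK A K) (FK M K) π ≠ 0 := algebraMap_ne_zero M A K hπ.ne_zero
  let aB : B := ⟨tM - algebraMap (OK A K) (FK M K) c, B.sub_mem htB (B.algebraMap_mem c)⟩
  let dB : B := ⟨algebraMap (OK A K) (FK M K) π, B.algebraMap_mem π⟩
  have hdB : dB ≠ 0 := fun h0 => hπ0 (congrArg Subtype.val h0)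
  have hmul : (r : FK M K) * algebraMap B (FK M K) dB = algebraMap B (FK M K) aB := by
    show (r : FK M K) * algebraMap (OK A K) (FK M K) π = tM - algebraMap (OK A K) (FK M K) c
    rw [hr', mul_comm]
  obtain ⟨b, hb⟩ := exists_algebraMap_eq_of_isIntegral_of_mul_eq (B := B)
    Subtype.val_injective hrint hdB hmul
  have hbB : (r : FK M K) ∈ Algebra.adjoin (OK A K) {tM} := by
    rw [← hb]; exact b.2
  rw [Algebra.adjoin_singleton_eq_range_aeval] at hbB
  obtain ⟨p, hp⟩ := hbB
  have hp' : Polynomial.aeval tM p = (r : FK M K) := hp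
  have hzero : Polynomial.aeval tM
      (Polynomial.X - Polynomial.C c - Polynomial.C π * p : Polynomial (OK A K)) = 0 := by
    rw [map_sub, map_sub, map_mul, Polynomial.aeval_X, Polynomial.aeval_C, Polynomial.aeval_C,
      hp', hr', sub_self]
  have hpoly := (transcendental_iff.mp htr) _ hzero
  have hcoeff := congrArg (fun f : Polynomial (OK A K) => f.coeff 1) hpoly
  simp only [Polynomial.coeff_sub, Polynomial.coeff_X_one, Polynomial.coeff_C_mul,
    Polynomial.coeff_zero] at hcoeff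
  rw [Polynomial.coeff_C, if_neg one_ne_zero, sub_zero] at hcoeff
  exact hπ.not_isUnit (IsUnit.of_mul_eq_one (p.coeff 1) (sub_eq_zero.mp hcoeff).symm)

/-- `x ∈ π V1` iff the `q`-expansion of `x` reduces to `0`. -/
theorem exists_V1_iff_gRel (hdvr : IsDiscreteValuationRing (OK A K)) {π : OK A K}
    (hπ : Irreducible π) (x : FK N K) :
    (∃ y ∈ V1 N A K hdvr, x = algebraMap (OK A K) (FK N K) π * y) ↔
      GRel A ((x : FK N K) : LaurentSeries Qb) 0 := by
  have hG := Fermat.Agent.S18.GRel.gRelStatement A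
  constructor
  · rintro ⟨y, hy, rfl⟩
    obtain ⟨y', hy'⟩ := (mem_V1_iff hdvr).mp hy
    have h := hG.mul _ _ _ _ (ModelRed.gRel_pi hG π hπ.not_isUnit) hy'
    rw [zero_mul] at h
    exact h
  · intro h
    have hx : x ∈ V1 N A K hdvr := (mem_V1_iff hdvr).mpr ⟨0, h⟩
    exact (red1_eq_zero_iff hdvr hπ ⟨x, hx⟩).mp (red1_eq_of_gRel hdvr ⟨x, hx⟩ h)

/-- The restriction of `a : F_K(M) → F_K(N)` to charts. -/
def chartHom (tM : FK M K) (t : FK N K) (a : FK M K →+* FK N K)
    (hat : ∀ y ∈ chart M A K tM, a y ∈ chart N A K t) :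
    ↥(chart M A K tM) →+* ↥(chart N A K t) :=
  (a.comp (chart M A K tM).val.toRingHom).codRestrict (chart N A K t) (fun y => hat y y.2)

omit [NeZero M] [NeZero N] in
theorem chartHom_coe (tM : FK M K) (t : FK N K) (a : FK M K →+* FK N K)
    (hat : ∀ y ∈ chart M A K tM, a y ∈ chart N A K t) (y : ↥(chart M A K tM)) :
    ((chartHom tM t a hat y : ↥(chart N A K t)) : FK N K) = a (y : FK M K) := rfl

/-- The restriction of an automorphism `w` of `F_K(N)` to a `w`-stable chart. -/
def chartEquiv (t : FK N K) (w : FK N K ≃+* FK N K)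
    (hwt : ∀ x ∈ chart N A K t, w x ∈ chart N A K t)
    (hwt' : ∀ x ∈ chart N A K t, w.symm x ∈ chart N A K t) :
    ↥(chart N A K t) ≃+* ↥(chart N A K t) where
  toFun x := ⟨w (x : FK N K), hwt x x.2⟩
  invFun x := ⟨w.symm (x : FK N K), hwt' x x.2⟩
  left_inv x := Subtype.ext (w.symm_apply_apply (x : FK N K))
  right_inv x := Subtype.ext (w.apply_symm_apply (x : FK N K))
  map_mul' x y := Subtype.ext (map_mul w (x : FK N K) (y : FK N K))
  map_add' x y := Subtype.ext (map_add w (x : FK N K) (y : FK N K))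

omit [NeZero N] in
theorem chartEquiv_coe (t : FK N K) (w : FK N K ≃+* FK N K)
    (hwt : ∀ x ∈ chart N A K t, w x ∈ chart N A K t)
    (hwt' : ∀ x ∈ chart N A K t, w.symm x ∈ chart N A K t) (x : ↥(chart N A K t)) :
    ((chartEquiv t w hwt hwt' x : ↥(chart N A K t)) : FK N K) = w (x : FK N K) := rfl

omit [NeZero M] [NeZero N] in
/-- An embedding which is the identity on `q`-expansions fixes the constants. -/
theorem map_algebraMap_of_coe (a : FK M K →+* FK N K)
    (ha : ∀ y : FK M K, ((a y : FK N K) : LaurentSeries Qb) = ((y : FK M K) : LaurentSeries Qb))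
    (c : OK A K) :
    a (algebraMap (OK A K) (FK M K) c) = algebraMap (OK A K) (FK N K) c := by
  apply Subtype.ext
  rw [ha, coe_algebraMap M A K c, coe_algebraMap N A K c]

omit [NeZero M] [NeZero N] in
theorem chartHom_algebraMap (tM : FK M K) (t : FK N K) (a : FK M K →+* FK N K)
    (ha : ∀ y : FK M K, ((a y : FK N K) : LaurentSeries Qb) = ((y : FK M K) : LaurentSeries Qb))
    (hat : ∀ y ∈ chart M A K tM, a y ∈ chart N A K t) (c : OK A K) :
    chartHom tM t a hat (algebraMap (OK A K) ↥(chart M A K tM) c) =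
      algebraMap (OK A K) ↥(chart N A K t) c :=
  Subtype.ext (map_algebraMap_of_coe a ha c)

omit [NeZero M] in
/-- **(B1)** in ideal form. -/
theorem exists_sub_chartHom_mem (hdvr : IsDiscreteValuationRing (OK A K)) {π : OK A K}
    (hπ : Irreducible π) (tM : FK M K) (t : FK N K) (a : FK M K →+* FK N K)
    (ha : ∀ y : FK M K, ((a y : FK N K) : LaurentSeries Qb) = ((y : FK M K) : LaurentSeries Qb))
    (hat : ∀ y ∈ chart M A K tM, a y ∈ chart N A K t)
    (hB1 : ∀ x ∈ chart N A K t, ∃ y ∈ chart M A K tM,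
      GRel A (((x : FK N K) : LaurentSeries Qb) - ((y : FK M K) : LaurentSeries Qb)) 0)
    (P0 : Ideal ↥(chart N A K t))
    (hP0 : ∀ r : ↥(chart N A K t), r ∈ P0 ↔
      ∃ y ∈ V1 N A K hdvr, (r : FK N K) = algebraMap (OK A K) (FK N K) π * y)
    (x : ↥(chart N A K t)) : ∃ y : ↥(chart M A K tM), x - chartHom tM t a hat y ∈ P0 := by
  obtain ⟨y, hy, hxy⟩ := hB1 x x.2
  refine ⟨⟨y, hy⟩, ?_⟩
  rw [hP0, exists_V1_iff_gRel hdvr hπ, Subalgebra.coe_sub, chartHom_coe, Subfield.coe_sub, ha]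
  exact hxy

omit [NeZero M] in
/-- **(ker)** `α⁻¹ (P 0) = π R_M`, from the reduction map of the level-`M` chart. -/
theorem mem_span_of_chartHom_mem (hdvr : IsDiscreteValuationRing (OK A K)) {π : OK A K}
    (hπ : Irreducible π) (tM : FK M K) (hC : ChartFacts M A K (chart M A K tM) tM)
    (t : FK N K) (a : FK M K →+* FK N K)
    (ha : ∀ y : FK M K, ((a y : FK N K) : LaurentSeries Qb) = ((y : FK M K) : LaurentSeries Qb))
    (hat : ∀ y ∈ chart M A K tM, a y ∈ chart N A K t)
    (P0 : Ideal ↥(chart N A K t))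
    (hP0 : ∀ r : ↥(chart N A K t), r ∈ P0 ↔
      ∃ y ∈ V1 N A K hdvr, (r : FK N K) = algebraMap (OK A K) (FK N K) π * y)
    (y : ↥(chart M A K tM)) (hy : chartHom tM t a hat y ∈ P0) :
    y ∈ Ideal.span {algebraMap (OK A K) ↥(chart M A K tM) π} := by
  have := hdvr
  have hG := Fermat.Agent.S18.GRel.gRelStatement A
  obtain ⟨ρ, hρ, hρker, -⟩ := hC.red
  rw [hP0, exists_V1_iff_gRel hdvr hπ, chartHom_coe, ha] at hy
  have h0 : ρ y = 0 := hG.unique _ _ _ (hρ y) hy
  rw [← Nor.piIdeal_eq_span (chart M A K tM) hπ, ← hρker, RingHom.mem_ker]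
  exact h0

/-- `P 1 = e⁻¹ (P 0)` for the restriction `e` of `w`. -/
theorem mem_P1_iff (hdvr : IsDiscreteValuationRing (OK A K)) (π : OK A K)
    (t : FK N K) (w : FK N K ≃+* FK N K)
    (hw : ∀ c : OK A K, w (algebraMap (OK A K) (FK N K) c) = algebraMap (OK A K) (FK N K) c)
    (hwt : ∀ x ∈ chart N A K t, w x ∈ chart N A K t)
    (hwt' : ∀ x ∈ chart N A K t, w.symm x ∈ chart N A K t)
    (P0 P1 : Ideal ↥(chart N A K t))
    (hP0 : ∀ r : ↥(chart N A K t), r ∈ P0 ↔
      ∃ y ∈ V1 N A K hdvr, (r : FK N K) = algebraMap (OK A K) (FK N K) π * y)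
    (hP1 : ∀ r : ↥(chart N A K t), r ∈ P1 ↔
      ∃ y ∈ V2 w hdvr, (r : FK N K) = algebraMap (OK A K) (FK N K) π * y)
    (r : ↥(chart N A K t)) : r ∈ P1 ↔ chartEquiv t w hwt hwt' r ∈ P0 := by
  have hws : ∀ c : OK A K,
      w.symm (algebraMap (OK A K) (FK N K) c) = algebraMap (OK A K) (FK N K) c := by
    intro c
    rw [RingEquiv.symm_apply_eq, hw]
  rw [hP1, hP0]
  constructor
  · rintro ⟨y, hy, hr⟩
    refine ⟨w y, (mem_V2_iff w hdvr).mp hy, ?_⟩
    rw [chartEquiv_coe, hr, map_mul, hw]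
  · rintro ⟨y, hy, hr⟩
    refine ⟨w.symm y, (mem_V2_iff w hdvr).mpr (by rwa [RingEquiv.apply_symm_apply]), ?_⟩
    rw [chartEquiv_coe] at hr
    rw [← hws π, ← map_mul, ← hr, RingEquiv.symm_apply_apply]

omit [NeZero M] in
/-- **[PointHyp] (b0)+(b1), hypothesis form** = the `branch` field of `ModelPlan2.ChartModel`
for the chart `chart N A K t`.

Inputs: the level-`M` chart `chart M A K tM` with its S18 facts (`hC`, `hIg`, transcendental
coordinate); an embedding `a : F_K(M) → F_K(N)` which is the identity on `q`-expansions and maps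
the level-`M` chart into the level-`N` chart; an automorphism `w` of `F_K(N)` fixing the constants
and stabilising the level-`N` chart; (B1) every element of the level-`N` chart is congruent to an
element of the level-`M` chart modulo the Gauss maximal ideal (`Branch.exists_level`); the two
vertical ideals `P 0 = R ∩ π V1`, `P 1 = R ∩ π V2`. -/
theorem branch (hdvr : IsDiscreteValuationRing (OK A K))
    (hk : IsAlgClosed (IsLocalRing.ResidueField (OK A K)))
    {π : OK A K} (hπ : Irreducible π)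
    (tM : FK M K) (htr : Transcendental (OK A K) tM)
    (hC : ChartFacts M A K (chart M A K tM) tM) (hIg : IgusaAt M A K (chart M A K tM))
    (t : FK N K) (a : FK M K →+* FK N K)
    (ha : ∀ y : FK M K, ((a y : FK N K) : LaurentSeries Qb) = ((y : FK M K) : LaurentSeries Qb))
    (hat : ∀ y ∈ chart M A K tM, a y ∈ chart N A K t)
    (w : FK N K ≃+* FK N K)
    (hw : ∀ c : OK A K, w (algebraMap (OK A K) (FK N K) c) = algebraMap (OK A K) (FK N K) c)
    (hwt : ∀ x ∈ chart N A K t, w x ∈ chart N A K t)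
    (hwt' : ∀ x ∈ chart N A K t, w.symm x ∈ chart N A K t)
    (hB1 : ∀ x ∈ chart N A K t, ∃ y ∈ chart M A K tM,
      GRel A (((x : FK N K) : LaurentSeries Qb) - ((y : FK M K) : LaurentSeries Qb)) 0)
    (P : Fin 2 → Ideal ↥(chart N A K t))
    (hP0 : ∀ r : ↥(chart N A K t), r ∈ P 0 ↔
      ∃ y ∈ V1 N A K hdvr, (r : FK N K) = algebraMap (OK A K) (FK N K) π * y)
    (hP1 : ∀ r : ↥(chart N A K t), r ∈ P 1 ↔
      ∃ y ∈ V2 w hdvr, (r : FK N K) = algebraMap (OK A K) (FK N K) π * y) :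
    ∀ n : Ideal ↥(chart N A K t), n.IsMaximal →
      algebraMap (OK A K) ↥(chart N A K t) π ∈ n → ∀ i : Fin 2, P i ≤ n →
      (∃ x ∈ n, x ∉ P i) ∧
        ∃ u ∈ n, ∀ x ∈ n, ∃ s : ↥(chart N A K t), s ∉ n ∧
          ∃ c : ↥(chart N A K t), s * x - c * u ∈ P i := by
  have hϖ0 : chartHom tM t a hat (algebraMap (OK A K) ↥(chart M A K tM) π) ∈ P 0 := by
    rw [chartHom_algebraMap tM t a ha hat π, hP0]
    exact ⟨1, (V1 N A K hdvr).one_mem, (mul_one _).symm⟩
  have h0 : ∀ n : Ideal ↥(chart N A K t), n.IsMaximal → P 0 ≤ n → (∃ x ∈ n, x ∉ P 0) ∧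
      ∃ u ∈ n, ∀ x ∈ n, ∃ s : ↥(chart N A K t), s ∉ n ∧
        ∃ c : ↥(chart N A K t), s * x - c * u ∈ P 0 :=
    fun n hn hPn => branch_core (chartHom tM t a hat) (P 0)
      (algebraMap (OK A K) ↥(chart M A K tM) π) hϖ0
      (exists_sub_chartHom_mem hdvr hπ tM t a ha hat hB1 (P 0) hP0)
      (mem_span_of_chartHom_mem hdvr hπ tM hC t a ha hat (P 0) hP0)
      (fun nS hnS hϖn => hIg π hπ nS hnS hϖn)
      (fun nS hnS hϖn =>
        @exists_mem_not_span M A K hdvr hk tM htr π hπ nS hnS hϖn) n hn hPn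
  intro n hn _ i hi
  fin_cases i
  · exact h0 n hn hi
  · exact branch_transport (chartEquiv t w hwt hwt') (P 0) (P 1)
      (mem_P1_iff hdvr π t w hw hwt hwt' (P 0) (P 1) hP0 hP1) h0 n hn hi

omit [NeZero M] in
/-- The same with the vertical ideals given by a `LocPlan.ChartHyp` for a family `V` with
`V 0 = V1`, `V 1 = V2 w` (e.g. `ChartHypInst.Vfam w hdvr`, `ChartHypInst.Pfam w hdvr π _`, both
equations by `rfl`). -/
theorem branch_of_chartHyp (hdvr : IsDiscreteValuationRing (OK A K))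
    (hk : IsAlgClosed (IsLocalRing.ResidueField (OK A K)))
    {π : OK A K} (hπ : Irreducible π)
    (tM : FK M K) (htr : Transcendental (OK A K) tM)
    (hC : ChartFacts M A K (chart M A K tM) tM) (hIg : IgusaAt M A K (chart M A K tM))
    (t : FK N K) (a : FK M K →+* FK N K)
    (ha : ∀ y : FK M K, ((a y : FK N K) : LaurentSeries Qb) = ((y : FK M K) : LaurentSeries Qb))
    (hat : ∀ y ∈ chart M A K tM, a y ∈ chart N A K t)
    (w : FK N K ≃+* FK N K)
    (hw : ∀ c : OK A K, w (algebraMap (OK A K) (FK N K) c) = algebraMap (OK A K) (FK N K) c)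
    (hwt : ∀ x ∈ chart N A K t, w x ∈ chart N A K t)
    (hwt' : ∀ x ∈ chart N A K t, w.symm x ∈ chart N A K t)
    (hB1 : ∀ x ∈ chart N A K t, ∃ y ∈ chart M A K tM,
      GRel A (((x : FK N K) : LaurentSeries Qb) - ((y : FK M K) : LaurentSeries Qb)) 0)
    (V : Fin 2 → ValuationSubring (FK N K)) (hV0 : V 0 = V1 N A K hdvr)
    (hV1 : V 1 = V2 w hdvr)
    (P : Fin 2 → Ideal ↥(chart N A K t))
    (hyp : Fermat.Agent.S34.LocPlan.ChartHyp (R := ↥(chart N A K t)) (E := ↥(FK N K)) π V P) :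
    ∀ n : Ideal ↥(chart N A K t), n.IsMaximal →
      algebraMap (OK A K) ↥(chart N A K t) π ∈ n → ∀ i : Fin 2, P i ≤ n →
      (∃ x ∈ n, x ∉ P i) ∧
        ∃ u ∈ n, ∀ x ∈ n, ∃ s : ↥(chart N A K t), s ∉ n ∧
          ∃ c : ↥(chart N A K t), s * x - c * u ∈ P i :=
  branch hdvr hk hπ tM htr hC hIg t a ha hat w hw hwt hwt' hB1 P
    (fun r => by rw [← hV0]; exact hyp.mem_P 0 r)
    (fun r => by rw [← hV1]; exact hyp.mem_P 1 r)

/-- `branch` with the level-`M` chart `R0 M = chart M (j)` and its inputs discharged from S18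
(`q ∤ M`). -/
theorem branch_R0 (q : ℕ) [Fact q.Prime] (hqM : ¬ q ∣ M) (hA : A.LiesOverPrime q)
    (hB : BaseFacts q A K) (hdvr : IsDiscreteValuationRing (OK A K))
    {π : OK A K} (hπ : Irreducible π)
    (t : FK N K) (a : FK M K →+* FK N K)
    (ha : ∀ y : FK M K, ((a y : FK N K) : LaurentSeries Qb) = ((y : FK M K) : LaurentSeries Qb))
    (hat : ∀ y ∈ R0 M q A K, a y ∈ chart N A K t)
    (w : FK N K ≃+* FK N K)
    (hw : ∀ c : OK A K, w (algebraMap (OK A K) (FK N K) c) = algebraMap (OK A K) (FK N K) c)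
    (hwt : ∀ x ∈ chart N A K t, w x ∈ chart N A K t)
    (hwt' : ∀ x ∈ chart N A K t, w.symm x ∈ chart N A K t)
    (hB1 : ∀ x ∈ chart N A K t, ∃ y ∈ R0 M q A K,
      GRel A (((x : FK N K) : LaurentSeries Qb) - ((y : FK M K) : LaurentSeries Qb)) 0)
    (P : Fin 2 → Ideal ↥(chart N A K t))
    (hP0 : ∀ r : ↥(chart N A K t), r ∈ P 0 ↔
      ∃ y ∈ V1 N A K hdvr, (r : FK N K) = algebraMap (OK A K) (FK N K) π * y)
    (hP1 : ∀ r : ↥(chart N A K t), r ∈ P 1 ↔
      ∃ y ∈ V2 w hdvr, (r : FK N K) = algebraMap (OK A K) (FK N K) π * y) :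
    ∀ n : Ideal ↥(chart N A K t), n.IsMaximal →
      algebraMap (OK A K) ↥(chart N A K t) π ∈ n → ∀ i : Fin 2, P i ≤ n →
      (∃ x ∈ n, x ∉ P i) ∧
        ∃ u ∈ n, ∀ x ∈ n, ∃ s : ↥(chart N A K t), s ∉ n ∧
          ∃ c : ↥(chart N A K t), s * x - c * u ∈ P i := by
  have hM := ModelAll.modelStatement M q hqM A hA K hB
  exact branch hdvr (ResOK.isAlgClosed_residueField_OK q A K hB) hπ (jK M K)
    (ModelFin.transcendental_jK M A K) hM.c0
    (IgusaStmt.igusaStatement M q hqM A hA K hB hM).1 t a ha hat w hw hwt hwt' hB1 P hP0 hP1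

/-- `branch` with the level-`M` chart `Rinf M = chart M (j⁻¹)` and its inputs discharged from
S18 (`q ∤ M`). -/
theorem branch_Rinf (q : ℕ) [Fact q.Prime] (hqM : ¬ q ∣ M) (hA : A.LiesOverPrime q)
    (hB : BaseFacts q A K) (hdvr : IsDiscreteValuationRing (OK A K))
    {π : OK A K} (hπ : Irreducible π)
    (t : FK N K) (a : FK M K →+* FK N K)
    (ha : ∀ y : FK M K, ((a y : FK N K) : LaurentSeries Qb) = ((y : FK M K) : LaurentSeries Qb))
    (hat : ∀ y ∈ Rinf M q A K, a y ∈ chart N A K t)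
    (w : FK N K ≃+* FK N K)
    (hw : ∀ c : OK A K, w (algebraMap (OK A K) (FK N K) c) = algebraMap (OK A K) (FK N K) c)
    (hwt : ∀ x ∈ chart N A K t, w x ∈ chart N A K t)
    (hwt' : ∀ x ∈ chart N A K t, w.symm x ∈ chart N A K t)
    (hB1 : ∀ x ∈ chart N A K t, ∃ y ∈ Rinf M q A K,
      GRel A (((x : FK N K) : LaurentSeries Qb) - ((y : FK M K) : LaurentSeries Qb)) 0)
    (P : Fin 2 → Ideal ↥(chart N A K t))
    (hP0 : ∀ r : ↥(chart N A K t), r ∈ P 0 ↔
      ∃ y ∈ V1 N A K hdvr, (r : FK N K) = algebraMap (OK A K) (FK N K) π * y)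
    (hP1 : ∀ r : ↥(chart N A K t), r ∈ P 1 ↔
      ∃ y ∈ V2 w hdvr, (r : FK N K) = algebraMap (OK A K) (FK N K) π * y) :
    ∀ n : Ideal ↥(chart N A K t), n.IsMaximal →
      algebraMap (OK A K) ↥(chart N A K t) π ∈ n → ∀ i : Fin 2, P i ≤ n →
      (∃ x ∈ n, x ∉ P i) ∧
        ∃ u ∈ n, ∀ x ∈ n, ∃ s : ↥(chart N A K t), s ∉ n ∧
          ∃ c : ↥(chart N A K t), s * x - c * u ∈ P i := by
  have hM := ModelAll.modelStatement M q hqM A hA K hB
  exact branch hdvr (ResOK.isAlgClosed_residueField_OK q A K hB) hπ (jK M K)⁻¹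
    (ModelFin.transcendental_jK_inv M A K) hM.cInf
    (IgusaStmt.igusaStatement M q hqM A hA K hB hM).2 t a ha hat w hw hwt hwt' hB1 P hP0 hP1

end Modular

end Fermat.Agent.S34.BranchInst
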