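import Mathlib
import Fermat.Agent.S18.ArithPlan
import Fermat.Agent.S18.GRel
import Fermat.Agent.S18.ModelRed
import Fermat.Agent.S18.ModelAll
import Fermat.Agent.S18.IgusaStmt
import Fermat.Agent.S18.IgusaPtsChart
import Fermat.Agent.S18.ResOKEquiv
import Fermat.Agent.S18.QExpDefs

/-!
# S34, block [Model2], leaf [BranchZero] : the first branch of the special fibre is regular

`ModelPlan2.ChartModel.branch` for `i = 0`, in hypothesis form, for a chart `chart N A K t` of any
level `N` and any coordinate `t`, relative to a subalgebra `RM` of the function field of a lower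
level `M` (in the application: `N = M q`, `RM = R0 M q A K` or `Rinf M q A K`, `t = J` or `J⁻¹`).

Inputs:
* `hP0`   : `P0` is the kernel of the Gauss reduction on the chart;
* `hincl` : `RM` lies in the chart (stated on the coercions to `ℚ̄((q))`);
* `hB1`   : every element of the chart is congruent modulo the Gauss maximal ideal to an element of
            `RM` (the conclusion of `Branch.exists_level`);
* `hI`    : `IgusaAt M A K RM` (the closed points of the special fibre of `RM` are regular);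
* `hne`   : no maximal ideal of `RM` containing `π` consists of elements with zero reduction.

Output: at every closed point `n ∋ π` of the chart with `P0 ≤ n`: `P0 ≠ n` and `n / P0` is
locally principal, generated by the image of a level-`M` uniformizer.
-/

set_option autoImplicit false
set_option linter.unusedSectionVars false
set_option linter.style.haveILetI false

noncomputable section

namespace Fermat.Agent.S34.BranchZero

open ModularCurve HahnSeries Fermat.Agent.S18 Fermat.Agent.S18.Arith Fermat.Agent.S18.ModelPlan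

/-! ### Abstract algebra -/

section Abstract

variable {R S : Type*} [CommRing R] [CommRing S]

/-- If `R = i(S) + P` and `P ≤ n` with `n` maximal, then `i⁻¹(n)` is maximal. -/
theorem isMaximal_comap (i : S →+* R) (P n : Ideal R) [hn : n.IsMaximal] (hP : P ≤ n)
    (hsurj : ∀ x : R, ∃ y : S, x - i y ∈ P) : (n.comap i).IsMaximal := by
  have hsurj' : Function.Surjective ((Ideal.Quotient.mk n).comp i) := by
    intro z
    obtain ⟨x, rfl⟩ := Ideal.Quotient.mk_surjective z
    obtain ⟨y, hy⟩ := hsurj x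
    refine ⟨y, ?_⟩
    rw [RingHom.comp_apply]
    exact (Ideal.Quotient.eq.mpr (hP hy)).symm
  have h1 : n.comap i = RingHom.ker ((Ideal.Quotient.mk n).comp i) := by
    ext s
    rw [Ideal.mem_comap, RingHom.mem_ker, RingHom.comp_apply, Ideal.Quotient.eq_zero_iff_mem]
  rw [h1]
  let _ : Field (R ⧸ n) := Ideal.Quotient.field n
  exact RingHom.ker_isMaximal_of_surjective _ hsurj'

/-- If `R = i(S) + P`, `i ϖ ∈ P ≤ n` and `i⁻¹(n)` is generated by `ϖ` and `t` locally, then `n`
is generated by `i t` modulo `P`, locally at `n`. -/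
theorem exists_gen (i : S →+* R) (P n : Ideal R) (hP : P ≤ n) (ϖ : S) (hϖ : i ϖ ∈ P)
    (hsurj : ∀ x : R, ∃ y : S, x - i y ∈ P) (t : S)
    (hI : ∀ x ∈ n.comap i, ∃ c : S, c ∉ n.comap i ∧ c * x ∈ Ideal.span {ϖ, t}) :
    ∀ x ∈ n, ∃ s : R, s ∉ n ∧ ∃ c : R, s * x - c * i t ∈ P := by
  intro x hx
  obtain ⟨y, hy⟩ := hsurj x
  have hyn : y ∈ n.comap i := by
    rw [Ideal.mem_comap]
    have : i y = x - (x - i y) := by ring
    rw [this]
    exact n.sub_mem hx (hP hy)
  obtain ⟨c, hc, hcy⟩ := hI y hyn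
  obtain ⟨a, b, hab⟩ := Ideal.mem_span_pair.mp hcy
  refine ⟨i c, fun h => hc (Ideal.mem_comap.mpr h), i b, ?_⟩
  have h2 : i c * i y = i a * i ϖ + i b * i t := by
    rw [← map_mul, ← hab, map_add, map_mul, map_mul]
  have : i c * x - i b * i t = i c * (x - i y) + i a * i ϖ := by
    linear_combination h2
  rw [this]
  exact P.add_mem (P.mul_mem_left _ hy) (P.mul_mem_left _ hϖ)

end Abstract

/-! ### The level map -/

section Level

variable {M N : ℕ} {A : ValuationSubring Qb} {K : IntermediateField ℚ Qb}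

/-- The coercion `RM → ℚ̄((q))` as a ring homomorphism. -/
def toLS (RM : Subalgebra (OK A K) (FK M K)) : RM →+* LaurentSeries Qb :=
  ((FK M K).subtype).comp (RM.val.toRingHom)

theorem toLS_apply (RM : Subalgebra (OK A K) (FK M K)) (y : RM) :
    toLS RM y = (((y : RM) : FK M K) : LaurentSeries Qb) := rfl

/-- The inclusion of a subalgebra `RM` of `F_K(M)` into a chart of level `N` containing it
(both inside `ℚ̄((q))`). -/
def lev (RM : Subalgebra (OK A K) (FK M K)) (t : FK N K)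
    (hincl : ∀ y ∈ RM, ∃ x ∈ chart N A K t,
      ((x : FK N K) : LaurentSeries Qb) = ((y : FK M K) : LaurentSeries Qb)) :
    RM →+* chart N A K t :=
  have hf : ∀ y : RM, ∃ x ∈ chart N A K t, ((x : FK N K) : LaurentSeries Qb) = toLS RM y :=
    fun y => by
      obtain ⟨x, hxc, hx⟩ := hincl y.1 y.2
      exact ⟨x, hxc, hx.trans (toLS_apply RM y).symm⟩
  have h1 : ∀ y : RM, toLS RM y ∈ FK N K := fun y => by
    obtain ⟨x, -, hx⟩ := hf y
    rw [← hx]
    exact x.2
  RingHom.codRestrict (RingHom.codRestrict (toLS RM) (FK N K) h1) (chart N A K t) (fun y => by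
    obtain ⟨x, hxc, hx⟩ := hf y
    have h : RingHom.codRestrict (toLS RM) (FK N K) h1 y = x :=
      Subtype.ext (show toLS RM y = ((x : FK N K) : LaurentSeries Qb) from hx.symm)
    rw [h]
    exact hxc)

theorem coe_lev_toLS (RM : Subalgebra (OK A K) (FK M K)) (t : FK N K)
    (hincl : ∀ y ∈ RM, ∃ x ∈ chart N A K t,
      ((x : FK N K) : LaurentSeries Qb) = ((y : FK M K) : LaurentSeries Qb)) (y : RM) :
    (((lev RM t hincl y : chart N A K t) : FK N K) : LaurentSeries Qb) = toLS RM y := rfl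

theorem coe_lev (RM : Subalgebra (OK A K) (FK M K)) (t : FK N K)
    (hincl : ∀ y ∈ RM, ∃ x ∈ chart N A K t,
      ((x : FK N K) : LaurentSeries Qb) = ((y : FK M K) : LaurentSeries Qb)) (y : RM) :
    (((lev RM t hincl y : chart N A K t) : FK N K) : LaurentSeries Qb) =
      (((y : RM) : FK M K) : LaurentSeries Qb) :=
  (coe_lev_toLS RM t hincl y).trans (toLS_apply RM y)

end Level

/-! ### The first branch at a closed point -/

section Main

variable {M N : ℕ} {A : ValuationSubring Qb} {K : IntermediateField ℚ Qb}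

/-- Coercion of a difference in a chart. -/
theorem coe_sub_chart (t : FK N K) (x y : chart N A K t) :
    (((x - y : chart N A K t) : FK N K) : LaurentSeries Qb) =
      ((x : FK N K) : LaurentSeries Qb) - ((y : FK N K) : LaurentSeries Qb) := rfl

/-- Coercion of a constant of a chart. -/
theorem coe_algebraMap_chart (t : FK N K) (c : OK A K) :
    (((algebraMap (OK A K) (chart N A K t) c : chart N A K t) : FK N K) : LaurentSeries Qb) =
      (C (incO A K c) : LaurentSeries Qb) := rfl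

/-- Coercion of a constant of a subalgebra of `F_K(M)`. -/
theorem toLS_algebraMap (RM : Subalgebra (OK A K) (FK M K)) (c : OK A K) :
    toLS RM (algebraMap (OK A K) RM c) = (C (incO A K c) : LaurentSeries Qb) := rfl

theorem hsurj_aux (RM : Subalgebra (OK A K) (FK M K))
    (t : FK N K) (P0 : Ideal (chart N A K t))
    (hP0 : ∀ r : chart N A K t, r ∈ P0 ↔ GRel A ((r : FK N K) : LaurentSeries Qb) 0)
    (hincl : ∀ y ∈ RM, ∃ x ∈ chart N A K t,
      ((x : FK N K) : LaurentSeries Qb) = ((y : FK M K) : LaurentSeries Qb))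
    (hB1 : ∀ x ∈ chart N A K t, ∃ x' ∈ RM,
      GRel A (((x : FK N K) : LaurentSeries Qb) - ((x' : FK M K) : LaurentSeries Qb)) 0) :
    ∀ x : chart N A K t, ∃ y : RM, x - lev RM t hincl y ∈ P0 := by
  intro x
  obtain ⟨x', hx', h⟩ := hB1 x.1 x.2
  refine ⟨⟨x', hx'⟩, ?_⟩
  rw [hP0, coe_sub_chart, coe_lev]
  exact h

theorem hipi_aux (π : OK A K) (RM : Subalgebra (OK A K) (FK M K))
    (t : FK N K) (P0 : Ideal (chart N A K t))
    (hP0 : ∀ r : chart N A K t, r ∈ P0 ↔ GRel A ((r : FK N K) : LaurentSeries Qb) 0)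
    (hπP0 : algebraMap (OK A K) (chart N A K t) π ∈ P0)
    (hincl : ∀ y ∈ RM, ∃ x ∈ chart N A K t,
      ((x : FK N K) : LaurentSeries Qb) = ((y : FK M K) : LaurentSeries Qb)) :
    lev RM t hincl (algebraMap (OK A K) RM π) ∈ P0 := by
  have h1 := (hP0 _).mp hπP0
  rw [coe_algebraMap_chart] at h1
  rw [hP0, coe_lev_toLS, toLS_algebraMap]
  exact h1

/-- **[BranchZero], with the level-`M` uniformizer exported.**  At a closed point `n ∋ π` of the
chart with `P0 ≤ n`, the ideal `n` is generated modulo `P0`, locally at `n`, by the image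
`lev tM` of an element `tM ∈ RM` (a uniformizer of the level-`M` special fibre at the point
below `n`). -/
theorem exists_gen_lev (π : OK A K) (hπ : Irreducible π) (RM : Subalgebra (OK A K) (FK M K))
    (t : FK N K) (P0 : Ideal (chart N A K t))
    (hP0 : ∀ r : chart N A K t, r ∈ P0 ↔ GRel A ((r : FK N K) : LaurentSeries Qb) 0)
    (hπP0 : algebraMap (OK A K) (chart N A K t) π ∈ P0)
    (hincl : ∀ y ∈ RM, ∃ x ∈ chart N A K t,
      ((x : FK N K) : LaurentSeries Qb) = ((y : FK M K) : LaurentSeries Qb))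
    (hB1 : ∀ x ∈ chart N A K t, ∃ x' ∈ RM,
      GRel A (((x : FK N K) : LaurentSeries Qb) - ((x' : FK M K) : LaurentSeries Qb)) 0)
    (hI : IgusaAt M A K RM)
    (n : Ideal (chart N A K t)) (hn : n.IsMaximal)
    (_hπn : algebraMap (OK A K) (chart N A K t) π ∈ n) (hPn : P0 ≤ n) :
    (n.comap (lev RM t hincl)).IsMaximal ∧
    algebraMap (OK A K) RM π ∈ n.comap (lev RM t hincl) ∧
    ∃ tM : RM, lev RM t hincl tM ∈ n ∧ ∀ x ∈ n, ∃ s : chart N A K t, s ∉ n ∧
      ∃ c : chart N A K t, s * x - c * lev RM t hincl tM ∈ P0 := by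
  have hsurj := hsurj_aux RM t P0 hP0 hincl hB1
  have hiπ := hipi_aux π RM t P0 hP0 hπP0 hincl
  have hmax : (n.comap (lev RM t hincl)).IsMaximal :=
    isMaximal_comap (lev RM t hincl) P0 n hPn hsurj
  have hπnM : algebraMap (OK A K) RM π ∈ n.comap (lev RM t hincl) :=
    Ideal.mem_comap.mpr (hPn hiπ)
  refine ⟨hmax, hπnM, ?_⟩
  obtain ⟨tM, htM, hIg⟩ := hI π hπ _ hmax hπnM
  exact ⟨tM, Ideal.mem_comap.mp htM,
    exists_gen (lev RM t hincl) P0 n hPn _ hiπ hsurj tM hIg⟩

/-- **[BranchZero]** = `ModelPlan2.ChartModel.branch` for `i = 0`, hypothesis form. -/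
theorem branch_zero (π : OK A K) (hπ : Irreducible π) (RM : Subalgebra (OK A K) (FK M K))
    (t : FK N K) (P0 : Ideal (chart N A K t))
    (hP0 : ∀ r : chart N A K t, r ∈ P0 ↔ GRel A ((r : FK N K) : LaurentSeries Qb) 0)
    (hπP0 : algebraMap (OK A K) (chart N A K t) π ∈ P0)
    (hincl : ∀ y ∈ RM, ∃ x ∈ chart N A K t,
      ((x : FK N K) : LaurentSeries Qb) = ((y : FK M K) : LaurentSeries Qb))
    (hB1 : ∀ x ∈ chart N A K t, ∃ x' ∈ RM,
      GRel A (((x : FK N K) : LaurentSeries Qb) - ((x' : FK M K) : LaurentSeries Qb)) 0)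
    (hI : IgusaAt M A K RM)
    (hne : ∀ nM : Ideal RM, nM.IsMaximal → algebraMap (OK A K) RM π ∈ nM →
      ∃ y ∈ nM, ¬ GRel A (((y : RM) : FK M K) : LaurentSeries Qb) 0) :
    ∀ n : Ideal (chart N A K t), n.IsMaximal → algebraMap (OK A K) (chart N A K t) π ∈ n →
      P0 ≤ n →
      (∃ x ∈ n, x ∉ P0) ∧
        ∃ u ∈ n, ∀ x ∈ n, ∃ s : chart N A K t, s ∉ n ∧ ∃ c : chart N A K t, s * x - c * u ∈ P0 := by
  intro n hn hπn hPn
  obtain ⟨hmax, hπnM, tM, htM, hgen⟩ :=
    exists_gen_lev π hπ RM t P0 hP0 hπP0 hincl hB1 hI n hn hπn hPn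
  refine ⟨?_, lev RM t hincl tM, htM, hgen⟩
  obtain ⟨y, hy, hyG⟩ := hne _ hmax hπnM
  refine ⟨lev RM t hincl y, Ideal.mem_comap.mp hy, fun h => hyG ?_⟩
  have h1 := (hP0 _).mp h
  rwa [coe_lev] at h1

end Main

/-! ### Level `M` : the special fibre of a chart is not a point -/

section LevelM

variable (M : ℕ) [NeZero M] (q : ℕ) [Fact q.Prime] {A : ValuationSubring Qb}
  {K : IntermediateField ℚ Qb}

/-- `j̄ ≠ 0`. -/
theorem jbar_ne_zero : jqModC (IsLocalRing.ResidueField A) ≠ 0 := by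
  intro h
  have h1 : QExpDefs.evbar A (⊥ : IntermediateField ℚ Qb) Polynomial.X = 0 := by
    rw [QExpDefs.evbar_apply, Polynomial.eval₂_X, h]
  have h2 := (QExpDefs.evbar_eq_zero_iff A _ _).mp h1
  rw [Polynomial.map_X] at h2
  exact Polynomial.X_ne_zero h2

/-- `j̄` is not a constant. -/
theorem jbar_sub_const_ne_zero (c : OK A K) :
    jqModC (IsLocalRing.ResidueField A) - QExpDefs.ιbar A K c ≠ 0 := by
  intro h
  have h1 : QExpDefs.evbar A K (Polynomial.X - Polynomial.C c) = 0 := by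
    rw [QExpDefs.evbar_apply, Polynomial.eval₂_sub, Polynomial.eval₂_X, Polynomial.eval₂_C]
    exact h
  have h2 := (QExpDefs.evbar_eq_zero_iff A K _).mp h1
  rw [Polynomial.map_sub, Polynomial.map_X, Polynomial.map_C] at h2
  exact Polynomial.X_sub_C_ne_zero _ h2

/-- `j̄⁻¹` is not a constant. -/
theorem jbar_inv_sub_const_ne_zero (c : OK A K) :
    (jqModC (IsLocalRing.ResidueField A))⁻¹ - QExpDefs.ιbar A K c ≠ 0 := by
  intro h
  have hj := jbar_ne_zero (A := A)
  have h0 : QExpDefs.ιbar A K c * jqModC (IsLocalRing.ResidueField A) - 1 = 0 := by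
    have : QExpDefs.ιbar A K c = (jqModC (IsLocalRing.ResidueField A))⁻¹ :=
      (sub_eq_zero.mp h).symm
    rw [this, inv_mul_cancel₀ hj, sub_self]
  have h1 : QExpDefs.evbar A K (Polynomial.C c * Polynomial.X - 1) = 0 := by
    rw [QExpDefs.evbar_apply, Polynomial.eval₂_sub, Polynomial.eval₂_mul, Polynomial.eval₂_X,
      Polynomial.eval₂_C, Polynomial.eval₂_one]
    exact h0
  have h2 := (QExpDefs.evbar_eq_zero_iff A K _).mp h1
  have h3 := congrArg (Polynomial.eval 0) h2
  simp at h3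

/-- Every maximal ideal `nM ∋ π` of the level-`M` chart `R0` contains an element with nonzero
Gauss reduction (namely `j - c`). -/
theorem exists_not_gRel_R0 (hB : BaseFacts q A K) (π : OK A K) (hπ : Irreducible π)
    (nM : Ideal (R0 M q A K)) (hn : nM.IsMaximal)
    (hπn : algebraMap (OK A K) (R0 M q A K) π ∈ nM) :
    ∃ y ∈ nM, ¬ GRel A (((y : R0 M q A K) : FK M K) : LaurentSeries Qb) 0 := by
  have hG := GRel.gRelStatement A
  haveI := hB.dvr
  haveI := ResOK.isAlgClosed_residueField_OK q A K hB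
  obtain ⟨c, hc⟩ := IgusaPtsChart.exists_coord_sub_mem M A K (jK M K) π hπ nM hn hπn
  refine ⟨_, hc, fun h => ?_⟩
  have h1 : GRel A (QExpDefs.jΩ - QExpDefs.ι A K c)
      (jqModC (IsLocalRing.ResidueField A) - QExpDefs.ιbar A K c) := by
    have := hG.add _ _ _ _ (QExpDefs.gRel_jΩ hG) (hG.neg _ _ (QExpDefs.gRel_ι hG c))
    rwa [← sub_eq_add_neg, ← sub_eq_add_neg] at this
  exact jbar_sub_const_ne_zero c (hG.unique _ _ _ h1 h)

/-- Every maximal ideal `nM ∋ π` of the level-`M` chart `Rinf` contains an element with nonzero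
Gauss reduction (namely `j⁻¹ - c`). -/
theorem exists_not_gRel_Rinf (hB : BaseFacts q A K) (π : OK A K) (hπ : Irreducible π)
    (nM : Ideal (Rinf M q A K)) (hn : nM.IsMaximal)
    (hπn : algebraMap (OK A K) (Rinf M q A K) π ∈ nM) :
    ∃ y ∈ nM, ¬ GRel A (((y : Rinf M q A K) : FK M K) : LaurentSeries Qb) 0 := by
  have hG := GRel.gRelStatement A
  haveI := hB.dvr
  haveI := ResOK.isAlgClosed_residueField_OK q A K hB
  obtain ⟨c, hc⟩ := IgusaPtsChart.exists_coord_sub_mem M A K (jK M K)⁻¹ π hπ nM hn hπn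
  refine ⟨_, hc, fun h => ?_⟩
  have h1 : GRel A (QExpDefs.jΩ⁻¹ - QExpDefs.ι A K c)
      ((jqModC (IsLocalRing.ResidueField A))⁻¹ - QExpDefs.ιbar A K c) := by
    have := hG.add _ _ _ _ (hG.inv _ _ (QExpDefs.gRel_jΩ hG) jbar_ne_zero)
      (hG.neg _ _ (QExpDefs.gRel_ι hG c))
    rwa [← sub_eq_add_neg, ← sub_eq_add_neg] at this
  exact jbar_inv_sub_const_ne_zero c (hG.unique _ _ _ h1 h)

variable {M}

/-- **[BranchZero] over the level-`M` chart `R0`** (`q ∤ M`): the only remaining inputs are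
`hP0`, `hπP0`, `hincl` and (B1). -/
theorem branch_zero_R0 (hqM : ¬ q ∣ M) (hA : A.LiesOverPrime q) (hB : BaseFacts q A K)
    (π : OK A K) (hπ : Irreducible π) {N : ℕ} (t : FK N K) (P0 : Ideal (chart N A K t))
    (hP0 : ∀ r : chart N A K t, r ∈ P0 ↔ GRel A ((r : FK N K) : LaurentSeries Qb) 0)
    (hπP0 : algebraMap (OK A K) (chart N A K t) π ∈ P0)
    (hincl : ∀ y ∈ R0 M q A K, ∃ x ∈ chart N A K t,
      ((x : FK N K) : LaurentSeries Qb) = ((y : FK M K) : LaurentSeries Qb))
    (hB1 : ∀ x ∈ chart N A K t, ∃ x' ∈ R0 M q A K,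
      GRel A (((x : FK N K) : LaurentSeries Qb) - ((x' : FK M K) : LaurentSeries Qb)) 0) :
    ∀ n : Ideal (chart N A K t), n.IsMaximal → algebraMap (OK A K) (chart N A K t) π ∈ n →
      P0 ≤ n →
      (∃ x ∈ n, x ∉ P0) ∧
        ∃ u ∈ n, ∀ x ∈ n, ∃ s : chart N A K t, s ∉ n ∧ ∃ c : chart N A K t, s * x - c * u ∈ P0 :=
  branch_zero π hπ (R0 M q A K) t P0 hP0 hπP0 hincl hB1
    (IgusaStmt.igusaStatement M q hqM A hA K hB (ModelAll.modelStatement M q hqM A hA K hB)).1
    (exists_not_gRel_R0 M q hB π hπ)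

/-- **[BranchZero] over the level-`M` chart `Rinf`** (`q ∤ M`). -/
theorem branch_zero_Rinf (hqM : ¬ q ∣ M) (hA : A.LiesOverPrime q) (hB : BaseFacts q A K)
    (π : OK A K) (hπ : Irreducible π) {N : ℕ} (t : FK N K) (P0 : Ideal (chart N A K t))
    (hP0 : ∀ r : chart N A K t, r ∈ P0 ↔ GRel A ((r : FK N K) : LaurentSeries Qb) 0)
    (hπP0 : algebraMap (OK A K) (chart N A K t) π ∈ P0)
    (hincl : ∀ y ∈ Rinf M q A K, ∃ x ∈ chart N A K t,
      ((x : FK N K) : LaurentSeries Qb) = ((y : FK M K) : LaurentSeries Qb))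
    (hB1 : ∀ x ∈ chart N A K t, ∃ x' ∈ Rinf M q A K,
      GRel A (((x : FK N K) : LaurentSeries Qb) - ((x' : FK M K) : LaurentSeries Qb)) 0) :
    ∀ n : Ideal (chart N A K t), n.IsMaximal → algebraMap (OK A K) (chart N A K t) π ∈ n →
      P0 ≤ n →
      (∃ x ∈ n, x ∉ P0) ∧
        ∃ u ∈ n, ∀ x ∈ n, ∃ s : chart N A K t, s ∉ n ∧ ∃ c : chart N A K t, s * x - c * u ∈ P0 :=
  branch_zero π hπ (Rinf M q A K) t P0 hP0 hπP0 hincl hB1
    (IgusaStmt.igusaStatement M q hqM A hA K hB (ModelAll.modelStatement M q hqM A hA K hB)).2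
    (exists_not_gRel_Rinf M q hB π hπ)

end LevelM

end Fermat.Agent.S34.BranchZero
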