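import Fermat.Agent.S34.Cech2Plan
import Fermat.Agent.S18.CechRoot

/-!
# S34, block [Cech-bis] : leaf [Cech2-c+d] (`LeafH`)

Adapter from the abstract lifting induction `S18.CechRoot.exists_common_root` to the
`Cech2Plan` setting: two local sections `a ∈ L(R0)`, `b ∈ L(Rinf)` which are `≡ 1` modulo `π V`
can be corrected to a common section `h ∈ L(R0) ∩ L(Rinf)` with `h ≡ a` modulo `π L(R0)`.
-/

set_option autoImplicit false

namespace Fermat.Agent.S34.Cech2Glue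

open Fermat.Agent.S34.Cech2Plan

variable {O : Type*} [CommRing O] [IsDomain O] [IsDiscreteValuationRing O]
  {E : Type*} [Field E] [Algebra O E]

section Aux

variable (S : Setting O E)

theorem pi_ne_zero : algebraMap O E S.π ≠ 0 := by
  intro h
  exact S.irr.ne_zero (S.inj (by rw [h, map_zero]))

/-- The middle chart as a subring of `E`. -/
def rmSubring (hR : S.LeafR) : Subring E where
  carrier := S.Rm
  mul_mem' := fun {x y} hx hy => hR.mul_mem x hx y hy
  one_mem' := hR.of_R0 1 S.R0.one_mem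
  add_mem' := fun {x y} hx hy => hR.add_mem x hx y hy
  zero_mem' := hR.of_R0 0 S.R0.zero_mem
  neg_mem' := fun {x} hx => hR.neg_mem x hx

/-- `L(R0)` as an additive subgroup of `E`. -/
def l0 (hL : S.LeafL) : AddSubgroup E where
  carrier := S.L S.R0
  add_mem' := fun {x y} hx hy => hL.add0 x hx y hy
  zero_mem' := hL.zero0
  neg_mem' := fun {x} hx => by
    have := hL.smul0 (-1) (S.R0.neg_mem S.R0.one_mem) x hx
    rwa [neg_one_mul] at this

/-- `L(Rinf)` as an additive subgroup of `E`. -/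
def lInf (hL : S.LeafL) : AddSubgroup E where
  carrier := S.L S.Rinf
  add_mem' := fun {x y} hx hy => hL.addInf x hx y hy
  zero_mem' := hL.zeroInf
  neg_mem' := fun {x} hx => by
    have := hL.smulInf (-1) (S.Rinf.neg_mem S.Rinf.one_mem) x hx
    rwa [neg_one_mul] at this

/-- `L(Rm)` as an additive subgroup of `E`. -/
def lM (hR : S.LeafR) (hL : S.LeafL) : AddSubgroup E where
  carrier := S.L S.Rm
  add_mem' := fun {x y} hx hy => hL.addM x hx y hy
  zero_mem' := hL.zeroM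
  neg_mem' := fun {x} hx => by
    have := hL.smulM (-1) (hR.neg_mem 1 (hR.of_R0 1 S.R0.one_mem)) x hx
    rwa [neg_one_mul] at this

/-- If `a ∈ V` and `a ≡ 1` modulo `π V` then `w a^m ≡ 1` modulo `π V`. -/
theorem piDvd_V_w_mul_pow_sub_one {a : E} (haV : a ∈ S.V) (ha1 : S.PiDvd S.V (a - 1)) :
    S.PiDvd S.V (S.w * a ^ S.m - 1) := by
  obtain ⟨z, hz, haz⟩ := ha1
  obtain ⟨zw, hzw, hwz⟩ := S.hw
  refine ⟨zw * a ^ S.m + z * ∑ i ∈ Finset.range S.m, a ^ i,
    S.V.add_mem (S.V.mul_mem hzw (S.V.pow_mem haV _))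
      (S.V.mul_mem hz (S.V.sum_mem fun i _ => S.V.pow_mem haV i)), ?_⟩
  have h1 : a ^ S.m - 1 = (∑ i ∈ Finset.range S.m, a ^ i) * (a - 1) := (geom_sum_mul a S.m).symm
  have h2 : S.w * a ^ S.m - 1 = (S.w - 1) * a ^ S.m + (a ^ S.m - 1) := by ring
  rw [h2, h1, hwz, haz]
  ring

end Aux

/-- **[Cech2-c+d]** -/
theorem leafH (S : Setting O E) (hR : S.LeafR) (hL : S.LeafL) (hB : S.LeafB)
    (hD : S.LeafD) : S.LeafH := by
  intro a ha b hb ha1 hb1
  have haM : a ∈ S.L S.Rm := hL.of_L0 _ ha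
  have hbM : b ∈ S.L S.Rm := hL.of_LInf _ hb
  -- the inverse of `m`
  obtain ⟨u, hu⟩ := S.hm
  have hμ : (S.m : E) * algebraMap O E ((u⁻¹ : Oˣ) : O) = 1 := by
    rw [← map_natCast (algebraMap O E) S.m, ← hu, ← map_mul, Units.mul_inv, map_one]
  -- `a ≡ b`
  have hab : ∃ x ∈ lM S hR hL, a - b = algebraMap O E S.π * x := by
    obtain ⟨z1, hz1, h1⟩ := ha1
    obtain ⟨z2, hz2, h2⟩ := hb1
    have h3 : a - b ∈ S.L S.Rm := (lM S hR hL).sub_mem haM hbM
    obtain ⟨z, hz, h4⟩ := hL.descM (a - b) h3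
      ⟨z1 - z2, S.V.sub_mem hz1 hz2, by linear_combination h1 - h2⟩
    exact ⟨z, hz, h4⟩
  -- `w a^m ≡ 1` in `R0`
  have hwa : ∃ α ∈ S.R0.toSubring, S.w * a ^ S.m = 1 + algebraMap O E S.π * α := by
    have h1 : S.w * a ^ S.m - 1 ∈ S.R0 := S.R0.sub_mem ha S.R0.one_mem
    obtain ⟨α, hα, h2⟩ := piDvd_V_w_mul_pow_sub_one S (hL.subV a haM) ha1
    refine ⟨α, S.desc0 α hα ?_, by linear_combination h2⟩
    rw [← h2]
    exact h1
  have hwb : ∃ β ∈ S.Rinf.toSubring, S.w * b ^ S.m = 1 + algebraMap O E S.π * β := by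
    have h1 : S.w * b ^ S.m - 1 ∈ S.Rinf := S.Rinf.sub_mem hb S.Rinf.one_mem
    obtain ⟨β, hβ, h2⟩ := piDvd_V_w_mul_pow_sub_one S (hL.subV b hbM) hb1
    refine ⟨β, S.descInf β hβ ?_, by linear_combination h2⟩
    rw [← h2]
    exact h1
  obtain ⟨h, hh0, hhi, l, hl, hhl⟩ := Fermat.Agent.S18.CechRoot.exists_common_root
    (algebraMap O E S.π)
    (fun x hx => (mul_eq_zero.mp hx).resolve_left (pi_ne_zero S)) S.m
    S.R0.toSubring S.Rinf.toSubring (rmSubring S hR)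
    (fun x hx => hR.of_R0 x hx) (fun x hx => hR.of_Rinf x hx)
    (S.R0.algebraMap_mem S.π) (S.Rinf.algebraMap_mem S.π)
    (algebraMap O E ((u⁻¹ : Oˣ) : O)) (S.R0.algebraMap_mem _) (S.Rinf.algebraMap_mem _) hμ
    S.w (l0 S hL) (lInf S hL) (lM S hR hL)
    (fun x hx => hL.of_L0 _ hx)
    (fun r hr x hx => hL.smul0 r hr x hx) (fun r hr x hx => hL.smulInf r hr x hx)
    (fun r hr x hx => hL.smulM r hr x hx)
    (fun x hx y hy i hi => by
      have h1 := hL.mixedM x hx y hy i hi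
      rw [← mul_assoc] at h1
      exact h1)
    a b (fun x hx => hB a haM ha1 x hx) ha hb hab hwa hwb
    (fun x hx hn => hD x hx hn)
  exact ⟨h, hh0, hhi, l, hl, hhl⟩

end Fermat.Agent.S34.Cech2Glue
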