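import Fermat.Agent.S34.Cech2Start
import Fermat.Agent.S34.Cech2Glue

/-!
# S34, block [Cech-bis] : assembly of the conclusion from the leaves
-/

set_option autoImplicit false

namespace Fermat.Agent.S34.Cech2Asm

open Fermat.Agent.S34.Cech2Plan

variable {O : Type*} [CommRing O] [IsDomain O] [IsDiscreteValuationRing O]
  {E : Type*} [Field E] [Algebra O E] (S : Setting O E)

/-- A common section `h ≡ a ≡ 1` is nonzero, and `w h^m` is a global section. -/
theorem conclusion_of_leaves (hL : S.LeafL) (hA : S.LeafA) (hH : S.LeafH) :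
    S.Conclusion := by
  obtain ⟨⟨a, ha, z, hz, haz⟩, ⟨b, hb, hb1⟩⟩ := hA
  obtain ⟨h, hh0, hhInf, l, hl, hhl⟩ := hH a ha b hb ⟨z, hz, haz⟩ hb1
  have hlV : l ∈ S.V := hL.subV l (hL.of_L0 l hl)
  have h1 : S.PiDvd S.V (h - 1) :=
    ⟨l + z, S.V.add_mem hlV hz, by linear_combination hhl + haz⟩
  refine ⟨h, ?_, hh0, hhInf, h1⟩
  rintro rfl
  obtain ⟨z', hz', e⟩ := h1
  exact S.one_not (-z') (S.V.neg_mem hz') (by linear_combination -e)

/-- Block [Cech-bis] from the ring/module leaves [R], [L] and the finiteness leaf [D]. -/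
theorem conclusion_of_RLD (hR : S.LeafR) (hL : S.LeafL) (hD : S.LeafD) : S.Conclusion :=
  conclusion_of_leaves S hL (Cech2Start.leafA S hL)
    (Cech2Glue.leafH S hR hL (Cech2Start.leafB S hR hL) hD)

end Fermat.Agent.S34.Cech2Asm
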