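import Fermat.Agent.S34.Cech2Plan

/-!
# S34, block [Cech-bis], leaves [Cech2-a] and [Cech2-b]

* `leafA` : each chart carries a section of `L` which is `≡ 1` modulo `π V`
  (ideal trick with (Loc-bis); no normality of the special fibre is used);
* `leafB` : `Lm = Rm · a + π Lm` for every `a ∈ Lm` with `a ≡ 1`
  (every section of `L(R0)` is congruent modulo `π V` to an element of `R0`, again by (Loc-bis);
  sections over the middle chart are reduced to `R0` by clearing a power of `j`).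
-/

set_option autoImplicit false

namespace Fermat.Agent.S34.Cech2Start

open Fermat.Agent.S34.Cech2Plan

variable {O : Type*} [CommRing O] [IsDomain O] [IsDiscreteValuationRing O]
  {E : Type*} [Field E] [Algebra O E] (S : Setting O E)

theorem m_pos : 0 < S.m := by
  rcases Nat.eq_zero_or_pos S.m with h | h
  · have := S.hm
    rw [h, Nat.cast_zero] at this
    exact absurd this not_isUnit_zero
  · exact h

theorem pi_ne_zero : algebraMap O E S.π ≠ 0 := by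
  intro h
  exact S.irr.ne_zero (S.inj (by rw [h, map_zero]))

theorem pi_mem_V : algebraMap O E S.π ∈ S.V := S.R0_le _ (S.R0.algebraMap_mem S.π)

/-- `∑_{i<n} x^i y^(n-1-i) ∈ V`. -/
theorem geom₂_mem_V {x y : E} (hx : x ∈ S.V) (hy : y ∈ S.V) (n : ℕ) :
    ∑ i ∈ Finset.range n, x ^ i * y ^ (n - 1 - i) ∈ S.V :=
  S.V.sum_mem fun _ _ => S.V.mul_mem (S.V.pow_mem hx _) (S.V.pow_mem hy _)

/-- If `g ≡ r` modulo `π V` (`r ∈ V`) then `w g^m ≡ r^m` modulo `π V`. -/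
theorem piDvd_w_mul_pow_sub {g r : E} (hr : r ∈ S.V) (hgr : S.PiDvd S.V (g - r)) :
    S.PiDvd S.V (S.w * g ^ S.m - r ^ S.m) := by
  obtain ⟨z, hz, e⟩ := hgr
  obtain ⟨zw, hzw, ew⟩ := S.hw
  have hg : g ∈ S.V := by
    have : g = r + algebraMap O E S.π * z := by linear_combination e
    rw [this]
    exact S.V.add_mem hr (S.V.mul_mem (pi_mem_V S) hz)
  refine ⟨zw * g ^ S.m + z * ∑ i ∈ Finset.range S.m, g ^ i * r ^ (S.m - 1 - i),
    S.V.add_mem (S.V.mul_mem hzw (S.V.pow_mem hg _))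
      (S.V.mul_mem hz (geom₂_mem_V S hg hr _)), ?_⟩
  have h1 : g ^ S.m - r ^ S.m = (∑ i ∈ Finset.range S.m, g ^ i * r ^ (S.m - 1 - i)) * (g - r) :=
    (Commute.all g r).geom_sum₂_mul S.m |>.symm
  have h2 : S.w * g ^ S.m - r ^ S.m = (S.w - 1) * g ^ S.m + (g ^ S.m - r ^ S.m) := by ring
  rw [h2, h1, ew, e]
  ring

/-- A local section `g ≡ r` (`r ∈ R ∖ n`) has `w g^m ∉ n`. -/
theorem w_mul_pow_not_mem (R : Subalgebra O E) (hRV : ∀ x ∈ R, x ∈ S.V)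
    (desc : ∀ z ∈ S.V, algebraMap O E S.π * z ∈ R → z ∈ R)
    (n : Ideal R) (hn : n.IsMaximal) (hπn : algebraMap O R S.π ∈ n)
    {g : E} (hg : S.w * g ^ S.m ∈ R) (r : R) (hrn : r ∉ n)
    (hgr : S.PiDvd S.V (g - (r : E))) : (⟨S.w * g ^ S.m, hg⟩ : R) ∉ n := by
  intro hu
  obtain ⟨Z, hZ, eZ⟩ := piDvd_w_mul_pow_sub S (hRV _ r.2) hgr
  have hmem : algebraMap O E S.π * Z ∈ R := by
    rw [← eZ]
    exact R.sub_mem hg (R.pow_mem r.2 _)
  have hZR : Z ∈ R := desc Z hZ hmem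
  have h1 : (⟨S.w * g ^ S.m, hg⟩ : R) - r ^ S.m = algebraMap O R S.π * ⟨Z, hZR⟩ :=
    Subtype.ext eZ
  have h2 : r ^ S.m ∈ n := by
    have h3 : r ^ S.m = (⟨S.w * g ^ S.m, hg⟩ : R) - algebraMap O R S.π * ⟨Z, hZR⟩ := by
      rw [← h1]; ring
    rw [h3]
    exact n.sub_mem hu (n.mul_mem_right _ hπn)
  exact hrn (hn.isPrime.mem_of_pow_mem _ h2)

/-- One chart of [Cech2-a]. -/
theorem exists_one (R : Subalgebra O E) (hRV : ∀ x ∈ R, x ∈ S.V)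
    (zero : (0 : E) ∈ S.L R)
    (add : ∀ x ∈ S.L R, ∀ y ∈ S.L R, x + y ∈ S.L R)
    (smul : ∀ r ∈ R, ∀ y ∈ S.L R, r * y ∈ S.L R)
    (loc : ∀ n : Ideal R, n.IsMaximal → algebraMap O R S.π ∈ n →
      ∃ g : E, S.w * g ^ S.m ∈ R ∧ ∃ r : R, r ∉ n ∧
        ∃ z ∈ S.V, g - (r : E) = algebraMap O E S.π * z) :
    ∃ a ∈ S.L R, S.PiDvd S.V (a - 1) := by
  -- the ideal of `R` of elements congruent to a section of `L R`
  let I : Ideal R :=
    { carrier := {r : R | ∃ l ∈ S.L (R : Set E), S.PiDvd S.V (l - (r : E))}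
      add_mem' := by
        rintro r₁ r₂ ⟨l₁, hl₁, z₁, hz₁, e₁⟩ ⟨l₂, hl₂, z₂, hz₂, e₂⟩
        refine ⟨l₁ + l₂, add _ hl₁ _ hl₂, z₁ + z₂, S.V.add_mem hz₁ hz₂, ?_⟩
        push_cast
        linear_combination e₁ + e₂
      zero_mem' := ⟨0, zero, 0, S.V.zero_mem, by simp⟩
      smul_mem' := by
        rintro c r ⟨l, hl, z, hz, e⟩
        refine ⟨(c : E) * l, smul _ c.2 _ hl, (c : E) * z, S.V.mul_mem (hRV _ c.2) hz, ?_⟩
        simp only [smul_eq_mul, MulMemClass.coe_mul]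
        linear_combination (c : E) * e }
  have hI : ∀ r : R, r ∈ I ↔ ∃ l ∈ S.L (R : Set E), S.PiDvd S.V (l - (r : E)) := fun _ => Iff.rfl
  have hπI : algebraMap O R S.π ∈ I := by
    rw [hI]
    refine ⟨0, zero, -1, S.V.neg_mem S.V.one_mem, ?_⟩
    have : ((algebraMap O R S.π : R) : E) = algebraMap O E S.π := rfl
    rw [this]; ring
  have htop : I = ⊤ := by
    by_contra hne
    obtain ⟨n, hn, hIn⟩ := Ideal.exists_le_maximal I hne
    obtain ⟨g, hg, r, hrn, z, hz, e⟩ := loc n hn (hIn hπI)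
    exact hrn (hIn ((hI r).2 ⟨g, hg, z, hz, e⟩))
  have h1 : (1 : R) ∈ I := by rw [htop]; trivial
  obtain ⟨l, hl, hl1⟩ := (hI 1).1 h1
  exact ⟨l, hl, by simpa using hl1⟩

/-- **[Cech2-a]** -/
theorem leafA (hL : S.LeafL) : S.LeafA :=
  ⟨exists_one S S.R0 S.R0_le hL.zero0 hL.add0 hL.smul0 S.loc0,
    exists_one S S.Rinf S.Rinf_le hL.zeroInf hL.addInf hL.smulInf S.locInf⟩

/-- One chart of the congruence behind [Cech2-b]: every section of `L R` is congruent modulo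
`π V` to an element of `R`. -/
theorem exists_congr (R : Subalgebra O E) (hRV : ∀ x ∈ R, x ∈ S.V)
    (desc : ∀ z ∈ S.V, algebraMap O E S.π * z ∈ R → z ∈ R)
    (subV : ∀ y ∈ S.L R, y ∈ S.V)
    (mixed : ∀ x ∈ S.L R, ∀ y ∈ S.L R, ∀ i ≤ S.m, S.w * (x ^ i * y ^ (S.m - i)) ∈ R)
    (loc : ∀ n : Ideal R, n.IsMaximal → algebraMap O R S.π ∈ n →
      ∃ g : E, S.w * g ^ S.m ∈ R ∧ ∃ r : R, r ∉ n ∧
        ∃ z ∈ S.V, g - (r : E) = algebraMap O E S.π * z)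
    {y : E} (hy : y ∈ S.L R) : ∃ c ∈ R, S.PiDvd S.V (y - c) := by
  have hmpos := m_pos S
  have hyV : y ∈ S.V := subV y hy
  let J : Ideal R :=
    { carrier := {r : R | ∃ c ∈ R, S.PiDvd S.V ((r : E) * y - c)}
      add_mem' := by
        rintro r₁ r₂ ⟨c₁, hc₁, z₁, hz₁, e₁⟩ ⟨c₂, hc₂, z₂, hz₂, e₂⟩
        refine ⟨c₁ + c₂, R.add_mem hc₁ hc₂, z₁ + z₂, S.V.add_mem hz₁ hz₂, ?_⟩
        push_cast
        linear_combination e₁ + e₂
      zero_mem' := ⟨0, R.zero_mem, 0, S.V.zero_mem, by simp⟩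
      smul_mem' := by
        rintro c r ⟨c₁, hc₁, z, hz, e⟩
        refine ⟨(c : E) * c₁, R.mul_mem c.2 hc₁, (c : E) * z, S.V.mul_mem (hRV _ c.2) hz, ?_⟩
        simp only [smul_eq_mul, MulMemClass.coe_mul]
        linear_combination (c : E) * e }
  have hJ : ∀ r : R, r ∈ J ↔ ∃ c ∈ R, S.PiDvd S.V ((r : E) * y - c) := fun _ => Iff.rfl
  have hπJ : algebraMap O R S.π ∈ J := by
    rw [hJ]
    refine ⟨0, R.zero_mem, y, hyV, ?_⟩
    have : ((algebraMap O R S.π : R) : E) = algebraMap O E S.π := rfl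
    rw [this]; ring
  have htop : J = ⊤ := by
    by_contra hne
    obtain ⟨n, hn, hJn⟩ := Ideal.exists_le_maximal J hne
    obtain ⟨g, hg, r, hrn, z, hz, e⟩ := loc n hn (hJn hπJ)
    have hun := w_mul_pow_not_mem S R hRV desc n hn (hJn hπJ) hg r hrn ⟨z, hz, e⟩
    apply hun
    apply hJn
    rw [hJ]
    -- `t := w y g^(m-1) ∈ R`
    have ht : S.w * (y ^ 1 * g ^ (S.m - 1)) ∈ R := mixed y hy g hg 1 hmpos
    refine ⟨S.w * (y ^ 1 * g ^ (S.m - 1)) * (r : E), R.mul_mem ht r.2,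
      S.w * (y ^ 1 * g ^ (S.m - 1)) * z, S.V.mul_mem (hRV _ ht) hz, ?_⟩
    show S.w * g ^ S.m * y - S.w * (y ^ 1 * g ^ (S.m - 1)) * (r : E) = _
    have hgm : g ^ S.m = g ^ (S.m - 1) * g := by
      rw [← pow_succ, Nat.sub_add_cancel hmpos]
    rw [hgm]
    linear_combination (S.w * (y ^ 1 * g ^ (S.m - 1))) * e
  have h1 : (1 : R) ∈ J := by rw [htop]; trivial
  obtain ⟨c, hc, hc1⟩ := (hJ 1).1 h1
  exact ⟨c, hc, by simpa using hc1⟩

/-- **[Cech2-b]** -/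
theorem leafB (hR : S.LeafR) (hL : S.LeafL) : S.LeafB := by
  intro a ha ha1 y hy
  obtain ⟨za, hza, ea⟩ := ha1
  obtain ⟨N, hN⟩ := (hL.iff0 y).mp hy
  obtain ⟨c, hc, z₁, hz₁, e₁⟩ := exists_congr S S.R0 S.R0_le S.desc0
    (fun y hy => hL.subV y (hL.of_L0 y hy)) hL.mixed0 S.loc0 hN
  have hjinvV : S.j⁻¹ ^ N ∈ S.V := S.V.pow_mem (S.Rinf_le _ S.jinv_mem) N
  have hjj : S.j ^ N * S.j⁻¹ ^ N = 1 := by
    rw [← mul_pow, mul_inv_cancel₀ S.j_ne, one_pow]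
  -- `c' := c j^(-N) ∈ Rm`
  have hjinvM : ∀ k : ℕ, S.j⁻¹ ^ k ∈ S.Rm := by
    intro k
    induction k with
    | zero => rw [pow_zero]; exact hR.of_R0 1 S.R0.one_mem
    | succ k ih => rw [pow_succ]; exact hR.mul_mem _ ih _ hR.jinv_mem
  have hc' : c * S.j⁻¹ ^ N ∈ S.Rm := hR.mul_mem _ (hR.of_R0 c hc) _ (hjinvM N)
  have hneg1 : (-1 : E) ∈ S.Rm := hR.neg_mem 1 (hR.of_R0 1 S.R0.one_mem)
  have hca : -1 * (c * S.j⁻¹ ^ N * a) ∈ S.L S.Rm :=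
    hL.smulM _ hneg1 _ (hL.smulM _ hc' a ha)
  have hmem : y - c * S.j⁻¹ ^ N * a ∈ S.L S.Rm := by
    have : y - c * S.j⁻¹ ^ N * a = y + -1 * (c * S.j⁻¹ ^ N * a) := by ring
    rw [this]
    exact hL.addM y hy _ hca
  have hdvd : S.PiDvd S.V (y - c * S.j⁻¹ ^ N * a) := by
    refine ⟨z₁ * S.j⁻¹ ^ N - c * S.j⁻¹ ^ N * za,
      S.V.sub_mem (S.V.mul_mem hz₁ hjinvV) (S.V.mul_mem (hR.le_V _ hc') hza), ?_⟩
    have h3 : y = y * S.j ^ N * S.j⁻¹ ^ N := by rw [mul_assoc, hjj, mul_one]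
    linear_combination S.j⁻¹ ^ N * e₁ - c * S.j⁻¹ ^ N * ea + h3
  obtain ⟨y', hy', e⟩ := hL.descM _ hmem hdvd
  exact ⟨c * S.j⁻¹ ^ N, hc', y', hy', by linear_combination e⟩

end Fermat.Agent.S34.Cech2Start
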