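import Mathlib
import Fermat.Agent.S18.IntClReg

/-!
# S34, block [Red2], complement : `descInf` from `desc0` (chart at infinity `chart(J⁻¹)`)

For the `w_q`-symmetric charts `chart(J)`, `chart(J⁻¹)` (`J = j · j_q`) the chart at infinity at
level `N = qM` is NOT integral over the level-`M` chart `chart_M(j⁻¹)`, so the minimal-polynomial
descent over the level-`M` function field which proves `desc0` (`R0 ∩ πV = πR0`) does not apply
to it.  This file derives `descInf` from `desc0` and the gluing of the two charts, by pure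
algebra:

* `reg` : for `t` transcendental over an integrally closed domain `O` and `π ∈ O` prime, the
  pair `(π, t)` is regular on the integral closure of `O[t]` in a field `E`:
  `t * x` and `π * x` integral over `O[t]` imply `x` integral over `O[t]`
  (`S18/IntClReg.exists_integral_smul_eq` for `R = O[t]`, `s = t`).
* `descInf_of_desc0_of_reg` : the formal step, in the field shapes of `S34/Cech2Plan.Setting`
  (`glue0`, `glueInf`, `desc0` ⟹ `descInf`), with `reg` as a hypothesis.
* `descInf_of_desc0` : the same with `Rinf` = the integral closure of `O[j⁻¹]`.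

Everything is stated for arbitrary subalgebras / subrings of a field; the consumer instantiates
`O := OK A K`, `E := FK N K`, `R0 := chart N A K J`, `Rinf := chart N A K J⁻¹`, `V := V₁ ⊓ V₂`
(`S18.Arith.mem_chart_iff` is `Iff.rfl`).
-/

set_option autoImplicit false

namespace Fermat.Agent.S34.RegInf

open Polynomial

section Reg

variable {O E : Type*} [CommRing O] [IsDomain O] [IsIntegrallyClosed O] [Field E] [Algebra O E]

/-- `O[t]` is integrally closed for `t` transcendental over an integrally closed domain `O`. -/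
theorem isIntegrallyClosed_adjoin (t : E) (ht : Transcendental O t) :
    IsIntegrallyClosed (Algebra.adjoin O {t}) :=
  IsIntegrallyClosed.of_equiv (algEquivOfTranscendental O t ht).toRingEquiv

/-- A prime of `O` stays prime in `O[t]`, `t` transcendental. -/
theorem prime_algebraMap_adjoin (t : E) (ht : Transcendental O t) {π : O} (hπ : Prime π) :
    Prime (algebraMap O (Algebra.adjoin O {t}) π) := by
  have h1 : Prime (C π : O[X]) := Polynomial.prime_C_iff.mpr hπ
  have h2 := (MulEquiv.prime_iff (algEquivOfTranscendental O t ht).toMulEquiv).mpr h1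
  have h3 : (algEquivOfTranscendental O t ht).toMulEquiv (C π) =
      algebraMap O (Algebra.adjoin O {t}) π := by
    show (algEquivOfTranscendental O t ht) (C π) = _
    rw [← Polynomial.algebraMap_eq, AlgEquiv.commutes]
  rwa [h3] at h2

/-- A prime of `O` does not divide `t` in `O[t]`, `t` transcendental. -/
theorem not_algebraMap_dvd_gen (t : E) (ht : Transcendental O t) {π : O} (hπ : Prime π) :
    ¬ algebraMap O (Algebra.adjoin O {t}) π ∣
      (⟨t, Algebra.self_mem_adjoin_singleton O t⟩ : Algebra.adjoin O {t}) := by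
  intro h
  have h3 : (algEquivOfTranscendental O t ht) (C π) =
      algebraMap O (Algebra.adjoin O {t}) π := by
    rw [← Polynomial.algebraMap_eq, AlgEquiv.commutes]
  rw [← h3, ← algEquivOfTranscendental_apply_X O t ht] at h
  have h4 : (C π : O[X]) ∣ X := by
    have := map_dvd (algEquivOfTranscendental O t ht).symm h
    simpa using this
  rw [Polynomial.C_dvd_iff_dvd_coeff] at h4
  have h5 := h4 1
  rw [Polynomial.coeff_X_one] at h5
  exact hπ.not_isUnit (isUnit_of_dvd_one h5)

/-- **(reg)** For `t` transcendental over the integrally closed domain `O` and `π ∈ O` prime: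
if `t * x` and `π * x` are integral over `O[t]`, so is `x`.
("`(π, t)` is a regular pair on the integral closure of `O[t]`".) -/
theorem reg (t : E) (ht : Transcendental O t) {π : O} (hπ : Prime π) (x : E)
    (h1 : IsIntegral (Algebra.adjoin O {t}) (t * x))
    (h2 : IsIntegral (Algebra.adjoin O {t}) (algebraMap O E π * x)) :
    IsIntegral (Algebra.adjoin O {t}) x := by
  classical
  have hcl : IsIntegrallyClosed (Algebra.adjoin O {t}) := isIntegrallyClosed_adjoin t ht
  let _ : Algebra (FractionRing (Algebra.adjoin O {t})) E :=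
    FractionRing.liftAlgebra (Algebra.adjoin O {t}) E
  have : IsScalarTower (Algebra.adjoin O {t}) (FractionRing (Algebra.adjoin O {t})) E :=
    FractionRing.isScalarTower_liftAlgebra (Algebra.adjoin O {t}) E
  set πB : Algebra.adjoin O {t} := algebraMap O (Algebra.adjoin O {t}) π with hπB
  set tB : Algebra.adjoin O {t} := ⟨t, Algebra.self_mem_adjoin_singleton O t⟩ with htB
  have hπprime : Prime πB := prime_algebraMap_adjoin t ht hπ
  have hnd : ¬ πB ∣ tB := not_algebraMap_dvd_gen t ht hπ
  have htB0 : tB ≠ 0 := fun h => hnd (h ▸ dvd_zero _)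
  have hπE : algebraMap (Algebra.adjoin O {t}) E πB = algebraMap O E π := by
    rw [hπB, ← IsScalarTower.algebraMap_apply]
  have htE : algebraMap (Algebra.adjoin O {t}) E tB = t := rfl
  have hxy : tB • (algebraMap O E π * x) = πB • (t * x) := by
    rw [Algebra.smul_def, Algebra.smul_def, hπE, htE]
    ring
  obtain ⟨u, hu, hxu⟩ := Fermat.Agent.S18.IntClReg.exists_integral_smul_eq
    (K := FractionRing (Algebra.adjoin O {t})) πB tB hπprime.ne_zero htB0
    (fun a ha hb => Fermat.Agent.S18.IntClReg.mem_of_pow_mul_mem_of_prime πB tB hπprime hnd a ha hb)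
    (algebraMap O E π * x) (t * x) h2 h1 hxy
  rw [Algebra.smul_def, hπE] at hxu
  have hπE0 : algebraMap O E π ≠ 0 := by
    intro h0
    apply hπprime.ne_zero
    have hinj : Function.Injective (algebraMap (Algebra.adjoin O {t}) E) := Subtype.val_injective
    apply hinj
    rw [hπE, h0, map_zero]
  have hx : x = u := mul_left_cancel₀ hπE0 hxu
  rw [hx]
  exact hu

end Reg

section Desc

variable {O E : Type*} [CommRing O] [Field E] [Algebra O E]

/-- **`descInf` from `desc0`**, formal step (field shapes of `S34/Cech2Plan.Setting`):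
given the gluing of the two charts along `j`, the reducedness `R0 ∩ πV = πR0` of the finite
chart and the regularity of the pair `(π, j⁻¹)` on the chart at infinity, the chart at infinity
is reduced along `V` as well: `Rinf ∩ πV = πRinf`. -/
theorem descInf_of_desc0_of_reg (π : O) {j : E} (hj : j ≠ 0) (R0 Rinf : Subalgebra O E)
    (V : Subring E) (hjV : j ∈ V) (jinv_mem : j⁻¹ ∈ Rinf)
    (glue0 : ∀ x ∈ R0, ∃ n : ℕ, x * j⁻¹ ^ n ∈ Rinf)
    (glueInf : ∀ x ∈ Rinf, ∃ n : ℕ, x * j ^ n ∈ R0)
    (desc0 : ∀ z ∈ V, algebraMap O E π * z ∈ R0 → z ∈ R0)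
    (hreg : ∀ x : E, j⁻¹ * x ∈ Rinf → algebraMap O E π * x ∈ Rinf → x ∈ Rinf) :
    ∀ z ∈ V, algebraMap O E π * z ∈ Rinf → z ∈ Rinf := by
  intro z hzV hz
  -- step 1: `z * j ^ n ∈ R0`
  obtain ⟨n, hn⟩ := glueInf _ hz
  have h1 : z * j ^ n ∈ R0 := by
    apply desc0 _ (V.mul_mem hzV (V.pow_mem hjV n))
    have : algebraMap O E π * (z * j ^ n) = algebraMap O E π * z * j ^ n := by ring
    rw [this]
    exact hn
  -- step 2: `j⁻¹ ^ k * z ∈ Rinf` for some `k`
  obtain ⟨n', hn'⟩ := glue0 _ h1
  have h2 : j⁻¹ ^ n' * z ∈ Rinf := by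
    have h3 := Rinf.mul_mem hn' (Rinf.pow_mem jinv_mem n)
    have h4 : z * j ^ n * j⁻¹ ^ n' * j⁻¹ ^ n = j⁻¹ ^ n' * z := by
      rw [inv_pow, inv_pow]
      field_simp
    rwa [h4] at h3
  -- step 3: descend the exponent with `hreg`
  have key : ∀ k : ℕ, j⁻¹ ^ k * z ∈ Rinf → z ∈ Rinf := by
    intro k
    induction k with
    | zero => intro h; simpa using h
    | succ k ih =>
      intro h
      apply ih
      apply hreg
      · have : j⁻¹ * (j⁻¹ ^ k * z) = j⁻¹ ^ (k + 1) * z := by ring
        rw [this]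
        exact h
      · have : algebraMap O E π * (j⁻¹ ^ k * z) = j⁻¹ ^ k * (algebraMap O E π * z) := by ring
        rw [this]
        exact Rinf.mul_mem (Rinf.pow_mem jinv_mem k) hz
  exact key n' h2

end Desc

section Main

variable {O E : Type*} [CommRing O] [IsDomain O] [IsIntegrallyClosed O] [Field E] [Algebra O E]

/-- `j⁻¹` is transcendental over `O` if `j` is. -/
theorem transcendental_inv {j : E} (hj : Transcendental O j) : Transcendental O j⁻¹ := by
  intro h
  apply hj
  have := h.inv
  rwa [inv_inv] at this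

/-- **`descInf` from `desc0`** for a chart at infinity which is the integral closure of
`O[j⁻¹]` (e.g. `S18.Arith.chart N A K J⁻¹` for the symmetric coordinate `J = j · j_q`):
`glue0`, `glueInf`, `desc0` of `S34/Cech2Plan.Setting` imply `descInf`. -/
theorem descInf_of_desc0 {π : O} (hπ : Prime π) {j : E} (hjt : Transcendental O j⁻¹)
    (R0 Rinf : Subalgebra O E) (V : Subring E)
    (hRinf : ∀ x : E, x ∈ Rinf ↔ IsIntegral (Algebra.adjoin O {j⁻¹}) x)
    (hjV : j ∈ V)
    (glue0 : ∀ x ∈ R0, ∃ n : ℕ, x * j⁻¹ ^ n ∈ Rinf)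
    (glueInf : ∀ x ∈ Rinf, ∃ n : ℕ, x * j ^ n ∈ R0)
    (desc0 : ∀ z ∈ V, algebraMap O E π * z ∈ R0 → z ∈ R0) :
    ∀ z ∈ V, algebraMap O E π * z ∈ Rinf → z ∈ Rinf := by
  have hj : j ≠ 0 := by
    rintro rfl
    apply hjt
    rw [inv_zero]
    exact isAlgebraic_zero
  have jinv_mem : j⁻¹ ∈ Rinf := by
    rw [hRinf]
    exact isIntegral_algebraMap (x := (⟨j⁻¹, Algebra.self_mem_adjoin_singleton O j⁻¹⟩ :
      Algebra.adjoin O {j⁻¹}))
  refine descInf_of_desc0_of_reg π hj R0 Rinf V hjV jinv_mem glue0 glueInf desc0 ?_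
  intro x hx1 hx2
  rw [hRinf] at hx1 hx2 ⊢
  exact reg j⁻¹ hjt hπ x hx1 hx2

/-- Variant with `j` transcendental. -/
theorem descInf_of_desc0' {π : O} (hπ : Prime π) {j : E} (hjt : Transcendental O j)
    (R0 Rinf : Subalgebra O E) (V : Subring E)
    (hRinf : ∀ x : E, x ∈ Rinf ↔ IsIntegral (Algebra.adjoin O {j⁻¹}) x)
    (hjV : j ∈ V)
    (glue0 : ∀ x ∈ R0, ∃ n : ℕ, x * j⁻¹ ^ n ∈ Rinf)
    (glueInf : ∀ x ∈ Rinf, ∃ n : ℕ, x * j ^ n ∈ R0)
    (desc0 : ∀ z ∈ V, algebraMap O E π * z ∈ R0 → z ∈ R0) :
    ∀ z ∈ V, algebraMap O E π * z ∈ Rinf → z ∈ Rinf :=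
  descInf_of_desc0 hπ (transcendental_inv hjt) R0 Rinf V hRinf hjV glue0 glueInf desc0

end Main

end Fermat.Agent.S34.RegInf
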