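/-
S34 — V12J.lean (helper48): block [V12], supplement for the symmetric coordinate
`J = j · j_q = WKInst.JK` of level `M * q` at a place `A` over `q`.

* `gRel_JK`, `gRel_JK_inv` : `J ≡ j̄^(q+1)`, `J⁻¹ ≡ (j̄⁻¹)^(q+1)` (Gauss reductions; `j_q ≡ j^q`);
* `ht_JK`, `ht_JK_inv`     : the `ht`-hypothesis of `Branch.exists_level` for `t = J`, `J⁻¹`
  over any level-`M` subalgebra containing `j`, resp. `j⁻¹`;
* `exists_level_JK`, `exists_level_JK_inv` : (B1) for the symmetric charts: every element of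
  `chart J` (resp. `chart J⁻¹`) is congruent modulo `π V1` to an element of the level-`M` chart
  `chart j` (resp. `chart j⁻¹`), given residue degree one (`hf1`);
* `chart_JK_le`, `chart_JK_inv_le` : the symmetric charts lie in `V1 ∩ V2` (for `WKInst.JK`);
* `exists_mem_not_gRel` (and `_inv`) : every closed point `n ∋ π` of a symmetric chart contains an
  element vanishing on neither component (`J^{±1} − c`), hence neither vertical prime equals `n`.
-/
import Mathlib
import Fermat.Agent.S34.V12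
import Fermat.Agent.S34.WKInst
import Fermat.Agent.S34.Branch
import Fermat.Agent.S18.IgusaPtsChart
import Fermat.Agent.S18.ResOKEquiv

set_option autoImplicit false

noncomputable section

namespace Fermat.Agent.S34.V12J

open ModularCurve HahnSeries Fermat.Agent.S18 Fermat.Agent.S18.Arith Fermat.Agent.S18.ModelPlan
open Fermat.Agent.S34.GaussV

/-! ### Laurent-series level -/

section Laurent

variable (A : ValuationSubring Qb) (q : ℕ) [Fact q.Prime]

/-- In characteristic `q`: `j(Q^q) = j^q`. -/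
theorem qExpand_jqModC_eq_pow (hA : A.LiesOverPrime q) :
    qExpand (IsLocalRing.ResidueField A) q (jqModC (IsLocalRing.ResidueField A)) =
      jqModC (IsLocalRing.ResidueField A) ^ q := by
  have := BaseRes.charP_residueField q A hA
  rw [S37.KC.pow_char_eq_qExpand_frobenius q, coeffMap_jqModC]

/-- `j · j_q ≡ j̄^(q+1)`. -/
theorem gRel_j_mul_jq (hA : A.LiesOverPrime q) :
    GRel A (jqModC Qb * qExpand Qb q (jqModC Qb))
      (jqModC (IsLocalRing.ResidueField A) ^ (q + 1)) := by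
  have h := (V12Rel.gFacts A).mul _ _ _ _ (V12Rel.gRel_j A) (V12Rel.gRel_jd A q)
  rwa [qExpand_jqModC_eq_pow A q hA, ← pow_succ'] at h

/-- `(j · j_q)⁻¹ ≡ (j̄⁻¹)^(q+1)`. -/
theorem gRel_j_mul_jq_inv (hA : A.LiesOverPrime q) :
    GRel A (jqModC Qb * qExpand Qb q (jqModC Qb))⁻¹
      ((jqModC (IsLocalRing.ResidueField A))⁻¹ ^ (q + 1)) := by
  have h := (V12Rel.gFacts A).inv _ _ (gRel_j_mul_jq A q hA)
    (pow_ne_zero _ (V12Rel.jqModC_ne_zero _))
  rwa [← inv_pow] at h

/-- `j̄^(b)` is not a constant for `b ≠ 0`. -/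
theorem jqModC_pow_ne_C (F : Type*) [Field F] {b : ℕ} (hb : b ≠ 0) (c : F) :
    jqModC F ^ b ≠ (C c : LaurentSeries F) := by
  intro h
  have h1 := coeff_jqModC_pow_self F b
  rw [h, HahnSeries.C_apply, HahnSeries.coeff_single_of_ne] at h1
  · exact zero_ne_one h1
  · intro h0
    exact hb (by exact_mod_cast neg_eq_zero.mp h0)

/-- `(j̄⁻¹)^(b)` is not a constant for `b ≠ 0`. -/
theorem jqModC_inv_pow_ne_C (F : Type*) [Field F] {b : ℕ} (hb : b ≠ 0) (c : F) :
    (jqModC F)⁻¹ ^ b ≠ (C c : LaurentSeries F) := by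
  intro h
  have hj : jqModC F ^ b ≠ 0 := pow_ne_zero _ (V12Rel.jqModC_ne_zero F)
  have hc : c ≠ 0 := by
    rintro rfl
    rw [map_zero] at h
    exact pow_ne_zero _ (inv_ne_zero (V12Rel.jqModC_ne_zero F)) h
  have h2 : jqModC F ^ b = (C c⁻¹ : LaurentSeries F) := by
    have h3 : jqModC F ^ b * (C c : LaurentSeries F) = 1 := by
      rw [← h, inv_pow, mul_inv_cancel₀ hj]
    have h4 : (C c : LaurentSeries F) * (C c⁻¹ : LaurentSeries F) = 1 := by
      rw [← map_mul, mul_inv_cancel₀ hc, map_one]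
    calc jqModC F ^ b = jqModC F ^ b * ((C c : LaurentSeries F) * (C c⁻¹ : LaurentSeries F)) := by
          rw [h4, mul_one]
      _ = (C c⁻¹ : LaurentSeries F) := by rw [← mul_assoc, h3, one_mul]
  exact jqModC_pow_ne_C F hb _ h2

end Laurent

/-! ### Level `M * q` -/

section Level

variable (M q : ℕ) [NeZero M] [NeZero q] (hq : q.Prime) (hqM : ¬ q ∣ M)
variable (A : ValuationSubring Qb) (K : IntermediateField ℚ Qb)

/-- The two definitions of the symmetric coordinate agree. -/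
theorem JK_eq : V12.JK M q hq hqM K = WKInst.JK M q hq hqM K := rfl

/-- The `q`-expansion of `J`. -/
theorem coe_JK :
    ((WKInst.JK M q hq hqM K : FK (M * q) K) : LaurentSeries Qb) =
      jqModC Qb * qExpand Qb q (jqModC Qb) := by
  rw [WKInst.JK_eq, Subfield.coe_mul, ModelQFrac.coe_jK (M * q) K, WK.coe_jqK, S28.jd_eq]

/-- **`red J = j̄^(q+1)`**. -/
theorem gRel_JK (hA : A.LiesOverPrime q) :
    GRel A ((WKInst.JK M q hq hqM K : FK (M * q) K) : LaurentSeries Qb)
      (jqModC (IsLocalRing.ResidueField A) ^ (q + 1)) := by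
  have : Fact q.Prime := ⟨hq⟩
  rw [coe_JK]
  exact gRel_j_mul_jq A q hA

/-- **`red J⁻¹ = (j̄⁻¹)^(q+1)`**. -/
theorem gRel_JK_inv (hA : A.LiesOverPrime q) :
    GRel A (((WKInst.JK M q hq hqM K)⁻¹ : FK (M * q) K) : LaurentSeries Qb)
      ((jqModC (IsLocalRing.ResidueField A))⁻¹ ^ (q + 1)) := by
  have : Fact q.Prime := ⟨hq⟩
  rw [Subfield.coe_inv, coe_JK]
  exact gRel_j_mul_jq_inv A q hA

/-- The `ht`-hypothesis of `Branch.exists_level` for `t = J`. -/
theorem ht_JK (hA : A.LiesOverPrime q) (RM : Subalgebra (OK A K) (FK M K))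
    (hj : jK M K ∈ RM) :
    ∃ yt, GRel A ((WKInst.JK M q hq hqM K : FK (M * q) K) : LaurentSeries Qb) yt ∧
      IsIntegral (Branch.redRing M A K RM) yt := by
  refine ⟨_, gRel_JK M q hq hqM A K hA, ?_⟩
  have hmem : jqModC (IsLocalRing.ResidueField A) ∈ Branch.redRing M A K RM :=
    ⟨jK M K, hj, by rw [ModelQFrac.coe_jK M K]; exact V12Rel.gRel_j A⟩
  exact isIntegral_algebraMap
    (x := (⟨_, (Branch.redRing M A K RM).pow_mem hmem (q + 1)⟩ : Branch.redRing M A K RM))

/-- The `ht`-hypothesis of `Branch.exists_level` for `t = J⁻¹`. -/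
theorem ht_JK_inv (hA : A.LiesOverPrime q) (RM : Subalgebra (OK A K) (FK M K))
    (hj : (jK M K)⁻¹ ∈ RM) :
    ∃ yt, GRel A (((WKInst.JK M q hq hqM K)⁻¹ : FK (M * q) K) : LaurentSeries Qb) yt ∧
      IsIntegral (Branch.redRing M A K RM) yt := by
  refine ⟨_, gRel_JK_inv M q hq hqM A K hA, ?_⟩
  have hmem : (jqModC (IsLocalRing.ResidueField A))⁻¹ ∈ Branch.redRing M A K RM :=
    ⟨(jK M K)⁻¹, hj, by
      rw [Subfield.coe_inv, ModelQFrac.coe_jK M K]; exact V12Rel.gRel_j_inv A⟩
  exact isIntegral_algebraMap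
    (x := (⟨_, (Branch.redRing M A K RM).pow_mem hmem (q + 1)⟩ : Branch.redRing M A K RM))

/-- **(B1) for `chart J`**: `ρ₁(chart J) ⊆ ρ_M(chart j)`, given residue degree one. -/
theorem exists_level_JK [Fact q.Prime] (hA : A.LiesOverPrime q) (hB : BaseFacts q A K)
    (hf1 : ∀ (x : FK (M * q) K) (y : LaurentSeries (IsLocalRing.ResidueField A)),
      GRel A ((x : FK (M * q) K) : LaurentSeries Qb) y →
      ∃ x' : FK M K, GRel A ((x' : FK M K) : LaurentSeries Qb) y)
    (x : FK (M * q) K) (hx : x ∈ chart (M * q) A K (WKInst.JK M q hq hqM K)) :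
    ∃ x' ∈ R0 M q A K,
      GRel A (((x : FK (M * q) K) : LaurentSeries Qb) - ((x' : FK M K) : LaurentSeries Qb)) 0 :=
  Branch.exists_level M (M * q) hB.dvr (R0 M q A K)
    (fun _ hy hint => Branch.mem_redRing_R0 M q hqM hA hB hy hint) hf1 _
    (ht_JK M q hq hqM A K hA (R0 M q A K) (Model.self_mem_chart M A K _)) x hx

/-- **(B1) for `chart J⁻¹`**: `ρ₁(chart J⁻¹) ⊆ ρ_M(chart j⁻¹)`, given residue degree one. -/
theorem exists_level_JK_inv [Fact q.Prime] (hA : A.LiesOverPrime q) (hB : BaseFacts q A K)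
    (hf1 : ∀ (x : FK (M * q) K) (y : LaurentSeries (IsLocalRing.ResidueField A)),
      GRel A ((x : FK (M * q) K) : LaurentSeries Qb) y →
      ∃ x' : FK M K, GRel A ((x' : FK M K) : LaurentSeries Qb) y)
    (x : FK (M * q) K) (hx : x ∈ chart (M * q) A K (WKInst.JK M q hq hqM K)⁻¹) :
    ∃ x' ∈ Rinf M q A K,
      GRel A (((x : FK (M * q) K) : LaurentSeries Qb) - ((x' : FK M K) : LaurentSeries Qb)) 0 :=
  Branch.exists_level M (M * q) hB.dvr (Rinf M q A K)
    (fun _ hy hint => Branch.mem_redRing_Rinf M q hqM hA hB hy hint) hf1 _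
    (ht_JK_inv M q hq hqM A K hA (Rinf M q A K) (Model.self_mem_chart M A K _)) x hx

variable (hdvr : IsDiscreteValuationRing (OK A K))

/-- `chart J ⊆ V1 ∩ V2` (for `WKInst.JK`). -/
theorem chart_JK_le :
    ∀ x ∈ chart (M * q) A K (WKInst.JK M q hq hqM K), x ∈ V12.V12K M q hq hqM A K hdvr :=
  V12.chart_JK_le M q hq hqM A K hdvr

/-- `chart J⁻¹ ⊆ V1 ∩ V2` (for `WKInst.JK`). -/
theorem chart_JK_inv_le :
    ∀ x ∈ chart (M * q) A K (WKInst.JK M q hq hqM K)⁻¹, x ∈ V12.V12K M q hq hqM A K hdvr :=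
  V12.chart_JK_inv_le M q hq hqM A K hdvr

/-! ### Closed points of the symmetric charts are not generic points of the fibre -/

/-- Every closed point `n ∋ π` of `chart J` contains an element `x` (namely `J − c`) which
vanishes on neither component: neither `x` nor `w_q x` reduces to `0`. -/
theorem exists_mem_not_gRel (hA : A.LiesOverPrime q) [IsDiscreteValuationRing (OK A K)]
    [IsAlgClosed (IsLocalRing.ResidueField (OK A K))] (π : OK A K) (hπ : Irreducible π)
    (n : Ideal (chart (M * q) A K (WKInst.JK M q hq hqM K))) (hn : n.IsMaximal)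
    (hπn : algebraMap (OK A K) (chart (M * q) A K (WKInst.JK M q hq hqM K)) π ∈ n) :
    ∃ x ∈ n, ¬ GRel A (((x : FK (M * q) K) : FK (M * q) K) : LaurentSeries Qb) 0 ∧
      ¬ GRel A ((WK.wK M q hq hqM K (x : FK (M * q) K) : FK (M * q) K) : LaurentSeries Qb) 0 := by
  have hG := V12Rel.gFacts A
  obtain ⟨c, hc⟩ := IgusaPtsChart.exists_coord_sub_mem (M * q) A K (WKInst.JK M q hq hqM K)
    π hπ n hn hπn
  have hrel : GRel A ((WKInst.JK M q hq hqM K - algebraMap (OK A K) (FK (M * q) K) c :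
      FK (M * q) K) : LaurentSeries Qb)
      (jqModC (IsLocalRing.ResidueField A) ^ (q + 1) - C (resO A K c)) := by
    rw [Subfield.coe_sub]
    exact V12Rel.gRel_sub A (gRel_JK M q hq hqM A K hA) (ModelRed.gRel_const K hG c)
  have hne : jqModC (IsLocalRing.ResidueField A) ^ (q + 1) - C (resO A K c) ≠ 0 :=
    sub_ne_zero.mpr (jqModC_pow_ne_C _ (Nat.succ_ne_zero q) _)
  refine ⟨_, hc, ?_, ?_⟩
  · intro h0
    exact hne (hG.unique _ _ _ hrel h0)
  · intro h0
    have hw : WK.wK M q hq hqM K (WKInst.JK M q hq hqM K -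
        algebraMap (OK A K) (FK (M * q) K) c) =
        WKInst.JK M q hq hqM K - algebraMap (OK A K) (FK (M * q) K) c := by
      rw [map_sub, WKInst.wK_JK, WK.wK_algebraMap_OK]
    have h1 : GRel A ((WKInst.JK M q hq hqM K - algebraMap (OK A K) (FK (M * q) K) c :
        FK (M * q) K) : LaurentSeries Qb) 0 := by
      rw [← hw]
      exact h0
    exact hne (hG.unique _ _ _ hrel h1)

/-- Every closed point `n ∋ π` of `chart J⁻¹` contains an element `x` (namely `J⁻¹ − c`) which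
vanishes on neither component. -/
theorem exists_mem_not_gRel_inv (hA : A.LiesOverPrime q) [IsDiscreteValuationRing (OK A K)]
    [IsAlgClosed (IsLocalRing.ResidueField (OK A K))] (π : OK A K) (hπ : Irreducible π)
    (n : Ideal (chart (M * q) A K (WKInst.JK M q hq hqM K)⁻¹)) (hn : n.IsMaximal)
    (hπn : algebraMap (OK A K) (chart (M * q) A K (WKInst.JK M q hq hqM K)⁻¹) π ∈ n) :
    ∃ x ∈ n, ¬ GRel A (((x : FK (M * q) K) : FK (M * q) K) : LaurentSeries Qb) 0 ∧
      ¬ GRel A ((WK.wK M q hq hqM K (x : FK (M * q) K) : FK (M * q) K) : LaurentSeries Qb) 0 := by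
  have hG := V12Rel.gFacts A
  obtain ⟨c, hc⟩ := IgusaPtsChart.exists_coord_sub_mem (M * q) A K (WKInst.JK M q hq hqM K)⁻¹
    π hπ n hn hπn
  have hrel : GRel A (((WKInst.JK M q hq hqM K)⁻¹ - algebraMap (OK A K) (FK (M * q) K) c :
      FK (M * q) K) : LaurentSeries Qb)
      ((jqModC (IsLocalRing.ResidueField A))⁻¹ ^ (q + 1) - C (resO A K c)) := by
    rw [Subfield.coe_sub]
    exact V12Rel.gRel_sub A (gRel_JK_inv M q hq hqM A K hA) (ModelRed.gRel_const K hG c)
  have hne : (jqModC (IsLocalRing.ResidueField A))⁻¹ ^ (q + 1) - C (resO A K c) ≠ 0 :=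
    sub_ne_zero.mpr (jqModC_inv_pow_ne_C _ (Nat.succ_ne_zero q) _)
  refine ⟨_, hc, ?_, ?_⟩
  · intro h0
    exact hne (hG.unique _ _ _ hrel h0)
  · intro h0
    have hw : WK.wK M q hq hqM K ((WKInst.JK M q hq hqM K)⁻¹ -
        algebraMap (OK A K) (FK (M * q) K) c) =
        (WKInst.JK M q hq hqM K)⁻¹ - algebraMap (OK A K) (FK (M * q) K) c := by
      rw [map_sub, WKInst.wK_JK_inv, WK.wK_algebraMap_OK]
    have h1 : GRel A (((WKInst.JK M q hq hqM K)⁻¹ - algebraMap (OK A K) (FK (M * q) K) c :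
        FK (M * q) K) : LaurentSeries Qb) 0 := by
      rw [← hw]
      exact h0
    exact hne (hG.unique _ _ _ hrel h1)

end Level

end Fermat.Agent.S34.V12J

end
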