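/-
S34 — ChartHypJ.lean (helper48): CLOSED `LocPlan.ChartHyp` (and, with it, the closed `branch` and
`trans` fields of `ModelPlan2.ChartModel`) for the two symmetric charts `chart J`, `chart J⁻¹`
(`J = WKInst.JK = j · j_q`) at level `M * q`.

* `desc_JK`     : `chart J ∩ π (V1 ∩ V2) = π · chart J`   (helper43 `Red2.desc0` + `chart J = chart j`);
* `desc_JK_inv` : `chart J⁻¹ ∩ π (V1 ∩ V2) = π · chart J⁻¹` (helper92 `RegInf.descInf_of_desc0'`);
* `chartHyp_JK`, `chartHyp_JK_inv` : `LocPlan.ChartHyp π ![V1, V2] P` with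
  `P := ChartHypInst.Pfam` (helper93);
* `isPrime_P_JK`, `isPrime_P_JK_inv` : the vertical primes are prime;
* `branch_JK`, `trans_JK`, `branch_JK_inv`, `trans_JK_inv` : the fields `branch` and `trans` of
  `ModelPlan2.ChartModel` for these `P` (from `PointsJ`).
-/
import Mathlib
import Fermat.Agent.S34.Red2
import Fermat.Agent.S34.RegInf
import Fermat.Agent.S34.WKInst
import Fermat.Agent.S34.ChartHypInst
import Fermat.Agent.S34.V12J
import Fermat.Agent.S34.PointsJ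

set_option autoImplicit false

noncomputable section

namespace Fermat.Agent.S34.ChartHypJ

open ModularCurve HahnSeries Fermat.Agent.S18 Fermat.Agent.S18.Arith Fermat.Agent.S18.ModelPlan

variable (M q : ℕ) [NeZero M] [NeZero q] (hq : q.Prime) (hqM : ¬ q ∣ M)
variable {A : ValuationSubring Qb} {K : IntermediateField ℚ Qb}

/-- The two component valuation rings `![V1, V2]` at level `M * q`. -/
abbrev VJ (hdvr : IsDiscreteValuationRing (OK A K)) : Fin 2 → ValuationSubring (FK (M * q) K) :=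
  ChartHypInst.Vfam (WK.wK M q hq hqM K) hdvr

/-- The vertical primes of `chart J`. -/
abbrev P0 (hdvr : IsDiscreteValuationRing (OK A K)) (π : OK A K) :
    Fin 2 → Ideal (chart (M * q) A K (WKInst.JK M q hq hqM K)) :=
  ChartHypInst.Pfam (WK.wK M q hq hqM K) hdvr π (chart (M * q) A K (WKInst.JK M q hq hqM K))

/-- The vertical primes of `chart J⁻¹`. -/
abbrev PInf (hdvr : IsDiscreteValuationRing (OK A K)) (π : OK A K) :
    Fin 2 → Ideal (chart (M * q) A K (WKInst.JK M q hq hqM K)⁻¹) :=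
  ChartHypInst.Pfam (WK.wK M q hq hqM K) hdvr π (chart (M * q) A K (WKInst.JK M q hq hqM K)⁻¹)

/-- **desc for `chart J`**: `chart J ∩ π (V1 ∩ V2) = π · chart J`. -/
theorem desc_JK (hA : A.LiesOverPrime q) (hB : BaseFacts q A K) {π : OK A K}
    (hπ : Irreducible π) :
    ∀ z ∈ GaussV.V12 (WK.wK M q hq hqM K) hB.dvr,
      algebraMap (OK A K) (FK (M * q) K) π * z ∈ chart (M * q) A K (WKInst.JK M q hq hqM K) →
      z ∈ chart (M * q) A K (WKInst.JK M q hq hqM K) := by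
  rw [WKInst.chart_JK_eq]
  exact Red2.desc0 M q hq hqM hA hB hπ

/-- `J ∈ V1 ∩ V2`. -/
theorem JK_mem_V12 (hdvr : IsDiscreteValuationRing (OK A K)) :
    WKInst.JK M q hq hqM K ∈ GaussV.V12 (WK.wK M q hq hqM K) hdvr :=
  V12J.chart_JK_le M q hq hqM A K hdvr _ (Model.self_mem_chart (M * q) A K _)

/-- **desc for `chart J⁻¹`**: `chart J⁻¹ ∩ π (V1 ∩ V2) = π · chart J⁻¹`. -/
theorem desc_JK_inv (hA : A.LiesOverPrime q) (hB : BaseFacts q A K) {π : OK A K}
    (hπ : Irreducible π) :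
    ∀ z ∈ GaussV.V12 (WK.wK M q hq hqM K) hB.dvr,
      algebraMap (OK A K) (FK (M * q) K) π * z ∈
        chart (M * q) A K (WKInst.JK M q hq hqM K)⁻¹ →
      z ∈ chart (M * q) A K (WKInst.JK M q hq hqM K)⁻¹ := by
  have := hB.dvr
  have hprime : Prime π := hπ.prime
  have hside := WKInst.chartSide_JK M q hq hqM A K (m := 1) one_ne_zero
  have htr : Transcendental (OK A K) (WKInst.JK M q hq hqM K) :=
    ChartJ.transcendental_symJ (M * q) A K (WK.isIntegral_jK M q hq hqM A K)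
  exact RegInf.descInf_of_desc0' hprime htr (chart (M * q) A K (WKInst.JK M q hq hqM K))
    (chart (M * q) A K (WKInst.JK M q hq hqM K)⁻¹) (GaussV.V12 (WK.wK M q hq hqM K) hB.dvr)
    (fun _ => Iff.rfl) (JK_mem_V12 M q hq hqM hB.dvr) hside.glue0 hside.glueInf
    (desc_JK M q hq hqM hA hB hπ)

/-- **`LocPlan.ChartHyp` for `chart J`** (closed). -/
theorem chartHyp_JK (hA : A.LiesOverPrime q) (hB : BaseFacts q A K) {π : OK A K}
    (hπ : Irreducible π) :
    LocPlan.ChartHyp π (VJ M q hq hqM hB.dvr) (P0 M q hq hqM hB.dvr π) :=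
  ChartHypInst.chartHyp (WK.wK M q hq hqM K) hB.dvr (WK.wK_algebraMap_OK M q hq hqM K A) hπ
    (V12J.chart_JK_le M q hq hqM A K hB.dvr) (desc_JK M q hq hqM hA hB hπ)

/-- **`LocPlan.ChartHyp` for `chart J⁻¹`** (closed). -/
theorem chartHyp_JK_inv (hA : A.LiesOverPrime q) (hB : BaseFacts q A K) {π : OK A K}
    (hπ : Irreducible π) :
    LocPlan.ChartHyp π (VJ M q hq hqM hB.dvr) (PInf M q hq hqM hB.dvr π) :=
  ChartHypInst.chartHyp (WK.wK M q hq hqM K) hB.dvr (WK.wK_algebraMap_OK M q hq hqM K A) hπ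
    (V12J.chart_JK_inv_le M q hq hqM A K hB.dvr) (desc_JK_inv M q hq hqM hA hB hπ)

/-- The vertical primes of `chart J` are prime. -/
theorem isPrime_P_JK (hdvr : IsDiscreteValuationRing (OK A K)) {π : OK A K}
    (hπ : Irreducible π) (i : Fin 2) : (P0 M q hq hqM hdvr π i).IsPrime :=
  ChartHypInst.isPrime_Pfam (WK.wK M q hq hqM K) hdvr (WK.wK_algebraMap_OK M q hq hqM K A) hπ
    (V12J.chart_JK_le M q hq hqM A K hdvr) i

/-- The vertical primes of `chart J⁻¹` are prime. -/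
theorem isPrime_P_JK_inv (hdvr : IsDiscreteValuationRing (OK A K)) {π : OK A K}
    (hπ : Irreducible π) (i : Fin 2) : (PInf M q hq hqM hdvr π i).IsPrime :=
  ChartHypInst.isPrime_Pfam (WK.wK M q hq hqM K) hdvr (WK.wK_algebraMap_OK M q hq hqM K A) hπ
    (V12J.chart_JK_inv_le M q hq hqM A K hdvr) i

/-- **`ChartModel.branch` for `chart J`** (closed). -/
theorem branch_JK [Fact q.Prime] (hA : A.LiesOverPrime q) (hB : BaseFacts q A K) (π : OK A K)
    (hπ : Irreducible π) :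
    ∀ n : Ideal (chart (M * q) A K (WKInst.JK M q hq hqM K)), n.IsMaximal →
      algebraMap (OK A K) (chart (M * q) A K (WKInst.JK M q hq hqM K)) π ∈ n →
      ∀ i : Fin 2, P0 M q hq hqM hB.dvr π i ≤ n →
      (∃ x ∈ n, x ∉ P0 M q hq hqM hB.dvr π i) ∧
        ∃ u ∈ n, ∀ x ∈ n, ∃ s : chart (M * q) A K (WKInst.JK M q hq hqM K), s ∉ n ∧
          ∃ c : chart (M * q) A K (WKInst.JK M q hq hqM K),
            s * x - c * u ∈ P0 M q hq hqM hB.dvr π i :=
  (PointsJ.branch_trans_JK M q hq hqM hA hB π hπ _ (chartHyp_JK M q hq hqM hA hB hπ)).1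

/-- **`ChartModel.trans` for `chart J`** (closed). -/
theorem trans_JK [Fact q.Prime] (hA : A.LiesOverPrime q) (hB : BaseFacts q A K) (π : OK A K)
    (hπ : Irreducible π) :
    ∀ n : Ideal (chart (M * q) A K (WKInst.JK M q hq hqM K)), n.IsMaximal →
      algebraMap (OK A K) (chart (M * q) A K (WKInst.JK M q hq hqM K)) π ∈ n →
      P0 M q hq hqM hB.dvr π 0 ≤ n → P0 M q hq hqM hB.dvr π 1 ≤ n →
      ∀ x ∈ n, ∃ s : chart (M * q) A K (WKInst.JK M q hq hqM K), s ∉ n ∧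
        s * x ∈ P0 M q hq hqM hB.dvr π 0 ⊔ P0 M q hq hqM hB.dvr π 1 :=
  (PointsJ.branch_trans_JK M q hq hqM hA hB π hπ _ (chartHyp_JK M q hq hqM hA hB hπ)).2

/-- **`ChartModel.branch` for `chart J⁻¹`** (closed). -/
theorem branch_JK_inv [Fact q.Prime] (hA : A.LiesOverPrime q) (hB : BaseFacts q A K)
    (π : OK A K) (hπ : Irreducible π) :
    ∀ n : Ideal (chart (M * q) A K (WKInst.JK M q hq hqM K)⁻¹), n.IsMaximal →
      algebraMap (OK A K) (chart (M * q) A K (WKInst.JK M q hq hqM K)⁻¹) π ∈ n →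
      ∀ i : Fin 2, PInf M q hq hqM hB.dvr π i ≤ n →
      (∃ x ∈ n, x ∉ PInf M q hq hqM hB.dvr π i) ∧
        ∃ u ∈ n, ∀ x ∈ n, ∃ s : chart (M * q) A K (WKInst.JK M q hq hqM K)⁻¹, s ∉ n ∧
          ∃ c : chart (M * q) A K (WKInst.JK M q hq hqM K)⁻¹,
            s * x - c * u ∈ PInf M q hq hqM hB.dvr π i :=
  (PointsJ.branch_trans_JK_inv M q hq hqM hA hB π hπ _
    (chartHyp_JK_inv M q hq hqM hA hB hπ)).1

/-- **`ChartModel.trans` for `chart J⁻¹`** (closed). -/
theorem trans_JK_inv [Fact q.Prime] (hA : A.LiesOverPrime q) (hB : BaseFacts q A K)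
    (π : OK A K) (hπ : Irreducible π) :
    ∀ n : Ideal (chart (M * q) A K (WKInst.JK M q hq hqM K)⁻¹), n.IsMaximal →
      algebraMap (OK A K) (chart (M * q) A K (WKInst.JK M q hq hqM K)⁻¹) π ∈ n →
      PInf M q hq hqM hB.dvr π 0 ≤ n → PInf M q hq hqM hB.dvr π 1 ≤ n →
      ∀ x ∈ n, ∃ s : chart (M * q) A K (WKInst.JK M q hq hqM K)⁻¹, s ∉ n ∧
        s * x ∈ PInf M q hq hqM hB.dvr π 0 ⊔ PInf M q hq hqM hB.dvr π 1 :=
  (PointsJ.branch_trans_JK_inv M q hq hqM hA hB π hπ _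
    (chartHyp_JK_inv M q hq hqM hA hB hπ)).2

end Fermat.Agent.S34.ChartHypJ

end
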