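/-
S34 — ConjInt.lean (helper2): the conjugates leaf of the MODULAR block.

GENERIC part (Mathlib-only).  `L / F` finite separable, `f i : L →+* Ω` a complete family of
distinct embeddings into a field `Ω`, all restricting to `ι₀` on `F`.  Then for every `z : L`

* `cpoly_map_eq_prod` : the characteristic polynomial of multiplication by `z`, mapped by
  `ι₀`, is `∏ i, (X - C (f i z))`;
* `trace_eq_sum_of_ringHoms` : `ι₀ (Tr z) = ∑ i, f i z`;
* `coeff_cpoly_mem` : if all conjugates `f i z` lie in a subring `G ⊆ Ω`, so do the images of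
  all coefficients of the characteristic polynomial;
* `aeval_cpoly` : `z` is a root of that polynomial (Cayley–Hamilton);
* `isIntegral_of_conj_mem` : hence `z` is integral over every subring `S ⊆ F` containing
  `ι₀ ⁻¹ G`.
-/
import Mathlib

set_option autoImplicit false

namespace Fermat.Agent.S34.ConjInt

open Polynomial

noncomputable section

section Generic

variable {F L : Type*} [Field F] [Field L] [Algebra F L] [FiniteDimensional F L]

/-- The characteristic polynomial of multiplication by `z` on `L` over `F`. -/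
def cpoly (F : Type*) {L : Type*} [Field F] [Field L] [Algebra F L] [FiniteDimensional F L]
    (z : L) : F[X] :=
  LinearMap.charpoly (Algebra.lmul F L z)

theorem cpoly_monic (z : L) : (cpoly F z).Monic :=
  LinearMap.charpoly_monic _

theorem cpoly_natDegree (z : L) : (cpoly F z).natDegree = Module.finrank F L :=
  LinearMap.charpoly_natDegree _

/-- Cayley–Hamilton: `z` is a root of its characteristic polynomial. -/
theorem aeval_cpoly (z : L) : aeval z (cpoly F z) = 0 := by
  have h := LinearMap.aeval_self_charpoly (Algebra.lmul F L z)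
  have h2 : aeval (Algebra.lmul F L z) (cpoly F z) = Algebra.lmul F L (aeval z (cpoly F z)) :=
    (Polynomial.aeval_algHom_apply (Algebra.lmul F L) z (cpoly F z))
  have h3 : Algebra.lmul F L (aeval z (cpoly F z)) = 0 := by rw [← h2]; exact h
  have h4 := congrArg (fun g : Module.End F L => g 1) h3
  simpa using h4

theorem eval_cpoly (z : L) (c : F) :
    (cpoly F z).eval c = Algebra.norm F (algebraMap F L c - z) := by
  rw [cpoly, LinearMap.eval_charpoly, Algebra.norm_apply]
  congr 1
  rw [map_sub, AlgHom.commutes]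

variable [Algebra.IsSeparable F L] {Ω : Type*} [Field Ω] (ι₀ : F →+* Ω) {I : Type*} [Fintype I]
  (f : I → (L →+* Ω))

/-- **Norm = product over a complete explicit family of embeddings.** -/
theorem norm_eq_prod_of_ringHoms (hf : ∀ i x, f i (algebraMap F L x) = ι₀ x)
    (hinj : Function.Injective f) (hcard : Fintype.card I = Module.finrank F L) (x : L) :
    ι₀ (Algebra.norm F x) = ∏ i, f i x := by
  classical
  let Ω' := AlgebraicClosure Ω
  let _ : Algebra F Ω' := ((algebraMap Ω Ω').comp ι₀).toAlgebra
  let σ : I → (L →ₐ[F] Ω') := fun i =>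
    { toRingHom := (algebraMap Ω Ω').comp (f i)
      commutes' := fun a => by
        show algebraMap Ω Ω' (f i (algebraMap F L a)) = algebraMap Ω Ω' (ι₀ a)
        rw [hf] }
  have hσ : ∀ i z, σ i z = algebraMap Ω Ω' (f i z) := fun i z => rfl
  have hσinj : Function.Injective σ := by
    intro i i' h
    apply hinj
    ext z
    have := congrArg (fun τ : L →ₐ[F] Ω' => τ z) h
    exact (algebraMap Ω Ω').injective this
  have hcard' : Fintype.card I = Fintype.card (L →ₐ[F] Ω') := by
    rw [hcard, AlgHom.card F L Ω']
  have hbij : Function.Bijective σ :=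
    (Fintype.bijective_iff_injective_and_card σ).mpr ⟨hσinj, hcard'⟩
  have h1 := Algebra.norm_eq_prod_embeddings F Ω' x
  have h2 : ∏ τ : L →ₐ[F] Ω', τ x = ∏ i, σ i x :=
    (Function.Bijective.prod_comp hbij (fun τ : L →ₐ[F] Ω' => τ x)).symm
  have h3 : algebraMap F Ω' (Algebra.norm F x) = algebraMap Ω Ω' (ι₀ (Algebra.norm F x)) := rfl
  have h4 : ∏ i, σ i x = algebraMap Ω Ω' (∏ i, f i x) := by
    rw [map_prod]
    exact Finset.prod_congr rfl fun i _ => hσ i x
  apply (algebraMap Ω Ω').injective
  rw [← h3, h1, h2, h4]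

/-- **Trace = sum over a complete explicit family of embeddings.** -/
theorem trace_eq_sum_of_ringHoms (hf : ∀ i x, f i (algebraMap F L x) = ι₀ x)
    (hinj : Function.Injective f) (hcard : Fintype.card I = Module.finrank F L) (x : L) :
    ι₀ (Algebra.trace F L x) = ∑ i, f i x := by
  classical
  let Ω' := AlgebraicClosure Ω
  let _ : Algebra F Ω' := ((algebraMap Ω Ω').comp ι₀).toAlgebra
  let σ : I → (L →ₐ[F] Ω') := fun i =>
    { toRingHom := (algebraMap Ω Ω').comp (f i)
      commutes' := fun a => by
        show algebraMap Ω Ω' (f i (algebraMap F L a)) = algebraMap Ω Ω' (ι₀ a)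
        rw [hf] }
  have hσ : ∀ i z, σ i z = algebraMap Ω Ω' (f i z) := fun i z => rfl
  have hσinj : Function.Injective σ := by
    intro i i' h
    apply hinj
    ext z
    have := congrArg (fun τ : L →ₐ[F] Ω' => τ z) h
    exact (algebraMap Ω Ω').injective this
  have hcard' : Fintype.card I = Fintype.card (L →ₐ[F] Ω') := by
    rw [hcard, AlgHom.card F L Ω']
  have hbij : Function.Bijective σ :=
    (Fintype.bijective_iff_injective_and_card σ).mpr ⟨hσinj, hcard'⟩
  have h1 := trace_eq_sum_embeddings (K := F) (L := L) Ω' (x := x)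
  have h2 : ∑ τ : L →ₐ[F] Ω', τ x = ∑ i, σ i x :=
    (Function.Bijective.sum_comp hbij (fun τ : L →ₐ[F] Ω' => τ x)).symm
  have h3 : algebraMap F Ω' (Algebra.trace F L x) = algebraMap Ω Ω' (ι₀ (Algebra.trace F L x)) :=
    rfl
  have h4 : ∑ i, σ i x = algebraMap Ω Ω' (∑ i, f i x) := by
    rw [map_sum]
    exact Finset.sum_congr rfl fun i _ => hσ i x
  apply (algebraMap Ω Ω').injective
  rw [← h3, h1, h2, h4]

/-- **The characteristic polynomial through a complete family of embeddings.** -/
theorem cpoly_map_eq_prod [Infinite F] (hf : ∀ i x, f i (algebraMap F L x) = ι₀ x)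
    (hinj : Function.Injective f) (hcard : Fintype.card I = Module.finrank F L) (z : L) :
    (cpoly F z).map ι₀ = ∏ i, (X - C (f i z)) := by
  apply Polynomial.eq_of_infinite_eval_eq
  have hsub : Set.range ι₀ ⊆
      {x | eval x ((cpoly F z).map ι₀) = eval x (∏ i, (X - C (f i z)))} := by
    rintro _ ⟨c, rfl⟩
    show eval (ι₀ c) ((cpoly F z).map ι₀) = eval (ι₀ c) (∏ i, (X - C (f i z)))
    rw [eval_map, eval₂_at_apply, eval_cpoly, norm_eq_prod_of_ringHoms ι₀ f hf hinj hcard,
      eval_prod]
    refine Finset.prod_congr rfl fun i _ => ?_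
    rw [map_sub, hf, eval_sub, eval_X, eval_C]
  exact (Set.infinite_range_of_injective ι₀.injective).mono hsub

/-- If all conjugates of `z` lie in a subring `G`, so do the images of all the coefficients of
its characteristic polynomial. -/
theorem coeff_cpoly_mem [Infinite F] (hf : ∀ i x, f i (algebraMap F L x) = ι₀ x)
    (hinj : Function.Injective f) (hcard : Fintype.card I = Module.finrank F L) (z : L)
    (G : Subring Ω) (hG : ∀ i, f i z ∈ G) (k : ℕ) : ι₀ ((cpoly F z).coeff k) ∈ G := by
  have h1 : ((cpoly F z).map ι₀).coeff k = ι₀ ((cpoly F z).coeff k) := coeff_map _ _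
  have h2 : (∏ i, (X - C (f i z))) = (∏ i, (X - C (⟨f i z, hG i⟩ : G))).map G.subtype := by
    rw [Polynomial.map_prod]
    refine Finset.prod_congr rfl fun i _ => ?_
    rw [Polynomial.map_sub, map_X, map_C]
    rfl
  rw [← h1, cpoly_map_eq_prod ι₀ f hf hinj hcard, h2, coeff_map]
  exact Subtype.property _

/-- **Integrality from the conjugates.**  If all conjugates of `z` lie in a subring `G ⊆ Ω` and
`S ⊆ F` is a subring containing `ι₀ ⁻¹ G`, then `z` is integral over `S` (a root of its
characteristic polynomial, which is monic of degree `[L : F]` with coefficients in `S`). -/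
theorem isIntegral_of_conj_mem [Infinite F] (hf : ∀ i x, f i (algebraMap F L x) = ι₀ x)
    (hinj : Function.Injective f) (hcard : Fintype.card I = Module.finrank F L) (z : L)
    (G : Subring Ω) (hG : ∀ i, f i z ∈ G) (S : Subring F) (hS : ∀ a : F, ι₀ a ∈ G → a ∈ S) :
    IsIntegral S z := by
  have hc : ((cpoly F z).coeffs : Set F) ⊆ S := by
    intro a ha
    obtain ⟨k, -, rfl⟩ := Polynomial.mem_coeffs_iff.mp ha
    exact hS _ (coeff_cpoly_mem ι₀ f hf hinj hcard z G hG k)
  refine ⟨(cpoly F z).toSubring S hc, (Polynomial.monic_toSubring _ S hc).mpr (cpoly_monic z), ?_⟩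
  have h1 : ((cpoly F z).toSubring S hc).map S.subtype = cpoly F z :=
    Polynomial.map_toSubring _ S hc
  have h2 : eval₂ (algebraMap S L) z ((cpoly F z).toSubring S hc)
      = eval₂ (algebraMap F L) z (((cpoly F z).toSubring S hc).map S.subtype) := by
    rw [eval₂_map]
    rfl
  rw [h2, h1]
  exact aeval_cpoly z

end Generic

end

end Fermat.Agent.S34.ConjInt
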