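/-
S34 — ConjMod.lean (helper2): the conjugates leaf of the MODULAR block, modular part.

Level `N = M * q`, `q` a prime not dividing `M`, `A` a valuation ring of `ℚ̄` over `q`,
`E₀ = FK M K ⊆ E = FK (M * q) K` (degree `q + 1`, `S34/DegTower`), `w` the Atkin–Lehner swap of
`F̄_{Mq}` (any `ℚ̄`-algebra endomorphism with `w ∘ α = β`, `w ∘ β = α`).  The `q + 1` embeddings
of `E` over `E₀` into `ℚ̄((Q))`, all restricting to `x ↦ x(Q^q)` on `E₀`:

  `f_∞ x = x(Q^q)`,   `f_i x = (w x)(ζ^i Q)`  (`i < q`, `ζ` a primitive `q`-th root of unity).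

Consequences for `x ∈ E` with `x` and `w x` Gauss-integral (`x ∈ V1 ∩ V2`):

* `coeff_cpoly_gRel` : all coefficients of the characteristic polynomial of `x` over `E₀` are
  Gauss-integral (so `x` is integral over the level-`M` Gauss ring);
* `gRel_sub_trace`   : `x ≡ Tr_{E/E₀} x` modulo the maximal ideal of the Gauss ring
  (`GRel A (x - Tr x) 0`): the first branch of the special fibre at level `N` IS the special
  fibre at level `M`;
* `trace_mem_chart`  : `Tr` maps `chart N (incl t)` into `chart M t`.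
-/
import Mathlib
import Fermat.Agent.S34.ConjInt
import Fermat.Agent.S34.DegTower
import Fermat.Agent.S34.V12Rel
import Fermat.Agent.S37.W.Norm
import Fermat.Agent.S37.KC
import Fermat.Agent.S18.ModelRed
import Fermat.Agent.S18.GRel
import Fermat.Agent.S18.DegFK
import Fermat.Agent.S18.PolyIntCl

set_option autoImplicit false

noncomputable section

namespace Fermat.Agent.S34.ConjMod

open ModularCurve AlgebraicCurve HahnSeries Polynomial
open Fermat.Agent.S18 Fermat.Agent.S18.Arith Fermat.Agent.S18.ModelPlan Fermat.Agent.S24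
open Fermat.Agent.S37.W Fermat.Agent.S37.KC Fermat.Agent.S34.ConjInt

/-! ### Contraction, general form -/

/-- `qContract n (x(Q^n) · z) = x · qContract n z` for ARBITRARY `z`. -/
theorem qContract_qExpand_mul_gen {R : Type*} [CommRing R] (n : ℕ) [NeZero n]
    (x z : LaurentSeries R) :
    qContract n (qExpand R n x * z) = x * qContract n z := by
  set z' := z - qExpand R n (qContract n z) with hz'
  have hz : z = qExpand R n (qContract n z) + z' := by rw [hz']; ring
  have hz'0 : ∀ k : ℤ, (n : ℤ) ∣ k → z'.coeff k = 0 := by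
    rintro k ⟨m, rfl⟩
    rw [hz', HahnSeries.coeff_sub, qExpand_coeff_mul, qContract_coeff, sub_self]
  have key : qContract n (qExpand R n x * z') = 0 := by
    ext k
    rw [qContract_coeff, HahnSeries.coeff_mul, HahnSeries.coeff_zero]
    refine Finset.sum_eq_zero fun ij hij => ?_
    rw [Finset.mem_antidiagonal] at hij
    by_cases h1 : (n : ℤ) ∣ ij.1
    · have h2 : (n : ℤ) ∣ ij.2 := by
        have h3 : (n : ℤ) ∣ ij.1 + ij.2 := by rw [hij.2.2]; exact dvd_mul_right _ _
        exact (Int.dvd_add_right h1).mp h3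
      rw [hz'0 _ h2, mul_zero]
    · rw [qExpand_coeff_of_not_dvd n _ h1, zero_mul]
  conv_lhs => rw [hz]
  rw [mul_add, map_add, key, add_zero, qContract_qExpand_mul]

/-! ### The Gauss ring and `GRel` under `Q ↦ Q^n`, `Q ↦ ζ Q` -/

section Gauss

variable (A : ValuationSubring Qb)

/-- The Gauss local ring `G_A ⊆ ℚ̄((Q))`. -/
def gaussRing : Subring (LaurentSeries Qb) where
  carrier := {x | ∃ y, GRel A x y}
  mul_mem' := by
    rintro a b ⟨y, hy⟩ ⟨y', hy'⟩
    exact ⟨y * y', (GRel.gRelStatement A).mul _ _ _ _ hy hy'⟩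
  one_mem' := ⟨1, ModelRed.gRel_one (GRel.gRelStatement A)⟩
  add_mem' := by
    rintro a b ⟨y, hy⟩ ⟨y', hy'⟩
    exact ⟨y + y', (GRel.gRelStatement A).add _ _ _ _ hy hy'⟩
  zero_mem' := ⟨0, ModelRed.gRel_zero (GRel.gRelStatement A)⟩
  neg_mem' := by
    rintro a ⟨y, hy⟩
    exact ⟨-y, (GRel.gRelStatement A).neg _ _ hy⟩

theorem mem_gaussRing {x : LaurentSeries Qb} : x ∈ gaussRing A ↔ ∃ y, GRel A x y := Iff.rfl

variable {A}

/-- Gauss reduction commutes with the contraction `Q^n ↦ Q`. -/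
theorem gRel_of_qExpand (n : ℕ) [NeZero n] {x : LaurentSeries Qb}
    {y : LaurentSeries (IsLocalRing.ResidueField A)} (h : GRel A (qExpand Qb n x) y) :
    GRel A x (qContract n y) := by
  obtain ⟨u, p, hu, hxu, hp⟩ := h
  refine ⟨qContract n u, qContract n p, ?_, ?_, ?_⟩
  · rw [coeffMap_qContract, hu]
    have h1 : qContract n (qExpand (IsLocalRing.ResidueField A) n 1) = 1 :=
      qContract_qExpand n 1
    rwa [map_one] at h1
  · rw [coeffMap_qContract, coeffMap_qContract, ← hxu, qContract_qExpand_mul_gen]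
  · rw [coeffMap_qContract, hp]

theorem gRel_zero_of_qExpand (n : ℕ) [NeZero n] {x : LaurentSeries Qb}
    (h : GRel A (qExpand Qb n x) 0) : GRel A x 0 := by
  have h1 := gRel_of_qExpand n h
  rwa [map_zero] at h1

/-- A rotation by a `q`-th root of unity preserves the Gauss relation, with the SAME
reduction (`ζ ≡ 1` modulo the maximal ideal of `A`). -/
theorem gRel_rot (q : ℕ) [Fact q.Prime] (hA : A.LiesOverPrime q) {ζ : Qb} (hζ : ζ ^ q = 1)
    (hζ0 : ζ ≠ 0) {x : LaurentSeries Qb} {y : LaurentSeries (IsLocalRing.ResidueField A)}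
    (h : GRel A x y) : GRel A (rotHom ζ hζ0 x) y := by
  obtain ⟨u, p, hu, hxu, hp⟩ := h
  have hq0 : q ≠ 0 := (Fact.out : q.Prime).ne_zero
  have hv : IsLocalRing.residue A ((rootUnit A hq0 hζ : Aˣ) : A) = 1 :=
    residue_rootUnit q A hA hζ
  refine ⟨twist (rootUnit A hq0 hζ) u, twist (rootUnit A hq0 hζ) p, ?_, ?_, ?_⟩
  · rw [coeffMap_twist_of_map_eq_one _ hv, hu]
  · rw [coeffMap_subtype_twist, coeffMap_subtype_twist, ← hxu, map_mul]
    rfl
  · rw [coeffMap_twist_of_map_eq_one _ hv, hp]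

theorem gRel_sum {ι : Type*} (s : Finset ι) (x : ι → LaurentSeries Qb)
    (y : ι → LaurentSeries (IsLocalRing.ResidueField A)) (h : ∀ i ∈ s, GRel A (x i) (y i)) :
    GRel A (∑ i ∈ s, x i) (∑ i ∈ s, y i) := by
  classical
  induction s using Finset.induction_on with
  | empty =>
    rw [Finset.sum_empty, Finset.sum_empty]
    exact ModelRed.gRel_zero (GRel.gRelStatement A)
  | insert a s ha ih =>
    rw [Finset.sum_insert ha, Finset.sum_insert ha]
    exact (GRel.gRelStatement A).add _ _ _ _ (h a (Finset.mem_insert_self a s))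
      (ih fun i hi => h i (Finset.mem_insert_of_mem hi))

end Gauss

/-! ### The complete family of embeddings of `F_K(Mq)` over `F_K(M)` -/

section Family

variable (M q : ℕ) [NeZero M] [NeZero q] (K : IntermediateField ℚ Qb)

/-- The base embedding `x ↦ x(Q^q)` of `F_K(M)`. -/
def iota0 : ↥(FK M K) →+* LaurentSeries Qb := (qExpand Qb q).comp (FK M K).subtype

omit [NeZero M] in
theorem iota0_apply (x : ↥(FK M K)) : iota0 M q K x = qExpand Qb q (x : LaurentSeries Qb) := rfl

variable (w : ↥(modularFunctionFieldBar (M * q)) →ₐ[Qb] ↥(modularFunctionFieldBar (M * q)))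

/-- The `q`-expansion of `w x`, for `x ∈ F_K(Mq)`. -/
def wExp : ↥(FK (M * q) K) →+* LaurentSeries Qb :=
  ((modularFunctionFieldBar (M * q)).val.toRingHom).comp
    ((w : ↥(modularFunctionFieldBar (M * q)) →+* ↥(modularFunctionFieldBar (M * q))).comp
      (DegFK.toBar (M * q) K))

theorem wExp_apply (x : ↥(FK (M * q) K)) :
    wExp M q K w x = ((w ⟨(x : LaurentSeries Qb), DescCoeff.FK_le_bar (M * q) K x.2⟩ :
      ↥(modularFunctionFieldBar (M * q))) : LaurentSeries Qb) := rfl

/-- The family: `none ↦ (x ↦ x(Q^q))`, `some i ↦ (x ↦ (w x)(ζ^i Q))`. -/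
def fam (ζ : Qb) (hz : ∀ i : ℕ, ζ ^ i ≠ 0) :
    Option (Fin q) → (↥(FK (M * q) K) →+* LaurentSeries Qb)
  | none => (qExpand Qb q).comp (FK (M * q) K).subtype
  | some i => ((rotHom (ζ ^ (i : ℕ)) (hz i)).toRingHom).comp (wExp M q K w)

theorem fam_none (ζ : Qb) (hz : ∀ i : ℕ, ζ ^ i ≠ 0) (x : ↥(FK (M * q) K)) :
    fam M q K w ζ hz none x = qExpand Qb q (x : LaurentSeries Qb) := rfl

theorem fam_some (ζ : Qb) (hz : ∀ i : ℕ, ζ ^ i ≠ 0) (i : Fin q) (x : ↥(FK (M * q) K)) :
    fam M q K w ζ hz (some i) x = rotHom (ζ ^ (i : ℕ)) (hz i) (wExp M q K w x) := rfl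

/-- `toBar` of the inclusion is `α`. -/
theorem toBar_incl (x : ↥(FK M K)) :
    DegFK.toBar (M * q) K (DegTower.incl M (M * q) K (Dvd.intro q rfl) x)
      = heckeAlphaBar Qb M q (DegFK.toBar M K x) := by
  apply Subtype.ext
  rw [coe_heckeAlphaBar, DegFK.coe_toBar, DegFK.coe_toBar, DegTower.coe_incl]

variable (hwα : ∀ x, w (heckeAlphaBar Qb M q x) = heckeBetaBar Qb M q x)
  (hwβ : ∀ x, w (heckeBetaBar Qb M q x) = heckeAlphaBar Qb M q x)

include hwα in
theorem wExp_incl (x : ↥(FK M K)) :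
    wExp M q K w (DegTower.incl M (M * q) K (Dvd.intro q rfl) x)
      = qExpand Qb q (x : LaurentSeries Qb) := by
  show ((w (DegFK.toBar (M * q) K (DegTower.incl M (M * q) K (Dvd.intro q rfl) x)) :
      ↥(modularFunctionFieldBar (M * q))) : LaurentSeries Qb) = _
  rw [toBar_incl, hwα, coe_heckeBetaBar, DegFK.coe_toBar]

include hwα in
/-- All members of the family restrict to `iota0` on `F_K(M)`. -/
theorem fam_incl (ζ : Qb) (hζ : ζ ^ q = 1) (hz : ∀ i : ℕ, ζ ^ i ≠ 0) (o : Option (Fin q))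
    (x : ↥(FK M K)) :
    fam M q K w ζ hz o (DegTower.incl M (M * q) K (Dvd.intro q rfl) x) = iota0 M q K x := by
  cases o with
  | none => rw [fam_none, DegTower.coe_incl, iota0_apply]
  | some i =>
    rw [fam_some, wExp_incl M q K w hwα, iota0_apply]
    exact rotHom_qExpand q _ _ (by rw [← pow_mul, mul_comm, pow_mul, hζ, one_pow]) _

/-- The element `j_q = j(Q^q)` of `F_K(Mq)`. -/
def jqK : ↥(FK (M * q) K) :=
  ratEmb (M * q) K ⟨qExpand ℚ q jq, jqd_mem_full (M * q) (Dvd.intro_left M rfl)⟩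

theorem coe_jqK : ((jqK M q K : ↥(FK (M * q) K)) : LaurentSeries Qb)
    = qExpand Qb q (coeffEmb Qb jq) := by
  show coeffEmb Qb (qExpand ℚ q jq) = _
  exact exo_coeffEmb_qExpand q jq

theorem toBar_jqK : DegFK.toBar (M * q) K (jqK M q K) = heckeBetaBar Qb M q (jF M) := by
  apply Subtype.ext
  rw [DegFK.coe_toBar, coe_jqK, coe_heckeBetaBar, coe_jF]

include hwβ in
theorem wExp_jqK : wExp M q K w (jqK M q K) = coeffEmb Qb jq := by
  show ((w (DegFK.toBar (M * q) K (jqK M q K)) :
      ↥(modularFunctionFieldBar (M * q))) : LaurentSeries Qb) = _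
  rw [toBar_jqK, hwβ, coe_heckeAlphaBar, coe_jF]

include hwβ in
/-- The members of the family are pairwise distinct (tested on `j_q`). -/
theorem fam_injective (hq : q.Prime) (ζ : Qb) (hζ : IsPrimitiveRoot ζ q)
    (hz : ∀ i : ℕ, ζ ^ i ≠ 0) : Function.Injective (fam M q K w ζ hz) := by
  have hq1 : ¬ (q : ℤ) ∣ (-1 : ℤ) := by
    intro h
    have h1 : (q : ℤ) ∣ 1 := (dvd_neg).mp h
    have h2 : q ∣ 1 := Int.natCast_dvd_natCast.mp (by simpa using h1)
    exact hq.one_lt.ne' (Nat.dvd_one.mp h2)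
  have hnone : (fam M q K w ζ hz none (jqK M q K)).coeff (-1 : ℤ) = 0 := by
    rw [fam_none]
    exact qExpand_coeff_of_not_dvd q _ hq1
  have hsome : ∀ i : Fin q, (fam M q K w ζ hz (some i) (jqK M q K)).coeff (-1 : ℤ)
      = (ζ ^ (i : ℕ)) ^ (-1 : ℤ) := by
    intro i
    rw [fam_some, wExp_jqK M q K w hwβ, rotHom_coeff, coeff_coeffEmb_jq_neg_one, mul_one]
  intro o o' h
  have hc := congrArg (fun g : ↥(FK (M * q) K) →+* LaurentSeries Qb =>
    (g (jqK M q K)).coeff (-1 : ℤ)) h
  cases o with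
  | none =>
    cases o' with
    | none => rfl
    | some i' =>
      simp only [hnone, hsome] at hc
      exact absurd hc.symm (zpow_ne_zero _ (hz i'))
  | some i =>
    cases o' with
    | none =>
      simp only [hnone, hsome] at hc
      exact absurd hc (zpow_ne_zero _ (hz i))
    | some i' =>
      simp only [hsome] at hc
      have h2 : ζ ^ (i : ℕ) = ζ ^ (i' : ℕ) := by
        have := congrArg (fun t : Qb => t⁻¹) hc
        simpa [zpow_neg] using this
      have h3 : (i : ℕ) = (i' : ℕ) := hζ.pow_inj i.2 i'.2 h2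
      exact congrArg some (Fin.ext h3)

end Family

/-! ### Main statements -/

section Main

variable (M q : ℕ) [NeZero M] [NeZero q] (hq : q.Prime) (hqM : ¬ q ∣ M)
  (A : ValuationSubring Qb) (hA : A.LiesOverPrime q) (K : IntermediateField ℚ Qb)
  (w : ↥(modularFunctionFieldBar (M * q)) →ₐ[Qb] ↥(modularFunctionFieldBar (M * q)))
  (hwα : ∀ x, w (heckeAlphaBar Qb M q x) = heckeBetaBar Qb M q x)
  (hwβ : ∀ x, w (heckeBetaBar Qb M q x) = heckeAlphaBar Qb M q x)

omit [NeZero q] in
theorem charZero_FK (N : ℕ) : CharZero ↥(FK N K) :=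
  charZero_of_injective_algebraMap (algebraMap K ↥(FK N K)).injective

include hq hqM in
theorem card_eq_finrank :
    letI := DegTower.algTower M (M * q) K (Dvd.intro q rfl)
    Fintype.card (Option (Fin q)) = Module.finrank ↥(FK M K) ↥(FK (M * q) K) := by
  rw [DegTower.finrank_of_prime M (M * q) K hq hqM rfl, Fintype.card_option, Fintype.card_fin]

include hq hA in
/-- All conjugates of an element of `V1 ∩ V2` are Gauss-integral. -/
theorem fam_mem_gaussRing (ζ : Qb) (hζ : ζ ^ q = 1) (hz : ∀ i : ℕ, ζ ^ i ≠ 0)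
    (x : ↥(FK (M * q) K)) (h1 : ∃ y, GRel A (x : LaurentSeries Qb) y)
    (h2 : ∃ y, GRel A (wExp M q K w x) y) (o : Option (Fin q)) :
    fam M q K w ζ hz o x ∈ gaussRing A := by
  haveI : Fact q.Prime := ⟨hq⟩
  cases o with
  | none =>
    obtain ⟨y, hy⟩ := h1
    exact ⟨_, V12Rel.gRel_qExpand A q hy⟩
  | some i =>
    obtain ⟨y, hy⟩ := h2
    exact ⟨y, gRel_rot q hA (by rw [← pow_mul, mul_comm, pow_mul, hζ, one_pow]) (hz i) hy⟩

include hq hqM hA hwα hwβ in
/-- **(C1)** For `x ∈ F_K(Mq)` with `x` and `w x` Gauss-integral, all coefficients of the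
characteristic polynomial of `x` over `F_K(M)` are Gauss-integral. -/
theorem coeff_cpoly_gRel (x : ↥(FK (M * q) K)) (h1 : ∃ y, GRel A (x : LaurentSeries Qb) y)
    (h2 : ∃ y, GRel A (wExp M q K w x) y) (k : ℕ) :
    letI := DegTower.algTower M (M * q) K (Dvd.intro q rfl)
    haveI := DegTower.finiteDimensional M (M * q) K (Dvd.intro q rfl)
    ∃ y, GRel A (((cpoly ↥(FK M K) x).coeff k : ↥(FK M K)) : LaurentSeries Qb) y := by
  letI := DegTower.algTower M (M * q) K (Dvd.intro q rfl)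
  haveI := DegTower.finiteDimensional M (M * q) K (Dvd.intro q rfl)
  haveI := charZero_FK K M
  haveI : Algebra.IsSeparable ↥(FK M K) ↥(FK (M * q) K) :=
    Algebra.IsAlgebraic.isSeparable_of_perfectField
  obtain ⟨ζ, hζ⟩ := HasEnoughRootsOfUnity.exists_primitiveRoot Qb q
  have hz : ∀ i : ℕ, ζ ^ i ≠ 0 := fun i => pow_ne_zero i (hζ.ne_zero (NeZero.ne q))
  have hmem := coeff_cpoly_mem (iota0 M q K) (fam M q K w ζ hz)
    (fun o y => fam_incl M q K w hwα ζ hζ.pow_eq_one hz o y)
    (fam_injective M q K w hwβ hq ζ hζ hz) (card_eq_finrank M q hq hqM K) x (gaussRing A)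
    (fam_mem_gaussRing M q hq A hA K w ζ hζ.pow_eq_one hz x h1 h2) k
  obtain ⟨y, hy⟩ := hmem
  exact ⟨_, gRel_of_qExpand q hy⟩

include hq hqM hA hwα hwβ in
/-- **(C2)** For `x ∈ F_K(Mq)` with `x` and `w x` Gauss-integral, `x ≡ Tr x` modulo the maximal
ideal of the Gauss ring (`Tr` the trace to `F_K(M)`). -/
theorem gRel_sub_trace (x : ↥(FK (M * q) K)) {y1 y2 : LaurentSeries (IsLocalRing.ResidueField A)}
    (h1 : GRel A (x : LaurentSeries Qb) y1) (h2 : GRel A (wExp M q K w x) y2) :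
    letI := DegTower.algTower M (M * q) K (Dvd.intro q rfl)
    GRel A ((x : LaurentSeries Qb)
      - ((Algebra.trace ↥(FK M K) ↥(FK (M * q) K) x : ↥(FK M K)) : LaurentSeries Qb)) 0 := by
  letI := DegTower.algTower M (M * q) K (Dvd.intro q rfl)
  haveI := DegTower.finiteDimensional M (M * q) K (Dvd.intro q rfl)
  haveI := charZero_FK K M
  haveI : Algebra.IsSeparable ↥(FK M K) ↥(FK (M * q) K) :=
    Algebra.IsAlgebraic.isSeparable_of_perfectField
  haveI : Fact q.Prime := ⟨hq⟩
  haveI : CharP (IsLocalRing.ResidueField A) q := BaseRes.charP_residueField q A hA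
  obtain ⟨ζ, hζ⟩ := HasEnoughRootsOfUnity.exists_primitiveRoot Qb q
  have hz : ∀ i : ℕ, ζ ^ i ≠ 0 := fun i => pow_ne_zero i (hζ.ne_zero (NeZero.ne q))
  have htr := trace_eq_sum_of_ringHoms (iota0 M q K) (fam M q K w ζ hz)
    (fun o y => fam_incl M q K w hwα ζ hζ.pow_eq_one hz o y)
    (fam_injective M q K w hwβ hq ζ hζ hz) (card_eq_finrank M q hq hqM K) x
  rw [Fintype.sum_option] at htr
  have hs : GRel A (∑ i : Fin q, fam M q K w ζ hz (some i) x)
      (∑ _i : Fin q, y2) :=
    gRel_sum Finset.univ _ _ (fun i _ =>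
      gRel_rot q hA (by rw [← pow_mul, mul_comm, pow_mul, hζ.pow_eq_one, one_pow]) (hz i) h2)
  have hs0 : (∑ _i : Fin q, y2) = 0 := by
    rw [Finset.sum_const, Finset.card_univ, Fintype.card_fin, nsmul_eq_mul]
    have h3 : ((q : ℕ) : LaurentSeries (IsLocalRing.ResidueField A)) = 0 := by
      rw [← map_natCast (HahnSeries.C : IsLocalRing.ResidueField A →+*
        LaurentSeries (IsLocalRing.ResidueField A)) q, CharP.cast_eq_zero, map_zero]
    rw [h3, zero_mul]
  rw [hs0] at hs
  have h0 : GRel A (iota0 M q K (Algebra.trace ↥(FK M K) ↥(FK (M * q) K) x))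
      (qExpand (IsLocalRing.ResidueField A) q y1 + 0) := by
    rw [htr]
    exact (GRel.gRelStatement A).add _ _ _ _ (V12Rel.gRel_qExpand A q h1) hs
  have hd : GRel A (qExpand Qb q ((x : LaurentSeries Qb)
      - ((Algebra.trace ↥(FK M K) ↥(FK (M * q) K) x : ↥(FK M K)) : LaurentSeries Qb))) 0 := by
    have h4 := V12Rel.gRel_sub A (V12Rel.gRel_qExpand A q h1) h0
    rw [add_zero, sub_self] at h4
    rw [map_sub]
    exact h4
  exact gRel_zero_of_qExpand q hd

end Main

/-! ### The trace maps charts to charts -/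

section TraceChart

variable (M N : ℕ) [NeZero M] [NeZero N] (A : ValuationSubring Qb) (K : IntermediateField ℚ Qb)

omit [NeZero M] [NeZero N] in
theorem incl_comp_aeval (h : M ∣ N) (t : ↥(FK M K)) :
    (DegTower.incl M N K h).comp (aeval (R := OK A K) t).toRingHom
      = (aeval (R := OK A K) (DegTower.incl M N K h t)).toRingHom := by
  refine Polynomial.ringHom_ext (fun c => ?_) ?_
  · show DegTower.incl M N K h (aeval t (C c)) = aeval (DegTower.incl M N K h t) (C c)
    rw [aeval_C, aeval_C]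
    exact DegTower.incl_constK M N K h (c : K)
  · show DegTower.incl M N K h (aeval t X) = aeval (DegTower.incl M N K h t) X
    rw [aeval_X, aeval_X]

/-- The inclusion maps `chart M t` into `chart N (incl t)`. -/
theorem incl_mem_chart (h : M ∣ N) (t x : ↥(FK M K)) (hx : x ∈ chart M A K t) :
    DegTower.incl M N K h x ∈ chart N A K (DegTower.incl M N K h t) := by
  rw [mem_chart_iff, ← PolyIntCl.isIntegralElem_aeval_iff] at hx ⊢
  obtain ⟨p, hp, hpx⟩ := hx
  refine ⟨p, hp, ?_⟩
  have hcomp := incl_comp_aeval M N A K h t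
  rw [← hcomp, ← Polynomial.hom_eval₂, hpx, map_zero]

/-- **The trace maps `chart N (incl t)` into `chart M t`.** -/
theorem trace_mem_chart (h : M ∣ N) (t : ↥(FK M K)) (x : ↥(FK N K))
    (hx : x ∈ chart N A K (DegTower.incl M N K h t)) :
    letI := DegTower.algTower M N K h
    Algebra.trace ↥(FK M K) ↥(FK N K) x ∈ chart M A K t := by
  letI := DegTower.algTower M N K h
  haveI := DegTower.finiteDimensional M N K h
  rw [mem_chart_iff, ← PolyIntCl.isIntegralElem_aeval_iff] at hx ⊢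
  letI a1 : Algebra (OK A K)[X] ↥(FK M K) := (aeval (R := OK A K) t).toRingHom.toAlgebra
  letI a2 : Algebra (OK A K)[X] ↥(FK N K) :=
    (aeval (R := OK A K) (DegTower.incl M N K h t)).toRingHom.toAlgebra
  have hcomp := incl_comp_aeval M N A K h t
  haveI : IsScalarTower (OK A K)[X] ↥(FK M K) ↥(FK N K) :=
    IsScalarTower.of_algebraMap_eq fun p => (congrArg (fun g => g p) hcomp).symm
  exact Algebra.isIntegral_trace (R := (OK A K)[X]) (L := ↥(FK M K)) (F := ↥(FK N K)) hx

theorem trace_mem_R0 (ℓ : ℕ) [Fact ℓ.Prime] (h : M ∣ N) (x : ↥(FK N K))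
    (hx : x ∈ R0 N ℓ A K) :
    letI := DegTower.algTower M N K h
    Algebra.trace ↥(FK M K) ↥(FK N K) x ∈ R0 M ℓ A K := by
  refine trace_mem_chart M N A K h (jK M K) x ?_
  rw [DegTower.incl_jK]
  exact hx

theorem trace_mem_Rinf (ℓ : ℕ) [Fact ℓ.Prime] (h : M ∣ N) (x : ↥(FK N K))
    (hx : x ∈ Rinf N ℓ A K) :
    letI := DegTower.algTower M N K h
    Algebra.trace ↥(FK M K) ↥(FK N K) x ∈ Rinf M ℓ A K := by
  refine trace_mem_chart M N A K h (jK M K)⁻¹ x ?_
  rw [map_inv₀, DegTower.incl_jK]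
  exact hx

end TraceChart

/-! ### Consumer forms: the first branch at level `M q` is the special fibre at level `M` -/

section Level

variable (M q : ℕ) [NeZero M] [NeZero q] [hqf : Fact q.Prime] (hqM : ¬ q ∣ M)
  (A : ValuationSubring Qb) (hA : A.LiesOverPrime q) (K : IntermediateField ℚ Qb)
  (w : ↥(modularFunctionFieldBar (M * q)) →ₐ[Qb] ↥(modularFunctionFieldBar (M * q)))
  (hwα : ∀ x, w (heckeAlphaBar Qb M q x) = heckeBetaBar Qb M q x)
  (hwβ : ∀ x, w (heckeBetaBar Qb M q x) = heckeAlphaBar Qb M q x)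

include hqM hA hwα hwβ in
/-- **[Branch], chart `t`**: every element `x` of `chart (M q) (incl t)` with `x`, `w x`
Gauss-integral is congruent, modulo the Gauss maximal ideal, to an element of `chart M t`
(namely its trace). -/
theorem exists_level_chart (t : ↥(FK M K)) (x : ↥(FK (M * q) K))
    (hx : x ∈ chart (M * q) A K (DegTower.incl M (M * q) K (Dvd.intro q rfl) t))
    (h1 : ∃ y, GRel A (x : LaurentSeries Qb) y) (h2 : ∃ y, GRel A (wExp M q K w x) y) :
    ∃ x' ∈ chart M A K t,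
      GRel A ((x : LaurentSeries Qb) - ((x' : ↥(FK M K)) : LaurentSeries Qb)) 0 := by
  obtain ⟨y1, hy1⟩ := h1
  obtain ⟨y2, hy2⟩ := h2
  letI := DegTower.algTower M (M * q) K (Dvd.intro q rfl)
  exact ⟨Algebra.trace ↥(FK M K) ↥(FK (M * q) K) x,
    trace_mem_chart M (M * q) A K (Dvd.intro q rfl) t x hx,
    gRel_sub_trace M q hqf.out hqM A hA K w hwα hwβ x hy1 hy2⟩

include hqM hA hwα hwβ in
/-- **[Branch], chart `R0`** (same conclusion as `S34/Branch.exists_level_R0`, without the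
residue-degree hypothesis). -/
theorem exists_level_R0 (x : ↥(FK (M * q) K)) (hx : x ∈ R0 (M * q) q A K)
    (h1 : ∃ y, GRel A (x : LaurentSeries Qb) y) (h2 : ∃ y, GRel A (wExp M q K w x) y) :
    ∃ x' ∈ R0 M q A K,
      GRel A ((x : LaurentSeries Qb) - ((x' : ↥(FK M K)) : LaurentSeries Qb)) 0 := by
  refine exists_level_chart M q hqM A hA K w hwα hwβ (jK M K) x ?_ h1 h2
  rw [DegTower.incl_jK]
  exact hx

include hqM hA hwα hwβ in
/-- **[Branch], chart `Rinf`**. -/
theorem exists_level_Rinf (x : ↥(FK (M * q) K)) (hx : x ∈ Rinf (M * q) q A K)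
    (h1 : ∃ y, GRel A (x : LaurentSeries Qb) y) (h2 : ∃ y, GRel A (wExp M q K w x) y) :
    ∃ x' ∈ Rinf M q A K,
      GRel A ((x : LaurentSeries Qb) - ((x' : ↥(FK M K)) : LaurentSeries Qb)) 0 := by
  refine exists_level_chart M q hqM A hA K w hwα hwβ (jK M K)⁻¹ x ?_ h1 h2
  rw [map_inv₀, DegTower.incl_jK]
  exact hx

end Level

end Fermat.Agent.S34.ConjMod
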