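import Mathlib

/-!
# S34, [Model2] helper: transfer of reducedness `R ∩ π V = π R` to a slightly larger chart

Abstract form (Mathlib only) of the following situation.  `R` is a chart (an `O`-subalgebra of the
function field `E`, integrally closed in `E`) for which the reducedness statement
`desc : ∀ z ∈ V, π z ∈ R → z ∈ R` of `Cech2Plan.Setting` is known, and `R'` is a second chart with
`R ⊆ R' ⊆ ⋃ e⁻ᴰ R` for an element `e` with `e ≡ 1` modulo `π R'`
(so `Spec R'` sits inside `Spec R` and contains every closed point of its special fibre at which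
`e` does not vanish, i.e. all of them).  Then `desc` holds for `R'` as well.

Application: `R = Rinf` (integral closure of `O[1/j]`), `R' =` the `w_q`-symmetric chart
(integral closure of `O[1/(j j_q)]`), `e = Φ_q(j, 0) / j ^ (q + 1)`: `R'` is NOT integral over any
level-`M` chart, so the minimal-polynomial descent does not apply to it directly, but
`e · (1/j_q)` is integral over `O[1/j]` and `e ≡ 1` modulo `q` (Kronecker).

* `desc_of_pow`            the transfer;
* `exists_pow_mul_mem`     `x` integral over `O[t]`, `e ∈ R`, `e t ∈ R`, `R` integrally closed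
                           ⇒ `e ^ D * x ∈ R` for some `D`;
* `desc_chart`             both combined, for `R' =` the integral closure of `O[t]`.
-/

set_option autoImplicit false

namespace Fermat.Agent.S34.DescSym

open Polynomial

section Transfer

variable {O E : Type*} [CommRing O] [Field E] [Algebra O E]

/-- `e ≡ 1` modulo `π R'` implies `e ^ D ≡ 1` modulo `π R'`. -/
theorem pow_sub_one_mem (π : O) (R' : Subalgebra O E) (e : E)
    (he1 : ∃ c ∈ R', e - 1 = algebraMap O E π * c) (D : ℕ) :
    ∃ c ∈ R', e ^ D - 1 = algebraMap O E π * c := by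
  obtain ⟨c, hc, hec⟩ := he1
  have he : e ∈ R' := by
    have : e = 1 + algebraMap O E π * c := by rw [← hec]; ring
    rw [this]
    exact add_mem (one_mem _) (mul_mem (Subalgebra.algebraMap_mem _ _) hc)
  induction D with
  | zero => exact ⟨0, zero_mem _, by simp⟩
  | succ D ih =>
    obtain ⟨d, hd, hed⟩ := ih
    refine ⟨e ^ D * c + d, add_mem (mul_mem (pow_mem he D) hc) hd, ?_⟩
    have : e ^ (D + 1) - 1 = e ^ D * (e - 1) + (e ^ D - 1) := by ring
    rw [this, hec, hed]
    ring

/-- **Transfer of reducedness.**  If `R ⊆ R'`, every element of `R'` is carried into `R` by a power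
of `e`, `e ∈ V`, `e ≡ 1` modulo `π R'`, then `R ∩ π V = π R` implies `R' ∩ π V = π R'`. -/
theorem desc_of_pow (π : O) (V : Subring E) (R R' : Subalgebra O E) (hle : R ≤ R') (e : E)
    (heV : e ∈ V) (he1 : ∃ c ∈ R', e - 1 = algebraMap O E π * c)
    (hpow : ∀ x ∈ R', ∃ D : ℕ, e ^ D * x ∈ R)
    (desc : ∀ z ∈ V, algebraMap O E π * z ∈ R → z ∈ R) :
    ∀ z ∈ V, algebraMap O E π * z ∈ R' → z ∈ R' := by
  intro z hzV hz
  obtain ⟨D, hD⟩ := hpow _ hz
  have h1 : e ^ D * z ∈ R := by
    apply desc _ (V.mul_mem (V.pow_mem heV D) hzV)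
    have : algebraMap O E π * (e ^ D * z) = e ^ D * (algebraMap O E π * z) := by ring
    rw [this]
    exact hD
  obtain ⟨c, hc, hec⟩ := pow_sub_one_mem π R' e he1 D
  have h2 : z = e ^ D * z - c * (algebraMap O E π * z) := by
    have : e ^ D = 1 + algebraMap O E π * c := by rw [← hec]; ring
    rw [this]
    ring
  rw [h2]
  exact sub_mem (hle h1) (mul_mem hc hz)

end Transfer

section Integral

variable {O E : Type*} [CommRing O] [Field E] [Algebra O E]

/-- Elements of `O[t]` are carried into `R` by a power of `e`, if `e ∈ R` and `e * t ∈ R`. -/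
theorem exists_pow_mul_mem_of_mem_adjoin (R : Subalgebra O E) {e t : E} (he : e ∈ R)
    (het : e * t ∈ R) {x : E} (hx : x ∈ Algebra.adjoin O {t}) : ∃ n : ℕ, e ^ n * x ∈ R := by
  induction hx using Algebra.adjoin_induction with
  | mem y hy =>
    rw [Set.mem_singleton_iff] at hy
    subst hy
    exact ⟨1, by rw [pow_one]; exact het⟩
  | algebraMap a => exact ⟨0, by rw [pow_zero, one_mul]; exact Subalgebra.algebraMap_mem _ a⟩
  | add y z _ _ hy hz =>
    obtain ⟨m, hm⟩ := hy
    obtain ⟨n, hn⟩ := hz
    refine ⟨m + n, ?_⟩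
    have : e ^ (m + n) * (y + z) = e ^ n * (e ^ m * y) + e ^ m * (e ^ n * z) := by ring
    rw [this]
    exact add_mem (mul_mem (pow_mem he n) hm) (mul_mem (pow_mem he m) hn)
  | mul y z _ _ hy hz =>
    obtain ⟨m, hm⟩ := hy
    obtain ⟨n, hn⟩ := hz
    refine ⟨m + n, ?_⟩
    have : e ^ (m + n) * (y * z) = (e ^ m * y) * (e ^ n * z) := by ring
    rw [this]
    exact mul_mem hm hn

/-- If `x` is integral over `O[t]`, `e ∈ R`, `e * t ∈ R` and `R` is integrally closed in `E`, then
`e ^ D * x ∈ R` for some `D`. -/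
theorem exists_pow_mul_mem (R : Subalgebra O E) (hcl : ∀ x : E, IsIntegral R x → x ∈ R)
    {e t : E} (he : e ∈ R) (het : e * t ∈ R) {x : E}
    (hx : IsIntegral (Algebra.adjoin O {t}) x) : ∃ D : ℕ, e ^ D * x ∈ R := by
  classical
  obtain ⟨p, hmonic, hroot⟩ := hx
  have hcoeff : ∀ i, ∃ n : ℕ, e ^ n * (p.coeff i : E) ∈ R :=
    fun i => exists_pow_mul_mem_of_mem_adjoin R he het (p.coeff i).2
  choose n hn using hcoeff
  set M : ℕ := ∑ i ∈ Finset.range (p.natDegree + 1), n i with hM
  have hnM : ∀ i ≤ p.natDegree, n i ≤ M := fun i hi =>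
    Finset.single_le_sum (f := n) (fun _ _ => Nat.zero_le _)
      (Finset.mem_range.mpr (Nat.lt_succ_of_le hi))
  set q : E[X] := (p.map (algebraMap (Algebra.adjoin O {t}) E)).scaleRoots (e ^ M) with hq
  have hqmonic : q.Monic := (Polynomial.monic_scaleRoots_iff _).mpr (hmonic.map _)
  have hqroot : q.eval (e ^ M * x) = 0 := by
    rw [hq, Polynomial.scaleRoots_eval_mul, Polynomial.eval_map, hroot, mul_zero]
  have hqcoeff : ∀ i, q.coeff i ∈ R := by
    intro i
    rw [hq, Polynomial.coeff_scaleRoots, Polynomial.coeff_map, hmonic.natDegree_map]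
    by_cases hi : i < p.natDegree
    · have hle : n i ≤ M * (p.natDegree - i) := by
        calc n i ≤ M := hnM i hi.le
          _ = M * 1 := (mul_one M).symm
          _ ≤ M * (p.natDegree - i) :=
            Nat.mul_le_mul_left M (Nat.one_le_iff_ne_zero.mpr (by omega))
      obtain ⟨k, hk⟩ := Nat.exists_eq_add_of_le hle
      have : (e ^ M) ^ (p.natDegree - i) = e ^ k * e ^ n i := by
        rw [← pow_mul, hk, _root_.pow_add, mul_comm]
      rw [this, Subalgebra.algebraMap_def, Algebra.algebraMap_self_apply,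
        show (p.coeff i : E) * (e ^ k * e ^ n i) = e ^ k * (e ^ n i * (p.coeff i : E)) by ring]
      exact mul_mem (pow_mem he k) (hn i)
    · rcases (not_lt.mp hi).lt_or_eq with hlt | heq
      · rw [Polynomial.coeff_eq_zero_of_natDegree_lt hlt, map_zero, zero_mul]
        exact zero_mem _
      · rw [← heq, hmonic.coeff_natDegree, map_one, one_mul, Nat.sub_self, pow_zero]
        exact one_mem _
  have hlifts : q ∈ Polynomial.lifts (algebraMap R E) :=
    (Polynomial.lifts_iff_coeff_lifts q).mpr fun i => ⟨⟨q.coeff i, hqcoeff i⟩, rfl⟩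
  obtain ⟨q', hq'q, -, hq'monic⟩ := Polynomial.lifts_and_natDegree_eq_and_monic hlifts hqmonic
  refine ⟨M, hcl _ ⟨q', hq'monic, ?_⟩⟩
  rw [Polynomial.eval₂_eq_eval_map, hq'q, hqroot]

/-- **Reducedness for the chart of `t`**, from reducedness for an integrally closed chart `R`
contained in it, given `e ∈ R` with `e * t ∈ R` and `e ≡ 1` modulo `π · (chart of t)`.
The chart of `t` is presented as any subalgebra `R'` all of whose elements are integral over
`O[t]` (e.g. `Arith.chart N A K t`, by `Iff.rfl`). -/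
theorem desc_chart (π : O) (V : Subring E) (R R' : Subalgebra O E)
    (hcl : ∀ x : E, IsIntegral R x → x ∈ R) (hle : R ≤ R') {e t : E}
    (hR' : ∀ x ∈ R', IsIntegral (Algebra.adjoin O {t}) x)
    (he : e ∈ R) (het : e * t ∈ R) (heV : e ∈ V)
    (he1 : ∃ c ∈ R', e - 1 = algebraMap O E π * c)
    (desc : ∀ z ∈ V, algebraMap O E π * z ∈ R → z ∈ R) :
    ∀ z ∈ V, algebraMap O E π * z ∈ R' → z ∈ R' :=
  desc_of_pow π V R R' hle e heV he1
    (fun x hx => exists_pow_mul_mem R hcl he het (hR' x hx)) desc

end Integral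

end Fermat.Agent.S34.DescSym
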