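/-
S34 — FrobD.lean (helper42), block [MODULAR], level-`M` leaf [FrobD].

For a prime `q ∤ M`, a place `A` of `ℚ̄` over `q` and a base `K` with `BaseFacts`, let `R` be one
of the two charts `R0 M q A K`, `Rinf M q A K` of the level-`M` model (S18) and
`D = ρ_M(R) ⊆ k((Q))` its special fibre (`k = ResidueField A`).  Then `D` is stable under the
INVERSE coefficientwise Frobenius `Ψ` of `k((Q))`:

  `∀ x ∈ R, ∃ r ∈ R, red(r) ^ q = red(x)(Q^q)`      (`frob_lift`).

(`D` is the integral closure of `k[j̄^{±1}]` in `F_k(M)` by S18 [Nor]; `Ψ` fixes `j̄` and the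
generators `j̄(Q^d)` of `F_k(M)`.)  This is the modular input of the transversality of the two
branches at a crossing point of the level-`Mq` model: `α^* t` is a `q`-th power on the branch `𝔭₂`.
-/
import Mathlib
import Fermat.Prelude.Thm_ModularCurve_coeffMap_qExpand
import Fermat.Agent.S18.ModelAll
import Fermat.Agent.S18.IgusaStmt
import Fermat.Agent.S18.Nor
import Fermat.Agent.S18.GRel
import Fermat.Agent.S18.JNot
import Fermat.Agent.S37.KC

set_option autoImplicit false

noncomputable section

namespace Fermat.Agent.S34.FrobD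

open ModularCurve HahnSeries Fermat.Agent.S18 Fermat.Agent.S18.Arith Fermat.Agent.S18.ModelPlan

/-! ### Inverse coefficientwise Frobenius on Laurent series -/

section Frob

variable (k : Type*) [Field k] (q : ℕ) [Fact q.Prime] [CharP k q] [PerfectRing k q]

/-- The inverse coefficientwise Frobenius of `k((Q))`. -/
def frobInv : LaurentSeries k →+* LaurentSeries k :=
  coeffMap ((frobeniusEquiv k q).symm : k →+* k)

/-- `Ψ(y) ^ q = y(Q^q)`. -/
theorem frobInv_pow (y : LaurentSeries k) : frobInv k q y ^ q = qExpand k q y := by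
  rw [frobInv, Fermat.Agent.S37.KC.pow_char_eq_qExpand_frobenius q, coeffMap_coeffMap]
  have h : (frobenius k q).comp ((frobeniusEquiv k q).symm : k →+* k) = RingHom.id k := by
    ext c
    simp
  rw [h, coeffMap_id]

theorem frobInv_C (c : k) :
    frobInv k q (C c : LaurentSeries k) = C ((frobeniusEquiv k q).symm c) :=
  coeffMap_single _ _ _

end Frob

/-! ### An integrally closed subring of a field -/

/-- If a subring `D` of a field `L` is integrally closed (in its own fraction field), then an
element of `L` which is a fraction of elements of `D` and integral over `D` lies in `D`. -/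
theorem mem_of_isIntegral_of_frac {L : Type*} [Field L] (D : Subring L) [IsIntegrallyClosed D]
    {y a b : L} (ha : a ∈ D) (hb : b ∈ D) (hb0 : b ≠ 0) (hy : y * b = a)
    (hint : IsIntegral D y) : y ∈ D := by
  have hinj : Function.Injective (Algebra.ofId D L) := Subtype.val_injective
  let ι : FractionRing D →ₐ[D] L := IsFractionRing.liftAlgHom (g := Algebra.ofId D L) hinj
  have hι : ∀ d : D, ι (algebraMap D (FractionRing D) d) = (d : L) := fun d =>
    IsFractionRing.lift_algebraMap (g := (Algebra.ofId D L : D →+* L)) hinj d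
  have hb' : algebraMap D (FractionRing D) ⟨b, hb⟩ ≠ 0 := by
    intro h
    apply hb0
    have := (IsFractionRing.injective D (FractionRing D)) (h.trans (map_zero _).symm)
    exact congrArg Subtype.val this
  set z : FractionRing D :=
    algebraMap D (FractionRing D) ⟨a, ha⟩ / algebraMap D (FractionRing D) ⟨b, hb⟩ with hz
  have hzy : ι z = y := by
    rw [hz, map_div₀, hι, hι]
    exact div_eq_of_eq_mul hb0 hy.symm
  have hzint : IsIntegral D z := by
    rw [← isIntegral_algHom_iff ι ι.injective, hzy]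
    exact hint
  obtain ⟨d, hd⟩ := IsIntegrallyClosed.isIntegral_iff.mp hzint
  rw [← hzy, ← hd, hι]
  exact d.2


/-! ### The level-`M` chart: reductions -/

section Chart

variable {M : ℕ} [NeZero M] {A : ValuationSubring Qb} {K : IntermediateField ℚ Qb}

local notation "kA" => IsLocalRing.ResidueField A

omit [NeZero M] in
/-- The underlying series of a constant of a chart. -/
theorem coe_algebraMap_chart (R : Subalgebra (OK A K) (FK M K)) (c : OK A K) :
    (((algebraMap (OK A K) R c : R) : FK M K) : LaurentSeries Qb) = C (incO A K c) := rfl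

omit [NeZero M] in
/-- The reduction of a constant. -/
theorem rho_const (hG : GRelFacts A) {R : Subalgebra (OK A K) (FK M K)}
    (ρ : R →+* LaurentSeries kA)
    (hρ : ∀ x : R, GRel A ((x : FK M K) : LaurentSeries Qb) (ρ x)) (c : OK A K) :
    ρ (algebraMap (OK A K) R c) = C (resO A K c) :=
  hG.unique _ _ _ (hρ _) (ModelRed.gRel_const K hG c)

omit [NeZero M] in
/-- `O → k` is onto. -/
theorem exists_resO_eq (ℓ : ℕ) (hK : BaseFacts ℓ A K) (κ : kA) : ∃ c : OK A K, resO A K c = κ := by
  obtain ⟨a, rfl⟩ := IsLocalRing.residue_surjective κ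
  obtain ⟨x, hx, hax⟩ := hK.res_surj a
  exact ⟨⟨x, hx⟩, hax.symm⟩

omit [NeZero M] in
/-- Cancellation of `π`: an element of `F_K` in the Gauss ring is a fraction `a / b` of
elements of the chart with `ρ b ≠ 0`. -/
theorem exists_frac_rho_ne (hG : GRelFacts A) (hdvr : IsDiscreteValuationRing (OK A K))
    {R : Subalgebra (OK A K) (FK M K)} {t : FK M K} (hC : ChartFacts M A K R t)
    (ρ : R →+* LaurentSeries kA)
    (hρ : ∀ x : R, GRel A ((x : FK M K) : LaurentSeries Qb) (ρ x))
    (hker : RingHom.ker ρ = piIdeal M A K R)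
    (x : FK M K) (y : LaurentSeries kA) (hxy : GRel A ((x : FK M K) : LaurentSeries Qb) y) :
    ∃ a b : R, ρ b ≠ 0 ∧ x * (b : FK M K) = (a : FK M K) := by
  have := hdvr
  obtain ⟨π, hπ⟩ := IsDiscreteValuationRing.exists_irreducible (OK A K)
  have hnoe : IsNoetherianRing R := Nor.isNoetherianRing_chart hdvr hC
  have hspan : RingHom.ker ρ = Ideal.span {algebraMap (OK A K) R π} := by
    rw [hker, Nor.piIdeal_eq_span R hπ]
  set p : R := algebraMap (OK A K) R π with hp
  have hρp : ρ p = 0 := by
    rw [← RingHom.mem_ker, hspan]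
    exact Ideal.subset_span rfl
  have hpu : ¬ IsUnit p := by
    intro hu
    have := hu.map ρ
    rw [hρp] at this
    exact not_isUnit_zero this
  have hp0 : (p : FK M K) ≠ 0 := by
    intro h0
    have : p = 0 := Subtype.ext h0
    have hπ0 : algebraMap (OK A K) (FK M K) π = 0 := h0
    have hinj : Function.Injective (algebraMap (OK A K) (FK M K)) :=
      (injective_iff_map_eq_zero (algebraMap (OK A K) (FK M K))).mpr (fun c hc => by
        have h1 : (C (incO A K c) : LaurentSeries Qb) = 0 := congrArg Subtype.val hc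
        by_contra hne
        exact ModelRed.C_incO_ne_zero c hne h1)
    exact hπ.ne_zero (hinj (hπ0.trans (map_zero _).symm))
  -- the key induction
  have key : ∀ (n : ℕ) (a b' : R), x * ((p ^ n * b' : R) : FK M K) = (a : FK M K) →
      ∃ a' : R, x * (b' : FK M K) = (a' : FK M K) := by
    intro n
    induction n with
    | zero =>
      intro a b' h
      exact ⟨a, by simpa using h⟩
    | succ n ih =>
      intro a b' h
      have h1 : GRel A (((p ^ (n + 1) * b' : R) : FK M K) : LaurentSeries Qb) 0 := by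
        have h2 := hρ (p ^ (n + 1) * b')
        rwa [map_mul, map_pow, hρp, zero_pow (Nat.succ_ne_zero n), zero_mul] at h2
      have h3 : GRel A ((a : FK M K) : LaurentSeries Qb) (y * 0) := by
        have h4 := hG.mul _ _ _ _ hxy h1
        rw [← h]
        exact h4
      have h5 : ρ a = 0 := by
        have := hG.unique _ _ _ (hρ a) h3
        rwa [mul_zero] at this
      have h6 : a ∈ Ideal.span {p} := by
        rw [← hspan]
        exact h5
      obtain ⟨a1, ha1⟩ := Ideal.mem_span_singleton'.mp h6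
      apply ih a1 b'
      have h7 : (p : FK M K) * (x * ((p ^ n * b' : R) : FK M K)) = (p : FK M K) * (a1 : FK M K) := by
        have h8 : ((a : R) : FK M K) = (a1 : FK M K) * (p : FK M K) := by
          rw [← ha1]; rfl
        rw [mul_comm (p : FK M K) (a1 : FK M K), ← h8, ← h]
        push_cast
        ring
      exact mul_left_cancel₀ hp0 h7
  obtain ⟨a0, ha0, b0, hb0, hb0ne, hab⟩ := hC.frac x
  have hb0' : (⟨b0, hb0⟩ : R) ≠ 0 := fun h => hb0ne (congrArg Subtype.val h)
  obtain ⟨n, b', hb', hbeq⟩ := WfDvdMonoid.max_power_factor' hb0' hpu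
  obtain ⟨a', ha'⟩ := key n ⟨a0, ha0⟩ b' (by rw [← hbeq]; exact hab)
  refine ⟨a', b', ?_, ha'⟩
  intro h0
  apply hb'
  have : b' ∈ Ideal.span {p} := by
    rw [← hspan]
    exact h0
  exact Ideal.mem_span_singleton.mp this

end Chart

/-! ### The main theorem -/

section Main

variable {M : ℕ} [NeZero M] {q : ℕ} [Fact q.Prime] {A : ValuationSubring Qb}
  {K : IntermediateField ℚ Qb}

local notation "kA" => IsLocalRing.ResidueField A

/-- `j(q^d)` is Gauss-integral with reduction `j̄(Q^d)`. -/
theorem gRel_jd (hG : GRelFacts A) (d : ℕ) : GRel A (S28.jd Qb d) (S28.jd kA d) := by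
  have h := hG.of_int (S28.jd A d)
  rwa [S28.coeffMap_jd, S28.coeffMap_jd] at h

omit [NeZero M] in
/-- **[FrobD], one chart.** For a chart `R` of the level-`M` model with `ChartFacts` and
`IgusaAt`, whose coordinate has a reduction fixed by every coefficientwise endomorphism: the
special fibre `ρ(R)` is stable under the inverse coefficientwise Frobenius. -/
theorem frob_lift_chart (hA : A.LiesOverPrime q) (hK : BaseFacts q A K)
    {R : Subalgebra (OK A K) (FK M K)} {t : FK M K} (hC : ChartFacts M A K R t)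
    (hI : IgusaAt M A K R)
    (ht : ∃ yt : LaurentSeries kA, GRel A ((t : FK M K) : LaurentSeries Qb) yt ∧
      ∀ f : kA →+* kA, coeffMap f yt = yt)
    (x : FK M K) (hx : x ∈ R) (y : LaurentSeries kA)
    (hxy : GRel A ((x : FK M K) : LaurentSeries Qb) y) :
    ∃ r ∈ R, ∃ y' : LaurentSeries kA, GRel A ((r : FK M K) : LaurentSeries Qb) y' ∧
      y' ^ q = qExpand kA q y := by
  have hG : GRelFacts A := GRel.gRelStatement A
  have hdvr := hK.dvr
  have : CharP kA q := BaseRes.charP_residueField q A hA
  have : IsAlgClosed kA := BaseRes.isAlgClosed_residueField_Qb A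
  obtain ⟨π, hπ⟩ := IsDiscreteValuationRing.exists_irreducible (OK A K)
  obtain ⟨ρ, hρ, hker, hρF⟩ := hC.red
  obtain ⟨hprime, hic⟩ := Nor.norStatement M A K hdvr R t hC hI π hπ
  have hspan : RingHom.ker ρ = Ideal.span {algebraMap (OK A K) R π} := by
    rw [hker, Nor.piIdeal_eq_span R hπ]
  set Ψ : LaurentSeries kA →+* LaurentSeries kA := frobInv kA q with hΨ
  set D : Subring (LaurentSeries kA) := ρ.range with hD
  have : IsIntegrallyClosed D := by
    have h1 : IsIntegrallyClosed (R ⧸ RingHom.ker ρ) := by rw [hspan]; exact hic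
    exact @IsIntegrallyClosed.of_equiv (R ⧸ RingHom.ker ρ) D _ _
      (RingHom.quotientKerEquivRange ρ) h1
  have hmemD : ∀ z : R, ρ z ∈ D := fun z => ⟨z, rfl⟩
  -- constants lie in `D`
  have hconst : ∀ κ : kA, (C κ : LaurentSeries kA) ∈ D := by
    intro κ
    obtain ⟨c', hc'⟩ := exists_resO_eq q hK κ
    rw [← hc', ← rho_const hG ρ hρ c']
    exact hmemD _
  -- Step A: `Ψ` on the constants
  have hA1 : ∀ c : OK A K, Ψ (ρ (algebraMap (OK A K) R c)) ∈ D := by
    intro c
    rw [rho_const hG ρ hρ c, hΨ, frobInv_C]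
    exact hconst _
  -- Step B: `Ψ` fixes the reduction of the coordinate
  obtain ⟨yt, hyt, hfix⟩ := ht
  have hB1 : Ψ (ρ ⟨t, hC.t_mem⟩) ∈ D := by
    have h1 : ρ ⟨t, hC.t_mem⟩ = yt := hG.unique _ _ _ (hρ _) hyt
    rw [h1, hΨ, frobInv, hfix]
    exact ⟨⟨t, hC.t_mem⟩, h1⟩
  -- Step C: integrality
  set G : R →+* LaurentSeries kA := Ψ.comp ρ with hGdef
  have hle : Algebra.adjoin (OK A K) {t} ≤ R :=
    Algebra.adjoin_le (Set.singleton_subset_iff.mpr hC.t_mem)
  have hadj : ∀ (c : FK M K) (hc : c ∈ Algebra.adjoin (OK A K) {t}), G ⟨c, hle hc⟩ ∈ D := by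
    intro c hc
    induction hc using Algebra.adjoin_induction with
    | mem c hc =>
      rw [Set.mem_singleton_iff] at hc
      subst hc
      exact hB1
    | algebraMap r => exact hA1 r
    | add c c' hc hc' ihc ihc' =>
      have h1 : (⟨c + c', hle (add_mem hc hc')⟩ : R) = ⟨c, hle hc⟩ + ⟨c', hle hc'⟩ := rfl
      have h2 : G (⟨c, hle hc⟩ + ⟨c', hle hc'⟩) = G ⟨c, hle hc⟩ + G ⟨c', hle hc'⟩ :=
        G.map_add _ _
      rw [h1, h2]
      exact D.add_mem ihc ihc'
    | mul c c' hc hc' ihc ihc' =>
      have h1 : (⟨c * c', hle (mul_mem hc hc')⟩ : R) = ⟨c, hle hc⟩ * ⟨c', hle hc'⟩ := rfl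
      have h2 : G (⟨c, hle hc⟩ * ⟨c', hle hc'⟩) = G ⟨c, hle hc⟩ * G ⟨c', hle hc'⟩ :=
        G.map_mul _ _
      rw [h1, h2]
      exact D.mul_mem ihc ihc'
  have hint : ∀ (z : FK M K) (hz : z ∈ R), IsIntegral D (G ⟨z, hz⟩) := by
    intro z hz
    obtain ⟨p, hpm, hpe⟩ := hC.integral z hz
    let φ0 : Algebra.adjoin (OK A K) {t} →+* R := (Subalgebra.inclusion hle).toRingHom
    have e1 : Polynomial.eval₂ φ0 (⟨z, hz⟩ : R) p = 0 := by
      apply Subtype.ext
      have h1 := Polynomial.hom_eval₂ p φ0 R.val.toRingHom ⟨z, hz⟩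
      have h2 : (R.val.toRingHom.comp φ0) = algebraMap (Algebra.adjoin (OK A K) {t}) (FK M K) :=
        rfl
      rw [h2] at h1
      exact h1.trans hpe
    have e2 : Polynomial.eval₂ (G.comp φ0) (G ⟨z, hz⟩) p = 0 := by
      rw [← Polynomial.hom_eval₂, e1, map_zero]
    let φD : Algebra.adjoin (OK A K) {t} →+* D :=
      (G.comp φ0).codRestrict D (fun c => hadj c.1 c.2)
    refine ⟨p.map φD, hpm.map φD, ?_⟩
    rw [Polynomial.eval₂_map]
    exact e2
  have halg : ∀ c : kA, algebraMap kA (LaurentSeries kA) c = (C c : LaurentSeries kA) :=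
    fun c => algebraMap_laurentSeries_eq_single kA c
  -- Step D2: `Ψ` preserves `F_k(M)`
  have hD2 : ∀ z ∈ modularFunctionFieldFullC kA M, Ψ z ∈ modularFunctionFieldFullC kA M := by
    let T : Subfield (LaurentSeries kA) := (modularFunctionFieldFullC kA M).toSubfield.comap Ψ
    let T' : IntermediateField kA (LaurentSeries kA) := T.toIntermediateField (fun c => by
      show Ψ (algebraMap kA (LaurentSeries kA) c) ∈ modularFunctionFieldFullC kA M
      rw [halg, hΨ, frobInv_C, ← halg]
      exact IntermediateField.algebraMap_mem _ _)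
    have hle' : modularFunctionFieldFullC kA M ≤ T' := by
      rw [modularFunctionFieldFullC, IntermediateField.adjoin_le_iff]
      rintro s ⟨d, hd0, hdM, rfl⟩
      show Ψ (qExpand kA d (jqModC kA)) ∈ modularFunctionFieldFullC kA M
      rw [hΨ, frobInv, coeffMap_qExpand, coeffMap_jqModC]
      exact jqModCd_mem_full kA M hdM
    exact fun z hz => hle' hz
  -- Step D3: `F_k(M) ⊆ Frac D`
  have hD3 : ∀ z ∈ modularFunctionFieldFullC kA M,
      z ∈ Subfield.closure (D : Set (LaurentSeries kA)) := by
    let T' : IntermediateField kA (LaurentSeries kA) :=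
      (Subfield.closure (D : Set (LaurentSeries kA))).toIntermediateField (fun c => by
        rw [halg]
        exact Subfield.subset_closure (hconst c))
    have hle' : modularFunctionFieldFullC kA M ≤ T' := by
      rw [modularFunctionFieldFullC, IntermediateField.adjoin_le_iff]
      rintro s ⟨d, hd0, hdM, rfl⟩
      show qExpand kA d (jqModC kA) ∈ Subfield.closure (D : Set (LaurentSeries kA))
      have hd0' : d ≠ 0 := NeZero.ne d
      rw [← S28.jd_eq kA d]
      set xd : FK M K := ratEmb M K ⟨S28.jd ℚ d, ModelBasicCore.jd_mem_fullQ M hdM hd0'⟩ with hxd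
      have hxd1 : ((xd : FK M K) : LaurentSeries Qb) = S28.jd Qb d :=
        ModelBasicCore.coe_ratEmb_jd M K hdM hd0'
      have hrel : GRel A ((xd : FK M K) : LaurentSeries Qb) (S28.jd kA d) := by
        rw [hxd1]
        exact gRel_jd hG d
      obtain ⟨a, b, hb, hab⟩ := exists_frac_rho_ne hG hdvr hC ρ hρ hker xd _ hrel
      have h1 : S28.jd kA d * ρ b = ρ a := by
        refine hG.unique _ _ _ ?_ (hρ a)
        have h2 := hG.mul _ _ _ _ hrel (hρ b)
        have h3 : ((xd : FK M K) : LaurentSeries Qb) * (((b : R) : FK M K) : LaurentSeries Qb) =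
            (((a : R) : FK M K) : LaurentSeries Qb) := by
          rw [← hab]; rfl
        rwa [h3] at h2
      rw [eq_div_of_mul_eq hb h1]
      exact div_mem (Subfield.subset_closure (hmemD a)) (Subfield.subset_closure (hmemD b))
    exact fun z hz => hle' hz
  -- Step E
  have hy : y = ρ ⟨x, hx⟩ := hG.unique _ _ _ hxy (hρ ⟨x, hx⟩)
  have hΨD : Ψ y ∈ D := by
    have h1 : Ψ y ∈ Subfield.closure (D : Set (LaurentSeries kA)) :=
      hD3 _ (hD2 _ (hy ▸ hρF ⟨x, hx⟩))
    obtain ⟨a, ha, b, hb, hab⟩ := Subfield.mem_closure_iff.mp h1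
    rw [Subring.closure_eq] at ha hb
    by_cases hb0 : b = 0
    · rw [← hab, hb0, div_zero]
      exact D.zero_mem
    · refine mem_of_isIntegral_of_frac D ha hb hb0 ?_ ?_
      · rw [← hab, div_mul_cancel₀ _ hb0]
      · rw [hy]
        exact hint x hx
  obtain ⟨r, hr⟩ := hΨD
  refine ⟨r, r.2, ρ r, hρ r, ?_⟩
  rw [hr]
  exact frobInv_pow kA q y

end Main

/-! ### Both charts of the level-`M` model -/

/-- **[FrobD]** For a prime `q ∤ M`, a place `A` over `q` and a base `K` with `BaseFacts`: the
special fibres of the two charts `R0`, `Rinf` of the level-`M` model are stable under the inverse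
coefficientwise Frobenius: every `x` in the chart has a companion `r` in the chart with
`red(r) ^ q = red(x)(Q^q)`. -/
theorem frob_lift (M q : ℕ) [NeZero M] [Fact q.Prime] (hqM : ¬ q ∣ M) (A : ValuationSubring Qb)
    (hA : A.LiesOverPrime q) (K : IntermediateField ℚ Qb) (hK : BaseFacts q A K) :
    (∀ x ∈ R0 M q A K, ∀ y : LaurentSeries (IsLocalRing.ResidueField A),
      GRel A ((x : FK M K) : LaurentSeries Qb) y →
      ∃ r ∈ R0 M q A K, ∃ y' : LaurentSeries (IsLocalRing.ResidueField A),
        GRel A ((r : FK M K) : LaurentSeries Qb) y' ∧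
          y' ^ q = qExpand (IsLocalRing.ResidueField A) q y) ∧
    (∀ x ∈ Rinf M q A K, ∀ y : LaurentSeries (IsLocalRing.ResidueField A),
      GRel A ((x : FK M K) : LaurentSeries Qb) y →
      ∃ r ∈ Rinf M q A K, ∃ y' : LaurentSeries (IsLocalRing.ResidueField A),
        GRel A ((r : FK M K) : LaurentSeries Qb) y' ∧
          y' ^ q = qExpand (IsLocalRing.ResidueField A) q y) := by
  have hG := GRel.gRelStatement
  have hM : ModelFacts M q A K := ModelAll.modelStatement M q hqM A hA K hK
  obtain ⟨hI0, hIinf⟩ := IgusaStmt.igusaStatement M q hqM A hA K hK hM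
  have hj := JNot.gRel_jK hG M A K
  constructor
  · intro x hx y hxy
    exact frob_lift_chart hA hK hM.c0 hI0 ⟨_, hj, fun f => coeffMap_jqModC f⟩ x hx y hxy
  · intro x hx y hxy
    refine frob_lift_chart hA hK hM.cInf hIinf
      ⟨_, (hG A).inv _ _ hj (JNot.jqModC_ne_zero _), fun f => ?_⟩ x hx y hxy
    rw [map_inv₀, coeffMap_jqModC]

end Fermat.Agent.S34.FrobD
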