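import Mathlib
import Fermat.Agent.S34.LocPlan
import Fermat.Agent.S34.HorProd

/-!
# S34, abstract block: steps (S1)–(S3) of `LocPlan.LocAStatement` in the `LocPlan` vocabulary

From the hypothesis of `LocPlan.LocAStatement` (at every horizontal `PrincAt` prime `𝔮 ≤ n` either
`f` is a unit, or `f` is a unit times an `m`-th power and `𝔮` has a cut function) we produce
`e ≠ 0` such that `φ = f / e ^ m` is a unit at every horizontal `PrincAt` prime `𝔮 ≤ n`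
(`e = ∏ e_𝔮 ^ k_𝔮` over the finitely many primes where `f` is not a unit).
The engine is `HorProd.exists_unitAt_div_pow`.
-/

set_option autoImplicit false

namespace Fermat.Agent.S34.HorStmt

open Fermat.Agent.S34

/-- `LocPlan.UnitAt` and `HorProd.UnitAt` are the same predicate. -/
theorem unitAt_iff {R E : Type*} [CommRing R] [IsDomain R] [Field E] [Algebra R E]
    [IsFractionRing R E] (𝔮 : Ideal R) (x : E) :
    LocPlan.UnitAt 𝔮 x ↔ HorProd.UnitAt 𝔮 x := Iff.rfl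

/-- From a cut function `e` of `𝔮` and `f * x ^ m` a unit at `𝔮`: `f / e ^ (m k)` is a unit at
`𝔮` for some `k : ℤ` (`PrincOrd` applied to `x` with the local generator `e`). -/
theorem exists_zpow_of_cut (hOrd : LocPlan.PrincOrdStatement)
    (R : Type) [CommRing R] [IsDomain R] [IsNoetherianRing R]
    (E : Type) [Field E] [Algebra R E] [IsFractionRing R E]
    (𝔮 : Ideal R) (h𝔮 : 𝔮.IsPrime) (h0 : 𝔮 ≠ ⊥) (e : R) (he : e ∈ 𝔮)
    (hgen : ∀ y ∈ 𝔮, ∃ s : R, s ∉ 𝔮 ∧ ∃ c : R, s * y = c * e)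
    (f : E) (m : ℕ) (x : E) (hx0 : x ≠ 0) (hx : LocPlan.UnitAt 𝔮 (f * x ^ m)) :
    ∃ k : ℤ, HorProd.UnitAt 𝔮 (f / algebraMap R E e ^ ((m : ℤ) * k)) := by
  obtain ⟨k, hk⟩ := hOrd R E 𝔮 e h𝔮 h0 he hgen x hx0
  refine ⟨k, ?_⟩
  have h1 : HorProd.UnitAt 𝔮 (f * x ^ m) := hx
  have h2 : HorProd.UnitAt 𝔮 (x * algebraMap R E e ^ k) := hk
  have hxm : x ^ m ≠ 0 := pow_ne_zero m hx0
  have : f / algebraMap R E e ^ ((m : ℤ) * k) =
      (f * x ^ m) / (x * algebraMap R E e ^ k) ^ m := by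
    rw [mul_pow, ← zpow_natCast (algebraMap R E e ^ k) m, ← zpow_mul, mul_comm k (m : ℤ),
      mul_comm (x ^ m) _, mul_div_mul_right _ _ hxm]
  rw [this]
  exact h1.div (h2.pow m)

/-- **(S1)–(S3) of `LocAStatement`.**  Under the hypothesis of `LocPlan.LocAStatement` at `n`
there is `e ≠ 0` in `E` such that `f / e ^ m` is a unit at every prime `𝔮 ≤ n` with `ϖ ∉ 𝔮` and
`PrincAt 𝔮`. -/
theorem exists_phi_of_leaves (hMin : LocPlan.PrincMinStatement) (hOrd : LocPlan.PrincOrdStatement)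
    (R : Type) [CommRing R] [IsDomain R] [IsNoetherianRing R]
    (E : Type) [Field E] [Algebra R E] [IsFractionRing R E]
    (ϖ : R) (f : E) (m : ℕ) (n : Ideal R) (hf : f ≠ 0)
    (h : ∀ 𝔮 : Ideal R, 𝔮.IsPrime → 𝔮 ≤ n → ϖ ∉ 𝔮 → LocPlan.PrincAt 𝔮 →
      LocPlan.UnitAt 𝔮 f ∨
        ((∃ x : E, x ≠ 0 ∧ LocPlan.UnitAt 𝔮 (f * x ^ m)) ∧ ∃ e : R, LocPlan.Cut ϖ n 𝔮 e)) :
    ∃ e : E, e ≠ 0 ∧ ∀ 𝔮 : Ideal R, 𝔮.IsPrime → 𝔮 ≤ n → ϖ ∉ 𝔮 → LocPlan.PrincAt 𝔮 →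
      LocPlan.UnitAt 𝔮 (f / e ^ m) := by
  refine HorProd.exists_unitAt_div_pow (R := R) (E := E) n (fun 𝔮 => ϖ ∉ 𝔮) LocPlan.PrincAt
    ?_ m f hf ?_
  · intro 𝔮 hp hd
    refine ⟨hd.1, fun 𝔮' hp' hle => ?_⟩
    by_cases h0 : 𝔮' = ⊥
    · exact Or.inl h0
    · exact Or.inr (hMin R 𝔮' 𝔮 hp' hp hd hle h0)
  · intro 𝔮 hp hn hh hd
    rcases h 𝔮 hp hn hh hd with hu | ⟨⟨x, hx0, hx⟩, e, he, ha, hb⟩
    · exact Or.inl hu
    · exact Or.inr ⟨e, he, fun 𝔮' hp' hn' hh' hmem => ha 𝔮' hp' hn' hmem hh',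
        exists_zpow_of_cut hOrd R E 𝔮 hp hd.1 e he hb f m x hx0 hx⟩

end Fermat.Agent.S34.HorStmt
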