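/-
S34 — JFacts.lean (helper16): block [MODULAR], leaf [JFacts] (dealt by helper5).

Facts on the `w`-symmetric coordinate `J = j * w j` of `F_K = FK N K`, in HYPOTHESIS FORM over an
abstract ring automorphism `w` of `F_K`:

* `hw   : ∀ c : O, w (algebraMap O F_K c) = algebraMap O F_K c`      (`w` fixes `O = A ∩ K`),
* `hww  : ∀ x, w (w x) = x`                                            (`w` is an involution),
* `hint : IsIntegral O[j] (w j)`                                        (`j_q := w j` integral over `O[j]`),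
* `hjqi : (w j)⁻¹ ∈ V1`                                                (only for `J⁻¹ ∈ V1`).

In the application `w = wK` is the Atkin–Lehner involution at `q` of level `N = M q`, so that
`w j = j(q^q)`.  Any level `N`; no condition on the residue characteristic.

Delivered (for both coordinates `t = J` and `t = J⁻¹`):
`J ≠ 0`, `w t = t`, `t ∈ V1`, `w t ∈ V1`, `t ∈ V2`, `t ∈ V12`, `tauE t = t`,
`w`-stability of `chart t`, `chart J = chart j`, transcendence of `t` over `O`, algebraicity of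
`F_K` over `O[t]`, the three ring-theoretic properties of `chart t` (`ChartRing.all_of_isAlgebraic`),
`Model2.fin0` for `t = J`, the chart-side fields `ChartJ.ChartSide` for `t = J`, and the bundle
`SymFacts` / `symFacts`.
-/
import Mathlib
import Fermat.Agent.S34.ChartJ
import Fermat.Agent.S34.ChartRing
import Fermat.Agent.S34.GaussV
import Fermat.Agent.S34.TauAct

set_option autoImplicit false

noncomputable section

namespace Fermat.Agent.S34.JFacts

open Fermat.Agent.S18 Fermat.Agent.S18.Arith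

/-- The `w`-symmetric coordinate `J = j * w j`. -/
def J (N : ℕ) [NeZero N] (K : IntermediateField ℚ Qb) (w : FK N K ≃+* FK N K) : FK N K :=
  ChartJ.symJ N K (w (jK N K))

section Basic

variable (N : ℕ) [NeZero N] (K : IntermediateField ℚ Qb) (w : FK N K ≃+* FK N K)

theorem J_eq : J N K w = jK N K * w (jK N K) := rfl

/-- `w j ≠ 0`. -/
theorem wj_ne_zero : w (jK N K) ≠ 0 := fun h =>
  ModelBasicCore.jK_ne_zero N K (w.injective (by rw [h, map_zero]))

/-- `J ≠ 0`. -/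
theorem J_ne_zero : J N K w ≠ 0 := ChartJ.symJ_ne_zero N K (wj_ne_zero N K w)

/-- `J⁻¹ ≠ 0`. -/
theorem J_inv_ne_zero : (J N K w)⁻¹ ≠ 0 := inv_ne_zero (J_ne_zero N K w)

variable {N K w}

/-- `w J = J`. -/
theorem w_J (hww : ∀ x, w (w x) = x) : w (J N K w) = J N K w := by
  rw [J_eq, map_mul, hww, mul_comm]

/-- `w J⁻¹ = J⁻¹`. -/
theorem w_J_inv (hww : ∀ x, w (w x) = x) : w (J N K w)⁻¹ = (J N K w)⁻¹ := by
  rw [map_inv₀, w_J hww]

end Basic

/-! ### Integrality -/

section Integral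

variable {N : ℕ} [NeZero N] (A : ValuationSubring Qb) {K : IntermediateField ℚ Qb}
  {w : FK N K ≃+* FK N K}

/-- `j` is integral over `O[w j]` (the `w`-image of `hint`). -/
theorem jK_isIntegral
    (hw : ∀ c : OK A K, w (algebraMap (OK A K) (FK N K) c) = algebraMap (OK A K) (FK N K) c)
    (hww : ∀ x, w (w x) = x)
    (hint : IsIntegral (Algebra.adjoin (OK A K) {jK N K}) (w (jK N K))) :
    IsIntegral (Algebra.adjoin (OK A K) {w (jK N K)}) (jK N K) := by
  have h := ChartJ.isIntegral_adjoin_map (AlgEquiv.ofRingEquiv (f := w) hw) hint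
  have h1 : (AlgEquiv.ofRingEquiv (f := w) hw) (jK N K) = w (jK N K) := rfl
  have h2 : (AlgEquiv.ofRingEquiv (f := w) hw) (w (jK N K)) = jK N K := hww _
  rwa [h1, h2] at h

/-- `chart J = chart j`. -/
theorem chart_J_eq
    (hw : ∀ c : OK A K, w (algebraMap (OK A K) (FK N K) c) = algebraMap (OK A K) (FK N K) c)
    (hww : ∀ x, w (w x) = x)
    (hint : IsIntegral (Algebra.adjoin (OK A K) {jK N K}) (w (jK N K))) :
    chart N A K (J N K w) = chart N A K (jK N K) :=
  le_antisymm (ChartJ.chart_symJ_le N A K hint)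
    (ChartJ.chart_jK_le N A K (jK_isIntegral A hw hww hint))

/-- `x ∈ chart J ↔ x` integral over `O[j]`. -/
theorem mem_chart_J_iff
    (hw : ∀ c : OK A K, w (algebraMap (OK A K) (FK N K) c) = algebraMap (OK A K) (FK N K) c)
    (hww : ∀ x, w (w x) = x)
    (hint : IsIntegral (Algebra.adjoin (OK A K) {jK N K}) (w (jK N K))) {x : FK N K} :
    x ∈ chart N A K (J N K w) ↔ x ∈ chart N A K (jK N K) := by
  rw [chart_J_eq A hw hww hint]

/-- `chart j⁻¹ ≤ chart J⁻¹`. -/
theorem chart_jK_inv_le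
    (hint : IsIntegral (Algebra.adjoin (OK A K) {jK N K}) (w (jK N K))) :
    chart N A K (jK N K)⁻¹ ≤ chart N A K (J N K w)⁻¹ :=
  ChartJ.chart_jK_inv_le N A K (wj_ne_zero N K w) hint

/-- `chart (w j)⁻¹ ≤ chart J⁻¹`. -/
theorem chart_wj_inv_le
    (hw : ∀ c : OK A K, w (algebraMap (OK A K) (FK N K) c) = algebraMap (OK A K) (FK N K) c)
    (hww : ∀ x, w (w x) = x)
    (hint : IsIntegral (Algebra.adjoin (OK A K) {jK N K}) (w (jK N K))) :
    chart N A K (w (jK N K))⁻¹ ≤ chart N A K (J N K w)⁻¹ :=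
  ChartJ.chart_jq_inv_le N A K (jK_isIntegral A hw hww hint)

/-- `chart (w j) ≤ chart J`. -/
theorem chart_wj_le
    (hint : IsIntegral (Algebra.adjoin (OK A K) {jK N K}) (w (jK N K))) :
    chart N A K (w (jK N K)) ≤ chart N A K (J N K w) :=
  ChartJ.chart_jq_le N A K hint

/-! ### `w`-stability of the two charts -/

/-- `chart J` is `w`-stable. -/
theorem w_mem_chart_J
    (hw : ∀ c : OK A K, w (algebraMap (OK A K) (FK N K) c) = algebraMap (OK A K) (FK N K) c)
    (hww : ∀ x, w (w x) = x) {x : FK N K} (hx : x ∈ chart N A K (J N K w)) :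
    w x ∈ chart N A K (J N K w) :=
  ChartJ.map_mem_chart_symJ N A K w hw rfl (hww _) hx

/-- `chart J⁻¹` is `w`-stable. -/
theorem w_mem_chart_J_inv
    (hw : ∀ c : OK A K, w (algebraMap (OK A K) (FK N K) c) = algebraMap (OK A K) (FK N K) c)
    (hww : ∀ x, w (w x) = x) {x : FK N K} (hx : x ∈ chart N A K (J N K w)⁻¹) :
    w x ∈ chart N A K (J N K w)⁻¹ :=
  ChartJ.map_mem_chart_symJ_inv N A K w hw rfl (hww _) hx

theorem w_mem_chart_J_iff
    (hw : ∀ c : OK A K, w (algebraMap (OK A K) (FK N K) c) = algebraMap (OK A K) (FK N K) c)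
    (hww : ∀ x, w (w x) = x) {x : FK N K} :
    w x ∈ chart N A K (J N K w) ↔ x ∈ chart N A K (J N K w) :=
  ⟨fun h => by simpa [hww] using w_mem_chart_J A hw hww h, w_mem_chart_J A hw hww⟩

theorem w_mem_chart_J_inv_iff
    (hw : ∀ c : OK A K, w (algebraMap (OK A K) (FK N K) c) = algebraMap (OK A K) (FK N K) c)
    (hww : ∀ x, w (w x) = x) {x : FK N K} :
    w x ∈ chart N A K (J N K w)⁻¹ ↔ x ∈ chart N A K (J N K w)⁻¹ :=
  ⟨fun h => by simpa [hww] using w_mem_chart_J_inv A hw hww h, w_mem_chart_J_inv A hw hww⟩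

/-- `w⁻¹ = w` on `F_K`. -/
theorem w_symm_apply (hww : ∀ x, w (w x) = x) (x : FK N K) : w.symm x = w x := by
  rw [RingEquiv.symm_apply_eq, hww]

/-! ### Transcendence and algebraicity -/

/-- `J` is transcendental over `O`. -/
theorem transcendental_J
    (hw : ∀ c : OK A K, w (algebraMap (OK A K) (FK N K) c) = algebraMap (OK A K) (FK N K) c)
    (hww : ∀ x, w (w x) = x)
    (hint : IsIntegral (Algebra.adjoin (OK A K) {jK N K}) (w (jK N K))) :
    Transcendental (OK A K) (J N K w) :=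
  ChartJ.transcendental_symJ N A K (jK_isIntegral A hw hww hint)

/-- `J⁻¹` is transcendental over `O`. -/
theorem transcendental_J_inv
    (hw : ∀ c : OK A K, w (algebraMap (OK A K) (FK N K) c) = algebraMap (OK A K) (FK N K) c)
    (hww : ∀ x, w (w x) = x)
    (hint : IsIntegral (Algebra.adjoin (OK A K) {jK N K}) (w (jK N K))) :
    Transcendental (OK A K) (J N K w)⁻¹ := by
  intro h
  apply transcendental_J A hw hww hint
  have := h.inv
  rwa [inv_inv] at this

/-- `F_K` is algebraic over `O[J]`. -/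
theorem isAlgebraic_J
    (hw : ∀ c : OK A K, w (algebraMap (OK A K) (FK N K) c) = algebraMap (OK A K) (FK N K) c)
    (hww : ∀ x, w (w x) = x)
    (hint : IsIntegral (Algebra.adjoin (OK A K) {jK N K}) (w (jK N K))) (x : FK N K) :
    IsAlgebraic (Algebra.adjoin (OK A K) {J N K w}) x :=
  ChartJ.isAlgebraic_symJ N A K (jK_isIntegral A hw hww hint) x

/-- `F_K` is algebraic over `O[J⁻¹]`. -/
theorem isAlgebraic_J_inv
    (hw : ∀ c : OK A K, w (algebraMap (OK A K) (FK N K) c) = algebraMap (OK A K) (FK N K) c)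
    (hww : ∀ x, w (w x) = x)
    (hint : IsIntegral (Algebra.adjoin (OK A K) {jK N K}) (w (jK N K))) (x : FK N K) :
    IsAlgebraic (Algebra.adjoin (OK A K) {(J N K w)⁻¹}) x := by
  obtain ⟨a, ha, b, hb, hb0, hab⟩ :=
    ChartRing.frac_of_isAlgebraic N A K (J N K w) (isAlgebraic_J A hw hww hint) x
  obtain ⟨n, hn⟩ := ChartJ.glue N A K (J_ne_zero N K w) ha
  obtain ⟨m, hm⟩ := ChartJ.glue N A K (J_ne_zero N K w) hb
  have hJi : IsIntegral (Algebra.adjoin (OK A K) {(J N K w)⁻¹}) (J N K w)⁻¹ :=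
    (mem_chart_iff N A K).mp (ChartJ.self_mem_chart N A K (J N K w)⁻¹)
  have h1 : IsIntegral (Algebra.adjoin (OK A K) {(J N K w)⁻¹}) (a * (J N K w)⁻¹ ^ (n + m)) := by
    rw [pow_add, ← mul_assoc]
    exact ((mem_chart_iff N A K).mp hn).mul (hJi.pow m)
  have h2 : IsIntegral (Algebra.adjoin (OK A K) {(J N K w)⁻¹}) (b * (J N K w)⁻¹ ^ (n + m)) := by
    rw [add_comm, pow_add, ← mul_assoc]
    exact ((mem_chart_iff N A K).mp hm).mul (hJi.pow n)
  refine ModelFin.isAlgebraic_of_frac h1 h2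
    (mul_ne_zero hb0 (pow_ne_zero _ (J_inv_ne_zero N K w))) ?_
  rw [← mul_assoc, hab]

/-! ### The charts as rings -/

/-- `chart J` is a noetherian integrally closed domain with fraction field `F_K`. -/
theorem ring_J (hdvr : IsDiscreteValuationRing (OK A K))
    (hw : ∀ c : OK A K, w (algebraMap (OK A K) (FK N K) c) = algebraMap (OK A K) (FK N K) c)
    (hww : ∀ x, w (w x) = x)
    (hint : IsIntegral (Algebra.adjoin (OK A K) {jK N K}) (w (jK N K))) :
    IsFractionRing (chart N A K (J N K w)) (FK N K) ∧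
      IsIntegrallyClosed (chart N A K (J N K w)) ∧ IsNoetherianRing (chart N A K (J N K w)) :=
  ChartRing.all_of_isAlgebraic N A K hdvr (J N K w) (transcendental_J A hw hww hint)
    (isAlgebraic_J A hw hww hint)

/-- `chart J⁻¹` is a noetherian integrally closed domain with fraction field `F_K`. -/
theorem ring_J_inv (hdvr : IsDiscreteValuationRing (OK A K))
    (hw : ∀ c : OK A K, w (algebraMap (OK A K) (FK N K) c) = algebraMap (OK A K) (FK N K) c)
    (hww : ∀ x, w (w x) = x)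
    (hint : IsIntegral (Algebra.adjoin (OK A K) {jK N K}) (w (jK N K))) :
    IsFractionRing (chart N A K (J N K w)⁻¹) (FK N K) ∧
      IsIntegrallyClosed (chart N A K (J N K w)⁻¹) ∧
        IsNoetherianRing (chart N A K (J N K w)⁻¹) :=
  ChartRing.all_of_isAlgebraic N A K hdvr (J N K w)⁻¹ (transcendental_J_inv A hw hww hint)
    (isAlgebraic_J_inv A hw hww hint)

/-- `Model2.fin0` for `t = J`. -/
theorem fin0_J
    (hw : ∀ c : OK A K, w (algebraMap (OK A K) (FK N K) c) = algebraMap (OK A K) (FK N K) c)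
    (hww : ∀ x, w (w x) = x)
    (hint : IsIntegral (Algebra.adjoin (OK A K) {jK N K}) (w (jK N K))) :
    ∃ s : Finset (FK N K), (chart N A K (J N K w) : Set (FK N K)) ⊆
      Submodule.span (Algebra.adjoin (OK A K) {J N K w}) (s : Set (FK N K)) :=
  ModelFin.fin_chart N A K (J N K w) (transcendental_J A hw hww hint)
    (isAlgebraic_J A hw hww hint)

/-- The same for `t = J⁻¹`. -/
theorem fin0_J_inv
    (hw : ∀ c : OK A K, w (algebraMap (OK A K) (FK N K) c) = algebraMap (OK A K) (FK N K) c)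
    (hww : ∀ x, w (w x) = x)
    (hint : IsIntegral (Algebra.adjoin (OK A K) {jK N K}) (w (jK N K))) :
    ∃ s : Finset (FK N K), (chart N A K (J N K w)⁻¹ : Set (FK N K)) ⊆
      Submodule.span (Algebra.adjoin (OK A K) {(J N K w)⁻¹}) (s : Set (FK N K)) :=
  ModelFin.fin_chart N A K (J N K w)⁻¹ (transcendental_J_inv A hw hww hint)
    (isAlgebraic_J_inv A hw hww hint)

/-- The chart-side fields of `Cech2Plan.Setting` for the coordinate `J`. -/
theorem chartSide_J {m : ℕ} (hm : m ≠ 0)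
    (hw : ∀ c : OK A K, w (algebraMap (OK A K) (FK N K) c) = algebraMap (OK A K) (FK N K) c)
    (hww : ∀ x, w (w x) = x)
    (hint : IsIntegral (Algebra.adjoin (OK A K) {jK N K}) (w (jK N K))) :
    ChartJ.ChartSide N A K (J N K w) m :=
  ChartJ.chartSide_symJ N A K hm (wj_ne_zero N K w) (jK_isIntegral A hw hww hint)

end Integral

/-! ### The Gauss valuation rings -/

section Gauss

variable {N : ℕ} [NeZero N] {A : ValuationSubring Qb} {K : IntermediateField ℚ Qb}
  {w : FK N K ≃+* FK N K} (hdvr : IsDiscreteValuationRing (OK A K))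

/-- `w j ∈ V1`. -/
theorem wj_mem_V1 (hint : IsIntegral (Algebra.adjoin (OK A K) {jK N K}) (w (jK N K))) :
    w (jK N K) ∈ GaussV.V1 N A K hdvr :=
  GaussV.mem_V1_of_isIntegral hdvr (jK N K) (GaussV.jK_mem_V1 hdvr) hint

/-- `J ∈ V1`. -/
theorem J_mem_V1 (hint : IsIntegral (Algebra.adjoin (OK A K) {jK N K}) (w (jK N K))) :
    J N K w ∈ GaussV.V1 N A K hdvr :=
  mul_mem (GaussV.jK_mem_V1 hdvr) (wj_mem_V1 hdvr hint)

/-- `J⁻¹ ∈ V1`. -/
theorem J_inv_mem_V1 (hjqi : (w (jK N K))⁻¹ ∈ GaussV.V1 N A K hdvr) :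
    (J N K w)⁻¹ ∈ GaussV.V1 N A K hdvr := by
  rw [J_eq, mul_inv]
  exact mul_mem (GaussV.jK_inv_mem_V1 hdvr) hjqi

/-- `w J ∈ V1`. -/
theorem w_J_mem_V1 (hww : ∀ x, w (w x) = x)
    (hint : IsIntegral (Algebra.adjoin (OK A K) {jK N K}) (w (jK N K))) :
    w (J N K w) ∈ GaussV.V1 N A K hdvr := by
  rw [w_J hww]
  exact J_mem_V1 hdvr hint

/-- `w J⁻¹ ∈ V1`. -/
theorem w_J_inv_mem_V1 (hww : ∀ x, w (w x) = x)
    (hjqi : (w (jK N K))⁻¹ ∈ GaussV.V1 N A K hdvr) :
    w (J N K w)⁻¹ ∈ GaussV.V1 N A K hdvr := by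
  rw [w_J_inv hww]
  exact J_inv_mem_V1 hdvr hjqi

/-- `J ∈ V2`. -/
theorem J_mem_V2 (hww : ∀ x, w (w x) = x)
    (hint : IsIntegral (Algebra.adjoin (OK A K) {jK N K}) (w (jK N K))) :
    J N K w ∈ GaussV.V2 w hdvr :=
  (GaussV.mem_V2_iff w hdvr).mpr (w_J_mem_V1 hdvr hww hint)

/-- `J⁻¹ ∈ V2`. -/
theorem J_inv_mem_V2 (hww : ∀ x, w (w x) = x)
    (hjqi : (w (jK N K))⁻¹ ∈ GaussV.V1 N A K hdvr) :
    (J N K w)⁻¹ ∈ GaussV.V2 w hdvr :=
  (GaussV.mem_V2_iff w hdvr).mpr (w_J_inv_mem_V1 hdvr hww hjqi)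

/-- `J ∈ V12 = V1 ⊓ V2`. -/
theorem J_mem_V12 (hww : ∀ x, w (w x) = x)
    (hint : IsIntegral (Algebra.adjoin (OK A K) {jK N K}) (w (jK N K))) :
    J N K w ∈ GaussV.V12 w hdvr :=
  (GaussV.mem_V12_iff w hdvr).mpr ⟨J_mem_V1 hdvr hint, w_J_mem_V1 hdvr hww hint⟩

/-- `J⁻¹ ∈ V12 = V1 ⊓ V2`. -/
theorem J_inv_mem_V12 (hww : ∀ x, w (w x) = x)
    (hjqi : (w (jK N K))⁻¹ ∈ GaussV.V1 N A K hdvr) :
    (J N K w)⁻¹ ∈ GaussV.V12 w hdvr :=
  (GaussV.mem_V12_iff w hdvr).mpr ⟨J_inv_mem_V1 hdvr hjqi, w_J_inv_mem_V1 hdvr hww hjqi⟩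

/-- `chart J ⊆ V1`. -/
theorem chart_J_le_V1 (hint : IsIntegral (Algebra.adjoin (OK A K) {jK N K}) (w (jK N K))) :
    ∀ x ∈ chart N A K (J N K w), x ∈ GaussV.V1 N A K hdvr :=
  GaussV.chart_le_V1 hdvr _ (J_mem_V1 hdvr hint)

/-- `chart J⁻¹ ⊆ V1`. -/
theorem chart_J_inv_le_V1 (hjqi : (w (jK N K))⁻¹ ∈ GaussV.V1 N A K hdvr) :
    ∀ x ∈ chart N A K (J N K w)⁻¹, x ∈ GaussV.V1 N A K hdvr :=
  GaussV.chart_le_V1 hdvr _ (J_inv_mem_V1 hdvr hjqi)

/-- `chart J ⊆ V2`. -/
theorem chart_J_le_V2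
    (hw : ∀ c : OK A K, w (algebraMap (OK A K) (FK N K) c) = algebraMap (OK A K) (FK N K) c)
    (hww : ∀ x, w (w x) = x)
    (hint : IsIntegral (Algebra.adjoin (OK A K) {jK N K}) (w (jK N K))) :
    ∀ x ∈ chart N A K (J N K w), x ∈ GaussV.V2 w hdvr := fun _ hx =>
  (GaussV.mem_V2_iff w hdvr).mpr (chart_J_le_V1 hdvr hint _ (w_mem_chart_J A hw hww hx))

/-- `chart J⁻¹ ⊆ V2`. -/
theorem chart_J_inv_le_V2
    (hw : ∀ c : OK A K, w (algebraMap (OK A K) (FK N K) c) = algebraMap (OK A K) (FK N K) c)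
    (hww : ∀ x, w (w x) = x)
    (hjqi : (w (jK N K))⁻¹ ∈ GaussV.V1 N A K hdvr) :
    ∀ x ∈ chart N A K (J N K w)⁻¹, x ∈ GaussV.V2 w hdvr := fun _ hx =>
  (GaussV.mem_V2_iff w hdvr).mpr (chart_J_inv_le_V1 hdvr hjqi _ (w_mem_chart_J_inv A hw hww hx))

end Gauss

/-! ### The inertia action -/

section Tau

variable {N : ℕ} [NeZero N] {K : IntermediateField ℚ Qb} {w : FK N K ≃+* FK N K}

/-- `τ J = J` as soon as `w` commutes with the coefficientwise action of `τ`. -/
theorem tauE_J {τ : TauAct.GQ} (hK : TauAct.Stable K τ)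
    (hcomm : ∀ x, w (TauAct.tauE N hK x) = TauAct.tauE N hK (w x)) :
    TauAct.tauE N hK (J N K w) = J N K w := by
  rw [J_eq, map_mul, ← hcomm, TauAct.tauE_jK]

/-- `τ J⁻¹ = J⁻¹`. -/
theorem tauE_J_inv {τ : TauAct.GQ} (hK : TauAct.Stable K τ)
    (hcomm : ∀ x, w (TauAct.tauE N hK x) = TauAct.tauE N hK (w x)) :
    TauAct.tauE N hK (J N K w)⁻¹ = (J N K w)⁻¹ := by
  rw [map_inv₀, tauE_J hK hcomm]

/-- `τ (w j) = w j`. -/
theorem tauE_wj {τ : TauAct.GQ} (hK : TauAct.Stable K τ)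
    (hcomm : ∀ x, w (TauAct.tauE N hK x) = TauAct.tauE N hK (w x)) :
    TauAct.tauE N hK (w (jK N K)) = w (jK N K) := by
  rw [← hcomm, TauAct.tauE_jK]

end Tau

/-! ### The bundle -/

/-- Everything the assembly needs about ONE of the two coordinates `t ∈ {J, J⁻¹}` (no inertia
element involved). -/
structure CoordFacts (N : ℕ) [NeZero N] (A : ValuationSubring Qb) (K : IntermediateField ℚ Qb)
    (hdvr : IsDiscreteValuationRing (OK A K)) (w : FK N K ≃+* FK N K) (t : FK N K) : Prop where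
  ne_zero : t ≠ 0
  w_fix : w t = t
  mem_V1 : t ∈ GaussV.V1 N A K hdvr
  w_mem_V1 : w t ∈ GaussV.V1 N A K hdvr
  mem_V2 : t ∈ GaussV.V2 w hdvr
  mem_V12 : t ∈ GaussV.V12 w hdvr
  le_V1 : ∀ x ∈ chart N A K t, x ∈ GaussV.V1 N A K hdvr
  le_V2 : ∀ x ∈ chart N A K t, x ∈ GaussV.V2 w hdvr
  w_chart : ∀ x ∈ chart N A K t, w x ∈ chart N A K t
  w_chart_iff : ∀ x : FK N K, w x ∈ chart N A K t ↔ x ∈ chart N A K t
  transc : Transcendental (OK A K) t
  alg : ∀ x : FK N K, IsAlgebraic (Algebra.adjoin (OK A K) {t}) x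
  frac : IsFractionRing (chart N A K t) (FK N K)
  intcl : IsIntegrallyClosed (chart N A K t)
  noeth : IsNoetherianRing (chart N A K t)
  fin : ∃ s : Finset (FK N K), (chart N A K t : Set (FK N K)) ⊆
    Submodule.span (Algebra.adjoin (OK A K) {t}) (s : Set (FK N K))

/-- The facts on the symmetric coordinate `J` and on `J⁻¹`, bundled. -/
structure SymFacts (N : ℕ) [NeZero N] (A : ValuationSubring Qb) (K : IntermediateField ℚ Qb)
    (hdvr : IsDiscreteValuationRing (OK A K)) (w : FK N K ≃+* FK N K) : Prop where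
  c0 : CoordFacts N A K hdvr w (J N K w)
  cInf : CoordFacts N A K hdvr w (J N K w)⁻¹
  chart_eq : chart N A K (J N K w) = chart N A K (jK N K)
  chart_inv_le : chart N A K (jK N K)⁻¹ ≤ chart N A K (J N K w)⁻¹
  chart_wj_inv_le : chart N A K (w (jK N K))⁻¹ ≤ chart N A K (J N K w)⁻¹
  side : ∀ m : ℕ, m ≠ 0 → ChartJ.ChartSide N A K (J N K w) m

/-- **[JFacts]** all facts on `J = j * w j` from the four hypotheses on `w`. -/
theorem symFacts {N : ℕ} [NeZero N] {A : ValuationSubring Qb} {K : IntermediateField ℚ Qb}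
    (hdvr : IsDiscreteValuationRing (OK A K)) {w : FK N K ≃+* FK N K}
    (hw : ∀ c : OK A K, w (algebraMap (OK A K) (FK N K) c) = algebraMap (OK A K) (FK N K) c)
    (hww : ∀ x, w (w x) = x)
    (hint : IsIntegral (Algebra.adjoin (OK A K) {jK N K}) (w (jK N K)))
    (hjqi : (w (jK N K))⁻¹ ∈ GaussV.V1 N A K hdvr) :
    SymFacts N A K hdvr w where
  c0 :=
    { ne_zero := J_ne_zero N K w
      w_fix := w_J hww
      mem_V1 := J_mem_V1 hdvr hint
      w_mem_V1 := w_J_mem_V1 hdvr hww hint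
      mem_V2 := J_mem_V2 hdvr hww hint
      mem_V12 := J_mem_V12 hdvr hww hint
      le_V1 := chart_J_le_V1 hdvr hint
      le_V2 := chart_J_le_V2 hdvr hw hww hint
      w_chart := fun _ hx => w_mem_chart_J A hw hww hx
      w_chart_iff := fun _ => w_mem_chart_J_iff A hw hww
      transc := transcendental_J A hw hww hint
      alg := isAlgebraic_J A hw hww hint
      frac := (ring_J A hdvr hw hww hint).1
      intcl := (ring_J A hdvr hw hww hint).2.1
      noeth := (ring_J A hdvr hw hww hint).2.2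
      fin := fin0_J A hw hww hint }
  cInf :=
    { ne_zero := J_inv_ne_zero N K w
      w_fix := w_J_inv hww
      mem_V1 := J_inv_mem_V1 hdvr hjqi
      w_mem_V1 := w_J_inv_mem_V1 hdvr hww hjqi
      mem_V2 := J_inv_mem_V2 hdvr hww hjqi
      mem_V12 := J_inv_mem_V12 hdvr hww hjqi
      le_V1 := chart_J_inv_le_V1 hdvr hjqi
      le_V2 := chart_J_inv_le_V2 hdvr hw hww hjqi
      w_chart := fun _ hx => w_mem_chart_J_inv A hw hww hx
      w_chart_iff := fun _ => w_mem_chart_J_inv_iff A hw hww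
      transc := transcendental_J_inv A hw hww hint
      alg := isAlgebraic_J_inv A hw hww hint
      frac := (ring_J_inv A hdvr hw hww hint).1
      intcl := (ring_J_inv A hdvr hw hww hint).2.1
      noeth := (ring_J_inv A hdvr hw hww hint).2.2
      fin := fin0_J_inv A hw hww hint }
  chart_eq := chart_J_eq A hw hww hint
  chart_inv_le := chart_jK_inv_le A hint
  chart_wj_inv_le := chart_wj_inv_le A hw hww hint
  side := fun _ hm => chartSide_J A hm hw hww hint

end Fermat.Agent.S34.JFacts
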