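/-
S34 — JFactsWK.lean (helper16): block [MODULAR], leaf [JFacts] specialised to the Atkin–Lehner
involution `w = wK` of level `M * q` (`q` prime, `q ∤ M`).

* `symFactsK`     : `JFacts.SymFacts (M * q) A K hdvr (wK M q hq hqM K)`, UNCONDITIONAL
                    (the four hypotheses of `JFacts.symFacts` are discharged from `S34/WK.lean`
                    and `S34/V12.lean`);
* `J_eq_JK`, `J_eq_V12JK` : the symmetric coordinates `JFacts.J … wK`, `WKInst.JK`, `V12.JK`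
                    coincide;
* `coordFacts_JK`, `coordFacts_JK_inv` : `JFacts.CoordFacts` for `t = WKInst.JK` and `t = JK⁻¹`;
* `tauE_J`, `tauE_J_inv` : the inertia action fixes `J`, `J⁻¹`.
-/
import Mathlib
import Fermat.Agent.S34.JFacts
import Fermat.Agent.S34.WK
import Fermat.Agent.S34.V12
import Fermat.Agent.S34.WKInst

set_option autoImplicit false

noncomputable section

namespace Fermat.Agent.S34.JFactsWK

open Fermat.Agent.S18 Fermat.Agent.S18.Arith

variable (M q : ℕ) [NeZero M] [NeZero q] (hq : q.Prime) (hqM : ¬ q ∣ M)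
variable (A : ValuationSubring Qb) (K : IntermediateField ℚ Qb)

/-- `w_q j = j_q` is integral over `O[j]`. -/
theorem isIntegral_wK_jK :
    IsIntegral (Algebra.adjoin (OK A K) {jK (M * q) K}) (WK.wK M q hq hqM K (jK (M * q) K)) := by
  rw [WK.wK_jK]
  exact WK.isIntegral_jqK M q hq hqM A K

variable {A K}

/-- `(w_q j)⁻¹ ∈ V1`. -/
theorem wK_jK_inv_mem_V1 (hdvr : IsDiscreteValuationRing (OK A K)) :
    (WK.wK M q hq hqM K (jK (M * q) K))⁻¹ ∈ GaussV.V1 (M * q) A K hdvr :=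
  V12.wj_inv_mem_V1 (WK.wK M q hq hqM K) hdvr q (V12.coe_wK_jK M q hq hqM K)

/-- **[JFacts] at `w = w_q`**, unconditional. -/
theorem symFactsK (hdvr : IsDiscreteValuationRing (OK A K)) :
    JFacts.SymFacts (M * q) A K hdvr (WK.wK M q hq hqM K) :=
  JFacts.symFacts hdvr (WK.wK_algebraMap_OK M q hq hqM K A) (WK.wK_wK M q hq hqM K)
    (isIntegral_wK_jK M q hq hqM A K) (wK_jK_inv_mem_V1 M q hq hqM hdvr)

variable (K)

/-- `JFacts.J` at `w = w_q` is `WKInst.JK`. -/
theorem J_eq_JK : JFacts.J (M * q) K (WK.wK M q hq hqM K) = WKInst.JK M q hq hqM K := by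
  rw [JFacts.J_eq, WK.wK_jK]
  rfl

/-- `JFacts.J` at `w = w_q` is `V12.JK`. -/
theorem J_eq_V12JK : JFacts.J (M * q) K (WK.wK M q hq hqM K) = V12.JK M q hq hqM K := by
  rw [JFacts.J_eq, WK.wK_jK]
  rfl

variable {K}

/-- `JFacts.CoordFacts` for the coordinate `t = WKInst.JK`. -/
theorem coordFacts_JK (hdvr : IsDiscreteValuationRing (OK A K)) :
    JFacts.CoordFacts (M * q) A K hdvr (WK.wK M q hq hqM K) (WKInst.JK M q hq hqM K) := by
  rw [← J_eq_JK]
  exact (symFactsK M q hq hqM hdvr).c0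

/-- `JFacts.CoordFacts` for the coordinate `t = (WKInst.JK)⁻¹`. -/
theorem coordFacts_JK_inv (hdvr : IsDiscreteValuationRing (OK A K)) :
    JFacts.CoordFacts (M * q) A K hdvr (WK.wK M q hq hqM K) (WKInst.JK M q hq hqM K)⁻¹ := by
  rw [← J_eq_JK]
  exact (symFactsK M q hq hqM hdvr).cInf

/-- The inertia action fixes `J`. -/
theorem tauE_J {τ : Qb ≃ₐ[ℚ] Qb} (hK : TauAct.Stable K τ) :
    TauAct.tauE (M * q) hK (JFacts.J (M * q) K (WK.wK M q hq hqM K)) =
      JFacts.J (M * q) K (WK.wK M q hq hqM K) :=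
  JFacts.tauE_J hK (WKInst.wK_tauE M q hq hqM hK)

/-- The inertia action fixes `J⁻¹`. -/
theorem tauE_J_inv {τ : Qb ≃ₐ[ℚ] Qb} (hK : TauAct.Stable K τ) :
    TauAct.tauE (M * q) hK (JFacts.J (M * q) K (WK.wK M q hq hqM K))⁻¹ =
      (JFacts.J (M * q) K (WK.wK M q hq hqM K))⁻¹ :=
  JFacts.tauE_J_inv hK (WKInst.wK_tauE M q hq hqM hK)

end Fermat.Agent.S34.JFactsWK
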