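/-
S34 — LocAB.lean (helper78): leaf [N4] `LocAStatement` of the abstract plan `S34/LocPlan.lean`,
in hypothesis form over the [N3] leaves (B-copy; independent of `S34/LocA.lean`):

    locA_of_leaves : KrullUnitStatement → PrincMinStatement → PrincOrdStatement → LocAStatement

Proof (steps (S0)–(S7) of the plan).  `p = algebraMap O R π`, `ϖ` its image in `E`.
(S0) an automorphism `σ` with `TauHyp` restricts to a ring automorphism `ρ` of `R` with
     `ρ r - r ∈ p R`; hence `ρ r ∈ I ↔ r ∈ I` for every ideal `I ∋ p`, and `ρ p = p * unit`.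
(S1)–(S3) `HorProd.exists_unitAt_div_pow`: `φ := f / e ^ m` is a unit at every horizontal
     `PrincAt` prime `≤ n`.
(S4) `ε := τ φ / φ` is a unit at every `PrincAt` prime `𝔮 ≤ n`: horizontal — pull `𝔮` back along
     `ρ`; vertical — `𝔮 = P i` (`PrincMin`) and `ε` is a unit of `V i`.
(S5) `KrullUnit`: `ε = a₀ / s₀` with `a₀, s₀ ∉ n`.
(S6) with `ψ := τ e / e` and `a := ψ / τ' ψ`: `secondDiff τ τ' f * a ^ m = τ' ε / ε`, and
     `(ρ' s₀ * a₀) * (τ' ε / ε - 1) ∈ p R`.
(S7) `a ≡ 1` modulo `ϖ (V i)`.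
-/
import Mathlib
import Fermat.Agent.S34.LocPlan
import Fermat.Agent.S34.HorProd

set_option autoImplicit false
set_option linter.unusedSectionVars false

namespace Fermat.Agent.S34.LocAB

open Fermat.Agent.S34.LocPlan

/-! ### Units of a valuation subring -/

section VU

variable {E : Type*} [Field E]

/-- `x` is a unit of the valuation subring `W`: `x ≠ 0`, `x ∈ W`, `x⁻¹ ∈ W`. -/
def VU (W : ValuationSubring E) (x : E) : Prop := x ≠ 0 ∧ x ∈ W ∧ x⁻¹ ∈ W

variable {W : ValuationSubring E} {x y : E}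

theorem VU.mul (hx : VU W x) (hy : VU W y) : VU W (x * y) :=
  ⟨mul_ne_zero hx.1 hy.1, mul_mem hx.2.1 hy.2.1, by rw [mul_inv]; exact mul_mem hx.2.2 hy.2.2⟩

theorem VU.inv (hx : VU W x) : VU W x⁻¹ :=
  ⟨inv_ne_zero hx.1, hx.2.2, by rw [inv_inv]; exact hx.2.1⟩

theorem VU.div (hx : VU W x) (hy : VU W y) : VU W (x / y) := by
  rw [div_eq_mul_inv]; exact hx.mul hy.inv

theorem VU.pow (hx : VU W x) (k : ℕ) : VU W (x ^ k) :=
  ⟨pow_ne_zero k hx.1, pow_mem hx.2.1 k, by rw [← inv_pow]; exact pow_mem hx.2.2 k⟩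

theorem VU.zpow (hx : VU W x) (k : ℤ) : VU W (x ^ k) := by
  obtain ⟨j, rfl | rfl⟩ := k.eq_nat_or_neg
  · rw [zpow_natCast]; exact hx.pow j
  · rw [zpow_neg, zpow_natCast]; exact (hx.pow j).inv

/-- The field identity behind (S6). -/
theorem key_identity (f e F1 F2 F3 E1 E2 E3 : E) (m : ℕ)
    (hf : f ≠ 0) (he : e ≠ 0) (h1 : F1 ≠ 0) (h2 : F2 ≠ 0) (h3 : F3 ≠ 0) (h4 : E1 ≠ 0)
    (h5 : E2 ≠ 0) (h6 : E3 ≠ 0) :
    F3 * f / (F1 * F2) * ((E1 / e) / (E3 / E2)) ^ m =
      ((F3 / E3 ^ m) / (F2 / E2 ^ m)) / ((F1 / E1 ^ m) / (f / e ^ m)) := by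
  rw [div_pow, div_pow, div_pow]
  field_simp

/-- The field identity behind the last step of (S6). -/
theorem aux_identity (ε ε' S A xs xa : E) (hε : ε ≠ 0) (h₀ : ε * xs = xa) (h₁ : ε' * S = A) :
    S * xa * (ε' / ε - 1) = A * xs - S * xa := by
  subst h₀ h₁
  field_simp

end VU

section Chart

variable {O : Type*} [CommRing O] {R : Type*} [CommRing R] [Algebra O R]
  {E : Type*} [Field E] [Algebra R E]
  {π : O} {V : Fin 2 → ValuationSubring E} {P : Fin 2 → Ideal R}

/-! ### The component valuation rings -/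

theorem pi_ne_zero (H : ChartHyp π V P) : algebraMap R E (algebraMap O R π) ≠ 0 := by
  intro h
  apply H.pi_not 0
  rw [h, inv_zero]
  exact zero_mem _

theorem pi_mem (H : ChartHyp π V P) (i : Fin 2) : algebraMap R E (algebraMap O R π) ∈ V i :=
  H.le i _

theorem pi_mem_P (H : ChartHyp π V P) (i : Fin 2) : algebraMap O R π ∈ P i :=
  (H.mem_P i _).mpr ⟨1, one_mem _, (mul_one _).symm⟩

/-- An element of `V i` outside `ϖ (V i)` is a unit of `V i`. -/
theorem inv_mem_of_not (H : ChartHyp π V P) (i : Fin 2) {x : E} (hx : x ∈ V i)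
    (hnot : ¬ ∃ y ∈ V i, x = algebraMap R E (algebraMap O R π) * y) : x⁻¹ ∈ V i := by
  have hx0 : x ≠ 0 := by
    rintro rfl
    exact hnot ⟨0, zero_mem _, by rw [mul_zero]⟩
  obtain ⟨k, u, hu, hu', rfl⟩ := H.disc i x hx0
  rcases le_or_gt k 0 with hk | hk
  · obtain ⟨j, hj⟩ := Int.eq_ofNat_of_zero_le (neg_nonneg.mpr hk)
    rw [mul_inv, ← zpow_neg, hj, zpow_natCast]
    exact mul_mem (pow_mem (pi_mem H i) j) hu'
  · exfalso
    apply hnot
    obtain ⟨j, hj⟩ := Int.eq_ofNat_of_zero_le (show 0 ≤ k - 1 by omega)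
    refine ⟨algebraMap R E (algebraMap O R π) ^ j * u,
      mul_mem (pow_mem (pi_mem H i) j) hu, ?_⟩
    have hk' : k = (j : ℤ) + 1 := by omega
    rw [hk', zpow_add_one₀ (pi_ne_zero H), zpow_natCast]
    ring

/-- Elements of `R` outside `P i` are units of `V i`. -/
theorem vu_of_notMem_P (H : ChartHyp π V P) (i : Fin 2) {a : R} (ha : a ∉ P i) :
    VU (V i) (algebraMap R E a) := by
  refine ⟨?_, H.le i a, inv_mem_of_not H i (H.le i a) (fun h => ha ((H.mem_P i a).mpr h))⟩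
  intro h0
  exact ha ((H.mem_P i a).mpr ⟨0, zero_mem _, by rw [h0, mul_zero]⟩)

/-- A positive power of an element of `P i` is not a unit of `V i`. -/
theorem not_vu_pow (H : ChartHyp π V P) (i : Fin 2) {t : R} (ht : t ∈ P i) (j : ℕ) :
    ¬ VU (V i) (algebraMap R E t ^ (j + 1)) := by
  rintro ⟨h0, -, h⟩
  obtain ⟨y, hy, hty⟩ := (H.mem_P i t).mp ht
  have ht0 : algebraMap R E t ≠ 0 := fun h' => h0 (by rw [h', zero_pow (Nat.succ_ne_zero j)])
  have hϖ := pi_ne_zero H
  have hy0 : y ≠ 0 := by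
    rintro rfl
    rw [mul_zero] at hty
    exact ht0 hty
  apply H.pi_not i
  have : (algebraMap R E (algebraMap O R π))⁻¹
      = y * algebraMap R E t ^ j * (algebraMap R E t ^ (j + 1))⁻¹ := by
    rw [pow_succ, hty]
    field_simp
  rw [this]
  exact mul_mem (mul_mem hy (pow_mem (H.le i t) j)) h

/-- The vertical ideals `P i` are prime. -/
theorem P_isPrime (H : ChartHyp π V P) (i : Fin 2) : (P i).IsPrime := by
  rw [Ideal.isPrime_iff]
  refine ⟨?_, ?_⟩
  · rw [Ideal.ne_top_iff_one]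
    intro h1
    obtain ⟨y, hy, h⟩ := (H.mem_P i 1).mp h1
    apply H.pi_not i
    rw [map_one] at h
    rw [inv_eq_of_mul_eq_one_right h.symm]
    exact hy
  · intro x y hxy
    by_contra hcon
    rw [not_or] at hcon
    obtain ⟨hx, hy⟩ := hcon
    have hxu := vu_of_notMem_P H i hx
    obtain ⟨z, hz, h⟩ := (H.mem_P i (x * y)).mp hxy
    apply hy
    rw [H.mem_P]
    refine ⟨(algebraMap R E x)⁻¹ * z, mul_mem hxu.2.2 hz, ?_⟩
    rw [map_mul] at h
    have hx0 := hxu.1
    field_simp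
    linear_combination h

/-! ### Automorphisms with `TauHyp` and the valuation rings -/

variable {σ : E ≃+* E}

theorem map_mem (H : ChartHyp π V P) (T : TauHyp (R := R) π V σ) (i : Fin 2) {x : E}
    (hx : x ∈ V i) : σ x ∈ V i := by
  obtain ⟨y, hy, h⟩ := T.triv i x hx
  have : σ x = x + algebraMap R E (algebraMap O R π) * y := by rw [← h]; ring
  rw [this]
  exact add_mem hx (mul_mem (pi_mem H i) hy)

theorem map_vu (H : ChartHyp π V P) (T : TauHyp (R := R) π V σ) (i : Fin 2) {x : E}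
    (hx : VU (V i) x) : VU (V i) (σ x) :=
  ⟨(map_ne_zero σ).mpr hx.1, map_mem H T i hx.2.1, by
    rw [← map_inv₀]; exact map_mem H T i hx.2.2⟩

/-- `σ x / x` is a unit of `V i` for every `x ≠ 0`. -/
theorem quot_vu (H : ChartHyp π V P) (T : TauHyp (R := R) π V σ) (i : Fin 2) {x : E}
    (hx : x ≠ 0) : VU (V i) (σ x / x) := by
  obtain ⟨k, u, hu, hu', rfl⟩ := H.disc i x hx
  obtain ⟨c, hc, hc', hσ⟩ := T.pi i
  have hϖ := pi_ne_zero H
  have hu0 : u ≠ 0 := right_ne_zero_of_mul hx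
  have hc0 : c ≠ 0 := by
    rintro rfl
    rw [mul_zero] at hσ
    exact hϖ ((map_eq_zero σ).mp hσ)
  have huu : VU (V i) u := ⟨hu0, hu, hu'⟩
  have hϖk : algebraMap R E (algebraMap O R π) ^ k ≠ 0 := zpow_ne_zero k hϖ
  have key : σ (algebraMap R E (algebraMap O R π) ^ k * u)
      / (algebraMap R E (algebraMap O R π) ^ k * u) = c ^ k * (σ u / u) := by
    rw [map_mul, map_zpow₀, hσ, mul_zpow, mul_assoc, mul_div_mul_left _ _ hϖk, mul_div_assoc]
  rw [key]
  exact (VU.zpow ⟨hc0, hc, hc'⟩ k).mul ((map_vu H T i huu).div huu)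

/-- (S7) `ψ / σ ψ ≡ 1` modulo `ϖ (V i)` for a unit `ψ` of `V i`. -/
theorem div_map_sub_one (H : ChartHyp π V P) (T : TauHyp (R := R) π V σ) (i : Fin 2) {ψ : E}
    (hψ : VU (V i) ψ) :
    ∃ v ∈ V i, ψ / σ ψ - 1 = algebraMap R E (algebraMap O R π) * v := by
  obtain ⟨y, hy, h⟩ := T.triv i ψ hψ.2.1
  have hσψ := map_vu H T i hψ
  refine ⟨-(y * (σ ψ)⁻¹), neg_mem (mul_mem hy hσψ.2.2), ?_⟩
  have hne : σ ψ ≠ 0 := hσψ.1
  field_simp
  linear_combination -h

/-- A unit of `V i` is a unit at the vertical prime `P i`, as soon as `P i` has an order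
function with respect to some `t ∈ P i`. -/
theorem unitAt_of_vu (H : ChartHyp π V P) (i : Fin 2) {t : R} (ht : t ∈ P i)
    (hord : ∀ x : E, x ≠ 0 → ∃ k : ℤ, UnitAt (P i) (x * algebraMap R E t ^ k))
    {x : E} (hx : VU (V i) x) : UnitAt (P i) x := by
  obtain ⟨k, hk⟩ := hord x hx.1
  have hk' := hk
  obtain ⟨a, s, ha, hs, h⟩ := hk
  have hsu := vu_of_notMem_P H i hs
  have hau := vu_of_notMem_P H i ha
  have hs0 : algebraMap R E s ≠ 0 := hsu.1
  have hx0 : x ≠ 0 := hx.1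
  have htk : VU (V i) (algebraMap R E t ^ k) := by
    have : algebraMap R E t ^ k = algebraMap R E a / (algebraMap R E s * x) := by
      rw [← h]
      field_simp
    rw [this]
    exact hau.div (hsu.mul hx)
  have hk0 : k = 0 := by
    by_contra hne
    rcases lt_or_gt_of_ne hne with hneg | hpos
    · obtain ⟨j, hj⟩ := Int.eq_ofNat_of_zero_le (show 0 ≤ -k - 1 by omega)
      have : (algebraMap R E t ^ k)⁻¹ = algebraMap R E t ^ (j + 1) := by
        rw [← zpow_neg, ← zpow_natCast]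
        congr 1
        push_cast
        omega
      exact not_vu_pow H i ht j (this ▸ htk.inv)
    · obtain ⟨j, hj⟩ := Int.eq_ofNat_of_zero_le (show 0 ≤ k - 1 by omega)
      have : algebraMap R E t ^ k = algebraMap R E t ^ (j + 1) := by
        rw [← zpow_natCast]
        congr 1
        push_cast
        omega
      exact not_vu_pow H i ht j (this ▸ htk)
  rw [hk0, zpow_zero, mul_one] at hk'
  exact hk'

/-! ### (S0) the restriction of `σ` to `R` -/

variable [IsDomain R] [IsFractionRing R E]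

theorem pi_ne_zero' (H : ChartHyp π V P) : algebraMap O R π ≠ 0 := by
  intro h
  apply pi_ne_zero H
  rw [h, map_zero]

theorem exists_eq_add_of_map (H : ChartHyp π V P) (T : TauHyp (R := R) π V σ) {r r' : R}
    (h : σ (algebraMap R E r) = algebraMap R E r') :
    ∃ d : R, r' = r + algebraMap O R π * d := by
  have hP : ∀ i, r' - r ∈ P i := by
    intro i
    obtain ⟨y, hy, hy'⟩ := T.triv i _ (H.le i r)
    rw [H.mem_P]
    exact ⟨y, hy, by rw [map_sub, ← h, hy']⟩
  obtain ⟨d, hd⟩ := H.red (r' - r) hP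
  exact ⟨d, by linear_combination hd⟩

theorem exists_eq_add_of_symm_map (H : ChartHyp π V P) (T : TauHyp (R := R) π V σ) {r r' : R}
    (h : σ.symm (algebraMap R E r) = algebraMap R E r') :
    ∃ d : R, r' = r + algebraMap O R π * d := by
  have h' : σ (algebraMap R E r') = algebraMap R E r := by
    rw [← h, RingEquiv.apply_symm_apply]
  obtain ⟨d, hd⟩ := exists_eq_add_of_map H T h'
  exact ⟨-d, by linear_combination -hd⟩

/-- The restriction to `R` of a ring automorphism of `E` mapping `R` into `R`. -/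
noncomputable def resR (σ : E ≃+* E)
    (h : ∀ r : R, ∃ r' : R, σ (algebraMap R E r) = algebraMap R E r') : R →+* R where
  toFun r := (h r).choose
  map_one' := IsFractionRing.injective R E (by
    rw [← (h 1).choose_spec]; simp only [map_one])
  map_mul' x y := IsFractionRing.injective R E (by
    rw [← (h (x * y)).choose_spec]
    simp only [map_mul]
    rw [← (h x).choose_spec, ← (h y).choose_spec])
  map_zero' := IsFractionRing.injective R E (by
    rw [← (h 0).choose_spec]; simp only [map_zero])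
  map_add' x y := IsFractionRing.injective R E (by
    rw [← (h (x + y)).choose_spec]
    simp only [map_add]
    rw [← (h x).choose_spec, ← (h y).choose_spec])

theorem algebraMap_resR (σ : E ≃+* E)
    (h : ∀ r : R, ∃ r' : R, σ (algebraMap R E r) = algebraMap R E r') (r : R) :
    algebraMap R E (resR σ h r) = σ (algebraMap R E r) :=
  (h r).choose_spec.symm

theorem resR_symm_resR (T : TauHyp (R := R) π V σ) (r : R) :
    resR σ T.map_R (resR σ.symm T.symm_R r) = r := by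
  apply IsFractionRing.injective R E
  rw [algebraMap_resR, algebraMap_resR, RingEquiv.apply_symm_apply]

theorem resR_resR_symm (T : TauHyp (R := R) π V σ) (r : R) :
    resR σ.symm T.symm_R (resR σ T.map_R r) = r := by
  apply IsFractionRing.injective R E
  rw [algebraMap_resR, algebraMap_resR, RingEquiv.symm_apply_apply]

theorem resR_eq_add (H : ChartHyp π V P) (T : TauHyp (R := R) π V σ) (r : R) :
    ∃ d : R, resR σ T.map_R r = r + algebraMap O R π * d :=
  exists_eq_add_of_map H T (algebraMap_resR σ T.map_R r).symm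

theorem resR_symm_eq_add (H : ChartHyp π V P) (T : TauHyp (R := R) π V σ) (r : R) :
    ∃ d : R, resR σ.symm T.symm_R r = r + algebraMap O R π * d :=
  exists_eq_add_of_symm_map H T (algebraMap_resR σ.symm T.symm_R r).symm

/-- `ρ r ∈ I ↔ r ∈ I` for every ideal `I` containing `p`. -/
theorem resR_mem_iff (H : ChartHyp π V P) (T : TauHyp (R := R) π V σ) {I : Ideal R}
    (hI : algebraMap O R π ∈ I) (r : R) : resR σ T.map_R r ∈ I ↔ r ∈ I := by
  obtain ⟨d, hd⟩ := resR_eq_add H T r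
  rw [hd]
  constructor
  · intro h
    have : r = (r + algebraMap O R π * d) - algebraMap O R π * d := by ring
    rw [this]
    exact I.sub_mem h (I.mul_mem_right _ hI)
  · intro h
    exact I.add_mem h (I.mul_mem_right _ hI)

/-- `ρ p = p * unit`. -/
theorem exists_unit_resR_pi (H : ChartHyp π V P) (T : TauHyp (R := R) π V σ) :
    ∃ c : R, IsUnit c ∧ resR σ T.map_R (algebraMap O R π) = algebraMap O R π * c := by
  obtain ⟨d₀, hd₀⟩ := resR_symm_eq_add H T (algebraMap O R π)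
  obtain ⟨d, hd⟩ := resR_eq_add H T (algebraMap O R π)
  refine ⟨1 + d, ?_, by rw [hd]; ring⟩
  have h1 : resR σ T.map_R (resR σ.symm T.symm_R (algebraMap O R π)) = algebraMap O R π :=
    resR_symm_resR T _
  have h0 : resR σ.symm T.symm_R (algebraMap O R π) = algebraMap O R π * (1 + d₀) := by
    rw [hd₀]; ring
  rw [h0, map_mul, hd] at h1
  have h2 : algebraMap O R π * ((1 + d) * resR σ T.map_R (1 + d₀)) = algebraMap O R π * 1 := by
    linear_combination h1
  exact IsUnit.of_mul_eq_one _ (mul_left_cancel₀ (pi_ne_zero' H) h2)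

/-! ### (S4), horizontal part: pulling back a prime along `ρ` -/

theorem comap_le (H : ChartHyp π V P) (T : TauHyp (R := R) π V σ) {n 𝔮 : Ideal R}
    (hπn : algebraMap O R π ∈ n) (h𝔮 : 𝔮 ≤ n) : 𝔮.comap (resR σ T.map_R) ≤ n := by
  intro r hr
  exact (resR_mem_iff H T hπn r).mp (h𝔮 hr)

theorem pi_notMem_comap (H : ChartHyp π V P) (T : TauHyp (R := R) π V σ) {𝔮 : Ideal R}
    (h𝔮 : 𝔮.IsPrime) (hπ : algebraMap O R π ∉ 𝔮) :
    algebraMap O R π ∉ 𝔮.comap (resR σ T.map_R) := by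
  intro h
  rw [Ideal.mem_comap] at h
  obtain ⟨c, hc, hpc⟩ := exists_unit_resR_pi H T
  rw [hpc] at h
  rcases h𝔮.mem_or_mem h with h | h
  · exact hπ h
  · exact h𝔮.ne_top (Ideal.eq_top_of_isUnit_mem _ h hc)

theorem princAt_comap (T : TauHyp (R := R) π V σ) {𝔮 : Ideal R} (h : PrincAt 𝔮) :
    PrincAt (𝔮.comap (resR σ T.map_R)) := by
  obtain ⟨hne, t, ht, hgen⟩ := h
  refine ⟨?_, resR σ.symm T.symm_R t, ?_, ?_⟩
  · obtain ⟨y, hy, hy0⟩ := Submodule.exists_mem_ne_zero_of_ne_bot hne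
    intro hbot
    have hmem : resR σ.symm T.symm_R y ∈ 𝔮.comap (resR σ T.map_R) := by
      rw [Ideal.mem_comap, resR_symm_resR T]
      exact hy
    rw [hbot, Ideal.mem_bot] at hmem
    apply hy0
    have h2 := resR_symm_resR T y
    rw [hmem, map_zero] at h2
    exact h2.symm
  · rw [Ideal.mem_comap, resR_symm_resR T]
    exact ht
  · intro y hy
    rw [Ideal.mem_comap] at hy
    obtain ⟨s, hs, c, hc⟩ := hgen _ hy
    refine ⟨resR σ.symm T.symm_R s, ?_, resR σ.symm T.symm_R c, ?_⟩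
    · rw [Ideal.mem_comap, resR_symm_resR T]
      exact hs
    · have h2 := congrArg (resR σ.symm T.symm_R) hc
      rw [map_mul, map_mul, resR_resR_symm T] at h2
      exact h2

theorem unitAt_map (T : TauHyp (R := R) π V σ) {𝔮 : Ideal R} {x : E}
    (h : UnitAt (𝔮.comap (resR σ T.map_R)) x) : UnitAt 𝔮 (σ x) := by
  obtain ⟨a, s, ha, hs, h⟩ := h
  refine ⟨resR σ T.map_R a, resR σ T.map_R s, ha, hs, ?_⟩
  rw [algebraMap_resR, algebraMap_resR, ← map_mul, h]

end Chart

/-! ### The leaf -/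

/-- **[N4] LocA**, hypothesis form over the [N3] leaves. -/
theorem locA_of_leaves (hK : KrullUnitStatement) (hMin : PrincMinStatement)
    (hOrd : PrincOrdStatement) : LocAStatement := by
  intro O _ _ _ R _ _ _ _ _ E _ _ _ π V P τ τ' f m n _ hn hπn hf H T T' hloc
  classical
  have hnp : n.IsPrime := hn.isPrime
  -- (S1)–(S3)
  obtain ⟨e, he0, hφ⟩ : ∃ e : E, e ≠ 0 ∧ ∀ 𝔮 : Ideal R, 𝔮.IsPrime → 𝔮 ≤ n →
      algebraMap O R π ∉ 𝔮 → PrincAt 𝔮 → UnitAt 𝔮 (f / e ^ m) := by
    refine HorProd.exists_unitAt_div_pow (R := R) (E := E) n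
      (fun 𝔮 => algebraMap O R π ∉ 𝔮) (fun 𝔮 => PrincAt 𝔮) ?_ m f hf ?_
    · intro 𝔮 h𝔮 hD
      refine ⟨hD.1, fun 𝔮' h𝔮' hle => ?_⟩
      by_cases hbot : 𝔮' = ⊥
      · exact Or.inl hbot
      · exact Or.inr (hMin R 𝔮' 𝔮 h𝔮' h𝔮 hD hle hbot)
    · intro 𝔮 h𝔮 hle hhor hD
      rcases hloc 𝔮 h𝔮 hle hhor hD with hu | ⟨⟨x, hx0, hx⟩, e, he, hcut, hgen⟩
      · exact Or.inl hu
      · right
        refine ⟨e, he, fun 𝔮' h𝔮' hle' hhor' hmem => hcut 𝔮' h𝔮' hle' hmem hhor', ?_⟩
        obtain ⟨j, hj⟩ := hOrd R E 𝔮 e h𝔮 hD.1 he hgen x hx0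
        refine ⟨j, ?_⟩
        have h1 : HorProd.UnitAt 𝔮 (f * x ^ m) := hx
        have h2 : HorProd.UnitAt 𝔮 ((x * algebraMap R E e ^ j) ^ m) :=
          HorProd.UnitAt.pow (show HorProd.UnitAt 𝔮 _ from hj) m
        have h3 : f / algebraMap R E e ^ ((m : ℤ) * j)
            = f * x ^ m / (x * algebraMap R E e ^ j) ^ m := by
          rw [mul_pow, zpow_mul', zpow_natCast, mul_comm f,
            mul_div_mul_left _ _ (pow_ne_zero m hx0)]
        rw [h3]
        exact h1.div h2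
  have hφ0 : f / e ^ m ≠ 0 := div_ne_zero hf (pow_ne_zero m he0)
  -- (S4)
  have hε : ∀ 𝔮 : Ideal R, 𝔮.IsPrime → 𝔮 ≤ n → PrincAt 𝔮 →
      UnitAt 𝔮 (τ (f / e ^ m) / (f / e ^ m)) := by
    intro 𝔮 h𝔮 hle hD
    by_cases hhor : algebraMap O R π ∈ 𝔮
    · -- vertical
      have hvert : ∀ i : Fin 2, P i ≤ 𝔮 → UnitAt 𝔮 (τ (f / e ^ m) / (f / e ^ m)) := by
        intro i hi
        have hPne : P i ≠ ⊥ := by
          intro hbot
          have h1 := pi_mem_P H i
          rw [hbot, Ideal.mem_bot] at h1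
          exact pi_ne_zero' H h1
        have heq : P i = 𝔮 := hMin R (P i) 𝔮 (P_isPrime H i) h𝔮 hD hi hPne
        obtain ⟨-, t, ht, hgen⟩ := hD
        rw [← heq] at ht hgen ⊢
        exact unitAt_of_vu H i ht
          (fun x hx => hOrd R E (P i) t (P_isPrime H i) hPne ht hgen x hx) (quot_vu H T i hφ0)
      have hinf : P 0 ⊓ P 1 ≤ 𝔮 := by
        rintro r ⟨h0, h1⟩
        obtain ⟨r', rfl⟩ := H.red r (fun i => by
          fin_cases i
          · exact h0
          · exact h1)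
        exact 𝔮.mul_mem_right _ hhor
      rcases (Ideal.IsPrime.inf_le h𝔮).mp hinf with hi | hi
      · exact hvert 0 hi
      · exact hvert 1 hi
    · -- horizontal
      have h1 : UnitAt (𝔮.comap (resR τ T.map_R)) (f / e ^ m) :=
        hφ _ (Ideal.comap_isPrime _ _) (comap_le H T hπn hle) (pi_notMem_comap H T h𝔮 hhor)
          (princAt_comap T hD)
      have h2 : HorProd.UnitAt 𝔮 (τ (f / e ^ m)) := unitAt_map T h1
      have h3 : HorProd.UnitAt 𝔮 (f / e ^ m) := hφ 𝔮 h𝔮 hle hhor hD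
      exact h2.div h3
  -- (S5)
  have hε0 : τ (f / e ^ m) / (f / e ^ m) ≠ 0 := div_ne_zero ((map_ne_zero τ).mpr hφ0) hφ0
  obtain ⟨a₀, s₀, ha₀, hs₀, h₀⟩ := hK R E n _ hnp hε0 hε
  -- (S6), (S7)
  have hτe : τ e ≠ 0 := (map_ne_zero τ).mpr he0
  refine ⟨(τ e / e) / τ' (τ e / e), fun i => div_map_sub_one H T' i (quot_vu H T i he0), ?_⟩
  obtain ⟨ds, hds⟩ := resR_eq_add H T' s₀
  obtain ⟨da, hda⟩ := resR_eq_add H T' a₀
  refine ⟨resR τ' T'.map_R s₀ * a₀, ?_, da * s₀ - ds * a₀, ?_⟩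
  · intro hmem
    rcases hnp.mem_or_mem hmem with h | h
    · exact hs₀ ((resR_mem_iff H T' hπn s₀).mp h)
    · exact ha₀ h
  · have key : secondDiff τ τ' f * ((τ e / e) / τ' (τ e / e)) ^ m
        = τ' (τ (f / e ^ m) / (f / e ^ m)) / (τ (f / e ^ m) / (f / e ^ m)) := by
      simp only [secondDiff, map_div₀, map_pow]
      exact key_identity f e (τ f) (τ' f) (τ' (τ f)) (τ e) (τ' e) (τ' (τ e)) m hf he0
        ((map_ne_zero τ).mpr hf) ((map_ne_zero τ').mpr hf)
        ((map_ne_zero τ').mpr ((map_ne_zero τ).mpr hf)) hτe ((map_ne_zero τ').mpr he0)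
        ((map_ne_zero τ').mpr hτe)
    rw [key]
    have h₁ : τ' (τ (f / e ^ m) / (f / e ^ m)) * algebraMap R E (resR τ' T'.map_R s₀)
        = algebraMap R E (resR τ' T'.map_R a₀) := by
      rw [algebraMap_resR, algebraMap_resR, ← map_mul, h₀]
    rw [map_mul, aux_identity _ _ _ _ _ _ hε0 h₀ h₁, ← map_mul, ← map_mul, ← map_sub,
      ← map_mul, hds, hda]
    congr 1
    ring

end Fermat.Agent.S34.LocAB
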