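/-
S34 — LocABTop.lean (helper78): closed form of leaf [N4] `LocAStatement` of `S34/LocPlan.lean`
(B-copy): `LocAB.locA_of_leaves` applied to the landed [N3] leaves of `S34/KrullStmt.lean`.
-/
import Mathlib
import Fermat.Agent.S34.LocAB
import Fermat.Agent.S34.KrullStmt

set_option autoImplicit false

namespace Fermat.Agent.S34.LocABTop

/-- **[N4] LocA** (closed form): at a closed point `n` of the special fibre of a chart, the
second difference of `f` is, up to an `m`-th power of an element `≡ 1` on both components, `≡ 1`
modulo `π` in the local ring at `n`. -/
theorem locAStatement : Fermat.Agent.S34.LocPlan.LocAStatement :=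
  Fermat.Agent.S34.LocAB.locA_of_leaves Fermat.Agent.S34.KrullStmt.krullUnitStatement
    Fermat.Agent.S34.KrullStmt.princMinStatement Fermat.Agent.S34.KrullStmt.princOrdStatement

end Fermat.Agent.S34.LocABTop
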