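import Mathlib
import Fermat.Agent.S34.LocPlan

/-!
# S34, ABSTRACT block, leaves [N4] `HwStatement` and `LocAdapterStatement` (helper52)

Both statements are those of `S34/LocPlan.lean` (architect file), proved verbatim.

* `hw : LocPlan.HwStatement` — the second difference `τ'τf · f / (τf · τ'f)` is `≡ 1` modulo
  `π (V i)` for both component valuation rings.  Proof: write `f = ϖ ^ k * u` with `u` a unit of
  `V i` (`ChartHyp.disc`), `τ ϖ = ϖ * a`, `τ' ϖ = ϖ * b` with units `a`, `b` (`TauHyp.pi`); then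
  `secondDiff τ τ' f = (τ' a / a) ^ k * ((τ' (τ u) / τ u) * (τ' u / u)⁻¹)`, and `σ x / x ≡ 1`
  for every unit `x` of `V i` (`TauHyp.triv`); the elements `≡ 1` modulo `π (V i)` form a group.
* `locAdapter : LocPlan.LocAdapterStatement` — `g := s * a`, `r := s`.
-/

set_option autoImplicit false

namespace Fermat.Agent.S34.LocHw

open Fermat.Agent.S34.LocPlan

/-! ### The group of elements `≡ 1` modulo `ϖ` in a valuation ring -/

section OneUnits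

variable {E : Type*} [Field E] (W : ValuationSubring E) (ϖ : E)

/-- `x ≡ 1` modulo `ϖ W`. -/
def Cong (x : E) : Prop := ∃ z ∈ W, x - 1 = ϖ * z

variable {W ϖ}

theorem val_pi_lt_one (hϖ : ϖ ∈ W) (hϖ' : ϖ⁻¹ ∉ W) : W.valuation ϖ < 1 := by
  rcases lt_or_eq_of_le ((W.valuation_le_one_iff ϖ).mpr hϖ) with h | h
  · exact h
  · exfalso
    apply hϖ'
    rw [← W.valuation_le_one_iff, map_inv₀, h, inv_one]

theorem pi_ne_zero (hϖ' : ϖ⁻¹ ∉ W) : ϖ ≠ 0 := by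
  rintro rfl
  apply hϖ'
  rw [inv_zero]
  exact W.zero_mem

theorem cong_iff (hϖ' : ϖ⁻¹ ∉ W) (x : E) :
    Cong W ϖ x ↔ W.valuation (x - 1) ≤ W.valuation ϖ := by
  have h0 : ϖ ≠ 0 := pi_ne_zero hϖ'
  have hv0 : W.valuation ϖ ≠ 0 := (map_ne_zero _).mpr h0
  constructor
  · rintro ⟨z, hz, h⟩
    rw [h, map_mul]
    exact mul_le_of_le_one_right' ((W.valuation_le_one_iff z).mpr hz)
  · intro h
    refine ⟨(x - 1) / ϖ, ?_, by field_simp⟩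
    rw [← W.valuation_le_one_iff, map_div₀]
    exact (div_le_one₀ (zero_lt_iff.mpr hv0)).mpr h

/-- An element `≡ 1` has valuation `1`. -/
theorem val_eq_one_of_cong (hϖ : ϖ ∈ W) (hϖ' : ϖ⁻¹ ∉ W) {x : E} (hx : Cong W ϖ x) :
    W.valuation x = 1 := by
  have h1 : W.valuation (x - 1) < 1 :=
    lt_of_le_of_lt ((cong_iff hϖ' x).mp hx) (val_pi_lt_one hϖ hϖ')
  have h2 : x = 1 + (x - 1) := by ring
  rw [h2]
  exact Valuation.map_one_add_of_lt _ h1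

theorem cong_one (hϖ' : ϖ⁻¹ ∉ W) : Cong W ϖ 1 := by
  rw [cong_iff hϖ', sub_self, map_zero]
  exact zero_le

theorem cong_mul (hϖ : ϖ ∈ W) (hϖ' : ϖ⁻¹ ∉ W) {x y : E} (hx : Cong W ϖ x) (hy : Cong W ϖ y) :
    Cong W ϖ (x * y) := by
  have hy1 : W.valuation y = 1 := val_eq_one_of_cong hϖ hϖ' hy
  rw [cong_iff hϖ'] at hx hy ⊢
  have h : x * y - 1 = (x - 1) * y + (y - 1) := by ring
  rw [h]
  refine le_trans (Valuation.map_add _ _ _) (max_le ?_ hy)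
  rw [map_mul, hy1, mul_one]
  exact hx

theorem cong_inv (hϖ : ϖ ∈ W) (hϖ' : ϖ⁻¹ ∉ W) {x : E} (hx : Cong W ϖ x) : Cong W ϖ x⁻¹ := by
  have hx1 : W.valuation x = 1 := val_eq_one_of_cong hϖ hϖ' hx
  have hx0 : x ≠ 0 := by
    rintro rfl
    rw [map_zero] at hx1
    exact zero_ne_one hx1
  rw [cong_iff hϖ'] at hx ⊢
  have h : x⁻¹ - 1 = -(x - 1) / x := by field_simp; ring
  rw [h, map_div₀, hx1, div_one, Valuation.map_neg]
  exact hx

theorem cong_pow (hϖ : ϖ ∈ W) (hϖ' : ϖ⁻¹ ∉ W) {x : E} (hx : Cong W ϖ x) (n : ℕ) :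
    Cong W ϖ (x ^ n) := by
  induction n with
  | zero => rw [pow_zero]; exact cong_one hϖ'
  | succ n ih => rw [pow_succ]; exact cong_mul hϖ hϖ' ih hx

theorem cong_zpow (hϖ : ϖ ∈ W) (hϖ' : ϖ⁻¹ ∉ W) {x : E} (hx : Cong W ϖ x) (k : ℤ) :
    Cong W ϖ (x ^ k) := by
  cases k with
  | ofNat n => rw [Int.ofNat_eq_natCast, zpow_natCast]; exact cong_pow hϖ hϖ' hx n
  | negSucc n => rw [zpow_negSucc]; exact cong_inv hϖ hϖ' (cong_pow hϖ hϖ' hx _)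

/-- If `y - x ∈ ϖ W` and `x` is a unit of `W`, then `y / x ≡ 1`. -/
theorem cong_div_of_unit {x y : E} (hx0 : x ≠ 0) (hx' : x⁻¹ ∈ W)
    (h : ∃ z ∈ W, y - x = ϖ * z) : Cong W ϖ (y / x) := by
  obtain ⟨z, hz, e⟩ := h
  refine ⟨z * x⁻¹, W.mul_mem _ _ hz hx', ?_⟩
  have : y = x + ϖ * z := by rw [← e]; ring
  rw [this]
  field_simp
  ring

/-- If `y - x ∈ ϖ W` and `x` is a unit of `W`, then `y` is a unit of `W`. -/
theorem unit_of_sub_mem (hϖ : ϖ ∈ W) (hϖ' : ϖ⁻¹ ∉ W) {x y : E} (hx0 : x ≠ 0) (hx : x ∈ W)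
    (hx' : x⁻¹ ∈ W) (h : ∃ z ∈ W, y - x = ϖ * z) : y ≠ 0 ∧ y ∈ W ∧ y⁻¹ ∈ W := by
  have hc : Cong W ϖ (y / x) := cong_div_of_unit hx0 hx' h
  have h1 : W.valuation (y / x) = 1 := val_eq_one_of_cong hϖ hϖ' hc
  have hxv : W.valuation x = 1 := by
    apply le_antisymm ((W.valuation_le_one_iff x).mpr hx)
    have := (W.valuation_le_one_iff x⁻¹).mpr hx'
    rw [map_inv₀] at this
    exact (inv_le_one₀ (zero_lt_iff.mpr ((map_ne_zero _).mpr hx0))).mp this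
  rw [map_div₀, hxv, div_one] at h1
  have hy0 : y ≠ 0 := by
    rintro rfl
    rw [map_zero] at h1
    exact zero_ne_one h1
  refine ⟨hy0, (W.valuation_le_one_iff y).mp h1.le, ?_⟩
  rw [← W.valuation_le_one_iff, map_inv₀, h1, inv_one]

end OneUnits

/-! ### [N4] Hw -/

section Hw

variable {E : Type*} [Field E] {W : ValuationSubring E} {ϖ : E}

/-- The algebraic identity behind `hw`. -/
theorem secondDiff_eq (τ τ' : E ≃+* E) {f u a b : E} (k : ℤ) (hϖ0 : ϖ ≠ 0) (hu0 : u ≠ 0)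
    (ha0 : a ≠ 0) (hb0 : b ≠ 0) (hf : f = ϖ ^ k * u) (hτ : τ ϖ = ϖ * a) (hτ' : τ' ϖ = ϖ * b) :
    secondDiff τ τ' f = (τ' a / a) ^ k * ((τ' (τ u) / τ u) * (τ' u / u)⁻¹) := by
  have hτu : τ u ≠ 0 := (map_ne_zero τ).mpr hu0
  have hτ'u : τ' u ≠ 0 := (map_ne_zero τ').mpr hu0
  have hτ'a : τ' a ≠ 0 := (map_ne_zero τ').mpr ha0
  have hX : ϖ ^ k ≠ 0 := zpow_ne_zero k hϖ0
  have hA : a ^ k ≠ 0 := zpow_ne_zero k ha0
  have hB : b ^ k ≠ 0 := zpow_ne_zero k hb0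
  have e1 : τ f = ϖ ^ k * a ^ k * τ u := by
    rw [hf, map_mul, map_zpow₀, hτ, mul_zpow]
  have e2 : τ' f = ϖ ^ k * b ^ k * τ' u := by
    rw [hf, map_mul, map_zpow₀, hτ', mul_zpow]
  have e3 : τ' (τ f) = ϖ ^ k * b ^ k * τ' a ^ k * τ' (τ u) := by
    rw [e1, map_mul, map_mul, map_zpow₀, map_zpow₀, hτ', mul_zpow]
  unfold secondDiff
  rw [e3, e1, e2, hf, div_zpow]
  field_simp

/-- `secondDiff τ τ' f ≡ 1` modulo `ϖ W`, for one valuation ring `W`. -/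
theorem cong_secondDiff (τ τ' : E ≃+* E) {f : E} (hf0 : f ≠ 0) (hϖ : ϖ ∈ W) (hϖ' : ϖ⁻¹ ∉ W)
    (hdisc : ∃ k : ℤ, ∃ u ∈ W, u⁻¹ ∈ W ∧ f = ϖ ^ k * u)
    (htriv : ∀ x ∈ W, ∃ y ∈ W, τ x - x = ϖ * y)
    (htriv' : ∀ x ∈ W, ∃ y ∈ W, τ' x - x = ϖ * y)
    (hpi : ∃ u ∈ W, u⁻¹ ∈ W ∧ τ ϖ = ϖ * u)
    (hpi' : ∃ u ∈ W, u⁻¹ ∈ W ∧ τ' ϖ = ϖ * u) :
    Cong W ϖ (secondDiff τ τ' f) := by
  have hϖ0 : ϖ ≠ 0 := pi_ne_zero hϖ'
  obtain ⟨k, u, hu, hu', hf⟩ := hdisc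
  obtain ⟨a, ha, ha', hτ⟩ := hpi
  obtain ⟨b, hb, hb', hτ'⟩ := hpi'
  have hu0 : u ≠ 0 := by
    rintro rfl
    exact hf0 (by rw [hf, mul_zero])
  have ha0 : a ≠ 0 := by
    rintro rfl
    rw [mul_zero] at hτ
    exact hϖ0 ((map_eq_zero τ).mp hτ)
  have hb0 : b ≠ 0 := by
    rintro rfl
    rw [mul_zero] at hτ'
    exact hϖ0 ((map_eq_zero τ').mp hτ')
  rw [secondDiff_eq τ τ' k hϖ0 hu0 ha0 hb0 hf hτ hτ']
  obtain ⟨hτu0, hτu, hτu'⟩ := unit_of_sub_mem hϖ hϖ' hu0 hu hu' (htriv u hu)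
  have c1 : Cong W ϖ (τ' a / a) := cong_div_of_unit ha0 ha' (htriv' a ha)
  have c2 : Cong W ϖ (τ' (τ u) / τ u) := cong_div_of_unit hτu0 hτu' (htriv' _ hτu)
  have c3 : Cong W ϖ (τ' u / u) := cong_div_of_unit hu0 hu' (htriv' u hu)
  exact cong_mul hϖ hϖ' (cong_zpow hϖ hϖ' c1 k) (cong_mul hϖ hϖ' c2 (cong_inv hϖ hϖ' c3))

end Hw

/-- **[N4] Hw** (`LocPlan.HwStatement`): the second difference is `≡ 1` modulo `π` at both
component valuations. -/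
theorem hw : HwStatement := by
  intro O _ R _ _ E _ _ π V P τ τ' f hf hC hT hT' i
  exact cong_secondDiff τ τ' hf (hC.le i _) (hC.pi_not i) (hC.disc i f hf) (hT.triv i)
    (hT'.triv i) (hT.pi i) (hT'.pi i)

/-! ### [N4] LocAdapter -/

/-- **[N4] LocAdapter** (`LocPlan.LocAdapterStatement`): `g := s * a`, `r := s`. -/
theorem locAdapter : LocAdapterStatement := by
  intro R _ E _ _ ϖ V w a m s r hm hle ha h
  constructor
  · obtain ⟨k, rfl⟩ : ∃ k, m = k + 1 := ⟨m - 1, by omega⟩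
    refine ⟨s ^ k * (s + ϖ * r), ?_⟩
    have h' : algebraMap R E s * (w * a ^ (k + 1)) =
        algebraMap R E s + algebraMap R E ϖ * algebraMap R E r := by
      rw [← h]; ring
    rw [map_mul, map_pow, map_add, map_mul, ← h']
    ring
  · intro i
    obtain ⟨v, hv, e⟩ := ha i
    refine ⟨algebraMap R E s * v, (V i).mul_mem _ _ (hle i s) hv, ?_⟩
    have : algebraMap R E s * a - algebraMap R E s = algebraMap R E s * (a - 1) := by ring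
    rw [this, e]
    ring

end Fermat.Agent.S34.LocHw
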