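/-
S34 — PointsJ.lean (helper48): CLOSED forms of the fields `branch` and `trans` of
`ModelPlan2.ChartModel` for the two symmetric charts `chart J`, `chart J⁻¹` (`J = WKInst.JK`)
at level `M * q`.

`PointInst.branch_trans_R0 / _Rinf` (helper69) with every input discharged:
* `hmap`, `hwR`, `hwt` from `WKInst` (helper79);
* `hyt`, `hnc` from `V12J.gRel_JK(_inv)` and `V12J.jqModC_pow_ne_C` (`red J^{±1}` non-constant);
* `hBr` from `V12J.exists_level_JK(_inv)` and `ResDeg.hf1` (helper61);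
* `hFr` from `FrobTwist.exists_frob_root_R0 / _Rinf` (helper26).
Only the vertical primes `P` and `LocPlan.ChartHyp π ![V1, V2] P` remain as inputs.
-/
import Mathlib
import Fermat.Agent.S34.PointInst
import Fermat.Agent.S34.V12J
import Fermat.Agent.S34.ResDeg
import Fermat.Agent.S34.FrobTwist
import Fermat.Agent.S34.WKInst

set_option autoImplicit false

noncomputable section

namespace Fermat.Agent.S34.PointsJ

open ModularCurve HahnSeries Fermat.Agent.S18 Fermat.Agent.S18.Arith Fermat.Agent.S18.ModelPlan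

variable (M q : ℕ) [NeZero M] [NeZero q] (hq : q.Prime) (hqM : ¬ q ∣ M)
variable {A : ValuationSubring Qb} {K : IntermediateField ℚ Qb}

/-- **`ChartModel.branch ∧ ChartModel.trans` for `chart J`**, `J = j · j_q`. -/
theorem branch_trans_JK [Fact q.Prime] (hA : A.LiesOverPrime q) (hB : BaseFacts q A K)
    (π : OK A K) (hπ : Irreducible π)
    (P : Fin 2 → Ideal (chart (M * q) A K (WKInst.JK M q hq hqM K)))
    (hyp : LocPlan.ChartHyp π
      ![GaussV.V1 (M * q) A K hB.dvr, GaussV.V2 (WK.wK M q hq hqM K) hB.dvr] P) :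
    (∀ n : Ideal (chart (M * q) A K (WKInst.JK M q hq hqM K)), n.IsMaximal →
        algebraMap (OK A K) (chart (M * q) A K (WKInst.JK M q hq hqM K)) π ∈ n →
        ∀ i : Fin 2, P i ≤ n →
        (∃ x ∈ n, x ∉ P i) ∧
          ∃ u ∈ n, ∀ x ∈ n, ∃ s : chart (M * q) A K (WKInst.JK M q hq hqM K), s ∉ n ∧
            ∃ c : chart (M * q) A K (WKInst.JK M q hq hqM K), s * x - c * u ∈ P i) ∧
    (∀ n : Ideal (chart (M * q) A K (WKInst.JK M q hq hqM K)), n.IsMaximal →
        algebraMap (OK A K) (chart (M * q) A K (WKInst.JK M q hq hqM K)) π ∈ n →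
        P 0 ≤ n → P 1 ≤ n →
        ∀ x ∈ n, ∃ s : chart (M * q) A K (WKInst.JK M q hq hqM K), s ∉ n ∧
          s * x ∈ P 0 ⊔ P 1) :=
  PointInst.branch_trans_R0 M q hq hqM hA hB π hπ (WKInst.JK M q hq hqM K) P hyp
    (fun _ hy => WKInst.alphaK_mem_chart_JK M q hq hqM A K hy)
    (fun _ hx => WKInst.wK_mem_chart_JK M q hq hqM A K hx)
    (WKInst.wK_JK M q hq hqM K)
    (jqModC (IsLocalRing.ResidueField A) ^ (q + 1))
    (V12J.gRel_JK M q hq hqM A K hA)
    (fun _ => V12J.jqModC_pow_ne_C _ (Nat.succ_ne_zero q) _)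
    (fun x hx => V12J.exists_level_JK M q hq hqM A K hA hB (ResDeg.hf1 M q hq hqM hA hB) x hx)
    (fun x hx => FrobTwist.exists_frob_root_R0 M q hqM hA hB x hx)

/-- **`ChartModel.branch ∧ ChartModel.trans` for `chart J⁻¹`**. -/
theorem branch_trans_JK_inv [Fact q.Prime] (hA : A.LiesOverPrime q) (hB : BaseFacts q A K)
    (π : OK A K) (hπ : Irreducible π)
    (P : Fin 2 → Ideal (chart (M * q) A K (WKInst.JK M q hq hqM K)⁻¹))
    (hyp : LocPlan.ChartHyp π
      ![GaussV.V1 (M * q) A K hB.dvr, GaussV.V2 (WK.wK M q hq hqM K) hB.dvr] P) :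
    (∀ n : Ideal (chart (M * q) A K (WKInst.JK M q hq hqM K)⁻¹), n.IsMaximal →
        algebraMap (OK A K) (chart (M * q) A K (WKInst.JK M q hq hqM K)⁻¹) π ∈ n →
        ∀ i : Fin 2, P i ≤ n →
        (∃ x ∈ n, x ∉ P i) ∧
          ∃ u ∈ n, ∀ x ∈ n, ∃ s : chart (M * q) A K (WKInst.JK M q hq hqM K)⁻¹, s ∉ n ∧
            ∃ c : chart (M * q) A K (WKInst.JK M q hq hqM K)⁻¹, s * x - c * u ∈ P i) ∧
    (∀ n : Ideal (chart (M * q) A K (WKInst.JK M q hq hqM K)⁻¹), n.IsMaximal →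
        algebraMap (OK A K) (chart (M * q) A K (WKInst.JK M q hq hqM K)⁻¹) π ∈ n →
        P 0 ≤ n → P 1 ≤ n →
        ∀ x ∈ n, ∃ s : chart (M * q) A K (WKInst.JK M q hq hqM K)⁻¹, s ∉ n ∧
          s * x ∈ P 0 ⊔ P 1) :=
  PointInst.branch_trans_Rinf M q hq hqM hA hB π hπ (WKInst.JK M q hq hqM K)⁻¹ P hyp
    (fun _ hy => WKInst.alphaK_mem_chart_JK_inv M q hq hqM A K hy)
    (fun _ hx => WKInst.wK_mem_chart_JK_inv M q hq hqM A K hx)
    (WKInst.wK_JK_inv M q hq hqM K)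
    ((jqModC (IsLocalRing.ResidueField A))⁻¹ ^ (q + 1))
    (V12J.gRel_JK_inv M q hq hqM A K hA)
    (fun _ => V12J.jqModC_inv_pow_ne_C _ (Nat.succ_ne_zero q) _)
    (fun x hx => V12J.exists_level_JK_inv M q hq hqM A K hA hB (ResDeg.hf1 M q hq hqM hA hB) x hx)
    (fun x hx => FrobTwist.exists_frob_root_Rinf M q hqM hA hB x hx)

end Fermat.Agent.S34.PointsJ

end
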