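/-
S34 — Model2Top.lean (helper10): the modular block CLOSED.

* `ptsStatement`    : `Model2AsmB.PtsStatement M q hq hqM m` — the point fields
                      `branch ∧ trans ∧ hor` of both symmetric charts `chart J`, `chart J⁻¹`
                      (`PointsJ.branch_trans_JK(_inv)`, `HorInst.exists_finset_hor_chart`);
* `model2Statement` : `∀ M q m [NeZero M] [NeZero (M * q)], q.Prime → ¬ q ∣ M → ¬ q ∣ m →
                      ModelPlan2.Model2Statement (M * q) q m` — the `hModel` argument of
                      `UFinal.s34_of_model2` / `UModel.s34_of_modular`, with no hypothesis.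
-/
import Mathlib
import Fermat.Agent.S34.Model2AsmB
import Fermat.Agent.S34.PointsJ

set_option autoImplicit false

open ModularCurve AlgebraicCurve HahnSeries

namespace Fermat.Agent.S34.Model2Top

open Fermat.Agent.S18 Fermat.Agent.S18.Arith

set_option synthInstance.maxHeartbeats 400000

/-- **[Pts]**: the point fields of both symmetric charts. -/
theorem ptsStatement (M q : ℕ) [NeZero M] [NeZero q] (hq : q.Prime) (hqM : ¬ q ∣ M) (m : ℕ) :
    Model2AsmB.PtsStatement M q hq hqM m := by
  intro A hA f hf hdiv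
  have : Fact q.Prime := ⟨hq⟩
  obtain ⟨S, hS⟩ := HorInst.exists_finset_hor_chart (M * q) m f hf hdiv
  refine ⟨S, fun K hSK hB π hπ fK hfK R hR hN hF _ P hyp => ?_⟩
  rcases hR with rfl | rfl
  · obtain ⟨hb, ht⟩ := PointsJ.branch_trans_JK M q hq hqM hA hB π hπ P hyp
    exact ⟨hb, ht, hS A K hSK hB.dvr π hπ fK hfK _⟩
  · obtain ⟨hb, ht⟩ := PointsJ.branch_trans_JK_inv M q hq hqM hA hB π hπ P hyp
    exact ⟨hb, ht, hS A K hSK hB.dvr π hπ fK hfK _⟩

/-- **[Model2]** closed: the `hModel` argument of `UFinal.s34_of_model2` /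
`UModel.s34_of_modular`. -/
theorem model2Statement :
    ∀ (M q m : ℕ) [NeZero M] [NeZero (M * q)], q.Prime → ¬ q ∣ M → ¬ q ∣ m →
      ModelPlan2.Model2Statement (M * q) q m :=
  Model2AsmB.hModel_of_pts fun M q m _ _ hq hqM _ => ptsStatement M q hq hqM m

end Fermat.Agent.S34.Model2Top
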