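import Mathlib

/-!
# Node block (abstract, Mathlib-only): cut functions at a crossing point

Elementary and completion-free local algebra at a crossing point `𝔫` of a two-branch special
fibre.  Setting: `O` a discrete valuation ring with uniformiser `ϖ`; `(R, 𝔫)` a local `O`-algebra
with `𝔫 = (ϖ, U, W)`, `R = O + 𝔫` (structure `Gen`), and `U * W ∈ ϖ R`.

* `exists_approx`   (approximate Morse form)  for every `L` there are `U' ≡ U`, `W' ≡ W` mod `ϖ`
  with `U' * W' = a + ϖ ^ (L + 1) * d`, `a : O`;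
* `dvd_sub_of_dvd`  (Lipschitz)  two sections `z z' : R →ₐ[O] O` that agree on `U`, `W` modulo
  `ϖ ^ k` agree on all of `R` modulo `ϖ ^ k`;  `section_ext`, `section_eq_of_forall_dvd` (uniqueness);
* `ker_eq_span`     `ker z = (U - z U, W - z W)` (Nakayama);
* `cut`, `ker_le_of_mem`  if `U * W = a + ε * d` and `z U * ϖ ∣ ε` then `U - z U` generates
  `ker z` locally at `ker z`, and `ker z` is the only prime containing `U - z U` and no nonzero
  constant.

No regularity, no thickness, no power series, no completion.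
-/

set_option autoImplicit false
set_option linter.unusedSectionVars false

namespace Fermat.Agent.S34.NodeCut

open IsLocalRing

variable {O : Type*} [CommRing O] [IsDomain O] [IsDiscreteValuationRing O]
variable {R : Type*} [CommRing R] [IsLocalRing R] [Algebra O R]

/-- Generators at a crossing point: `𝔫 = (ϖ, U, W)` and `R = O + 𝔫`. -/
structure Gen (ϖ : O) (U W : R) : Prop where
  max_eq : maximalIdeal R = Ideal.span {algebraMap O R ϖ, U, W}
  res : ∀ r : R, ∃ c : O, r - algebraMap O R c ∈ maximalIdeal R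

namespace Gen

variable {ϖ : O} {U W : R}

theorem symm (G : Gen ϖ U W) : Gen ϖ W U where
  max_eq := by
    rw [G.max_eq]
    congr 1
    ext x
    simp only [Set.mem_insert_iff, Set.mem_singleton_iff]
    tauto
  res := G.res

theorem pi_mem (G : Gen ϖ U W) : algebraMap O R ϖ ∈ maximalIdeal R := by
  rw [G.max_eq]; exact Ideal.subset_span (by simp)

theorem left_mem (G : Gen ϖ U W) : U ∈ maximalIdeal R := by
  rw [G.max_eq]; exact Ideal.subset_span (by simp)

theorem right_mem (G : Gen ϖ U W) : W ∈ maximalIdeal R := by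
  rw [G.max_eq]; exact Ideal.subset_span (by simp)

/-- Every element is `c + ϖ r₁ + U r₂ + W r₃`. -/
theorem decomp (G : Gen ϖ U W) (r : R) :
    ∃ (c : O) (r₁ r₂ r₃ : R),
      r = algebraMap O R c + algebraMap O R ϖ * r₁ + U * r₂ + W * r₃ := by
  obtain ⟨c, hc⟩ := G.res r
  rw [G.max_eq, Ideal.mem_span_insert] at hc
  obtain ⟨r₁, y, hy, hr⟩ := hc
  rw [Ideal.mem_span_pair] at hy
  obtain ⟨r₂, r₃, rfl⟩ := hy
  refine ⟨c, r₁, r₂, r₃, ?_⟩
  linear_combination hr

/-- The generating property only depends on `U`, `W` modulo `ϖ`. -/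
theorem congr (G : Gen ϖ U W) {U' W' : R}
    (hU : U' - U ∈ Ideal.span {algebraMap O R ϖ})
    (hW : W' - W ∈ Ideal.span {algebraMap O R ϖ}) : Gen ϖ U' W' where
  max_eq := by
    rw [G.max_eq]
    rw [Ideal.mem_span_singleton'] at hU hW
    obtain ⟨s, hs⟩ := hU
    obtain ⟨t, ht⟩ := hW
    have hpi : ∀ (X Y : R), algebraMap O R ϖ ∈ Ideal.span {algebraMap O R ϖ, X, Y} :=
      fun X Y => Ideal.subset_span (by simp)
    have hX : ∀ (X Y : R), X ∈ Ideal.span {algebraMap O R ϖ, X, Y} :=
      fun X Y => Ideal.subset_span (by simp)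
    have hY : ∀ (X Y : R), Y ∈ Ideal.span {algebraMap O R ϖ, X, Y} :=
      fun X Y => Ideal.subset_span (by simp)
    apply le_antisymm
    · rw [Ideal.span_le]
      intro x hx
      simp only [Set.mem_insert_iff, Set.mem_singleton_iff] at hx
      rcases hx with h1 | h1 | h1
      · rw [h1]; exact hpi _ _
      · have : x = U' - s * algebraMap O R ϖ := by rw [h1]; linear_combination hs
        rw [this]
        exact Ideal.sub_mem _ (hX _ _) (Ideal.mul_mem_left _ _ (hpi _ _))
      · have : x = W' - t * algebraMap O R ϖ := by rw [h1]; linear_combination ht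
        rw [this]
        exact Ideal.sub_mem _ (hY _ _) (Ideal.mul_mem_left _ _ (hpi _ _))
    · rw [Ideal.span_le]
      intro x hx
      simp only [Set.mem_insert_iff, Set.mem_singleton_iff] at hx
      rcases hx with h1 | h1 | h1
      · rw [h1]; exact hpi _ _
      · have : x = U + s * algebraMap O R ϖ := by rw [h1]; linear_combination -hs
        rw [this]
        exact Ideal.add_mem _ (hX _ _) (Ideal.mul_mem_left _ _ (hpi _ _))
      · have : x = W + t * algebraMap O R ϖ := by rw [h1]; linear_combination -ht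
        rw [this]
        exact Ideal.add_mem _ (hY _ _) (Ideal.mul_mem_left _ _ (hpi _ _))
  res := G.res

end Gen

/-! ### (N1) approximate Morse form -/

/-- **Approximate Morse form.**  If `𝔫 = (ϖ, U, W)`, `R = O + 𝔫` and `U * W ∈ ϖ R`, then for
every `L` the coordinates can be corrected modulo `ϖ` so that `U' * W'` is a constant modulo
`ϖ ^ (L + 1)`. -/
theorem exists_approx {ϖ : O} {U W : R} (G : Gen ϖ U W)
    (hUW : ∃ c : R, U * W = algebraMap O R ϖ * c) (L : ℕ) :
    ∃ (U' W' : R) (a : O) (d : R),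
      U' - U ∈ Ideal.span {algebraMap O R ϖ} ∧ W' - W ∈ Ideal.span {algebraMap O R ϖ} ∧
      U' * W' = algebraMap O R a + algebraMap O R ϖ ^ (L + 1) * d := by
  induction L with
  | zero =>
    obtain ⟨c, hc⟩ := hUW
    refine ⟨U, W, 0, c, by simp, by simp, ?_⟩
    rw [hc]; simp
  | succ L ih =>
    obtain ⟨U', W', a, d, hU, hW, h⟩ := ih
    have G' : Gen ϖ U' W' := G.congr hU hW
    obtain ⟨c, e₀, e₁, e₂, hd⟩ := G'.decomp d
    set p : R := algebraMap O R ϖ with hp
    refine ⟨U' - p ^ (L + 1) * e₂, W' - p ^ (L + 1) * e₁, a + ϖ ^ (L + 1) * c,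
      e₀ + p ^ L * e₁ * e₂, ?_, ?_, ?_⟩
    · have : U' - p ^ (L + 1) * e₂ - U = (U' - U) - p * (p ^ L * e₂) := by ring
      rw [this]
      exact Ideal.sub_mem _ hU (Ideal.mul_mem_right _ _ (Ideal.subset_span rfl))
    · have : W' - p ^ (L + 1) * e₁ - W = (W' - W) - p * (p ^ L * e₁) := by ring
      rw [this]
      exact Ideal.sub_mem _ hW (Ideal.mul_mem_right _ _ (Ideal.subset_span rfl))
    · rw [map_add, map_mul, map_pow, ← hp]
      linear_combination h + p ^ (L + 1) * hd

/-! ### (N2) sections -/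

/-- A section maps the maximal ideal into `ϖ O`. -/
theorem dvd_map_of_mem {ϖ : O} (hϖ : Irreducible ϖ) (z : R →ₐ[O] O) {r : R}
    (hr : r ∈ maximalIdeal R) : ϖ ∣ z r := by
  have hsurj : Function.Surjective (z : R →+* O) := fun c => ⟨algebraMap O R c, by simp⟩
  have hmax : (Ideal.comap (z : R →+* O) (maximalIdeal O)).IsMaximal :=
    Ideal.comap_isMaximal_of_surjective _ hsurj
  have heq : Ideal.comap (z : R →+* O) (maximalIdeal O) = maximalIdeal R :=
    IsLocalRing.eq_maximalIdeal hmax
  have : r ∈ Ideal.comap (z : R →+* O) (maximalIdeal O) := heq ▸ hr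
  rw [Ideal.mem_comap, hϖ.maximalIdeal_eq, Ideal.mem_span_singleton] at this
  exact this

/-- **Lipschitz property of sections.**  Two sections agreeing on `U` and `W` modulo `ϖ ^ k`
agree on all of `R` modulo `ϖ ^ k`. -/
theorem dvd_sub_of_dvd {ϖ : O} (hϖ : Irreducible ϖ) {U W : R} (G : Gen ϖ U W)
    (z z' : R →ₐ[O] O) (k : ℕ) (hU : ϖ ^ k ∣ z U - z' U) (hW : ϖ ^ k ∣ z W - z' W) (r : R) :
    ϖ ^ k ∣ z r - z' r := by
  induction k generalizing r with
  | zero => simp
  | succ k ih =>
    have ih' : ∀ r : R, ϖ ^ k ∣ z r - z' r :=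
      ih (dvd_trans (pow_dvd_pow ϖ (Nat.le_succ k)) hU)
        (dvd_trans (pow_dvd_pow ϖ (Nat.le_succ k)) hW)
    obtain ⟨c, r₁, r₂, r₃, rfl⟩ := G.decomp r
    have hzU : ϖ ∣ z U := dvd_map_of_mem hϖ z G.left_mem
    have hzW : ϖ ∣ z W := dvd_map_of_mem hϖ z G.right_mem
    have e : z (algebraMap O R c + algebraMap O R ϖ * r₁ + U * r₂ + W * r₃)
        - z' (algebraMap O R c + algebraMap O R ϖ * r₁ + U * r₂ + W * r₃)
        = ϖ * (z r₁ - z' r₁) + (z U * (z r₂ - z' r₂) + (z U - z' U) * z' r₂)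
          + (z W * (z r₃ - z' r₃) + (z W - z' W) * z' r₃) := by
      simp only [map_add, map_mul, AlgHom.commutes, Algebra.algebraMap_self, RingHom.id_apply]
      ring
    rw [e, pow_succ']
    refine dvd_add (dvd_add (mul_dvd_mul_left ϖ (ih' r₁)) (dvd_add ?_ ?_)) (dvd_add ?_ ?_)
    · exact mul_dvd_mul hzU (ih' r₂)
    · rw [← pow_succ']; exact Dvd.dvd.mul_right hU _
    · exact mul_dvd_mul hzW (ih' r₃)
    · rw [← pow_succ']; exact Dvd.dvd.mul_right hW _

/-- In a discrete valuation ring, an element divisible by all powers of a uniformiser is `0`. -/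
theorem eq_zero_of_forall_pow_dvd {ϖ : O} (hϖ : Irreducible ϖ) {x : O}
    (h : ∀ k : ℕ, ϖ ^ k ∣ x) : x = 0 := by
  by_contra hx
  obtain ⟨n, u, rfl⟩ := IsDiscreteValuationRing.eq_unit_mul_pow_irreducible hx hϖ
  obtain ⟨y, hy⟩ := h (n + 1)
  have h1 : ϖ ^ n * ((u : O) - ϖ * y) = 0 := by
    rw [pow_succ] at hy; linear_combination hy
  rcases mul_eq_zero.mp h1 with h2 | h2
  · exact hϖ.ne_zero (pow_eq_zero_iff (n := n) (by
      intro hn; subst hn; simp at h2) |>.mp h2)
  · have : ϖ ∣ (u : O) := ⟨y, by linear_combination h2⟩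
    exact hϖ.not_isUnit (isUnit_of_dvd_unit this u.isUnit)

/-- A section is determined by its values on `U` and `W`. -/
theorem section_ext {ϖ : O} (hϖ : Irreducible ϖ) {U W : R} (G : Gen ϖ U W)
    (z z' : R →ₐ[O] O) (hU : z U = z' U) (hW : z W = z' W) : z = z' := by
  ext r
  have : z r - z' r = 0 :=
    eq_zero_of_forall_pow_dvd hϖ fun k =>
      dvd_sub_of_dvd hϖ G z z' k (by simp [hU]) (by simp [hW]) r
  exact sub_eq_zero.mp this

/-- Uniqueness of the "bad" section: two sections that agree to every order on suitable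
coordinates (allowed to depend on the order) are equal. -/
theorem section_eq_of_forall_dvd {ϖ : O} (hϖ : Irreducible ϖ) {U W : R} (G : Gen ϖ U W)
    (z z' : R →ₐ[O] O)
    (h : ∀ k : ℕ, ∃ U' W' : R, U' - U ∈ Ideal.span {algebraMap O R ϖ} ∧
      W' - W ∈ Ideal.span {algebraMap O R ϖ} ∧ ϖ ^ k ∣ z U' - z' U' ∧ ϖ ^ k ∣ z W' - z' W') :
    z = z' := by
  ext r
  have : z r - z' r = 0 :=
    eq_zero_of_forall_pow_dvd hϖ fun k => by
      obtain ⟨U', W', hU, hW, h1, h2⟩ := h k
      exact dvd_sub_of_dvd hϖ (G.congr hU hW) z z' k h1 h2 r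
  exact sub_eq_zero.mp this

/-- `ker z = (U - z U, W - z W)`. -/
theorem ker_eq_span [IsNoetherianRing R] {ϖ : O} (hϖ : Irreducible ϖ) {U W : R}
    (G : Gen ϖ U W) (z : R →ₐ[O] O) :
    RingHom.ker (z : R →+* O) =
      Ideal.span {U - algebraMap O R (z U), W - algebraMap O R (z W)} := by
  set J : Ideal R := Ideal.span {U - algebraMap O R (z U), W - algebraMap O R (z W)} with hJ
  have hsub : ∀ r : R, r - algebraMap O R (z r) ∈ RingHom.ker (z : R →+* O) := by
    intro r; simp [RingHom.mem_ker]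
  apply le_antisymm
  · -- Nakayama
    have hfg : (RingHom.ker (z : R →+* O)).FG := IsNoetherian.noetherian _
    have hjac : Ideal.span {algebraMap O R ϖ} ≤ Ideal.jacobson (⊥ : Ideal R) := by
      rw [IsLocalRing.jacobson_eq_maximalIdeal ⊥ bot_ne_top, Ideal.span_le]
      intro x hx
      rw [Set.mem_singleton_iff] at hx
      rw [hx]; exact G.pi_mem
    refine Submodule.le_of_le_smul_of_le_jacobson_bot hfg hjac ?_
    intro r hr
    rw [RingHom.mem_ker] at hr
    obtain ⟨c, r₁, r₂, r₃, rfl⟩ := G.decomp r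
    obtain ⟨u', hu'⟩ := dvd_map_of_mem hϖ z G.left_mem
    obtain ⟨w', hw'⟩ := dvd_map_of_mem hϖ z G.right_mem
    have hr' : c + ϖ * z r₁ + z U * z r₂ + z W * z r₃ = 0 := by
      have := hr
      simp only [AlgHom.coe_toRingHom, map_add, map_mul, AlgHom.commutes,
        Algebra.algebraMap_self, RingHom.id_apply] at this
      exact this
    have hc : algebraMap O R c = - (algebraMap O R ϖ * algebraMap O R (z r₁)
        + algebraMap O R (z U) * algebraMap O R (z r₂)
        + algebraMap O R (z W) * algebraMap O R (z r₃)) := by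
      have := congrArg (algebraMap O R) hr'
      simp only [map_add, map_mul, map_zero] at this
      linear_combination this
    have hzU : algebraMap O R (z U) = algebraMap O R ϖ * algebraMap O R u' := by
      rw [hu', map_mul]
    have hzW : algebraMap O R (z W) = algebraMap O R ϖ * algebraMap O R w' := by
      rw [hw', map_mul]
    have key : algebraMap O R c + algebraMap O R ϖ * r₁ + U * r₂ + W * r₃
        = ((U - algebraMap O R (z U)) * r₂ + (W - algebraMap O R (z W)) * r₃)
          + algebraMap O R ϖ * ((r₁ - algebraMap O R (z r₁))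
            + algebraMap O R u' * (r₂ - algebraMap O R (z r₂))
            + algebraMap O R w' * (r₃ - algebraMap O R (z r₃))) := by
      linear_combination hc + (r₂ - algebraMap O R (z r₂)) * hzU
        + (r₃ - algebraMap O R (z r₃)) * hzW
    rw [key]
    refine Submodule.add_mem_sup ?_ ?_
    · exact Ideal.add_mem _ (Ideal.mul_mem_right _ _ (Ideal.subset_span (by simp)))
        (Ideal.mul_mem_right _ _ (Ideal.subset_span (by simp)))
    · rw [smul_eq_mul]
      refine Ideal.mul_mem_mul (Ideal.subset_span rfl) ?_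
      exact Ideal.add_mem _ (Ideal.add_mem _ (hsub r₁) (Ideal.mul_mem_left _ _ (hsub r₂)))
        (Ideal.mul_mem_left _ _ (hsub r₃))
  · rw [hJ, Ideal.span_le]
    intro x hx
    simp only [Set.mem_insert_iff, Set.mem_singleton_iff] at hx
    rcases hx with h1 | h1
    · rw [h1]; exact hsub U
    · rw [h1]; exact hsub W

/-! ### (N3) the cut -/

/-- **Cut, algebraic form.**  If `U * W = a + ε * d` and the point `z` satisfies the precision
condition `z U * ϖ ∣ ε`, then `s * (W - z W) = A * (U - z U)` with `s = U - ε * B` not vanishing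
at `z`; moreover `s - (U - z U) = z U * (unit)`. -/
theorem cut [IsNoetherianRing R] {ϖ : O} (hϖ : Irreducible ϖ) {U W : R} (G : Gen ϖ U W)
    (z : R →ₐ[O] O) {a ε : O} {d : R}
    (h : U * W = algebraMap O R a + algebraMap O R ε * d) (hε : ε ≠ 0)
    (hprec : z U * ϖ ∣ ε) :
    ∃ s A v : R, z s ≠ 0 ∧ IsUnit v ∧
      s = (U - algebraMap O R (z U)) + algebraMap O R (z U) * v ∧
      s * (W - algebraMap O R (z W)) = A * (U - algebraMap O R (z U)) := by
  have hmem : d - algebraMap O R (z d) ∈
      Ideal.span {U - algebraMap O R (z U), W - algebraMap O R (z W)} := by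
    rw [← ker_eq_span hϖ G z]; simp [RingHom.mem_ker]
  rw [Ideal.mem_span_pair] at hmem
  obtain ⟨A₀, B, hAB⟩ := hmem
  obtain ⟨e, he⟩ := hprec
  have hu0 : z U ≠ 0 := by
    rintro h0; rw [h0] at he; simp at he; exact hε he
  set p : R := algebraMap O R ϖ with hp
  -- the unit `v = 1 - ϖ e B`
  have hvunit : IsUnit (1 - p * (algebraMap O R e * B)) := by
    have hm : p * (algebraMap O R e * B) ∈ maximalIdeal R := Ideal.mul_mem_right _ _ G.pi_mem
    by_contra hnu
    have h1 : (1 - p * (algebraMap O R e * B)) ∈ maximalIdeal R := (mem_maximalIdeal _).mpr hnu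
    have h2 : (1 : R) ∈ maximalIdeal R := by
      have h3 := Ideal.add_mem _ h1 hm
      rwa [sub_add_cancel] at h3
    exact (Ideal.ne_top_iff_one _).mp (maximalIdeal.isMaximal R).ne_top h2
  have hεR : algebraMap O R ε = algebraMap O R (z U) * p * algebraMap O R e := by
    rw [he, map_mul, map_mul]
  have hzUW : algebraMap O R (z U) * algebraMap O R (z W)
      = algebraMap O R a + algebraMap O R ε * algebraMap O R (z d) := by
    have := congrArg z h
    simp only [map_add, map_mul, AlgHom.commutes, Algebra.algebraMap_self,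
      RingHom.id_apply] at this
    have := congrArg (algebraMap O R) this
    simpa only [map_add, map_mul] using this
  refine ⟨U - algebraMap O R ε * B, algebraMap O R ε * A₀ - algebraMap O R (z W),
    1 - p * (algebraMap O R e * B), ?_, hvunit, ?_, ?_⟩
  · -- `z s = z U * (1 - ϖ e z B) ≠ 0`
    have hz : z (U - algebraMap O R ε * B) = z U * (1 - ϖ * (e * z B)) := by
      simp only [map_sub, map_mul, AlgHom.commutes, Algebra.algebraMap_self, RingHom.id_apply]
      rw [he]; ring
    rw [hz]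
    refine mul_ne_zero hu0 ?_
    intro h1
    have : ϖ * (e * z B) = 1 := by linear_combination -h1
    exact hϖ.not_isUnit (isUnit_iff_exists_inv.mpr ⟨_, this⟩)
  · rw [hεR]; ring
  · linear_combination h - algebraMap O R ε * hAB - hzUW

/-- **Cut, prime form.**  Under the precision condition, `ker z` is contained in every prime
ideal that contains `U - z U` and no nonzero constant. -/
theorem ker_le_of_mem [IsNoetherianRing R] {ϖ : O} (hϖ : Irreducible ϖ) {U W : R}
    (G : Gen ϖ U W) (z : R →ₐ[O] O) {a ε : O} {d : R}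
    (h : U * W = algebraMap O R a + algebraMap O R ε * d) (hε : ε ≠ 0)
    (hprec : z U * ϖ ∣ ε) (𝔭 : Ideal R) [𝔭.IsPrime]
    (hmem : U - algebraMap O R (z U) ∈ 𝔭)
    (hconst : ∀ c : O, algebraMap O R c ∈ 𝔭 → c = 0) :
    RingHom.ker (z : R →+* O) ≤ 𝔭 := by
  obtain ⟨s, A, v, -, hv, hs, hsA⟩ := cut hϖ G z h hε hprec
  have hu0 : z U ≠ 0 := by
    obtain ⟨e, he⟩ := hprec
    rintro h0; rw [h0] at he; simp at he; exact hε he
  have hs𝔭 : s ∉ 𝔭 := by
    intro hs'
    rw [hs] at hs'
    have h2 : algebraMap O R (z U) * v ∈ 𝔭 := by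
      have := Ideal.sub_mem _ hs' hmem
      simpa using this
    rcases Ideal.IsPrime.mem_or_mem inferInstance h2 with h3 | h3
    · exact hu0 (hconst _ h3)
    · exact (Ideal.IsPrime.ne_top inferInstance) (Ideal.eq_top_of_isUnit_mem _ h3 hv)
  have hW : W - algebraMap O R (z W) ∈ 𝔭 := by
    have : s * (W - algebraMap O R (z W)) ∈ 𝔭 := by
      rw [hsA]; exact Ideal.mul_mem_left _ _ hmem
    exact (Ideal.IsPrime.mem_or_mem inferInstance this).resolve_left hs𝔭
  rw [ker_eq_span hϖ G z, Ideal.span_le]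
  intro x hx
  simp only [Set.mem_insert_iff, Set.mem_singleton_iff] at hx
  rcases hx with h1 | h1
  · rw [h1]; exact hmem
  · rw [h1]; exact hW

/-! ### (N4) dichotomy -/

/-- In a discrete valuation ring: either `u * ϖ ∣ ε` (the precision condition) or `ε ∣ u`. -/
theorem mul_dvd_or_dvd {ϖ : O} (hϖ : Irreducible ϖ) (u : O) {ε : O} (hε : ε ≠ 0) :
    u * ϖ ∣ ε ∨ ε ∣ u := by
  by_cases hu : u = 0
  · right; rw [hu]; exact dvd_zero _
  obtain ⟨i, a, rfl⟩ := IsDiscreteValuationRing.eq_unit_mul_pow_irreducible hu hϖ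
  obtain ⟨j, b, rfl⟩ := IsDiscreteValuationRing.eq_unit_mul_pow_irreducible hε hϖ
  by_cases hij : i < j
  · left
    refine ⟨(b : O) * ((a⁻¹ : Oˣ) : O) * ϖ ^ (j - (i + 1)), ?_⟩
    have hj : j = (i + 1) + (j - (i + 1)) := by omega
    have e1 : ϖ ^ j = ϖ ^ (i + 1) * ϖ ^ (j - (i + 1)) := by rw [← pow_add, ← hj]
    have e2 : (a : O) * ((a⁻¹ : Oˣ) : O) = 1 := by simp
    rw [e1, pow_succ]
    linear_combination (-(b : O) * ϖ ^ i * ϖ * ϖ ^ (j - (i + 1))) * e2
  · right
    refine ⟨(a : O) * ((b⁻¹ : Oˣ) : O) * ϖ ^ (i - j), ?_⟩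
    have hi : i = j + (i - j) := by omega
    have e1 : ϖ ^ i = ϖ ^ j * ϖ ^ (i - j) := by rw [← pow_add, ← hi]
    have e2 : (b : O) * ((b⁻¹ : Oˣ) : O) = 1 := by simp
    rw [e1]
    linear_combination (-(a : O) * ϖ ^ j * ϖ ^ (i - j)) * e2

end Fermat.Agent.S34.NodeCut
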