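import Mathlib
import Fermat.Agent.S34.NodeCut

/-!
# Node block (abstract): a cut function for EVERY rational point through a crossing point

Setting of `NodeCut`: `O` a discrete valuation ring with uniformiser `ϖ`; `(R, 𝔫)` a noetherian
local domain over `O` with `𝔫 = (ϖ, U, W)`, `U * W ∈ ϖ R`, and the two branch ideals
`𝔭₁ = (ϖ, W)`, `𝔭₂ = (ϖ, U)` prime with `U ∉ 𝔭₁`, `W ∉ 𝔭₂`.

`exists_cut` : for every section `z : R →ₐ[O] O` (an `O`-rational point through `𝔫`, with
`𝔮 = ker z`) such that `𝔮 R_𝔮` is principal (i.e. `R_𝔮` is a discrete valuation ring), there is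
`e ∈ 𝔮` which generates `𝔮 R_𝔮` and such that `𝔮` is the only prime of `R` containing `e` and
not `ϖ`.

Proof: at the level `L` coordinates of `NodeCut.exists_approx` either `NodeCut.cut` applies, or
the point is "bad at level `L`"; in the bad case every `O`-linear relation
`l X + m Y ∈ 𝔮²` between the generators `X, Y` of `𝔮` has `ϖ ^ (L + 1) ∣ l, m` (`dvd_of_rel`),
whereas principality of `𝔮 R_𝔮` provides one nonzero relation (`exists_rel`), whose minimal
valuation is independent of the level (`transport`).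
-/

set_option autoImplicit false
set_option linter.unusedSectionVars false

namespace Fermat.Agent.S34.NodeAll

open IsLocalRing Fermat.Agent.S34.NodeCut

variable {O : Type*} [CommRing O] [IsDomain O] [IsDiscreteValuationRing O]
variable {R : Type*} [CommRing R] [IsDomain R] [IsLocalRing R] [IsNoetherianRing R] [Algebra O R]

/-- A section makes `res` automatic. -/
theorem gen_of_section {ϖ : O} {U W : R}
    (hmax : maximalIdeal R = Ideal.span {algebraMap O R ϖ, U, W}) (z : R →ₐ[O] O) :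
    Gen ϖ U W where
  max_eq := hmax
  res := fun r => ⟨z r, by
    have hker : RingHom.ker (z : R →+* O) ≤ maximalIdeal R :=
      IsLocalRing.le_maximalIdeal (RingHom.ker_ne_top _)
    exact hker (by simp [RingHom.mem_ker])⟩

theorem sub_mem_ker (z : R →ₐ[O] O) (r : R) :
    r - algebraMap O R (z r) ∈ RingHom.ker (z : R →+* O) := by
  simp [RingHom.mem_ker]

theorem ker_le_max (z : R →ₐ[O] O) : RingHom.ker (z : R →+* O) ≤ maximalIdeal R :=
  IsLocalRing.le_maximalIdeal (RingHom.ker_ne_top _)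

theorem exists_of_mem_sq {I : Ideal R} {X Y : R} (hI : I = Ideal.span {X, Y}) {x : R}
    (hx : x ∈ I * I) : ∃ a b c : R, x = a * (X * X) + b * (X * Y) + c * (Y * Y) := by
  rw [hI, Ideal.span_pair_mul_span_pair] at hx
  rw [Ideal.mem_span_insert] at hx
  obtain ⟨a, y, hy, rfl⟩ := hx
  rw [Ideal.mem_span_insert] at hy
  obtain ⟨b, y', hy', rfl⟩ := hy
  rw [Ideal.mem_span_pair] at hy'
  obtain ⟨b', c, rfl⟩ := hy'
  exact ⟨a, b + b', c, by ring⟩

theorem span_pair_congr {p Y W : R} (h : Y - W ∈ Ideal.span {p}) :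
    Ideal.span {p, Y} = Ideal.span {p, W} := by
  rw [Ideal.mem_span_singleton'] at h
  obtain ⟨t, ht⟩ := h
  apply le_antisymm
  · rw [Ideal.span_le]
    rintro x (rfl | rfl)
    · exact Ideal.subset_span (by simp)
    · have : x = t * p + 1 * W := by rw [ht]; ring
      rw [this]
      exact Ideal.mem_span_pair.mpr ⟨t, 1, rfl⟩
  · rw [Ideal.span_le]
    rintro x (rfl | rfl)
    · exact Ideal.subset_span (by simp)
    · have : x = (-t) * p + 1 * Y := by
        have : Y = t * p + x := by rw [ht]; ring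
        rw [this]; ring
      rw [this]
      exact Ideal.mem_span_pair.mpr ⟨-t, 1, rfl⟩

theorem const_of_not_mem {ϖ : O} (hϖ : Irreducible ϖ) {P : Ideal R} (hP : P.IsPrime)
    (hϖP : algebraMap O R ϖ ∉ P) : ∀ c : O, algebraMap O R c ∈ P → c = 0 := by
  intro c hc
  by_contra hc0
  obtain ⟨n, u, rfl⟩ := IsDiscreteValuationRing.eq_unit_mul_pow_irreducible hc0 hϖ
  rw [map_mul, map_pow] at hc
  rcases hP.mem_or_mem hc with h | h
  · exact hP.ne_top (Ideal.eq_top_of_isUnit_mem _ h (u.isUnit.map (algebraMap O R)))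
  · exact hϖP (hP.mem_of_pow_mem n h)

/-- **Claim A**: principality of `𝔮 R_𝔮` gives a nonzero `O`-linear relation modulo `𝔮²`. -/
theorem exists_rel (z : R →ₐ[O] O) {X Y : R}
    (hker : RingHom.ker (z : R →+* O) = Ideal.span {X, Y})
    (hz : ∃ t : R, z t = 0 ∧ ∀ y : R, z y = 0 → ∃ s c : R, z s ≠ 0 ∧ s * y = c * t) :
    ∃ l m : O, (l ≠ 0 ∨ m ≠ 0) ∧
      algebraMap O R l * X + algebraMap O R m * Y ∈
        RingHom.ker (z : R →+* O) * RingHom.ker (z : R →+* O) := by
  obtain ⟨t, ht, hgen⟩ := hz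
  have hXk : X ∈ RingHom.ker (z : R →+* O) := by rw [hker]; exact Ideal.subset_span (by simp)
  have hYk : Y ∈ RingHom.ker (z : R →+* O) := by rw [hker]; exact Ideal.subset_span (by simp)
  have hX : z X = 0 := RingHom.mem_ker.mp hXk
  have hY : z Y = 0 := RingHom.mem_ker.mp hYk
  obtain ⟨s₁, c₁, hs₁, h1⟩ := hgen X hX
  obtain ⟨s₂, c₂, hs₂, h2⟩ := hgen Y hY
  by_cases ht0 : t = 0
  · have hX0 : X = 0 := by
      have h3 : s₁ * X = 0 := by rw [h1, ht0, mul_zero]
      rcases mul_eq_zero.mp h3 with h | h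
      · exact absurd (by rw [h, map_zero]) hs₁
      · exact h
    refine ⟨1, 0, Or.inl one_ne_zero, ?_⟩
    rw [hX0]
    simp
  · have htk : t ∈ Ideal.span {X, Y} := by rw [← hker]; exact RingHom.mem_ker.mpr ht
    rw [Ideal.mem_span_pair] at htk
    obtain ⟨p, q, hpq⟩ := htk
    have key : s₁ * s₂ = s₂ * p * c₁ + s₁ * q * c₂ := by
      have h3 : (s₁ * s₂ - (s₂ * p * c₁ + s₁ * q * c₂)) * t = 0 := by
        have h4 : s₁ * s₂ * t = s₂ * p * (s₁ * X) + s₁ * q * (s₂ * Y) := by rw [← hpq]; ring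
        rw [h1, h2] at h4
        linear_combination h4
      rcases mul_eq_zero.mp h3 with h | h
      · exact sub_eq_zero.mp h
      · exact absurd h ht0
    refine ⟨z c₂ * z s₁, -(z c₁ * z s₂), ?_, ?_⟩
    · by_contra hcon
      obtain ⟨h3', h4'⟩ := not_or.mp hcon
      have h3 := not_not.mp h3'
      have h4 := not_not.mp h4'
      have hc2 : z c₂ = 0 := by
        rcases mul_eq_zero.mp h3 with h | h
        · exact h
        · exact absurd h hs₁
      have hc1 : z c₁ = 0 := by
        rcases mul_eq_zero.mp (neg_eq_zero.mp h4) with h | h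
        · exact h
        · exact absurd h hs₂
      have h5 := congrArg z key
      simp only [map_mul, map_add, hc1, hc2, mul_zero, add_zero] at h5
      rcases mul_eq_zero.mp h5 with h | h
      · exact hs₁ h
      · exact hs₂ h
    · have hrel : c₂ * s₁ * X - c₁ * s₂ * Y = 0 := by
        have e1 : c₂ * s₁ * X = c₂ * (c₁ * t) := by rw [← h1]; ring
        have e2 : c₁ * s₂ * Y = c₁ * (c₂ * t) := by rw [← h2]; ring
        rw [e1, e2]; ring
      have m1 := Ideal.mul_mem_mul (sub_mem_ker z (c₂ * s₁)) hXk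
      have m2 := Ideal.mul_mem_mul (sub_mem_ker z (c₁ * s₂)) hYk
      have e3 : algebraMap O R (z c₂ * z s₁) * X + algebraMap O R (-(z c₁ * z s₂)) * Y
          = -((c₂ * s₁ - algebraMap O R (z (c₂ * s₁))) * X)
            + (c₁ * s₂ - algebraMap O R (z (c₁ * s₂))) * Y := by
        simp only [map_mul, map_neg]
        linear_combination hrel
      rw [e3]
      exact Ideal.add_mem _ (neg_mem m1) m2

/-- One side of the induction step of Claim B. -/
theorem step_one {ϖ : O} (hϖ : Irreducible ϖ) (z : R →ₐ[O] O) {X Y : R}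
    (hXm : X ∈ maximalIdeal R)
    (hP : (Ideal.span {algebraMap O R ϖ, Y}).IsPrime)
    (hX : X ∉ Ideal.span {algebraMap O R ϖ, Y})
    {l m : O} {a b c : R}
    (h : algebraMap O R l * X + algebraMap O R m * Y
      = a * (X * X) + b * (X * Y) + c * (Y * Y)) :
    ϖ ∣ l ∧ ∃ a₁ a₂ : R, a = algebraMap O R ϖ * a₁ + a₂ * Y := by
  have hYP : Y ∈ Ideal.span {algebraMap O R ϖ, Y} := Ideal.subset_span (by simp)
  have hϖP : algebraMap O R ϖ ∈ Ideal.span {algebraMap O R ϖ, Y} := Ideal.subset_span (by simp)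
  have h1 : X * (algebraMap O R l - a * X) ∈ Ideal.span {algebraMap O R ϖ, Y} := by
    have e : X * (algebraMap O R l - a * X) = (-algebraMap O R m + b * X + c * Y) * Y := by
      linear_combination h
    rw [e]
    exact Ideal.mul_mem_left _ _ hYP
  have h2 : algebraMap O R l - a * X ∈ Ideal.span {algebraMap O R ϖ, Y} :=
    (hP.mem_or_mem h1).resolve_left hX
  have hPle : Ideal.span {algebraMap O R ϖ, Y} ≤ maximalIdeal R :=
    IsLocalRing.le_maximalIdeal hP.ne_top
  have h3 : algebraMap O R l ∈ maximalIdeal R := by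
    have h4 := Ideal.add_mem _ (hPle h2) (Ideal.mul_mem_left _ a hXm)
    simpa using h4
  have hl : ϖ ∣ l := by
    have h4 := dvd_map_of_mem hϖ z h3
    simpa using h4
  refine ⟨hl, ?_⟩
  have h4 : a * X ∈ Ideal.span {algebraMap O R ϖ, Y} := by
    obtain ⟨l₁, rfl⟩ := hl
    have e : a * X = algebraMap O R (ϖ * l₁) - (algebraMap O R (ϖ * l₁) - a * X) := by ring
    rw [e]
    refine Ideal.sub_mem _ ?_ h2
    rw [map_mul]
    exact Ideal.mul_mem_right _ _ hϖP
  have h5 : a ∈ Ideal.span {algebraMap O R ϖ, Y} := (hP.mem_or_mem h4).resolve_right hX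
  rw [Ideal.mem_span_pair] at h5
  obtain ⟨a₁, a₂, h6⟩ := h5
  exact ⟨a₁, a₂, by rw [← h6]; ring⟩

/-- **Claim B**: at a level where `X * Y ∈ ϖ ^ (L + 1) 𝔮`, every `O`-linear relation between
`X` and `Y` modulo `𝔮²` is divisible by `ϖ ^ (L + 1)`. -/
theorem dvd_of_rel {ϖ : O} (hϖ : Irreducible ϖ) (z : R →ₐ[O] O) {X Y Q : R}
    (hker : RingHom.ker (z : R →+* O) = Ideal.span {X, Y}) (L : ℕ)
    (hXY : X * Y = algebraMap O R ϖ ^ (L + 1) * Q) (hQ : z Q = 0)
    (hP1 : (Ideal.span {algebraMap O R ϖ, Y}).IsPrime)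
    (hX1 : X ∉ Ideal.span {algebraMap O R ϖ, Y})
    (hP2 : (Ideal.span {algebraMap O R ϖ, X}).IsPrime)
    (hY2 : Y ∉ Ideal.span {algebraMap O R ϖ, X}) :
    ∀ j : ℕ, j ≤ L + 1 → ∀ l m : O,
      algebraMap O R l * X + algebraMap O R m * Y ∈
        RingHom.ker (z : R →+* O) * RingHom.ker (z : R →+* O) → ϖ ^ j ∣ l ∧ ϖ ^ j ∣ m := by
  have hXk : X ∈ RingHom.ker (z : R →+* O) := by rw [hker]; exact Ideal.subset_span (by simp)
  have hYk : Y ∈ RingHom.ker (z : R →+* O) := by rw [hker]; exact Ideal.subset_span (by simp)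
  have hXm := ker_le_max z hXk
  have hYm := ker_le_max z hYk
  have hQk : Q ∈ Ideal.span {X, Y} := by rw [← hker]; exact RingHom.mem_ker.mpr hQ
  rw [Ideal.mem_span_pair] at hQk
  obtain ⟨p, q, hpq⟩ := hQk
  have hinj : Function.Injective (algebraMap O R) := by
    intro x y hxy
    have h1 := congrArg z hxy
    simpa using h1
  have hϖ0 : algebraMap O R ϖ ≠ 0 := by
    intro h0
    exact hϖ.ne_zero (hinj (by rw [h0, map_zero]))
  intro j
  induction j with
  | zero => intro _ l m _; simp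
  | succ j ih =>
    intro hj l m hlm
    have hjL : j ≤ L := by omega
    obtain ⟨a, b, c, habc⟩ := exists_of_mem_sq hker hlm
    obtain ⟨⟨l₁, rfl⟩, a₁, a₂, ha⟩ := step_one hϖ z hXm hP1 hX1 habc
    have habc' : algebraMap O R m * Y + algebraMap O R (ϖ * l₁) * X
        = c * (Y * Y) + b * (Y * X) + a * (X * X) := by rw [add_comm, habc]; ring
    obtain ⟨⟨m₁, rfl⟩, c₁, c₂, hc⟩ := step_one hϖ z hYm hP2 hY2 habc'
    obtain ⟨B, hB⟩ : ∃ B : R, B = b + a₂ * X + c₂ * Y := ⟨_, rfl⟩
    have hcancel : algebraMap O R l₁ * X + algebraMap O R m₁ * Y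
        = a₁ * (X * X) + c₁ * (Y * Y) + algebraMap O R ϖ ^ L * (B * (p * X + q * Y)) := by
      apply mul_left_cancel₀ hϖ0
      rw [hpq]
      have h1 := habc
      rw [ha, hc, map_mul, map_mul] at h1
      linear_combination h1 + B * hXY - (X * Y) * hB
    obtain ⟨l', hl'⟩ : ∃ l' : O, l' = l₁ - ϖ ^ L * z (B * p) := ⟨_, rfl⟩
    obtain ⟨m', hm'⟩ : ∃ m' : O, m' = m₁ - ϖ ^ L * z (B * q) := ⟨_, rfl⟩
    have hmem : algebraMap O R l' * X + algebraMap O R m' * Y ∈
        RingHom.ker (z : R →+* O) * RingHom.ker (z : R →+* O) := by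
      have e : algebraMap O R l' * X + algebraMap O R m' * Y
          = a₁ * (X * X) + c₁ * (Y * Y)
            + algebraMap O R ϖ ^ L * ((B * p - algebraMap O R (z (B * p))) * X)
            + algebraMap O R ϖ ^ L * ((B * q - algebraMap O R (z (B * q))) * Y) := by
        rw [hl', hm']
        simp only [map_sub, map_mul, map_pow]
        linear_combination hcancel
      rw [e]
      refine Ideal.add_mem _ (Ideal.add_mem _ (Ideal.add_mem _ ?_ ?_) ?_) ?_
      · exact Ideal.mul_mem_left _ _ (Ideal.mul_mem_mul hXk hXk)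
      · exact Ideal.mul_mem_left _ _ (Ideal.mul_mem_mul hYk hYk)
      · exact Ideal.mul_mem_left _ _ (Ideal.mul_mem_mul (sub_mem_ker z _) hXk)
      · exact Ideal.mul_mem_left _ _ (Ideal.mul_mem_mul (sub_mem_ker z _) hYk)
    obtain ⟨hl1, hm1⟩ := ih (by omega) l' m' hmem
    have hpow : ϖ ^ j ∣ ϖ ^ L := pow_dvd_pow ϖ hjL
    have hl2 : ϖ ^ j ∣ l₁ := by
      have e : l₁ = l' + ϖ ^ L * z (B * p) := by rw [hl']; ring
      rw [e]
      exact dvd_add hl1 (Dvd.dvd.mul_right hpow _)
    have hm2 : ϖ ^ j ∣ m₁ := by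
      have e : m₁ = m' + ϖ ^ L * z (B * q) := by rw [hm']; ring
      rw [e]
      exact dvd_add hm1 (Dvd.dvd.mul_right hpow _)
    exact ⟨by rw [pow_succ']; exact mul_dvd_mul_left ϖ hl2,
      by rw [pow_succ']; exact mul_dvd_mul_left ϖ hm2⟩

/-- Transport of a relation between two systems of generators congruent modulo `ϖ`. -/
theorem transport {ϖ : O} (z : R →ₐ[O] O) {X₀ Y₀ X Y r₁ r₂ : R}
    (hker : RingHom.ker (z : R →+* O) = Ideal.span {X, Y})
    (hX : X₀ = X + algebraMap O R ϖ * r₁) (hr₁ : z r₁ = 0)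
    (hY : Y₀ = Y + algebraMap O R ϖ * r₂) (hr₂ : z r₂ = 0)
    {l₀ m₀ : O}
    (h : algebraMap O R l₀ * X₀ + algebraMap O R m₀ * Y₀ ∈
      RingHom.ker (z : R →+* O) * RingHom.ker (z : R →+* O)) :
    ∃ α β γ δ : O,
      algebraMap O R (l₀ * (1 + ϖ * α) + m₀ * (ϖ * γ)) * X
        + algebraMap O R (l₀ * (ϖ * β) + m₀ * (1 + ϖ * δ)) * Y ∈
        RingHom.ker (z : R →+* O) * RingHom.ker (z : R →+* O) := by
  have hXk : X ∈ RingHom.ker (z : R →+* O) := by rw [hker]; exact Ideal.subset_span (by simp)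
  have hYk : Y ∈ RingHom.ker (z : R →+* O) := by rw [hker]; exact Ideal.subset_span (by simp)
  have h1 : r₁ ∈ Ideal.span {X, Y} := by rw [← hker]; exact RingHom.mem_ker.mpr hr₁
  have h2 : r₂ ∈ Ideal.span {X, Y} := by rw [← hker]; exact RingHom.mem_ker.mpr hr₂
  rw [Ideal.mem_span_pair] at h1 h2
  obtain ⟨p₁, q₁, e1⟩ := h1
  obtain ⟨p₂, q₂, e2⟩ := h2
  refine ⟨z p₁, z q₁, z p₂, z q₂, ?_⟩
  have key : algebraMap O R (l₀ * (1 + ϖ * z p₁) + m₀ * (ϖ * z p₂)) * X
        + algebraMap O R (l₀ * (ϖ * z q₁) + m₀ * (1 + ϖ * z q₂)) * Y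
      = (algebraMap O R l₀ * X₀ + algebraMap O R m₀ * Y₀)
        - algebraMap O R l₀ * algebraMap O R ϖ * ((p₁ - algebraMap O R (z p₁)) * X)
        - algebraMap O R l₀ * algebraMap O R ϖ * ((q₁ - algebraMap O R (z q₁)) * Y)
        - algebraMap O R m₀ * algebraMap O R ϖ * ((p₂ - algebraMap O R (z p₂)) * X)
        - algebraMap O R m₀ * algebraMap O R ϖ * ((q₂ - algebraMap O R (z q₂)) * Y) := by
    rw [hX, hY, ← e1, ← e2]
    simp only [map_add, map_mul, map_one]
    ring
  rw [key]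
  refine Ideal.sub_mem _ (Ideal.sub_mem _ (Ideal.sub_mem _ (Ideal.sub_mem _ h ?_) ?_) ?_) ?_
  · exact Ideal.mul_mem_left _ _ (Ideal.mul_mem_mul (sub_mem_ker z _) hXk)
  · exact Ideal.mul_mem_left _ _ (Ideal.mul_mem_mul (sub_mem_ker z _) hYk)
  · exact Ideal.mul_mem_left _ _ (Ideal.mul_mem_mul (sub_mem_ker z _) hXk)
  · exact Ideal.mul_mem_left _ _ (Ideal.mul_mem_mul (sub_mem_ker z _) hYk)

/-- The maximal common `ϖ`-divisibility of a nonzero pair. -/
theorem exists_level {ϖ : O} (hϖ : Irreducible ϖ) {l m : O} (h : l ≠ 0 ∨ m ≠ 0) :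
    ∃ c : ℕ, (ϖ ^ c ∣ l ∧ ϖ ^ c ∣ m) ∧ ¬ (ϖ ^ (c + 1) ∣ l ∧ ϖ ^ (c + 1) ∣ m) := by
  by_contra hcon
  have hall : ∀ c : ℕ, ϖ ^ c ∣ l ∧ ϖ ^ c ∣ m := by
    intro c
    induction c with
    | zero => simp
    | succ c ih =>
      by_contra h1
      exact hcon ⟨c, ih, h1⟩
  have hl : l = 0 := eq_zero_of_forall_pow_dvd hϖ fun k => (hall k).1
  have hm : m = 0 := eq_zero_of_forall_pow_dvd hϖ fun k => (hall k).2
  rcases h with h | h
  · exact h hl
  · exact h hm

/-- **Cut function for every rational point through a crossing point.**  `O` a discrete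
valuation ring with uniformiser `ϖ`, `(R, 𝔫)` a noetherian local domain over `O`,
`𝔫 = (ϖ, U, W)`, `U * W ∈ ϖ R`, the branch ideals `(ϖ, W)`, `(ϖ, U)` prime, `U ∉ (ϖ, W)`,
`W ∉ (ϖ, U)`.  For every section `z : R →ₐ[O] O` with `ker z` locally principal at `ker z`
there is `e ∈ ker z` generating `ker z` locally at `ker z`, such that `ker z` is contained in
every prime containing `e` and not `ϖ`. -/
theorem exists_cut {ϖ : O} (hϖ : Irreducible ϖ) {U W : R} (G : Gen ϖ U W)
    (hUW : ∃ c : R, U * W = algebraMap O R ϖ * c)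
    (hP1 : (Ideal.span {algebraMap O R ϖ, W}).IsPrime)
    (hU : U ∉ Ideal.span {algebraMap O R ϖ, W})
    (hP2 : (Ideal.span {algebraMap O R ϖ, U}).IsPrime)
    (hW : W ∉ Ideal.span {algebraMap O R ϖ, U})
    (z : R →ₐ[O] O)
    (hz : ∃ t : R, z t = 0 ∧ ∀ y : R, z y = 0 → ∃ s c : R, z s ≠ 0 ∧ s * y = c * t) :
    ∃ e : R, z e = 0 ∧
      (∀ y : R, z y = 0 → ∃ s c : R, z s ≠ 0 ∧ s * y = c * e) ∧
      ∀ P : Ideal R, P.IsPrime → e ∈ P → algebraMap O R ϖ ∉ P →
        RingHom.ker (z : R →+* O) ≤ P := by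
  have hker₀ := ker_eq_span hϖ G z
  obtain ⟨l₀, m₀, hne, hrel₀⟩ := exists_rel z hker₀ hz
  obtain ⟨c, ⟨⟨l', hl'⟩, ⟨m', hm'⟩⟩, hc2⟩ := exists_level hϖ hne
  obtain ⟨U', W', a, d, hU', hW', hprod⟩ := exists_approx G hUW c
  have G' : Gen ϖ U' W' := G.congr hU' hW'
  have hker := ker_eq_span hϖ G' z
  have hε : ϖ ^ (c + 1) ≠ 0 := pow_ne_zero _ hϖ.ne_zero
  have hprod' : U' * W' = algebraMap O R a + algebraMap O R (ϖ ^ (c + 1)) * d := by
    rw [map_pow]; exact hprod
  rcases mul_dvd_or_dvd hϖ (z U') hε with hcU | hbU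
  · -- cut with `U'`
    obtain ⟨s, A, v, hs, -, -, hsA⟩ := cut hϖ G' z hprod' hε hcU
    refine ⟨U' - algebraMap O R (z U'), by simp, ?_, ?_⟩
    · intro y hy
      have hy' : y ∈ Ideal.span {U' - algebraMap O R (z U'), W' - algebraMap O R (z W')} := by
        rw [← hker]; exact RingHom.mem_ker.mpr hy
      rw [Ideal.mem_span_pair] at hy'
      obtain ⟨α, β, rfl⟩ := hy'
      exact ⟨s, s * α + β * A, hs, by linear_combination β * hsA⟩
    · intro P hP he hϖP
      have := hP
      exact ker_le_of_mem hϖ G' z hprod' hε hcU P he (const_of_not_mem hϖ hP hϖP)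
  · rcases mul_dvd_or_dvd hϖ (z W') hε with hcW | hbW
    · -- cut with `W'`
      have hprod'' : W' * U' = algebraMap O R a + algebraMap O R (ϖ ^ (c + 1)) * d := by
        rw [mul_comm]; exact hprod'
      obtain ⟨s, A, v, hs, -, -, hsA⟩ := cut hϖ G'.symm z hprod'' hε hcW
      refine ⟨W' - algebraMap O R (z W'), by simp, ?_, ?_⟩
      · intro y hy
        have hy' : y ∈ Ideal.span {U' - algebraMap O R (z U'), W' - algebraMap O R (z W')} := by
          rw [← hker]; exact RingHom.mem_ker.mpr hy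
        rw [Ideal.mem_span_pair] at hy'
        obtain ⟨α, β, rfl⟩ := hy'
        exact ⟨s, α * A + s * β, hs, by linear_combination α * hsA⟩
      · intro P hP he hϖP
        have := hP
        exact ker_le_of_mem hϖ G'.symm z hprod'' hε hcW P he (const_of_not_mem hϖ hP hϖP)
    · -- the point is bad at level `c`: impossible
      exfalso
      obtain ⟨u₁, hu₁⟩ := hbU
      obtain ⟨w₁, hw₁⟩ := hbW
      -- the relation `X * Y = ϖ ^ (c + 1) * Q`
      have hza : z U' * z W' = a + ϖ ^ (c + 1) * z d := by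
        have h1 := congrArg z hprod
        simpa using h1
      have ea : algebraMap O R (z U') * algebraMap O R (z W')
          = algebraMap O R a + algebraMap O R ϖ ^ (c + 1) * algebraMap O R (z d) := by
        have h1 := congrArg (algebraMap O R) hza
        simpa only [map_mul, map_add, map_pow] using h1
      have eu : algebraMap O R (z U') = algebraMap O R ϖ ^ (c + 1) * algebraMap O R u₁ := by
        rw [hu₁, map_mul, map_pow]
      have ew : algebraMap O R (z W') = algebraMap O R ϖ ^ (c + 1) * algebraMap O R w₁ := by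
        rw [hw₁, map_mul, map_pow]
      obtain ⟨X, hX⟩ : ∃ X : R, X = U' - algebraMap O R (z U') := ⟨_, rfl⟩
      obtain ⟨Y, hY⟩ : ∃ Y : R, Y = W' - algebraMap O R (z W') := ⟨_, rfl⟩
      rw [← hX, ← hY] at hker
      have hXY : X * Y = algebraMap O R ϖ ^ (c + 1) *
          ((d - algebraMap O R (z d)) - algebraMap O R u₁ * Y - algebraMap O R w₁ * X) := by
        rw [hX, hY]
        linear_combination hprod - W' * eu - U' * ew - ea + algebraMap O R (z W') * eu
          + algebraMap O R (z U') * ew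
      have hzX : z X = 0 := by rw [hX]; simp
      have hzY : z Y = 0 := by rw [hY]; simp
      have hQ : z ((d - algebraMap O R (z d)) - algebraMap O R u₁ * Y
          - algebraMap O R w₁ * X) = 0 := by
        simp [hzX, hzY]
      -- the branch primes in the coordinates `X`, `Y`
      have hdvdU : ϖ ∣ z U' := dvd_map_of_mem hϖ z G'.left_mem
      have hdvdW : ϖ ∣ z W' := dvd_map_of_mem hϖ z G'.right_mem
      have hYW : Y - W ∈ Ideal.span {algebraMap O R ϖ} := by
        obtain ⟨w₂, hw₂⟩ := hdvdW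
        have e : Y - W = (W' - W) - algebraMap O R ϖ * algebraMap O R w₂ := by
          rw [hY, hw₂, map_mul]; ring
        rw [e]
        exact Ideal.sub_mem _ hW' (Ideal.mul_mem_right _ _ (Ideal.subset_span rfl))
      have hXU : X - U ∈ Ideal.span {algebraMap O R ϖ} := by
        obtain ⟨u₂, hu₂⟩ := hdvdU
        have e : X - U = (U' - U) - algebraMap O R ϖ * algebraMap O R u₂ := by
          rw [hX, hu₂, map_mul]; ring
        rw [e]
        exact Ideal.sub_mem _ hU' (Ideal.mul_mem_right _ _ (Ideal.subset_span rfl))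
      have hsp1 : Ideal.span {algebraMap O R ϖ, Y} = Ideal.span {algebraMap O R ϖ, W} :=
        span_pair_congr hYW
      have hsp2 : Ideal.span {algebraMap O R ϖ, X} = Ideal.span {algebraMap O R ϖ, U} :=
        span_pair_congr hXU
      have hle1 : Ideal.span {algebraMap O R ϖ} ≤ Ideal.span {algebraMap O R ϖ, W} :=
        Ideal.span_mono (by simp)
      have hle2 : Ideal.span {algebraMap O R ϖ} ≤ Ideal.span {algebraMap O R ϖ, U} :=
        Ideal.span_mono (by simp)
      have hX1 : X ∉ Ideal.span {algebraMap O R ϖ, Y} := by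
        rw [hsp1]
        intro hmem
        apply hU
        have e : U = X - (X - U) := by ring
        rw [e]
        exact Ideal.sub_mem _ hmem (hle1 hXU)
      have hY2 : Y ∉ Ideal.span {algebraMap O R ϖ, X} := by
        rw [hsp2]
        intro hmem
        apply hW
        have e : W = Y - (Y - W) := by ring
        rw [e]
        exact Ideal.sub_mem _ hmem (hle2 hYW)
      have hP1' : (Ideal.span {algebraMap O R ϖ, Y}).IsPrime := by rw [hsp1]; exact hP1
      have hP2' : (Ideal.span {algebraMap O R ϖ, X}).IsPrime := by rw [hsp2]; exact hP2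
      have hB := dvd_of_rel hϖ z hker c hXY hQ hP1' hX1 hP2' hY2 (c + 1) le_rfl
      -- transport of the base relation
      rw [Ideal.mem_span_singleton'] at hU' hW'
      obtain ⟨r, hr⟩ := hU'
      obtain ⟨r', hr'⟩ := hW'
      have hX₀ : U - algebraMap O R (z U)
          = X + algebraMap O R ϖ * (-(r - algebraMap O R (z r))) := by
        have e1 : U = U' - r * algebraMap O R ϖ := by rw [hr]; ring
        rw [hX]
        conv_lhs => rw [e1]
        simp only [map_sub, map_mul, AlgHom.commutes, Algebra.algebraMap_self_apply]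
        ring
      have hY₀ : W - algebraMap O R (z W)
          = Y + algebraMap O R ϖ * (-(r' - algebraMap O R (z r'))) := by
        have e1 : W = W' - r' * algebraMap O R ϖ := by rw [hr']; ring
        rw [hY]
        conv_lhs => rw [e1]
        simp only [map_sub, map_mul, AlgHom.commutes, Algebra.algebraMap_self_apply]
        ring
      obtain ⟨α, β, γ, δ, hT⟩ := transport (ϖ := ϖ) z hker hX₀ (by simp) hY₀ (by simp) hrel₀
      obtain ⟨h1, h2⟩ := hB _ _ hT
      apply hc2
      constructor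
      · have e : l₀ = (l₀ * (1 + ϖ * α) + m₀ * (ϖ * γ)) - ϖ ^ (c + 1) * (l' * α + m' * γ) := by
          rw [hl', hm']; ring
        rw [e]
        exact dvd_sub h1 (dvd_mul_right _ _)
      · have e : m₀ = (l₀ * (ϖ * β) + m₀ * (1 + ϖ * δ)) - ϖ ^ (c + 1) * (l' * β + m' * δ) := by
          rw [hl', hm']; ring
        rw [e]
        exact dvd_sub h2 (dvd_mul_right _ _)

end Fermat.Agent.S34.NodeAll
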