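/-
S34 — NodeLEAdapt.lean (helper89): adapter for leaf [N1] of the abstract block.

`LocPlan.NodeLEStatement` (the shape of record: node coordinates `u`, `w` with the syzygy
condition, an `O`-rational horizontal prime `𝔮` with `PrincAt 𝔮`) follows from the "section" shape
`NodeAllStatement` (helper28's `NodeAll.exists_cut`: `NodeCut.Gen`, the two branch ideals
`(π, w)`, `(π, u)` prime, a section `z : R →ₐ[O] O` with principal kernel).

Content:
* `exists_section`        : an `O`-rational prime `𝔮` with `π ∉ 𝔮` is the kernel of a section;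
* `span_pair_isPrime`     : in a noetherian local ring with `𝔪 = (ϖ, u, w)`, if `u` is a
                            non-zero-divisor modulo `(ϖ, w)` then `(ϖ, w)` is prime and `u ∉ (ϖ, w)`
                            (Krull intersection in `R / (ϖ, w)`);
* `nodeLEStatement_of_nodeAll : NodeAllStatement → LocPlan.NodeLEStatement`.
-/
import Mathlib
import Fermat.Agent.S34.LocPlan
import Fermat.Agent.S34.NodeCut

set_option autoImplicit false

namespace Fermat.Agent.S34.NodeLEAdapt

open IsLocalRing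

/-- The "section" shape of the node lemma (helper28, `NodeAll.exists_cut`), with `Type`
binders. -/
def NodeAllStatement : Prop :=
  ∀ (O : Type) [CommRing O] [IsDomain O] [IsDiscreteValuationRing O]
    (R : Type) [CommRing R] [IsDomain R] [IsLocalRing R] [IsNoetherianRing R] [Algebra O R]
    (π : O) (U W : R), Irreducible π → NodeCut.Gen π U W →
    (∃ c : R, U * W = algebraMap O R π * c) →
    (Ideal.span {algebraMap O R π, W}).IsPrime → U ∉ Ideal.span {algebraMap O R π, W} →
    (Ideal.span {algebraMap O R π, U}).IsPrime → W ∉ Ideal.span {algebraMap O R π, U} →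
    ∀ z : R →ₐ[O] O,
      (∃ t : R, z t = 0 ∧ ∀ y : R, z y = 0 → ∃ s c : R, z s ≠ 0 ∧ s * y = c * t) →
      ∃ e : R, z e = 0 ∧ (∀ y : R, z y = 0 → ∃ s c : R, z s ≠ 0 ∧ s * y = c * e) ∧
        ∀ P : Ideal R, P.IsPrime → e ∈ P → algebraMap O R π ∉ P →
          RingHom.ker (z : R →+* O) ≤ P

/-! ### Sections from rationality -/

section Section

variable {O : Type*} [CommRing O] [IsDomain O] [IsDiscreteValuationRing O]
  {R : Type*} [CommRing R] [Algebra O R]

/-- An `O`-rational prime `𝔮` not containing the uniformizer is the kernel of a section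
`R →ₐ[O] O`. -/
theorem exists_section {π : O} (hπ : Irreducible π) (𝔮 : Ideal R) [h𝔮 : 𝔮.IsPrime]
    (hπ𝔮 : algebraMap O R π ∉ 𝔮) (hrat : ∀ x : R, ∃ c : O, x - algebraMap O R c ∈ 𝔮) :
    ∃ z : R →ₐ[O] O, RingHom.ker (z : R →+* O) = 𝔮 := by
  classical
  let φ : O →+* R ⧸ 𝔮 := (Ideal.Quotient.mk 𝔮).comp (algebraMap O R)
  have hinj : Function.Injective φ := by
    rw [injective_iff_map_eq_zero]
    intro c hc
    by_contra hc0
    obtain ⟨n, u, hu⟩ := IsDiscreteValuationRing.eq_unit_mul_pow_irreducible hc0 hπ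
    have hmem : algebraMap O R c ∈ 𝔮 := Ideal.Quotient.eq_zero_iff_mem.mp hc
    rw [hu, map_mul, map_pow] at hmem
    rcases h𝔮.mem_or_mem hmem with h1 | h1
    · exact h𝔮.ne_top (Ideal.eq_top_of_isUnit_mem _ h1 (u.isUnit.map (algebraMap O R)))
    · exact hπ𝔮 (h𝔮.mem_of_pow_mem n h1)
  have hsurj : Function.Surjective φ := by
    intro y
    obtain ⟨x, rfl⟩ := Ideal.Quotient.mk_surjective y
    obtain ⟨c, hc⟩ := hrat x
    exact ⟨c, ((Ideal.Quotient.eq).mpr hc).symm⟩
  let e : O ≃+* R ⧸ 𝔮 := RingEquiv.ofBijective φ ⟨hinj, hsurj⟩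
  let z₀ : R →+* O := (e.symm : R ⧸ 𝔮 →+* O).comp (Ideal.Quotient.mk 𝔮)
  have hcomm : ∀ c : O, z₀ (algebraMap O R c) = c := by
    intro c
    show e.symm (Ideal.Quotient.mk 𝔮 (algebraMap O R c)) = c
    have : Ideal.Quotient.mk 𝔮 (algebraMap O R c) = e c := rfl
    rw [this, RingEquiv.symm_apply_apply]
  refine ⟨{ z₀ with commutes' := fun c => hcomm c }, ?_⟩
  ext x
  rw [RingHom.mem_ker]
  show e.symm (Ideal.Quotient.mk 𝔮 x) = 0 ↔ x ∈ 𝔮
  rw [map_eq_zero_iff _ e.symm.injective, Ideal.Quotient.eq_zero_iff_mem]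

end Section

/-! ### The branch ideals are prime -/

section Prime

variable {R : Type*} [CommRing R] [IsLocalRing R] [IsNoetherianRing R]

/-- In a noetherian local ring with `𝔪 = (ϖ, u, w)`: if `u` is a non-zero-divisor modulo
`I = (ϖ, w)`, then `I` is prime and `u ∉ I`. -/
theorem span_pair_isPrime (ϖ u w : R)
    (hmax : maximalIdeal R = Ideal.span {ϖ, u, w})
    (hnzd : ∀ a : R, a * u ∈ Ideal.span {ϖ, w} → a ∈ Ideal.span {ϖ, w}) :
    (Ideal.span {ϖ, w}).IsPrime ∧ u ∉ Ideal.span {ϖ, w} := by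
  classical
  set I : Ideal R := Ideal.span {ϖ, w} with hI
  have hϖm : ϖ ∈ maximalIdeal R := by rw [hmax]; exact Ideal.subset_span (by simp)
  have hum : u ∈ maximalIdeal R := by rw [hmax]; exact Ideal.subset_span (by simp)
  have hwm : w ∈ maximalIdeal R := by rw [hmax]; exact Ideal.subset_span (by simp)
  have hIm : I ≤ maximalIdeal R := by
    rw [hI, Ideal.span_le]
    rintro x (rfl | rfl)
    · exact hϖm
    · exact hwm
  have hItop : I ≠ ⊤ := fun h => (maximalIdeal.isMaximal R).ne_top (top_le_iff.mp (h ▸ hIm))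
  have hone : (1 : R) ∉ I := fun h => hItop ((Ideal.eq_top_iff_one I).mpr h)
  -- powers of `u` are not in `I`
  have hpow : ∀ n : ℕ, u ^ n ∉ I := by
    intro n
    induction n with
    | zero => simpa using hone
    | succ n ih =>
      intro h
      rw [pow_succ] at h
      exact ih (hnzd _ h)
  have hu : u ∉ I := by simpa using hpow 1
  -- `𝔪 = I + (u)`
  have hmsup : maximalIdeal R = I ⊔ Ideal.span {u} := by
    rw [hmax, hI]
    apply le_antisymm
    · rw [Ideal.span_le]
      rintro x (rfl | rfl | rfl)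
      · exact Ideal.mem_sup_left (Ideal.subset_span (by simp))
      · exact Ideal.mem_sup_right (Ideal.subset_span (by simp))
      · exact Ideal.mem_sup_left (Ideal.subset_span (by simp))
    · rw [sup_le_iff, Ideal.span_le, Ideal.span_le]
      constructor
      · rintro x (rfl | rfl)
        · exact Ideal.subset_span (by simp)
        · exact Ideal.subset_span (by simp)
      · rintro x rfl
        exact Ideal.subset_span (by simp)
  -- `𝔪 ^ k ≤ I + (u ^ k)`
  have hpowle : ∀ k : ℕ, maximalIdeal R ^ k ≤ I ⊔ Ideal.span {u ^ k} := by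
    intro k
    induction k with
    | zero =>
      intro x _
      refine Ideal.mem_sup_right ?_
      rw [pow_zero, Ideal.span_singleton_one]
      trivial
    | succ k ih =>
      rw [pow_succ]
      refine Ideal.mul_le.mpr fun a ha b hb => ?_
      have ha' := ih ha
      have hb' : b ∈ I ⊔ Ideal.span {u} := hmsup ▸ hb
      obtain ⟨i, hi, a', ha'', rfl⟩ := Submodule.mem_sup.mp ha'
      obtain ⟨i', hi', b', hb'', rfl⟩ := Submodule.mem_sup.mp hb'
      obtain ⟨r, rfl⟩ := Ideal.mem_span_singleton'.mp ha''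
      obtain ⟨r', rfl⟩ := Ideal.mem_span_singleton'.mp hb''
      have e1 : (i + r * u ^ k) * (i' + r' * u) =
          (i * (i' + r' * u) + r * u ^ k * i') + r * r' * u ^ (k + 1) := by ring
      rw [e1]
      refine Submodule.add_mem_sup ?_ (Ideal.mem_span_singleton'.mpr ⟨r * r', rfl⟩)
      exact I.add_mem (I.mul_mem_right _ hi) (I.mul_mem_left _ hi')
  -- Krull intersection in `R / I`
  have hkrull : ∀ x : R, (∀ k : ℕ, x ∈ I ⊔ maximalIdeal R ^ k) → x ∈ I := by
    intro x hx
    have hbot := Ideal.iInf_pow_smul_eq_bot_of_isLocalRing (R := R) (M := R ⧸ I)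
      (maximalIdeal R) (maximalIdeal.isMaximal R).ne_top
    have hmem : (Ideal.Quotient.mk I x : R ⧸ I) ∈
        (⨅ i : ℕ, maximalIdeal R ^ i • (⊤ : Submodule R (R ⧸ I))) := by
      rw [Submodule.mem_iInf]
      intro k
      obtain ⟨i, hi, b, hb, rfl⟩ := Submodule.mem_sup.mp (hx k)
      have h0 : (Ideal.Quotient.mk I (i + b) : R ⧸ I) = b • (Ideal.Quotient.mk I 1 : R ⧸ I) := by
        rw [map_add, Ideal.Quotient.eq_zero_iff_mem.mpr hi, zero_add, Algebra.smul_def]
        simp
      rw [h0]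
      exact Submodule.smul_mem_smul hb Submodule.mem_top
    rw [hbot, Submodule.mem_bot] at hmem
    exact Ideal.Quotient.eq_zero_iff_mem.mp hmem
  -- every element outside `I` is `u ^ k * unit` modulo `I`
  have hkey : ∀ x : R, x ∉ I → ∃ (k : ℕ) (v : R), IsUnit v ∧ x - u ^ k * v ∈ I := by
    intro x hx
    have hex : ∃ k : ℕ, x ∉ I ⊔ maximalIdeal R ^ k := by
      by_contra h
      exact hx (hkrull x fun k => not_not.mp fun hk => h ⟨k, hk⟩)
    let j := Nat.find hex
    have hj : x ∉ I ⊔ maximalIdeal R ^ j := Nat.find_spec hex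
    have hj0 : j ≠ 0 := by
      intro h0
      apply hj
      rw [h0, pow_zero, Ideal.one_eq_top, sup_top_eq]
      trivial
    obtain ⟨k, hk⟩ := Nat.exists_eq_succ_of_ne_zero hj0
    have hk' : x ∈ I ⊔ maximalIdeal R ^ k := by
      have := Nat.find_min hex (m := k) (by omega)
      exact not_not.mp this
    have hk'' : x ∈ I ⊔ Ideal.span {u ^ k} :=
      (sup_le le_sup_left (hpowle k)) hk'
    obtain ⟨i, hi, b, hb, hxe⟩ := Submodule.mem_sup.mp hk''
    obtain ⟨r, rfl⟩ := Ideal.mem_span_singleton'.mp hb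
    refine ⟨k, r, ?_, ?_⟩
    · by_contra hr
      have hrm : r ∈ maximalIdeal R := (mem_maximalIdeal r).mpr hr
      rw [hmsup] at hrm
      obtain ⟨i', hi', b', hb', hre⟩ := Submodule.mem_sup.mp hrm
      obtain ⟨r', rfl⟩ := Ideal.mem_span_singleton'.mp hb'
      apply hj
      rw [hk, ← hxe, ← hre]
      have e1 : i + (i' + r' * u) * u ^ k = (i + i' * u ^ k) + r' * u ^ (k + 1) := by ring
      rw [e1]
      refine Submodule.add_mem_sup (I.add_mem hi (I.mul_mem_right _ hi')) ?_
      exact Ideal.mul_mem_left _ _ (Ideal.pow_mem_pow hum (k + 1))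
    · have : x - u ^ k * r = i := by rw [← hxe]; ring
      rw [this]
      exact hi
  refine ⟨?_, hu⟩
  rw [Ideal.isPrime_iff]
  refine ⟨hItop, fun {x y} hxy => ?_⟩
  by_contra hcon
  rw [not_or] at hcon
  obtain ⟨k, v, hv, hxv⟩ := hkey x hcon.1
  obtain ⟨l, v', hv', hyv⟩ := hkey y hcon.2
  have h1 : u ^ (k + l) * (v * v') ∈ I := by
    have e1 : u ^ (k + l) * (v * v') =
        x * y - (x - u ^ k * v) * y - u ^ k * v * (y - u ^ l * v') := by ring
    rw [e1]
    exact I.sub_mem (I.sub_mem hxy (I.mul_mem_right _ hxv)) (I.mul_mem_left _ hyv)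
  obtain ⟨c, hc⟩ := (hv.mul hv').exists_right_inv
  have h2 : u ^ (k + l) ∈ I := by
    have e2 : u ^ (k + l) = u ^ (k + l) * (v * v') * c := by rw [mul_assoc, hc, mul_one]
    rw [e2]
    exact I.mul_mem_right _ h1
  exact hpow _ h2

end Prime

/-! ### The adapter -/

/-- **[N1] adapter**: the section shape of the node lemma implies the shape of record. -/
theorem nodeLEStatement_of_nodeAll (hAll : NodeAllStatement) : LocPlan.NodeLEStatement := by
  intro O _ _ _ R _ _ _ _ _ π u w 𝔮 hπ h𝔮 hmax hdvd hsyz hπ𝔮 hrat hprinc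
  have := h𝔮
  set ϖ : R := algebraMap O R π with hϖ
  -- the section
  obtain ⟨z, hker⟩ := exists_section hπ 𝔮 hπ𝔮 hrat
  have hz0 : ∀ x : R, z x = 0 ↔ x ∈ 𝔮 := by
    intro x
    rw [← hker, RingHom.mem_ker]
    rfl
  -- `Gen`
  have hGen : NodeCut.Gen π u w :=
    ⟨hmax, fun r => by
      obtain ⟨c, hc⟩ := hrat r
      exact ⟨c, IsLocalRing.le_maximalIdeal h𝔮.ne_top hc⟩⟩
  have hUW : ∃ c : R, u * w = ϖ * c := hdvd
  -- the branch ideals are prime
  have hnzd1 : ∀ a : R, a * u ∈ Ideal.span {ϖ, w} → a ∈ Ideal.span {ϖ, w} := by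
    intro a ha
    obtain ⟨c, d, hcd⟩ := Ideal.mem_span_pair.mp ha
    refine (hsyz a (-d) ⟨c, ?_⟩).1
    linear_combination -hcd
  have hmax' : maximalIdeal R = Ideal.span {ϖ, w, u} := by
    rw [hmax]
    congr 1
    ext x
    simp only [Set.mem_insert_iff, Set.mem_singleton_iff]
    tauto
  have hnzd2 : ∀ b : R, b * w ∈ Ideal.span {ϖ, u} → b ∈ Ideal.span {ϖ, u} := by
    intro b hb
    obtain ⟨c, d, hcd⟩ := Ideal.mem_span_pair.mp hb
    refine (hsyz (-d) b ⟨c, ?_⟩).2
    linear_combination -hcd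
  obtain ⟨hP1, hU⟩ := span_pair_isPrime ϖ u w hmax hnzd1
  obtain ⟨hP2, hW⟩ := span_pair_isPrime ϖ w u hmax' hnzd2
  -- principality
  have hz : ∃ t : R, z t = 0 ∧ ∀ y : R, z y = 0 → ∃ s c : R, z s ≠ 0 ∧ s * y = c * t := by
    obtain ⟨-, t, ht, hgen⟩ := hprinc
    refine ⟨t, (hz0 t).mpr ht, fun y hy => ?_⟩
    obtain ⟨s, hs, c, hc⟩ := hgen y ((hz0 y).mp hy)
    exact ⟨s, c, fun h => hs ((hz0 s).mp h), hc⟩
  obtain ⟨e, he, hgen, hP⟩ := hAll O R π u w hπ hGen hUW hP1 hU hP2 hW z hz
  refine ⟨e, (hz0 e).mp he, fun 𝔮' h𝔮' _ he' hπ' => ?_, fun y hy => ?_⟩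
  · rw [← hker]
    exact hP 𝔮' h𝔮' he' hπ'
  · obtain ⟨s, c, hs, hc⟩ := hgen y ((hz0 y).mpr hy)
    exact ⟨s, fun h => hs ((hz0 s).mpr h), c, hc⟩

end Fermat.Agent.S34.NodeLEAdapt
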