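/-
S34 node block — [N1], B-route (helper19): `LocPlan.NodeLEStatement` from helper28's
`NodeAll.exists_cut` (on main).

`NodeLEStatement` (the node lemma of record of `S34/LocPlan.lean`) is stated with node
coordinates `u`, `w` satisfying the *syzygy condition*
`π ∣ a * u + b * w → a ∈ (π, w) ∧ b ∈ (π, u)`, whereas `NodeAll.exists_cut` wants the branch
ideals `(π, w)`, `(π, u)` to be prime with `u ∉ (π, w)`, `w ∉ (π, u)`, and a section
`z : R →ₐ[O] O`.  This file is the adapter:

* `not_mem_of_syz`, `pow_not_mem_of_syz` : the syzygy condition gives `u ^ k ∉ (π, w)` for all `k`;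
* `isPrime_of_pow_not_mem` : in a noetherian local ring, an ideal `I` with `𝔪 = I ⊔ (u)` and
  `u ^ k ∉ I` for all `k` is prime (`R ⧸ I` has a principal maximal ideal generated by a
  non-nilpotent element; Krull intersection);
* `sectionOf` : the section `R →ₐ[O] O` of an `O`-rational prime `𝔮` not containing `π`;
* `nodeLEStatement : LocPlan.NodeLEStatement`.
-/
import Mathlib
import Fermat.Agent.S34.LocPlan
import Fermat.Agent.S34.NodeAll

set_option autoImplicit false

namespace Fermat.Agent.S34.NodeLEB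

open IsLocalRing

/-! ### Primality of the branch ideals from the syzygy condition -/

section Prime

variable {R : Type*} [CommRing R]

/-- Under the syzygy condition no power of `u` lies in `(ϖ, w)`, provided `(ϖ, w) ≠ ⊤`. -/
theorem pow_not_mem_of_syz {ϖ u w : R} (hne : Ideal.span {ϖ, w} ≠ (⊤ : Ideal R))
    (hsyz : ∀ a b : R, ϖ ∣ a * u + b * w → a ∈ Ideal.span {ϖ, w}) (k : ℕ) :
    u ^ k ∉ Ideal.span {ϖ, w} := by
  induction k with
  | zero =>
    rw [pow_zero]
    exact fun h => hne ((Ideal.eq_top_iff_one _).mpr h)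
  | succ k ih =>
    intro h
    rw [Ideal.mem_span_pair] at h
    obtain ⟨x, y, hxy⟩ := h
    apply ih
    apply hsyz (u ^ k) (-y)
    refine ⟨x, ?_⟩
    have : u ^ k * u = x * ϖ + y * w := by rw [← pow_succ]; exact hxy.symm
    linear_combination this

/-- In a noetherian local ring, an ideal `I` such that `𝔪 = I ⊔ (u)` and no power of `u` lies
in `I` is prime. -/
theorem isPrime_of_pow_not_mem [IsLocalRing R] [IsNoetherianRing R] (I : Ideal R) (u : R)
    (hmax : maximalIdeal R ≤ I ⊔ Ideal.span {u}) (hu : u ∈ maximalIdeal R)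
    (hpow : ∀ k : ℕ, u ^ k ∉ I) : I.IsPrime := by
  have hI : I ≠ ⊤ := fun h => hpow 0 (by rw [h]; exact Submodule.mem_top)
  have : Nontrivial (R ⧸ I) := Ideal.Quotient.nontrivial_iff.mpr hI
  have : IsLocalRing (R ⧸ I) :=
    IsLocalRing.of_surjective' (Ideal.Quotient.mk I) Ideal.Quotient.mk_surjective
  set T := R ⧸ I
  set ub : T := Ideal.Quotient.mk I u with hub
  -- `ū` generates the maximal ideal of `T`
  have hnonunit : ∀ t : T, ¬ IsUnit t → ∃ c : T, t = c * ub := by
    intro t ht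
    obtain ⟨x, rfl⟩ := Ideal.Quotient.mk_surjective t
    have hx : x ∈ maximalIdeal R := by
      rw [IsLocalRing.mem_maximalIdeal, mem_nonunits_iff]
      exact fun hxu => ht (hxu.map _)
    obtain ⟨i, hi, r, hr, hir⟩ := Submodule.mem_sup.mp (hmax hx)
    obtain ⟨c, rfl⟩ := Ideal.mem_span_singleton'.mp hr
    refine ⟨Ideal.Quotient.mk I c, ?_⟩
    rw [← hir, map_add, map_mul, Ideal.Quotient.eq_zero_iff_mem.mpr hi, zero_add]
  have hub_mem : ub ∈ maximalIdeal T := by
    rw [IsLocalRing.mem_maximalIdeal, mem_nonunits_iff]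
    intro hunit
    obtain ⟨v, hv⟩ := hunit.exists_right_inv
    obtain ⟨v, rfl⟩ := Ideal.Quotient.mk_surjective v
    have h1 : u * v - 1 ∈ I := by
      rw [← Ideal.Quotient.eq_zero_iff_mem, map_sub, map_mul, map_one, ← hub, hv, sub_self]
    have h2 : u * v - 1 ∈ maximalIdeal R := IsLocalRing.le_maximalIdeal hI h1
    have h3 : u * v ∈ maximalIdeal R := Ideal.mul_mem_right _ _ hu
    have h4 : (1 : R) ∈ maximalIdeal R := by
      have := Ideal.sub_mem _ h3 h2
      rwa [sub_sub_cancel] at this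
    exact (Ideal.ne_top_iff_one _).mp (IsLocalRing.maximalIdeal.isMaximal R).ne_top h4
  have hmaxT : maximalIdeal T ≤ Ideal.span {ub} := by
    intro t ht
    rw [IsLocalRing.mem_maximalIdeal, mem_nonunits_iff] at ht
    obtain ⟨c, rfl⟩ := hnonunit t ht
    exact Ideal.mem_span_singleton'.mpr ⟨c, rfl⟩
  have hub_pow : ∀ k : ℕ, ub ^ k ≠ 0 := by
    intro k h
    apply hpow k
    rw [← Ideal.Quotient.eq_zero_iff_mem, map_pow]
    exact h
  -- every nonzero element is a unit times a power of `ū`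
  have hform : ∀ t : T, t ≠ 0 → ∃ (k : ℕ) (c : T), IsUnit c ∧ t = c * ub ^ k := by
    intro t ht
    have hkrull : ⨅ i : ℕ, maximalIdeal T ^ i = ⊥ :=
      Ideal.iInf_pow_eq_bot_of_isLocalRing _ (IsLocalRing.maximalIdeal.isMaximal T).ne_top
    have hex : ∃ k : ℕ, t ∉ maximalIdeal T ^ k := by
      by_contra hall
      rw [not_exists] at hall
      have hall : ∀ k : ℕ, t ∈ maximalIdeal T ^ k := fun k => not_not.mp (hall k)
      apply ht
      have : t ∈ ⨅ i : ℕ, maximalIdeal T ^ i := by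
        rw [Ideal.mem_iInf]; exact hall
      rw [hkrull] at this
      exact this
    classical
    let k := Nat.find hex
    have hk : t ∉ maximalIdeal T ^ k := Nat.find_spec hex
    have hk0 : k ≠ 0 := by
      intro h0
      apply hk
      rw [h0, pow_zero, Ideal.one_eq_top]
      exact Submodule.mem_top
    obtain ⟨j, hj⟩ := Nat.exists_eq_succ_of_ne_zero hk0
    have hjmem : t ∈ maximalIdeal T ^ j := by
      by_contra hnot
      have := Nat.find_min' hex hnot
      omega
    have hjspan : t ∈ Ideal.span {ub ^ j} := by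
      rw [← Ideal.span_singleton_pow]
      exact Ideal.pow_right_mono hmaxT j hjmem
    obtain ⟨c, hc⟩ := Ideal.mem_span_singleton'.mp hjspan
    refine ⟨j, c, ?_, hc.symm⟩
    by_contra hcu
    apply hk
    have hcm : c ∈ maximalIdeal T := by
      rw [IsLocalRing.mem_maximalIdeal, mem_nonunits_iff]; exact hcu
    rw [hj, ← hc, pow_succ, mul_comm (maximalIdeal T ^ j)]
    exact Ideal.mul_mem_mul hcm (Ideal.pow_mem_pow hub_mem j)
  have hdom : IsDomain T := by
    have : NoZeroDivisors T := by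
      refine ⟨fun {a b} hab => ?_⟩
      by_contra hne
      rw [not_or] at hne
      obtain ⟨ka, ca, hca, rfl⟩ := hform a hne.1
      obtain ⟨kb, cb, hcb, rfl⟩ := hform b hne.2
      have h1 : (ca * cb) * ub ^ (ka + kb) = 0 := by
        rw [pow_add]; linear_combination hab
      have h2 : ub ^ (ka + kb) = 0 := by
        have hu' : IsUnit (ca * cb) := hca.mul hcb
        exact (hu'.mul_right_eq_zero).mp h1
      exact hub_pow _ h2
    exact NoZeroDivisors.to_isDomain T
  exact (Ideal.Quotient.isDomain_iff_prime I).mp hdom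

end Prime

/-! ### The section of an `O`-rational prime -/

section Section

variable {O : Type*} [CommRing O] [IsDomain O] [IsDiscreteValuationRing O]
variable {R : Type*} [CommRing R] [Algebra O R]

/-- A prime not containing the uniformiser contains no nonzero constant. -/
theorem const_eq_zero_of_mem {π : O} (hπ : Irreducible π) {𝔮 : Ideal R} (h𝔮 : 𝔮.IsPrime)
    (hπ𝔮 : algebraMap O R π ∉ 𝔮) (c : O) (hc : algebraMap O R c ∈ 𝔮) : c = 0 := by
  by_contra hc0
  obtain ⟨n, u, rfl⟩ := IsDiscreteValuationRing.eq_unit_mul_pow_irreducible hc0 hπ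
  rw [map_mul, map_pow] at hc
  rcases h𝔮.mem_or_mem hc with h | h
  · exact h𝔮.ne_top (Ideal.eq_top_of_isUnit_mem _ h (u.isUnit.map (algebraMap O R)))
  · exact hπ𝔮 (h𝔮.mem_of_pow_mem n h)

/-- The section `R →ₐ[O] O` with kernel an `O`-rational prime `𝔮` not containing `π`. -/
theorem exists_section {π : O} (hπ : Irreducible π) {𝔮 : Ideal R} (h𝔮 : 𝔮.IsPrime)
    (hπ𝔮 : algebraMap O R π ∉ 𝔮) (hrat : ∀ x : R, ∃ c : O, x - algebraMap O R c ∈ 𝔮) :
    ∃ z : R →ₐ[O] O, ∀ x : R, z x = 0 ↔ x ∈ 𝔮 := by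
  let φ : O →+* R ⧸ 𝔮 := (Ideal.Quotient.mk 𝔮).comp (algebraMap O R)
  have hinj : Function.Injective φ := by
    rw [injective_iff_map_eq_zero]
    intro c hc
    exact const_eq_zero_of_mem hπ h𝔮 hπ𝔮 c (Ideal.Quotient.eq_zero_iff_mem.mp hc)
  have hsurj : Function.Surjective φ := by
    intro t
    obtain ⟨x, rfl⟩ := Ideal.Quotient.mk_surjective t
    obtain ⟨c, hc⟩ := hrat x
    refine ⟨c, ?_⟩
    have h0 := Ideal.Quotient.eq_zero_iff_mem.mpr hc
    rw [map_sub, sub_eq_zero] at h0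
    exact h0.symm
  let e : O ≃+* R ⧸ 𝔮 := RingEquiv.ofBijective φ ⟨hinj, hsurj⟩
  let z₀ : R →+* O := (e.symm : R ⧸ 𝔮 →+* O).comp (Ideal.Quotient.mk 𝔮)
  have hz₀ : ∀ c : O, z₀ (algebraMap O R c) = c := by
    intro c
    change e.symm (Ideal.Quotient.mk 𝔮 (algebraMap O R c)) = c
    have : Ideal.Quotient.mk 𝔮 (algebraMap O R c) = e c := rfl
    rw [this, RingEquiv.symm_apply_apply]
  refine ⟨{ z₀ with commutes' := hz₀ }, fun x => ?_⟩
  change e.symm (Ideal.Quotient.mk 𝔮 x) = 0 ↔ x ∈ 𝔮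
  rw [map_eq_zero_iff _ e.symm.injective, Ideal.Quotient.eq_zero_iff_mem]

end Section

/-! ### The adapter -/

/-- **[N1], B-route.**  `LocPlan.NodeLEStatement` from `NodeAll.exists_cut`. -/
theorem nodeLEStatement : LocPlan.NodeLEStatement := by
  intro O _ _ _ R _ _ _ _ _ π u w 𝔮 hπ h𝔮 hmax hdvd hsyz hπ𝔮 hrat hprinc
  set ϖ : R := algebraMap O R π with hϖ
  have hu_max : u ∈ maximalIdeal R := by
    rw [hmax]; exact Ideal.subset_span (by simp)
  have hw_max : w ∈ maximalIdeal R := by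
    rw [hmax]; exact Ideal.subset_span (by simp)
  have hϖ_max : ϖ ∈ maximalIdeal R := by
    rw [hmax]; exact Ideal.subset_span (by simp)
  have hmax_ne : maximalIdeal R ≠ ⊤ := (IsLocalRing.maximalIdeal.isMaximal R).ne_top
  -- the branch ideals are proper
  have hne1 : Ideal.span {ϖ, w} ≠ (⊤ : Ideal R) := by
    intro h
    apply hmax_ne
    rw [eq_top_iff, ← h, Ideal.span_le]
    intro x hx
    rcases hx with rfl | rfl
    · exact hϖ_max
    · exact hw_max
  have hne2 : Ideal.span {ϖ, u} ≠ (⊤ : Ideal R) := by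
    intro h
    apply hmax_ne
    rw [eq_top_iff, ← h, Ideal.span_le]
    intro x hx
    rcases hx with rfl | rfl
    · exact hϖ_max
    · exact hu_max
  -- powers of `u` avoid `(ϖ, w)`, powers of `w` avoid `(ϖ, u)`
  have hpow1 : ∀ k : ℕ, u ^ k ∉ Ideal.span {ϖ, w} :=
    pow_not_mem_of_syz hne1 (fun a b h => (hsyz a b h).1)
  have hpow2 : ∀ k : ℕ, w ^ k ∉ Ideal.span {ϖ, u} :=
    pow_not_mem_of_syz hne2 (fun a b h => (hsyz b a (by rwa [add_comm] at h)).2)
  -- the branch ideals are prime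
  have hle1 : maximalIdeal R ≤ Ideal.span {ϖ, w} ⊔ Ideal.span {u} := by
    rw [hmax, Ideal.span_le]
    intro x hx
    rcases hx with rfl | rfl | rfl
    · exact Ideal.mem_sup_left (Ideal.subset_span (by simp))
    · exact Ideal.mem_sup_right (Ideal.subset_span rfl)
    · exact Ideal.mem_sup_left (Ideal.subset_span (by simp))
  have hle2 : maximalIdeal R ≤ Ideal.span {ϖ, u} ⊔ Ideal.span {w} := by
    rw [hmax, Ideal.span_le]
    intro x hx
    rcases hx with rfl | rfl | rfl
    · exact Ideal.mem_sup_left (Ideal.subset_span (by simp))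
    · exact Ideal.mem_sup_left (Ideal.subset_span (by simp))
    · exact Ideal.mem_sup_right (Ideal.subset_span rfl)
  have hP1 : (Ideal.span {ϖ, w}).IsPrime := isPrime_of_pow_not_mem _ u hle1 hu_max hpow1
  have hP2 : (Ideal.span {ϖ, u}).IsPrime := isPrime_of_pow_not_mem _ w hle2 hw_max hpow2
  have hU : u ∉ Ideal.span {ϖ, w} := by simpa using hpow1 1
  have hW : w ∉ Ideal.span {ϖ, u} := by simpa using hpow2 1
  -- the section
  obtain ⟨z, hz⟩ := exists_section hπ h𝔮 hπ𝔮 hrat
  have hker : RingHom.ker (z : R →+* O) = 𝔮 := by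
    ext x
    rw [RingHom.mem_ker]
    exact hz x
  have G : NodeCut.Gen π u w := NodeAll.gen_of_section hmax z
  obtain ⟨c, hc⟩ := hdvd
  obtain ⟨-, t, ht, hgen⟩ := hprinc
  have hzt : ∃ t : R, z t = 0 ∧ ∀ y : R, z y = 0 → ∃ s c : R, z s ≠ 0 ∧ s * y = c * t := by
    refine ⟨t, (hz t).mpr ht, fun y hy => ?_⟩
    obtain ⟨s, hs, c, hsc⟩ := hgen y ((hz y).mp hy)
    exact ⟨s, c, fun h => hs ((hz s).mp h), hsc⟩
  obtain ⟨e, he0, hegen, heP⟩ := NodeAll.exists_cut hπ G ⟨c, hc⟩ hP1 hU hP2 hW z hzt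
  refine ⟨e, (hz e).mp he0, ?_, ?_⟩
  · intro 𝔮' h𝔮' _ he hπ'
    rw [← hker]
    exact heP 𝔮' h𝔮' he hπ'
  · intro y hy
    obtain ⟨s, c, hs, hsc⟩ := hegen y ((hz y).mpr hy)
    exact ⟨s, fun h => hs ((hz s).mpr h), c, hsc⟩

end Fermat.Agent.S34.NodeLEB
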