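/-
S34 — Plan.lean (helper57).  Top of an S34 route in HYPOTHESIS FORM (spare; not used by any
credited statement).

`result_of_uq`: from the single geometric statement

  `UqStatement N p q` : `τ x + τ⁻¹ x = 2 x` for every `p`-power torsion point `x` of `J₀(N)` and
                        every `τ` in an inertia group at `q`      (i.e. `(τ - 1)² = 0`)

the frozen S34 conclusion `H.ρ.IsUnipotentOnInertiaAt q` for a Hecke–Galois datum of level `N`.

Proof.  Fix `τ` in an inertia group at `q ≠ p`.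
(a) `tr ρ(τ) = 2`.  For a depth `k` take `c` from Artin–Rees [L5], a finite level `L₀` from the
    continuity of the trace [L2a] and `n = k + c`.  On a finite level containing `L₀`, the
    `p^n`-th roots of unity and the fields of definition of `θ_n(Lpar N)` (`θ_n` from
    `KStatement N (p ^ n)`), `τ` is a power `σ^j` of a Frobenius element at a prime `ℓ ∉ S`,
    `ℓ ∤ N p` (FD).  Then `ℓ^j ≡ 1 mod p^n` (roots of unity), and on `x = θ_n(u)`:
    `V_j(T_ℓ, ℓ) x = σ^j x + ℓ^j σ^{-j} x = τ x + τ⁻¹ x = 2 x`, so `V_j(T_ℓ, ℓ) - 2` maps `Lpar N`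
    into `p^n · Lpar N`.  By [L5] + [L6] the element `V_j(T_ℓ, ℓ) - 2` of the Hecke algebra of cusp
    forms is `p^k` times a Hecke element; apply `π` and [L2b]: `tr ρ(σ^j) - 2 ∈ 𝔪_T^k`, hence
    `tr ρ(τ) - 2 ∈ 𝔪_T^k` for all `k`, and Krull's intersection theorem gives `tr ρ(τ) = 2`.
(b) `τ²` is in the same inertia group, so `tr ρ(τ)² = 2` as well.  In rank two
    `charpoly = X² - tr · X + u` and `tr (M²) = tr(M)² - 2u`; hence `2u = 2` and `u = 1` because
    `T` is free over the characteristic-zero domain `𝒪`.  So `charpoly ρ(τ) = (X - 1)²`.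
-/
import Mathlib
import Fermat.Prelude.Def_CuspForm_HeckeGaloisRepDatum
import Fermat.Prelude.Def_GaloisRep_LocalConditions
import Fermat.Agent.S31.Defs
import Fermat.Agent.S31.Plan
import Fermat.Agent.S31.JSideB
import Fermat.Agent.S41.LparFree

set_option autoImplicit false

open ModularCurve CongruenceSubgroup Polynomial

namespace Fermat.Agent.S34.Plan57

noncomputable section

open Fermat.Agent.S29 (Qb GQ heckeLpar KStatement SpecCoreStatement FDStatement)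
open Fermat.Agent.S29.Lucas (lucasV lucasV_zero lucasV_one lucasV_add_two)
open Fermat.Agent.S41 (Lpar)
open Fermat.Agent.S31 (lucasPoly TraceContStatement LucasTraceStatement ArtinReesStatement
  HeckeCompareStatement FrobPowStatement RootStatement HIdx HPoly evL evC evL_single evC_single)

/-- **(U_q)**: inertia at `q` acts unipotently (of level two) on the `p`-power torsion of
`J₀(N)`: `τ x + τ⁻¹ x = 2 x`. -/
def UqStatement (N p q : ℕ) [NeZero N] : Prop :=
  ∀ x : JZero N, (∃ n : ℕ, p ^ n • x = 0) → ∀ P : ValuationSubring Qb, P.LiesOverPrime q →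
    ∀ τ : GQ, τ ∈ P.inertiaSubgroupIn ℚ → τ • x + τ⁻¹ • x = 2 • x

/-- **The J-side of S34** (for all depths `n`): every `τ` in an inertia group at `q` agrees on a
prescribed finite level `L₀` with a power `σ ^ j` of a Frobenius element at a prime `ℓ ∉ S`,
`ℓ ∤ N`, `ℓ ≠ p`, such that `V_j(T_ℓ, ℓ) - 2` is divisible by `p ^ n` on `Lpar N`. -/
def JSideStatement (N p q : ℕ) [NeZero N] : Prop :=
  ∀ (n : ℕ) (S : Finset ℕ) (L₀ : IntermediateField ℚ Qb), FiniteDimensional ℚ L₀ →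
    ∀ P : ValuationSubring Qb, P.LiesOverPrime q →
      ∀ τ : GQ, τ ∈ P.inertiaSubgroupIn ℚ →
        ∃ (ℓ : ℕ) (hℓ : ℓ.Prime) (hℓN : ¬ ℓ ∣ N) (A : ValuationSubring Qb) (σ : GQ) (j : ℕ),
          ℓ ∉ S ∧ ℓ ≠ p ∧ A.LiesOverPrime ℓ ∧ A.IsFrobeniusAt σ ℓ ∧
          (∀ x ∈ L₀, τ x = (σ ^ j) x) ∧
          ∀ u : Lpar N, ∃ w : Lpar N,
            Polynomial.aeval (heckeLpar N ℓ hℓ hℓN) (lucasPoly ℓ j - C 2) u = ((p : ℤ) ^ n) • w

/-! ### The J-side from (U_q) -/

/-- **The J-side of S34 from (U_q)** (only the instances of (U_q) at the points `θ u` of the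
level-`p^n` map of `KStatement` are used). -/
theorem jSide_of_uq (N p q : ℕ) [NeZero N] (hp : p.Prime) (hq : q.Prime) (hqp : q ≠ p)
    (hK : ∀ n : ℕ, KStatement N (p ^ n)) (hFrob : FrobPowStatement N p)
    (hRoot : RootStatement p) (hFD : FDStatement) (hU : UqStatement N p q) :
    JSideStatement N p q := by
  classical
  intro n S L₀ hL₀ P hP τ hτ
  obtain ⟨θ, htors, hker, hhecke⟩ := hK n
  have hm : p ^ n ≠ 0 := pow_ne_zero n hp.ne_zero
  have : NeZero (p ^ n) := ⟨hm⟩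
  obtain ⟨ζ, hζ⟩ := Fermat.Agent.S31.JSideB.exists_primitiveRoot (p ^ n) hm
  have hζint : IsIntegral ℚ ζ :=
    (Fermat.Agent.S29.FinLevel.isAlgebraic_rat.isAlgebraic ζ).isIntegral
  obtain ⟨L, hLfin, hLstab, hL₀L, hζL, hfix⟩ :=
    Fermat.Agent.S31.JSideB.exists_level N (p ^ n) hm θ htors L₀ hL₀ ζ hζint
  have hNp : N * p ≠ 0 := Nat.mul_ne_zero (NeZero.ne N) hp.ne_zero
  obtain ⟨ℓ, A, σ, j, hℓ, hℓS, hA, hσ, hτσ⟩ := hFD L hLfin (S ∪ (N * p).primeFactors) τ
  have hℓNp : ¬ ℓ ∣ N * p := fun hd =>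
    hℓS (Finset.mem_union_right _ (Nat.mem_primeFactors.mpr ⟨hℓ, hd, hNp⟩))
  have hℓN : ¬ ℓ ∣ N := fun hd => hℓNp (Dvd.dvd.mul_right hd p)
  have hℓp : ℓ ≠ p := fun he => hℓNp (he ▸ Dvd.intro_left N rfl)
  refine ⟨ℓ, hℓ, hℓN, A, σ, j, fun h => hℓS (Finset.mem_union_left _ h), hℓp, hA, hσ,
    fun x hx => hτσ x (hL₀L hx), ?_⟩
  -- the congruence `ℓ^j ≡ 1 mod p^n`
  have hζ1 : ζ ^ (p ^ n) = 1 := hζ.pow_eq_one
  have hcong : ℓ ^ j ≡ 1 [MOD p ^ n] := by
    apply Fermat.Agent.S31.JSideB.modEq_of_pow_eq hζ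
    have e1 : τ ζ = ζ ^ (ℓ ^ j) := by
      rw [hτσ ζ hζL]
      exact Fermat.Agent.S31.JSideB.frob_pow_root hRoot hℓ hℓp A hA σ hσ n j ζ hζ1
    have e2 : τ ζ = ζ := (hRoot n ζ hζ1).2 q hq hqp P hP τ hτ
    rw [← e1, e2, pow_one]
  -- Hecke clause at `ℓ ≠ p^n`
  have hne : ℓ ≠ p ^ n := by
    intro he
    rcases Nat.eq_zero_or_pos n with h0 | hpos
    · rw [h0, pow_zero] at he
      exact hℓ.one_lt.ne' he
    · have hdvd : p ∣ ℓ := he ▸ dvd_pow_self p hpos.ne'
      exact hℓp ((Nat.prime_dvd_prime_iff_eq hp hℓ).mp hdvd).symm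
  intro u
  have htor' : ∃ k : ℕ, p ^ k • θ u = 0 := ⟨n, htors u⟩
  set x := θ u with hx
  have hxfix : ∀ η : GQ, (∀ a ∈ L, η a = a) → η • x = x := fun η hη => hfix η hη u
  have a1 : τ • x = (σ ^ j) • x := Fermat.Agent.S31.JSideB.smul_eq_of_eq_on L x hxfix _ _ hτσ
  have a2 : τ⁻¹ • x = (σ ^ j)⁻¹ • x :=
    Fermat.Agent.S31.JSideB.smul_eq_of_eq_on L x hxfix _ _
      (Fermat.Agent.S31.JSideB.inv_eq_on_of_eq_on L hLstab _ _ hτσ)
  have c1 := hFrob ℓ hℓ hℓNp A hA σ hσ j x htor'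
  rw [← a1, ← a2] at c1
  have hy : (p ^ n) • (τ⁻¹ • x) = 0 := by
    have h0 : (p ^ n) • x = 0 := htors u
    rw [← Fermat.Agent.S29.ESUse.gal_apply, ← map_nsmul, h0, map_zero]
  have c3 : (ℓ ^ j) • (τ⁻¹ • x) = 1 • (τ⁻¹ • x) :=
    Fermat.Agent.S31.JSideB.nsmul_eq_of_modEq hcong hy
  rw [c3, one_smul, hU x htor' P hP τ hτ] at c1
  -- transport to `Lpar N` and use the kernel clause
  have i1 := Fermat.Agent.S31.JSideB.aeval_intertwine θ (heckeLpar N ℓ hℓ hℓN)
    (heckeOperatorBar N ⟨ℓ, hℓ⟩) (fun v => hhecke ℓ hℓ hℓN hne v) (lucasPoly ℓ j - C 2) u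
  have hzero : θ (Polynomial.aeval (heckeLpar N ℓ hℓ hℓN) (lucasPoly ℓ j - C 2) u) = 0 := by
    rw [i1, ← hx, map_sub, LinearMap.sub_apply, ← c1, Polynomial.aeval_C,
      Module.algebraMap_end_apply]
    rw [sub_eq_zero]
    norm_cast
  obtain ⟨z, hz⟩ := hker _ hzero
  refine ⟨z, ?_⟩
  rw [hz]
  push_cast
  rfl

/-! ### Rank two -/

/-- In rank two, the characteristic polynomial is `X² - tr · X + u`. -/
theorem charpoly_eq_of_finrank_two {T : Type*} [CommRing T] [Nontrivial T] {V : Type*}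
    [AddCommGroup V] [Module T V] [Module.Free T V] [Module.Finite T V]
    (hrank : Module.finrank T V = 2) (M : Module.End T V) :
    LinearMap.charpoly M =
      X ^ 2 - C (LinearMap.trace T V M) * X + C ((LinearMap.charpoly M).coeff 0) := by
  classical
  have hmonic : (LinearMap.charpoly M).Monic := LinearMap.charpoly_monic M
  have hdeg : (LinearMap.charpoly M).natDegree = 2 := by
    rw [LinearMap.charpoly_natDegree, hrank]
  have htr : LinearMap.trace T V M = -(LinearMap.charpoly M).coeff 1 := by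
    let b := Module.Free.chooseBasis T V
    have hcard : Fintype.card (Module.Free.ChooseBasisIndex T V) = 2 := by
      rw [← Module.finrank_eq_card_chooseBasisIndex, hrank]
    have : Nonempty (Module.Free.ChooseBasisIndex T V) :=
      Fintype.card_pos_iff.mp (by omega)
    rw [LinearMap.trace_eq_matrix_trace T b M, Matrix.trace_eq_neg_charpoly_coeff,
      LinearMap.charpoly_toMatrix, hcard]
  have hsum := hmonic.as_sum
  rw [hdeg, Finset.sum_range_succ, Finset.sum_range_one] at hsum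
  rw [htr]
  conv_lhs => rw [hsum]
  simp only [pow_zero, mul_one, pow_one, map_neg]
  ring

/-- In rank two over a ring in which `2` is a non-zero-divisor, an endomorphism `M` with
`tr M = 2` and `tr (M²) = 2` has characteristic polynomial `(X - 1)²`. -/
theorem charpoly_eq_of_trace {T : Type} [CommRing T] [Nontrivial T] {V : Type}
    [AddCommGroup V] [Module T V] [Module.Free T V] [Module.Finite T V]
    (hL2b : LucasTraceStatement) (h2 : ∀ t : T, 2 * t = 0 → t = 0)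
    (hrank : Module.finrank T V = 2) (M : Module.End T V)
    (h1 : LinearMap.trace T V M = 2) (h2' : LinearMap.trace T V (M ^ 2) = 2) :
    LinearMap.charpoly M = (X - 1) ^ 2 := by
  have hc := charpoly_eq_of_finrank_two hrank M
  set u := (LinearMap.charpoly M).coeff 0 with hu
  have h3 := hL2b T V hrank M (LinearMap.trace T V M) u hc 2
  rw [h2', h1, Fermat.Agent.S29.Lucas.lucasV_two] at h3
  have hu1 : u = 1 := by
    have h4 : 2 * (u - 1) = 0 := by linear_combination h3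
    exact sub_eq_zero.mp (h2 _ h4)
  rw [hc, h1, hu1]
  simp only [map_ofNat, map_one]
  ring

/-- Multiplication by `2` is injective on a free module over a domain of characteristic zero. -/
theorem eq_zero_of_two_mul {𝒪 : Type*} [CommRing 𝒪] [IsDomain 𝒪] [CharZero 𝒪] {T : Type*}
    [CommRing T] [Algebra 𝒪 T] [Module.Free 𝒪 T] (t : T) (ht : 2 * t = 0) : t = 0 := by
  classical
  let b := Module.Free.chooseBasis 𝒪 T
  have h1 : (2 : 𝒪) • t = 0 := by
    rw [Algebra.smul_def, map_ofNat]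
    exact ht
  apply b.repr.injective
  rw [map_zero]
  ext i
  have h2 := congrArg (fun f => f i) (congrArg b.repr h1)
  simp only [map_smul, Finsupp.smul_apply, smul_eq_mul, map_zero, Finsupp.zero_apply] at h2
  rcases mul_eq_zero.mp h2 with h | h
  · exact absurd h two_ne_zero
  · simpa using h

/-! ### The trace of inertia -/

variable {p : ℕ} {N : ℕ} [NeZero N] {S : Finset ℕ}
  {𝒪 : Type} [CommRing 𝒪] [IsDomain 𝒪] [IsDiscreteValuationRing 𝒪]
  [IsAdicComplete (IsLocalRing.maximalIdeal 𝒪) 𝒪]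
  {θ : CuspForm.heckeAlgebra N 2 (↑S : Set ℕ) →+* IsLocalRing.ResidueField 𝒪}
  {T : Type} [CommRing T] [IsLocalRing T] [IsNoetherianRing T]
  [IsAdicComplete (IsLocalRing.maximalIdeal T) T] [Algebra 𝒪 T] [IsLocalHom (algebraMap 𝒪 T)]
  [Module.Finite 𝒪 T] [Module.Free 𝒪 T]

/-- **The trace congruence.** For `τ` in an inertia group at `q`: `tr ρ(τ) ≡ 2` modulo every
power of the maximal ideal. -/
theorem trace_sub_two_mem (hL2a : TraceContStatement)
    (hL2b : LucasTraceStatement) (hL5 : ArtinReesStatement)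
    (hL6 : HeckeCompareStatement N (↑S : Set ℕ)) {q : ℕ} (hJ : JSideStatement N p q)
    (hp𝒪 : (p : 𝒪) ∈ IsLocalRing.maximalIdeal 𝒪)
    (H : CuspForm.HeckeGaloisRepDatum N (↑S : Set ℕ) 𝒪 θ T)
    (P : ValuationSubring Qb) (hP : P.LiesOverPrime q) (τ : GQ)
    (hτ : τ ∈ P.inertiaSubgroupIn ℚ) (k : ℕ) :
    LinearMap.trace T H.ρ.V (H.ρ.ρ τ) - 2 ∈ IsLocalRing.maximalIdeal T ^ k := by
  have : Module.Finite ℤ (Lpar N) := Fermat.Agent.S41.LparFree.lpar_finite N
  have : Module.Free ℤ (Lpar N) := Fermat.Agent.S41.LparFree.lpar_free N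
  obtain ⟨c, hc⟩ := hL5 (Lpar N) (HPoly N (↑S : Set ℕ)) (evL N (↑S : Set ℕ)) p
  obtain ⟨L₀, hL₀fd, hL₀⟩ := hL2a T H.ρ k
  obtain ⟨ℓ, hℓ, hℓN, A, σ, j, hℓS, -, hA, hσ, hτσ, hdiv⟩ :=
    hJ (k + c) S L₀ hL₀fd P hP τ hτ
  set i : HIdx N (↑S : Set ℕ) := ⟨ℓ, hℓ, hℓN, by simpa using hℓS⟩ with hi
  set PP : HPoly N (↑S : Set ℕ) := Finsupp.single i (lucasPoly ℓ j - C 2) with hPP
  have hev : evL N (↑S : Set ℕ) PP =
      Polynomial.aeval (heckeLpar N ℓ hℓ hℓN) (lucasPoly ℓ j - C 2) := by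
    rw [hPP, evL_single]
  obtain ⟨Q, hQ⟩ := hc (k + c) PP (fun u => by rw [hev]; exact hdiv u)
  rw [Nat.add_sub_cancel] at hQ
  -- transfer to the Hecke algebra of cusp forms
  have h0 : evL N (↑S : Set ℕ) (PP - ((p : ℤ) ^ k) • Q) = 0 := by
    rw [map_sub, map_zsmul, hQ, sub_self]
  have h1 := hL6 _ h0
  rw [map_sub, map_zsmul, sub_eq_zero] at h1
  -- apply `π`
  have hpT : (p : T) ∈ IsLocalRing.maximalIdeal T :=
    Fermat.Agent.S31.Plan.natCast_mem_maximalIdeal hp𝒪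
  have h2 : H.π (evC N (↑S : Set ℕ) PP) ∈ IsLocalRing.maximalIdeal T ^ k := by
    rw [h1, zsmul_eq_mul, map_mul, map_intCast, Int.cast_pow, Int.cast_natCast]
    exact Ideal.mul_mem_right _ _ (Ideal.pow_mem_pow hpT k)
  have h3 : H.π (evC N (↑S : Set ℕ) PP) = LinearMap.trace T H.ρ.V (H.ρ.ρ (σ ^ j)) - 2 := by
    rw [Fermat.Agent.S31.Plan.trace_frob_pow hL2b H i A hA σ hσ j, hPP, evC_single, evC_single,
      map_sub, map_sub, Polynomial.aeval_C, eq_intCast, map_intCast, Int.cast_ofNat]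
  have e1 := hL₀ τ (σ ^ j) hτσ
  rw [h3] at h2
  have h4 := Ideal.add_mem _ e1 h2
  convert h4 using 1
  ring

/-- For `τ` in an inertia group at `q`: `tr ρ(τ) = 2`. -/
theorem trace_eq_two (hL2a : TraceContStatement)
    (hL2b : LucasTraceStatement) (hL5 : ArtinReesStatement)
    (hL6 : HeckeCompareStatement N (↑S : Set ℕ)) {q : ℕ} (hJ : JSideStatement N p q)
    (hp𝒪 : (p : 𝒪) ∈ IsLocalRing.maximalIdeal 𝒪)
    (H : CuspForm.HeckeGaloisRepDatum N (↑S : Set ℕ) 𝒪 θ T)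
    (P : ValuationSubring Qb) (hP : P.LiesOverPrime q) (τ : GQ)
    (hτ : τ ∈ P.inertiaSubgroupIn ℚ) :
    LinearMap.trace T H.ρ.V (H.ρ.ρ τ) = 2 := by
  have hmem : LinearMap.trace T H.ρ.V (H.ρ.ρ τ) - 2 ∈
      (⨅ k : ℕ, IsLocalRing.maximalIdeal T ^ k) :=
    (Ideal.mem_iInf).2 fun k => trace_sub_two_mem hL2a hL2b hL5 hL6 hJ hp𝒪 H P hP τ hτ k
  rw [Ideal.iInf_pow_eq_bot_of_isLocalRing (IsLocalRing.maximalIdeal T) Ideal.IsPrime.ne_top',
    Ideal.mem_bot, sub_eq_zero] at hmem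
  exact hmem

/-- **S34 from the leaves of S31 and the J-side statement.** -/
theorem result_of_leaves [CharZero 𝒪] (hL2a : TraceContStatement)
    (hL2b : LucasTraceStatement) (hL5 : ArtinReesStatement)
    (hL6 : HeckeCompareStatement N (↑S : Set ℕ)) {q : ℕ} (hJ : JSideStatement N p q)
    (hp𝒪 : (p : 𝒪) ∈ IsLocalRing.maximalIdeal 𝒪)
    (H : CuspForm.HeckeGaloisRepDatum N (↑S : Set ℕ) 𝒪 θ T) :
    H.ρ.IsUnipotentOnInertiaAt q := by
  intro P hP τ hτ
  have h1 := trace_eq_two hL2a hL2b hL5 hL6 hJ hp𝒪 H P hP τ hτ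
  have h2 := trace_eq_two hL2a hL2b hL5 hL6 hJ hp𝒪 H P hP (τ * τ) (Subgroup.mul_mem _ hτ hτ)
  have h2' : LinearMap.trace T H.ρ.V (H.ρ.ρ τ ^ 2) = 2 := by
    rw [pow_two, ← map_mul]
    exact h2
  exact charpoly_eq_of_trace hL2b (fun t ht => eq_zero_of_two_mul (𝒪 := 𝒪) t ht)
    H.ρ.finrank_eq (H.ρ.ρ τ) h1 h2'

end

end Fermat.Agent.S34.Plan57
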