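/-
S34 — PointTop.lean (helper69), row [PointHyp] of the MODULAR block, CLOSED form.

For the `w_q`-symmetric coordinate `J = j · j_q` of level `M q` (`WKInst.JK`) and the charts
`chart J`, `chart J⁻¹`: the fields `branch` and `trans` of `ModelPlan2.ChartModel` hold for every
family `P` of vertical ideals with `LocPlan.ChartHyp π ![V1, V2] P` — no further hypothesis.

Inputs (all on main): `PointInst.branch_trans_R0/_Rinf` (this row), `Branch.exists_level` +
`Branch.mem_redRing_R0/_Rinf` (helper26), `ResDeg.hf1` (helper61), `FrobTwist.exists_frob_root_*`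
(helper26), `WKInst` (helper79), `V12Rel` (helper48).
-/
import Mathlib
import Fermat.Agent.S18.SepDeg
import Fermat.Agent.S28.HeckeOrdersB
import Fermat.Agent.S34.PointInst
import Fermat.Agent.S34.WKInst
import Fermat.Agent.S34.Branch
import Fermat.Agent.S34.FrobTwist
import Fermat.Agent.S34.ResDeg
import Fermat.Agent.S34.V12Rel

set_option autoImplicit false

namespace Fermat.Agent.S34.PointTop

open ModularCurve HahnSeries Fermat.Agent.S18 Fermat.Agent.S18.Arith Fermat.Agent.S18.ModelPlan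

/-- An element of a subring is integral over it. -/
theorem isIntegral_of_mem_subring {F : Type*} [CommRing F] (D : Subring F) {y : F} (hy : y ∈ D) :
    IsIntegral D y :=
  isIntegral_algebraMap (x := (⟨y, hy⟩ : D))

/-! ### The reduction of `J` -/

section Red

variable (A : ValuationSubring Qb) (q : ℕ) [NeZero q]

/-- The Gauss reduction `j̄ · j̄(Q^q)` of `J = j · j_q`. -/
noncomputable def redJ : LaurentSeries (IsLocalRing.ResidueField A) :=
  jqModC (IsLocalRing.ResidueField A) *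
    qExpand (IsLocalRing.ResidueField A) q (jqModC (IsLocalRing.ResidueField A))

theorem jq_ne_zero : jqModC (IsLocalRing.ResidueField A) ≠ 0 :=
  jqModC_ne_zero_of_nontrivial _

theorem qExpand_jq_ne_zero :
    qExpand (IsLocalRing.ResidueField A) q (jqModC (IsLocalRing.ResidueField A)) ≠ 0 := fun h =>
  jq_ne_zero A (qExpand_injective q (by rw [h, map_zero]))

theorem redJ_ne_zero : redJ A q ≠ 0 :=
  mul_ne_zero (jq_ne_zero A) (qExpand_jq_ne_zero A q)

theorem order_redJ : (redJ A q).order = -1 + (q : ℤ) * (-1) := by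
  rw [redJ, HahnSeries.order_mul (jq_ne_zero A) (qExpand_jq_ne_zero A q),
    S28.OrdersB.order_qExpand _ q (jq_ne_zero A), SepDeg.order_jqModC]

/-- The reduction of `J` is not a constant. -/
theorem redJ_ne_C (a : IsLocalRing.ResidueField A) : redJ A q ≠ C a := by
  intro h
  have h1 := order_redJ A q
  rw [h, HahnSeries.order_C] at h1
  have : (0 : ℤ) < q := by exact_mod_cast Nat.pos_of_ne_zero (NeZero.ne q)
  omega

/-- The reduction of `J⁻¹` is not a constant. -/
theorem redJ_inv_ne_C (a : IsLocalRing.ResidueField A) : (redJ A q)⁻¹ ≠ C a := by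
  intro h
  have h2 : redJ A q = C a⁻¹ := by
    rw [← inv_inv (redJ A q), h, map_inv₀]
  exact redJ_ne_C A q _ h2

end Red

section Top

variable (M q : ℕ) [NeZero M] [NeZero q] (hq : q.Prime) (hqM : ¬ q ∣ M)
variable {A : ValuationSubring Qb} {K : IntermediateField ℚ Qb}

/-- The `q`-expansion of `J`. -/
theorem coe_JK : ((WKInst.JK M q hq hqM K : FK (M * q) K) : LaurentSeries Qb)
    = jqModC Qb * qExpand Qb q (jqModC Qb) := by
  rw [WKInst.JK_eq]
  push_cast
  rw [ModelQFrac.coe_jK, ResDeg.coe_jqK']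

/-- `J` is Gauss-integral with reduction `redJ`. -/
theorem gRel_JK :
    GRel A ((WKInst.JK M q hq hqM K : FK (M * q) K) : LaurentSeries Qb) (redJ A q) := by
  rw [coe_JK]
  exact (GRel.gRelStatement A).mul _ _ _ _ (V12Rel.gRel_j A) (V12Rel.gRel_jd A q)

/-- `J⁻¹` is Gauss-integral with reduction `redJ⁻¹`. -/
theorem gRel_JK_inv :
    GRel A (((WKInst.JK M q hq hqM K)⁻¹ : FK (M * q) K) : LaurentSeries Qb) (redJ A q)⁻¹ := by
  have h := (GRel.gRelStatement A).inv _ _ (gRel_JK M q hq hqM (A := A) (K := K))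
    (redJ_ne_zero A q)
  exact h

/-- In characteristic `q`: `redJ = j̄ ^ (q + 1)`. -/
theorem redJ_eq_pow [Fact q.Prime] (hA : A.LiesOverPrime q) :
    redJ A q = jqModC (IsLocalRing.ResidueField A) ^ (q + 1) := by
  have := BaseRes.charP_residueField q A hA
  rw [redJ, pow_succ', S37.KC.pow_char_eq_qExpand_frobenius q, coeffMap_jqModC]

/-- The reduction of `J` lies in the reduction ring of the level-`M` chart `R0`. -/
theorem redJ_mem_redRing [Fact q.Prime] (hA : A.LiesOverPrime q) :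
    redJ A q ∈ Branch.redRing M A K (R0 M q A K) := by
  rw [redJ_eq_pow q hA]
  refine Subring.pow_mem _ ?_ _
  refine ⟨jK M K, ModelBasicCore.jK_mem_R0 M q A K, ?_⟩
  rw [ModelQFrac.coe_jK]
  exact V12Rel.gRel_j A

/-- The reduction of `J⁻¹` lies in the reduction ring of the level-`M` chart `Rinf`. -/
theorem redJ_inv_mem_redRing [Fact q.Prime] (hA : A.LiesOverPrime q) :
    (redJ A q)⁻¹ ∈ Branch.redRing M A K (Rinf M q A K) := by
  rw [redJ_eq_pow q hA, ← inv_pow]
  refine Subring.pow_mem _ ?_ _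
  refine ⟨(jK M K)⁻¹, ModelBasicCore.jK_inv_mem_Rinf M q A K, ?_⟩
  push_cast
  rw [ModelQFrac.coe_jK]
  exact V12Rel.gRel_j_inv A

/-- (B1) for the chart `chart J` : `chart J = α(R0_M) + π V1`. -/
theorem exists_level_JK [Fact q.Prime] (hA : A.LiesOverPrime q) (hB : BaseFacts q A K)
    (x : FK (M * q) K) (hx : x ∈ chart (M * q) A K (WKInst.JK M q hq hqM K)) :
    ∃ x' ∈ R0 M q A K,
      GRel A (((x : FK (M * q) K) : LaurentSeries Qb) - ((x' : FK M K) : LaurentSeries Qb)) 0 :=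
  Branch.exists_level M (M * q) hB.dvr (R0 M q A K)
    (fun _ hy hint => Branch.mem_redRing_R0 M q hqM hA hB hy hint)
    (ResDeg.hf1 M q hq hqM hA hB) (WKInst.JK M q hq hqM K)
    ⟨redJ A q, gRel_JK M q hq hqM,
      isIntegral_of_mem_subring _ (redJ_mem_redRing M q hA)⟩ x hx

/-- (B1) for the chart `chart J⁻¹` : `chart J⁻¹ = α(Rinf_M) + π V1`. -/
theorem exists_level_JK_inv [Fact q.Prime] (hA : A.LiesOverPrime q) (hB : BaseFacts q A K)
    (x : FK (M * q) K) (hx : x ∈ chart (M * q) A K (WKInst.JK M q hq hqM K)⁻¹) :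
    ∃ x' ∈ Rinf M q A K,
      GRel A (((x : FK (M * q) K) : LaurentSeries Qb) - ((x' : FK M K) : LaurentSeries Qb)) 0 :=
  Branch.exists_level M (M * q) hB.dvr (Rinf M q A K)
    (fun _ hy hint => Branch.mem_redRing_Rinf M q hqM hA hB hy hint)
    (ResDeg.hf1 M q hq hqM hA hB) (WKInst.JK M q hq hqM K)⁻¹
    ⟨(redJ A q)⁻¹, gRel_JK_inv M q hq hqM,
      isIntegral_of_mem_subring _ (redJ_inv_mem_redRing M q hA)⟩ x hx

/-- **[PointHyp], closed form, chart `J`.**  The fields `branch` and `trans` of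
`ModelPlan2.ChartModel` for `chart (M q) A K J`. -/
theorem branch_trans_JK [Fact q.Prime] (hA : A.LiesOverPrime q) (hB : BaseFacts q A K)
    (π : OK A K) (hπ : Irreducible π)
    (P : Fin 2 → Ideal (chart (M * q) A K (WKInst.JK M q hq hqM K)))
    (hyp : LocPlan.ChartHyp π
      ![GaussV.V1 (M * q) A K hB.dvr, GaussV.V2 (WK.wK M q hq hqM K) hB.dvr] P) :
    (∀ n : Ideal (chart (M * q) A K (WKInst.JK M q hq hqM K)), n.IsMaximal →
        algebraMap (OK A K) (chart (M * q) A K (WKInst.JK M q hq hqM K)) π ∈ n →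
        ∀ i : Fin 2, P i ≤ n →
        (∃ x ∈ n, x ∉ P i) ∧
          ∃ u ∈ n, ∀ x ∈ n, ∃ s : chart (M * q) A K (WKInst.JK M q hq hqM K), s ∉ n ∧
            ∃ c : chart (M * q) A K (WKInst.JK M q hq hqM K), s * x - c * u ∈ P i) ∧
    (∀ n : Ideal (chart (M * q) A K (WKInst.JK M q hq hqM K)), n.IsMaximal →
        algebraMap (OK A K) (chart (M * q) A K (WKInst.JK M q hq hqM K)) π ∈ n →
        P 0 ≤ n → P 1 ≤ n →
        ∀ x ∈ n, ∃ s : chart (M * q) A K (WKInst.JK M q hq hqM K), s ∉ n ∧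
          s * x ∈ P 0 ⊔ P 1) :=
  PointInst.branch_trans_R0 M q hq hqM hA hB π hπ (WKInst.JK M q hq hqM K) P hyp
    (fun _ hy => WKInst.alphaK_mem_chart_JK M q hq hqM A K hy)
    (fun _ hx => WKInst.wK_mem_chart_JK M q hq hqM A K hx)
    (WKInst.wK_JK M q hq hqM K) (redJ A q) (gRel_JK M q hq hqM)
    (fun _ => redJ_ne_C A q _)
    (exists_level_JK M q hq hqM hA hB)
    (fun x hx => FrobTwist.exists_frob_root_R0 M q hqM hA hB x hx)

/-- **[PointHyp], closed form, chart `J⁻¹`.**  The fields `branch` and `trans` of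
`ModelPlan2.ChartModel` for `chart (M q) A K J⁻¹`. -/
theorem branch_trans_JK_inv [Fact q.Prime] (hA : A.LiesOverPrime q) (hB : BaseFacts q A K)
    (π : OK A K) (hπ : Irreducible π)
    (P : Fin 2 → Ideal (chart (M * q) A K (WKInst.JK M q hq hqM K)⁻¹))
    (hyp : LocPlan.ChartHyp π
      ![GaussV.V1 (M * q) A K hB.dvr, GaussV.V2 (WK.wK M q hq hqM K) hB.dvr] P) :
    (∀ n : Ideal (chart (M * q) A K (WKInst.JK M q hq hqM K)⁻¹), n.IsMaximal →
        algebraMap (OK A K) (chart (M * q) A K (WKInst.JK M q hq hqM K)⁻¹) π ∈ n →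
        ∀ i : Fin 2, P i ≤ n →
        (∃ x ∈ n, x ∉ P i) ∧
          ∃ u ∈ n, ∀ x ∈ n, ∃ s : chart (M * q) A K (WKInst.JK M q hq hqM K)⁻¹, s ∉ n ∧
            ∃ c : chart (M * q) A K (WKInst.JK M q hq hqM K)⁻¹, s * x - c * u ∈ P i) ∧
    (∀ n : Ideal (chart (M * q) A K (WKInst.JK M q hq hqM K)⁻¹), n.IsMaximal →
        algebraMap (OK A K) (chart (M * q) A K (WKInst.JK M q hq hqM K)⁻¹) π ∈ n →
        P 0 ≤ n → P 1 ≤ n →
        ∀ x ∈ n, ∃ s : chart (M * q) A K (WKInst.JK M q hq hqM K)⁻¹, s ∉ n ∧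
          s * x ∈ P 0 ⊔ P 1) :=
  PointInst.branch_trans_Rinf M q hq hqM hA hB π hπ (WKInst.JK M q hq hqM K)⁻¹ P hyp
    (fun _ hy => WKInst.alphaK_mem_chart_JK_inv M q hq hqM A K hy)
    (fun _ hx => WKInst.wK_mem_chart_JK_inv M q hq hqM A K hx)
    (WKInst.wK_JK_inv M q hq hqM K) (redJ A q)⁻¹ (gRel_JK_inv M q hq hqM)
    (fun _ => redJ_inv_ne_C A q _)
    (exists_level_JK_inv M q hq hqM hA hB)
    (fun x hx => FrobTwist.exists_frob_root_Rinf M q hqM hA hB x hx)

end Top

end Fermat.Agent.S34.PointTop
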