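import Mathlib
import Fermat.Agent.S34.LocPlan
import Fermat.Agent.S34.AbsTop

/-!
# S34 — PtsOf.lean (helper75): the cut hypothesis of `LocA` from `CutAt`

Glue between `LocPlan.CutAtStatement` and the per-closed-point hypothesis `AbsTop.CutHyp` of
`AbsTop.Hyp.cut0` / `cutInf` (= the hypothesis of `LocPlan.LocAStatement`).

For a chart `R` with `LocPlan.ChartHyp π V P` (the two component valuation rings `V i`, the
vertical ideals `P i = R ∩ π (V i)`, reduced special fibre):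

* `inv_mem_of_not_dvd` : an element of `V i` outside `π (V i)` is a unit of `V i`;
* `isPrime_P`          : the ideals `P i` are prime;
* `inf_P_eq_span`      : `P 0 ⊓ P 1 = (π)`;
* `cut_of_cutAt`       : at a closed point `n ∋ π`, the branch hypotheses (`branch`, `trans` of
                         `ModelPlan2.ChartModel` at `n`) and the horizontal alternative (`hor` at
                         `n`: `f` is a unit at `𝔮`, or `𝔮` is `O`-rational and `f` is a unit times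
                         an `m`-th power) give the hypothesis of `LocAStatement` at `n`
                         (any `O`-algebra `R` with an `R`-algebra field `E`);
* `pts_of_cutAt`       : the same for a subalgebra `R` of `E`, with conclusion `AbsTop.CutHyp`.
-/

set_option autoImplicit false

namespace Fermat.Agent.S34.PtsOf

open Fermat.Agent.S34

section General

variable {O : Type} [CommRing O] [IsDomain O] [IsDiscreteValuationRing O]
  {R : Type} [CommRing R] [IsDomain R] [IsNoetherianRing R] [Algebra O R]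
  {E : Type} [Field E] [Algebra R E]

omit [IsDomain O] [IsDiscreteValuationRing O] [IsDomain R] [IsNoetherianRing R] in
/-- An element of `V i` outside `π (V i)` is a unit of `V i`. -/
theorem inv_mem_of_not_dvd {π : O} {V : Fin 2 → ValuationSubring E} {P : Fin 2 → Ideal R}
    (hP : LocPlan.ChartHyp π V P) (i : Fin 2) {x : E} (hx : x ∈ V i)
    (hnot : ¬ ∃ y ∈ V i, x = algebraMap R E (algebraMap O R π) * y) : x⁻¹ ∈ V i := by
  set ϖ : E := algebraMap R E (algebraMap O R π) with hϖ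
  have hx0 : x ≠ 0 := by
    rintro rfl
    exact hnot ⟨0, (V i).zero_mem, by rw [mul_zero]⟩
  obtain ⟨k, u, hu, hu', rfl⟩ := hP.disc i x hx0
  have hϖ0 : ϖ ≠ 0 := by
    intro h0
    apply hP.pi_not i
    rw [← hϖ, h0, inv_zero]
    exact (V i).zero_mem
  have hϖV : ϖ ∈ V i := by
    rcases (V i).mem_or_inv_mem ϖ with h | h
    · exact h
    · exact absurd h (hP.pi_not i)
  rcases lt_trichotomy k 0 with hk | hk | hk
  · -- `π ^ k ∈ V i` with `k < 0`: then `π⁻¹ ∈ V i`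
    exfalso
    apply hP.pi_not i
    have h1 : ϖ ^ k ∈ V i := by
      have : ϖ ^ k = ϖ ^ k * u * u⁻¹ := by
        have hu0 : u ≠ 0 := by
          rintro rfl
          simp at hx0
        field_simp
      rw [this]
      exact mul_mem hx hu'
    obtain ⟨n, hn⟩ : ∃ n : ℕ, k = -((n : ℤ) + 1) := ⟨(-k - 1).toNat, by omega⟩
    have h2 : (ϖ)⁻¹ = ϖ ^ k * ϖ ^ n := by
      rw [hn, zpow_neg, zpow_add₀ hϖ0, zpow_one, zpow_natCast]
      field_simp
    rw [← hϖ, h2]
    exact mul_mem h1 (pow_mem hϖV n)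
  · subst hk
    rw [zpow_zero, one_mul]
    exact hu'
  · exfalso
    apply hnot
    obtain ⟨n, hn⟩ : ∃ n : ℕ, k = (n : ℤ) + 1 := ⟨(k - 1).toNat, by omega⟩
    refine ⟨ϖ ^ n * u, mul_mem (pow_mem hϖV n) hu, ?_⟩
    rw [hn, zpow_add₀ hϖ0, zpow_one, zpow_natCast]
    ring

omit [IsDomain O] [IsDiscreteValuationRing O] [IsDomain R] [IsNoetherianRing R] in
/-- The vertical ideals `P i` are prime. -/
theorem isPrime_P {π : O} {V : Fin 2 → ValuationSubring E} {P : Fin 2 → Ideal R}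
    (hP : LocPlan.ChartHyp π V P) (i : Fin 2) : (P i).IsPrime := by
  refine ⟨?_, ?_⟩
  · intro htop
    have h1 : (1 : R) ∈ P i := by rw [htop]; trivial
    obtain ⟨y, hy, h⟩ := (hP.mem_P i 1).1 h1
    apply hP.pi_not i
    rw [map_one] at h
    rw [inv_eq_of_mul_eq_one_right h.symm]
    exact hy
  · intro a b hab
    by_contra hcon
    rw [not_or] at hcon
    obtain ⟨y, hy, h⟩ := (hP.mem_P i (a * b)).1 hab
    have ha : (algebraMap R E a)⁻¹ ∈ V i :=
      inv_mem_of_not_dvd hP i (hP.le i a) (fun h' => hcon.1 ((hP.mem_P i a).2 h'))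
    apply hcon.2
    refine (hP.mem_P i b).2 ⟨y * (algebraMap R E a)⁻¹, mul_mem hy ha, ?_⟩
    have ha0 : algebraMap R E a ≠ 0 := by
      intro h0
      apply hcon.1
      refine (hP.mem_P i a).2 ⟨0, (V i).zero_mem, ?_⟩
      rw [h0, mul_zero]
    rw [map_mul] at h
    rw [← mul_assoc, ← h]
    field_simp

omit [IsDomain O] [IsDiscreteValuationRing O] [IsDomain R] [IsNoetherianRing R] in
/-- `π ∈ P i`. -/
theorem pi_mem_P {π : O} {V : Fin 2 → ValuationSubring E} {P : Fin 2 → Ideal R}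
    (hP : LocPlan.ChartHyp π V P) (i : Fin 2) : algebraMap O R π ∈ P i :=
  (hP.mem_P i _).2 ⟨1, (V i).one_mem, by rw [mul_one]⟩

omit [IsDomain O] [IsDiscreteValuationRing O] [IsDomain R] [IsNoetherianRing R] in
/-- `P 0 ∩ P 1 = π R`. -/
theorem inf_P_eq_span {π : O} {V : Fin 2 → ValuationSubring E} {P : Fin 2 → Ideal R}
    (hP : LocPlan.ChartHyp π V P) : P 0 ⊓ P 1 = Ideal.span {algebraMap O R π} := by
  apply le_antisymm
  · intro r hr
    rw [Ideal.mem_inf] at hr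
    obtain ⟨r', rfl⟩ := hP.red r (fun i => by
      fin_cases i
      · exact hr.1
      · exact hr.2)
    exact Ideal.mul_mem_right _ _ (Ideal.subset_span rfl)
  · rw [Ideal.span_le, Set.singleton_subset_iff]
    exact ⟨pi_mem_P hP 0, pi_mem_P hP 1⟩

/-- **The hypothesis of `LocAStatement` at `n` from `CutAt`**: the branch hypotheses (regular
branches `hbr`, transversality `htr`) and the horizontal alternative `hor` (rationality and
`m`-divisibility at the horizontal primes where `f` is not a unit) give, at every horizontal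
prime `𝔮 ≤ n` with `PrincAt 𝔮`: `f` is a unit at `𝔮`, or `f` is a unit times an `m`-th power and
`𝔮` has a cut function at `n`. -/
theorem cut_of_cutAt (hCut : LocPlan.CutAtStatement) {π : O} (hπ : Irreducible π)
    {V : Fin 2 → ValuationSubring E} {P : Fin 2 → Ideal R} (hP : LocPlan.ChartHyp π V P)
    (f : E) (m : ℕ) (n : Ideal R) (hn : n.IsMaximal) (hπn : algebraMap O R π ∈ n)
    (hbr : ∀ i : Fin 2, P i ≤ n → (∃ x ∈ n, x ∉ P i) ∧
      ∃ u ∈ n, ∀ x ∈ n, ∃ s : R, s ∉ n ∧ ∃ c : R, s * x - c * u ∈ P i)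
    (htr : P 0 ≤ n → P 1 ≤ n → ∀ x ∈ n, ∃ s : R, s ∉ n ∧ s * x ∈ P 0 ⊔ P 1)
    (hor : ∀ 𝔮 : Ideal R, 𝔮.IsPrime → 𝔮 ≤ n → algebraMap O R π ∉ 𝔮 → LocPlan.PrincAt 𝔮 →
      LocPlan.UnitAt 𝔮 f ∨
        ((∀ r : R, ∃ c : O, r - algebraMap O R c ∈ 𝔮) ∧
          ∃ x : E, x ≠ 0 ∧ LocPlan.UnitAt 𝔮 (f * x ^ m))) :
    ∀ 𝔮 : Ideal R, 𝔮.IsPrime → 𝔮 ≤ n → algebraMap O R π ∉ 𝔮 → LocPlan.PrincAt 𝔮 →
      LocPlan.UnitAt 𝔮 f ∨ ((∃ x : E, x ≠ 0 ∧ LocPlan.UnitAt 𝔮 (f * x ^ m)) ∧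
        ∃ e : R, LocPlan.Cut (algebraMap O R π) n 𝔮 e) := by
  intro 𝔮 h𝔮 h𝔮n hπ𝔮 hprinc
  rcases hor 𝔮 h𝔮 h𝔮n hπ𝔮 hprinc with h | ⟨h1, h2⟩
  · exact Or.inl h
  · refine Or.inr ⟨h2, ?_⟩
    exact hCut O R π (P 0) (P 1) n 𝔮 hπ hn (isPrime_P hP 0) (isPrime_P hP 1) h𝔮 hπn
      (inf_P_eq_span hP) (hbr 0) (hbr 1) htr h𝔮n hπ𝔮 h1 hprinc

end General

section Subalgebra

variable {O : Type} [CommRing O] [IsDomain O] [IsDiscreteValuationRing O]
  {E : Type} [Field E] [Algebra O E]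

/-- **`AbsTop.CutHyp` from `CutAt`** for a chart `R ⊆ E`: the fields `branch`, `trans`, `hor` of
`ModelPlan2.ChartModel` at the closed point `n` give the field `cut0` / `cutInf` of `AbsTop.Hyp`
at `n`. -/
theorem pts_of_cutAt (hCut : LocPlan.CutAtStatement) (R : Subalgebra O E) [IsNoetherianRing R]
    {π : O} (hπ : Irreducible π) {V : Fin 2 → ValuationSubring E} {P : Fin 2 → Ideal R}
    (hP : LocPlan.ChartHyp π V P) (f : E) (m : ℕ) (n : Ideal R) (hn : n.IsMaximal)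
    (hπn : algebraMap O R π ∈ n)
    (hbr : ∀ i : Fin 2, P i ≤ n → (∃ x ∈ n, x ∉ P i) ∧
      ∃ u ∈ n, ∀ x ∈ n, ∃ s : R, s ∉ n ∧ ∃ c : R, s * x - c * u ∈ P i)
    (htr : P 0 ≤ n → P 1 ≤ n → ∀ x ∈ n, ∃ s : R, s ∉ n ∧ s * x ∈ P 0 ⊔ P 1)
    (hor : ∀ 𝔮 : Ideal R, 𝔮.IsPrime → 𝔮 ≤ n → algebraMap O R π ∉ 𝔮 → LocPlan.PrincAt 𝔮 →
      LocPlan.UnitAt 𝔮 f ∨
        ((∀ r : R, ∃ c : O, r - algebraMap O R c ∈ 𝔮) ∧
          ∃ x : E, x ≠ 0 ∧ LocPlan.UnitAt 𝔮 (f * x ^ m))) :
    AbsTop.CutHyp R π f m n :=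
  cut_of_cutAt hCut hπ hP f m n hn hπn hbr htr hor

end Subalgebra

end Fermat.Agent.S34.PtsOf
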