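/-
S34 — TwoVal.lean (helper68): the Mathlib-only core of "the special fibre at level `N = qM` is
reduced with two components, each a copy of the level-`M` special fibre".

Abstract setting.  `R` is a domain (the level-`M` chart) with fraction field `F`, `π ∈ R` is a
prime element, `E / F` is a finite extension of degree `≤ q + 1` carrying two valuations
`v₁, v₂` (the two Gauss valuations) which are `≤ 1` on `R` and whose centres on `R` are `πR`.
Suppose there are `x, y ∈ E` with `v₁ x < 1 = v₂ x`, `v₁ y = 1 > v₂ y`, and `q` elements `b i`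
whose residues at `v₂` are independent over `R / π`.  Then

* (T1) `exists_smul_eq`: every `z` with `v₁ z ≤ 1`, `v₂ z ≤ 1` has `s • z ∈ ∑ R • g_k` for some
  `s ∉ πR`, where `g = (y, x * b i)`;
* (T1') `exists_eq_mul_of_lt`: `𝔪₁ ∩ 𝔪₂ = π (V₁ ∩ V₂)`;
* (T4) `val_le_pi₁`, `val_le_pi₂`: `π` is a uniformiser of both valuations;
* (T2) `isIntegral_of_pi_mul`: if `R` is integrally closed in `F` and `x, y, b i` are integral
  over `R`, then `z ∈ V₁ ∩ V₂`, `π z` integral over `R` imply `z` integral over `R`;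
* (T3) `exists_residue₁`: the residue field of `v₁` is that of `R_(π)`;
* (T3') `exists_lift₁`: if moreover `R / π` is integrally closed, every element integral over `R`
  is congruent modulo `𝔪₁` to an element of `R`.

No Dedekind domains, no ramification-inertia formula: `F`-linear algebra and valuations only.
-/
import Mathlib

set_option autoImplicit false
set_option linter.unusedSectionVars false
set_option linter.style.haveILetI false

namespace Fermat.Agent.S34.TwoVal

open Polynomial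

section Val

variable {E : Type*} [Field E] {Γ : Type*} [LinearOrderedCommGroupWithZero Γ]

/-- Elements integral over a ring on which a valuation is `≤ 1` have valuation `≤ 1`. -/
theorem val_le_one_of_isIntegral {R : Type*} [CommRing R] [Algebra R E] (v : Valuation E Γ)
    (hR : ∀ r : R, v (algebraMap R E r) ≤ 1) {z : E} (hz : IsIntegral R z) : v z ≤ 1 := by
  obtain ⟨P, hP, hroot⟩ := hz
  by_contra hlt
  rw [not_le] at hlt
  by_cases hn : P.natDegree = 0
  · rw [Polynomial.natDegree_eq_zero] at hn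
    obtain ⟨c, rfl⟩ := hn
    have hc : c = 1 := by simpa using hP.leadingCoeff
    subst hc
    simp at hroot
  · rw [Polynomial.eval₂_eq_sum_range, Finset.sum_range_succ, hP.coeff_natDegree, map_one,
      one_mul, add_eq_zero_iff_eq_neg] at hroot
    have h1 := congrArg v hroot
    rw [Valuation.map_neg, map_pow] at h1
    have h2 : v (z ^ P.natDegree) ≠ 0 := by
      rw [map_pow]
      exact pow_ne_zero _ (ne_of_gt (lt_trans zero_lt_one hlt))
    have h3 : v (∑ i ∈ Finset.range P.natDegree, algebraMap R E (P.coeff i) * z ^ i)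
        < v z ^ P.natDegree := by
      refine v.map_sum_lt (by rw [← map_pow]; exact h2) ?_
      intro i hi
      rw [Finset.mem_range] at hi
      rw [map_mul, map_pow]
      exact mul_lt_of_le_one_of_lt (hR _) (pow_lt_pow_right₀ hlt hi)
    rw [h1] at h3
    exact lt_irrefl _ h3

/-- A polynomial with coefficients in a ring where `v ≤ 1` respects congruences modulo
`{v < 1}`. -/
theorem val_aeval_sub_lt {R : Type*} [CommRing R] [Algebra R E] (v : Valuation E Γ)
    (hR : ∀ r : R, v (algebraMap R E r) ≤ 1) (Q : R[X]) {A B : E} (hA : v A ≤ 1) (hB : v B ≤ 1)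
    (hAB : v (A - B) < 1) : v (aeval A Q - aeval B Q) < 1 := by
  induction Q using Polynomial.induction_on' with
  | add p q hp hq =>
    have : aeval A (p + q) - aeval B (p + q)
        = (aeval A p - aeval B p) + (aeval A q - aeval B q) := by
      simp only [map_add]; ring
    rw [this]
    exact v.map_add_lt hp hq
  | monomial n a =>
    simp only [aeval_monomial]
    rw [← mul_sub, map_mul]
    have h1 : v (A ^ n - B ^ n) < 1 := by
      induction n with
      | zero => simp
      | succ k ih =>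
        have : A ^ (k + 1) - B ^ (k + 1) = A ^ k * (A - B) + (A ^ k - B ^ k) * B := by ring
        rw [this]
        refine v.map_add_lt ?_ ?_
        · rw [map_mul, map_pow]
          exact mul_lt_of_le_one_of_lt (pow_le_one₀ zero_le hA) hAB
        · rw [map_mul]
          exact mul_lt_of_lt_of_le_one ih hB
    exact mul_lt_of_le_one_of_lt (hR a) h1

end Val

section Core

variable {R F E : Type*} [CommRing R] [IsDomain R] [Field F] [Field E]
  [Algebra R F] [Algebra F E] [Algebra R E] [IsScalarTower R F E]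
variable {Γ₁ Γ₂ : Type*} [LinearOrderedCommGroupWithZero Γ₁] [LinearOrderedCommGroupWithZero Γ₂]
variable {ι : Type*} [Fintype ι]

/-- The core hypotheses, for a general finite family `g` which is "independent modulo
`𝔪₁ ∩ 𝔪₂` over `R / π`". -/
structure Core (π : R) (v₁ : Valuation E Γ₁) (v₂ : Valuation E Γ₂) (g : ι → E) : Prop where
  inj : Function.Injective (algebraMap R F)
  frac : ∀ c : F, ∃ a s : R, s ≠ 0 ∧ c * algebraMap R F s = algebraMap R F a
  prime : Prime π
  sep : ∀ r : R, r ≠ 0 → ∃ k : ℕ, ¬ π ^ k ∣ r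
  le₁ : ∀ r : R, v₁ (algebraMap R E r) ≤ 1
  le₂ : ∀ r : R, v₂ (algebraMap R E r) ≤ 1
  lt₁ : v₁ (algebraMap R E π) < 1
  lt₂ : v₂ (algebraMap R E π) < 1
  dvd₁ : ∀ r : R, v₁ (algebraMap R E r) < 1 → π ∣ r
  dvd₂ : ∀ r : R, v₂ (algebraMap R E r) < 1 → π ∣ r
  hg₁ : ∀ k, v₁ (g k) ≤ 1
  hg₂ : ∀ k, v₂ (g k) ≤ 1
  ind : ∀ c : ι → R, v₁ (∑ k, algebraMap R E (c k) * g k) < 1 →
    v₂ (∑ k, algebraMap R E (c k) * g k) < 1 → ∀ k, π ∣ c k

namespace Core

variable {π : R} {v₁ : Valuation E Γ₁} {v₂ : Valuation E Γ₂} {g : ι → E}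

theorem injE (h : Core (F := F) π v₁ v₂ g) : Function.Injective (algebraMap R E) := by
  rw [IsScalarTower.algebraMap_eq R F E]
  exact (algebraMap F E).injective.comp h.inj

theorem pi_ne_zero (h : Core (F := F) π v₁ v₂ g) : algebraMap R E π ≠ 0 := by
  intro h0
  exact h.prime.ne_zero (h.injE (by rw [h0, map_zero]))

theorem unit₁ (h : Core (F := F) π v₁ v₂ g) {s : R} (hs : ¬ π ∣ s) :
    v₁ (algebraMap R E s) = 1 :=
  le_antisymm (h.le₁ s) (not_lt.mp fun hlt => hs (h.dvd₁ s hlt))

theorem unit₂ (h : Core (F := F) π v₁ v₂ g) {s : R} (hs : ¬ π ∣ s) :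
    v₂ (algebraMap R E s) = 1 :=
  le_antisymm (h.le₂ s) (not_lt.mp fun hlt => hs (h.dvd₂ s hlt))

theorem sum_le₁ (h : Core (F := F) π v₁ v₂ g) (a : ι → R) :
    v₁ (∑ k, algebraMap R E (a k) * g k) ≤ 1 := by
  refine v₁.map_sum_le fun k _ => ?_
  rw [map_mul]
  exact mul_le_one' (h.le₁ _) (h.hg₁ k)

theorem sum_le₂ (h : Core (F := F) π v₁ v₂ g) (a : ι → R) :
    v₂ (∑ k, algebraMap R E (a k) * g k) ≤ 1 := by
  refine v₂.map_sum_le fun k _ => ?_
  rw [map_mul]
  exact mul_le_one' (h.le₂ _) (h.hg₂ k)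

omit [IsDomain R] [Algebra R E] [IsScalarTower R F E] [Fintype ι] in
/-- Common denominators. -/
theorem exists_common_denom
    (inj : Function.Injective (algebraMap R F))
    (frac : ∀ c : F, ∃ a s : R, s ≠ 0 ∧ c * algebraMap R F s = algebraMap R F a)
    [IsDomain R] [Fintype ι] (c : ι → F) :
    ∃ d : R, d ≠ 0 ∧ ∃ a : ι → R, ∀ k, c k * algebraMap R F d = algebraMap R F (a k) := by
  classical
  have _ := inj
  choose a s hs hc using fun k => frac (c k)
  refine ⟨∏ k, s k, Finset.prod_ne_zero_iff.mpr fun k _ => hs k,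
    fun k => a k * ∏ j ∈ Finset.univ.erase k, s j, fun k => ?_⟩
  rw [← Finset.mul_prod_erase Finset.univ s (Finset.mem_univ k), map_mul, ← mul_assoc, hc k,
    map_mul]

/-- `π`-adic factorisation. -/
theorem exists_pow_mul (h : Core (F := F) π v₁ v₂ g) {d : R} (hd : d ≠ 0) :
    ∃ (n : ℕ) (s : R), ¬ π ∣ s ∧ d = π ^ n * s := by
  obtain ⟨k, hk⟩ := h.sep d hd
  clear hd
  induction k generalizing d with
  | zero => exact absurd (by simp) hk
  | succ k ih =>
    by_cases hdvd : π ∣ d
    · obtain ⟨d', rfl⟩ := hdvd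
      have : ¬ π ^ k ∣ d' := by
        intro h'
        apply hk
        rw [pow_succ']
        exact mul_dvd_mul_left π h'
      obtain ⟨n, s, hs, rfl⟩ := ih this
      exact ⟨n + 1, s, hs, by ring⟩
    · exact ⟨0, d, hdvd, by simp⟩

/-- Descent: a relation `π^n s z = ∑ a_k g_k` with `z ∈ V₁ ∩ V₂` can be divided by `π^n`. -/
theorem descent (h : Core (F := F) π v₁ v₂ g) (n : ℕ) (s : R) (a : ι → R) {z : E}
    (hz₁ : v₁ z ≤ 1) (hz₂ : v₂ z ≤ 1)
    (he : algebraMap R E (π ^ n * s) * z = ∑ k, algebraMap R E (a k) * g k) :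
    ∃ a' : ι → R, algebraMap R E s * z = ∑ k, algebraMap R E (a' k) * g k := by
  induction n generalizing a with
  | zero => exact ⟨a, by simpa using he⟩
  | succ n ih =>
    have hlt₁ : v₁ (∑ k, algebraMap R E (a k) * g k) < 1 := by
      rw [← he, pow_succ', mul_assoc, map_mul, map_mul, map_mul]
      exact mul_lt_of_lt_of_le_one (mul_lt_of_lt_of_le_one h.lt₁ (h.le₁ _)) hz₁
    have hlt₂ : v₂ (∑ k, algebraMap R E (a k) * g k) < 1 := by
      rw [← he, pow_succ', mul_assoc, map_mul, map_mul, map_mul]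
      exact mul_lt_of_lt_of_le_one (mul_lt_of_lt_of_le_one h.lt₂ (h.le₂ _)) hz₂
    have hdvd := h.ind a hlt₁ hlt₂
    choose a' ha' using hdvd
    refine ih a' ?_
    apply mul_left_cancel₀ h.pi_ne_zero
    rw [← mul_assoc, ← map_mul, ← mul_assoc, ← pow_succ', he, Finset.mul_sum]
    refine Finset.sum_congr rfl fun k _ => ?_
    rw [ha' k, map_mul, mul_assoc]

/-- (T1) for a general family: `V₁ ∩ V₂ ⊆ ∑ R_(π) g_k`. -/
theorem exists_smul_eq (h : Core (F := F) π v₁ v₂ g)
    (hspan : ∀ z : E, ∃ c : ι → F, z = ∑ k, algebraMap F E (c k) * g k) {z : E}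
    (hz₁ : v₁ z ≤ 1) (hz₂ : v₂ z ≤ 1) :
    ∃ s : R, ¬ π ∣ s ∧ ∃ a : ι → R,
      algebraMap R E s * z = ∑ k, algebraMap R E (a k) * g k := by
  obtain ⟨c, hc⟩ := hspan z
  obtain ⟨d, hd, a, ha⟩ := exists_common_denom h.inj h.frac c
  obtain ⟨n, s, hs, rfl⟩ := h.exists_pow_mul hd
  have he : algebraMap R E (π ^ n * s) * z = ∑ k, algebraMap R E (a k) * g k := by
    conv_lhs => rw [hc]
    rw [Finset.mul_sum]
    refine Finset.sum_congr rfl fun k _ => ?_
    rw [IsScalarTower.algebraMap_apply R F E (a k), ← ha k,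
      IsScalarTower.algebraMap_apply R F E (π ^ n * s)]
    simp only [map_mul]
    ring
  obtain ⟨a', ha'⟩ := h.descent n s a hz₁ hz₂ he
  exact ⟨s, hs, a', ha'⟩

/-- The family `g` is linearly independent over `F`. -/
theorem linearIndependent (h : Core (F := F) π v₁ v₂ g) : LinearIndependent F g := by
  rw [Fintype.linearIndependent_iff]
  intro c hc
  obtain ⟨d, hd, a, ha⟩ := exists_common_denom h.inj h.frac c
  have hsum : ∑ k, algebraMap R E (a k) * g k = 0 := by
    have : ∑ k, algebraMap R E (a k) * g k = algebraMap R E d * ∑ k, c k • g k := by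
      rw [Finset.mul_sum]
      refine Finset.sum_congr rfl fun k _ => ?_
      rw [IsScalarTower.algebraMap_apply R F E (a k), ← ha k,
        IsScalarTower.algebraMap_apply R F E d, Algebra.smul_def]
      simp only [map_mul]
      ring
    rw [this, hc, mul_zero]
  have key : ∀ (n : ℕ) (a : ι → R), ∑ k, algebraMap R E (a k) * g k = 0 → ∀ k, π ^ n ∣ a k := by
    intro n
    induction n with
    | zero => intro a _ k; simp
    | succ n ih =>
      intro a ha0 k
      have hdvd := h.ind a (by rw [ha0, map_zero]; exact zero_lt_one)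
        (by rw [ha0, map_zero]; exact zero_lt_one)
      choose a' ha' using hdvd
      have h0 : ∑ k, algebraMap R E (a' k) * g k = 0 := by
        apply mul_left_cancel₀ h.pi_ne_zero
        rw [mul_zero, ← ha0, Finset.mul_sum]
        refine Finset.sum_congr rfl fun k _ => ?_
        rw [ha' k, map_mul, mul_assoc]
      rw [ha' k, pow_succ']
      exact mul_dvd_mul_left π (ih a' h0 k)
  intro k
  have hak : a k = 0 := by
    by_contra hne
    obtain ⟨n, hn⟩ := h.sep (a k) hne
    exact hn (key n a hsum k)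
  have hd' : algebraMap R F d ≠ 0 := fun h0 => hd (h.inj (by rw [h0, map_zero]))
  have := ha k
  rw [hak, map_zero] at this
  exact (mul_eq_zero.mp this).resolve_right hd'

/-- If `[E : F] ≤ #ι`, the family `g` spans `E` over `F`. -/
theorem span (h : Core (F := F) π v₁ v₂ g) [FiniteDimensional F E]
    (hd : Module.finrank F E ≤ Fintype.card ι) (z : E) :
    ∃ c : ι → F, z = ∑ k, algebraMap F E (c k) * g k := by
  have hli := h.linearIndependent
  have hcard : Fintype.card ι = Module.finrank F E :=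
    le_antisymm hli.fintype_card_le_finrank hd
  have htop := hli.span_eq_top_of_card_eq_finrank' hcard
  have hz : z ∈ Submodule.span F (Set.range g) := by rw [htop]; trivial
  obtain ⟨c, hc⟩ := (Submodule.mem_span_range_iff_exists_fun F).mp hz
  refine ⟨c, ?_⟩
  rw [← hc]
  exact Finset.sum_congr rfl fun k _ => Algebra.smul_def _ _

/-- (T1') for a general family: `𝔪₁ ∩ 𝔪₂ = π (V₁ ∩ V₂)`. -/
theorem exists_eq_mul_of_lt (h : Core (F := F) π v₁ v₂ g)
    (hspan : ∀ z : E, ∃ c : ι → F, z = ∑ k, algebraMap F E (c k) * g k) {z : E}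
    (hz₁ : v₁ z < 1) (hz₂ : v₂ z < 1) :
    ∃ z' : E, z = algebraMap R E π * z' ∧ v₁ z' ≤ 1 ∧ v₂ z' ≤ 1 := by
  obtain ⟨s, hs, a, ha⟩ := h.exists_smul_eq hspan hz₁.le hz₂.le
  have hlt₁ : v₁ (∑ k, algebraMap R E (a k) * g k) < 1 := by
    rw [← ha, map_mul]
    exact mul_lt_of_le_one_of_lt (h.le₁ _) hz₁
  have hlt₂ : v₂ (∑ k, algebraMap R E (a k) * g k) < 1 := by
    rw [← ha, map_mul]
    exact mul_lt_of_le_one_of_lt (h.le₂ _) hz₂
  have hdvd := h.ind a hlt₁ hlt₂
  choose a' ha' using hdvd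
  have hπ := h.pi_ne_zero
  have hkey : algebraMap R E s * (z / algebraMap R E π) = ∑ k, algebraMap R E (a' k) * g k := by
    apply mul_left_cancel₀ hπ
    rw [Finset.mul_sum]
    have : algebraMap R E π * (algebraMap R E s * (z / algebraMap R E π))
        = algebraMap R E s * z := by
      field_simp
    rw [this, ha]
    refine Finset.sum_congr rfl fun k _ => ?_
    rw [ha' k, map_mul, mul_assoc]
  refine ⟨z / algebraMap R E π, by field_simp, ?_, ?_⟩
  · have := h.sum_le₁ a'
    rw [← hkey, map_mul, h.unit₁ hs, one_mul] at this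
    exact this
  · have := h.sum_le₂ a'
    rw [← hkey, map_mul, h.unit₂ hs, one_mul] at this
    exact this

end Core

end Core

section Minpoly

variable {R F E : Type*} [CommRing R] [IsDomain R] [Field F] [Field E]
  [Algebra R F] [Algebra F E] [Algebra R E] [IsScalarTower R F E]

/-- The minimal polynomial of a nonzero scalar multiple. -/
theorem minpoly_mul_eq_scaleRoots {α : F} (hα : α ≠ 0) {z : E} (hz : IsIntegral F z) :
    minpoly F (algebraMap F E α * z) = (minpoly F z).scaleRoots α := by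
  symm
  refine minpoly.unique F _ ((monic_scaleRoots_iff α).mpr (minpoly.monic hz))
    (scaleRoots_aeval_eq_zero (minpoly.aeval F z)) ?_
  intro Q hQ hQ0
  rw [degree_scaleRoots]
  have h1 : aeval z (Q.scaleRoots α⁻¹) = 0 := by
    have := scaleRoots_aeval_eq_zero (r := α⁻¹) hQ0
    rwa [← mul_assoc, ← map_mul, inv_mul_cancel₀ hα, map_one, one_mul] at this
  have h2 := minpoly.min F z ((monic_scaleRoots_iff α⁻¹).mpr hQ) h1
  rwa [degree_scaleRoots] at h2

theorem isIntegral_field_of_mul {a : R} (ha : algebraMap R F a ≠ 0) {z : E}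
    (h : IsIntegral R (algebraMap R E a * z)) : IsIntegral F z := by
  have h1 : IsIntegral F (algebraMap R E a * z) := h.tower_top
  have h2 : IsIntegral F (algebraMap F E (algebraMap R F a)⁻¹) := isIntegral_algebraMap
  have h3 := h2.mul h1
  rwa [IsScalarTower.algebraMap_apply R F E, ← mul_assoc, ← map_mul, inv_mul_cancel₀ ha,
    map_one, one_mul] at h3

/-- If `a z` is integral over the integrally closed domain `R`, the coefficients of the minimal
polynomial of `z` over `F = Frac R` become elements of `R` after multiplication by the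
appropriate power of `a`. -/
theorem exists_coeff_mul_pow [IsFractionRing R F] [IsIntegrallyClosed R] {a : R} (ha : a ≠ 0)
    {z : E} (h : IsIntegral R (algebraMap R E a * z)) (i : ℕ) :
    ∃ r : R, algebraMap R F r
      = (minpoly F z).coeff i * algebraMap R F a ^ ((minpoly F z).natDegree - i) := by
  have hα : algebraMap R F a ≠ 0 := fun h0 =>
    ha (IsFractionRing.injective R F (by rw [h0, map_zero]))
  have hzF : IsIntegral F z := isIntegral_field_of_mul hα h
  have key : minpoly F (algebraMap R E a * z) = (minpoly F z).scaleRoots (algebraMap R F a) := by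
    rw [IsScalarTower.algebraMap_apply R F E]
    exact minpoly_mul_eq_scaleRoots hα hzF
  have e1 := minpoly.isIntegrallyClosed_eq_field_fractions' F h
  rw [key] at e1
  refine ⟨(minpoly R (algebraMap R E a * z)).coeff i, ?_⟩
  have := congrArg (fun p => p.coeff i) e1
  simp only [coeff_scaleRoots, coeff_map] at this
  exact this.symm

/-- **Two denominators.** Let `R` be integrally closed in its fraction field `F`, `π ∈ R` prime
and `s ∈ R` not divisible by `π`.  If `π z` and `s z` are integral over `R`, so is `z`. -/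
theorem isIntegral_of_two (inj : Function.Injective (algebraMap R F))
    (frac : ∀ c : F, ∃ a s : R, s ≠ 0 ∧ c * algebraMap R F s = algebraMap R F a)
    (closed : ∀ c : F, IsIntegral R c → ∃ r : R, algebraMap R F r = c)
    {π s : R} (hπ : Prime π) (hs : ¬ π ∣ s) {z : E}
    (h1 : IsIntegral R (algebraMap R E π * z)) (h2 : IsIntegral R (algebraMap R E s * z)) :
    IsIntegral R z := by
  haveI : FaithfulSMul R F := (faithfulSMul_iff_algebraMap_injective R F).mpr inj
  haveI : IsFractionRing R F := IsFractionRing.of_field R F (fun c => by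
    obtain ⟨a, t, ht, h⟩ := frac c
    refine ⟨a, t, ?_⟩
    rw [eq_div_iff (fun h0 => ht (inj (by rw [h0, map_zero])))]
    exact h)
  haveI : IsIntegrallyClosed R := (isIntegrallyClosed_iff F).mpr (fun {x} hx => closed x hx)
  have hs0 : s ≠ 0 := fun h0 => hs (h0 ▸ dvd_zero π)
  have hπF : algebraMap R F π ≠ 0 := fun h0 => hπ.ne_zero (inj (by rw [h0, map_zero]))
  have hzF : IsIntegral F z := isIntegral_field_of_mul hπF h1
  have hcoeff : ∀ i, ∃ r : R, algebraMap R F r = (minpoly F z).coeff i := by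
    intro i
    obtain ⟨r₁, hr₁⟩ := exists_coeff_mul_pow (F := F) hπ.ne_zero h1 i
    obtain ⟨r₂, hr₂⟩ := exists_coeff_mul_pow (F := F) hs0 h2 i
    generalize (minpoly F z).natDegree - i = k at hr₁ hr₂
    have e : r₁ * s ^ k = r₂ * π ^ k := by
      apply inj
      rw [map_mul, map_mul, map_pow, map_pow, hr₁, hr₂]
      ring
    have hdvd : π ^ k ∣ r₁ := by
      have : π ^ k ∣ r₁ * s ^ k := ⟨r₂, by rw [e]; ring⟩
      exact hπ.pow_dvd_of_dvd_mul_right k (fun h => hs (hπ.dvd_of_dvd_pow h)) this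
    obtain ⟨t, ht⟩ := hdvd
    refine ⟨t, ?_⟩
    apply mul_right_cancel₀ (pow_ne_zero k hπF)
    rw [← hr₁, ht, map_mul, map_pow]
    ring
  have hlift : minpoly F z ∈ Polynomial.lifts (algebraMap R F) := by
    rw [Polynomial.lifts_iff_coeff_lifts]
    intro i
    obtain ⟨r, hr⟩ := hcoeff i
    exact ⟨r, hr⟩
  obtain ⟨μ₀, hμ₀, -, hmonic⟩ :=
    Polynomial.lifts_and_natDegree_eq_and_monic hlift (minpoly.monic hzF)
  refine ⟨μ₀, hmonic, ?_⟩
  have : aeval z (minpoly F z) = 0 := minpoly.aeval F z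
  rw [← hμ₀, aeval_map_algebraMap] at this
  rwa [aeval_def] at this

end Minpoly

section Core2

variable {R F E : Type*} [CommRing R] [IsDomain R] [Field F] [Field E]
  [Algebra R F] [Algebra F E] [Algebra R E] [IsScalarTower R F E]
variable {Γ₁ Γ₂ : Type*} [LinearOrderedCommGroupWithZero Γ₁] [LinearOrderedCommGroupWithZero Γ₂]
variable {ι : Type*} [Fintype ι]
variable {π : R} {v₁ : Valuation E Γ₁} {v₂ : Valuation E Γ₂} {g : ι → E}

/-- (T2) for a general family. -/
theorem Core.isIntegral_of_pi_mul (h : Core (F := F) π v₁ v₂ g)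
    (hspan : ∀ z : E, ∃ c : ι → F, z = ∑ k, algebraMap F E (c k) * g k)
    (closed : ∀ c : F, IsIntegral R c → ∃ r : R, algebraMap R F r = c)
    (hint : ∀ k, IsIntegral R (g k)) {z : E} (hz₁ : v₁ z ≤ 1) (hz₂ : v₂ z ≤ 1)
    (hπz : IsIntegral R (algebraMap R E π * z)) : IsIntegral R z := by
  obtain ⟨s, hs, a, ha⟩ := h.exists_smul_eq hspan hz₁ hz₂
  refine isIntegral_of_two h.inj h.frac closed h.prime hs hπz ?_
  rw [ha]
  exact IsIntegral.sum _ fun k _ => isIntegral_algebraMap.mul (hint k)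

end Core2

section Setting

variable {R F E : Type*} [CommRing R] [IsDomain R] [Field F] [Field E]
  [Algebra R F] [Algebra F E] [Algebra R E] [IsScalarTower R F E]
variable {Γ₁ Γ₂ : Type*} [LinearOrderedCommGroupWithZero Γ₁] [LinearOrderedCommGroupWithZero Γ₂]

/-- **The two-valuation setting.**  `R` = level-`M` chart, `F = Frac R`, `E ⊇ F` of degree
`≤ q + 1`, `v₁, v₂` the two Gauss valuations, `x ∈ 𝔪₁ ∖ 𝔪₂`, `y ∈ 𝔪₂ ∖ 𝔪₁`, and `q` elements `b i`
with `R/π`-independent residues at `v₂`. -/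
structure Setting (π : R) (q : ℕ) (v₁ : Valuation E Γ₁) (v₂ : Valuation E Γ₂) (x y : E)
    (b : Fin q → E) : Prop where
  inj : Function.Injective (algebraMap R F)
  frac : ∀ c : F, ∃ a s : R, s ≠ 0 ∧ c * algebraMap R F s = algebraMap R F a
  prime : Prime π
  sep : ∀ r : R, r ≠ 0 → ∃ k : ℕ, ¬ π ^ k ∣ r
  le₁ : ∀ r : R, v₁ (algebraMap R E r) ≤ 1
  le₂ : ∀ r : R, v₂ (algebraMap R E r) ≤ 1
  lt₁ : v₁ (algebraMap R E π) < 1
  lt₂ : v₂ (algebraMap R E π) < 1
  dvd₁ : ∀ r : R, v₁ (algebraMap R E r) < 1 → π ∣ r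
  dvd₂ : ∀ r : R, v₂ (algebraMap R E r) < 1 → π ∣ r
  hx₁ : v₁ x < 1
  hx₂ : v₂ x = 1
  hy₁ : v₁ y = 1
  hy₂ : v₂ y < 1
  hb₁ : ∀ i, v₁ (b i) ≤ 1
  hb₂ : ∀ i, v₂ (b i) ≤ 1
  ind : ∀ c : Fin q → R, v₂ (∑ i, algebraMap R E (c i) * b i) < 1 → ∀ i, π ∣ c i
  fin : FiniteDimensional F E
  deg : Module.finrank F E ≤ q + 1

/-- The family `(y, x * b i)`. -/
def fam {q : ℕ} (x y : E) (b : Fin q → E) : Option (Fin q) → E :=
  fun o => o.elim y (fun i => x * b i)

namespace Setting

variable {π : R} {q : ℕ} {v₁ : Valuation E Γ₁} {v₂ : Valuation E Γ₂} {x y : E} {b : Fin q → E}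

theorem sum_fam (c : Option (Fin q) → R) :
    ∑ k, algebraMap R E (c k) * fam x y b k
      = algebraMap R E (c none) * y + ∑ i, algebraMap R E (c (some i)) * (x * b i) := by
  rw [Fintype.sum_option]
  rfl

theorem tail_lt₁ (S : Setting (F := F) π q v₁ v₂ x y b) (c : Fin q → R) :
    v₁ (∑ i, algebraMap R E (c i) * (x * b i)) < 1 := by
  refine v₁.map_sum_lt one_ne_zero fun i _ => ?_
  rw [map_mul, map_mul]
  exact mul_lt_of_le_one_of_lt (S.le₁ _) (mul_lt_of_lt_of_le_one S.hx₁ (S.hb₁ i))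

/-- The family `(y, x * b i)` satisfies the core hypotheses. -/
theorem core (S : Setting (F := F) π q v₁ v₂ x y b) : Core (F := F) π v₁ v₂ (fam x y b) where
  inj := S.inj
  frac := S.frac
  prime := S.prime
  sep := S.sep
  le₁ := S.le₁
  le₂ := S.le₂
  lt₁ := S.lt₁
  lt₂ := S.lt₂
  dvd₁ := S.dvd₁
  dvd₂ := S.dvd₂
  hg₁ := by
    intro k
    cases k with
    | none => exact S.hy₁.le
    | some i =>
      change v₁ (x * b i) ≤ 1
      rw [map_mul]
      exact mul_le_one' S.hx₁.le (S.hb₁ i)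
  hg₂ := by
    intro k
    cases k with
    | none => exact S.hy₂.le
    | some i =>
      change v₂ (x * b i) ≤ 1
      rw [map_mul]
      exact mul_le_one' S.hx₂.le (S.hb₂ i)
  ind := by
    intro c h₁ h₂
    rw [sum_fam] at h₁ h₂
    have hnone : π ∣ c none := by
      apply S.dvd₁
      have h3 : v₁ (algebraMap R E (c none) * y) < 1 := by
        have := v₁.map_sub_lt h₁ (S.tail_lt₁ fun i => c (some i))
        rwa [add_sub_cancel_right] at this
      rwa [map_mul, S.hy₁, mul_one] at h3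
    have hsome : ∀ i, π ∣ c (some i) := by
      apply S.ind
      have h3 : v₂ (algebraMap R E (c none) * y) < 1 := by
        rw [map_mul]
        exact mul_lt_of_le_one_of_lt (S.le₂ _) S.hy₂
      have h4 : v₂ (∑ i, algebraMap R E (c (some i)) * (x * b i)) < 1 := by
        have := v₂.map_sub_lt h₂ h3
        rwa [add_sub_cancel_left] at this
      have h5 : ∑ i, algebraMap R E (c (some i)) * (x * b i)
          = x * ∑ i, algebraMap R E (c (some i)) * b i := by
        rw [Finset.mul_sum]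
        exact Finset.sum_congr rfl fun i _ => by ring
      rwa [h5, map_mul, S.hx₂, one_mul] at h4
    intro k
    cases k with
    | none => exact hnone
    | some i => exact hsome i

theorem span (S : Setting (F := F) π q v₁ v₂ x y b) (z : E) :
    ∃ c : Option (Fin q) → F, z = ∑ k, algebraMap F E (c k) * fam x y b k := by
  haveI := S.fin
  exact S.core.span (by rw [Fintype.card_option, Fintype.card_fin]; exact S.deg) z

/-- **(T1)** `V₁ ∩ V₂ = ∑ R_(π) · g_k` with `g = (y, x * b i)`. -/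
theorem exists_smul_eq (S : Setting (F := F) π q v₁ v₂ x y b) {z : E}
    (hz₁ : v₁ z ≤ 1) (hz₂ : v₂ z ≤ 1) :
    ∃ s : R, ¬ π ∣ s ∧ ∃ (c₀ : R) (c : Fin q → R),
      algebraMap R E s * z = algebraMap R E c₀ * y + ∑ i, algebraMap R E (c i) * (x * b i) := by
  obtain ⟨s, hs, a, ha⟩ := S.core.exists_smul_eq S.span hz₁ hz₂
  exact ⟨s, hs, a none, fun i => a (some i), by rw [ha, sum_fam]⟩

/-- **(T1')** reducedness: `𝔪₁ ∩ 𝔪₂ = π (V₁ ∩ V₂)`. -/
theorem exists_eq_mul_of_lt (S : Setting (F := F) π q v₁ v₂ x y b) {z : E}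
    (hz₁ : v₁ z < 1) (hz₂ : v₂ z < 1) :
    ∃ z' : E, z = algebraMap R E π * z' ∧ v₁ z' ≤ 1 ∧ v₂ z' ≤ 1 :=
  S.core.exists_eq_mul_of_lt S.span hz₁ hz₂

/-- **(T2)** descent of integrality: for `z ∈ V₁ ∩ V₂`, if `π z` is integral over `R` then so is
`z`.  (`R` integrally closed in `F`; `x, y, b i` integral over `R`.) -/
theorem isIntegral_of_pi_mul (S : Setting (F := F) π q v₁ v₂ x y b)
    (closed : ∀ c : F, IsIntegral R c → ∃ r : R, algebraMap R F r = c)
    (hx : IsIntegral R x) (hy : IsIntegral R y) (hb : ∀ i, IsIntegral R (b i)) {z : E}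
    (hz₁ : v₁ z ≤ 1) (hz₂ : v₂ z ≤ 1) (hπz : IsIntegral R (algebraMap R E π * z)) :
    IsIntegral R z := by
  refine S.core.isIntegral_of_pi_mul S.span closed ?_ hz₁ hz₂ hπz
  intro k
  cases k with
  | none => exact hy
  | some i => exact hx.mul (hb i)

/-- **(T4)** `π` is a uniformiser of `v₁`. -/
theorem val_le_pi₁ (S : Setting (F := F) π q v₁ v₂ x y b) {z : E} (hz : v₁ z < 1) :
    v₁ z ≤ v₁ (algebraMap R E π) := by
  have key : ∀ w : E, v₁ w < 1 → v₂ w < 1 → v₁ w ≤ v₁ (algebraMap R E π) := by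
    intro w hw₁ hw₂
    obtain ⟨w', rfl, hw'₁, -⟩ := S.exists_eq_mul_of_lt hw₁ hw₂
    rw [map_mul]
    exact mul_le_of_le_one_right' hw'₁
  by_cases h2 : v₂ z < 1
  · exact key z hz h2
  · rw [not_lt] at h2
    have e1 : v₁ (y + z) = 1 := by
      rw [v₁.map_add_eq_of_lt_left (by rw [S.hy₁]; exact hz), S.hy₁]
    have e2 : v₂ (y + z) = v₂ z :=
      v₂.map_add_eq_of_lt_right (lt_of_lt_of_le S.hy₂ h2)
    have hz2 : v₂ z ≠ 0 := ne_of_gt (lt_of_lt_of_le zero_lt_one h2)
    have h3 := key (z * y / (y + z))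
      (by rw [map_div₀, map_mul, e1, S.hy₁, mul_one, div_one]; exact hz)
      (by rw [map_div₀, map_mul, e2, mul_comm, mul_div_assoc, div_self hz2, mul_one]
          exact S.hy₂)
    rwa [map_div₀, map_mul, e1, S.hy₁, mul_one, div_one] at h3

/-- **(T4)** `π` is a uniformiser of `v₂`. -/
theorem val_le_pi₂ (S : Setting (F := F) π q v₁ v₂ x y b) {z : E} (hz : v₂ z < 1) :
    v₂ z ≤ v₂ (algebraMap R E π) := by
  have key : ∀ w : E, v₁ w < 1 → v₂ w < 1 → v₂ w ≤ v₂ (algebraMap R E π) := by
    intro w hw₁ hw₂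
    obtain ⟨w', rfl, -, hw'₂⟩ := S.exists_eq_mul_of_lt hw₁ hw₂
    rw [map_mul]
    exact mul_le_of_le_one_right' hw'₂
  by_cases h1 : v₁ z < 1
  · exact key z h1 hz
  · rw [not_lt] at h1
    have e2 : v₂ (x + z) = 1 := by
      rw [v₂.map_add_eq_of_lt_left (by rw [S.hx₂]; exact hz), S.hx₂]
    have e1 : v₁ (x + z) = v₁ z :=
      v₁.map_add_eq_of_lt_right (lt_of_lt_of_le S.hx₁ h1)
    have hz1 : v₁ z ≠ 0 := ne_of_gt (lt_of_lt_of_le zero_lt_one h1)
    have h3 := key (z * x / (x + z))
      (by rw [map_div₀, map_mul, e1, mul_comm, mul_div_assoc, div_self hz1, mul_one]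
          exact S.hx₁)
      (by rw [map_div₀, map_mul, e2, S.hx₂, mul_one, div_one]; exact hz)
    rwa [map_div₀, map_mul, e2, S.hx₂, mul_one, div_one] at h3

/-- Approximation: every element of `V₁` is congruent modulo `𝔪₁` to an element of
`V₁ ∩ V₂`. -/
theorem exists_approx₁ (S : Setting (F := F) π q v₁ v₂ x y b) {u : E} (hu : v₁ u ≤ 1) :
    ∃ u' : E, v₁ u' ≤ 1 ∧ v₂ u' ≤ 1 ∧ v₁ (u - u') < 1 := by
  by_cases h2 : v₂ u ≤ 1
  · exact ⟨u, hu, h2, by rw [sub_self, map_zero]; exact zero_lt_one⟩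
  · rw [not_le] at h2
    have hux : v₁ (u * x) < 1 := by
      rw [map_mul]
      exact mul_lt_of_le_one_of_lt hu S.hx₁
    have e1 : v₁ (1 + u * x) = 1 := v₁.map_one_add_of_lt hux
    have hne : 1 + u * x ≠ 0 := by
      intro h0
      rw [h0, map_zero] at e1
      exact zero_ne_one e1
    have e2 : v₂ (1 + u * x) = v₂ u := by
      have : v₂ (u * x) = v₂ u := by rw [map_mul, S.hx₂, mul_one]
      rw [v₂.map_add_eq_of_lt_right (by rw [map_one, this]; exact h2), this]
    have hu2 : v₂ u ≠ 0 := ne_of_gt (lt_trans zero_lt_one h2)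
    refine ⟨u / (1 + u * x), ?_, ?_, ?_⟩
    · rw [map_div₀, e1, div_one]
      exact hu
    · rw [map_div₀, e2, div_self hu2]
    · have : u - u / (1 + u * x) = u * (u * x) / (1 + u * x) := by
        field_simp
        ring
      rw [this, map_div₀, e1, div_one, map_mul]
      exact mul_lt_of_le_one_of_lt hu hux

/-- **(T3)** the residue field of `v₁` is that of `R_(π)`: every `u ∈ V₁` is congruent modulo
`𝔪₁` to a fraction `a / s` with `a, s ∈ R`, `π ∤ s`. -/
theorem exists_residue₁ (S : Setting (F := F) π q v₁ v₂ x y b) {u : E} (hu : v₁ u ≤ 1) :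
    ∃ a s : R, ¬ π ∣ s ∧ v₁ (algebraMap R E s * u - algebraMap R E a) < 1 := by
  obtain ⟨u', hu'₁, hu'₂, huu'⟩ := S.exists_approx₁ hu
  obtain ⟨s, hs, c₀, c, hc⟩ := S.exists_smul_eq hu'₁ hu'₂
  obtain ⟨s₁, hs₁, d₀, d, hd⟩ := S.exists_smul_eq (z := (1 : E))
    (by rw [map_one]) (by rw [map_one])
  rw [mul_one] at hd
  have hT := S.tail_lt₁ c
  have hT' := S.tail_lt₁ d
  -- `d₀` is a unit at `v₁`
  have hd₀ : ¬ π ∣ d₀ := by
    rintro ⟨e, rfl⟩
    have h1 : v₁ (algebraMap R E (π * e) * y) < 1 := by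
      rw [map_mul, map_mul, map_mul]
      exact mul_lt_of_lt_of_le_one (mul_lt_of_lt_of_le_one S.lt₁ (S.le₁ _)) S.hy₁.le
    have h2 : v₁ (algebraMap R E s₁) < 1 := by
      rw [hd]
      exact v₁.map_add_lt h1 hT'
    rw [S.core.unit₁ hs₁] at h2
    exact lt_irrefl _ h2
  refine ⟨c₀ * s₁, d₀ * s, ?_, ?_⟩
  · intro hdvd
    rcases S.prime.dvd_or_dvd hdvd with h | h
    · exact hd₀ h
    · exact hs h
  · have e : algebraMap R E (d₀ * s) * u - algebraMap R E (c₀ * s₁)
        = algebraMap R E d₀ * algebraMap R E s * (u - u')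
          + algebraMap R E d₀ * (∑ i, algebraMap R E (c i) * (x * b i))
          - algebraMap R E c₀ * (∑ i, algebraMap R E (d i) * (x * b i)) := by
      have h1 : ∑ i, algebraMap R E (c i) * (x * b i)
          = algebraMap R E s * u' - algebraMap R E c₀ * y := by rw [hc]; ring
      have h2 : ∑ i, algebraMap R E (d i) * (x * b i)
          = algebraMap R E s₁ - algebraMap R E d₀ * y := by rw [hd]; ring
      rw [h1, h2, map_mul, map_mul]
      ring
    rw [e]
    refine v₁.map_sub_lt (v₁.map_add_lt ?_ ?_) ?_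
    · rw [map_mul, map_mul]
      exact mul_lt_of_le_one_of_lt (mul_le_one' (S.le₁ _) (S.le₁ _)) huu'
    · rw [map_mul]
      exact mul_lt_of_le_one_of_lt (S.le₁ _) hT
    · rw [map_mul]
      exact mul_lt_of_le_one_of_lt (S.le₁ _) hT'

/-- **(T3')** branch identification: if `R / π` is integrally closed, every element of `E`
integral over `R` is congruent modulo `𝔪₁` to an element of `R`
(`ρ₁(R_N) = ρ_M(R_M)`: the first branch is the level-`M` special fibre). -/
theorem exists_lift₁ (S : Setting (F := F) π q v₁ v₂ x y b)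
    (hnor : IsIntegrallyClosed (R ⧸ Ideal.span {π})) {r : E} (hr : IsIntegral R r) :
    ∃ r' : R, v₁ (r - algebraMap R E r') < 1 := by
  have hr₁ : v₁ r ≤ 1 := val_le_one_of_isIntegral v₁ S.le₁ hr
  obtain ⟨a, s, hs, hlt⟩ := S.exists_residue₁ hr₁
  obtain ⟨P, hP, hroot⟩ := hr
  -- the scaled polynomial kills `s r`, hence its value at `a` is divisible by `π`
  have hQ : aeval (algebraMap R E s * r) (P.scaleRoots s) = 0 := by
    rw [aeval_def]
    exact scaleRoots_eval₂_eq_zero (algebraMap R E) hroot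
  have hQa : π ∣ (P.scaleRoots s).eval a := by
    apply S.dvd₁
    have h1 := val_aeval_sub_lt v₁ S.le₁ (P.scaleRoots s) (A := algebraMap R E a)
      (B := algebraMap R E s * r) (S.le₁ a)
      (by rw [map_mul]; exact mul_le_one' (S.le₁ s) hr₁)
      (by rw [Valuation.map_sub_swap]; exact hlt)
    rwa [hQ, sub_zero, aeval_algebraMap_apply_eq_algebraMap_eval] at h1
  -- pass to `D = R / π` and its fraction field
  haveI hprime : (Ideal.span {π}).IsPrime :=
    (Ideal.span_singleton_prime S.prime.ne_zero).mpr S.prime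
  let D := R ⧸ Ideal.span {π}
  let mk : R →+* D := Ideal.Quotient.mk (Ideal.span {π})
  let K := FractionRing D
  let φ : R →+* K := (algebraMap D K).comp mk
  have hmk : ∀ t : R, mk t = 0 ↔ π ∣ t := fun t => by
    rw [Ideal.Quotient.eq_zero_iff_mem, Ideal.mem_span_singleton]
  have hφs : φ s ≠ 0 := by
    intro h0
    have : mk s = 0 := IsFractionRing.injective D K (by rw [map_zero]; exact h0)
    exact hs ((hmk s).mp this)
  have h2 : eval₂ φ (φ a) (P.scaleRoots s) = 0 := by
    have : φ ((P.scaleRoots s).eval a) = 0 := by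
      change algebraMap D K (mk _) = 0
      rw [(hmk _).mpr hQa, map_zero]
    rwa [← eval₂_at_apply] at this
  have h3 : eval₂ φ (φ a / φ s) P = 0 := by
    have := scaleRoots_eval₂_mul (p := P) φ (φ a / φ s) s
    rw [mul_div_cancel₀ _ hφs, h2] at this
    exact (mul_eq_zero.mp this.symm).resolve_left (pow_ne_zero _ hφs)
  have hint : IsIntegral D (φ a / φ s) := by
    refine ⟨P.map mk, hP.map mk, ?_⟩
    rw [eval₂_map]
    exact h3
  obtain ⟨t, ht⟩ := IsIntegrallyClosed.isIntegral_iff.mp hint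
  obtain ⟨r', rfl⟩ := Ideal.Quotient.mk_surjective t
  have h4 : mk (r' * s) = mk a := by
    apply IsFractionRing.injective D K
    rw [map_mul, map_mul]
    change algebraMap D K (mk r') * φ s = φ a
    rw [ht, div_mul_cancel₀ _ hφs]
  have h5 : π ∣ r' * s - a := by
    rw [← hmk, map_sub, h4, sub_self]
  obtain ⟨w, hw⟩ := h5
  refine ⟨r', ?_⟩
  have e : algebraMap R E s * (r - algebraMap R E r')
      = (algebraMap R E s * r - algebraMap R E a) - algebraMap R E (π * w) := by
    rw [← hw, map_sub, map_mul]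
    ring
  have h6 : v₁ (algebraMap R E s * (r - algebraMap R E r')) < 1 := by
    rw [e]
    refine v₁.map_sub_lt hlt ?_
    rw [map_mul, map_mul]
    exact mul_lt_of_lt_of_le_one S.lt₁ (S.le₁ _)
  rwa [map_mul, S.core.unit₁ hs, one_mul] at h6

end Setting

end Setting

end Fermat.Agent.S34.TwoVal
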