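/-
S34 — Red2B.lean (helper67): block [Model2], row [Red2], B-copy (route: helper68's `TwoVal`).

Level `M * q`, `q` prime, `q ∤ M`, `A` a valuation ring of `ℚ̄` over `q`, `K` a base field with
`BaseFacts q A K`, `O = A ∩ K` with uniformizer `π`.  Base ring of the two-valuation setting:
the level-`M` chart `R_M = chart M A K j` (integral closure of `O[j]` in `F_K(M)`), acting on
`E = F_K(M q)` through the inclusion `α`; `v₁`, `v₂` the valuations of the Gauss ring `V1` and of
its Atkin–Lehner transform `V2 = w_q⁻¹ V1`.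

* `setting` : `TwoVal.Setting` for `x = j_q − j^q`, `y = w_q x = j − j_q^q`, `b i = j_q^i`;
* `desc`    : `z ∈ V1 ∩ V2`, `π z ∈ chart (M q) j`  ⟹  `z ∈ chart (M q) j`
              (reduced special fibre of the chart `j ≠ ∞` at level `M q`).
-/
import Mathlib
import Fermat.Agent.S34.TwoVal
import Fermat.Agent.S34.GaussV
import Fermat.Agent.S34.WK
import Fermat.Agent.S34.V12Rel
import Fermat.Agent.S34.Red2Alg
import Fermat.Agent.S34.DegTower
import Fermat.Agent.S18.ModelAll
import Fermat.Agent.S18.IgusaStmt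
import Fermat.Agent.S18.Nor
import Fermat.Agent.S18.ModelQFrac
import Fermat.Agent.S18.SepDeg

set_option autoImplicit false

noncomputable section

namespace Fermat.Agent.S34.Red2B

open ModularCurve ModularCurve.IgusaScheme AlgebraicCurve HahnSeries
open Fermat.Agent.S18 Fermat.Agent.S18.Arith Fermat.Agent.S18.ModelPlan

/-! ### Generic lemmas -/

section Generic

/-- Change of base ring for integrality: if every element of `R` is integral over `S` (inside
`E`), then integrality over `R` implies integrality over `S`. -/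
theorem isIntegral_of_forall {R S E : Type*} [CommRing R] [CommRing S] [CommRing E]
    [Algebra R E] [Algebra S E] (h : ∀ r : R, IsIntegral S (algebraMap R E r)) {z : E}
    (hz : IsIntegral R z) : IsIntegral S z := by
  let C := integralClosure S E
  let ι : R →+* C := (algebraMap R E).codRestrict C.toSubring h
  obtain ⟨p, hp, hpz⟩ := hz
  have hint : IsIntegral C z := by
    refine ⟨p.map ι, hp.map ι, ?_⟩
    rw [Polynomial.eval₂_map]
    exact hpz
  have h2 : z ∈ integralClosure C E := hint
  rw [integralClosure_idem] at h2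
  obtain ⟨w, hw⟩ := Algebra.mem_bot.mp h2
  rw [← hw]
  exact w.2

variable {E : Type*} [Field E]

theorem val_lt_one_iff (V : ValuationSubring E) (z : E) :
    V.valuation z < 1 ↔ z = 0 ∨ z⁻¹ ∉ V := by
  by_cases hz : z = 0
  · simp [hz]
  · rw [← not_le, Valuation.one_le_val_iff _ hz, V.valuation_le_one_iff]
    simp [hz]

theorem val_eq_one_of_mem (V : ValuationSubring E) {z : E} (hz : z ≠ 0) (h1 : z ∈ V)
    (h2 : z⁻¹ ∈ V) : V.valuation z = 1 :=
  le_antisymm ((V.valuation_le_one_iff z).mpr h1)
    ((Valuation.one_le_val_iff _ hz).mpr ((V.valuation_le_one_iff _).mpr h2))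

/-- Valuations of a comap along a ring automorphism: `≤ 1`. -/
theorem val_comap_le_one_iff (V : ValuationSubring E) (w : E ≃+* E) (z : E) :
    (V.comap (w : E →+* E)).valuation z ≤ 1 ↔ V.valuation (w z) ≤ 1 := by
  rw [ValuationSubring.valuation_le_one_iff, ValuationSubring.valuation_le_one_iff]
  rfl

/-- Valuations of a comap along a ring automorphism: `< 1`. -/
theorem val_comap_lt_one_iff (V : ValuationSubring E) (w : E ≃+* E) (z : E) :
    (V.comap (w : E →+* E)).valuation z < 1 ↔ V.valuation (w z) < 1 := by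
  rw [val_lt_one_iff, val_lt_one_iff]
  have h1 : z = 0 ↔ w z = 0 := (map_eq_zero_iff w w.injective).symm
  have h2 : z⁻¹ ∈ V.comap (w : E →+* E) ↔ (w z)⁻¹ ∈ V := by
    rw [← map_inv₀]
    rfl
  rw [h1, h2]

/-- Valuations of a comap along a ring automorphism: `= 1`. -/
theorem val_comap_eq_one_iff (V : ValuationSubring E) (w : E ≃+* E) (z : E) :
    (V.comap (w : E →+* E)).valuation z = 1 ↔ V.valuation (w z) = 1 := by
  have h1 := val_comap_le_one_iff V w z
  have h2 := val_comap_lt_one_iff V w z
  constructor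
  · intro h
    exact le_antisymm (h1.mp h.le)
      (not_lt.mp fun hlt => absurd (h2.mpr hlt) (by rw [h]; exact lt_irrefl _))
  · intro h
    exact le_antisymm (h1.mpr h.le)
      (not_lt.mp fun hlt => absurd (h2.mp hlt) (by rw [h]; exact lt_irrefl _))

end Generic

/-! ### Gauss valuation versus `GRel` (any level) -/

section Gauss

variable {N : ℕ} [NeZero N] {A : ValuationSubring Qb} {K : IntermediateField ℚ Qb}

theorem gRel_sum {ι : Type*} (s : Finset ι) (f : ι → LaurentSeries Qb)
    (g : ι → LaurentSeries (IsLocalRing.ResidueField A))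
    (h : ∀ i ∈ s, GRel A (f i) (g i)) : GRel A (∑ i ∈ s, f i) (∑ i ∈ s, g i) := by
  classical
  have hG := GRel.gRelStatement A
  induction s using Finset.induction_on with
  | empty => simpa using ModelRed.gRel_zero hG
  | insert a s ha ih =>
    rw [Finset.sum_insert ha, Finset.sum_insert ha]
    exact hG.add _ _ _ _ (h a (Finset.mem_insert_self a s))
      (ih fun i hi => h i (Finset.mem_insert_of_mem hi))

omit [NeZero N] in
theorem ne_zero_of_gRel {z : FK N K} {y : LaurentSeries (IsLocalRing.ResidueField A)}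
    (h : GRel A ((z : FK N K) : LaurentSeries Qb) y) (hy : y ≠ 0) : z ≠ 0 := by
  rintro rfl
  have hG := GRel.gRelStatement A
  rw [ZeroMemClass.coe_zero] at h
  exact hy (hG.unique _ _ _ h (ModelRed.gRel_zero hG))

theorem val1_le_of_gRel (hdvr : IsDiscreteValuationRing (OK A K)) {z : FK N K}
    {y : LaurentSeries (IsLocalRing.ResidueField A)}
    (h : GRel A ((z : FK N K) : LaurentSeries Qb) y) :
    (GaussV.V1 N A K hdvr).valuation z ≤ 1 :=
  (ValuationSubring.valuation_le_one_iff _ z).mpr ((GaussV.mem_V1_iff hdvr).mpr ⟨y, h⟩)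

theorem val1_lt_of_gRel_zero (hdvr : IsDiscreteValuationRing (OK A K)) {z : FK N K}
    (h : GRel A ((z : FK N K) : LaurentSeries Qb) 0) :
    (GaussV.V1 N A K hdvr).valuation z < 1 := by
  rw [val_lt_one_iff]
  by_cases hz : z = 0
  · exact Or.inl hz
  · right
    intro hinv
    obtain ⟨y', hy'⟩ := (GaussV.mem_V1_iff hdvr).mp hinv
    have hG := GRel.gRelStatement A
    have h1 := hG.mul _ _ _ _ h hy'
    rw [zero_mul] at h1
    have hcoe : ((z : FK N K) : LaurentSeries Qb) * ((z⁻¹ : FK N K) : LaurentSeries Qb) = 1 := by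
      rw [← Subfield.coe_mul, mul_inv_cancel₀ hz, Subfield.coe_one]
    rw [hcoe] at h1
    exact one_ne_zero (hG.unique _ _ _ (ModelRed.gRel_one hG) h1)

theorem val1_eq_one_of_gRel (hdvr : IsDiscreteValuationRing (OK A K)) {z : FK N K}
    {y : LaurentSeries (IsLocalRing.ResidueField A)}
    (h : GRel A ((z : FK N K) : LaurentSeries Qb) y) (hy : y ≠ 0) :
    (GaussV.V1 N A K hdvr).valuation z = 1 := by
  have hG := GRel.gRelStatement A
  refine val_eq_one_of_mem _ (ne_zero_of_gRel h hy) ((GaussV.mem_V1_iff hdvr).mpr ⟨y, h⟩)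
    ((GaussV.mem_V1_iff hdvr).mpr ⟨y⁻¹, ?_⟩)
  rw [Subfield.coe_inv]
  exact hG.inv _ _ h hy

theorem gRel_zero_of_val1_lt (hdvr : IsDiscreteValuationRing (OK A K)) {z : FK N K}
    (h : (GaussV.V1 N A K hdvr).valuation z < 1) :
    GRel A ((z : FK N K) : LaurentSeries Qb) 0 := by
  obtain ⟨y, hy⟩ := (GaussV.mem_V1_iff hdvr).mp
    ((ValuationSubring.valuation_le_one_iff _ z).mp h.le)
  by_cases hy0 : y = 0
  · rw [← hy0]; exact hy
  · exact absurd (val1_eq_one_of_gRel hdvr hy hy0) (ne_of_lt h)

end Gauss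

/-! ### The two-valuation setting at level `M * q` over the level-`M` chart -/

section Level

variable (M q : ℕ) [NeZero M] [NeZero q] (hq : q.Prime) (hqM : ¬ q ∣ M)
variable (A : ValuationSubring Qb) (K : IntermediateField ℚ Qb)

/-- `x = j_q − j^q`. -/
def xE : FK (M * q) K := WK.jqK M q hq hqM K - jK (M * q) K ^ q

/-- `y = j − j_q^q = w_q x`. -/
def yE : FK (M * q) K := jK (M * q) K - WK.jqK M q hq hqM K ^ q

/-- `b i = j_q ^ i`. -/
def bE : Fin q → FK (M * q) K := fun i => WK.jqK M q hq hqM K ^ (i : ℕ)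

theorem coe_jqK : ((WK.jqK M q hq hqM K : FK (M * q) K) : LaurentSeries Qb)
    = qExpand Qb q (jqModC Qb) := by
  rw [WK.jqK, WK.coe_betaK, ModelQFrac.coe_jK]

theorem wK_xE : WK.wK M q hq hqM K (xE M q hq hqM K) = yE M q hq hqM K := by
  rw [xE, yE, map_sub, map_pow, WK.wK_jqK, WK.wK_jK]

theorem wK_yE : WK.wK M q hq hqM K (yE M q hq hqM K) = xE M q hq hqM K := by
  rw [← wK_xE, WK.wK_wK]

theorem coe_xE : ((xE M q hq hqM K : FK (M * q) K) : LaurentSeries Qb)
    = qExpand Qb q (jqModC Qb) - jqModC Qb ^ q := by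
  rw [xE, Subfield.coe_sub, SubmonoidClass.coe_pow, coe_jqK, ModelQFrac.coe_jK]

theorem coe_yE : ((yE M q hq hqM K : FK (M * q) K) : LaurentSeries Qb)
    = jqModC Qb - qExpand Qb q (jqModC Qb) ^ q := by
  rw [yE, Subfield.coe_sub, SubmonoidClass.coe_pow, coe_jqK, ModelQFrac.coe_jK]

/-- The algebra structure `F_K(M) → F_K(M q)` (the inclusion `α`; `DegTower.algTower`). -/
@[reducible] def algFE : Algebra ↥(FK M K) ↥(FK (M * q) K) :=
  DegTower.algTower M (M * q) K (Dvd.intro q rfl)

attribute [local instance] algFE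

/-- The algebra structure `R_M → F_K(M q)`. -/
@[reducible] def algRE : Algebra ↥(chart M A K (jK M K)) ↥(FK (M * q) K) :=
  ((algebraMap ↥(FK M K) ↥(FK (M * q) K)).comp
    (algebraMap ↥(chart M A K (jK M K)) ↥(FK M K))).toAlgebra

attribute [local instance] algRE

omit [NeZero q] in
/-- `R_M → F_K(M) → F_K(M q)` is a tower (stated for the `SMul`s induced by the three algebra
structures, which is the form `TwoVal` asks for). -/
theorem towerRFE :
    @IsScalarTower ↥(chart M A K (jK M K)) ↥(FK M K) ↥(FK (M * q) K)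
      Algebra.toSMul Algebra.toSMul (algRE M q A K).toSMul :=
  IsScalarTower.of_algebraMap_eq fun _ => rfl

attribute [local instance] towerRFE

omit [NeZero M] [NeZero q] in
theorem coe_algebraMap_FE (x : FK M K) :
    ((algebraMap ↥(FK M K) ↥(FK (M * q) K) x : FK (M * q) K) : LaurentSeries Qb)
      = (x : LaurentSeries Qb) :=
  DegTower.coe_incl M (M * q) K (Dvd.intro q rfl) x

theorem algebraMap_FE (x : FK M K) :
    algebraMap ↥(FK M K) ↥(FK (M * q) K) x = WK.alphaK M q K x :=
  Subtype.ext (by rw [coe_algebraMap_FE, WK.coe_alphaK])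

theorem algebraMap_RE (r : ↥(chart M A K (jK M K))) :
    algebraMap ↥(chart M A K (jK M K)) ↥(FK (M * q) K) r = WK.alphaK M q K (r : FK M K) :=
  algebraMap_FE M q K (r : FK M K)

omit [NeZero q] in
theorem coe_algebraMap_RE (r : ↥(chart M A K (jK M K))) :
    ((algebraMap ↥(chart M A K (jK M K)) ↥(FK (M * q) K) r : FK (M * q) K) : LaurentSeries Qb)
      = ((r : FK M K) : LaurentSeries Qb) :=
  coe_algebraMap_FE M q K (r : FK M K)

theorem algebraMap_RE_algebraMap (c : OK A K) :
    algebraMap ↥(chart M A K (jK M K)) ↥(FK (M * q) K)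
        (algebraMap (OK A K) ↥(chart M A K (jK M K)) c)
      = algebraMap (OK A K) (FK (M * q) K) c := by
  rw [algebraMap_RE]
  exact WK.alphaK_constK M q K (c : K)

omit [NeZero q] in
include hq hqM in
/-- `ChartFacts` for the level-`M` chart `j ≠ ∞` (S18 [Model], `q ∤ M`). -/
theorem chartFacts (hA : A.LiesOverPrime q) (hB : BaseFacts q A K) :
    ChartFacts M A K (chart M A K (jK M K)) (jK M K) := by
  have : Fact q.Prime := ⟨hq⟩
  exact (ModelAll.modelStatement M q hqM A hA K hB).c0

/-- **The two-valuation setting** (helper68's `TwoVal.Setting`) at level `M q`, over the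
level-`M` chart. -/
theorem setting (hA : A.LiesOverPrime q) (hB : BaseFacts q A K)
    (hdvr : IsDiscreteValuationRing (OK A K)) {π : OK A K} (hπ : Irreducible π) :
    TwoVal.Setting (R := ↥(chart M A K (jK M K))) (F := ↥(FK M K)) (E := ↥(FK (M * q) K))
      (algebraMap (OK A K) ↥(chart M A K (jK M K)) π) q
      (GaussV.V1 (M * q) A K hdvr).valuation
      (GaussV.V2 (WK.wK M q hq hqM K) hdvr).valuation
      (xE M q hq hqM K) (yE M q hq hqM K) (bE M q hq hqM K) := by
  have : Fact q.Prime := ⟨hq⟩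
  have hG := GRel.gRelStatement A
  have hC := chartFacts M q hq hqM A K hA hB
  obtain ⟨ρ, hρ, hker, -⟩ := hC.red
  have := hdvr
  have hspan : piIdeal M A K (chart M A K (jK M K))
      = Ideal.span {algebraMap (OK A K) ↥(chart M A K (jK M K)) π} :=
    Nor.piIdeal_eq_span _ hπ
  -- `π ∣ r` from `ρ r = 0`
  have hdvd : ∀ r : ↥(chart M A K (jK M K)), ρ r = 0 →
      algebraMap (OK A K) ↥(chart M A K (jK M K)) π ∣ r := by
    intro r hr
    have hmem : r ∈ RingHom.ker ρ := hr
    rw [hker, hspan] at hmem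
    exact Ideal.mem_span_singleton.mp hmem
  have hρπ : ρ (algebraMap (OK A K) ↥(chart M A K (jK M K)) π) = 0 := by
    have hmem : algebraMap (OK A K) ↥(chart M A K (jK M K)) π ∈ RingHom.ker ρ := by
      rw [hker, hspan]
      exact Ideal.mem_span_singleton_self _
    exact hmem
  -- the two reductions of the elements of `R_M`
  have h1 : ∀ r : ↥(chart M A K (jK M K)),
      GRel A ((algebraMap ↥(chart M A K (jK M K)) ↥(FK (M * q) K) r : FK (M * q) K) :
        LaurentSeries Qb) (ρ r) := by
    intro r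
    rw [coe_algebraMap_RE]
    exact hρ r
  have h2 : ∀ r : ↥(chart M A K (jK M K)),
      GRel A ((WK.wK M q hq hqM K
        (algebraMap ↥(chart M A K (jK M K)) ↥(FK (M * q) K) r) : FK (M * q) K) :
          LaurentSeries Qb) (qExpand (IsLocalRing.ResidueField A) q (ρ r)) := by
    intro r
    rw [algebraMap_RE, WK.wK_alphaK, WK.coe_betaK]
    exact V12Rel.gRel_qExpand A q (hρ r)
  have hx1 : (GaussV.V1 (M * q) A K hdvr).valuation (xE M q hq hqM K) < 1 :=
    val1_lt_of_gRel_zero hdvr (by rw [coe_xE]; exact V12Rel.kronecker A q hA)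
  have hy1 : (GaussV.V1 (M * q) A K hdvr).valuation (yE M q hq hqM K) = 1 :=
    val1_eq_one_of_gRel hdvr (by rw [coe_yE]; exact V12Rel.gRel_wit A q)
      (V12Rel.wit_ne_zero A q hA)
  exact
    { inj := fun a b h => Subtype.ext h
      frac := by
        intro c
        obtain ⟨a, ha, b, hb, hb0, hab⟩ := hC.frac c
        exact ⟨⟨a, ha⟩, ⟨b, hb⟩, fun h => hb0 (congrArg Subtype.val h), hab⟩
      prime := by
        have hne : algebraMap (OK A K) ↥(chart M A K (jK M K)) π ≠ 0 := fun h0 =>
          GaussV.algebraMap_ne_zero M A K hπ.ne_zero (congrArg Subtype.val h0)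
        exact (Ideal.span_singleton_prime hne).mp (Nor.isPrime_span hC hπ)
      sep := by
        intro r hr
        by_contra hall
        push Not at hall
        have : IsNoetherianRing ↥(chart M A K (jK M K)) := Nor.isNoetherianRing_chart hdvr hC
        have hne : Ideal.span {algebraMap (OK A K) ↥(chart M A K (jK M K)) π} ≠ ⊤ :=
          (Nor.isPrime_span hC hπ).ne_top
        have hmem : r ∈ ⨅ i : ℕ,
            Ideal.span {algebraMap (OK A K) ↥(chart M A K (jK M K)) π} ^ i := by
          rw [Ideal.mem_iInf]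
          intro i
          rw [Ideal.span_singleton_pow, Ideal.mem_span_singleton]
          exact hall i
        rw [Ideal.iInf_pow_eq_bot_of_isDomain _ hne] at hmem
        exact hr hmem
      le₁ := fun r => val1_le_of_gRel hdvr (h1 r)
      le₂ := fun r => (val_comap_le_one_iff (GaussV.V1 (M * q) A K hdvr)
        (WK.wK M q hq hqM K) _).mpr (val1_le_of_gRel hdvr (h2 r))
      lt₁ := val1_lt_of_gRel_zero hdvr (hρπ ▸ h1 _)
      lt₂ := (val_comap_lt_one_iff (GaussV.V1 (M * q) A K hdvr)
        (WK.wK M q hq hqM K) _).mpr (val1_lt_of_gRel_zero hdvr (by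
          have h := h2 (algebraMap (OK A K) ↥(chart M A K (jK M K)) π)
          rwa [hρπ, map_zero] at h))
      dvd₁ := fun r hr => hdvd r (hG.unique _ _ _ (h1 r) (gRel_zero_of_val1_lt hdvr hr))
      dvd₂ := by
        intro r hr
        have hr' := (val_comap_lt_one_iff (GaussV.V1 (M * q) A K hdvr)
          (WK.wK M q hq hqM K) _).mp hr
        have h0 := hG.unique _ _ _ (h2 r) (gRel_zero_of_val1_lt hdvr hr')
        exact hdvd r (qExpand_injective q (by rw [h0, map_zero]))
      hx₁ := hx1
      hx₂ := (val_comap_eq_one_iff (GaussV.V1 (M * q) A K hdvr)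
        (WK.wK M q hq hqM K) _).mpr (by rw [wK_xE]; exact hy1)
      hy₁ := hy1
      hy₂ := (val_comap_lt_one_iff (GaussV.V1 (M * q) A K hdvr)
        (WK.wK M q hq hqM K) _).mpr (by rw [wK_yE]; exact hx1)
      hb₁ := fun i => val1_le_of_gRel hdvr
        (y := qExpand (IsLocalRing.ResidueField A) q (jqModC (IsLocalRing.ResidueField A)) ^ (i : ℕ))
        (by
          rw [bE, SubmonoidClass.coe_pow, coe_jqK]
          exact V12Rel.gRel_pow A (V12Rel.gRel_jd A q) i)
      hb₂ := fun i => (val_comap_le_one_iff (GaussV.V1 (M * q) A K hdvr)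
        (WK.wK M q hq hqM K) _).mpr (val1_le_of_gRel hdvr
          (y := jqModC (IsLocalRing.ResidueField A) ^ (i : ℕ))
          (by
            rw [bE, map_pow, WK.wK_jqK, SubmonoidClass.coe_pow, ModelQFrac.coe_jK]
            exact V12Rel.gRel_pow A (V12Rel.gRel_j A) i))
      ind := by
        intro c hc
        have hc' := (val_comap_lt_one_iff (GaussV.V1 (M * q) A K hdvr)
          (WK.wK M q hq hqM K) _).mp hc
        have hg0 := gRel_zero_of_val1_lt hdvr hc'
        have hcoe : ((WK.wK M q hq hqM K (∑ i : Fin q,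
            algebraMap ↥(chart M A K (jK M K)) ↥(FK (M * q) K) (c i) * bE M q hq hqM K i) :
              FK (M * q) K) : LaurentSeries Qb)
            = ∑ i : Fin q, qExpand Qb q (((c i : FK M K)) : LaurentSeries Qb) *
                jqModC Qb ^ (i : ℕ) := by
          rw [map_sum, AddSubmonoidClass.coe_finsetSum]
          refine Finset.sum_congr rfl fun i _ => ?_
          rw [map_mul, algebraMap_RE, WK.wK_alphaK, bE, map_pow, WK.wK_jqK, Subfield.coe_mul,
            SubmonoidClass.coe_pow, WK.coe_betaK, ModelQFrac.coe_jK]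
        rw [hcoe] at hg0
        have hg1 : GRel A (∑ i : Fin q, qExpand Qb q (((c i : FK M K)) : LaurentSeries Qb) *
              jqModC Qb ^ (i : ℕ))
            (∑ i : Fin q, qExpand (IsLocalRing.ResidueField A) q (ρ (c i)) *
              jqModC (IsLocalRing.ResidueField A) ^ (i : ℕ)) :=
          gRel_sum _ _ _ fun i _ => hG.mul _ _ _ _ (V12Rel.gRel_qExpand A q (hρ (c i)))
            (V12Rel.gRel_pow A (V12Rel.gRel_j A) i)
        have hsum := hG.unique _ _ _ hg1 hg0
        have hzero := Red2Alg.eq_zero_of_sum_mul_pow_eq_zero q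
          (jqModC (IsLocalRing.ResidueField A)) (SepDeg.order_jqModC _)
          (fun i => qExpand (IsLocalRing.ResidueField A) q (ρ (c i)))
          (fun i n hn => by
            by_contra hdiv
            exact hn (qExpand_coeff_of_not_dvd q _ hdiv)) hsum
        intro i
        exact hdvd (c i) (qExpand_injective q (by rw [hzero i, map_zero]))
      fin := DegTower.finiteDimensional M (M * q) K (Dvd.intro q rfl)
      deg := le_of_eq (DegTower.finrank_of_prime M (M * q) K hq hqM rfl) }

/-- Elements of `O[j]` (level `M q`) are integral over the level-`M` chart. -/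
theorem isIntegral_of_mem_adjoin (hC : ChartFacts M A K (chart M A K (jK M K)) (jK M K))
    (s : Algebra.adjoin (OK A K) {jK (M * q) K}) :
    IsIntegral ↥(chart M A K (jK M K))
      (algebraMap (Algebra.adjoin (OK A K) {jK (M * q) K}) ↥(FK (M * q) K) s) := by
  obtain ⟨s, hs⟩ := s
  show IsIntegral ↥(chart M A K (jK M K)) s
  induction hs using Algebra.adjoin_induction with
  | mem y hy =>
    rw [Set.mem_singleton_iff] at hy
    rw [hy]
    have e : jK (M * q) K
        = algebraMap ↥(chart M A K (jK M K)) ↥(FK (M * q) K) ⟨jK M K, hC.t_mem⟩ := by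
      rw [algebraMap_RE, WK.alphaK_jK]
    rw [e]
    exact isIntegral_algebraMap
  | algebraMap c =>
    rw [← algebraMap_RE_algebraMap M q A K c]
    exact isIntegral_algebraMap
  | add y z _ _ hy hz => exact hy.add hz
  | mul y z _ _ hy hz => exact hy.mul hz

/-- **[Red2]** reduced special fibre of the chart `j ≠ ∞` at level `M q`:
`z ∈ V1 ∩ V2`, `π z ∈ chart (M q) j` imply `z ∈ chart (M q) j`. -/
theorem desc (hA : A.LiesOverPrime q) (hB : BaseFacts q A K)
    (hdvr : IsDiscreteValuationRing (OK A K)) {π : OK A K} (hπ : Irreducible π) :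
    ∀ z ∈ GaussV.V12 (WK.wK M q hq hqM K) hdvr,
      algebraMap (OK A K) (FK (M * q) K) π * z ∈ chart (M * q) A K (jK (M * q) K) →
      z ∈ chart (M * q) A K (jK (M * q) K) := by
  intro z hz hπz
  have S := setting M q hq hqM A K hA hB hdvr hπ
  have hC := chartFacts M q hq hqM A K hA hB
  have hOR := isIntegral_of_mem_adjoin M q A K hC
  have hRO : ∀ r : ↥(chart M A K (jK M K)),
      IsIntegral (Algebra.adjoin (OK A K) {jK (M * q) K})
        (algebraMap ↥(chart M A K (jK M K)) ↥(FK (M * q) K) r) := by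
    intro r
    rw [algebraMap_RE]
    exact (mem_chart_iff (M * q) A K).mp (WK.alphaK_mem_chart_jK M q A K r.2)
  have hjq : IsIntegral ↥(chart M A K (jK M K)) (WK.jqK M q hq hqM K) :=
    isIntegral_of_forall hOR (WK.isIntegral_jqK M q hq hqM A K)
  have hj : IsIntegral ↥(chart M A K (jK M K)) (jK (M * q) K) := by
    have e : jK (M * q) K
        = algebraMap ↥(chart M A K (jK M K)) ↥(FK (M * q) K) ⟨jK M K, hC.t_mem⟩ := by
      rw [algebraMap_RE, WK.alphaK_jK]
    rw [e]
    exact isIntegral_algebraMap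
  have hx : IsIntegral ↥(chart M A K (jK M K)) (xE M q hq hqM K) := hjq.sub (hj.pow q)
  have hy : IsIntegral ↥(chart M A K (jK M K)) (yE M q hq hqM K) := hj.sub (hjq.pow q)
  have hb : ∀ i, IsIntegral ↥(chart M A K (jK M K)) (bE M q hq hqM K i) := fun i => hjq.pow _
  have hz12 := (GaussV.mem_V12_iff (WK.wK M q hq hqM K) hdvr).mp hz
  have hz1 : (GaussV.V1 (M * q) A K hdvr).valuation z ≤ 1 :=
    (ValuationSubring.valuation_le_one_iff _ z).mpr hz12.1
  have hz2 : (GaussV.V2 (WK.wK M q hq hqM K) hdvr).valuation z ≤ 1 :=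
    (ValuationSubring.valuation_le_one_iff _ z).mpr
      ((GaussV.mem_V2_iff (WK.wK M q hq hqM K) hdvr).mpr hz12.2)
  have hπz' : IsIntegral ↥(chart M A K (jK M K))
      (algebraMap ↥(chart M A K (jK M K)) ↥(FK (M * q) K)
        (algebraMap (OK A K) ↥(chart M A K (jK M K)) π) * z) := by
    rw [algebraMap_RE_algebraMap]
    exact isIntegral_of_forall hOR ((mem_chart_iff (M * q) A K).mp hπz)
  have h := S.isIntegral_of_pi_mul (fun c hc => ⟨⟨c, hC.closed c hc⟩, rfl⟩) hx hy hb hz1 hz2 hπz'
  exact (mem_chart_iff (M * q) A K).mpr (isIntegral_of_forall hRO h)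

end Level

end Fermat.Agent.S34.Red2B
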