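/-
S34 block [Model2], row [Red2], CLOSED FORM on the symmetric charts (A-owner helper43; captain
helper85 #2561, architect helper5 Ruling #1 (b),(c)).

Level `M q` (`q` prime, `q ∤ M`), `A` a valuation ring of `ℚ̄` over `q`, `K` with `BaseFacts`,
`J = j · j_q` (`WKInst.JK = V12.JK = JFacts.J … wK`), `V12 = V1 ⊓ V2` the two Gauss valuation
rings (`V2 = V1.comap w_q`):

* `descJ`     : `chart(J) ∩ π V12 = π chart(J)`       (`Red2.desc0` + `chart(J) = chart(j)`);
* `descJInv`  : `chart(J⁻¹) ∩ π V12 = π chart(J⁻¹)`   (`RegInf.descInf_of_desc0'` + gluing);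
* `chartHyp_J`, `chartHyp_JInv`         : `LocPlan.ChartHyp` in the vocabulary of `S34/V12`;
* `chartHypInst_J`, `chartHypInst_JInv` : `LocPlan.ChartHyp` in the vocabulary of
  `S34/ChartHypInst`.
-/
import Mathlib
import Fermat.Agent.S34.Red2
import Fermat.Agent.S34.WKInst
import Fermat.Agent.S34.V12
import Fermat.Agent.S34.JFactsWK
import Fermat.Agent.S34.ChartHypInst
import Fermat.Agent.S34.RegInf

set_option autoImplicit false

namespace Fermat.Agent.S34.Red2J

open ModularCurve HahnSeries Fermat.Agent.S18.Arith Fermat.Agent.S34.GaussV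

variable (M q : ℕ) [NeZero M] [NeZero q] (hq : q.Prime) (hqM : ¬ q ∣ M)
variable {A : ValuationSubring Qb} {K : IntermediateField ℚ Qb}

/-- **[Red2] `desc0` on the symmetric chart**: `chart(J) ∩ π (V1 ⊓ V2) = π chart(J)`. -/
theorem descJ (hA : A.LiesOverPrime q) (hB : BaseFacts q A K) {π : OK A K} (hπ : Irreducible π) :
    ∀ z ∈ V12 (WK.wK M q hq hqM K) hB.dvr,
      algebraMap (OK A K) (FK (M * q) K) π * z ∈ chart (M * q) A K (WKInst.JK M q hq hqM K) →
      z ∈ chart (M * q) A K (WKInst.JK M q hq hqM K) := by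
  rw [WKInst.chart_JK_eq M q hq hqM A K]
  exact Red2.desc0 M q hq hqM hA hB hπ

/-- **[Red2] `descInf` on the symmetric chart**: `chart(J⁻¹) ∩ π (V1 ⊓ V2) = π chart(J⁻¹)`. -/
theorem descJInv (hA : A.LiesOverPrime q) (hB : BaseFacts q A K) {π : OK A K}
    (hπ : Irreducible π) :
    ∀ z ∈ V12 (WK.wK M q hq hqM K) hB.dvr,
      algebraMap (OK A K) (FK (M * q) K) π * z ∈ chart (M * q) A K (WKInst.JK M q hq hqM K)⁻¹ →
      z ∈ chart (M * q) A K (WKInst.JK M q hq hqM K)⁻¹ := by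
  have hdvr := hB.dvr
  have hS := JFactsWK.symFactsK M q hq hqM (A := A) (K := K) hB.dvr
  have hJ : JFacts.J (M * q) K (WK.wK M q hq hqM K) = WKInst.JK M q hq hqM K :=
    JFactsWK.J_eq_JK M q hq hqM K
  have htr : Transcendental (OK A K) (WKInst.JK M q hq hqM K) := hJ ▸ hS.c0.transc
  have hmem : WKInst.JK M q hq hqM K ∈ V12 (WK.wK M q hq hqM K) hB.dvr := hJ ▸ hS.c0.mem_V12
  have hJ0 : WKInst.JK M q hq hqM K ≠ 0 := WKInst.JK_ne_zero M q hq hqM K
  exact RegInf.descInf_of_desc0' hπ.prime htr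
    (chart (M * q) A K (WKInst.JK M q hq hqM K)) (chart (M * q) A K (WKInst.JK M q hq hqM K)⁻¹)
    (V12 (WK.wK M q hq hqM K) hB.dvr) (fun x => Iff.rfl) hmem
    (fun x hx => ChartJ.glue (M * q) A K hJ0 hx) (fun x hx => ChartJ.glue' (M * q) A K hJ0 hx)
    (descJ M q hq hqM hA hB hπ)

/-- `LocPlan.ChartHyp` for the symmetric chart `chart(J)` (vocabulary of `S34/V12`). -/
theorem chartHyp_J (hA : A.LiesOverPrime q) (hB : BaseFacts q A K) {π : OK A K}
    (hπ : Irreducible π) :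
    LocPlan.ChartHyp (O := OK A K) (R := chart (M * q) A K (V12.JK M q hq hqM K))
      (E := FK (M * q) K) π (V12.VK M q hq hqM A K hB.dvr)
      (V12.PK M q hq hqM A K hB.dvr (chart (M * q) A K (V12.JK M q hq hqM K))
        (V12.chart_JK_le M q hq hqM A K hB.dvr)) :=
  V12.chartHypK M q hq hqM A K hB.dvr _ _ hπ
    (V12.red_of_desc M q hq hqM A K hB.dvr _ _ hπ (descJ M q hq hqM hA hB hπ))

/-- `LocPlan.ChartHyp` for the symmetric chart at infinity `chart(J⁻¹)` (vocabulary of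
`S34/V12`). -/
theorem chartHyp_JInv (hA : A.LiesOverPrime q) (hB : BaseFacts q A K) {π : OK A K}
    (hπ : Irreducible π) :
    LocPlan.ChartHyp (O := OK A K) (R := chart (M * q) A K (V12.JK M q hq hqM K)⁻¹)
      (E := FK (M * q) K) π (V12.VK M q hq hqM A K hB.dvr)
      (V12.PK M q hq hqM A K hB.dvr (chart (M * q) A K (V12.JK M q hq hqM K)⁻¹)
        (V12.chart_JK_inv_le M q hq hqM A K hB.dvr)) :=
  V12.chartHypK M q hq hqM A K hB.dvr _ _ hπ
    (V12.red_of_desc M q hq hqM A K hB.dvr _ _ hπ (descJInv M q hq hqM hA hB hπ))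

/-- `LocPlan.ChartHyp` for the symmetric chart `chart(J)` (vocabulary of `S34/ChartHypInst`). -/
theorem chartHypInst_J (hA : A.LiesOverPrime q) (hB : BaseFacts q A K) {π : OK A K}
    (hπ : Irreducible π) :
    LocPlan.ChartHyp (O := OK A K) (R := chart (M * q) A K (WKInst.JK M q hq hqM K))
      (E := FK (M * q) K) π (ChartHypInst.Vfam (WK.wK M q hq hqM K) hB.dvr)
      (ChartHypInst.Pfam (WK.wK M q hq hqM K) hB.dvr π
        (chart (M * q) A K (WKInst.JK M q hq hqM K))) :=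
  ChartHypInst.chartHyp (WK.wK M q hq hqM K) hB.dvr (WK.wK_algebraMap_OK M q hq hqM K A) hπ
    (V12.chart_JK_le M q hq hqM A K hB.dvr) (descJ M q hq hqM hA hB hπ)

/-- `LocPlan.ChartHyp` for the symmetric chart at infinity `chart(J⁻¹)` (vocabulary of
`S34/ChartHypInst`). -/
theorem chartHypInst_JInv (hA : A.LiesOverPrime q) (hB : BaseFacts q A K) {π : OK A K}
    (hπ : Irreducible π) :
    LocPlan.ChartHyp (O := OK A K) (R := chart (M * q) A K (WKInst.JK M q hq hqM K)⁻¹)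
      (E := FK (M * q) K) π (ChartHypInst.Vfam (WK.wK M q hq hqM K) hB.dvr)
      (ChartHypInst.Pfam (WK.wK M q hq hqM K) hB.dvr π
        (chart (M * q) A K (WKInst.JK M q hq hqM K)⁻¹)) :=
  ChartHypInst.chartHyp (WK.wK M q hq hqM K) hB.dvr (WK.wK_algebraMap_OK M q hq hqM K A) hπ
    (V12.chart_JK_inv_le M q hq hqM A K hB.dvr) (descJInv M q hq hqM hA hB hπ)

end Fermat.Agent.S34.Red2J
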