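/-
S34 (spare; outside every credited closure) — SigmaCoe.lean (helper80).
Row [SigmaCoe] of the [Model2] deal (architect helper5): the plumbing fields of
`ModelPlan2.Model2` (captain helper85), at ANY level `N` and for ANY `τ`-stable base field `K`.

* `toBar_tauE`        : `toBar (tauE hK x) = gal N τ • toBar x`  — the fields `σ_coe`, `σ'_coe`
                        for `σ := TauAct.tauE N hK` (helper94), pointwise;
* `sigma_coe`         : the same, in the exact `∀ x` shape of the fields;
* `liftFK`, `toBar_liftFK`, `coe_liftFK`, `exists_fK`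
                      : the fields `fK`, `fK_coe` from `(f : LaurentSeries Qb) ∈ FK N K`;
* `liftFK_ne_zero`    : `f ≠ 0 → liftFK f ≠ 0`;
* `isUnit_natCast_OK` : the field `hm` (`m` prime to `q` is a unit of `O = A ∩ K`), with `q.Prime`
                        as an explicit hypothesis (no `Fact`);
* `toBar_secondDiff`, `coe_secondDiff`
                      : `LocPlan.secondDiff σ σ' fK` (the `w` of `AbsTop.setting`) is
                        `UPlan.sdFun N τ τ' f` (the `w` required by `UPlan.CoreStatement`), from the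
                        three `_coe` fields alone;
* `toBar_secondDiff_tauE`, `coe_secondDiff_tauE`
                      : the same for `σ := tauE hK`, `σ' := tauE hK'`, `fK := liftFK f hf`.
-/
import Mathlib
import Fermat.Agent.S34.ModelPlan2
import Fermat.Agent.S34.TauAct
import Fermat.Agent.S18.ChartBase

set_option autoImplicit false

open ModularCurve AlgebraicCurve HahnSeries

namespace Fermat.Agent.S34.SigmaCoe

open Fermat.Agent.S18.Arith

noncomputable section

set_option synthInstance.maxHeartbeats 400000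

/-! ### `σ_coe`, `σ'_coe` -/

section Sigma

variable (N : ℕ) {K : IntermediateField ℚ Qb}

/-- **`σ_coe`, pointwise**: the automorphism `tauE hK` of `F_K` induced by `τ` is the restriction
of the coefficientwise Galois action of `τ` on `F̄_N`. -/
theorem toBar_tauE {τ : Qb ≃ₐ[ℚ] Qb} (hK : TauAct.Stable K τ) (x : FK N K) :
    Fermat.Agent.S18.Glob.toBar N K (TauAct.tauE N hK x) =
      UPlan.gal N τ • Fermat.Agent.S18.Glob.toBar N K x :=
  Subtype.ext rfl

/-- **`σ_coe` / `σ'_coe`** in the exact shape of the fields of `ModelPlan2.Model2`. -/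
theorem sigma_coe {τ : Qb ≃ₐ[ℚ] Qb} (hK : TauAct.Stable K τ) :
    ∀ x : FK N K, Fermat.Agent.S18.Glob.toBar N K (TauAct.tauE N hK x) =
      UPlan.gal N τ • Fermat.Agent.S18.Glob.toBar N K x :=
  fun x => toBar_tauE N hK x

/-- The same for the inverse. -/
theorem toBar_tauE_symm {τ : Qb ≃ₐ[ℚ] Qb} (hK : TauAct.Stable K τ) (x : FK N K) :
    Fermat.Agent.S18.Glob.toBar N K ((TauAct.tauE N hK).symm x) =
      UPlan.gal N τ.symm • Fermat.Agent.S18.Glob.toBar N K x :=
  Subtype.ext rfl

end Sigma

/-! ### `fK`, `fK_coe` -/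

section Lift

variable (N : ℕ) {K : IntermediateField ℚ Qb}

/-- **`fK`**: a function of `F̄_N` whose `q`-expansion lies in `F_K`, as an element of `F_K`. -/
def liftFK (f : modularFunctionFieldBar N) (hf : (f : LaurentSeries Qb) ∈ FK N K) : FK N K :=
  ⟨(f : LaurentSeries Qb), hf⟩

theorem coe_liftFK (f : modularFunctionFieldBar N) (hf : (f : LaurentSeries Qb) ∈ FK N K) :
    ((liftFK N f hf : FK N K) : LaurentSeries Qb) = (f : LaurentSeries Qb) := rfl

/-- **`fK_coe`**. -/
theorem toBar_liftFK (f : modularFunctionFieldBar N) (hf : (f : LaurentSeries Qb) ∈ FK N K) :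
    Fermat.Agent.S18.Glob.toBar N K (liftFK N f hf) = f :=
  Subtype.ext rfl

/-- `fK` and `fK_coe` together. -/
theorem exists_fK (f : modularFunctionFieldBar N) (hf : (f : LaurentSeries Qb) ∈ FK N K) :
    ∃ fK : FK N K, Fermat.Agent.S18.Glob.toBar N K fK = f :=
  ⟨liftFK N f hf, toBar_liftFK N f hf⟩

theorem liftFK_ne_zero {f : modularFunctionFieldBar N} (hf : (f : LaurentSeries Qb) ∈ FK N K)
    (hf0 : f ≠ 0) : liftFK N f hf ≠ 0 := by
  intro h
  apply hf0
  apply Subtype.ext
  have h2 := congrArg (fun z : FK N K => (z : LaurentSeries Qb)) h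
  exact h2

/-- Any `fK` with `toBar fK = f ≠ 0` is nonzero. -/
theorem ne_zero_of_toBar {f : modularFunctionFieldBar N} {fK : FK N K}
    (hfK : Fermat.Agent.S18.Glob.toBar N K fK = f) (hf0 : f ≠ 0) : fK ≠ 0 := by
  rintro rfl
  apply hf0
  rw [← hfK, map_zero]

end Lift

/-! ### `hm` -/

/-- **`hm`**: integers prime to `q` are units of `O = A ∩ K` when `A` lies over `q`. -/
theorem isUnit_natCast_OK {q : ℕ} (hq : q.Prime) (A : ValuationSubring Qb)
    (hA : A.LiesOverPrime q) (K : IntermediateField ℚ Qb) {m : ℕ} (hm : ¬ q ∣ m) :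
    IsUnit ((m : ℕ) : OK A K) :=
  haveI : Fact q.Prime := ⟨hq⟩
  Fermat.Agent.S18.ChartBase.isUnit_natCast_OK q A K hA m hm

/-! ### The second difference -/

section SecondDiff

variable (N : ℕ) {K : IntermediateField ℚ Qb}

/-- **Bridge for `w`**: the abstract second difference `LocPlan.secondDiff σ σ' fK` (the `w` of
the setting built by the abstract block) is `UPlan.sdFun N τ τ' f` (the `w` demanded by
`UPlan.CoreStatement`), using only the three `_coe` fields of `ModelPlan2.Model2`. -/
theorem toBar_secondDiff {τ τ' : Qb ≃ₐ[ℚ] Qb} {f : modularFunctionFieldBar N}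
    {σ σ' : FK N K ≃+* FK N K} {fK : FK N K}
    (hfK : Fermat.Agent.S18.Glob.toBar N K fK = f)
    (hσ : ∀ x : FK N K, Fermat.Agent.S18.Glob.toBar N K (σ x) =
      UPlan.gal N τ • Fermat.Agent.S18.Glob.toBar N K x)
    (hσ' : ∀ x : FK N K, Fermat.Agent.S18.Glob.toBar N K (σ' x) =
      UPlan.gal N τ' • Fermat.Agent.S18.Glob.toBar N K x) :
    Fermat.Agent.S18.Glob.toBar N K (LocPlan.secondDiff σ σ' fK) = UPlan.sdFun N τ τ' f := by
  unfold LocPlan.secondDiff UPlan.sdFun
  rw [map_div₀, map_mul, map_mul, hσ', hσ, hσ', hfK,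
    mul_comm (UPlan.gal N τ • f) (UPlan.gal N τ' • f)]

/-- The same, as an equality of `q`-expansions (the exact shape of the last clause of
`UPlan.CoreStatement`). -/
theorem coe_secondDiff {τ τ' : Qb ≃ₐ[ℚ] Qb} {f : modularFunctionFieldBar N}
    {σ σ' : FK N K ≃+* FK N K} {fK : FK N K}
    (hfK : Fermat.Agent.S18.Glob.toBar N K fK = f)
    (hσ : ∀ x : FK N K, Fermat.Agent.S18.Glob.toBar N K (σ x) =
      UPlan.gal N τ • Fermat.Agent.S18.Glob.toBar N K x)
    (hσ' : ∀ x : FK N K, Fermat.Agent.S18.Glob.toBar N K (σ' x) =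
      UPlan.gal N τ' • Fermat.Agent.S18.Glob.toBar N K x) :
    ((LocPlan.secondDiff σ σ' fK : FK N K) : LaurentSeries Qb) =
      ((UPlan.sdFun N τ τ' f : modularFunctionFieldBar N) : LaurentSeries Qb) :=
  congrArg (fun z : modularFunctionFieldBar N => (z : LaurentSeries Qb))
    (toBar_secondDiff N hfK hσ hσ')

/-- The bridge for the concrete choice `σ := tauE hK`, `σ' := tauE hK'`, `fK := liftFK f hf`. -/
theorem toBar_secondDiff_tauE {τ τ' : Qb ≃ₐ[ℚ] Qb} (hK : TauAct.Stable K τ)
    (hK' : TauAct.Stable K τ') (f : modularFunctionFieldBar N)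
    (hf : (f : LaurentSeries Qb) ∈ FK N K) :
    Fermat.Agent.S18.Glob.toBar N K
        (LocPlan.secondDiff (TauAct.tauE N hK) (TauAct.tauE N hK') (liftFK N f hf)) =
      UPlan.sdFun N τ τ' f :=
  toBar_secondDiff N (toBar_liftFK N f hf) (sigma_coe N hK) (sigma_coe N hK')

theorem coe_secondDiff_tauE {τ τ' : Qb ≃ₐ[ℚ] Qb} (hK : TauAct.Stable K τ)
    (hK' : TauAct.Stable K τ') (f : modularFunctionFieldBar N)
    (hf : (f : LaurentSeries Qb) ∈ FK N K) :
    ((LocPlan.secondDiff (TauAct.tauE N hK) (TauAct.tauE N hK') (liftFK N f hf) : FK N K) :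
        LaurentSeries Qb) =
      ((UPlan.sdFun N τ τ' f : modularFunctionFieldBar N) : LaurentSeries Qb) :=
  coe_secondDiff N (toBar_liftFK N f hf) (sigma_coe N hK) (sigma_coe N hK')

end SecondDiff

end

end Fermat.Agent.S34.SigmaCoe
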