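import Mathlib
import Fermat.Agent.S34.NodeCut

/-!
# Node block (abstract, Mathlib-only): cut functions at a ONE-BRANCH closed point

The one-branch analogue of `NodeCut.ker_eq_span` / `NodeCut.cut`.  Setting: `O` a discrete
valuation ring with uniformiser `ϖ`; `(R, 𝔫)` a noetherian local `O`-algebra with `𝔫 = (ϖ, t)`
and `R = O + 𝔫` (structure `Gen1`: the special fibre is regular at `𝔫`, with parameter `t`).

* `ker_eq_span_singleton` : for every section `z : R →ₐ[O] O`, `ker z = (t - z t)` EXACTLY
  (Nakayama); no regularity / UFD argument.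
* `ker_le_of_mem` : `ker z` is contained in every ideal containing `t - z t`;
* `exists_mul_eq_of_mem_ker` : every element of `ker z` is a multiple of `t - z t`;
* `section_ext1` : a section is determined by its value at `t`.
-/

set_option autoImplicit false
set_option linter.unusedSectionVars false

namespace Fermat.Agent.S34.SmoothCut

open IsLocalRing Fermat.Agent.S34.NodeCut

variable {O : Type*} [CommRing O] [IsDomain O] [IsDiscreteValuationRing O]
variable {R : Type*} [CommRing R] [IsLocalRing R] [Algebra O R]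

/-- Generators at a one-branch point: `𝔫 = (ϖ, t)` and `R = O + 𝔫`. -/
structure Gen1 (ϖ : O) (t : R) : Prop where
  max_eq : maximalIdeal R = Ideal.span {algebraMap O R ϖ, t}
  res : ∀ r : R, ∃ c : O, r - algebraMap O R c ∈ maximalIdeal R

namespace Gen1

variable {ϖ : O} {t : R}

theorem pi_mem (G : Gen1 ϖ t) : algebraMap O R ϖ ∈ maximalIdeal R := by
  rw [G.max_eq]; exact Ideal.subset_span (by simp)

theorem t_mem (G : Gen1 ϖ t) : t ∈ maximalIdeal R := by
  rw [G.max_eq]; exact Ideal.subset_span (by simp)

/-- Every element is `c + ϖ r₁ + t r₂`. -/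
theorem decomp (G : Gen1 ϖ t) (r : R) :
    ∃ (c : O) (r₁ r₂ : R), r = algebraMap O R c + algebraMap O R ϖ * r₁ + t * r₂ := by
  obtain ⟨c, hc⟩ := G.res r
  rw [G.max_eq, Ideal.mem_span_pair] at hc
  obtain ⟨r₁, r₂, hr⟩ := hc
  refine ⟨c, r₁, r₂, ?_⟩
  linear_combination -hr

/-- A one-branch point is a (degenerate) two-generator point: `Gen ϖ t t`. -/
theorem toGen (G : Gen1 ϖ t) : Gen ϖ t t where
  max_eq := by
    rw [G.max_eq]
    congr 1
    ext x
    simp only [Set.mem_insert_iff, Set.mem_singleton_iff]
    tauto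
  res := G.res

end Gen1

/-- **One-branch cut.**  `ker z = (t - z t)`. -/
theorem ker_eq_span_singleton [IsNoetherianRing R] {ϖ : O} (hϖ : Irreducible ϖ) {t : R}
    (G : Gen1 ϖ t) (z : R →ₐ[O] O) :
    RingHom.ker (z : R →+* O) = Ideal.span {t - algebraMap O R (z t)} := by
  set J : Ideal R := Ideal.span {t - algebraMap O R (z t)} with hJ
  have hsub : ∀ r : R, r - algebraMap O R (z r) ∈ RingHom.ker (z : R →+* O) := by
    intro r; simp [RingHom.mem_ker]
  apply le_antisymm
  · -- Nakayama
    have hfg : (RingHom.ker (z : R →+* O)).FG := IsNoetherian.noetherian _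
    have hjac : Ideal.span {algebraMap O R ϖ} ≤ Ideal.jacobson (⊥ : Ideal R) := by
      rw [IsLocalRing.jacobson_eq_maximalIdeal ⊥ bot_ne_top, Ideal.span_le]
      intro x hx
      rw [Set.mem_singleton_iff] at hx
      rw [hx]; exact G.pi_mem
    refine Submodule.le_of_le_smul_of_le_jacobson_bot hfg hjac ?_
    intro r hr
    rw [RingHom.mem_ker] at hr
    obtain ⟨c, r₁, r₂, rfl⟩ := G.decomp r
    obtain ⟨u', hu'⟩ := dvd_map_of_mem hϖ z G.t_mem
    have hr' : c + ϖ * z r₁ + z t * z r₂ = 0 := by
      have := hr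
      simp only [AlgHom.coe_toRingHom, map_add, map_mul, AlgHom.commutes,
        Algebra.algebraMap_self, RingHom.id_apply] at this
      exact this
    have hc : algebraMap O R c = - (algebraMap O R ϖ * algebraMap O R (z r₁)
        + algebraMap O R (z t) * algebraMap O R (z r₂)) := by
      have := congrArg (algebraMap O R) hr'
      simp only [map_add, map_mul, map_zero] at this
      linear_combination this
    have hzt : algebraMap O R (z t) = algebraMap O R ϖ * algebraMap O R u' := by
      rw [hu', map_mul]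
    have key : algebraMap O R c + algebraMap O R ϖ * r₁ + t * r₂
        = (t - algebraMap O R (z t)) * r₂
          + algebraMap O R ϖ * ((r₁ - algebraMap O R (z r₁))
            + algebraMap O R u' * (r₂ - algebraMap O R (z r₂))) := by
      linear_combination hc + (r₂ - algebraMap O R (z r₂)) * hzt
    rw [key]
    refine Submodule.add_mem_sup ?_ ?_
    · exact Ideal.mul_mem_right _ _ (Ideal.subset_span rfl)
    · rw [smul_eq_mul]
      refine Ideal.mul_mem_mul (Ideal.subset_span rfl) ?_
      exact Ideal.add_mem _ (hsub r₁) (Ideal.mul_mem_left _ _ (hsub r₂))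
  · rw [hJ, Ideal.span_le]
    intro x hx
    rw [Set.mem_singleton_iff] at hx
    rw [hx]; exact hsub t

/-- **One-branch cut, prime form.**  `ker z` is contained in every ideal containing
`t - z t`. -/
theorem ker_le_of_mem [IsNoetherianRing R] {ϖ : O} (hϖ : Irreducible ϖ) {t : R}
    (G : Gen1 ϖ t) (z : R →ₐ[O] O) (𝔭 : Ideal R)
    (hmem : t - algebraMap O R (z t) ∈ 𝔭) : RingHom.ker (z : R →+* O) ≤ 𝔭 := by
  rw [ker_eq_span_singleton hϖ G z, Ideal.span_le]
  intro x hx
  rw [Set.mem_singleton_iff] at hx
  rw [hx]; exact hmem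

/-- **One-branch cut, element form.**  Every element vanishing at `z` is a multiple of
`t - z t`. -/
theorem exists_mul_eq_of_mem_ker [IsNoetherianRing R] {ϖ : O} (hϖ : Irreducible ϖ) {t : R}
    (G : Gen1 ϖ t) (z : R →ₐ[O] O) {x : R} (hx : z x = 0) :
    ∃ y : R, x = y * (t - algebraMap O R (z t)) := by
  have h : x ∈ RingHom.ker (z : R →+* O) := by
    rw [RingHom.mem_ker]; exact hx
  rw [ker_eq_span_singleton hϖ G z, Ideal.mem_span_singleton'] at h
  obtain ⟨y, hy⟩ := h
  exact ⟨y, hy.symm⟩

/-- A section through a one-branch point is determined by its value at `t`. -/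
theorem section_ext1 {ϖ : O} (hϖ : Irreducible ϖ) {t : R} (G : Gen1 ϖ t)
    (z z' : R →ₐ[O] O) (ht : z t = z' t) : z = z' :=
  section_ext hϖ G.toGen z z' ht ht

end Fermat.Agent.S34.SmoothCut
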