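/-
S34 — TauInst.lean (helper120), [MODULAR] block, row [TauInst] of helper5's Deal #2.

The `tau` / `tau'` fields of `ModelPlan2.ChartModel`, i.e. `LocPlan.TauHyp` on the TYPE of a
chart, for the coefficientwise action `σ := TauAct.tauE N hK` of an inertia element `τ`:

* GENERAL level `N` (no hypothesis on `N`), GENERAL ring automorphism `w` of `F_K = FK N K`
  fixing the constants of `O = A ∩ K` and commuting with `σ` (in the application `w` is the
  Atkin–Lehner involution `WK.wK`), GENERAL coordinate `t` fixed by `σ` (in the application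
  `t = J` or `t = J⁻¹`, `J = j · w j`);
* `V 0 = GaussV.V1` (Gauss valuation ring), `V 1 = GaussV.V2 w = V1.comap w`.

Main results:

* `tauE_sub_mem_V1`, `tauE_sub_mem_V2` : `σ x - x ∈ π (V i)` for `x ∈ V i` (inertia is trivial on
  the residue fields of both component valuations);
* `tauE_pi_V1`, `tauE_pi_V2`           : `σ π = π · u` with `u` a unit of `V i`;
* `tauHyp`                              : `LocPlan.TauHyp` for the chart `chart N A K t`;
* `tauHyp_inv`                          : the same for the chart `chart N A K t⁻¹`;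
* `toBar_tauE`                          : the action `σ` on `F_K` is the restriction of the
  arithmetic Galois action on `F̄` (the `σ_coe` / `σ'_coe` fields of `ModelPlan2.Model2`).

Everything is assembled from `S34/TauAct` (helper94), `S34/GaussV` (helper93) and the vocabulary
of `S34/LocPlan` (helper41).
-/
import Mathlib
import Fermat.Agent.S18.Glob
import Fermat.Agent.S34.LocPlan
import Fermat.Agent.S34.GaussV
import Fermat.Agent.S34.TauAct

set_option autoImplicit false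

noncomputable section

namespace Fermat.Agent.S34.TauInst

open ModularCurve HahnSeries AlgebraicCurve Fermat.Agent.S18.Arith
open Fermat.Agent.S34

/-! ### A generic lemma on valuation subrings -/

/-- If `σ` and `σ⁻¹` are both congruent to the identity modulo `ϖ V` on a valuation subring `V`
containing `ϖ ≠ 0`, then `σ ϖ = ϖ · u` with `u` a unit of `V`. -/
theorem exists_unit_of_triv {E : Type*} [Field E] (V : ValuationSubring E) (σ : E ≃+* E) {ϖ : E}
    (hϖ0 : ϖ ≠ 0) (hϖ : ϖ ∈ V)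
    (h : ∀ x ∈ V, ∃ y ∈ V, σ x - x = ϖ * y)
    (h' : ∀ x ∈ V, ∃ y ∈ V, σ.symm x - x = ϖ * y) :
    ∃ u ∈ V, u⁻¹ ∈ V ∧ σ ϖ = ϖ * u := by
  obtain ⟨z, hz, hσ⟩ := h ϖ hϖ
  obtain ⟨z', hz', hσ'⟩ := h' ϖ hϖ
  -- `σ` maps `V` into `V`
  have hmap : ∀ x ∈ V, σ x ∈ V := by
    intro x hx
    obtain ⟨y, hy, hxy⟩ := h x hx
    have : σ x = x + ϖ * y := by rw [← hxy]; ring
    rw [this]
    exact V.add_mem _ _ hx (V.mul_mem _ _ hϖ hy)
  have e1 : σ ϖ = ϖ * (1 + z) := by
    have : σ ϖ = ϖ + ϖ * z := by rw [← hσ]; ring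
    rw [this]; ring
  have e2 : σ.symm ϖ = ϖ * (1 + z') := by
    have : σ.symm ϖ = ϖ + ϖ * z' := by rw [← hσ']; ring
    rw [this]; ring
  -- apply `σ` to `e2`
  have e3 : ϖ = ϖ * ((1 + z) * σ (1 + z')) := by
    have h3 := congrArg σ e2
    rw [RingEquiv.apply_symm_apply, map_mul, e1] at h3
    exact h3.trans (mul_assoc _ _ _)
  have e4 : (1 + z) * σ (1 + z') = 1 := by
    have h4 : ϖ * ((1 + z) * σ (1 + z')) = ϖ * 1 := by rw [← e3, mul_one]
    exact mul_left_cancel₀ hϖ0 h4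
  refine ⟨1 + z, V.add_mem _ _ V.one_mem hz, ?_, e1⟩
  have e5 : (1 + z)⁻¹ = σ (1 + z') := inv_eq_of_mul_eq_one_right e4
  rw [e5]
  exact hmap _ (V.add_mem _ _ V.one_mem hz')

variable {N : ℕ} [NeZero N] {A : ValuationSubring Qb} {K : IntermediateField ℚ Qb}

/-! ### Inertia is trivial on the residue field of the Gauss valuation `V1` -/

omit [NeZero N] in
/-- The inverse of an inertia element is an inertia element. -/
theorem symm_mem_inertia {τ : TauAct.GQ} (hτ : τ ∈ A.inertiaSubgroupIn ℚ) :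
    τ.symm ∈ A.inertiaSubgroupIn ℚ :=
  inv_mem hτ

/-- `σ x - x ∈ π V1` for `x ∈ V1` (`σ` the coefficientwise action of an inertia element). -/
theorem tauE_sub_mem_V1 (hdvr : IsDiscreteValuationRing (OK A K)) {π : OK A K}
    (hπ : Irreducible π) {τ : TauAct.GQ} (hτ : τ ∈ A.inertiaSubgroupIn ℚ)
    (hK : TauAct.Stable K τ) (x : FK N K) (hx : x ∈ GaussV.V1 N A K hdvr) :
    ∃ y ∈ GaussV.V1 N A K hdvr,
      TauAct.tauE N hK x - x = algebraMap (OK A K) (FK N K) π * y := by
  obtain ⟨y, hy⟩ := (GaussV.mem_V1_iff hdvr).mp hx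
  have h0 : GRel A (((TauAct.tauE N hK x - x : FK N K) : FK N K) : LaurentSeries Qb) 0 :=
    TauAct.gRel_coeffMap_sub A hτ hy
  have hd : TauAct.tauE N hK x - x ∈ GaussV.V1 N A K hdvr := ⟨0, h0⟩
  have hred : GaussV.red1 hdvr ⟨TauAct.tauE N hK x - x, hd⟩ = 0 :=
    GaussV.red1_eq_of_gRel hdvr ⟨TauAct.tauE N hK x - x, hd⟩ h0
  exact (GaussV.red1_eq_zero_iff hdvr hπ ⟨TauAct.tauE N hK x - x, hd⟩).mp hred

/-! ### Transport to `V2 = V1.comap w` -/

section Transport

variable (w : FK N K ≃+* FK N K)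

omit [NeZero N] in
/-- `w⁻¹` fixes the constants if `w` does. -/
theorem symm_algebraMap
    (hw : ∀ c : OK A K, w (algebraMap (OK A K) (FK N K) c) = algebraMap (OK A K) (FK N K) c)
    (c : OK A K) : w.symm (algebraMap (OK A K) (FK N K) c) = algebraMap (OK A K) (FK N K) c := by
  rw [RingEquiv.symm_apply_eq, hw]

omit [NeZero N] in
/-- `w` commutes with `σ⁻¹` if it commutes with `σ`. -/
theorem comm_symm {τ : TauAct.GQ} (hK : TauAct.Stable K τ)
    (hcomm : ∀ x, w (TauAct.tauE N hK x) = TauAct.tauE N hK (w x)) (x : FK N K) :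
    w (TauAct.tauE N hK.symm x) = TauAct.tauE N hK.symm (w x) := by
  rw [← TauAct.tauE_symm_eq N hK, ← TauAct.tauE_symm_eq N hK, RingEquiv.eq_symm_apply, ← hcomm,
    RingEquiv.apply_symm_apply]

/-- `σ x - x ∈ π V2` for `x ∈ V2`. -/
theorem tauE_sub_mem_V2 (hdvr : IsDiscreteValuationRing (OK A K)) {π : OK A K}
    (hπ : Irreducible π)
    (hw : ∀ c : OK A K, w (algebraMap (OK A K) (FK N K) c) = algebraMap (OK A K) (FK N K) c)
    {τ : TauAct.GQ} (hτ : τ ∈ A.inertiaSubgroupIn ℚ) (hK : TauAct.Stable K τ)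
    (hcomm : ∀ x, w (TauAct.tauE N hK x) = TauAct.tauE N hK (w x))
    (x : FK N K) (hx : x ∈ GaussV.V2 w hdvr) :
    ∃ y ∈ GaussV.V2 w hdvr,
      TauAct.tauE N hK x - x = algebraMap (OK A K) (FK N K) π * y := by
  obtain ⟨z, hz, hxz⟩ := tauE_sub_mem_V1 hdvr hπ hτ hK (w x) ((GaussV.mem_V2_iff w hdvr).mp hx)
  refine ⟨w.symm z, ?_, ?_⟩
  · rw [GaussV.mem_V2_iff, RingEquiv.apply_symm_apply]
    exact hz
  · apply w.injective
    rw [map_sub, hcomm, hxz, map_mul, hw, RingEquiv.apply_symm_apply]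

end Transport

/-! ### `σ π = π · unit` -/

/-- `σ π = π · u` with `u` a unit of `V1`. -/
theorem tauE_pi_V1 (hdvr : IsDiscreteValuationRing (OK A K)) {π : OK A K}
    (hπ : Irreducible π) {τ : TauAct.GQ} (hτ : τ ∈ A.inertiaSubgroupIn ℚ)
    (hK : TauAct.Stable K τ) :
    ∃ u ∈ GaussV.V1 N A K hdvr, u⁻¹ ∈ GaussV.V1 N A K hdvr ∧
      TauAct.tauE N hK (algebraMap (OK A K) (FK N K) π) =
        algebraMap (OK A K) (FK N K) π * u :=
  exists_unit_of_triv (GaussV.V1 N A K hdvr) (TauAct.tauE N hK)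
    (GaussV.algebraMap_ne_zero N A K hπ.ne_zero) (GaussV.algebraMap_mem_V1 hdvr π)
    (fun x hx => tauE_sub_mem_V1 hdvr hπ hτ hK x hx)
    (fun x hx => tauE_sub_mem_V1 hdvr hπ (symm_mem_inertia hτ) hK.symm x hx)

/-- `σ π = π · u` with `u` a unit of `V2`. -/
theorem tauE_pi_V2 (hdvr : IsDiscreteValuationRing (OK A K)) {π : OK A K}
    (hπ : Irreducible π) (w : FK N K ≃+* FK N K)
    (hw : ∀ c : OK A K, w (algebraMap (OK A K) (FK N K) c) = algebraMap (OK A K) (FK N K) c)
    {τ : TauAct.GQ} (hτ : τ ∈ A.inertiaSubgroupIn ℚ) (hK : TauAct.Stable K τ)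
    (hcomm : ∀ x, w (TauAct.tauE N hK x) = TauAct.tauE N hK (w x)) :
    ∃ u ∈ GaussV.V2 w hdvr, u⁻¹ ∈ GaussV.V2 w hdvr ∧
      TauAct.tauE N hK (algebraMap (OK A K) (FK N K) π) =
        algebraMap (OK A K) (FK N K) π * u :=
  exists_unit_of_triv (GaussV.V2 w hdvr) (TauAct.tauE N hK)
    (GaussV.algebraMap_ne_zero N A K hπ.ne_zero) (GaussV.algebraMap_mem_V2 w hw hdvr π)
    (fun x hx => tauE_sub_mem_V2 w hdvr hπ hw hτ hK hcomm x hx)
    (fun x hx => tauE_sub_mem_V2 w hdvr hπ hw (symm_mem_inertia hτ) hK.symm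
      (comm_symm w hK hcomm) x hx)

/-! ### The chart -/

omit [NeZero N] in
/-- `σ⁻¹` fixes the coordinate if `σ` does. -/
theorem tauE_symm_coord {τ : TauAct.GQ} (hK : TauAct.Stable K τ) {t : FK N K}
    (ht : TauAct.tauE N hK t = t) : TauAct.tauE N hK.symm t = t := by
  rw [← TauAct.tauE_symm_eq N hK, RingEquiv.symm_apply_eq, ht]

omit [NeZero N] in
/-- `σ` fixes `t⁻¹` if it fixes `t`. -/
theorem tauE_inv_coord {τ : TauAct.GQ} (hK : TauAct.Stable K τ) {t : FK N K}
    (ht : TauAct.tauE N hK t = t) : TauAct.tauE N hK t⁻¹ = t⁻¹ := by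
  rw [map_inv₀, ht]

/-- **[TauInst]** `LocPlan.TauHyp` for the chart `chart N A K t`, the two component valuation
rings `V1`, `V2 = V1.comap w` and the coefficientwise action `σ = tauE` of an inertia element
`τ` which fixes the coordinate `t` and commutes with `w`. -/
theorem tauHyp (hdvr : IsDiscreteValuationRing (OK A K)) {π : OK A K} (hπ : Irreducible π)
    (w : FK N K ≃+* FK N K)
    (hw : ∀ c : OK A K, w (algebraMap (OK A K) (FK N K) c) = algebraMap (OK A K) (FK N K) c)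
    {τ : TauAct.GQ} (hτ : τ ∈ A.inertiaSubgroupIn ℚ) (hK : TauAct.Stable K τ)
    (hcomm : ∀ x, w (TauAct.tauE N hK x) = TauAct.tauE N hK (w x))
    (t : FK N K) (htau_t : TauAct.tauE N hK t = t) :
    LocPlan.TauHyp (R := ↥(chart N A K t)) π
      ![GaussV.V1 N A K hdvr, GaussV.V2 w hdvr] (TauAct.tauE N hK) where
  map_R r :=
    ⟨⟨TauAct.tauE N hK (r : FK N K),
        TauAct.tauE_mem_chart N A (TauAct.mem_decomp_of_mem_inertia A hτ) hK htau_t r.2⟩, rfl⟩
  symm_R r :=
    ⟨⟨TauAct.tauE N hK.symm (r : FK N K),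
        TauAct.tauE_mem_chart N A
          (TauAct.mem_decomp_of_mem_inertia A (symm_mem_inertia hτ)) hK.symm
          (tauE_symm_coord hK htau_t) r.2⟩, rfl⟩
  triv i := by
    fin_cases i
    · exact fun x hx => tauE_sub_mem_V1 hdvr hπ hτ hK x hx
    · exact fun x hx => tauE_sub_mem_V2 w hdvr hπ hw hτ hK hcomm x hx
  pi i := by
    fin_cases i
    · exact tauE_pi_V1 hdvr hπ hτ hK
    · exact tauE_pi_V2 hdvr hπ w hw hτ hK hcomm

/-- **[TauInst]** the same for the chart `chart N A K t⁻¹`. -/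
theorem tauHyp_inv (hdvr : IsDiscreteValuationRing (OK A K)) {π : OK A K} (hπ : Irreducible π)
    (w : FK N K ≃+* FK N K)
    (hw : ∀ c : OK A K, w (algebraMap (OK A K) (FK N K) c) = algebraMap (OK A K) (FK N K) c)
    {τ : TauAct.GQ} (hτ : τ ∈ A.inertiaSubgroupIn ℚ) (hK : TauAct.Stable K τ)
    (hcomm : ∀ x, w (TauAct.tauE N hK x) = TauAct.tauE N hK (w x))
    (t : FK N K) (htau_t : TauAct.tauE N hK t = t) :
    LocPlan.TauHyp (R := ↥(chart N A K t⁻¹)) π
      ![GaussV.V1 N A K hdvr, GaussV.V2 w hdvr] (TauAct.tauE N hK) :=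
  tauHyp hdvr hπ w hw hτ hK hcomm t⁻¹ (tauE_inv_coord hK htau_t)

/-! ### Compatibility with the arithmetic Galois action on `F̄` -/

omit [NeZero N] in
/-- The action `σ = tauE` on `F_K` is the restriction of the arithmetic Galois action of `τ` on
`F̄ = modularFunctionFieldBar N` (the `σ_coe` field of `ModelPlan2.Model2`). -/
theorem toBar_tauE {τ : TauAct.GQ} (hK : TauAct.Stable K τ) (x : FK N K) :
    Fermat.Agent.S18.Glob.toBar N K (TauAct.tauE N hK x) =
      arithmeticGalois (modularFunctionFieldFull N) τ • Fermat.Agent.S18.Glob.toBar N K x :=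
  Subtype.ext rfl

end Fermat.Agent.S34.TauInst
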