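/-
S34 — Top.lean (helper57).  The frozen S34 statement from the single geometric hypothesis
`UqStatement N p q` (unipotence of level two of inertia at `q` on the `p`-power torsion of
`J₀(N)`), with every other input taken from `origin/main`:

* the leaves [L2a], [L2b], [L5], [L6] of the S31 route,
* `S29.kStatement` at the torsion orders `p ^ n`,
* the Lucas identity for Frobenius powers (from the S37 core), roots of unity, and the
  Frobenius density statement.

Spare file: not used by any credited statement.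
-/
import Mathlib
import Fermat.Agent.S34.Plan
import Fermat.Agent.S31.TraceLevel
import Fermat.Agent.S31.ArtinRees
import Fermat.Agent.S31.FrobPow
import Fermat.Agent.S31.RootN
import Fermat.Agent.S31.HeckeCompareB
import Fermat.Agent.S29.KTop
import Fermat.Agent.S29.SpecCoreS37
import Fermat.Agent.S29.FDStmt

set_option autoImplicit false

open IsLocalRing

namespace Fermat.Agent.S34.Plan57

/-- The J-side statement of S34 from (U_q), all other inputs from `origin/main`. -/
theorem jSideStatement_of_uq (N p q : ℕ) [NeZero N] (hp : p.Prime) (hq : q.Prime) (hqp : q ≠ p)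
    (hU : UqStatement N p q) : JSideStatement N p q :=
  jSide_of_uq N p q hp hq hqp
    (fun n => Fermat.Agent.S29.kStatement N (p ^ n) (pow_ne_zero n hp.ne_zero))
    (Fermat.Agent.S31.FrobPow.frobPowStatement_of_specCore N p
      (Fermat.Agent.S29.specCoreStatement N p))
    (Fermat.Agent.S31.rootStatement p hp) Fermat.Agent.S29.FDStmt.fdStatement hU

/-- **S34 from (U_q)**: the frozen statement S34 (binders verbatim) under the extra hypothesis
`hU : UqStatement N p q`. -/
theorem result_of_uq
    {𝒪 : Type} [CommRing 𝒪] [IsDomain 𝒪] [IsDiscreteValuationRing 𝒪]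
    [IsAdicComplete (maximalIdeal 𝒪) 𝒪] [Finite (ResidueField 𝒪)] [CharZero 𝒪]
    {p : ℕ} (hp : p.Prime) (hp𝒪 : (p : 𝒪) ∈ maximalIdeal 𝒪)
    {N : ℕ} [NeZero N] {S : Finset ℕ} (_hpS : p ∈ S)
    (_hNS : ∀ q : ℕ, q.Prime → q ∣ N → q ∈ S)
    {θ : CuspForm.heckeAlgebra N 2 (↑S : Set ℕ) →+* ResidueField 𝒪}
    {T : Type} [CommRing T] [IsLocalRing T] [IsNoetherianRing T]
    [IsAdicComplete (maximalIdeal T) T] [Algebra 𝒪 T] [IsLocalHom (algebraMap 𝒪 T)]
    [Module.Finite 𝒪 T] [Module.Free 𝒪 T]
    (H : CuspForm.HeckeGaloisRepDatum N (↑S : Set ℕ) 𝒪 θ T)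
    (q : ℕ) (hq : q.Prime) (hqp : q ≠ p) (_hqN : q ∣ N) (_hq2 : ¬ q ^ 2 ∣ N)
    (hU : UqStatement N p q) :
    H.ρ.IsUnipotentOnInertiaAt q :=
  result_of_leaves Fermat.Agent.S31.traceContStatement Fermat.Agent.S31.lucasTraceStatement
    Fermat.Agent.S31.artinReesStatement
    (Fermat.Agent.S31.HeckeCompareB.heckeCompareStatement N (↑S : Set ℕ))
    (jSideStatement_of_uq N p q hp hq hqp hU) hp𝒪 H

end Fermat.Agent.S34.Plan57
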