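/-
S34 — TopUq.lean (helper81).  Top glue of the route "S34 from unipotent monodromy".
INDEPENDENT SPARE of the glue of record `S34/UGlue.lean` + `S34/UTop.lean` (helper122); everything
here lives in the namespace `Fermat.Agent.S34.TopUq`, so it never clashes with those files.

`UqStatement N p` is the statement **(U_q)**: for a prime `q ≠ p` exactly dividing `N`, every
element `τ` of an inertia group at `q` satisfies `(τ - 1)² = 0` on the `p`-power torsion of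
`J₀(N)`, in the form `τ x + τ⁻¹ x = 2 x`.

`result_of_uq`: the frozen statement S34 (`H.ρ.IsUnipotentOnInertiaAt q` for a Hecke–Galois datum
of level `N`, `q ≠ p`, `q ∥ N`) from `UqStatement N p`.  Every other input is on main
(S31 leaves [L2a], [L2b], [L5], [L6], Frobenius powers, roots of unity, `S29.kStatement`,
`S29.specCoreStatement`, Frobenius density).

Proof.  Let `τ` be in an inertia group at `q`.  For every depth `k`, Frobenius density on a
Galois-stable finite level gives `τ = σ^j` there, `σ` a Frobenius element at a prime `ℓ ∉ S`,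
`ℓ ∤ N p`.  As `τ` fixes the `p^n`-th roots of unity, `ℓ^j ≡ 1 mod p^n`; on `y = θ_n(u)`
the Lucas identity reads `τ y + τ⁻¹ y = V_j(T_ℓ, ℓ) y`, and (U_q) turns the left side into `2 y`.
Hence `V_j(T_ℓ, ℓ) - 2` maps `Lpar N` into `p^n Lpar N`; Artin–Rees and the comparison of the two
Hecke algebras give `tr ρ(σ^j) - 2 ∈ 𝔪^k`, and `det ρ(σ^j) = ℓ^j ≡ 1`.  By continuity and Krull's
intersection theorem `tr ρ(τ) = 2`, `det ρ(τ) = 1`, i.e. `charpoly ρ(τ) = (X - 1)²`.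
-/
import Mathlib
import Fermat.Prelude.Def_CuspForm_HeckeGaloisRepDatum
import Fermat.Prelude.Def_GaloisRep_LocalConditions
import Fermat.Agent.S31.Defs
import Fermat.Agent.S31.Plan
import Fermat.Agent.S31.TraceLevel
import Fermat.Agent.S31.ArtinRees
import Fermat.Agent.S31.FrobPow
import Fermat.Agent.S31.RootN
import Fermat.Agent.S31.HeckeCompareB
import Fermat.Agent.S31.JSideB
import Fermat.Agent.S29.KTop
import Fermat.Agent.S29.SpecCoreS37
import Fermat.Agent.S29.FDStmt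

set_option autoImplicit false

open ModularCurve CongruenceSubgroup Polynomial

namespace Fermat.Agent.S34.TopUq

noncomputable section

open Fermat.Agent.S29 (Qb GQ heckeLpar KStatement SpecCoreStatement FDStatement)
open Fermat.Agent.S29.Lucas (lucasV)
open Fermat.Agent.S41 (Lpar)
open Fermat.Agent.S31 (lucasPoly FrobPowStatement RootStatement TraceContStatement
  LucasTraceStatement ArtinReesStatement HeckeCompareStatement HIdx HPoly evL evC evL_single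
  evC_single)

/-- **(U_q)** Unipotent monodromy: for a prime `q ≠ p` exactly dividing `N`, inertia at `q`
satisfies `τ x + τ⁻¹ x = 2 x` on the `p`-power torsion of `J₀(N)`. -/
def UqStatement (N p : ℕ) [NeZero N] : Prop :=
  ∀ q : ℕ, q.Prime → q ≠ p → q ∣ N → ¬ q ^ 2 ∣ N →
    ∀ P : ValuationSubring Qb, P.LiesOverPrime q → ∀ τ : GQ, τ ∈ P.inertiaSubgroupIn ℚ →
      ∀ x : JZero N, (∃ n : ℕ, p ^ n • x = 0) → τ • x + τ⁻¹ • x = 2 • x

/-- (U_q) in the form `(τ - 1)² = 0`, i.e. `τ τ x + x = 2 τ x`. -/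
def UqSqStatement (N p : ℕ) [NeZero N] : Prop :=
  ∀ q : ℕ, q.Prime → q ≠ p → q ∣ N → ¬ q ^ 2 ∣ N →
    ∀ P : ValuationSubring Qb, P.LiesOverPrime q → ∀ τ : GQ, τ ∈ P.inertiaSubgroupIn ℚ →
      ∀ x : JZero N, (∃ n : ℕ, p ^ n • x = 0) → τ • τ • x + x = 2 • τ • x

/-- The two forms of (U_q) are equivalent (apply the second one to `τ⁻¹ x`). -/
theorem uqStatement_of_sq (N p : ℕ) [NeZero N] (h : UqSqStatement N p) : UqStatement N p := by
  intro q hq hqp hqN hq2 P hP τ hτ x hx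
  have hx' : ∃ n : ℕ, p ^ n • (τ⁻¹ • x) = 0 := Fermat.Agent.S29.ESUse.smul_torsion N p τ⁻¹ hx
  have h1 := h q hq hqp hqN hq2 P hP τ hτ (τ⁻¹ • x) hx'
  rw [smul_inv_smul] at h1
  exact h1

/-! ### The `J₀(N)`-side -/

open Fermat.Agent.S31.JSideB in
/-- **The J-side of S34.**  For `τ` in an inertia group at `q ∥ N`, `q ≠ p`: on a prescribed
finite level `L₀`, `τ` is a power `σ ^ j` of a Frobenius element at a prime `ℓ ∉ S`, `ℓ ∤ N p`,
with `ℓ ^ j ≡ 1 mod p ^ n` and `V_j(T_ℓ, ℓ) - 2` divisible by `p ^ n` on `Lpar N`. -/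
theorem exists_frob_unip (N p : ℕ) [NeZero N] (hp : p.Prime) (n : ℕ) (S : Finset ℕ)
    (hK : KStatement N (p ^ n)) (hFrob : FrobPowStatement N p)
    (hRoot : RootStatement p) (hFD : FDStatement) (hU : UqStatement N p)
    (L₀ : IntermediateField ℚ Qb) (hL₀ : FiniteDimensional ℚ L₀)
    (q : ℕ) (hq : q.Prime) (hqp : q ≠ p) (hqN : q ∣ N) (hq2 : ¬ q ^ 2 ∣ N)
    (P : ValuationSubring Qb) (hP : P.LiesOverPrime q)
    (τ : GQ) (hτ : τ ∈ P.inertiaSubgroupIn ℚ) :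
    ∃ (ℓ : ℕ) (hℓ : ℓ.Prime) (hℓN : ¬ ℓ ∣ N) (A : ValuationSubring Qb) (σ : GQ) (j : ℕ),
      ℓ ∉ S ∧ ℓ ≠ p ∧ A.LiesOverPrime ℓ ∧ A.IsFrobeniusAt σ ℓ ∧
      (∀ x ∈ L₀, τ x = (σ ^ j) x) ∧ ℓ ^ j ≡ 1 [MOD p ^ n] ∧
      ∀ u : Lpar N, ∃ w : Lpar N,
        Polynomial.aeval (heckeLpar N ℓ hℓ hℓN) (lucasPoly ℓ j - C 2) u = ((p : ℤ) ^ n) • w := by
  classical
  obtain ⟨θ, htors, hker, hhecke⟩ := hK
  have hm : p ^ n ≠ 0 := pow_ne_zero n hp.ne_zero
  haveI : NeZero (p ^ n) := ⟨hm⟩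
  obtain ⟨ζ, hζ⟩ := exists_primitiveRoot (p ^ n) hm
  have hζint : IsIntegral ℚ ζ :=
    (Fermat.Agent.S29.FinLevel.isAlgebraic_rat.isAlgebraic ζ).isIntegral
  obtain ⟨L, hLfin, hLstab, hL₀L, hζL, hfix⟩ := exists_level N (p ^ n) hm θ htors L₀ hL₀ ζ hζint
  have hNp : N * p ≠ 0 := Nat.mul_ne_zero (NeZero.ne N) hp.ne_zero
  -- the Frobenius approximation of `τ`
  obtain ⟨ℓ, A, σ, j, hℓ, hℓS, hA, hσ, hτσ⟩ := hFD L hLfin (S ∪ (N * p).primeFactors) τ
  have hℓNp : ¬ ℓ ∣ N * p := fun hd =>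
    hℓS (Finset.mem_union_right _ (Nat.mem_primeFactors.mpr ⟨hℓ, hd, hNp⟩))
  have hℓN : ¬ ℓ ∣ N := fun hd => hℓNp (Dvd.dvd.mul_right hd p)
  have hℓp : ℓ ≠ p := fun he => hℓNp (he ▸ Dvd.intro_left N rfl)
  -- the congruence `ℓ^j ≡ 1 mod p^n`
  have hζ1 : ζ ^ (p ^ n) = 1 := hζ.pow_eq_one
  have hcong : ℓ ^ j ≡ 1 [MOD p ^ n] := by
    apply modEq_of_pow_eq hζ
    have e1 : τ ζ = ζ ^ (ℓ ^ j) := by
      rw [hτσ ζ hζL]
      exact frob_pow_root hRoot hℓ hℓp A hA σ hσ n j ζ hζ1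
    have e2 : τ ζ = ζ := (hRoot n ζ hζ1).2 q hq hqp P hP τ hτ
    rw [← e1, e2, pow_one]
  refine ⟨ℓ, hℓ, hℓN, A, σ, j, fun h => hℓS (Finset.mem_union_left _ h), hℓp, hA, hσ,
    fun x hx => hτσ x (hL₀L hx), hcong, ?_⟩
  -- Hecke clause at `ℓ ≠ p^n`
  have hne : ℓ ≠ p ^ n := by
    intro he
    rcases Nat.eq_zero_or_pos n with h0 | hpos
    · rw [h0, pow_zero] at he
      exact hℓ.one_lt.ne' he
    · have hdvd : p ∣ ℓ := he ▸ dvd_pow_self p hpos.ne'
      exact hℓp ((Nat.prime_dvd_prime_iff_eq hp hℓ).mp hdvd).symm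
  intro u
  have htor' : ∃ k : ℕ, p ^ k • θ u = 0 := ⟨n, htors u⟩
  set x := θ u with hx
  have hxfix : ∀ η : GQ, (∀ a ∈ L, η a = a) → η • x = x := fun η hη => hfix η hη u
  have a1 : τ • x = (σ ^ j) • x := smul_eq_of_eq_on L x hxfix _ _ hτσ
  have a2 : τ⁻¹ • x = (σ ^ j)⁻¹ • x :=
    smul_eq_of_eq_on L x hxfix _ _ (inv_eq_on_of_eq_on L hLstab _ _ hτσ)
  -- the Lucas identity
  have c1 := hFrob ℓ hℓ hℓNp A hA σ hσ j x htor'
  rw [← a1, ← a2] at c1
  have hy : (p ^ n) • (τ⁻¹ • x) = 0 := by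
    have h0 : (p ^ n) • x = 0 := htors u
    rw [← Fermat.Agent.S29.ESUse.gal_apply, ← map_nsmul, h0, map_zero]
  have c3 : (ℓ ^ j) • (τ⁻¹ • x) = τ⁻¹ • x := by
    rw [nsmul_eq_of_modEq hcong hy, one_nsmul]
  rw [c3, hU q hq hqp hqN hq2 P hP τ hτ x htor'] at c1
  -- transport to `Lpar N` and use the kernel clause
  have i1 := aeval_intertwine θ (heckeLpar N ℓ hℓ hℓN) (heckeOperatorBar N ⟨ℓ, hℓ⟩)
    (fun v => hhecke ℓ hℓ hℓN hne v) (lucasPoly ℓ j - C 2) u
  have hzero : θ (Polynomial.aeval (heckeLpar N ℓ hℓ hℓN) (lucasPoly ℓ j - C 2) u) = 0 := by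
    rw [i1, ← hx, map_sub, LinearMap.sub_apply, ← c1, Polynomial.aeval_C,
      Module.algebraMap_end_apply, two_nsmul, two_zsmul, sub_self]
  obtain ⟨z, hz⟩ := hker _ hzero
  refine ⟨z, ?_⟩
  rw [hz]
  push_cast
  rfl

/-- The J-side of S34 as a `Prop` (conclusion of `exists_frob_unip` for all depths `n`). -/
def JSideStatement (N p : ℕ) [NeZero N] : Prop :=
  ∀ (n : ℕ) (S : Finset ℕ) (L₀ : IntermediateField ℚ Qb), FiniteDimensional ℚ L₀ →
    ∀ q : ℕ, q.Prime → q ≠ p → q ∣ N → ¬ q ^ 2 ∣ N →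
      ∀ P : ValuationSubring Qb, P.LiesOverPrime q → ∀ τ : GQ, τ ∈ P.inertiaSubgroupIn ℚ →
        ∃ (ℓ : ℕ) (hℓ : ℓ.Prime) (hℓN : ¬ ℓ ∣ N) (A : ValuationSubring Qb) (σ : GQ) (j : ℕ),
          ℓ ∉ S ∧ ℓ ≠ p ∧ A.LiesOverPrime ℓ ∧ A.IsFrobeniusAt σ ℓ ∧
          (∀ x ∈ L₀, τ x = (σ ^ j) x) ∧ ℓ ^ j ≡ 1 [MOD p ^ n] ∧
          ∀ u : Lpar N, ∃ w : Lpar N,
            Polynomial.aeval (heckeLpar N ℓ hℓ hℓN) (lucasPoly ℓ j - C 2) u = ((p : ℤ) ^ n) • w

/-- The J-side of S34 from (U_q) and the blocks on main. -/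
theorem jSideStatement_of_uq (N p : ℕ) [NeZero N] (hp : p.Prime)
    (hK : ∀ n : ℕ, KStatement N (p ^ n)) (hFrob : FrobPowStatement N p)
    (hRoot : RootStatement p) (hFD : FDStatement) (hU : UqStatement N p) :
    JSideStatement N p :=
  fun n S L₀ hL₀ q hq hqp hqN hq2 P hP τ hτ =>
    exists_frob_unip N p hp n S (hK n) hFrob hRoot hFD hU L₀ hL₀ q hq hqp hqN hq2 P hP τ hτ

/-! ### Determinants and characteristic polynomials in rank two -/

/-- An endomorphism of a finite free module which is congruent to `1` modulo `I` has determinant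
congruent to `1` modulo `I`. -/
theorem det_sub_one_mem {T : Type*} [CommRing T] {V : Type*} [AddCommGroup V] [Module T V]
    [Module.Free T V] [Module.Finite T V] (I : Ideal T) (f : Module.End T V)
    (hf : ∀ v : V, f v - v ∈ I • (⊤ : Submodule T V)) : LinearMap.det f - 1 ∈ I := by
  classical
  let b := Module.Free.chooseBasis T V
  have key : ∀ x ∈ I • (⊤ : Submodule T V), ∀ i, b.repr x i ∈ I := by
    intro x hx i
    refine Submodule.smul_induction_on (p := fun x => b.repr x i ∈ I) hx ?_ ?_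
    · intro r hr m _
      rw [map_smul, Finsupp.smul_apply, smul_eq_mul]
      exact I.mul_mem_right _ hr
    · intro x y hx hy
      rw [map_add, Finsupp.add_apply]
      exact I.add_mem hx hy
  have h1 : (Ideal.Quotient.mk I).mapMatrix (LinearMap.toMatrix b b f) = 1 := by
    ext i j
    rw [RingHom.mapMatrix_apply, Matrix.map_apply, LinearMap.toMatrix_apply]
    have h2 := key _ (hf (b j)) i
    rw [map_sub, Finsupp.sub_apply, Module.Basis.repr_self, ← Ideal.Quotient.eq] at h2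
    rw [h2, Finsupp.single_apply, Matrix.one_apply]
    by_cases hij : i = j
    · rw [if_pos hij.symm, if_pos hij, map_one]
    · rw [if_neg (Ne.symm hij), if_neg hij, map_zero]
  rw [← LinearMap.det_toMatrix b f, ← Ideal.Quotient.eq, RingHom.map_det, h1, Matrix.det_one,
    map_one]

/-- Adic continuity of the determinant: at every depth `n` the determinant modulo `𝔪 ^ n` only
depends on the restriction to a finite level. -/
theorem exists_level_det {T : Type} [CommRing T] [IsLocalRing T] (ρ : GaloisRepAdic T) (n : ℕ) :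
    ∃ L : IntermediateField ℚ Qb, FiniteDimensional ℚ L ∧
      ∀ g g' : GQ, (∀ x ∈ L, g x = g' x) →
        LinearMap.det (ρ.ρ g) - LinearMap.det (ρ.ρ g') ∈ IsLocalRing.maximalIdeal T ^ n := by
  obtain ⟨L, hL, h⟩ := ρ.isAdicContinuous n
  refine ⟨L, hL, fun g g' hgg' => ?_⟩
  have hσ : ∀ x ∈ L, (g'⁻¹ * g) x = x := by
    intro x hx
    rw [AlgEquiv.mul_apply, hgg' x hx, AlgEquiv.aut_inv, AlgEquiv.symm_apply_apply]
  have h1 := det_sub_one_mem _ (ρ.ρ (g'⁻¹ * g)) (h (g'⁻¹ * g) hσ)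
  have h2 : ρ.ρ g = ρ.ρ g' * ρ.ρ (g'⁻¹ * g) := by
    rw [← map_mul, mul_inv_cancel_left]
  have h3 : LinearMap.det (ρ.ρ g) - LinearMap.det (ρ.ρ g') =
      LinearMap.det (ρ.ρ g') * (LinearMap.det (ρ.ρ (g'⁻¹ * g)) - 1) := by
    rw [h2, map_mul]
    ring
  rw [h3]
  exact Ideal.mul_mem_left _ _ h1

/-- The characteristic polynomial of an endomorphism of a free module of rank two. -/
theorem charpoly_eq_of_finrank_two {T : Type*} [CommRing T] [Nontrivial T] {V : Type*}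
    [AddCommGroup V] [Module T V] [Module.Free T V] [Module.Finite T V]
    (h : Module.finrank T V = 2) (M : Module.End T V) :
    LinearMap.charpoly M = X ^ 2 - C (LinearMap.trace T V M) * X + C (LinearMap.det M) := by
  classical
  let b := Module.Free.chooseBasis T V
  have hcard : Fintype.card (Module.Free.ChooseBasisIndex T V) = 2 := by
    rw [← Module.finrank_eq_card_chooseBasisIndex, h]
  rw [← LinearMap.charpoly_toMatrix M b, Matrix.charpoly_of_card_eq_two _ hcard,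
    ← LinearMap.trace_eq_matrix_trace T b M, LinearMap.det_toMatrix]

/-- The determinant of an endomorphism of a free module of rank two with characteristic
polynomial `X² - a X + u` is `u`. -/
theorem det_eq_of_charpoly {T : Type*} [CommRing T] {V : Type*}
    [AddCommGroup V] [Module T V] [Module.Free T V] [Module.Finite T V]
    (h : Module.finrank T V = 2) (M : Module.End T V) (a u : T)
    (hM : LinearMap.charpoly M = X ^ 2 - C a * X + C u) : LinearMap.det M = u := by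
  rw [LinearMap.det_eq_sign_charpoly_coeff, h, hM]
  simp [coeff_X_pow, coeff_C]

/-! ### The trace and determinant congruences -/

variable {p : ℕ} {N : ℕ} [NeZero N] {S : Finset ℕ}
  {𝒪 : Type} [CommRing 𝒪] [IsDomain 𝒪] [IsDiscreteValuationRing 𝒪]
  [IsAdicComplete (IsLocalRing.maximalIdeal 𝒪) 𝒪]
  {θ : CuspForm.heckeAlgebra N 2 (↑S : Set ℕ) →+* IsLocalRing.ResidueField 𝒪}
  {T : Type} [CommRing T] [IsLocalRing T] [IsNoetherianRing T]
  [IsAdicComplete (IsLocalRing.maximalIdeal T) T] [Algebra 𝒪 T] [IsLocalHom (algebraMap 𝒪 T)]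
  [Module.Finite 𝒪 T] [Module.Free 𝒪 T]

/-- **The congruences.** For `τ` in an inertia group at `q ∥ N`, `q ≠ p`, and every depth `k`:
`tr ρ(τ) ≡ 2` and `det ρ(τ) ≡ 1` modulo `𝔪_T ^ k`. -/
theorem trace_det_mem (hL2a : TraceContStatement)
    (hL2b : LucasTraceStatement) (hL5 : ArtinReesStatement)
    (hL6 : HeckeCompareStatement N (↑S : Set ℕ)) (hJ : JSideStatement N p)
    (hp𝒪 : (p : 𝒪) ∈ IsLocalRing.maximalIdeal 𝒪)
    (H : CuspForm.HeckeGaloisRepDatum N (↑S : Set ℕ) 𝒪 θ T)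
    (q : ℕ) (hq : q.Prime) (hqp : q ≠ p) (hqN : q ∣ N) (hq2 : ¬ q ^ 2 ∣ N)
    (P : ValuationSubring Qb) (hP : P.LiesOverPrime q) (τ : GQ)
    (hτ : τ ∈ P.inertiaSubgroupIn ℚ) (k : ℕ) :
    LinearMap.trace T H.ρ.V (H.ρ.ρ τ) - 2 ∈ IsLocalRing.maximalIdeal T ^ k ∧
      LinearMap.det (H.ρ.ρ τ) - 1 ∈ IsLocalRing.maximalIdeal T ^ k := by
  have : Module.Finite ℤ (Lpar N) := Fermat.Agent.S41.LparFree.lpar_finite N
  have : Module.Free ℤ (Lpar N) := Fermat.Agent.S41.LparFree.lpar_free N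
  obtain ⟨c, hc⟩ := hL5 (Lpar N) (HPoly N (↑S : Set ℕ)) (evL N (↑S : Set ℕ)) p
  obtain ⟨L₁, hL₁fd, hL₁⟩ := hL2a T H.ρ k
  obtain ⟨L₂, hL₂fd, hL₂⟩ := exists_level_det H.ρ k
  have hLfd : FiniteDimensional ℚ (L₁ ⊔ L₂ : IntermediateField ℚ Qb) :=
    IntermediateField.finiteDimensional_sup L₁ L₂
  obtain ⟨ℓ, hℓ, hℓN, A, σ, j, hℓS, -, hA, hσ, hτσ, hcong, hdiv⟩ :=
    hJ (k + c) S (L₁ ⊔ L₂) hLfd q hq hqp hqN hq2 P hP τ hτ
  have hpT : (p : T) ∈ IsLocalRing.maximalIdeal T :=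
    Fermat.Agent.S31.Plan.natCast_mem_maximalIdeal hp𝒪
  set i : HIdx N (↑S : Set ℕ) := ⟨ℓ, hℓ, hℓN, by simpa using hℓS⟩ with hi
  constructor
  · -- the trace
    set PP : HPoly N (↑S : Set ℕ) := Finsupp.single i (lucasPoly ℓ j - C 2) with hPP
    have hev : evL N (↑S : Set ℕ) PP =
        Polynomial.aeval (heckeLpar N ℓ hℓ hℓN) (lucasPoly ℓ j - C 2) := by
      rw [hPP, evL_single]
    obtain ⟨Q, hQ⟩ := hc (k + c) PP (fun u => by rw [hev]; exact hdiv u)
    rw [Nat.add_sub_cancel] at hQ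
    have h0 : evL N (↑S : Set ℕ) (PP - ((p : ℤ) ^ k) • Q) = 0 := by
      rw [map_sub, map_zsmul, hQ, sub_self]
    have h1 := hL6 _ h0
    rw [map_sub, map_zsmul, sub_eq_zero] at h1
    have h2 : H.π (evC N (↑S : Set ℕ) PP) ∈ IsLocalRing.maximalIdeal T ^ k := by
      rw [h1, zsmul_eq_mul, map_mul, map_intCast, Int.cast_pow, Int.cast_natCast]
      exact Ideal.mul_mem_right _ _ (Ideal.pow_mem_pow hpT k)
    have h3 : H.π (evC N (↑S : Set ℕ) PP) =
        LinearMap.trace T H.ρ.V (H.ρ.ρ (σ ^ j)) - 2 := by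
      rw [Fermat.Agent.S31.Plan.trace_frob_pow hL2b H i A hA σ hσ j, hPP, evC_single,
        evC_single, map_sub, map_sub, Polynomial.aeval_C]
      have e : H.π ((algebraMap ℤ (CuspForm.heckeAlgebra N 2 (↑S : Set ℕ))) 2) = 2 := by
        rw [map_ofNat, map_ofNat]
      rw [e]
    have e1 := hL₁ τ (σ ^ j) (fun x hx => hτσ x ((le_sup_left : L₁ ≤ L₁ ⊔ L₂) hx))
    rw [h3] at h2
    have := Ideal.add_mem _ e1 h2
    convert this using 1
    ring
  · -- the determinant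
    have e2 := hL₂ τ (σ ^ j) (fun x hx => hτσ x ((le_sup_right : L₂ ≤ L₁ ⊔ L₂) hx))
    have hdet : LinearMap.det (H.ρ.ρ (σ ^ j)) = (ℓ : T) ^ j := by
      rw [map_pow, map_pow, det_eq_of_charpoly H.ρ.finrank_eq (H.ρ.ρ σ) _ _
        (H.charpoly_frob ℓ hℓ hℓN (by simpa using hℓS) A hA σ hσ)]
    have h4 : ((ℓ : T) ^ j - 1) ∈ IsLocalRing.maximalIdeal T ^ k := by
      have hd : ((p ^ (k + c) : ℕ) : ℤ) ∣ ((1 : ℕ) : ℤ) - ((ℓ ^ j : ℕ) : ℤ) :=
        (Nat.modEq_iff_dvd).1 hcong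
      obtain ⟨m, hm⟩ := hd
      have hT : (1 : T) - (ℓ : T) ^ j = ((p : T) ^ (k + c)) * (m : T) := by
        have := congrArg (Int.cast : ℤ → T) hm
        push_cast at this
        exact this
      have h5 : (1 : T) - (ℓ : T) ^ j ∈ IsLocalRing.maximalIdeal T ^ k := by
        rw [hT]
        exact Ideal.mul_mem_right _ _
          (Ideal.pow_le_pow_right (Nat.le_add_right k c) (Ideal.pow_mem_pow hpT (k + c)))
      have := Ideal.neg_mem_iff _ |>.2 h5
      convert this using 1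
      ring
    rw [hdet] at e2
    have := Ideal.add_mem _ e2 h4
    convert this using 1
    ring

/-- **S34 from its leaves**: the leaf statements of S31 and the J-side above. -/
theorem result_of_leaves (hL2a : TraceContStatement)
    (hL2b : LucasTraceStatement) (hL5 : ArtinReesStatement)
    (hL6 : HeckeCompareStatement N (↑S : Set ℕ)) (hJ : JSideStatement N p)
    (hp𝒪 : (p : 𝒪) ∈ IsLocalRing.maximalIdeal 𝒪)
    (H : CuspForm.HeckeGaloisRepDatum N (↑S : Set ℕ) 𝒪 θ T)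
    (q : ℕ) (hq : q.Prime) (hqp : q ≠ p) (hqN : q ∣ N) (hq2 : ¬ q ^ 2 ∣ N) :
    H.ρ.IsUnipotentOnInertiaAt q := by
  intro P hP τ hτ
  have hbot : (⨅ k : ℕ, IsLocalRing.maximalIdeal T ^ k) = ⊥ :=
    Ideal.iInf_pow_eq_bot_of_isLocalRing (IsLocalRing.maximalIdeal T) Ideal.IsPrime.ne_top'
  have htr : LinearMap.trace T H.ρ.V (H.ρ.ρ τ) = 2 := by
    have hmem : LinearMap.trace T H.ρ.V (H.ρ.ρ τ) - 2 ∈
        (⨅ k : ℕ, IsLocalRing.maximalIdeal T ^ k) :=
      (Ideal.mem_iInf).2 fun k =>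
        (trace_det_mem hL2a hL2b hL5 hL6 hJ hp𝒪 H q hq hqp hqN hq2 P hP τ hτ k).1
    rw [hbot, Ideal.mem_bot, sub_eq_zero] at hmem
    exact hmem
  have hdet : LinearMap.det (H.ρ.ρ τ) = 1 := by
    have hmem : LinearMap.det (H.ρ.ρ τ) - 1 ∈
        (⨅ k : ℕ, IsLocalRing.maximalIdeal T ^ k) :=
      (Ideal.mem_iInf).2 fun k =>
        (trace_det_mem hL2a hL2b hL5 hL6 hJ hp𝒪 H q hq hqp hqN hq2 P hP τ hτ k).2
    rw [hbot, Ideal.mem_bot, sub_eq_zero] at hmem
    exact hmem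
  rw [charpoly_eq_of_finrank_two H.ρ.finrank_eq, htr, hdet, map_ofNat, map_one]
  ring

/-- **The frozen statement S34 from (U_q).**  Every other input is on main. -/
theorem result_of_uq (hU : UqStatement N p) [Finite (IsLocalRing.ResidueField 𝒪)] [CharZero 𝒪]
    (hp : p.Prime) (hp𝒪 : (p : 𝒪) ∈ IsLocalRing.maximalIdeal 𝒪)
    (_hpS : p ∈ S) (_hNS : ∀ q : ℕ, q.Prime → q ∣ N → q ∈ S)
    (H : CuspForm.HeckeGaloisRepDatum N (↑S : Set ℕ) 𝒪 θ T)
    (q : ℕ) (hq : q.Prime) (hqp : q ≠ p) (hqN : q ∣ N) (hq2 : ¬ q ^ 2 ∣ N) :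
    H.ρ.IsUnipotentOnInertiaAt q :=
  result_of_leaves Fermat.Agent.S31.traceContStatement Fermat.Agent.S31.lucasTraceStatement
    Fermat.Agent.S31.artinReesStatement
    (Fermat.Agent.S31.HeckeCompareB.heckeCompareStatement N (↑S : Set ℕ))
    (jSideStatement_of_uq N p hp
      (fun n => Fermat.Agent.S29.kStatement N (p ^ n) (pow_ne_zero n hp.ne_zero))
      (Fermat.Agent.S31.FrobPow.frobPowStatement_of_specCore N p
        (Fermat.Agent.S29.specCoreStatement N p))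
      (Fermat.Agent.S31.rootStatement p hp) Fermat.Agent.S29.FDStmt.fdStatement hU)
    hp𝒪 H q hq hqp hqN hq2

end

end Fermat.Agent.S34.TopUq
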