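/-
S34 — TwoBranch.lean (helper95): the closed points of a two-branch special fibre, abstractly.

Picture.  `S` = a chart at the good level `M` (special fibre `S / ϖ` regular: the Igusa shape
`IgusaAt`), `R` = the corresponding chart at level `N = M q`, `α β : S →+* R` the two degeneracy
maps, `ρ₁ ρ₂ : R →+* L` the two reductions (`L = k((Q))`), `𝔭ᵢ = ker ρᵢ` the two branches.
Inputs (all ring-hom level, no geometry):

* `hsurj` : `ρ (R) = ρ (i S)`            ("the branch is the level-`M` special fibre", [Branch]);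
* `hIg`   : the Igusa shape at the maximal ideals of `S` containing `ϖ`        (S18 `IgusaAt`);
* `hfrob` : `ρ₂ (α s) = ρ₂ (β r) ^ q` for some `r`   ("`α^* s` is a `q`-th power on branch 2",
            [FrobD]/[FrobTwist]).

Outputs: exactly the three closed-point hypotheses of `LocPlan.CutAtStatement`
(`branch_gen` for each branch, `crossing` for the transversality), for every maximal ideal `n`
of `R`.  Mathlib + `S34/Trans` only.
-/
import Mathlib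
import Fermat.Agent.S34.Trans

set_option autoImplicit false

namespace Fermat.Agent.S34.TwoBranch

variable {S R L : Type*} [CommRing S] [CommRing R] [CommRing L]

/-- The preimage of a maximal ideal `n ⊇ ker ρ` under `i : S →+* R` is maximal as soon as
`ρ (R) = ρ (i S)`. -/
theorem comap_isMaximal (i : S →+* R) (ρ : R →+* L)
    (hsurj : ∀ x : R, ∃ s : S, ρ x = ρ (i s))
    (n : Ideal R) (hn : n.IsMaximal) (hle : RingHom.ker ρ ≤ n) :
    (n.comap i).IsMaximal := by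
  rw [Ideal.isMaximal_iff]
  refine ⟨?_, ?_⟩
  · rw [Ideal.mem_comap, map_one]
    exact (Ideal.ne_top_iff_one n).mp hn.ne_top
  · intro J x hJ hx hxJ
    rw [Ideal.mem_comap] at hx
    obtain ⟨r, k, hkn, hrk⟩ := hn.exists_inv hx
    have hr : r * i x - 1 ∈ n := by
      have : r * i x - 1 = -k := by linear_combination hrk
      rw [this]
      exact n.neg_mem hkn
    obtain ⟨s, hs⟩ := hsurj r
    have hk : r - i s ∈ n := hle (by rw [RingHom.mem_ker, map_sub, hs, sub_self])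
    have h1 : i (s * x - 1) ∈ n := by
      have : i (s * x - 1) = (r * i x - 1) - (r - i s) * i x := by
        rw [map_sub, map_mul, map_one]; ring
      rw [this]
      exact n.sub_mem hr (n.mul_mem_right _ hk)
    have h2 : s * x - 1 ∈ J := hJ (Ideal.mem_comap.mpr h1)
    have : (1 : S) = s * x - (s * x - 1) := by ring
    rw [this]
    exact J.sub_mem (J.mul_mem_left _ hxJ) h2

/-- **One branch.**  If the branch `ker ρ` of `R` is the special fibre of `S` along `i`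
(`ρ (R) = ρ (i S)`, `ρ (i ϖ) = 0`) and `S` has the Igusa shape at its closed points over `ϖ`,
then every maximal ideal `n ⊇ ker ρ` of `R` is generated, locally at `n` and modulo `ker ρ`, by
`i t` for some `t : S`. -/
theorem branch_gen (i : S →+* R) (ρ : R →+* L) (ϖ : S) (hϖ : ρ (i ϖ) = 0)
    (hsurj : ∀ x : R, ∃ s : S, ρ x = ρ (i s))
    (hIg : ∀ nS : Ideal S, nS.IsMaximal → ϖ ∈ nS →
      ∃ t ∈ nS, ∀ x ∈ nS, ∃ c : S, c ∉ nS ∧ c * x ∈ Ideal.span {ϖ, t})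
    (n : Ideal R) (hn : n.IsMaximal) (hle : RingHom.ker ρ ≤ n) :
    ∃ t : S, i t ∈ n ∧
      ∀ x ∈ n, ∃ s : R, s ∉ n ∧ ∃ c : R, s * x - c * i t ∈ RingHom.ker ρ := by
  have hmax := comap_isMaximal i ρ hsurj n hn hle
  have hϖn : ϖ ∈ n.comap i := Ideal.mem_comap.mpr (hle (RingHom.mem_ker.mpr hϖ))
  obtain ⟨t, ht, hgen⟩ := hIg _ hmax hϖn
  refine ⟨t, Ideal.mem_comap.mp ht, ?_⟩
  intro x hx
  obtain ⟨s, hs⟩ := hsurj x
  have hk : x - i s ∈ RingHom.ker ρ := by rw [RingHom.mem_ker, map_sub, hs, sub_self]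
  have hsn : s ∈ n.comap i := by
    rw [Ideal.mem_comap]
    have : i s = x - (x - i s) := by ring
    rw [this]
    exact n.sub_mem hx (hle hk)
  obtain ⟨c, hc, hcs⟩ := hgen s hsn
  obtain ⟨a, b, hab⟩ := Ideal.mem_span_pair.mp hcs
  refine ⟨i c, fun h => hc (Ideal.mem_comap.mpr h), i b, ?_⟩
  have e : i c * x - i b * i t = i c * (x - i s) + i a * i ϖ := by
    have h2 : i c * i s = i a * i ϖ + i b * i t := by
      rw [← map_mul, ← map_mul, ← map_mul, ← map_add, hab]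
    linear_combination h2
  rw [e]
  exact Ideal.add_mem _ (Ideal.mul_mem_left _ _ hk)
    (Ideal.mul_mem_left _ _ (RingHom.mem_ker.mpr hϖ))

/-- **One branch**, in the exact shape of the per-branch hypothesis of
`LocPlan.CutAtStatement` (the generator is an element of `n`). -/
theorem branch_gen' (i : S →+* R) (ρ : R →+* L) (ϖ : S) (hϖ : ρ (i ϖ) = 0)
    (hsurj : ∀ x : R, ∃ s : S, ρ x = ρ (i s))
    (hIg : ∀ nS : Ideal S, nS.IsMaximal → ϖ ∈ nS →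
      ∃ t ∈ nS, ∀ x ∈ nS, ∃ c : S, c ∉ nS ∧ c * x ∈ Ideal.span {ϖ, t})
    (n : Ideal R) (hn : n.IsMaximal) (hle : RingHom.ker ρ ≤ n) :
    ∃ t ∈ n, ∀ x ∈ n, ∃ s : R, s ∉ n ∧ ∃ c : R, s * x - c * t ∈ RingHom.ker ρ := by
  obtain ⟨t, ht, h⟩ := branch_gen i ρ ϖ hϖ hsurj hIg n hn hle
  exact ⟨i t, ht, h⟩

/-- **Crossing points are transversal.**  Branch 1 (`ker ρ₁`) is the special fibre of `S` along
`α`, `S` has the Igusa shape, and on branch 2 every `α s` is a `q`-th power of some `β r`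
(`q ≥ 2`).  Then at every maximal ideal `n` of `R` containing both branches,
`ker ρ₁ ⊔ ker ρ₂ = n` locally at `n`. -/
theorem crossing (α β : S →+* R) (ρ₁ ρ₂ : R →+* L) (ϖ : S) (q : ℕ) (hq : 2 ≤ q)
    (hϖ : ρ₁ (α ϖ) = 0)
    (hsurj : ∀ x : R, ∃ s : S, ρ₁ x = ρ₁ (α s))
    (hIg : ∀ nS : Ideal S, nS.IsMaximal → ϖ ∈ nS →
      ∃ t ∈ nS, ∀ x ∈ nS, ∃ c : S, c ∉ nS ∧ c * x ∈ Ideal.span {ϖ, t})
    (hfrob : ∀ s : S, ∃ r : S, ρ₂ (α s) = ρ₂ (β r) ^ q)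
    (n : Ideal R) (hn : n.IsMaximal) (h₁ : RingHom.ker ρ₁ ≤ n) (h₂ : RingHom.ker ρ₂ ≤ n) :
    ∀ x ∈ n, ∃ s : R, s ∉ n ∧ s * x ∈ RingHom.ker ρ₁ ⊔ RingHom.ker ρ₂ := by
  obtain ⟨t, ht, hgen⟩ := branch_gen α ρ₁ ϖ hϖ hsurj hIg n hn h₁
  obtain ⟨r, hr⟩ := hfrob t
  have hk : α t - β r ^ q ∈ RingHom.ker ρ₂ := by
    rw [RingHom.mem_ker, map_sub, map_pow, hr, sub_self]
  have hprime : n.IsPrime := hn.isPrime
  have hrq : β r ^ q ∈ n := by
    have : β r ^ q = α t - (α t - β r ^ q) := by ring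
    rw [this]
    exact n.sub_mem ht (h₂ hk)
  have hrn : β r ∈ n := hprime.mem_of_pow_mem q hrq
  have ha : α t ∈ n ^ 2 ⊔ RingHom.ker ρ₂ :=
    NodeCoords.mem_sq_sup_of_pow_sub_mem hq hrn hk
  refine Trans.trans (RingHom.ker ρ₁) (RingHom.ker ρ₂) n (α t) h₂ hgen ⟨1, ?_, ?_⟩
  · exact (Ideal.ne_top_iff_one n).mp hn.ne_top
  · rw [one_mul, ← pow_two]
    exact ha

/-- **All three closed-point hypotheses of `LocPlan.CutAtStatement` at once** (with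
`𝔭₁ = ker ρ₁`, `𝔭₂ = ker ρ₂`), from: both branches are the special fibre of `S` (along `α`,
resp. `β`), the Igusa shape of `S`, the Frobenius-power relation on branch 2, and — for the
clause `∃ x ∈ n, x ∉ 𝔭ᵢ` — a coordinate `T : R` such that every maximal ideal containing `α ϖ`
contains some `T - c` on which neither reduction vanishes. -/
theorem cutAt_hyps (α β : S →+* R) (ρ₁ ρ₂ : R →+* L) (ϖ : S) (q : ℕ) (hq : 2 ≤ q)
    (hϖ₁ : ρ₁ (α ϖ) = 0) (hϖ₂ : ρ₂ (β ϖ) = 0)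
    (hsurj₁ : ∀ x : R, ∃ s : S, ρ₁ x = ρ₁ (α s))
    (hsurj₂ : ∀ x : R, ∃ s : S, ρ₂ x = ρ₂ (β s))
    (hIg : ∀ nS : Ideal S, nS.IsMaximal → ϖ ∈ nS →
      ∃ t ∈ nS, ∀ x ∈ nS, ∃ c : S, c ∉ nS ∧ c * x ∈ Ideal.span {ϖ, t})
    (hfrob : ∀ s : S, ∃ r : S, ρ₂ (α s) = ρ₂ (β r) ^ q)
    (n : Ideal R) (hn : n.IsMaximal)
    (hpt : ∃ x ∈ n, ρ₁ x ≠ 0 ∧ ρ₂ x ≠ 0) :
    (RingHom.ker ρ₁ ≤ n → (∃ x ∈ n, x ∉ RingHom.ker ρ₁) ∧
      ∃ t ∈ n, ∀ x ∈ n, ∃ s : R, s ∉ n ∧ ∃ c : R, s * x - c * t ∈ RingHom.ker ρ₁) ∧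
    (RingHom.ker ρ₂ ≤ n → (∃ x ∈ n, x ∉ RingHom.ker ρ₂) ∧
      ∃ t ∈ n, ∀ x ∈ n, ∃ s : R, s ∉ n ∧ ∃ c : R, s * x - c * t ∈ RingHom.ker ρ₂) ∧
    (RingHom.ker ρ₁ ≤ n → RingHom.ker ρ₂ ≤ n →
      ∀ x ∈ n, ∃ s : R, s ∉ n ∧ s * x ∈ RingHom.ker ρ₁ ⊔ RingHom.ker ρ₂) := by
  obtain ⟨x₀, hx₀, hx₁, hx₂⟩ := hpt
  refine ⟨fun h₁ => ⟨⟨x₀, hx₀, fun h => hx₁ (RingHom.mem_ker.mp h)⟩,
      branch_gen' α ρ₁ ϖ hϖ₁ hsurj₁ hIg n hn h₁⟩,
    fun h₂ => ⟨⟨x₀, hx₀, fun h => hx₂ (RingHom.mem_ker.mp h)⟩,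
      branch_gen' β ρ₂ ϖ hϖ₂ hsurj₂ hIg n hn h₂⟩,
    fun h₁ h₂ => crossing α β ρ₁ ρ₂ ϖ q hq hϖ₁ hsurj₁ hIg hfrob n hn h₁ h₂⟩

end Fermat.Agent.S34.TwoBranch
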