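/-
S34 — TransInst.lean (helper22): block [Model2], row [PointHyp] (tr), B-copy per helper5's
Deal #2 (A = `S34/PointHyp.lean`).

**Transversality of the two branches at the crossing points of a level-`N` chart**, i.e. the
field `ModelPlan2.ChartModel.trans`, in hypothesis form.

Setting.  `O = OK A K` a DVR with uniformizer `π`; `E = FK N K` with the Gauss valuation ring
`V1` (`GaussV.V1`) and an automorphism `w` of `E` fixing `π`; `V2 = w⁻¹(V1)` (`GaussV.V2 w`);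
`R ⊆ V1 ∩ V2` a chart of level `N`, `RM` a chart of level `M`; `α β : F_K(M) →+* F_K(N)` the two
degeneracy maps, `w ∘ α = β`, `w ∘ β = α`, mapping `RM` into `R`.  Hypotheses:

* (B1) `R ⊆ α(RM) + π V1`            ("branch 1 of `R` is the special fibre of `RM`", [Branch]);
* (Ig) `IgusaAt M A K RM`             (S18 at the good level `M`);
* (Fr) `β y ∈ (α RM)^q + π V1`        ("`β^* y` is a `q`-th power on branch 1", [FrobD]/[FrobTwist]).

Conclusion (`trans_of_hyps`): for ideals `P0 ⊇ R ∩ π V1`, `P1 ⊇ R ∩ π V2` and every maximal ideal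
`n ⊇ P0 + P1` of `R`, `P0 + P1 = n` locally at `n`.

* `trans_of_chartHyp`  the same for `P` satisfying `LocPlan.ChartHyp π ![V1, V2 w] P`, in the exact
                       shape of `ModelPlan2.ChartModel.trans`;
* `trans_of_gRel`      (B1) and (Fr) given through `GRel A · 0`;
* `trans_wK`           the specialisation `N = M q`, `w = wK`, `α = alphaK`, `β = betaK`
                       (`S34/WK.lean`), with (B1) in the shape of `Branch.exists_level` and (Fr) as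
                       `GRel A (y(Q^q) - r^q) 0`.

The abstract core is `TwoBranch.crossing` (helper95) with `ρ₁ = red1|R`, `ρ₂ = red1 ∘ w|R`.
-/
import Mathlib
import Fermat.Agent.S34.GaussV
import Fermat.Agent.S34.TwoBranch
import Fermat.Agent.S34.LocPlan
import Fermat.Agent.S34.WK

set_option autoImplicit false

noncomputable section

namespace Fermat.Agent.S34.TransInst

open ModularCurve HahnSeries Fermat.Agent.S18 Fermat.Agent.S18.Arith Fermat.Agent.S34.GaussV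

/-! ### The two reductions restricted to a chart -/

section Rho

variable {N : ℕ} [NeZero N] {A : ValuationSubring Qb} {K : IntermediateField ℚ Qb}

/-- The Gauss reduction restricted to a subalgebra `R ⊆ V1`. -/
def rho1 (hdvr : IsDiscreteValuationRing (OK A K)) (R : Subalgebra (OK A K) (FK N K))
    (hle : ∀ x ∈ R, x ∈ V1 N A K hdvr) :
    R →+* LaurentSeries (IsLocalRing.ResidueField A) :=
  (red1 hdvr).comp
    { toFun := fun x => ⟨(x : FK N K), hle x x.2⟩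
      map_one' := rfl
      map_mul' := fun _ _ => rfl
      map_zero' := rfl
      map_add' := fun _ _ => rfl }

theorem rho1_apply (hdvr : IsDiscreteValuationRing (OK A K)) (R : Subalgebra (OK A K) (FK N K))
    (hle : ∀ x ∈ R, x ∈ V1 N A K hdvr) (x : R) :
    rho1 hdvr R hle x = red1 hdvr ⟨(x : FK N K), hle x x.2⟩ := rfl

/-- The second reduction `red1 ∘ w` restricted to a subalgebra `R` with `w R ⊆ V1`. -/
def rho2 (w : FK N K ≃+* FK N K) (hdvr : IsDiscreteValuationRing (OK A K))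
    (R : Subalgebra (OK A K) (FK N K)) (hle : ∀ x ∈ R, w x ∈ V1 N A K hdvr) :
    R →+* LaurentSeries (IsLocalRing.ResidueField A) :=
  (red1 hdvr).comp
    { toFun := fun x => ⟨w (x : FK N K), hle x x.2⟩
      map_one' := Subtype.ext (map_one w)
      map_mul' := fun a b => Subtype.ext (map_mul w (a : FK N K) (b : FK N K))
      map_zero' := Subtype.ext (map_zero w)
      map_add' := fun a b => Subtype.ext (map_add w (a : FK N K) (b : FK N K)) }

theorem rho2_apply (w : FK N K ≃+* FK N K) (hdvr : IsDiscreteValuationRing (OK A K))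
    (R : Subalgebra (OK A K) (FK N K)) (hle : ∀ x ∈ R, w x ∈ V1 N A K hdvr) (x : R) :
    rho2 w hdvr R hle x = red1 hdvr ⟨w (x : FK N K), hle x x.2⟩ := rfl

/-- `red1 u = red1 v` as soon as `u - v ∈ π V1`. -/
theorem red1_eq_of_sub (hdvr : IsDiscreteValuationRing (OK A K)) {π : OK A K}
    (hπ : Irreducible π) (u v : V1 N A K hdvr)
    (h : ∃ z ∈ V1 N A K hdvr, (u : FK N K) - v = algebraMap (OK A K) (FK N K) π * z) :
    red1 hdvr u = red1 hdvr v := by
  have h0 : red1 hdvr (u - v) = 0 := (red1_eq_zero_iff hdvr hπ (u - v)).mpr h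
  rw [map_sub, sub_eq_zero] at h0
  exact h0

/-- An element of `F_K` whose `q`-expansion is Gauss-integral with reduction `0` lies in
`π V1`. -/
theorem exists_eq_pi_mul_of_gRel_zero (hdvr : IsDiscreteValuationRing (OK A K)) {π : OK A K}
    (hπ : Irreducible π) (u : FK N K) (h : GRel A ((u : FK N K) : LaurentSeries Qb) 0) :
    ∃ z ∈ V1 N A K hdvr, u = algebraMap (OK A K) (FK N K) π * z := by
  have hu : u ∈ V1 N A K hdvr := (mem_V1_iff hdvr).mpr ⟨0, h⟩
  exact (red1_eq_zero_iff hdvr hπ ⟨u, hu⟩).mp (red1_eq_of_gRel hdvr ⟨u, hu⟩ h)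

end Rho

/-! ### The transversality statement -/

section Main

variable {M N : ℕ} [NeZero N] {A : ValuationSubring Qb} {K : IntermediateField ℚ Qb}

/-- **(tr), general form.**  See the file header. -/
theorem trans_of_hyps (hdvr : IsDiscreteValuationRing (OK A K)) {π : OK A K} (hπ : Irreducible π)
    (w : FK N K ≃+* FK N K)
    (hwπ : w (algebraMap (OK A K) (FK N K) π) = algebraMap (OK A K) (FK N K) π)
    (RM : Subalgebra (OK A K) (FK M K)) (R : Subalgebra (OK A K) (FK N K))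
    (α β : FK M K →+* FK N K)
    (hαπ : α (algebraMap (OK A K) (FK M K) π) = algebraMap (OK A K) (FK N K) π)
    (hαR : ∀ y ∈ RM, α y ∈ R) (hβR : ∀ y ∈ RM, β y ∈ R)
    (hwα : ∀ y : FK M K, w (α y) = β y) (hwβ : ∀ y : FK M K, w (β y) = α y)
    (hle1 : ∀ x ∈ R, x ∈ V1 N A K hdvr) (hle2 : ∀ x ∈ R, w x ∈ V1 N A K hdvr)
    (q : ℕ) (hq : 2 ≤ q)
    (hB : ∀ x ∈ R, ∃ y ∈ RM, ∃ z ∈ V1 N A K hdvr,
      x - α y = algebraMap (OK A K) (FK N K) π * z)
    (hIg : IgusaAt M A K RM)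
    (hF : ∀ y ∈ RM, ∃ r ∈ RM, ∃ z ∈ V1 N A K hdvr,
      β y - α r ^ q = algebraMap (OK A K) (FK N K) π * z)
    (P0 P1 : Ideal R)
    (hP0 : ∀ r : R, (∃ z ∈ V1 N A K hdvr,
      (r : FK N K) = algebraMap (OK A K) (FK N K) π * z) → r ∈ P0)
    (hP1 : ∀ r : R, (∃ z ∈ V2 w hdvr,
      (r : FK N K) = algebraMap (OK A K) (FK N K) π * z) → r ∈ P1)
    (n : Ideal R) (hn : n.IsMaximal) (h0 : P0 ≤ n) (h1 : P1 ≤ n) :
    ∀ x ∈ n, ∃ s : R, s ∉ n ∧ s * x ∈ P0 ⊔ P1 := by
  -- the two restricted degeneracy maps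
  let α' : RM →+* R :=
    { toFun := fun y => ⟨α (y : FK M K), hαR y y.2⟩
      map_one' := Subtype.ext (map_one α)
      map_mul' := fun a b => Subtype.ext (map_mul α (a : FK M K) (b : FK M K))
      map_zero' := Subtype.ext (map_zero α)
      map_add' := fun a b => Subtype.ext (map_add α (a : FK M K) (b : FK M K)) }
  let β' : RM →+* R :=
    { toFun := fun y => ⟨β (y : FK M K), hβR y y.2⟩
      map_one' := Subtype.ext (map_one β)
      map_mul' := fun a b => Subtype.ext (map_mul β (a : FK M K) (b : FK M K))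
      map_zero' := Subtype.ext (map_zero β)
      map_add' := fun a b => Subtype.ext (map_add β (a : FK M K) (b : FK M K)) }
  have hα'coe : ∀ y : RM, ((α' y : R) : FK N K) = α (y : FK M K) := fun _ => rfl
  have hβ'coe : ∀ y : RM, ((β' y : R) : FK N K) = β (y : FK M K) := fun _ => rfl
  set ρ₁ := rho1 hdvr R hle1 with hρ₁
  set ρ₂ := rho2 w hdvr R hle2 with hρ₂
  -- kernels
  have hk1 : RingHom.ker ρ₁ ≤ P0 := by
    intro r hr
    rw [RingHom.mem_ker, hρ₁, rho1_apply] at hr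
    exact hP0 r ((red1_eq_zero_iff hdvr hπ _).mp hr)
  have hk2 : RingHom.ker ρ₂ ≤ P1 := by
    intro r hr
    rw [RingHom.mem_ker, hρ₂, rho2_apply] at hr
    obtain ⟨z, hz, hrz⟩ := (red1_eq_zero_iff hdvr hπ _).mp hr
    refine hP1 r ⟨w.symm z, ?_, ?_⟩
    · rw [mem_V2_iff, RingEquiv.apply_symm_apply]
      exact hz
    · apply w.injective
      rw [map_mul, hwπ, RingEquiv.apply_symm_apply]
      exact hrz
  -- the uniformizer dies on branch 1
  have hϖ : ρ₁ (α' (algebraMap (OK A K) RM π)) = 0 := by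
    rw [hρ₁, rho1_apply]
    refine (red1_eq_zero_iff hdvr hπ _).mpr ⟨1, (V1 N A K hdvr).one_mem, ?_⟩
    show α ((algebraMap (OK A K) RM π : RM) : FK M K) = _
    rw [mul_one]
    exact hαπ
  -- branch 1 is the special fibre of `RM`
  have hsurj : ∀ x : R, ∃ s : RM, ρ₁ x = ρ₁ (α' s) := by
    intro x
    obtain ⟨y, hy, z, hz, hxz⟩ := hB x x.2
    refine ⟨⟨y, hy⟩, ?_⟩
    rw [hρ₁, rho1_apply, rho1_apply]
    exact red1_eq_of_sub hdvr hπ _ _ ⟨z, hz, hxz⟩
  -- the Frobenius-power relation on branch 2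
  have hfrob : ∀ s : RM, ∃ r : RM, ρ₂ (α' s) = ρ₂ (β' r) ^ q := by
    intro s
    obtain ⟨r, hr, z, hz, hrz⟩ := hF s s.2
    refine ⟨⟨r, hr⟩, ?_⟩
    rw [← map_pow, hρ₂, rho2_apply, rho2_apply]
    refine red1_eq_of_sub hdvr hπ _ _ ⟨z, hz, ?_⟩
    show w (α (s : FK M K)) - w ((β r) ^ q) = _
    rw [map_pow, hwα, hwβ]
    exact hrz
  intro x hx
  obtain ⟨s, hs, hsx⟩ := TwoBranch.crossing α' β' ρ₁ ρ₂ (algebraMap (OK A K) RM π) q hq hϖ hsurj
    (hIg π hπ) hfrob n hn (hk1.trans h0) (hk2.trans h1) x hx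
  exact ⟨s, hs, sup_le_sup hk1 hk2 hsx⟩

/-- **(tr)** in the exact shape of `ModelPlan2.ChartModel.trans`, for vertical primes `P` with
`LocPlan.ChartHyp π ![V1, V2 w] P`. -/
theorem trans_of_chartHyp (hdvr : IsDiscreteValuationRing (OK A K)) {π : OK A K}
    (hπ : Irreducible π) (w : FK N K ≃+* FK N K)
    (hwπ : w (algebraMap (OK A K) (FK N K) π) = algebraMap (OK A K) (FK N K) π)
    (RM : Subalgebra (OK A K) (FK M K)) (R : Subalgebra (OK A K) (FK N K))
    (α β : FK M K →+* FK N K)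
    (hαπ : α (algebraMap (OK A K) (FK M K) π) = algebraMap (OK A K) (FK N K) π)
    (hαR : ∀ y ∈ RM, α y ∈ R) (hβR : ∀ y ∈ RM, β y ∈ R)
    (hwα : ∀ y : FK M K, w (α y) = β y) (hwβ : ∀ y : FK M K, w (β y) = α y)
    (q : ℕ) (hq : 2 ≤ q)
    (hB : ∀ x ∈ R, ∃ y ∈ RM, ∃ z ∈ V1 N A K hdvr,
      x - α y = algebraMap (OK A K) (FK N K) π * z)
    (hIg : IgusaAt M A K RM)
    (hF : ∀ y ∈ RM, ∃ r ∈ RM, ∃ z ∈ V1 N A K hdvr,
      β y - α r ^ q = algebraMap (OK A K) (FK N K) π * z)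
    (P : Fin 2 → Ideal R)
    (hyp : LocPlan.ChartHyp (R := R) (E := FK N K) π ![V1 N A K hdvr, V2 w hdvr] P) :
    ∀ n : Ideal R, n.IsMaximal → algebraMap (OK A K) R π ∈ n → P 0 ≤ n → P 1 ≤ n →
      ∀ x ∈ n, ∃ s : R, s ∉ n ∧ s * x ∈ P 0 ⊔ P 1 := by
  intro n hn _ h0 h1
  have hle1 : ∀ x ∈ R, x ∈ V1 N A K hdvr := fun x hx => hyp.le 0 ⟨x, hx⟩
  have hle2 : ∀ x ∈ R, w x ∈ V1 N A K hdvr := fun x hx => hyp.le 1 ⟨x, hx⟩
  refine trans_of_hyps hdvr hπ w hwπ RM R α β hαπ hαR hβR hwα hwβ hle1 hle2 q hq hB hIg hF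
    (P 0) (P 1) ?_ ?_ n hn h0 h1
  · rintro r ⟨z, hz, hrz⟩
    exact (hyp.mem_P 0 r).mpr ⟨z, hz, hrz⟩
  · rintro r ⟨z, hz, hrz⟩
    exact (hyp.mem_P 1 r).mpr ⟨z, hz, hrz⟩

/-- **(tr)** with (B1) and (Fr) given through `GRel A · 0` on `q`-expansions. -/
theorem trans_of_gRel (hdvr : IsDiscreteValuationRing (OK A K)) {π : OK A K}
    (hπ : Irreducible π) (w : FK N K ≃+* FK N K)
    (hwπ : w (algebraMap (OK A K) (FK N K) π) = algebraMap (OK A K) (FK N K) π)
    (RM : Subalgebra (OK A K) (FK M K)) (R : Subalgebra (OK A K) (FK N K))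
    (α β : FK M K →+* FK N K)
    (hαπ : α (algebraMap (OK A K) (FK M K) π) = algebraMap (OK A K) (FK N K) π)
    (hαR : ∀ y ∈ RM, α y ∈ R) (hβR : ∀ y ∈ RM, β y ∈ R)
    (hwα : ∀ y : FK M K, w (α y) = β y) (hwβ : ∀ y : FK M K, w (β y) = α y)
    (q : ℕ) (hq : 2 ≤ q)
    (hB : ∀ x ∈ R, ∃ y ∈ RM,
      GRel A (((x - α y : FK N K) : FK N K) : LaurentSeries Qb) 0)
    (hIg : IgusaAt M A K RM)
    (hF : ∀ y ∈ RM, ∃ r ∈ RM,
      GRel A (((β y - α r ^ q : FK N K) : FK N K) : LaurentSeries Qb) 0)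
    (P : Fin 2 → Ideal R)
    (hyp : LocPlan.ChartHyp (R := R) (E := FK N K) π ![V1 N A K hdvr, V2 w hdvr] P) :
    ∀ n : Ideal R, n.IsMaximal → algebraMap (OK A K) R π ∈ n → P 0 ≤ n → P 1 ≤ n →
      ∀ x ∈ n, ∃ s : R, s ∉ n ∧ s * x ∈ P 0 ⊔ P 1 := by
  refine trans_of_chartHyp hdvr hπ w hwπ RM R α β hαπ hαR hβR hwα hwβ q hq ?_ hIg ?_ P hyp
  · intro x hx
    obtain ⟨y, hy, h⟩ := hB x hx
    exact ⟨y, hy, exists_eq_pi_mul_of_gRel_zero hdvr hπ _ h⟩
  · intro y hy
    obtain ⟨r, hr, h⟩ := hF y hy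
    exact ⟨r, hr, exists_eq_pi_mul_of_gRel_zero hdvr hπ _ h⟩

end Main

/-! ### The specialisation to `N = M q`, `w = wK` -/

section WKInst

variable (M q : ℕ) [NeZero M] [NeZero q] (hq : q.Prime) (hqM : ¬ q ∣ M)
variable {A : ValuationSubring Qb} {K : IntermediateField ℚ Qb}

/-- **(tr) for the level `M q` charts**: `w = wK`, `α = alphaK`, `β = betaK`; (B1) in the shape of
`Branch.exists_level` and (Fr) as "`y(Q^q) ≡ r^q` modulo the Gauss maximal ideal". -/
theorem trans_wK (hdvr : IsDiscreteValuationRing (OK A K)) {π : OK A K} (hπ : Irreducible π)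
    (RM : Subalgebra (OK A K) (FK M K)) (R : Subalgebra (OK A K) (FK (M * q) K))
    (hαR : ∀ y ∈ RM, WK.alphaK M q K y ∈ R) (hβR : ∀ y ∈ RM, WK.betaK M q hq hqM K y ∈ R)
    (hB : ∀ x ∈ R, ∃ y ∈ RM,
      GRel A (((x : FK (M * q) K) : LaurentSeries Qb) - ((y : FK M K) : LaurentSeries Qb)) 0)
    (hIg : IgusaAt M A K RM)
    (hF : ∀ y ∈ RM, ∃ r ∈ RM,
      GRel A (qExpand Qb q ((y : FK M K) : LaurentSeries Qb)
        - ((r : FK M K) : LaurentSeries Qb) ^ q) 0)
    (P : Fin 2 → Ideal R)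
    (hyp : LocPlan.ChartHyp (R := R) (E := FK (M * q) K) π
      ![V1 (M * q) A K hdvr, V2 (WK.wK M q hq hqM K) hdvr] P) :
    ∀ n : Ideal R, n.IsMaximal → algebraMap (OK A K) R π ∈ n → P 0 ≤ n → P 1 ≤ n →
      ∀ x ∈ n, ∃ s : R, s ∉ n ∧ s * x ∈ P 0 ⊔ P 1 := by
  refine trans_of_gRel hdvr hπ (WK.wK M q hq hqM K) (WK.wK_algebraMap_OK M q hq hqM K A π) RM R
    (WK.alphaK M q K) (WK.betaK M q hq hqM K) ?_ hαR hβR
    (fun y => WK.wK_alphaK M q hq hqM K y) (fun y => WK.wK_betaK M q hq hqM K y) q hq.two_le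
    ?_ hIg ?_ P hyp
  · exact WK.alphaK_constK M q K (π : K)
  · intro x hx
    obtain ⟨y, hy, h⟩ := hB x hx
    refine ⟨y, hy, ?_⟩
    have e : (((x - WK.alphaK M q K y : FK (M * q) K) : FK (M * q) K) : LaurentSeries Qb)
        = ((x : FK (M * q) K) : LaurentSeries Qb) - ((y : FK M K) : LaurentSeries Qb) := by
      rw [← WK.coe_alphaK M q K y]
      rfl
    rw [e]
    exact h
  · intro y hy
    obtain ⟨r, hr, h⟩ := hF y hy
    refine ⟨r, hr, ?_⟩
    have e : (((WK.betaK M q hq hqM K y - WK.alphaK M q K r ^ q : FK (M * q) K) :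
        FK (M * q) K) : LaurentSeries Qb)
        = qExpand Qb q ((y : FK M K) : LaurentSeries Qb)
          - ((r : FK M K) : LaurentSeries Qb) ^ q := by
      rw [← WK.coe_alphaK M q K r, ← WK.coe_betaK M q hq hqM K y]
      rfl
    rw [e]
    exact h

end WKInst

end Fermat.Agent.S34.TransInst
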