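/-
S34 — U2Red.lean (helper50).  From the FUNCTION-level second-difference statement to the
Jacobian-level target `U2Statement N p q` of `S34/UGlue.lean`.

Notation: `Fb = modularFunctionFieldBar N` (function field of `X₀(N)` over `ℚ̄`), `gal N σ` the
semilinear automorphism of `Fb` attached to `σ ∈ Gal(ℚ̄/ℚ)` (the one defining the Galois action
on `JZero N`).

* `U2FunStatement N A m` — for `f ≠ 0` in `Fb` whose divisor is divisible by `m`, and `τ, τ'` in
  the inertia group of `A`, the second difference `τ'τf · f / (τ'f · τf)` is a constant times an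
  `m`-th power in `Fb`.  (This is what the node block proves for `A` over `q ∥ N`, `m = p ^ n`.)
* `U2OrdStatement N A m` — the same on the level of orders: the divisor of the second difference
  is `m` times a principal divisor.
* `u2Ord_of_fun`, `u2Statement_of_ord`, `u2Statement_of_fun` — the reductions.
-/
import Mathlib
import Fermat.Prelude.Def_ModularCurve_ArithmeticGalois
import Fermat.Agent.S24.PlaceBasic
import Fermat.Agent.S34.UGlue

set_option autoImplicit false

open ModularCurve AlgebraicCurve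

namespace Fermat.Agent.S34.U2Red

noncomputable section

open Fermat.Agent.S29 (Qb GQ)
open Fermat.Agent.S34 (U2Statement)

/-- The semilinear automorphism of `F̄_N` attached to a Galois element. -/
abbrev gal (N : ℕ) (σ : GQ) : SemilinearAut Qb (modularFunctionFieldBar N) :=
  arithmeticGalois (modularFunctionFieldFull N) σ

/-- **Function-level (U_q)**: the second difference of a function with `m`-divisible divisor is a
constant times an `m`-th power. -/
def U2FunStatement (N : ℕ) [NeZero N] (A : ValuationSubring Qb) (m : ℕ) : Prop :=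
  ∀ f : modularFunctionFieldBar N, f ≠ 0 →
    (∀ P : Place Qb (modularFunctionFieldBar N), (m : ℤ) ∣ P.ord f) →
    ∀ τ ∈ A.inertiaSubgroupIn ℚ, ∀ τ' ∈ A.inertiaSubgroupIn ℚ,
      ∃ (h : modularFunctionFieldBar N) (c : Qb), h ≠ 0 ∧ c ≠ 0 ∧
        (gal N τ' • gal N τ • f) * f =
          algebraMap Qb (modularFunctionFieldBar N) c * h ^ m *
            ((gal N τ' • f) * (gal N τ • f))

/-- **Order-level (U_q)**: the divisor of the second difference is `m` times a principal
divisor. -/
def U2OrdStatement (N : ℕ) [NeZero N] (A : ValuationSubring Qb) (m : ℕ) : Prop :=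
  ∀ f : modularFunctionFieldBar N, f ≠ 0 →
    (∀ P : Place Qb (modularFunctionFieldBar N), (m : ℤ) ∣ P.ord f) →
    ∀ τ ∈ A.inertiaSubgroupIn ℚ, ∀ τ' ∈ A.inertiaSubgroupIn ℚ,
      ∃ h : modularFunctionFieldBar N, h ≠ 0 ∧
        ∀ P : Place Qb (modularFunctionFieldBar N),
          P.ord (gal N τ' • gal N τ • f) + P.ord f - P.ord (gal N τ' • f) - P.ord (gal N τ • f)
            = (m : ℤ) * P.ord h

theorem smul_ne_zero' {N : ℕ} (g : SemilinearAut Qb (modularFunctionFieldBar N))
    {f : modularFunctionFieldBar N} (hf : f ≠ 0) : g • f ≠ 0 := by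
  simpa using hf

theorem u2Ord_of_fun {N : ℕ} [NeZero N] {A : ValuationSubring Qb} {m : ℕ}
    (h : U2FunStatement N A m) : U2OrdStatement N A m := by
  intro f hf hdvd τ hτ τ' hτ'
  obtain ⟨k, c, hk, hc, he⟩ := h f hf hdvd τ hτ τ' hτ'
  refine ⟨k, hk, fun P => ?_⟩
  have h1 : gal N τ • f ≠ 0 := smul_ne_zero' _ hf
  have h2 : gal N τ' • f ≠ 0 := smul_ne_zero' _ hf
  have h3 : gal N τ' • gal N τ • f ≠ 0 := smul_ne_zero' _ h1
  have hc' : algebraMap Qb (modularFunctionFieldBar N) c ≠ 0 := by
    simpa using hc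
  have hkm : k ^ m ≠ 0 := pow_ne_zero m hk
  have e := congrArg P.ord he
  rw [Place.ord_mul _ h3 hf, Place.ord_mul _ (mul_ne_zero hc' hkm) (mul_ne_zero h2 h1),
    Place.ord_mul _ hc' hkm, Place.ord_mul _ h2 h1, Fermat.Agent.S24.ord_algebraMap,
    ← zpow_natCast, Place.ord_zpow] at e
  linarith

/-- A class killed by `m` is represented by a divisor `D0` with `m • D0 = div f`. -/
theorem exists_fun_of_nsmul_eq_zero {N : ℕ} (m : ℕ)
    (D0 : Divisor.degZero (K := Qb) (F := modularFunctionFieldBar N))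
    (hm : m • (Pic0.mk D0 : Pic0 Qb (modularFunctionFieldBar N)) = 0) :
    ∃ f : modularFunctionFieldBar N, f ≠ 0 ∧ ∀ v : Place Qb (modularFunctionFieldBar N),
      v.ord f = (m : ℤ) * (D0 : Divisor Qb (modularFunctionFieldBar N)) v := by
  have h2 : m • (D0 : Divisor Qb (modularFunctionFieldBar N)) ∈
      Divisor.principal (K := Qb) (F := modularFunctionFieldBar N) := by
    have h2' : (QuotientAddGroup.mk (m • D0) : Pic0 Qb (modularFunctionFieldBar N)) = 0 := hm
    rw [QuotientAddGroup.eq_zero_iff, AddSubgroup.mem_addSubgroupOf] at h2'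
    exact h2'
  obtain ⟨f, hf0, hf⟩ := h2
  refine ⟨f, hf0, fun v => ?_⟩
  rw [← hf v, Finsupp.smul_apply, nsmul_eq_mul]

/-- If the second-difference divisor is principal, the second difference of the class
vanishes. -/
theorem pic0_secondDiff {N : ℕ} (g g' : SemilinearAut Qb (modularFunctionFieldBar N))
    (D0 : Divisor.degZero (K := Qb) (F := modularFunctionFieldBar N))
    (hprin : (g' • g • (D0 : Divisor Qb (modularFunctionFieldBar N)) + D0
      - (g' • (D0 : Divisor Qb (modularFunctionFieldBar N)) + g • D0)) ∈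
      Divisor.principal (K := Qb) (F := modularFunctionFieldBar N)) :
    g' • g • (Pic0.mk D0 : Pic0 Qb (modularFunctionFieldBar N)) + Pic0.mk D0
      = g' • Pic0.mk D0 + g • Pic0.mk D0 := by
  rw [SemilinearAut.pic0_smul_mk, SemilinearAut.pic0_smul_mk, SemilinearAut.pic0_smul_mk,
    ← Pic0.mk_add, ← Pic0.mk_add]
  unfold Pic0.mk
  rw [QuotientAddGroup.eq_iff_sub_mem, AddSubgroup.mem_addSubgroupOf]
  exact hprin

/-- Orders of a translate of a function with divisor `m • D0`. -/
theorem ord_smul_eq {N : ℕ} (m : ℤ) (D0 : Divisor Qb (modularFunctionFieldBar N))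
    (f : modularFunctionFieldBar N)
    (hfv : ∀ v : Place Qb (modularFunctionFieldBar N), v.ord f = m * D0 v)
    (s : SemilinearAut Qb (modularFunctionFieldBar N))
    (v : Place Qb (modularFunctionFieldBar N)) :
    v.ord (s • f) = m * (s • D0) v := by
  have e1 := SemilinearAut.ord_smul s (s⁻¹ • v) f
  rw [smul_inv_smul] at e1
  rw [e1, hfv, SemilinearAut.divisor_smul_apply]

theorem u2Statement_of_ord (N p q : ℕ) [NeZero N] (hp : p ≠ 0)
    (h : ∀ A : ValuationSubring Qb, A.LiesOverPrime q → ∀ n : ℕ, U2OrdStatement N A (p ^ n)) :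
    U2Statement N p q := by
  classical
  intro A hA τ hτ τ' hτ' x hx
  obtain ⟨n, hn⟩ := hx
  obtain ⟨D0, rfl⟩ := Pic0.mk_surjective x
  obtain ⟨f, hf0, hfv⟩ := exists_fun_of_nsmul_eq_zero (p ^ n) D0 hn
  have hdvd : ∀ P : Place Qb (modularFunctionFieldBar N), ((p ^ n : ℕ) : ℤ) ∣ P.ord f :=
    fun P => ⟨_, hfv P⟩
  obtain ⟨k, hk0, hk⟩ := h A hA n f hf0 hdvd τ hτ τ' hτ'
  have hpn : ((p ^ n : ℕ) : ℤ) ≠ 0 := by
    exact_mod_cast pow_ne_zero n hp
  refine pic0_secondDiff (gal N τ) (gal N τ') D0 ⟨k, hk0, fun v => ?_⟩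
  have e := hk v
  have e3 : v.ord (gal N τ' • gal N τ • f) = ((p ^ n : ℕ) : ℤ) *
      (gal N τ' • gal N τ • (D0 : Divisor Qb (modularFunctionFieldBar N))) v := by
    rw [← mul_smul, ord_smul_eq _ _ f hfv, mul_smul]
  rw [e3, hfv, ord_smul_eq _ _ f hfv, ord_smul_eq _ _ f hfv] at e
  rw [Finsupp.sub_apply, Finsupp.add_apply, Finsupp.add_apply]
  apply mul_left_cancel₀ hpn
  rw [← e]
  ring

theorem u2Statement_of_fun (N p q : ℕ) [NeZero N] (hp : p ≠ 0)
    (h : ∀ A : ValuationSubring Qb, A.LiesOverPrime q → ∀ n : ℕ, U2FunStatement N A (p ^ n)) :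
    U2Statement N p q :=
  u2Statement_of_ord N p q hp fun A hA n => u2Ord_of_fun (h A hA n)

end

end Fermat.Agent.S34.U2Red
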