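/-
S34, block (U_q) — UFun.lean (helper52): reduction of the unipotent-monodromy statement to a
statement about FUNCTIONS.

For `x = [D] ∈ J₀(N)` with `p ^ n • x = 0`, i.e. `p ^ n • D = div f`, and `τ, τ'` in `G_ℚ`, the
class `(τ' - 1)(τ - 1) x` is the class of `E = τ'τD + D - τ'D - τD`, and
`p ^ n • E = div (τ'τf · f / (τ'f · τf))`.  Hence

* `UFunStatement N p q` : for `τ, τ'` in an inertia group at `q` and every `f ∈ F̄_N` all of whose
  orders are divisible by `p ^ n`, the second difference `τ'τf · f / (τ'f · τf)` is a nonzero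
  constant times a `p ^ n`-th power in `F̄_N`

implies `U2Statement N p q` (`u2Statement_of_uFun`), the second-difference form of (U_q) consumed
by `S34/UGlue.lean`.  Only the frozen vocabulary (`JZero N`, the arithmetic Galois action,
`Place.ord`) is used; no model, no valuation of `ℚ̄`.
-/
import Mathlib
import Fermat.Agent.S24.PlaceBasic
import Fermat.Agent.S34.UGlue

set_option autoImplicit false

namespace Fermat.Agent.S34.UFun

open ModularCurve AlgebraicCurve
open Fermat.Agent.S29 (Qb GQ)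

noncomputable section

/-- The coefficientwise action of `σ ∈ G_ℚ` on `F̄_N ⊆ ℚ̄((q))`. -/
abbrev gal (N : ℕ) (σ : GQ) : ↥(modularFunctionFieldBar N) ≃+* ↥(modularFunctionFieldBar N) :=
  arithmeticRingAut (modularFunctionFieldFull N) σ

theorem coe_gal (N : ℕ) (σ : GQ) (f : ↥(modularFunctionFieldBar N)) :
    ((gal N σ f : ↥(modularFunctionFieldBar N)) : LaurentSeries Qb)
      = coeffMap (σ : Qb →+* Qb) (f : LaurentSeries Qb) := rfl

/-- **(U_q), function form.**  For `τ, τ'` in an inertia group at `q` and `f ∈ F̄_N` with all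
orders divisible by `p ^ n`, the second difference `τ'τf · f / (τ'f · τf)` is a nonzero constant
times a `p ^ n`-th power. -/
def UFunStatement (N p q : ℕ) [NeZero N] : Prop :=
  ∀ P : ValuationSubring Qb, P.LiesOverPrime q →
    ∀ τ ∈ P.inertiaSubgroupIn ℚ, ∀ τ' ∈ P.inertiaSubgroupIn ℚ,
    ∀ (n : ℕ) (f : ↥(modularFunctionFieldBar N)), f ≠ 0 →
      (∀ w : Place Qb ↥(modularFunctionFieldBar N), ((p ^ n : ℕ) : ℤ) ∣ w.ord f) →
      ∃ (c : Qb) (h : ↥(modularFunctionFieldBar N)), c ≠ 0 ∧ h ≠ 0 ∧
        gal N τ' (gal N τ f) * f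
          = algebraMap Qb ↥(modularFunctionFieldBar N) c * h ^ (p ^ n) * (gal N τ' f * gal N τ f)

section Generic

variable {K F : Type*} [Field K] [Field F] [Algebra K F]

/-- Transport of a Kummer relation `m • D = div f` along a semilinear automorphism. -/
theorem smul_kummer (g : SemilinearAut K F) {m : ℤ} {D : Divisor K F} {f : F}
    (h : ∀ w : Place K F, m * D w = w.ord f) (w : Place K F) :
    m * (g • D) w = w.ord (g • f) := by
  rw [SemilinearAut.divisor_smul_apply, h (g⁻¹ • w)]
  have h1 := SemilinearAut.ord_smul g (g⁻¹ • w) f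
  rw [smul_inv_smul] at h1
  exact h1.symm

/-- The second difference of a class killed by `m ≠ 0` vanishes as soon as the second difference
of its Kummer function is a constant times an `m`-th power. -/
theorem second_difference_eq (g g' : SemilinearAut K F) {m : ℕ} (hm : m ≠ 0)
    (D : Divisor.degZero (K := K) (F := F)) {f : F} (hf : f ≠ 0)
    (hD : ∀ w : Place K F, (m : ℤ) * (D : Divisor K F) w = w.ord f)
    {c : K} {h : F} (hh : h ≠ 0)
    (hG : g' • (g • f) * f = algebraMap K F c * h ^ m * (g' • f * g • f)) :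
    g' • (g • Pic0.mk D) + Pic0.mk D = g' • Pic0.mk D + g • Pic0.mk D := by
  have hc : algebraMap K F c ≠ 0 := by
    intro h0
    rw [h0, zero_mul, zero_mul] at hG
    rcases mul_eq_zero.mp hG with h1 | h1
    · exact hf (by
        have h2 : g • f = 0 := (smul_eq_zero_iff_eq g').mp h1
        exact (smul_eq_zero_iff_eq g).mp h2)
    · exact hf h1
  have hgf : g • f ≠ 0 := fun h0 => hf ((smul_eq_zero_iff_eq g).mp h0)
  have hg'f : g' • f ≠ 0 := fun h0 => hf ((smul_eq_zero_iff_eq g').mp h0)
  have hg'gf : g' • (g • f) ≠ 0 := fun h0 => hgf ((smul_eq_zero_iff_eq g').mp h0)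
  simp only [SemilinearAut.pic0_smul_mk]
  rw [← Pic0.mk_add, ← Pic0.mk_add]
  refine QuotientAddGroup.eq.mpr ?_
  rw [AddSubgroup.mem_addSubgroupOf]
  refine ⟨h⁻¹, inv_ne_zero hh, fun w => ?_⟩
  have e1 : (m : ℤ) * (g • (D : Divisor K F)) w = w.ord (g • f) := smul_kummer g hD w
  have e2 : (m : ℤ) * (g' • (D : Divisor K F)) w = w.ord (g' • f) := smul_kummer g' hD w
  have e3 : (m : ℤ) * (g' • (g • (D : Divisor K F))) w = w.ord (g' • (g • f)) :=
    smul_kummer g' (smul_kummer g hD) w
  have e4 := hD w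
  have e5 := congrArg w.ord hG
  rw [w.ord_mul hg'gf hf, w.ord_mul (mul_ne_zero hc (pow_ne_zero m hh)) (mul_ne_zero hg'f hgf),
    w.ord_mul hc (pow_ne_zero m hh), w.ord_mul hg'f hgf, Fermat.Agent.S24.ord_algebraMap,
    ← zpow_natCast, w.ord_zpow] at e5
  have key : ((-(SemilinearAut.degZeroSMulHom g' (SemilinearAut.degZeroSMulHom g D) + D)
      + (SemilinearAut.degZeroSMulHom g' D + SemilinearAut.degZeroSMulHom g D) :
        Divisor.degZero (K := K) (F := F)) : Divisor K F) w
      = -((g' • (g • (D : Divisor K F))) w + (D : Divisor K F) w)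
        + ((g' • (D : Divisor K F)) w + (g • (D : Divisor K F)) w) := by
    simp
  rw [key, Place.ord_inv]
  have hm' : (m : ℤ) ≠ 0 := by exact_mod_cast hm
  apply mul_left_cancel₀ hm'
  linear_combination (-1 : ℤ) * e3 - e4 + e2 + e1 - e5

end Generic

/-- **(U_q) in second-difference form from its function form.** -/
theorem u2Statement_of_uFun {N p q : ℕ} [NeZero N] (hp : p ≠ 0) (h : UFunStatement N p q) :
    U2Statement N p q := by
  intro P hP τ hτ τ' hτ' x hx
  obtain ⟨n, hn⟩ := hx
  obtain ⟨D, rfl⟩ := Pic0.mk_surjective x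
  have h0 : Pic0.mk ((p ^ n) • D) = 0 := hn
  have h1 := (QuotientAddGroup.eq_zero_iff _).mp h0
  rw [AddSubgroup.mem_addSubgroupOf] at h1
  obtain ⟨f, hf, hfD⟩ := h1
  have hD : ∀ w : Place Qb ↥(modularFunctionFieldBar N),
      ((p ^ n : ℕ) : ℤ) * (D : Divisor Qb ↥(modularFunctionFieldBar N)) w = w.ord f := by
    intro w
    rw [← hfD w]
    simp
  obtain ⟨c, k, _, hk, hG⟩ := h P hP τ hτ τ' hτ' n f hf (fun w => ⟨_, (hD w).symm⟩)
  exact second_difference_eq (arithmeticGalois (modularFunctionFieldFull N) τ)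
    (arithmeticGalois (modularFunctionFieldFull N) τ') (pow_ne_zero n hp) D hf hD hk hG

end

end Fermat.Agent.S34.UFun
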