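import Fermat.Agent.S34.WK
import Fermat.Agent.S34.TauAct

/-!
# S34 [MODULAR] — WKB.lean (helper18): the packaged Atkin–Lehner data on `F_K`

The existence statement consumed by the assembly of the modular block (`Model2Asm`): at level
`M * q` (`q` prime, `q ∤ M`), over any intermediate field `K` of `ℚ̄/ℚ` and any valuation
subring `A` of `ℚ̄`, there are

* a ring involution `w` of `F_K = FK (M * q) K` fixing the constants of `O = A ∩ K`,
* the two degeneracy maps `α, β : FK M K → FK (M * q) K` (`α y = y`, `β y = y(x^q)` on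
  `q`-expansions), swapped by `w`, with `α` fixing the constants of `O`,
* and `w` commutes with the coefficientwise action `TauAct.tauE` of every `τ ∈ Gal(ℚ̄/ℚ)`
  stabilising `K`.

Everything is read off from `S34/WK.lean` (helper79: `wK`, `alphaK`, `betaK`) and
`S34/TauAct.lean` (helper94: `Stable`, `tauE`).
-/

set_option autoImplicit false

noncomputable section

namespace Fermat.Agent.S34.WKB

open ModularCurve HahnSeries AlgebraicCurve Fermat.Agent.S18.Arith

set_option synthInstance.maxHeartbeats 400000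

variable (M q : ℕ) [NeZero M] [NeZero q] (hq : q.Prime) (hqM : ¬ q ∣ M)
variable (K : IntermediateField ℚ Qb)

/-- `w_q` commutes with the coefficientwise action of a `τ` stabilising `K`. -/
theorem wK_tauE {τ : TauAct.GQ} (hK : TauAct.Stable K τ) (x : FK (M * q) K) :
    WK.wK M q hq hqM K (TauAct.tauE (M * q) hK x)
      = TauAct.tauE (M * q) hK (WK.wK M q hq hqM K x) :=
  Subtype.ext
    (WK.coe_wK_of_coeffMap M q hq hqM K τ x (TauAct.tauE (M * q) hK x) rfl)

/-- `α` fixes the constants of `O = A ∩ K`. -/
theorem alphaK_algebraMap_OK (A : ValuationSubring Qb) (c : OK A K) :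
    WK.alphaK M q K (algebraMap (OK A K) (FK M K) c)
      = algebraMap (OK A K) (FK (M * q) K) c :=
  WK.alphaK_constK M q K (c : K)

/-- `β` fixes the constants of `O = A ∩ K`. -/
theorem betaK_algebraMap_OK (A : ValuationSubring Qb) (c : OK A K) :
    WK.betaK M q hq hqM K (algebraMap (OK A K) (FK M K) c)
      = algebraMap (OK A K) (FK (M * q) K) c :=
  WK.betaK_constK M q hq hqM K (c : K)

include hq hqM in
/-- **[WK], packaged.**  The Atkin–Lehner involution `w` of `F_K = FK (M * q) K` together with
the two degeneracy maps `α, β : FK M K → FK (M * q) K`. -/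
theorem exists_w (A : ValuationSubring Qb) :
    ∃ (w : FK (M * q) K ≃+* FK (M * q) K) (α β : FK M K →+* FK (M * q) K),
      (∀ c : OK A K, w (algebraMap (OK A K) (FK (M * q) K) c)
        = algebraMap (OK A K) (FK (M * q) K) c) ∧
      (∀ x : FK (M * q) K, w (w x) = x) ∧
      (∀ y : FK M K, w (α y) = β y) ∧
      (∀ y : FK M K, ((α y : FK (M * q) K) : LaurentSeries Qb) = (y : LaurentSeries Qb)) ∧
      (∀ y : FK M K, ((β y : FK (M * q) K) : LaurentSeries Qb)
        = qExpand Qb q (y : LaurentSeries Qb)) ∧
      (∀ c : OK A K, α (algebraMap (OK A K) (FK M K) c)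
        = algebraMap (OK A K) (FK (M * q) K) c) ∧
      (∀ (τ : TauAct.GQ) (hK : TauAct.Stable K τ) (x : FK (M * q) K),
        w (TauAct.tauE (M * q) hK x) = TauAct.tauE (M * q) hK (w x)) :=
  ⟨WK.wK M q hq hqM K, WK.alphaK M q K, WK.betaK M q hq hqM K,
    WK.wK_algebraMap_OK M q hq hqM K A,
    WK.wK_wK M q hq hqM K,
    WK.wK_alphaK M q hq hqM K,
    WK.coe_alphaK M q K,
    WK.coe_betaK M q hq hqM K,
    alphaK_algebraMap_OK M q K A,
    fun _ hK x => wK_tauE M q hq hqM K hK x⟩

end Fermat.Agent.S34.WKB
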