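import Mathlib
import Fermat.Agent.S34.LocPlan

/-!
# S34, MODULAR block, leaf [WTransport] (abstract): the second branch by transport

Abstract setting (no modular objects): `R` a commutative ring (a chart), `E` a field with an
injective `algebraMap R E` (its function field), `ϖ : R` (the uniformizer of the base), two
valuation rings `V 0`, `V 1` of `E` and the two vertical ideals `P i = R ∩ ϖ (V i)` (the shape of
`LocPlan.ChartHyp.mem_P`), and an automorphism `w` of `E` ("Atkin–Lehner") with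

* `w ϖ = ϖ`;
* `w R = R` (`w` and `w.symm` map `R` into `R`);
* `V 1 = w⁻¹ (V 0)`.

Then `w` restricts to an automorphism `wR` of `R`, `P 1 = wR⁻¹ (P 0)`, and the "regular branch"
hypothesis of `LocPlan.CutAtStatement` / `ModelPlan2.ChartModel.branch`

  `∀ n maximal, ϖ ∈ n → 𝔭 ≤ n → (∃ x ∈ n, x ∉ 𝔭) ∧ ∃ u ∈ n, ∀ x ∈ n, ∃ s ∉ n, ∃ c, s x - c u ∈ 𝔭`

for `𝔭 = P 0` implies the same hypothesis for `𝔭 = P 1` (apply it at the closed point `wR n`).

Main statements: `branchAt_comap`, `wR`, `P_one_eq_comap`, `branchAt_one`, `branch_of_zero`,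
`branch_of_chartHyp`.
-/

set_option autoImplicit false

namespace Fermat.Agent.S34.WTransport

open Fermat.Agent.S34

/-! ### The branch hypothesis and its transport along an automorphism of the chart -/

section Ring

variable {R : Type*} [CommRing R]

/-- The branch through the vertical ideal `𝔭` is regular of dimension one at every closed point
`n ∋ ϖ` on it: `𝔭 ≠ n` and `n / 𝔭` is locally principal at `n`.  (One index `i` of
`ModelPlan2.ChartModel.branch`, for all closed points at once.) -/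
def BranchAt (ϖ : R) (𝔭 : Ideal R) : Prop :=
  ∀ n : Ideal R, n.IsMaximal → ϖ ∈ n → 𝔭 ≤ n →
    (∃ x ∈ n, x ∉ 𝔭) ∧ ∃ u ∈ n, ∀ x ∈ n, ∃ s : R, s ∉ n ∧ ∃ c : R, s * x - c * u ∈ 𝔭

/-- **(W0)** Transport of the branch hypothesis along an automorphism `e` of `R` fixing `ϖ`:
from `𝔭` to `e⁻¹ 𝔭`. -/
theorem branchAt_comap {ϖ : R} {𝔭 : Ideal R} (e : R ≃+* R) (he : e ϖ = ϖ)
    (h : BranchAt ϖ 𝔭) : BranchAt ϖ (𝔭.comap (e : R →+* R)) := by
  intro n hn hϖn hle
  -- the closed point `n' = e n`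
  have hn' : (n.comap (e.symm : R →+* R)).IsMaximal := Ideal.comap_isMaximal_of_equiv e.symm
  have hϖ' : ϖ ∈ n.comap (e.symm : R →+* R) := by
    rw [Ideal.mem_comap]
    have h1 : e.symm ϖ = ϖ := by
      rw [RingEquiv.symm_apply_eq]
      exact he.symm
    change e.symm ϖ ∈ n
    rw [h1]
    exact hϖn
  have hle' : 𝔭 ≤ n.comap (e.symm : R →+* R) := by
    intro r hr
    rw [Ideal.mem_comap]
    apply hle
    rw [Ideal.mem_comap]
    change e (e.symm r) ∈ 𝔭
    rw [RingEquiv.apply_symm_apply]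
    exact hr
  obtain ⟨⟨x', hx'n, hx'p⟩, u', hu'n, hu'⟩ := h _ hn' hϖ' hle'
  refine ⟨⟨e.symm x', hx'n, ?_⟩, e.symm u', hu'n, ?_⟩
  · intro hmem
    apply hx'p
    have h2 : e (e.symm x') ∈ 𝔭 := hmem
    rwa [RingEquiv.apply_symm_apply] at h2
  · intro x hx
    have hex : e x ∈ n.comap (e.symm : R →+* R) := by
      rw [Ideal.mem_comap]
      change e.symm (e x) ∈ n
      rw [RingEquiv.symm_apply_apply]
      exact hx
    obtain ⟨s', hs', c', hc'⟩ := hu' (e x) hex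
    refine ⟨e.symm s', hs', e.symm c', ?_⟩
    rw [Ideal.mem_comap]
    change e (e.symm s' * x - e.symm c' * e.symm u') ∈ 𝔭
    rw [map_sub, map_mul, map_mul, RingEquiv.apply_symm_apply, RingEquiv.apply_symm_apply,
      RingEquiv.apply_symm_apply]
    exact hc'

/-- Primality is transported. -/
theorem isPrime_comap {𝔭 : Ideal R} (e : R ≃+* R) (h : 𝔭.IsPrime) :
    (𝔭.comap (e : R →+* R)).IsPrime :=
  Ideal.comap_isPrime (e : R →+* R) 𝔭

/-- `e⁻¹ 𝔭 ≤ n ↔ 𝔭 ≤ e n`. -/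
theorem comap_le_iff {𝔭 n : Ideal R} (e : R ≃+* R) :
    𝔭.comap (e : R →+* R) ≤ n ↔ 𝔭 ≤ n.comap (e.symm : R →+* R) := by
  constructor
  · intro h r hr
    rw [Ideal.mem_comap]
    apply h
    rw [Ideal.mem_comap]
    change e (e.symm r) ∈ 𝔭
    rw [RingEquiv.apply_symm_apply]
    exact hr
  · intro h r hr
    have h1 : e r ∈ n.comap (e.symm : R →+* R) := h hr
    rw [Ideal.mem_comap] at h1
    have h2 : e.symm (e r) ∈ n := h1
    rwa [RingEquiv.symm_apply_apply] at h2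

end Ring

/-! ### Restriction of an automorphism of the fraction field to the chart -/

section Restrict

variable {R : Type*} [CommRing R] {E : Type*} [Field E] [Algebra R E]

/-- The underlying function of the restriction. -/
noncomputable def wFun (w : E ≃+* E)
    (hw : ∀ r : R, ∃ r' : R, w (algebraMap R E r) = algebraMap R E r') (r : R) : R :=
  Classical.choose (hw r)

theorem algebraMap_wFun (w : E ≃+* E)
    (hw : ∀ r : R, ∃ r' : R, w (algebraMap R E r) = algebraMap R E r') (r : R) :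
    algebraMap R E (wFun w hw r) = w (algebraMap R E r) :=
  (Classical.choose_spec (hw r)).symm

/-- **(W1)** The restriction `wR : R ≃+* R` of an automorphism `w` of `E` with `w R = R`. -/
noncomputable def wR (hinj : Function.Injective (algebraMap R E)) (w : E ≃+* E)
    (hw : ∀ r : R, ∃ r' : R, w (algebraMap R E r) = algebraMap R E r')
    (hw' : ∀ r : R, ∃ r' : R, w.symm (algebraMap R E r) = algebraMap R E r') : R ≃+* R where
  toFun := wFun w hw
  invFun := wFun w.symm hw'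
  left_inv := by
    intro r
    apply hinj
    rw [algebraMap_wFun, algebraMap_wFun, RingEquiv.symm_apply_apply]
  right_inv := by
    intro r
    apply hinj
    rw [algebraMap_wFun, algebraMap_wFun, RingEquiv.apply_symm_apply]
  map_mul' := by
    intro a b
    apply hinj
    rw [map_mul, algebraMap_wFun, algebraMap_wFun, algebraMap_wFun, map_mul, map_mul]
  map_add' := by
    intro a b
    apply hinj
    rw [map_add, algebraMap_wFun, algebraMap_wFun, algebraMap_wFun, map_add, map_add]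

variable (hinj : Function.Injective (algebraMap R E)) (w : E ≃+* E)
  (hw : ∀ r : R, ∃ r' : R, w (algebraMap R E r) = algebraMap R E r')
  (hw' : ∀ r : R, ∃ r' : R, w.symm (algebraMap R E r) = algebraMap R E r')

theorem algebraMap_wR (r : R) :
    algebraMap R E (wR hinj w hw hw' r) = w (algebraMap R E r) :=
  algebraMap_wFun w hw r

theorem algebraMap_wR_symm (r : R) :
    algebraMap R E ((wR hinj w hw hw').symm r) = w.symm (algebraMap R E r) :=
  algebraMap_wFun w.symm hw' r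

/-- An element of `R` fixed by `w` is fixed by `wR`. -/
theorem wR_fix {a : R} (ha : w (algebraMap R E a) = algebraMap R E a) :
    wR hinj w hw hw' a = a := by
  apply hinj
  rw [algebraMap_wR, ha]

theorem wR_symm_fix {a : R} (ha : w (algebraMap R E a) = algebraMap R E a) :
    (wR hinj w hw hw').symm a = a := by
  rw [RingEquiv.symm_apply_eq, wR_fix hinj w hw hw' ha]

include hinj hw hw' in
/-- Existence form of the restriction. -/
theorem exists_restrict :
    ∃ e : R ≃+* R, (∀ r : R, algebraMap R E (e r) = w (algebraMap R E r)) ∧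
      ∀ r : R, algebraMap R E (e.symm r) = w.symm (algebraMap R E r) :=
  ⟨wR hinj w hw hw', algebraMap_wR hinj w hw hw', algebraMap_wR_symm hinj w hw hw'⟩

end Restrict

/-! ### The two vertical ideals -/

section Vertical

variable {R : Type*} [CommRing R] {E : Type*} [Field E] [Algebra R E]
  (hinj : Function.Injective (algebraMap R E)) (w : E ≃+* E)
  (hw : ∀ r : R, ∃ r' : R, w (algebraMap R E r) = algebraMap R E r')
  (hw' : ∀ r : R, ∃ r' : R, w.symm (algebraMap R E r) = algebraMap R E r')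
  {ϖ : R} {V : Fin 2 → ValuationSubring E} {P : Fin 2 → Ideal R}

include hinj hw hw'

/-- **(W2)** `P 1 = wR⁻¹ (P 0)`: for `P i = R ∩ ϖ (V i)`, `w ϖ = ϖ` and `V 1 = w⁻¹ (V 0)`. -/
theorem P_one_eq_comap
    (hP : ∀ (i : Fin 2) (r : R),
      r ∈ P i ↔ ∃ y ∈ V i, algebraMap R E r = algebraMap R E ϖ * y)
    (hwϖ : w (algebraMap R E ϖ) = algebraMap R E ϖ)
    (hV : ∀ x : E, x ∈ V 1 ↔ w x ∈ V 0) :
    P 1 = (P 0).comap (wR hinj w hw hw' : R →+* R) := by
  ext r
  rw [Ideal.mem_comap, hP 1, hP 0]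
  change _ ↔ ∃ y ∈ V 0, algebraMap R E (wR hinj w hw hw' r) = algebraMap R E ϖ * y
  rw [algebraMap_wR]
  constructor
  · rintro ⟨y, hy, hry⟩
    refine ⟨w y, (hV y).1 hy, ?_⟩
    rw [hry, map_mul, hwϖ]
  · rintro ⟨y, hy, hry⟩
    refine ⟨w.symm y, (hV _).2 ?_, ?_⟩
    · rw [RingEquiv.apply_symm_apply]
      exact hy
    · have h1 : algebraMap R E r = w.symm (algebraMap R E ϖ * y) := by
        rw [← hry, RingEquiv.symm_apply_apply]
      have h2 : w.symm (algebraMap R E ϖ) = algebraMap R E ϖ := by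
        rw [RingEquiv.symm_apply_eq]
        exact hwϖ.symm
      rw [h1, map_mul, h2]

/-- `P 0 = wR (P 1)`. -/
theorem P_zero_eq_comap_symm
    (hP : ∀ (i : Fin 2) (r : R),
      r ∈ P i ↔ ∃ y ∈ V i, algebraMap R E r = algebraMap R E ϖ * y)
    (hwϖ : w (algebraMap R E ϖ) = algebraMap R E ϖ)
    (hV : ∀ x : E, x ∈ V 1 ↔ w x ∈ V 0) :
    P 0 = (P 1).comap ((wR hinj w hw hw').symm : R →+* R) := by
  rw [P_one_eq_comap hinj w hw hw' hP hwϖ hV]
  ext r
  rw [Ideal.mem_comap, Ideal.mem_comap]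
  change r ∈ P 0 ↔ (wR hinj w hw hw') ((wR hinj w hw hw').symm r) ∈ P 0
  rw [RingEquiv.apply_symm_apply]

/-- `P 1 ≤ n ↔ P 0 ≤ wR n`. -/
theorem P_one_le_iff
    (hP : ∀ (i : Fin 2) (r : R),
      r ∈ P i ↔ ∃ y ∈ V i, algebraMap R E r = algebraMap R E ϖ * y)
    (hwϖ : w (algebraMap R E ϖ) = algebraMap R E ϖ)
    (hV : ∀ x : E, x ∈ V 1 ↔ w x ∈ V 0) (n : Ideal R) :
    P 1 ≤ n ↔ P 0 ≤ n.comap ((wR hinj w hw hw').symm : R →+* R) := by
  rw [P_one_eq_comap hinj w hw hw' hP hwϖ hV]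
  exact comap_le_iff _

/-- `P 1` is prime if `P 0` is. -/
theorem isPrime_P_one
    (hP : ∀ (i : Fin 2) (r : R),
      r ∈ P i ↔ ∃ y ∈ V i, algebraMap R E r = algebraMap R E ϖ * y)
    (hwϖ : w (algebraMap R E ϖ) = algebraMap R E ϖ)
    (hV : ∀ x : E, x ∈ V 1 ↔ w x ∈ V 0) (h0 : (P 0).IsPrime) : (P 1).IsPrime := by
  rw [P_one_eq_comap hinj w hw hw' hP hwϖ hV]
  exact isPrime_comap _ h0

/-- `ϖ ∈ P 1` if `ϖ ∈ P 0`. -/
theorem pi_mem_P_one
    (hP : ∀ (i : Fin 2) (r : R),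
      r ∈ P i ↔ ∃ y ∈ V i, algebraMap R E r = algebraMap R E ϖ * y)
    (hwϖ : w (algebraMap R E ϖ) = algebraMap R E ϖ)
    (hV : ∀ x : E, x ∈ V 1 ↔ w x ∈ V 0) (h0 : ϖ ∈ P 0) : ϖ ∈ P 1 := by
  rw [P_one_eq_comap hinj w hw hw' hP hwϖ hV, Ideal.mem_comap]
  change wR hinj w hw hw' ϖ ∈ P 0
  rw [wR_fix hinj w hw hw' hwϖ]
  exact h0

/-- **(W3)** The branch hypothesis for `P 0` implies the branch hypothesis for `P 1`. -/
theorem branchAt_one
    (hP : ∀ (i : Fin 2) (r : R),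
      r ∈ P i ↔ ∃ y ∈ V i, algebraMap R E r = algebraMap R E ϖ * y)
    (hwϖ : w (algebraMap R E ϖ) = algebraMap R E ϖ)
    (hV : ∀ x : E, x ∈ V 1 ↔ w x ∈ V 0)
    (h0 : BranchAt ϖ (P 0)) : BranchAt ϖ (P 1) := by
  rw [P_one_eq_comap hinj w hw hw' hP hwϖ hV]
  exact branchAt_comap _ (wR_fix hinj w hw hw' hwϖ) h0

/-- **(W4)** The `branch` field of `ModelPlan2.ChartModel` (both indices) from the branch
hypothesis for `P 0` alone. -/
theorem branch_of_zero
    (hP : ∀ (i : Fin 2) (r : R),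
      r ∈ P i ↔ ∃ y ∈ V i, algebraMap R E r = algebraMap R E ϖ * y)
    (hwϖ : w (algebraMap R E ϖ) = algebraMap R E ϖ)
    (hV : ∀ x : E, x ∈ V 1 ↔ w x ∈ V 0)
    (h0 : ∀ n : Ideal R, n.IsMaximal → ϖ ∈ n → P 0 ≤ n →
      (∃ x ∈ n, x ∉ P 0) ∧ ∃ u ∈ n, ∀ x ∈ n, ∃ s : R, s ∉ n ∧ ∃ c : R, s * x - c * u ∈ P 0) :
    ∀ n : Ideal R, n.IsMaximal → ϖ ∈ n → ∀ i : Fin 2, P i ≤ n →
      (∃ x ∈ n, x ∉ P i) ∧ ∃ u ∈ n, ∀ x ∈ n, ∃ s : R, s ∉ n ∧ ∃ c : R, s * x - c * u ∈ P i := by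
  have h1 : BranchAt ϖ (P 1) := branchAt_one hinj w hw hw' hP hwϖ hV h0
  intro n hn hϖn i
  fin_cases i
  · exact h0 n hn hϖn
  · exact h1 n hn hϖn

/-- The same with `V 1 = (V 0).comap w` as an equality of valuation subrings. -/
theorem branch_of_zero'
    (hP : ∀ (i : Fin 2) (r : R),
      r ∈ P i ↔ ∃ y ∈ V i, algebraMap R E r = algebraMap R E ϖ * y)
    (hwϖ : w (algebraMap R E ϖ) = algebraMap R E ϖ)
    (hV : V 1 = (V 0).comap (w : E →+* E))
    (h0 : ∀ n : Ideal R, n.IsMaximal → ϖ ∈ n → P 0 ≤ n →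
      (∃ x ∈ n, x ∉ P 0) ∧ ∃ u ∈ n, ∀ x ∈ n, ∃ s : R, s ∉ n ∧ ∃ c : R, s * x - c * u ∈ P 0) :
    ∀ n : Ideal R, n.IsMaximal → ϖ ∈ n → ∀ i : Fin 2, P i ≤ n →
      (∃ x ∈ n, x ∉ P i) ∧ ∃ u ∈ n, ∀ x ∈ n, ∃ s : R, s ∉ n ∧ ∃ c : R, s * x - c * u ∈ P i := by
  refine branch_of_zero hinj w hw hw' hP hwϖ (fun x => ?_) h0
  rw [hV]
  exact Iff.rfl

end Vertical

/-! ### The `LocPlan.ChartHyp` form -/

section ChartHyp

variable {O : Type*} [CommRing O] {R : Type*} [CommRing R] [Algebra O R]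
  {E : Type*} [Field E] [Algebra R E]

/-- **(W5)** The `branch` field of `ModelPlan2.ChartModel` for a chart with `LocPlan.ChartHyp`,
from the branch hypothesis for `P 0` and an automorphism `w` of `E` with `w π = π`, `w R = R`,
`V 1 = w⁻¹ (V 0)`. -/
theorem branch_of_chartHyp (π : O) {V : Fin 2 → ValuationSubring E} {P : Fin 2 → Ideal R}
    (hC : LocPlan.ChartHyp π V P)
    (hinj : Function.Injective (algebraMap R E)) (w : E ≃+* E)
    (hw : ∀ r : R, ∃ r' : R, w (algebraMap R E r) = algebraMap R E r')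
    (hw' : ∀ r : R, ∃ r' : R, w.symm (algebraMap R E r) = algebraMap R E r')
    (hwπ : w (algebraMap R E (algebraMap O R π)) = algebraMap R E (algebraMap O R π))
    (hV : ∀ x : E, x ∈ V 1 ↔ w x ∈ V 0)
    (h0 : ∀ n : Ideal R, n.IsMaximal → algebraMap O R π ∈ n → P 0 ≤ n →
      (∃ x ∈ n, x ∉ P 0) ∧ ∃ u ∈ n, ∀ x ∈ n, ∃ s : R, s ∉ n ∧ ∃ c : R, s * x - c * u ∈ P 0) :
    ∀ n : Ideal R, n.IsMaximal → algebraMap O R π ∈ n → ∀ i : Fin 2, P i ≤ n →
      (∃ x ∈ n, x ∉ P i) ∧ ∃ u ∈ n, ∀ x ∈ n, ∃ s : R, s ∉ n ∧ ∃ c : R, s * x - c * u ∈ P i :=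
  branch_of_zero hinj w hw hw' hC.mem_P hwπ hV h0

/-- `P 1 = wR⁻¹ (P 0)` in the `ChartHyp` form. -/
theorem P_one_eq_comap_of_chartHyp (π : O) {V : Fin 2 → ValuationSubring E}
    {P : Fin 2 → Ideal R} (hC : LocPlan.ChartHyp π V P)
    (hinj : Function.Injective (algebraMap R E)) (w : E ≃+* E)
    (hw : ∀ r : R, ∃ r' : R, w (algebraMap R E r) = algebraMap R E r')
    (hw' : ∀ r : R, ∃ r' : R, w.symm (algebraMap R E r) = algebraMap R E r')
    (hwπ : w (algebraMap R E (algebraMap O R π)) = algebraMap R E (algebraMap O R π))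
    (hV : ∀ x : E, x ∈ V 1 ↔ w x ∈ V 0) :
    P 1 = (P 0).comap (wR hinj w hw hw' : R →+* R) :=
  P_one_eq_comap hinj w hw hw' hC.mem_P hwπ hV

end ChartHyp

end Fermat.Agent.S34.WTransport
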